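/-
M-AT-P programme (S44), soft part (helper2): the value group of a finite Galois `L ⊆ ℚ̄` at a
valuation subring `P` of `ℚ̄` over `p`.

* `s44s_ramIdx_dvd`  : for `L/ℚ` finite Galois and `Q` a prime of `𝓞 L`, `e(Q | ℚ) ∣ [L : ℚ]`.
* `s44s_valGroup`    : `ford_vQ P` takes values in `(1/e) ℤ` on `L^×`, with `0 < e ∣ [L : ℚ]`.
* `s44s_vQ_ne_sq`    : if `p² ∤ [L : ℚ]` then `1/p²` is not a value on `L`
  (first clause of `s44i_SubCrit`).
* `s44s_vQ_ne_mul`   : if `p² ∤ [L : ℚ]` and `p ∤ m` then `m/p ∉ p · v(L^×)`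
  (the non-divisibility clause of `s44i_SubCrit` for a witness of value `m/p`).
-/
import Mathlib
import Fermat.Agent.Lib.S33.DescRam
import Fermat.Agent.Lib.Frey.Ord

set_option autoImplicit false

namespace Fermat.Agent.Lib.S44

open NumberField IsDedekindDomain
open Fermat.Agent.Lib.CFT Fermat.Agent.Lib.Frey Fermat.Agent.Lib.S18 Fermat.Agent.Lib.S33

local notation "Kb" => AlgebraicClosure ℚ

section ram

variable {L : Type*} [Field L] [NumberField L] [IsGalois ℚ L]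

/-- For `L/ℚ` finite Galois, the ramification index of a prime of `𝓞 L` divides `[L : ℚ]`. -/
theorem s44s_ramIdx_dvd (Q : Ideal (𝓞 L)) [Q.IsPrime] :
    Q.ramificationIdx (𝓞 ℚ) ∣ Module.finrank ℚ L := by
  have hlo : Q.LiesOver (Q.under (𝓞 ℚ)) := ⟨rfl⟩
  have hpr : (Q.under (𝓞 ℚ)).IsPrime := inferInstance
  have h1 := Ideal.ncard_primesOver_mul_ramificationIdxIn_mul_inertiaDegIn (Q.under (𝓞 ℚ))
    (𝓞 L) (L ≃ₐ[ℚ] L)
  rw [Ideal.ramificationIdxIn_eq_ramificationIdx (Q.under (𝓞 ℚ)) Q (L ≃ₐ[ℚ] L),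
    IsGalois.card_aut_eq_finrank] at h1
  rw [← h1]
  exact Dvd.dvd.mul_left (Dvd.intro _ rfl) _

end ram

section valgroup

/-- A non-zero element of a valuation subring whose inverse also lies in it has valuation one. -/
theorem s44s_val_eq_one {F : Type*} [Field F] (A : ValuationSubring F) {u : F} (h0 : u ≠ 0)
    (hu : u ∈ A) (hu' : u⁻¹ ∈ A) : A.valuation u = 1 := by
  have h1 : A.valuation u ≤ 1 := (A.valuation_le_one_iff u).mpr hu
  have h2 : A.valuation u⁻¹ ≤ 1 := (A.valuation_le_one_iff _).mpr hu'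
  rw [map_inv₀] at h2
  have hpos : 0 < A.valuation u := zero_lt_iff.mpr ((Valuation.ne_zero_iff _).mpr h0)
  exact le_antisymm h1 ((inv_le_one₀ hpos).mp h2)

/-- **The value group of a finite Galois `L ⊆ ℚ̄` at `P`** is contained in `(1/e) ℤ` with
`0 < e ∣ [L : ℚ]`. -/
theorem s44s_valGroup (p : ℕ) (hp : p.Prime) (P : ValuationSubring Kb) (hP : P.LiesOverPrime p)
    (L : IntermediateField ℚ Kb) [FiniteDimensional ℚ ↥L] [IsGalois ℚ ↥L] :
    ∃ e : ℕ, 0 < e ∧ e ∣ Module.finrank ℚ ↥L ∧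
      ∀ a ∈ L, a ≠ 0 → ∃ k : ℤ,
        ford_vQ P hp hP a = ((((k : ℚ) / (e : ℚ) : ℚ)) : WithTop ℚ) := by
  have hnf : NumberField ↥L := ⟨⟩
  have hPp : (p : Kb) ∈ P.nonunits := hP
  set A₀ : ValuationSubring ↥L := s18q_A0 P L with hA₀
  have hA₀mem : ∀ x : ↥L, x ∈ A₀ ↔ (x : Kb) ∈ P := fun x => Iff.rfl
  have hA₀non : ∀ x : ↥L, x ∈ A₀.nonunits ↔ (x : Kb) ∈ P.nonunits := fun x =>
    Fermat.Agent.Lib.S36.s36v_mem_nonunits_comap (algebraMap ↥L Kb) P x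
  have hA₀p : ((p : ℕ) : ↥L) ∈ A₀.nonunits := by
    rw [hA₀non]
    exact hPp
  have hprime : (cfg_center A₀).IsPrime := cfg_center_isPrime
  obtain ⟨v, -, hvA₀, hvp⟩ := s33d_exists_adic A₀ hp hA₀p
  set w := v.valuation ↥L with hw
  set e : ℕ := (cfg_center A₀).ramificationIdx (𝓞 ℚ) with he
  have hw_le : ∀ x : ↥L, x ∈ A₀ ↔ w x ≤ 1 := by
    intro x
    rw [← hvA₀]
    exact Valuation.mem_valuationSubring_iff _ _
  have he_pos : 0 < e := Ideal.ramificationIdx_pos _ _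
  refine ⟨e, he_pos, s44s_ramIdx_dvd (cfg_center A₀), ?_⟩
  intro a haL ha0
  set a' : ↥L := ⟨a, haL⟩ with ha'
  have ha'0 : a' ≠ 0 := by
    intro h
    apply ha0
    have h2 : ((a' : ↥L) : Kb) = ((0 : ↥L) : Kb) := by rw [h]
    exact h2
  have hwa0 : w a' ≠ 0 := (map_ne_zero w).mpr ha'0
  set k : ℤ := -(WithZero.log (w a')) with hk
  have hwa : w a' = WithZero.exp (-k) := by
    rw [hk, neg_neg, WithZero.exp_log hwa0]
  refine ⟨k, ?_⟩
  have hpL0 : ((p : ℕ) : ↥L) ≠ 0 := by exact_mod_cast hp.ne_zero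
  -- the unit `a ^ e / p ^ k`
  set u : ↥L := a' ^ e * (((p : ℕ) : ↥L) ^ k)⁻¹ with hu
  have hu0 : u ≠ 0 := mul_ne_zero (pow_ne_zero _ ha'0) (inv_ne_zero (zpow_ne_zero _ hpL0))
  have hwu : w u = 1 := by
    rw [hu, map_mul, map_pow, map_inv₀, map_zpow₀, hwa, hvp, ← WithZero.exp_nsmul,
      ← WithZero.exp_zsmul, ← WithZero.exp_neg, ← WithZero.exp_add, ← WithZero.exp_zero]
    congr 1
    simp only [nsmul_eq_mul, smul_eq_mul]
    ring
  have hwu' : w u⁻¹ = 1 := by rw [map_inv₀, hwu, inv_one]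
  have huA : u ∈ A₀ := (hw_le u).mpr hwu.le
  have huA' : u⁻¹ ∈ A₀ := (hw_le _).mpr hwu'.le
  have huP : ((u : ↥L) : Kb) ∈ P := (hA₀mem u).mp huA
  have huP' : ((u : ↥L) : Kb)⁻¹ ∈ P := by
    have := (hA₀mem _).mp huA'
    simpa using this
  have huKb0 : ((u : ↥L) : Kb) ≠ 0 := by
    intro h
    apply hu0
    exact_mod_cast h
  have hval : P.valuation ((u : ↥L) : Kb) = 1 := s44s_val_eq_one P huKb0 huP huP'
  have hucoe : ((u : ↥L) : Kb) = a ^ e * (((p : ℕ) : Kb) ^ k)⁻¹ := by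
    rw [hu]
    push_cast
    rfl
  have hpKb0 : ((p : ℕ) : Kb) ≠ 0 := by exact_mod_cast hp.ne_zero
  have hg : P.valuation ((p : ℕ) : Kb) ≠ 0 := (Valuation.ne_zero_iff _).mpr hpKb0
  have hpow : P.valuation a ^ e = P.valuation ((p : ℕ) : Kb) ^ k := by
    rw [hucoe, map_mul, map_pow, map_inv₀, map_zpow₀] at hval
    have hne : P.valuation ((p : ℕ) : Kb) ^ k ≠ 0 := zpow_ne_zero _ hg
    calc P.valuation a ^ e
        = P.valuation a ^ e * (P.valuation ((p : ℕ) : Kb) ^ k)⁻¹ * P.valuation ((p : ℕ) : Kb) ^ k := by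
          rw [mul_assoc, inv_mul_cancel₀ hne, mul_one]
      _ = P.valuation ((p : ℕ) : Kb) ^ k := by rw [hval, one_mul]
  rw [ford_vQ, ford_v_eq_of_valuation_pow _ _ _ he_pos hpow]

/-- `s44s_valGroup` with `FiniteDimensional`, `Normal` as explicit hypotheses (the wording of
`s44i_WSide`). -/
theorem s44s_valGroup' (p : ℕ) (hp : p.Prime) (P : ValuationSubring Kb) (hP : P.LiesOverPrime p)
    (L : IntermediateField ℚ Kb) (hfin : FiniteDimensional ℚ ↥L) (hnorm : Normal ℚ ↥L) :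
    ∃ e : ℕ, 0 < e ∧ e ∣ Module.finrank ℚ ↥L ∧
      ∀ a ∈ L, a ≠ 0 → ∃ k : ℤ,
        ford_vQ P hp hP a = ((((k : ℚ) / (e : ℚ) : ℚ)) : WithTop ℚ) := by
  have hgal : IsGalois ℚ ↥L := ⟨⟩
  exact s44s_valGroup p hp P hP L

/-- the valuation of `0` is not a rational number. -/
theorem s44s_vQ_zero_ne (p : ℕ) (hp : p.Prime) (P : ValuationSubring Kb) (hP : P.LiesOverPrime p)
    (s : ℚ) : ford_vQ P hp hP (0 : Kb) ≠ (s : WithTop ℚ) := by
  rw [AddValuation.map_zero]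
  exact WithTop.top_ne_coe

/-- **First clause of `s44i_SubCrit`**: if `p² ∤ [L : ℚ]` then `1/p²` is not a value on `L`. -/
theorem s44s_vQ_ne_sq (p : ℕ) (hp : p.Prime) (P : ValuationSubring Kb) (hP : P.LiesOverPrime p)
    (L : IntermediateField ℚ Kb) (hfin : FiniteDimensional ℚ ↥L) (hnorm : Normal ℚ ↥L)
    (hn : ¬ p ^ 2 ∣ Module.finrank ℚ ↥L) :
    ∀ a ∈ L, ford_vQ P hp hP a ≠ (((1 : ℚ) / (p : ℚ) ^ 2 : ℚ) : WithTop ℚ) := by
  obtain ⟨e, he, hen, hval⟩ := s44s_valGroup' p hp P hP L hfin hnorm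
  intro a haL h
  by_cases ha0 : a = 0
  · subst ha0
    exact s44s_vQ_zero_ne p hp P hP _ h
  obtain ⟨k, hk⟩ := hval a haL ha0
  rw [hk, WithTop.coe_eq_coe] at h
  have hpq : (p : ℚ) ≠ 0 := by exact_mod_cast hp.ne_zero
  have heq : (e : ℚ) ≠ 0 := by exact_mod_cast he.ne'
  rw [div_eq_div_iff heq (pow_ne_zero 2 hpq), one_mul] at h
  have h2 : k * ((p : ℤ) ^ 2) = (e : ℤ) := by exact_mod_cast h
  have h3 : ((p ^ 2 : ℕ) : ℤ) ∣ (e : ℤ) := by
    rw [← h2]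
    push_cast
    exact Dvd.intro_left _ rfl
  exact hn ((Int.natCast_dvd_natCast.mp h3).trans hen)

/-- **Non-divisibility clause of `s44i_SubCrit`** for a witness of value `m/p`, `p ∤ m`: if
`p² ∤ [L : ℚ]` then `m/p ∉ p · v(L^×)`. -/
theorem s44s_vQ_ne_mul (p : ℕ) (hp : p.Prime) (P : ValuationSubring Kb) (hP : P.LiesOverPrime p)
    (L : IntermediateField ℚ Kb) (hfin : FiniteDimensional ℚ ↥L) (hnorm : Normal ℚ ↥L)
    (hn : ¬ p ^ 2 ∣ Module.finrank ℚ ↥L) (m : ℤ) (hm : ¬ (p : ℤ) ∣ m) :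
    ∀ a ∈ L, ∀ s : ℚ, ford_vQ P hp hP a = (s : WithTop ℚ) →
      (m : ℚ) / (p : ℚ) ≠ (p : ℚ) * s := by
  obtain ⟨e, he, hen, hval⟩ := s44s_valGroup' p hp P hP L hfin hnorm
  intro a haL s hs h
  by_cases ha0 : a = 0
  · subst ha0
    exact s44s_vQ_zero_ne p hp P hP _ hs
  obtain ⟨k, hk⟩ := hval a haL ha0
  rw [hk, WithTop.coe_eq_coe] at hs
  have hpq : (p : ℚ) ≠ 0 := by exact_mod_cast hp.ne_zero
  have heq : (e : ℚ) ≠ 0 := by exact_mod_cast he.ne'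
  rw [← hs, ← mul_div_assoc, div_eq_div_iff hpq heq] at h
  have h2 : m * (e : ℤ) = (p : ℤ) ^ 2 * k := by
    have : (m : ℚ) * (e : ℚ) = (p : ℚ) ^ 2 * (k : ℚ) := by rw [h]; ring
    exact_mod_cast this
  have hpp : Prime (p : ℤ) := Nat.prime_iff_prime_int.mp hp
  have hcop : IsCoprime ((p : ℤ) ^ 2) m :=
    ((hpp.coprime_iff_not_dvd.mpr hm)).pow_left
  have h3 : (p : ℤ) ^ 2 ∣ (e : ℤ) := by
    apply hcop.dvd_of_dvd_mul_left
    rw [h2]
    exact Dvd.intro _ rfl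
  have h4 : ((p ^ 2 : ℕ) : ℤ) ∣ (e : ℤ) := by
    push_cast
    exact h3
  exact hn ((Int.natCast_dvd_natCast.mp h4).trans hen)

/-- the special case `m = 1` (a witness of value `1/p`), in the wording of `s44i_SubCrit`. -/
theorem s44s_vQ_ne_mul_one (p : ℕ) (hp : p.Prime) (P : ValuationSubring Kb)
    (hP : P.LiesOverPrime p) (L : IntermediateField ℚ Kb) (hfin : FiniteDimensional ℚ ↥L)
    (hnorm : Normal ℚ ↥L) (hn : ¬ p ^ 2 ∣ Module.finrank ℚ ↥L) :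
    ∀ a ∈ L, ∀ s : ℚ, ford_vQ P hp hP a = (s : WithTop ℚ) →
      (1 : ℚ) / (p : ℚ) ≠ (p : ℚ) * s := by
  have hm : ¬ (p : ℤ) ∣ (1 : ℤ) := by
    intro h
    have := Int.eq_one_of_dvd_one (by positivity) h
    have h2 := hp.one_lt
    omega
  have := s44s_vQ_ne_mul p hp P hP L hfin hnorm hn 1 hm
  simpa using this

end valgroup

end Fermat.Agent.Lib.S44
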