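/-
M-AT-P programme (S44), brick [Q-DEC] (helper2, for helper9's W1 [RAT]), part 1: FINITE LEVEL
(number fields, Mathlib only).

`K ⊆ Z ⊆ 𝕃` number fields, `𝕃/ℚ` Galois, `𝔔` a prime of `𝓞 𝕃`.

* `s44s_ramIdx_under_eq` : if every element of the inertia group `I(𝔔 | ℚ)` fixing `K` pointwise fixes
  `Z` pointwise (`Z` inside the inertia field of `𝔔` over `K`), then `e(𝔔 ∩ Z | ℚ) = e(𝔔 ∩ K | ℚ)`.
* `s44s_exists_sub_mem` : if `Gal(𝕃/T)` is contained in the inertia group of `𝔔`, the residue field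
  of `𝔔 ∩ T` is the full residue field of `𝔔`: every `b ∈ 𝓞 𝕃` is congruent mod `𝔔` to an element
  of `𝓞 T`.
-/
import Mathlib

set_option autoImplicit false

namespace Fermat.Agent.Lib.S44

open NumberField

section ram

variable {K Z 𝕃 : Type*} [Field K] [NumberField K] [Field Z] [NumberField Z] [Field 𝕃]
  [NumberField 𝕃] [Algebra K Z] [Algebra Z 𝕃] [Algebra K 𝕃] [IsScalarTower K Z 𝕃] [IsGalois ℚ 𝕃]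

/-- `#I(𝔔 | K) = e(𝔔 | K)` for `𝕃/ℚ` Galois. -/
theorem s44s_card_inertia {K 𝕃 : Type*} [Field K] [NumberField K] [Field 𝕃] [NumberField 𝕃]
    [Algebra K 𝕃] [IsGalois ℚ 𝕃] (Q : Ideal (𝓞 𝕃)) [Q.IsPrime] :
    Nat.card (Q.inertia (𝕃 ≃ₐ[K] 𝕃)) = Q.ramificationIdx (𝓞 K) := by
  have hgal : IsGalois K 𝕃 := IsGalois.tower_top_of_isGalois ℚ K 𝕃
  have hlo : Q.LiesOver (Q.under (𝓞 K)) := ⟨rfl⟩
  have hpr : (Q.under (𝓞 K)).IsPrime := inferInstance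
  rw [Ideal.card_inertia_eq_ramificationIdxIn (G := 𝕃 ≃ₐ[K] 𝕃) (Q.under (𝓞 K)) Q,
    Ideal.ramificationIdxIn_eq_ramificationIdx (Q.under (𝓞 K)) Q (𝕃 ≃ₐ[K] 𝕃)]

/-- **`e(Z/K) = 1` inside the inertia field.** -/
theorem s44s_ramIdx_under_eq (Q : Ideal (𝓞 𝕃)) [Q.IsPrime]
    (hZ : ∀ σ : 𝕃 ≃ₐ[ℚ] 𝕃, (∀ y : 𝓞 𝕃, σ • y - y ∈ Q) →
      (∀ x : K, σ (algebraMap K 𝕃 x) = algebraMap K 𝕃 x) →
      ∀ z : Z, σ (algebraMap Z 𝕃 z) = algebraMap Z 𝕃 z) :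
    (Q.under (𝓞 Z)).ramificationIdx (𝓞 ℚ) = (Q.under (𝓞 K)).ramificationIdx (𝓞 ℚ) := by
  have eK := s44s_card_inertia (K := K) Q
  have eZ := s44s_card_inertia (K := Z) Q
  -- the two inertia groups have the same order
  have hcard : Nat.card (Q.inertia (𝕃 ≃ₐ[Z] 𝕃)) = Nat.card (Q.inertia (𝕃 ≃ₐ[K] 𝕃)) := by
    refine Nat.card_congr (Equiv.ofBijective
      (fun g : Q.inertia (𝕃 ≃ₐ[Z] 𝕃) =>
        (⟨(g : 𝕃 ≃ₐ[Z] 𝕃).restrictScalars K, fun y => AddSubgroup.mem_inertia.mp g.2 y⟩ :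
          Q.inertia (𝕃 ≃ₐ[K] 𝕃))) ⟨?_, ?_⟩)
    · intro g g' h
      apply Subtype.ext
      ext x
      have h1 := congrArg (fun t : Q.inertia (𝕃 ≃ₐ[K] 𝕃) => (t : 𝕃 ≃ₐ[K] 𝕃) x) h
      exact h1
    · intro h
      have hfix : ∀ z : Z, ((h : 𝕃 ≃ₐ[K] 𝕃).restrictScalars ℚ) (algebraMap Z 𝕃 z) =
          algebraMap Z 𝕃 z :=
        hZ ((h : 𝕃 ≃ₐ[K] 𝕃).restrictScalars ℚ) (fun y => AddSubgroup.mem_inertia.mp h.2 y)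
          (fun x => (h : 𝕃 ≃ₐ[K] 𝕃).commutes x)
      refine ⟨⟨{ ((h : 𝕃 ≃ₐ[K] 𝕃) : 𝕃 ≃+* 𝕃) with commutes' := hfix }, ?_⟩, ?_⟩
      · rw [AddSubgroup.mem_inertia]
        intro y
        exact AddSubgroup.mem_inertia.mp h.2 y
      · apply Subtype.ext
        ext x
        rfl
  have tK := Ideal.ramificationIdx_tower (R := 𝓞 ℚ) (S := 𝓞 K) (T := 𝓞 𝕃) (Q.under (𝓞 K)) Q
  have tZ := Ideal.ramificationIdx_tower (R := 𝓞 ℚ) (S := 𝓞 Z) (T := 𝓞 𝕃) (Q.under (𝓞 Z)) Q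
  have hpos : 0 < Q.ramificationIdx (𝓞 K) := Ideal.ramificationIdx_pos Q (𝓞 K)
  rw [← eK] at tK hpos
  rw [← eZ, hcard] at tZ
  rw [tK] at tZ
  exact (Nat.eq_of_mul_eq_mul_right hpos tZ).symm

end ram

section res

/-- `f(𝔔 | T) = 1` when `Gal(𝕃/T)` is contained in the inertia group of `𝔔`. -/
theorem s44s_inertiaDeg_eq_one {T 𝕃 : Type*} [Field T] [NumberField T] [Field 𝕃] [NumberField 𝕃]
    [Algebra T 𝕃] [IsGalois ℚ 𝕃] (Q : Ideal (𝓞 𝕃)) [Q.IsMaximal]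
    (hT : ∀ σ : 𝕃 ≃ₐ[T] 𝕃, ∀ y : 𝓞 𝕃, σ • y - y ∈ Q) :
    Q.inertiaDeg (𝓞 T) = 1 := by
  have hgal : IsGalois T 𝕃 := IsGalois.tower_top_of_isGalois ℚ T 𝕃
  have hlo : Q.LiesOver (Q.under (𝓞 T)) := ⟨rfl⟩
  have hpr : (Q.under (𝓞 T)).IsPrime := inferInstance
  have h := Ideal.ncard_primesOver_mul_card_inertia_mul_finrank (G := 𝕃 ≃ₐ[T] 𝕃)
    (Q.under (𝓞 T)) Q
  have htop : Q.inertia (𝕃 ≃ₐ[T] 𝕃) = ⊤ := by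
    ext σ
    simp only [Subgroup.mem_top, iff_true]
    rw [AddSubgroup.mem_inertia]
    exact hT σ
  rw [htop] at h
  have hc : Nat.card (⊤ : Subgroup (𝕃 ≃ₐ[T] 𝕃)) = Nat.card (𝕃 ≃ₐ[T] 𝕃) := Subgroup.card_top
  rw [hc] at h
  have hpos : 0 < Nat.card (𝕃 ≃ₐ[T] 𝕃) := Nat.card_pos
  have h2 : ((Q.under (𝓞 T)).primesOver (𝓞 𝕃)).ncard * Q.inertiaDeg (𝓞 T) = 1 := by
    have : Nat.card (𝕃 ≃ₐ[T] 𝕃) * (((Q.under (𝓞 T)).primesOver (𝓞 𝕃)).ncard * Q.inertiaDeg (𝓞 T))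
        = Nat.card (𝕃 ≃ₐ[T] 𝕃) * 1 := by
      rw [mul_one]
      calc _ = ((Q.under (𝓞 T)).primesOver (𝓞 𝕃)).ncard * Nat.card (𝕃 ≃ₐ[T] 𝕃)
            * Q.inertiaDeg (𝓞 T) := by ring
        _ = _ := h
    exact Nat.eq_of_mul_eq_mul_left hpos this
  exact Nat.eq_one_of_mul_eq_one_left h2

/-- **Residue field of the inertia field.** -/
theorem s44s_exists_sub_mem {T 𝕃 : Type*} [Field T] [NumberField T] [Field 𝕃] [NumberField 𝕃]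
    [Algebra T 𝕃] [IsGalois ℚ 𝕃] (Q : Ideal (𝓞 𝕃)) [Q.IsMaximal]
    (hT : ∀ σ : 𝕃 ≃ₐ[T] 𝕃, ∀ y : 𝓞 𝕃, σ • y - y ∈ Q) (b : 𝓞 𝕃) :
    ∃ u : 𝓞 T, b - algebraMap (𝓞 T) (𝓞 𝕃) u ∈ Q := by
  have hf := s44s_inertiaDeg_eq_one Q hT
  have hlo : Q.LiesOver (Q.under (𝓞 T)) := ⟨rfl⟩
  have hmax : (Q.under (𝓞 T)).IsMaximal := Ideal.IsMaximal.under (𝓞 T) Q
  rw [Ideal.inertiaDeg_eq_of_isMaximal (Q.under (𝓞 T)) Q] at hf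
  let hfield : Field (𝓞 T ⧸ Q.under (𝓞 T)) := Ideal.Quotient.field _
  let hfield2 : Field (𝓞 𝕃 ⧸ Q) := Ideal.Quotient.field _
  have h1 : (1 : 𝓞 𝕃 ⧸ Q) ≠ 0 := one_ne_zero
  obtain ⟨c, hc⟩ := (finrank_eq_one_iff_of_nonzero' (K := 𝓞 T ⧸ Q.under (𝓞 T)) (1 : 𝓞 𝕃 ⧸ Q) h1).mp hf
    (Ideal.Quotient.mk Q b)
  obtain ⟨u, rfl⟩ := Ideal.Quotient.mk_surjective c
  refine ⟨u, ?_⟩
  rw [← Ideal.Quotient.eq]
  rw [← hc, Algebra.smul_def, mul_one]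
  rfl

end res

end Fermat.Agent.Lib.S44
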