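/-
M-AT-P programme (S44), brick [Q-DEC] (helper2, for helper9's W1 [RAT] and helper7's W3), part 2:
the inertia field `Z` of `L₀/L` at `P`.

`P` a valuation subring of `ℚ̄` over `p`, `L ≤ L₀` finite normal subfields of `ℚ̄`.

* `s44s_IΓ P L   := P.inertiaSubgroupIn ℚ ⊓ L.fixingSubgroup`  (`I_Γ`, a subgroup of `Gal(ℚ̄/ℚ)`);
* `s44s_Z P L L₀ := fixedField (I_Γ) ⊓ L₀`.

Outputs:
* (Z0) `s44s_le_Z`, `s44s_Z_le`, `s44s_Z_finiteDimensional`;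
* (Z1) `s44s_exists_lift_Z` : `γ ∈ Gal(L₀/ℚ)` fixing `Z` pointwise is the restriction of some `σ ∈ I_Γ`;
       `s44s_fix_Z_inertia` : hence `γ` preserves `s18q_A0 P L₀` and acts trivially on its residue field;
* (Z2) `s44s_mem_Z_of_fixed` : an element of `L₀` fixed by all such `γ` lies in `Z`;
* (D1) `s44s_irreducible_Z` : an irreducible element of `s18q_A0 P L` stays irreducible in `s18q_A0 P Z`;
* (D2) `s44s_exists_inertia_fixed` : every element of `s18q_A0 P Z` is congruent modulo the maximal ideal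
       to an element of `Z ∩ P` fixed by the whole inertia group of `P`;
* (D3) `s44s_inertia_map_Z` : the inertia group of `P` maps `Z` to itself.
-/
import Mathlib
import Fermat.Agent.Lib.S33.DescRam
import Fermat.Agent.Lib.S44.SoftDecFin

set_option autoImplicit false

namespace Fermat.Agent.Lib.S44

open NumberField IsDedekindDomain
open Fermat.Agent.Lib.CFT Fermat.Agent.Lib.Frey Fermat.Agent.Lib.S18 Fermat.Agent.Lib.S33
  Fermat.Agent.Lib.S36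

local notation "Kb" => AlgebraicClosure ℚ

section defs

/-- `I_Γ`: the elements of the inertia group of `P` fixing `L` pointwise. -/
noncomputable def s44s_IΓ (P : ValuationSubring Kb) (L : IntermediateField ℚ Kb) : Subgroup (Kb ≃ₐ[ℚ] Kb) :=
  P.inertiaSubgroupIn ℚ ⊓ L.fixingSubgroup

theorem s44s_mem_IΓ {P : ValuationSubring Kb} {L : IntermediateField ℚ Kb} {σ : Kb ≃ₐ[ℚ] Kb} :
    σ ∈ s44s_IΓ P L ↔ σ ∈ P.inertiaSubgroupIn ℚ ∧ ∀ a ∈ L, σ a = a := by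
  rw [s44s_IΓ, Subgroup.mem_inf, IntermediateField.mem_fixingSubgroup_iff]

/-- The inertia field of `L₀/L` at `P`. -/
noncomputable def s44s_Z (P : ValuationSubring Kb) (L L₀ : IntermediateField ℚ Kb) : IntermediateField ℚ Kb :=
  IntermediateField.fixedField (s44s_IΓ P L) ⊓ L₀

theorem s44s_mem_Z {P : ValuationSubring Kb} {L L₀ : IntermediateField ℚ Kb} {a : Kb} :
    a ∈ s44s_Z P L L₀ ↔ (∀ σ ∈ s44s_IΓ P L, σ a = a) ∧ a ∈ L₀ := by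
  rw [s44s_Z, IntermediateField.mem_inf, IntermediateField.mem_fixedField_iff]

/-- (Z0) -/
theorem s44s_le_Z {P : ValuationSubring Kb} {L L₀ : IntermediateField ℚ Kb} (hLL : L ≤ L₀) :
    L ≤ s44s_Z P L L₀ := by
  intro a ha
  rw [s44s_mem_Z]
  exact ⟨fun σ hσ => (s44s_mem_IΓ.mp hσ).2 a ha, hLL ha⟩

/-- (Z0) -/
theorem s44s_Z_le (P : ValuationSubring Kb) (L L₀ : IntermediateField ℚ Kb) :
    s44s_Z P L L₀ ≤ L₀ := inf_le_right

/-- (Z0) -/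
theorem s44s_Z_finiteDimensional (P : ValuationSubring Kb) (L L₀ : IntermediateField ℚ Kb)
    [FiniteDimensional ℚ ↥L₀] : FiniteDimensional ℚ ↥(s44s_Z P L L₀) :=
  FiniteDimensional.of_injective (IntermediateField.inclusion (s44s_Z_le P L L₀)).toLinearMap
    (IntermediateField.inclusion (s44s_Z_le P L L₀)).injective

end defs

section galois

/-- **Finite Galois correspondence against a subgroup of `Gal(ℚ̄/ℚ)`.** If `γ ∈ Gal(L₀/ℚ)` fixes every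
element of `L₀` fixed by `G`, then `γ` is the restriction of an element of `G`. -/
theorem s44s_exists_lift_of_fix (G : Subgroup (Kb ≃ₐ[ℚ] Kb)) (L₀ : IntermediateField ℚ Kb)
    [FiniteDimensional ℚ ↥L₀] [Normal ℚ ↥L₀] (γ : ↥L₀ ≃ₐ[ℚ] ↥L₀)
    (hγ : ∀ y : ↥L₀, (∀ σ ∈ G, σ (y : Kb) = (y : Kb)) → γ y = y) :
    ∃ σ ∈ G, ∀ y : ↥L₀, σ (y : Kb) = ((γ y : ↥L₀) : Kb) := by
  set H : Subgroup (↥L₀ ≃ₐ[ℚ] ↥L₀) := G.map (AlgEquiv.restrictNormalHom ↥L₀) with hH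
  have h1 : γ ∈ (IntermediateField.fixedField H).fixingSubgroup := by
    rw [IntermediateField.mem_fixingSubgroup_iff]
    intro y hy
    apply hγ
    intro σ hσ
    have h2 := (IntermediateField.mem_fixedField_iff H y).mp hy
      (AlgEquiv.restrictNormalHom ↥L₀ σ) (Subgroup.mem_map_of_mem _ hσ)
    have h3 := AlgEquiv.restrictNormal_commutes σ ↥L₀ y
    exact h3.symm.trans (congrArg (algebraMap ↥L₀ Kb) h2)
  rw [IntermediateField.fixingSubgroup_fixedField] at h1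
  obtain ⟨σ, hσ, rfl⟩ := h1
  exact ⟨σ, hσ, fun y => (AlgEquiv.restrictNormal_commutes σ ↥L₀ y).symm⟩

/-- (Z1), strong form. -/
theorem s44s_exists_lift_Z (P : ValuationSubring Kb) (L L₀ : IntermediateField ℚ Kb)
    [FiniteDimensional ℚ ↥L₀] [Normal ℚ ↥L₀] (γ : ↥L₀ ≃ₐ[ℚ] ↥L₀)
    (hγ : ∀ y : ↥L₀, (y : Kb) ∈ s44s_Z P L L₀ → γ y = y) :
    ∃ σ ∈ s44s_IΓ P L, ∀ y : ↥L₀, σ (y : Kb) = ((γ y : ↥L₀) : Kb) := by
  refine s44s_exists_lift_of_fix (s44s_IΓ P L) L₀ γ ?_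
  intro y hy
  exact hγ y (s44s_mem_Z.mpr ⟨hy, y.2⟩)

/-- (Z1), weak form: an element of `Gal(L₀/ℚ)` fixing `Z` pointwise preserves `s18q_A0 P L₀` and acts
trivially on its residue field. -/
theorem s44s_fix_Z_inertia (P : ValuationSubring Kb) (L L₀ : IntermediateField ℚ Kb)
    [FiniteDimensional ℚ ↥L₀] [Normal ℚ ↥L₀] (γ : ↥L₀ ≃ₐ[ℚ] ↥L₀)
    (hγ : ∀ y : ↥L₀, (y : Kb) ∈ s44s_Z P L L₀ → γ y = y) :
    (∀ x : ↥L, ∀ hx : (x : Kb) ∈ L₀, γ ⟨x, hx⟩ = ⟨x, hx⟩) ∧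
    ∀ a ∈ s18q_A0 P L₀, γ a ∈ s18q_A0 P L₀ ∧ γ a - a ∈ (s18q_A0 P L₀).nonunits := by
  obtain ⟨σ, hσ, hσγ⟩ := s44s_exists_lift_Z P L L₀ γ hγ
  obtain ⟨hσI, hσL⟩ := s44s_mem_IΓ.mp hσ
  obtain ⟨hD, hI⟩ := ford_inertia_spec P σ hσI
  refine ⟨?_, ?_⟩
  · intro x hx
    apply Subtype.ext
    have := hσγ ⟨x, hx⟩
    rw [← this]
    exact hσL _ x.2
  · intro a ha
    have haP : (a : Kb) ∈ P := ha
    refine ⟨?_, ?_⟩
    · change ((γ a : ↥L₀) : Kb) ∈ P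
      rw [← hσγ a]
      exact ford_decomposition_mem P σ hD _ haP
    · refine (s36v_mem_nonunits_comap (algebraMap ↥L₀ Kb) P (γ a - a)).mpr ?_
      have := hI _ haP
      rw [hσγ a] at this
      exact this

/-- (Z2): an element of `L₀` fixed by every `γ ∈ Gal(L₀/ℚ)` fixing `Z` pointwise lies in `Z`. -/
theorem s44s_mem_Z_of_fixed (P : ValuationSubring Kb) (L L₀ : IntermediateField ℚ Kb)
    [FiniteDimensional ℚ ↥L₀] [Normal ℚ ↥L₀] (y : ↥L₀)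
    (hy : ∀ γ : ↥L₀ ≃ₐ[ℚ] ↥L₀, (∀ z : ↥L₀, (z : Kb) ∈ s44s_Z P L L₀ → γ z = z) → γ y = y) :
    (y : Kb) ∈ s44s_Z P L L₀ := by
  rw [s44s_mem_Z]
  refine ⟨?_, y.2⟩
  intro σ hσ
  have h1 := hy (AlgEquiv.restrictNormalHom ↥L₀ σ) ?_
  · have h3 := AlgEquiv.restrictNormal_commutes σ ↥L₀ y
    exact h3.symm.trans (congrArg (algebraMap ↥L₀ Kb) h1)
  · intro z hz
    apply Subtype.ext
    have h3 := AlgEquiv.restrictNormal_commutes σ ↥L₀ z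
    have h4 : σ (z : Kb) = (z : Kb) := (s44s_mem_Z.mp hz).1 σ hσ
    exact h3.trans h4

end galois

section conj

/-- (D3): the inertia group of `P` maps `Z` into itself. -/
theorem s44s_inertia_map_Z (P : ValuationSubring Kb) (L L₀ : IntermediateField ℚ Kb)
    [Normal ℚ ↥L] [Normal ℚ ↥L₀] (τ : Kb ≃ₐ[ℚ] Kb) (hτ : τ ∈ P.inertiaSubgroupIn ℚ)
    (z : Kb) (hz : z ∈ s44s_Z P L L₀) : τ z ∈ s44s_Z P L L₀ := by
  obtain ⟨hzfix, hzL₀⟩ := s44s_mem_Z.mp hz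
  have hnorm : ∀ (M : IntermediateField ℚ Kb) [Normal ℚ ↥M] (ρ : Kb ≃ₐ[ℚ] Kb) (x : Kb), x ∈ M →
      ρ x ∈ M := by
    intro M _ ρ x hx
    have h3 : ((ρ.restrictNormal ↥M ⟨x, hx⟩ : ↥M) : Kb) = ρ x :=
      AlgEquiv.restrictNormal_commutes ρ ↥M ⟨x, hx⟩
    rw [← h3]
    exact (ρ.restrictNormal ↥M ⟨x, hx⟩).2
  rw [s44s_mem_Z]
  refine ⟨?_, hnorm L₀ τ z hzL₀⟩
  intro σ hσ
  obtain ⟨hσI, hσL⟩ := s44s_mem_IΓ.mp hσ
  have hconj : τ⁻¹ * σ * τ ∈ s44s_IΓ P L := by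
    rw [s44s_mem_IΓ]
    refine ⟨mul_mem (mul_mem (inv_mem hτ) hσI) hτ, ?_⟩
    intro a ha
    change τ⁻¹ (σ (τ a)) = a
    rw [hσL _ (hnorm L τ a ha)]
    exact τ.symm_apply_apply a
  have h1 := hzfix _ hconj
  have h2 : τ⁻¹ (σ (τ z)) = z := h1
  have h3 := congrArg τ h2
  rw [show τ (τ⁻¹ (σ (τ z))) = σ (τ z) from τ.apply_symm_apply _] at h3
  exact h3

end conj

section irr

open WithZero

variable {F : Type*} [Field F] (w : Valuation F ℤᵐ⁰) (B : ValuationSubring F)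

theorem s44s_isUnit_iff_val (hB : ∀ x : F, x ∈ B ↔ w x ≤ 1) (x : ↥B) :
    IsUnit x ↔ w (x : F) = 1 := by
  constructor
  · rintro ⟨u, rfl⟩
    have h1 : w ((u : ↥B) : F) ≤ 1 := (hB _).mp (u : ↥B).2
    have h2 : w (((u⁻¹ : (↥B)ˣ) : ↥B) : F) ≤ 1 := (hB _).mp ((u⁻¹ : (↥B)ˣ) : ↥B).2
    have h3 : ((u : ↥B) : F) * (((u⁻¹ : (↥B)ˣ) : ↥B) : F) = 1 := by
      have h := congrArg B.subtype (Units.mul_inv u)
      rwa [map_mul, map_one] at h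
    have h4 : w ((u : ↥B) : F) * w (((u⁻¹ : (↥B)ˣ) : ↥B) : F) = 1 := by
      rw [← map_mul, h3, map_one]
    by_contra hne
    have h5 : w ((u : ↥B) : F) < 1 := lt_of_le_of_ne h1 hne
    have h6 : w ((u : ↥B) : F) * w (((u⁻¹ : (↥B)ˣ) : ↥B) : F) < 1 :=
      mul_lt_one_of_nonneg_of_lt_one_left zero_le h5 h2
    rw [h4] at h6
    exact lt_irrefl _ h6
  · intro h
    have hx0 : (x : F) ≠ 0 := by
      intro h0
      rw [h0, map_zero] at h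
      exact zero_ne_one h
    have hinv : (x : F)⁻¹ ∈ B := by
      rw [hB, map_inv₀, h, inv_one]
    refine ⟨⟨x, ⟨(x : F)⁻¹, hinv⟩, ?_, ?_⟩, rfl⟩
    · apply Subtype.ext
      change (x : F) * (x : F)⁻¹ = 1
      exact mul_inv_cancel₀ hx0
    · apply Subtype.ext
      change (x : F)⁻¹ * (x : F) = 1
      exact inv_mul_cancel₀ hx0

theorem s44s_log_neg {t : ℤᵐ⁰} (h0 : t ≠ 0) (h1 : t < 1) : log t < 0 := by
  rw [log_lt_iff_lt_exp h0, exp_zero]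
  exact h1

theorem s44s_irreducible_of_val (hB : ∀ x : F, x ∈ B ↔ w x ≤ 1) (x : ↥B)
    (hx : w (x : F) = exp (-1 : ℤ)) : Irreducible x := by
  have hnonunit : ∀ a : ↥B, ¬ IsUnit a → w (a : F) < 1 := by
    intro a ha
    rw [s44s_isUnit_iff_val w B hB] at ha
    exact lt_of_le_of_ne ((hB _).mp a.2) ha
  rw [irreducible_iff]
  refine ⟨?_, ?_⟩
  · rw [s44s_isUnit_iff_val w B hB, hx, ← exp_zero, exp_inj]
    omega
  · intro a b hab
    by_contra hcon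
    rw [not_or] at hcon
    have ha := hnonunit a hcon.1
    have hb := hnonunit b hcon.2
    have hab' : w (a : F) * w (b : F) = exp (-1 : ℤ) := by
      rw [← map_mul, ← hx, hab]
      rfl
    have ha0 : w (a : F) ≠ 0 := by
      intro h0
      rw [h0, zero_mul] at hab'
      exact exp_ne_zero hab'.symm
    have hb0 : w (b : F) ≠ 0 := by
      intro h0
      rw [h0, mul_zero] at hab'
      exact exp_ne_zero hab'.symm
    have hla := s44s_log_neg ha0 ha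
    have hlb := s44s_log_neg hb0 hb
    have hlab := congrArg log hab'
    rw [log_mul ha0 hb0, log_exp] at hlab
    omega

theorem s44s_val_of_irreducible (hB : ∀ x : F, x ∈ B ↔ w x ≤ 1) (π : F)
    (hπ : w π = exp (-1 : ℤ)) (x : ↥B) (hx : Irreducible x) : w (x : F) = exp (-1 : ℤ) := by
  have hx0 : (x : F) ≠ 0 := by
    intro h0
    apply hx.ne_zero
    exact Subtype.ext h0
  have hwx0 : w (x : F) ≠ 0 := (map_ne_zero w).mpr hx0
  have hnu : w (x : F) ≠ 1 := fun h => hx.not_isUnit ((s44s_isUnit_iff_val w B hB x).mpr h)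
  have hlt : w (x : F) < 1 := lt_of_le_of_ne ((hB _).mp x.2) hnu
  have hlog := s44s_log_neg hwx0 hlt
  set k : ℤ := log (w (x : F)) with hk
  have hwx : w (x : F) = exp k := by rw [hk, exp_log hwx0]
  by_contra hne
  have hk2 : k ≤ -2 := by
    have : k ≠ -1 := by
      intro h
      apply hne
      rw [hwx, h]
    omega
  have hπ0 : π ≠ 0 := by
    intro h0
    rw [h0, map_zero] at hπ
    exact exp_ne_zero hπ.symm
  have hπB : π ∈ B := by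
    rw [hB, hπ, ← exp_zero, exp_le_exp]
    omega
  -- `x = π * (x / π)`
  have hyB : (x : F) * π⁻¹ ∈ B := by
    rw [hB, map_mul, map_inv₀, hπ, hwx, ← exp_neg, ← exp_add, ← exp_zero, exp_le_exp]
    omega
  have hfac : x = (⟨π, hπB⟩ : ↥B) * ⟨(x : F) * π⁻¹, hyB⟩ := by
    apply Subtype.ext
    change (x : F) = π * ((x : F) * π⁻¹)
    field_simp
  rcases hx.isUnit_or_isUnit hfac with h | h
  · rw [s44s_isUnit_iff_val w B hB] at h
    change w π = 1 at h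
    rw [hπ, ← exp_zero, exp_inj] at h
    omega
  · rw [s44s_isUnit_iff_val w B hB] at h
    change w ((x : F) * π⁻¹) = 1 at h
    rw [map_mul, map_inv₀, hπ, hwx, ← exp_neg, ← exp_add, ← exp_zero, exp_inj] at h
    omega

end irr


section ramif

/-- (D1) **An irreducible element of `s18q_A0 P L` stays irreducible in `s18q_A0 P Z`.** -/
theorem s44s_irreducible_Z (p : ℕ) (hp : p.Prime) (P : ValuationSubring Kb)
    (hP : P.LiesOverPrime p) (L L₀ : IntermediateField ℚ Kb) [FiniteDimensional ℚ ↥L₀]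
    [Normal ℚ ↥L₀] (hLL : L ≤ L₀) (ϖ : ↥(s18q_A0 P L)) (hϖ : Irreducible ϖ)
    (ϖ' : ↥(s18q_A0 P (s44s_Z P L L₀)))
    (hϖϖ' : ((ϖ' : ↥(s44s_Z P L L₀)) : Kb) = ((ϖ : ↥L) : Kb)) : Irreducible ϖ' := by
  revert ϖ ϖ'
  have hgalKb : IsGalois ℚ Kb := cfg_isGalois_QBar
  have hPp : (p : Kb) ∈ P.nonunits := hP
  set Z : IntermediateField ℚ Kb := s44s_Z P L L₀ with hZdef
  have hLZ : L ≤ Z := s44s_le_Z hLL
  have hZL₀ : Z ≤ L₀ := s44s_Z_le P L L₀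
  have hLfin : FiniteDimensional ℚ ↥L :=
    FiniteDimensional.of_injective (IntermediateField.inclusion hLL).toLinearMap
      (IntermediateField.inclusion hLL).injective
  have hZfin : FiniteDimensional ℚ ↥Z := s44s_Z_finiteDimensional P L L₀
  have hnfL : NumberField ↥L := ⟨⟩
  have hnfZ : NumberField ↥Z := ⟨⟩
  have hnfL₀ : NumberField ↥L₀ := ⟨⟩
  have hgalL₀ : IsGalois ℚ ↥L₀ := ⟨⟩
  letI algLZ : Algebra ↥L ↥Z := (IntermediateField.inclusion hLZ).toRingHom.toAlgebra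
  letI algZL₀ : Algebra ↥Z ↥L₀ := (IntermediateField.inclusion hZL₀).toRingHom.toAlgebra
  letI algLL₀ : Algebra ↥L ↥L₀ := (IntermediateField.inclusion hLL).toRingHom.toAlgebra
  have htower : IsScalarTower ↥L ↥Z ↥L₀ := IsScalarTower.of_algebraMap_eq (fun x => rfl)
  -- the valuation rings
  set AL : ValuationSubring ↥L := s18q_A0 P L with hAL
  set AZ : ValuationSubring ↥Z := s18q_A0 P Z with hAZ
  set AL₀ : ValuationSubring ↥L₀ := s18q_A0 P L₀ with hAL₀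
  have hALnon : ∀ x : ↥L, x ∈ AL.nonunits ↔ (x : Kb) ∈ P.nonunits := fun x =>
    s36v_mem_nonunits_comap (algebraMap ↥L Kb) P x
  have hAZnon : ∀ x : ↥Z, x ∈ AZ.nonunits ↔ (x : Kb) ∈ P.nonunits := fun x =>
    s36v_mem_nonunits_comap (algebraMap ↥Z Kb) P x
  have hAL₀non : ∀ x : ↥L₀, x ∈ AL₀.nonunits ↔ (x : Kb) ∈ P.nonunits := fun x =>
    s36v_mem_nonunits_comap (algebraMap ↥L₀ Kb) P x
  have hALp : ((p : ℕ) : ↥L) ∈ AL.nonunits := (hALnon _).mpr hPp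
  have hAZp : ((p : ℕ) : ↥Z) ∈ AZ.nonunits := (hAZnon _).mpr hPp
  have hAL₀p : ((p : ℕ) : ↥L₀) ∈ AL₀.nonunits := (hAL₀non _).mpr hPp
  intro ϖ hϖ ϖ' hϖϖ'
  -- the centres
  set Q : Ideal (𝓞 ↥L₀) := cfg_center AL₀ with hQ
  have hQprime : Q.IsPrime := cfg_center_isPrime
  have hcenL : cfg_center AL = Q.under (𝓞 ↥L) := by
    ext b
    rw [cfg_mem_center_iff, hALnon, Ideal.under_def, Ideal.mem_comap, cfg_mem_center_iff, hAL₀non]
    rfl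
  have hcenZ : cfg_center AZ = Q.under (𝓞 ↥Z) := by
    ext b
    rw [cfg_mem_center_iff, hAZnon, Ideal.under_def, Ideal.mem_comap, cfg_mem_center_iff, hAL₀non]
    rfl
  have hcenL₀ : Q = (cfg_center P).under (𝓞 ↥L₀) := by
    ext b
    rw [cfg_mem_center_iff, hAL₀non, Ideal.under_def, Ideal.mem_comap, cfg_mem_center_iff]
    rfl
  have hlo : (cfg_center P).LiesOver Q := ⟨hcenL₀⟩
  -- equality of ramification indices
  have he : (cfg_center AZ).ramificationIdx (𝓞 ℚ) = (cfg_center AL).ramificationIdx (𝓞 ℚ) := by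
    rw [hcenZ, hcenL]
    refine s44s_ramIdx_under_eq (K := ↥L) (Z := ↥Z) (𝕃 := ↥L₀) Q ?_
    intro σ hσ hσL z
    obtain ⟨σ', hσ', -, hσ'I⟩ := cfg_exists_lifts_inertia Q (cfg_center P) σ hσ
    have hσ'in : σ' ∈ P.inertiaSubgroupIn ℚ := by
      refine cfg_mem_inertiaSubgroupIn_of_integral hp hPp σ' ?_
      intro b hb
      obtain ⟨b', rfl⟩ : ∃ b' : 𝓞 Kb, algebraMap (𝓞 Kb) Kb b' = b :=
        (IsIntegralClosure.isIntegral_iff (A := 𝓞 Kb)).mp hb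
      exact hσ'I b'
    have hσ'Γ : σ' ∈ s44s_IΓ P L := by
      rw [s44s_mem_IΓ]
      refine ⟨hσ'in, ?_⟩
      intro a ha
      have h1 := hσ' (algebraMap ↥L ↥L₀ ⟨a, ha⟩)
      rw [hσL ⟨a, ha⟩] at h1
      exact h1
    have h2 : σ' ((z : ↥Z) : Kb) = ((z : ↥Z) : Kb) := (s44s_mem_Z.mp z.2).1 σ' hσ'Γ
    have h3 := hσ' (algebraMap ↥Z ↥L₀ z)
    apply (algebraMap ↥L₀ Kb).injective
    rw [← h3]
    exact h2
  -- the adic valuations
  obtain ⟨vL, -, hvL, hvLp⟩ := s33d_exists_adic AL hp hALp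
  obtain ⟨vZ, -, hvZ, hvZp⟩ := s33d_exists_adic AZ hp hAZp
  rw [he] at hvZp
  set e : ℕ := (cfg_center AL).ramificationIdx (𝓞 ℚ) with hedef
  have he_pos : 0 < e := Ideal.ramificationIdx_pos _ _
  set wL := vL.valuation ↥L with hwL
  set wZ := vZ.valuation ↥Z with hwZ
  have hwL_le : ∀ x : ↥L, x ∈ AL ↔ wL x ≤ 1 := by
    intro x
    rw [← hvL]
    exact Valuation.mem_valuationSubring_iff _ _
  have hwZ_le : ∀ x : ↥Z, x ∈ AZ ↔ wZ x ≤ 1 := by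
    intro x
    rw [← hvZ]
    exact Valuation.mem_valuationSubring_iff _ _
  obtain ⟨π, hπ⟩ := vL.valuation_exists_uniformizer ↥L
  have hwϖ : wL ((ϖ : ↥L)) = WithZero.exp (-1 : ℤ) :=
    s44s_val_of_irreducible wL AL hwL_le π hπ ϖ hϖ
  -- transfer to `Z`
  have hpL0 : ((p : ℕ) : ↥L) ≠ 0 := by exact_mod_cast hp.ne_zero
  have hpZ0 : ((p : ℕ) : ↥Z) ≠ 0 := by exact_mod_cast hp.ne_zero
  have hϖ0 : (ϖ : ↥L) ≠ 0 := by
    intro h0
    rw [h0, map_zero] at hwϖ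
    exact WithZero.exp_ne_zero hwϖ.symm
  set u : ↥L := (ϖ : ↥L) ^ e * (((p : ℕ) : ↥L))⁻¹ with hu
  have hu0 : u ≠ 0 := mul_ne_zero (pow_ne_zero _ hϖ0) (inv_ne_zero hpL0)
  have hwu : wL u = 1 := by
    rw [hu, map_mul, map_pow, map_inv₀, hwϖ, hvLp, ← WithZero.exp_nsmul, ← WithZero.exp_neg,
      ← WithZero.exp_add, ← WithZero.exp_zero]
    congr 1
    simp only [nsmul_eq_mul, smul_eq_mul]
    ring
  have huA : u ∈ AL := (hwL_le u).mpr hwu.le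
  have huA' : u⁻¹ ∈ AL := by
    rw [hwL_le, map_inv₀, hwu, inv_one]
  set u' : ↥Z := (ϖ' : ↥Z) ^ e * (((p : ℕ) : ↥Z))⁻¹ with hu'
  have huu' : ((u' : ↥Z) : Kb) = ((u : ↥L) : Kb) := by
    rw [hu, hu']
    push_cast
    rw [hϖϖ']
  have hu'A : u' ∈ AZ := by
    change ((u' : ↥Z) : Kb) ∈ P
    rw [huu']
    exact huA
  have hu'A' : u'⁻¹ ∈ AZ := by
    change ((u'⁻¹ : ↥Z) : Kb) ∈ P
    have h1 : ((u'⁻¹ : ↥Z) : Kb) = ((u⁻¹ : ↥L) : Kb) := by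
      push_cast
      rw [huu']
    rw [h1]
    exact huA'
  have hu'0 : u' ≠ 0 := by
    intro h0
    apply hu0
    have h1 : ((u : ↥L) : Kb) = 0 := by rw [← huu', h0]; rfl
    exact_mod_cast h1
  have hwu' : wZ u' = 1 := by
    have h1 : wZ u' ≤ 1 := (hwZ_le _).mp hu'A
    have h2 : wZ u'⁻¹ ≤ 1 := (hwZ_le _).mp hu'A'
    rw [map_inv₀] at h2
    have hpos : 0 < wZ u' := zero_lt_iff.mpr ((Valuation.ne_zero_iff _).mpr hu'0)
    exact le_antisymm h1 ((inv_le_one₀ hpos).mp h2)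
  have hϖ'0 : (ϖ' : ↥Z) ≠ 0 := by
    intro h0
    apply hϖ0
    have h1 : ((ϖ : ↥L) : Kb) = 0 := by rw [← hϖϖ', h0]; rfl
    exact_mod_cast h1
  have hwϖ'0 : wZ (ϖ' : ↥Z) ≠ 0 := (map_ne_zero wZ).mpr hϖ'0
  have hwϖ' : wZ ((ϖ' : ↥Z)) = WithZero.exp (-1 : ℤ) := by
    have h1 := hwu'
    rw [hu', map_mul, map_pow, map_inv₀, hvZp] at h1
    have h2 : wZ (ϖ' : ↥Z) ^ e = WithZero.exp (-((e : ℕ) : ℤ)) := by
      have hne : (WithZero.exp (-((e : ℕ) : ℤ)) : WithZero (Multiplicative ℤ)) ≠ 0 := WithZero.exp_ne_zero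
      calc wZ (ϖ' : ↥Z) ^ e
          = wZ (ϖ' : ↥Z) ^ e * (WithZero.exp (-((e : ℕ) : ℤ)))⁻¹ * WithZero.exp (-((e : ℕ) : ℤ)) := by
            rw [mul_assoc, inv_mul_cancel₀ hne, mul_one]
        _ = WithZero.exp (-((e : ℕ) : ℤ)) := by rw [h1, one_mul]
    have h3 := congrArg WithZero.log h2
    rw [WithZero.log_pow, WithZero.log_exp, nsmul_eq_mul] at h3
    have h4 : WithZero.log (wZ (ϖ' : ↥Z)) = -1 := by
      have he' : (0 : ℤ) < (e : ℤ) := by exact_mod_cast he_pos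
      have h5 : (e : ℤ) * (WithZero.log (wZ (ϖ' : ↥Z)) + 1) = 0 := by
        rw [mul_add, h3]; ring
      rcases mul_eq_zero.mp h5 with h6 | h6
      · omega
      · omega
    rw [← h4, WithZero.exp_log hwϖ'0]
  exact s44s_irreducible_of_val wZ AZ hwZ_le ϖ' hwϖ'

end ramif

section residue

/-- (D2) **Every element of `L₀ ∩ P` (in particular of `s18q_A0 P Z`) is congruent modulo the maximal
ideal of `P` to an element of `Z ∩ P` fixed by the whole inertia group of `P`.** -/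
theorem s44s_exists_inertia_fixed (p : ℕ) (hp : p.Prime) (P : ValuationSubring Kb)
    (hP : P.LiesOverPrime p) (L L₀ : IntermediateField ℚ Kb) [FiniteDimensional ℚ ↥L₀]
    [Normal ℚ ↥L₀] (a : Kb) (haL₀ : a ∈ L₀) (haP : a ∈ P) :
    ∃ u : Kb, u ∈ s44s_Z P L L₀ ∧ u ∈ P ∧ (∀ τ ∈ P.inertiaSubgroupIn ℚ, τ u = u) ∧
      a - u ∈ P.nonunits := by
  have hPp : (p : Kb) ∈ P.nonunits := hP
  -- the inertia field `T` of `L₀/ℚ`
  set T : IntermediateField ℚ Kb :=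
    IntermediateField.fixedField (P.inertiaSubgroupIn ℚ) ⊓ L₀ with hTdef
  have hTL₀ : T ≤ L₀ := inf_le_right
  have hTmem : ∀ x : Kb, x ∈ T ↔ (∀ τ ∈ P.inertiaSubgroupIn ℚ, τ x = x) ∧ x ∈ L₀ := by
    intro x
    rw [hTdef, IntermediateField.mem_inf, IntermediateField.mem_fixedField_iff]
  have hTZ : T ≤ s44s_Z P L L₀ := by
    intro x hx
    obtain ⟨h1, h2⟩ := (hTmem x).mp hx
    exact s44s_mem_Z.mpr ⟨fun σ hσ => h1 σ (s44s_mem_IΓ.mp hσ).1, h2⟩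
  have hTfin : FiniteDimensional ℚ ↥T :=
    FiniteDimensional.of_injective (IntermediateField.inclusion hTL₀).toLinearMap
      (IntermediateField.inclusion hTL₀).injective
  have hnfT : NumberField ↥T := ⟨⟩
  have hnfL₀ : NumberField ↥L₀ := ⟨⟩
  have hgalL₀ : IsGalois ℚ ↥L₀ := ⟨⟩
  letI algTL₀ : Algebra ↥T ↥L₀ := (IntermediateField.inclusion hTL₀).toRingHom.toAlgebra
  set AL₀ : ValuationSubring ↥L₀ := s18q_A0 P L₀ with hAL₀
  have hAL₀non : ∀ x : ↥L₀, x ∈ AL₀.nonunits ↔ (x : Kb) ∈ P.nonunits := fun x =>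
    s36v_mem_nonunits_comap (algebraMap ↥L₀ Kb) P x
  have hAL₀p : ((p : ℕ) : ↥L₀) ∈ AL₀.nonunits := (hAL₀non _).mpr hPp
  set Q : Ideal (𝓞 ↥L₀) := cfg_center AL₀ with hQ
  have hQmax : Q.IsMaximal := cfg_center_isMaximal hp hAL₀p
  -- `Gal(L₀/T)` is contained in the inertia group of `Q`
  have hT : ∀ σ : ↥L₀ ≃ₐ[↥T] ↥L₀, ∀ y : 𝓞 ↥L₀, σ • y - y ∈ Q := by
    intro σ y
    obtain ⟨τ, hτ, hτσ⟩ := s44s_exists_lift_of_fix (P.inertiaSubgroupIn ℚ) L₀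
      (σ.restrictScalars ℚ) (by
        intro x hx
        have hxT : (x : Kb) ∈ T := (hTmem _).mpr ⟨hx, x.2⟩
        exact σ.commutes ⟨(x : Kb), hxT⟩)
    obtain ⟨-, hI⟩ := ford_inertia_spec P τ hτ
    rw [hQ, cfg_mem_center_iff, hAL₀non]
    have h1 := hI _ (cfg_coe_mem P (algebraMap (𝓞 ↥L₀) (𝓞 Kb) y))
    have h2 := hτσ (algebraMap (𝓞 ↥L₀) ↥L₀ y)
    have h3 : algebraMap (𝓞 Kb) Kb (algebraMap (𝓞 ↥L₀) (𝓞 Kb) y)
        = ((algebraMap (𝓞 ↥L₀) ↥L₀ y : ↥L₀) : Kb) := rfl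
    rw [h3, h2] at h1
    exact h1
  -- reduce `a` to an algebraic integer of `L₀`, then to one of `T`
  have haA : (⟨a, haL₀⟩ : ↥L₀) ∈ AL₀ := haP
  obtain ⟨b, hb⟩ := cfg_exists_sub_mem_nonunits hp hAL₀p haA
  obtain ⟨u, hu⟩ := s44s_exists_sub_mem (T := ↥T) (𝕃 := ↥L₀) Q hT b
  have huT : (((u : 𝓞 ↥T) : ↥T) : Kb) ∈ T := ((u : 𝓞 ↥T) : ↥T).2
  refine ⟨(((u : 𝓞 ↥T) : ↥T) : Kb), hTZ huT, ?_, ((hTmem _).mp huT).1, ?_⟩
  · have hint : IsIntegral ℤ (((u : 𝓞 ↥T) : ↥T) : Kb) :=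
      map_isIntegral_int (algebraMap ↥T Kb) (RingOfIntegers.isIntegral_coe u)
    exact s18q_mem_of_isIntegral_int P hint
  · rw [hQ, cfg_mem_center_iff, hAL₀non] at hu
    rw [hAL₀non] at hb
    have h4 := P.nonunits.add_mem hb hu
    have h5 : a - (((u : 𝓞 ↥T) : ↥T) : Kb)
        = (((⟨a, haL₀⟩ : ↥L₀) - algebraMap (𝓞 ↥L₀) ↥L₀ b : ↥L₀) : Kb)
          + ((algebraMap (𝓞 ↥L₀) ↥L₀ (b - algebraMap (𝓞 ↥T) (𝓞 ↥L₀) u) : ↥L₀) : Kb) := by
      rw [map_sub]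
      push_cast
      have h6 : ((algebraMap (𝓞 ↥L₀) ↥L₀ (algebraMap (𝓞 ↥T) (𝓞 ↥L₀) u) : ↥L₀) : Kb)
          = (((u : 𝓞 ↥T) : ↥T) : Kb) := rfl
      rw [h6]
      ring
    rw [h5]
    exact h4

end residue

section restrict

variable (P : ValuationSubring Kb) (L L₀ : IntermediateField ℚ Kb) [Normal ℚ ↥L] [Normal ℚ ↥L₀]

/-- The automorphism of `Z` induced by an element of the inertia group of `P` (by (D3)). -/
noncomputable def s44s_resZ (τ : Kb ≃ₐ[ℚ] Kb) (hτ : τ ∈ P.inertiaSubgroupIn ℚ) :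
    ↥(s44s_Z P L L₀) ≃ₐ[ℚ] ↥(s44s_Z P L L₀) where
  toFun z := ⟨τ z, s44s_inertia_map_Z P L L₀ τ hτ z z.2⟩
  invFun z := ⟨τ⁻¹ z, s44s_inertia_map_Z P L L₀ τ⁻¹ (inv_mem hτ) z z.2⟩
  left_inv z := Subtype.ext (τ.symm_apply_apply (z : Kb))
  right_inv z := Subtype.ext (τ.apply_symm_apply (z : Kb))
  map_mul' x y := Subtype.ext (map_mul τ (x : Kb) (y : Kb))
  map_add' x y := Subtype.ext (map_add τ (x : Kb) (y : Kb))
  commutes' r := Subtype.ext (τ.commutes r)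

@[simp]
theorem s44s_resZ_coe (τ : Kb ≃ₐ[ℚ] Kb) (hτ : τ ∈ P.inertiaSubgroupIn ℚ) (z : ↥(s44s_Z P L L₀)) :
    ((s44s_resZ P L L₀ τ hτ z : ↥(s44s_Z P L L₀)) : Kb) = τ (z : Kb) := rfl

@[simp]
theorem s44s_resZ_symm_coe (τ : Kb ≃ₐ[ℚ] Kb) (hτ : τ ∈ P.inertiaSubgroupIn ℚ)
    (z : ↥(s44s_Z P L L₀)) :
    (((s44s_resZ P L L₀ τ hτ).symm z : ↥(s44s_Z P L L₀)) : Kb) = τ⁻¹ (z : Kb) := rfl

/-- `s44s_resZ` preserves `s18q_A0 P Z` (both ways) and acts trivially on its residue field. -/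
theorem s44s_resZ_mem (τ : Kb ≃ₐ[ℚ] Kb) (hτ : τ ∈ P.inertiaSubgroupIn ℚ) (a : ↥(s44s_Z P L L₀))
    (ha : a ∈ s18q_A0 P (s44s_Z P L L₀)) :
    s44s_resZ P L L₀ τ hτ a ∈ s18q_A0 P (s44s_Z P L L₀) ∧
      (s44s_resZ P L L₀ τ hτ).symm a ∈ s18q_A0 P (s44s_Z P L L₀) ∧
      s44s_resZ P L L₀ τ hτ a - a ∈ (s18q_A0 P (s44s_Z P L L₀)).nonunits := by
  obtain ⟨hD, hI⟩ := ford_inertia_spec P τ hτ
  obtain ⟨hD', -⟩ := ford_inertia_spec P τ⁻¹ (inv_mem hτ)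
  have haP : (a : Kb) ∈ P := ha
  refine ⟨ford_decomposition_mem P τ hD _ haP, ford_decomposition_mem P τ⁻¹ hD' _ haP, ?_⟩
  refine (s36v_mem_nonunits_comap (algebraMap ↥(s44s_Z P L L₀) Kb) P _).mpr ?_
  exact hI _ haP

end restrict

section residueZ

/-- (D2), in the form used by `s44k_break`: with `ϖ'` a uniformiser of `s18q_A0 P Z`, every
`a ∈ s18q_A0 P Z` is `u + ϖ' z` with `u, z ∈ s18q_A0 P Z` and `u` fixed by the inertia group of `P`. -/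
theorem s44s_exists_inertia_fixed_Z (p : ℕ) (hp : p.Prime) (P : ValuationSubring Kb)
    (hP : P.LiesOverPrime p) (L L₀ : IntermediateField ℚ Kb) [FiniteDimensional ℚ ↥L₀]
    [Normal ℚ ↥L] [Normal ℚ ↥L₀] (ϖ' : ↥(s18q_A0 P (s44s_Z P L L₀))) (hϖ' : Irreducible ϖ')
    (a : ↥(s44s_Z P L L₀)) (ha : a ∈ s18q_A0 P (s44s_Z P L L₀)) :
    ∃ u : ↥(s44s_Z P L L₀), u ∈ s18q_A0 P (s44s_Z P L L₀) ∧
      (∀ (τ : Kb ≃ₐ[ℚ] Kb) (hτ : τ ∈ P.inertiaSubgroupIn ℚ), s44s_resZ P L L₀ τ hτ u = u) ∧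
      ∃ z : ↥(s44s_Z P L L₀), z ∈ s18q_A0 P (s44s_Z P L L₀) ∧
        a - u = (ϖ' : ↥(s44s_Z P L L₀)) * z := by
  have hfact : Fact p.Prime := ⟨hp⟩
  have hZfin : FiniteDimensional ℚ ↥(s44s_Z P L L₀) := s44s_Z_finiteDimensional P L L₀
  have hdvr : IsDiscreteValuationRing ↥(s18q_A0 P (s44s_Z P L L₀)) := s18q_A0_dvr P _ hP
  obtain ⟨u, huZ, huP, hufix, hau⟩ := s44s_exists_inertia_fixed p hp P hP L L₀ (a : Kb)
    (s44s_Z_le P L L₀ a.2) ha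
  refine ⟨⟨u, huZ⟩, huP, fun τ hτ => Subtype.ext (hufix τ hτ), ?_⟩
  have h1 : a - ⟨u, huZ⟩ ∈ (s18q_A0 P (s44s_Z P L L₀)).nonunits :=
    (s36v_mem_nonunits_comap (algebraMap ↥(s44s_Z P L L₀) Kb) P _).mpr hau
  have h2 : a - ⟨u, huZ⟩ ∈ s18q_A0 P (s44s_Z P L L₀) :=
    (s18q_A0 P (s44s_Z P L L₀)).sub_mem ha huP
  have h3 : (⟨a - ⟨u, huZ⟩, h2⟩ : ↥(s18q_A0 P (s44s_Z P L L₀))) ∈
      IsLocalRing.maximalIdeal ↥(s18q_A0 P (s44s_Z P L L₀)) :=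
    (ValuationSubring.coe_mem_nonunits_iff (A := s18q_A0 P (s44s_Z P L L₀))).mp h1
  rw [hϖ'.maximalIdeal_eq, Ideal.mem_span_singleton'] at h3
  obtain ⟨z, hz⟩ := h3
  refine ⟨(z : ↥(s44s_Z P L L₀)), z.2, ?_⟩
  have h4 := congrArg Subtype.val hz
  rw [mul_comm] at h4
  exact h4.symm

end residueZ

end Fermat.Agent.Lib.S44
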