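/-
[M-AT-P re-publication under Lib/S44 (fresh names `s44rm_`/`s44rq_`) of helper5's P-AT-P brick
`Lib/S33/RiemannAbs.lean`, which is not on main.]
P-AT-P programme, brick [RIEMANN] (helper5), abstract part: the dimension count behind Weil's exact
sequence `0 → L(D) → L(D') → A(D')/A(D) → H¹(D) → H¹(D') → 0`, in pure linear algebra.

`M` a `K`-vector space, `U ≤ V` and `S` subspaces, `δ : N → M` linear with range `S`.  Then, with
`T = V/U` finite-dimensional,
`dim δ⁻¹V + dim M/(U+S) = dim δ⁻¹U + dim M/(V+S) + dim T`,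
and finite-dimensionality of the pair `(δ⁻¹U, M/(U+S))` is equivalent to that of `(δ⁻¹V, M/(V+S))`.
-/
import Mathlib

set_option autoImplicit false

noncomputable section

namespace Fermat.Agent.Lib.S44

variable {K M N : Type*} [Field K] [AddCommGroup M] [Module K M] [AddCommGroup N] [Module K N]
variable (U V S : Submodule K M) (δ : N →ₗ[K] M)

/-- `θ̄ : V/U → M/(U ⊔ S)`. -/
def s44rm_thetaBar : (↥V ⧸ U.comap V.subtype) →ₗ[K] M ⧸ (U ⊔ S) :=
  (U.comap V.subtype).liftQ ((U ⊔ S).mkQ ∘ₗ V.subtype) (by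
    intro x hx
    rw [LinearMap.mem_ker, LinearMap.comp_apply, Submodule.mkQ_apply,
      Submodule.Quotient.mk_eq_zero]
    exact Submodule.mem_sup_left hx)

theorem s44rm_thetaBar_mk (a : ↥V) :
    s44rm_thetaBar U V S (Submodule.Quotient.mk a) = Submodule.Quotient.mk (a : M) := rfl

/-- `ι : δ⁻¹V → V/U`. -/
def s44rm_iota : ↥(V.comap δ) →ₗ[K] (↥V ⧸ U.comap V.subtype) :=
  (U.comap V.subtype).mkQ ∘ₗ δ.restrict (p := V.comap δ) (q := V) (fun _ hx => hx)

theorem s44rm_iota_apply (f : ↥(V.comap δ)) :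
    s44rm_iota U V δ f = Submodule.Quotient.mk ⟨δ f, f.2⟩ := rfl

variable {U V}

theorem s44rm_range_thetaBar (hUV : U ≤ V) :
    LinearMap.range (s44rm_thetaBar U V S) =
      LinearMap.ker (Submodule.factor (sup_le_sup_right hUV S)) := by
  apply le_antisymm
  · rintro _ ⟨t, rfl⟩
    obtain ⟨a, rfl⟩ := Submodule.Quotient.mk_surjective _ t
    rw [LinearMap.mem_ker, s44rm_thetaBar_mk, ← Submodule.mkQ_apply, Submodule.factor_mk,
      Submodule.mkQ_apply, Submodule.Quotient.mk_eq_zero]
    exact Submodule.mem_sup_left a.2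
  · intro y hy
    obtain ⟨m, rfl⟩ := Submodule.Quotient.mk_surjective _ y
    rw [LinearMap.mem_ker, ← Submodule.mkQ_apply, Submodule.factor_mk, Submodule.mkQ_apply,
      Submodule.Quotient.mk_eq_zero] at hy
    obtain ⟨a, ha, s, hs, rfl⟩ := Submodule.mem_sup.mp hy
    refine ⟨Submodule.Quotient.mk ⟨a, ha⟩, ?_⟩
    rw [s44rm_thetaBar_mk]
    symm
    rw [Submodule.Quotient.eq]
    have : a + s - a = s := by abel
    rw [this]
    exact Submodule.mem_sup_right hs

theorem s44rm_ker_thetaBar (hUV : U ≤ V) (hδ : LinearMap.range δ = S) :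
    LinearMap.ker (s44rm_thetaBar U V S) = LinearMap.range (s44rm_iota U V δ) := by
  apply le_antisymm
  · intro t ht
    obtain ⟨a, rfl⟩ := Submodule.Quotient.mk_surjective _ t
    rw [LinearMap.mem_ker, s44rm_thetaBar_mk, Submodule.Quotient.mk_eq_zero] at ht
    obtain ⟨u, hu, s, hs, hus⟩ := Submodule.mem_sup.mp ht
    rw [← hδ] at hs
    obtain ⟨f, rfl⟩ := hs
    have hfV : δ f ∈ V := by
      have : δ f = (a : M) - u := by rw [← hus]; abel
      rw [this]
      exact V.sub_mem a.2 (hUV hu)
    refine ⟨⟨f, hfV⟩, ?_⟩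
    rw [s44rm_iota_apply, Submodule.Quotient.eq, Submodule.mem_comap]
    have : (V.subtype (⟨δ f, hfV⟩ - a) : M) = -u := by
      show δ f - (a : M) = -u
      rw [← hus]; abel
    rw [this]
    exact U.neg_mem hu
  · rintro _ ⟨f, rfl⟩
    rw [LinearMap.mem_ker, s44rm_iota_apply, s44rm_thetaBar_mk, Submodule.Quotient.mk_eq_zero]
    refine Submodule.mem_sup_right ?_
    rw [← hδ]
    exact ⟨f, rfl⟩

theorem s44rm_ker_iota :
    LinearMap.ker (s44rm_iota U V δ) = (U.comap δ).comap (V.comap δ).subtype := by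
  ext f
  rw [LinearMap.mem_ker, s44rm_iota_apply, Submodule.Quotient.mk_eq_zero]
  rfl

/-- Finite-dimensionality goes up. -/
theorem s44rm_finite_up (hUV : U ≤ V) [Module.Finite K (↥V ⧸ U.comap V.subtype)]
    (h1 : Module.Finite K ↥(U.comap δ)) (h2 : Module.Finite K (M ⧸ (U ⊔ S))) :
    Module.Finite K ↥(V.comap δ) ∧ Module.Finite K (M ⧸ (V ⊔ S)) := by
  constructor
  · have hle : U.comap δ ≤ V.comap δ := Submodule.comap_mono hUV
    have hk : Module.Finite K ↥(LinearMap.ker (s44rm_iota U V δ)) := by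
      rw [s44rm_ker_iota]
      exact Module.Finite.equiv (Submodule.comapSubtypeEquivOfLe hle).symm
    have hr : Module.Finite K ↥(LinearMap.range (s44rm_iota U V δ)) := inferInstance
    exact Module.Finite.of_exact (f := (LinearMap.ker (s44rm_iota U V δ)).subtype)
      (g := (s44rm_iota U V δ).rangeRestrict)
      (by
        rw [LinearMap.exact_iff, LinearMap.ker_rangeRestrict, Submodule.range_subtype])
      (LinearMap.surjective_rangeRestrict _)
  · exact Module.Finite.of_surjective _ (Submodule.factor_surjective (sup_le_sup_right hUV S))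

/-- Finite-dimensionality goes down. -/
theorem s44rm_finite_down (hUV : U ≤ V) [Module.Finite K (↥V ⧸ U.comap V.subtype)]
    (h1 : Module.Finite K ↥(V.comap δ)) (h2 : Module.Finite K (M ⧸ (V ⊔ S))) :
    Module.Finite K ↥(U.comap δ) ∧ Module.Finite K (M ⧸ (U ⊔ S)) := by
  constructor
  · have hle : U.comap δ ≤ V.comap δ := Submodule.comap_mono hUV
    exact Module.Finite.equiv (Submodule.comapSubtypeEquivOfLe hle)
  · have hk : Module.Finite K ↥(LinearMap.ker (Submodule.factor (sup_le_sup_right hUV S))) := by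
      rw [← s44rm_range_thetaBar S hUV]
      infer_instance
    exact Module.Finite.of_exact
      (f := (LinearMap.ker (Submodule.factor (sup_le_sup_right hUV S))).subtype)
      (g := Submodule.factor (sup_le_sup_right hUV S))
      (by rw [LinearMap.exact_iff, Submodule.range_subtype])
      (Submodule.factor_surjective _)

/-- **The dimension count.** -/
theorem s44rm_count (hUV : U ≤ V) (hδ : LinearMap.range δ = S)
    [Module.Finite K (↥V ⧸ U.comap V.subtype)]
    [Module.Finite K ↥(V.comap δ)] [Module.Finite K (M ⧸ (U ⊔ S))] :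
    Module.finrank K ↥(V.comap δ) + Module.finrank K (M ⧸ (U ⊔ S)) =
      Module.finrank K ↥(U.comap δ) + Module.finrank K (M ⧸ (V ⊔ S)) +
        Module.finrank K (↥V ⧸ U.comap V.subtype) := by
  have hle : U.comap δ ≤ V.comap δ := Submodule.comap_mono hUV
  have e1 := LinearMap.finrank_range_add_finrank_ker (s44rm_thetaBar U V S)
  have e2 := LinearMap.finrank_range_add_finrank_ker
    (Submodule.factor (sup_le_sup_right hUV S))
  have e3 := LinearMap.finrank_range_add_finrank_ker (s44rm_iota U V δ)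
  rw [LinearMap.range_eq_top.mpr (Submodule.factor_surjective _), finrank_top] at e2
  rw [s44rm_range_thetaBar S hUV, s44rm_ker_thetaBar S δ hUV hδ] at e1
  have e4 : Module.finrank K ↥(LinearMap.ker (s44rm_iota U V δ)) =
      Module.finrank K ↥(U.comap δ) := by
    rw [s44rm_ker_iota]
    exact (Submodule.comapSubtypeEquivOfLe hle).finrank_eq
  omega

/-! ### One-sided statements (no finiteness of the `H¹`-side needed) -/

/-- `L`-side finiteness goes up (needs only `V/U` finite-dimensional). -/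
theorem s44rm_finite_L_up (hUV : U ≤ V) [Module.Finite K (↥V ⧸ U.comap V.subtype)]
    (h1 : Module.Finite K ↥(U.comap δ)) : Module.Finite K ↥(V.comap δ) := by
  have hle : U.comap δ ≤ V.comap δ := Submodule.comap_mono hUV
  have hk : Module.Finite K ↥(LinearMap.ker (s44rm_iota U V δ)) := by
    rw [s44rm_ker_iota]
    exact Module.Finite.equiv (Submodule.comapSubtypeEquivOfLe hle).symm
  have hr : Module.Finite K ↥(LinearMap.range (s44rm_iota U V δ)) := inferInstance
  exact Module.Finite.of_exact (f := (LinearMap.ker (s44rm_iota U V δ)).subtype)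
    (g := (s44rm_iota U V δ).rangeRestrict)
    (by
      rw [LinearMap.exact_iff, LinearMap.ker_rangeRestrict, Submodule.range_subtype])
    (LinearMap.surjective_rangeRestrict _)

/-- `L`-side finiteness goes down. -/
theorem s44rm_finite_L_down (hUV : U ≤ V) (h1 : Module.Finite K ↥(V.comap δ)) :
    Module.Finite K ↥(U.comap δ) :=
  Module.Finite.equiv (Submodule.comapSubtypeEquivOfLe (Submodule.comap_mono hUV))

/-- `H¹`-side finiteness goes up. -/
theorem s44rm_finite_H_up (hUV : U ≤ V) (h2 : Module.Finite K (M ⧸ (U ⊔ S))) :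
    Module.Finite K (M ⧸ (V ⊔ S)) :=
  Module.Finite.of_surjective _ (Submodule.factor_surjective (sup_le_sup_right hUV S))

/-- `H¹`-side finiteness goes down (needs only `V/U` finite-dimensional). -/
theorem s44rm_finite_H_down (hUV : U ≤ V) [Module.Finite K (↥V ⧸ U.comap V.subtype)]
    (h2 : Module.Finite K (M ⧸ (V ⊔ S))) : Module.Finite K (M ⧸ (U ⊔ S)) := by
  have hk : Module.Finite K ↥(LinearMap.ker (Submodule.factor (sup_le_sup_right hUV S))) := by
    rw [← s44rm_range_thetaBar S hUV]
    infer_instance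
  exact Module.Finite.of_exact
    (f := (LinearMap.ker (Submodule.factor (sup_le_sup_right hUV S))).subtype)
    (g := Submodule.factor (sup_le_sup_right hUV S))
    (by rw [LinearMap.exact_iff, Submodule.range_subtype])
    (Submodule.factor_surjective _)

/-- `dim δ⁻¹V ≤ dim δ⁻¹U + dim V/U`. -/
theorem s44rm_finrank_L_le (hUV : U ≤ V) (hδ : LinearMap.range δ = S)
    [Module.Finite K (↥V ⧸ U.comap V.subtype)] [Module.Finite K ↥(V.comap δ)] :
    Module.finrank K ↥(V.comap δ) ≤
      Module.finrank K ↥(U.comap δ) + Module.finrank K (↥V ⧸ U.comap V.subtype) := by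
  have hle : U.comap δ ≤ V.comap δ := Submodule.comap_mono hUV
  have e1 := LinearMap.finrank_range_add_finrank_ker (s44rm_thetaBar U V S)
  have e3 := LinearMap.finrank_range_add_finrank_ker (s44rm_iota U V δ)
  rw [s44rm_ker_thetaBar S δ hUV hδ] at e1
  have e4 : Module.finrank K ↥(LinearMap.ker (s44rm_iota U V δ)) =
      Module.finrank K ↥(U.comap δ) := by
    rw [s44rm_ker_iota]
    exact (Submodule.comapSubtypeEquivOfLe hle).finrank_eq
  omega

/-- If `dim δ⁻¹V = dim δ⁻¹U + dim V/U` then `V + S ≤ U + S`. -/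
theorem s44rm_sup_le_of_finrank_eq (hUV : U ≤ V) (hδ : LinearMap.range δ = S)
    [Module.Finite K (↥V ⧸ U.comap V.subtype)] [Module.Finite K ↥(V.comap δ)]
    (h : Module.finrank K ↥(V.comap δ) =
      Module.finrank K ↥(U.comap δ) + Module.finrank K (↥V ⧸ U.comap V.subtype)) :
    V ⊔ S ≤ U ⊔ S := by
  have hle : U.comap δ ≤ V.comap δ := Submodule.comap_mono hUV
  have e1 := LinearMap.finrank_range_add_finrank_ker (s44rm_thetaBar U V S)
  have e3 := LinearMap.finrank_range_add_finrank_ker (s44rm_iota U V δ)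
  rw [s44rm_ker_thetaBar S δ hUV hδ] at e1
  have e4 : Module.finrank K ↥(LinearMap.ker (s44rm_iota U V δ)) =
      Module.finrank K ↥(U.comap δ) := by
    rw [s44rm_ker_iota]
    exact (Submodule.comapSubtypeEquivOfLe hle).finrank_eq
  have h0 : Module.finrank K ↥(LinearMap.range (s44rm_thetaBar U V S)) = 0 := by omega
  have hbot : LinearMap.range (s44rm_thetaBar U V S) = ⊥ := Submodule.finrank_eq_zero.mp h0
  rw [s44rm_range_thetaBar S hUV] at hbot
  intro m hm
  have h1 : (Submodule.Quotient.mk m : M ⧸ (U ⊔ S)) ∈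
      LinearMap.ker (Submodule.factor (sup_le_sup_right hUV S)) := by
    rw [LinearMap.mem_ker, ← Submodule.mkQ_apply, Submodule.factor_mk, Submodule.mkQ_apply,
      Submodule.Quotient.mk_eq_zero]
    exact hm
  rw [hbot, Submodule.mem_bot, Submodule.Quotient.mk_eq_zero] at h1
  exact h1

/-! ### The same with `V/U` presented by a surjection `ev : V → R` with kernel `U` -/

section WithEv

variable {R : Type*} [AddCommGroup R] [Module K R] (ev : ↥V →ₗ[K] R)

/-- `V/U ≃ R`. -/
def s44rm_quotEquivOfEv (hev : Function.Surjective ev)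
    (hker : LinearMap.ker ev = U.comap V.subtype) : (↥V ⧸ U.comap V.subtype) ≃ₗ[K] R :=
  (Submodule.quotEquivOfEq _ _ hker.symm) ≪≫ₗ ev.quotKerEquivOfSurjective hev

theorem s44rm_finite_up_ev (hUV : U ≤ V) (hev : Function.Surjective ev)
    (hker : LinearMap.ker ev = U.comap V.subtype) [Module.Finite K R]
    (h1 : Module.Finite K ↥(U.comap δ)) (h2 : Module.Finite K (M ⧸ (U ⊔ S))) :
    Module.Finite K ↥(V.comap δ) ∧ Module.Finite K (M ⧸ (V ⊔ S)) := by
  have : Module.Finite K (↥V ⧸ U.comap V.subtype) :=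
    Module.Finite.equiv (s44rm_quotEquivOfEv ev hev hker).symm
  exact s44rm_finite_up S δ hUV h1 h2

theorem s44rm_finite_down_ev (hUV : U ≤ V) (hev : Function.Surjective ev)
    (hker : LinearMap.ker ev = U.comap V.subtype) [Module.Finite K R]
    (h1 : Module.Finite K ↥(V.comap δ)) (h2 : Module.Finite K (M ⧸ (V ⊔ S))) :
    Module.Finite K ↥(U.comap δ) ∧ Module.Finite K (M ⧸ (U ⊔ S)) := by
  have : Module.Finite K (↥V ⧸ U.comap V.subtype) :=
    Module.Finite.equiv (s44rm_quotEquivOfEv ev hev hker).symm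
  exact s44rm_finite_down S δ hUV h1 h2

theorem s44rm_count_ev (hUV : U ≤ V) (hδ : LinearMap.range δ = S)
    (hev : Function.Surjective ev) (hker : LinearMap.ker ev = U.comap V.subtype)
    [Module.Finite K R] [Module.Finite K ↥(V.comap δ)] [Module.Finite K (M ⧸ (U ⊔ S))] :
    Module.finrank K ↥(V.comap δ) + Module.finrank K (M ⧸ (U ⊔ S)) =
      Module.finrank K ↥(U.comap δ) + Module.finrank K (M ⧸ (V ⊔ S)) + Module.finrank K R := by
  have : Module.Finite K (↥V ⧸ U.comap V.subtype) :=
    Module.Finite.equiv (s44rm_quotEquivOfEv ev hev hker).symm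
  rw [← (s44rm_quotEquivOfEv ev hev hker).finrank_eq]
  exact s44rm_count S δ hUV hδ

theorem s44rm_finite_L_up_ev (hUV : U ≤ V) (hev : Function.Surjective ev)
    (hker : LinearMap.ker ev = U.comap V.subtype) [Module.Finite K R]
    (h1 : Module.Finite K ↥(U.comap δ)) : Module.Finite K ↥(V.comap δ) := by
  have : Module.Finite K (↥V ⧸ U.comap V.subtype) :=
    Module.Finite.equiv (s44rm_quotEquivOfEv ev hev hker).symm
  exact s44rm_finite_L_up δ hUV h1

theorem s44rm_finite_H_down_ev (hUV : U ≤ V) (hev : Function.Surjective ev)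
    (hker : LinearMap.ker ev = U.comap V.subtype) [Module.Finite K R]
    (h2 : Module.Finite K (M ⧸ (V ⊔ S))) : Module.Finite K (M ⧸ (U ⊔ S)) := by
  have : Module.Finite K (↥V ⧸ U.comap V.subtype) :=
    Module.Finite.equiv (s44rm_quotEquivOfEv ev hev hker).symm
  exact s44rm_finite_H_down S hUV h2

theorem s44rm_finrank_L_le_ev (hUV : U ≤ V) (hδ : LinearMap.range δ = S)
    (hev : Function.Surjective ev) (hker : LinearMap.ker ev = U.comap V.subtype)
    [Module.Finite K R] [Module.Finite K ↥(V.comap δ)] :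
    Module.finrank K ↥(V.comap δ) ≤ Module.finrank K ↥(U.comap δ) + Module.finrank K R := by
  have : Module.Finite K (↥V ⧸ U.comap V.subtype) :=
    Module.Finite.equiv (s44rm_quotEquivOfEv ev hev hker).symm
  rw [← (s44rm_quotEquivOfEv ev hev hker).finrank_eq]
  exact s44rm_finrank_L_le S δ hUV hδ

theorem s44rm_sup_le_of_finrank_eq_ev (hUV : U ≤ V) (hδ : LinearMap.range δ = S)
    (hev : Function.Surjective ev) (hker : LinearMap.ker ev = U.comap V.subtype)
    [Module.Finite K R] [Module.Finite K ↥(V.comap δ)]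
    (h : Module.finrank K ↥(V.comap δ) =
      Module.finrank K ↥(U.comap δ) + Module.finrank K R) : V ⊔ S ≤ U ⊔ S := by
  have : Module.Finite K (↥V ⧸ U.comap V.subtype) :=
    Module.Finite.equiv (s44rm_quotEquivOfEv ev hev hker).symm
  rw [← (s44rm_quotEquivOfEv ev hev hker).finrank_eq] at h
  exact s44rm_sup_le_of_finrank_eq S δ hUV hδ h

end WithEv

end Fermat.Agent.Lib.S44

end
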