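/-
[M-AT-P re-publication under Lib/S44 (fresh names `s44rm_`/`s44rq_`) of helper5's P-AT-P brick
`Lib/S33/Riemann.lean`, which is not on main.]
P-AT-P programme, brick [RIEMANN] (helper5): **Riemann's theorem with the genus** (Weil's
repartition form), for an arbitrary function field in the sense of the Prelude
(`AlgebraicCurve.Place K F`, `repartitions`, `riemannRochSpace`, `H1`, `genusFF`):

if `L(0)` and `H¹(0)` are finite-dimensional and all residue fields are finite over `K`, then for
every divisor `D` both `L(D)` and `H¹(D)` are finite-dimensional and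
`dim L(D) − dim H¹(D) = deg D + dim L(0) − g`, `g = genusFF K F = dim H¹(0)`.

No hypothesis on `K` (any characteristic, not necessarily algebraically closed).
-/
import Fermat.Agent.Lib.S44.RRiemAbs
import Fermat.Agent.Lib.FF.FFBasicPlace
import Fermat.Prelude.Def_AlgebraicCurve_Repartitions

set_option autoImplicit false

noncomputable section

open AlgebraicCurve WithZero IsDedekindDomain Fermat.Agent.Lib.FF

namespace Fermat.Agent.Lib.S44

variable {K F : Type*} [Field K] [Field F] [Algebra K F]

/-! ### The diagonal -/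

variable (K F) in
/-- The diagonal embedding `F → A_F`, as a `K`-linear map. -/
def s44rm_diag : F →ₗ[K] ↥(repartitions K F) :=
  (Algebra.linearMap F ↥(repartitions K F)).restrictScalars K

theorem s44rm_diag_apply (f : F) (v : Place K F) :
    ((s44rm_diag K F f : ↥(repartitions K F)) : Place K F → F) v = f := rfl

theorem s44rm_range_diag : LinearMap.range (s44rm_diag K F) = principalRepartitions K F := by
  ext α
  rw [mem_principalRepartitions_iff]
  constructor
  · rintro ⟨f, rfl⟩
    exact ⟨f, rfl⟩
  · rintro ⟨f, hf⟩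
    exact ⟨f, Subtype.ext hf.symm⟩

theorem s44rm_comap_diag (D : Divisor K F) :
    (repartitionsOf D).comap (s44rm_diag K F) = riemannRochSpace D := by
  ext f
  exact Iff.rfl

/-! ### Valuation bookkeeping at one place -/

section Local

variable (P : Place K F)

theorem s44rm_val_zpow {π : P.toValuationSubring} (hπ : Irreducible π) (n : ℤ) :
    P.adicValuation ((π : F) ^ n) = exp (-n) := by
  rw [map_zpow₀, P.adicValuation_coe_irreducible hπ, ← exp_zsmul]
  congr 1
  simp

theorem s44rm_lt_exp_succ_iff (x : ℤᵐ⁰) (n : ℤ) : x < exp (n + 1) ↔ x ≤ exp n := by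
  rcases eq_or_ne x 0 with rfl | hx
  · simp
  · obtain ⟨m, rfl⟩ : ∃ m : ℤ, x = exp m := ⟨log x, (exp_log hx).symm⟩
    rw [exp_lt_exp, exp_le_exp]
    omega

theorem s44rm_mem_maximalIdeal_iff (a : P.toValuationSubring) :
    a ∈ IsLocalRing.maximalIdeal P.toValuationSubring ↔ P.adicValuation (a : F) < 1 := by
  rw [P.adicValuation_coe, HeightOneSpectrum.intValuation_lt_one_iff_mem,
    Place.heightOneSpectrum_asIdeal]

end Local

/-! ### The evaluation map `A(D + P) → κ(P)` -/

section Step

variable (D : Divisor K F) (P : Place K F)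

theorem s44rm_add_single_self : (D + Finsupp.single P 1 : Divisor K F) P = D P + 1 := by
  rw [Finsupp.add_apply, Finsupp.single_eq_same]

theorem s44rm_add_single_ne {v : Place K F} (hv : v ≠ P) :
    (D + Finsupp.single P 1 : Divisor K F) v = D v := by
  rw [Finsupp.add_apply, Finsupp.single_eq_of_ne hv, add_zero]

theorem s44rm_ev_val {π : P.toValuationSubring} (hπ : Irreducible π) (x : F) :
    P.adicValuation ((π : F) ^ (D P + 1) * x) = exp (-(D P + 1)) * P.adicValuation x := by
  rw [map_mul, s44rm_val_zpow P hπ]

theorem s44rm_ev_mem {π : P.toValuationSubring} (hπ : Irreducible π)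
    (α : ↥(repartitionsOf (D + Finsupp.single P 1))) :
    (π : F) ^ (D P + 1) * ((α : ↥(repartitions K F)) : Place K F → F) P ∈
      P.toValuationSubring := by
  rw [ff_mem_iff_adicValuation_le_one, s44rm_ev_val D P hπ]
  have h := α.2 P
  rw [s44rm_add_single_self] at h
  calc exp (-(D P + 1)) * P.adicValuation (((α : ↥(repartitions K F)) : Place K F → F) P)
      ≤ exp (-(D P + 1)) * exp (D P + 1) := mul_le_mul' le_rfl h
    _ = 1 := by rw [← exp_add]; simp

/-- The evaluation map `A(D + P) → κ(P)`, `α ↦ (π^{D(P)+1} α_P) mod 𝔪_P`. -/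
def s44rm_ev {π : P.toValuationSubring} (hπ : Irreducible π) :
    ↥(repartitionsOf (D + Finsupp.single P 1)) →ₗ[K] P.ResidueField where
  toFun α := IsLocalRing.residue P.toValuationSubring
    ⟨(π : F) ^ (D P + 1) * ((α : ↥(repartitions K F)) : Place K F → F) P, s44rm_ev_mem D P hπ α⟩
  map_add' α β := by
    rw [← map_add]
    congr 1
    apply Subtype.ext
    show (π : F) ^ (D P + 1) * (((α : ↥(repartitions K F)) : Place K F → F) P +
      ((β : ↥(repartitions K F)) : Place K F → F) P) = _
    rw [mul_add]
    rfl
  map_smul' c α := by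
    rw [RingHom.id_apply, Algebra.smul_def,
      IsScalarTower.algebraMap_apply K P.toValuationSubring P.ResidueField,
      IsLocalRing.ResidueField.algebraMap_eq, ← map_mul]
    congr 1
    apply Subtype.ext
    show (π : F) ^ (D P + 1) * (c • ((α : ↥(repartitions K F)) : Place K F → F) P) =
      algebraMap K F c * ((π : F) ^ (D P + 1) * ((α : ↥(repartitions K F)) : Place K F → F) P)
    rw [Algebra.smul_def]
    ring

theorem s44rm_ev_apply {π : P.toValuationSubring} (hπ : Irreducible π)
    (α : ↥(repartitionsOf (D + Finsupp.single P 1))) :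
    s44rm_ev D P hπ α = IsLocalRing.residue P.toValuationSubring
      ⟨(π : F) ^ (D P + 1) * ((α : ↥(repartitions K F)) : Place K F → F) P,
        s44rm_ev_mem D P hπ α⟩ := rfl

theorem s44rm_le_succ : repartitionsOf D ≤ repartitionsOf (D + Finsupp.single P 1) := by
  apply repartitionsOf_mono
  rw [Finsupp.le_def]
  intro v
  rw [Finsupp.add_apply]
  have : (0 : ℤ) ≤ Finsupp.single P 1 v := by
    by_cases hv : v = P
    · subst hv; rw [Finsupp.single_eq_same]; exact zero_le_one
    · rw [Finsupp.single_eq_of_ne hv]
  omega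

theorem s44rm_ker_ev {π : P.toValuationSubring} (hπ : Irreducible π) :
    LinearMap.ker (s44rm_ev D P hπ) =
      (repartitionsOf D).comap (repartitionsOf (D + Finsupp.single P 1)).subtype := by
  ext α
  rw [LinearMap.mem_ker, s44rm_ev_apply, IsLocalRing.residue_eq_zero_iff,
    s44rm_mem_maximalIdeal_iff]
  show P.adicValuation ((π : F) ^ (D P + 1) * ((α : ↥(repartitions K F)) : Place K F → F) P) < 1
    ↔ (α : ↥(repartitions K F)) ∈ repartitionsOf D
  rw [s44rm_ev_val D P hπ]
  have hkey : exp (-(D P + 1)) *
      P.adicValuation (((α : ↥(repartitions K F)) : Place K F → F) P) < 1 ↔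
      P.adicValuation (((α : ↥(repartitions K F)) : Place K F → F) P) ≤ exp (D P) := by
    rw [← s44rm_lt_exp_succ_iff, exp_neg, inv_mul_lt_iff₀ (exp_pos), mul_one]
  rw [hkey]
  constructor
  · intro h v
    by_cases hv : v = P
    · subst hv; exact h
    · have h1 := α.2 v
      rwa [s44rm_add_single_ne D P hv] at h1
  · intro h
    exact h P

theorem s44rm_ev_surjective {π : P.toValuationSubring} (hπ : Irreducible π) :
    Function.Surjective (s44rm_ev D P hπ) := by
  classical
  intro c
  obtain ⟨a, rfl⟩ := IsLocalRing.residue_surjective c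
  have hπ0 : (π : F) ≠ 0 := by
    simpa [ne_eq, ZeroMemClass.coe_eq_zero] using hπ.ne_zero
  set β : Place K F → F := Function.update 0 P ((π : F) ^ (-(D P + 1)) * (a : F)) with hβ
  have hβP : β P = (π : F) ^ (-(D P + 1)) * (a : F) := by rw [hβ, Function.update_self]
  have hβne : ∀ v : Place K F, v ≠ P → β v = 0 := fun v hv => by
    rw [hβ, Function.update_of_ne hv]; rfl
  have hbound : ∀ v : Place K F, v.adicValuation (β v) ≤
      exp ((D + Finsupp.single P 1 : Divisor K F) v) := by
    intro v
    by_cases hv : v = P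
    · subst hv
      rw [hβP, s44rm_add_single_self, map_mul, s44rm_val_zpow v hπ, neg_neg]
      exact mul_le_of_le_one_right' (v.adicValuation_le_one_of_mem a.2)
    · rw [hβne v hv, map_zero]
      exact zero_le
  refine ⟨⟨⟨β, mem_repartitions_of_forall_le_exp _ β hbound⟩, hbound⟩, ?_⟩
  rw [s44rm_ev_apply]
  congr 1
  apply Subtype.ext
  show (π : F) ^ (D P + 1) * β P = (a : F)
  rw [hβP, ← mul_assoc, ← zpow_add₀ hπ0]
  simp

/-! ### The one-place step -/

theorem s44rm_step_finite_up [Module.Finite K P.ResidueField]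
    (h1 : Module.Finite K ↥(riemannRochSpace D)) (h2 : Module.Finite K (H1 D)) :
    Module.Finite K ↥(riemannRochSpace (D + Finsupp.single P 1)) ∧
      Module.Finite K (H1 (D + Finsupp.single P 1)) := by
  obtain ⟨π, hπ⟩ := IsDiscreteValuationRing.exists_irreducible P.toValuationSubring
  rw [← s44rm_comap_diag] at h1 ⊢
  exact s44rm_finite_up_ev (principalRepartitions K F) (s44rm_diag K F) (s44rm_ev D P hπ)
    (s44rm_le_succ D P) (s44rm_ev_surjective D P hπ) (s44rm_ker_ev D P hπ) h1 h2

theorem s44rm_step_finite_down [Module.Finite K P.ResidueField]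
    (h1 : Module.Finite K ↥(riemannRochSpace (D + Finsupp.single P 1)))
    (h2 : Module.Finite K (H1 (D + Finsupp.single P 1))) :
    Module.Finite K ↥(riemannRochSpace D) ∧ Module.Finite K (H1 D) := by
  obtain ⟨π, hπ⟩ := IsDiscreteValuationRing.exists_irreducible P.toValuationSubring
  rw [← s44rm_comap_diag] at h1 ⊢
  exact s44rm_finite_down_ev (principalRepartitions K F) (s44rm_diag K F) (s44rm_ev D P hπ)
    (s44rm_le_succ D P) (s44rm_ev_surjective D P hπ) (s44rm_ker_ev D P hπ) h1 h2

/-- **The one-place step** of Riemann's theorem. -/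
theorem s44rm_step [Module.Finite K P.ResidueField]
    [Module.Finite K ↥(riemannRochSpace (D + Finsupp.single P 1))] [Module.Finite K (H1 D)] :
    Module.finrank K ↥(riemannRochSpace (D + Finsupp.single P 1)) + Module.finrank K (H1 D) =
      Module.finrank K ↥(riemannRochSpace D) +
        Module.finrank K (H1 (D + Finsupp.single P 1)) + P.deg := by
  obtain ⟨π, hπ⟩ := IsDiscreteValuationRing.exists_irreducible P.toValuationSubring
  have h1 : Module.Finite K
      ↥((repartitionsOf (D + Finsupp.single P 1)).comap (s44rm_diag K F)) := by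
    rw [s44rm_comap_diag]; infer_instance
  have := s44rm_count_ev (principalRepartitions K F) (s44rm_diag K F) (s44rm_ev D P hπ)
    (s44rm_le_succ D P) s44rm_range_diag (s44rm_ev_surjective D P hπ) (s44rm_ker_ev D P hπ)
  rw [s44rm_comap_diag, s44rm_comap_diag] at this
  exact this

end Step

/-! ### Riemann's theorem -/

section Global

variable [hres : ∀ P : Place K F, Module.Finite K P.ResidueField]

/-- Finite-dimensionality and the Euler characteristic formula at `D`. -/
def s44rm_Good (D : Divisor K F) : Prop :=
  Module.Finite K ↥(riemannRochSpace D) ∧ Module.Finite K (H1 D) ∧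
    (Module.finrank K ↥(riemannRochSpace D) : ℤ) - Module.finrank K (H1 D) =
      Divisor.degree D +
        ((Module.finrank K ↥(riemannRochSpace (0 : Divisor K F)) : ℤ) - genusFF K F)

theorem s44rm_good_up (D : Divisor K F) (P : Place K F) (h : s44rm_Good D) :
    s44rm_Good (D + Finsupp.single P 1) := by
  obtain ⟨h1, h2, h3⟩ := h
  obtain ⟨h4, h5⟩ := s44rm_step_finite_up D P h1 h2
  refine ⟨h4, h5, ?_⟩
  have h6 := s44rm_step D P
  rw [map_add, Divisor.degree_single]
  omega

theorem s44rm_good_down (D : Divisor K F) (P : Place K F)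
    (h : s44rm_Good (D + Finsupp.single P 1)) : s44rm_Good D := by
  obtain ⟨h1, h2, h3⟩ := h
  obtain ⟨h4, h5⟩ := s44rm_step_finite_down D P h1 h2
  refine ⟨h4, h5, ?_⟩
  have h6 := s44rm_step D P
  rw [map_add, Divisor.degree_single] at h3
  omega

theorem s44rm_good_add_single (D : Divisor K F) (P : Place K F) (n : ℤ) (h : s44rm_Good D) :
    s44rm_Good (D + Finsupp.single P n) := by
  induction n using Int.induction_on with
  | zero => rwa [Finsupp.single_zero, add_zero]
  | succ k ih =>
    have h1 := s44rm_good_up _ P ih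
    rwa [add_assoc, ← Finsupp.single_add] at h1
  | pred k ih =>
    apply s44rm_good_down _ P
    rw [add_assoc, ← Finsupp.single_add]
    have : (-(k : ℤ) - 1 + 1) = -(k : ℤ) := by ring
    rwa [this]

omit hres in
theorem s44rm_good_zero (h0 : Module.Finite K ↥(riemannRochSpace (0 : Divisor K F)))
    (hg : Module.Finite K (H1 (0 : Divisor K F))) : s44rm_Good (0 : Divisor K F) := by
  refine ⟨h0, hg, ?_⟩
  rw [map_zero, zero_add]
  rfl

theorem s44rm_good (h0 : Module.Finite K ↥(riemannRochSpace (0 : Divisor K F)))
    (hg : Module.Finite K (H1 (0 : Divisor K F))) (D : Divisor K F) : s44rm_Good D := by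
  induction D using Finsupp.induction with
  | zero => exact s44rm_good_zero h0 hg
  | single_add P n D _ _ ih =>
    rw [add_comm]
    exact s44rm_good_add_single D P n ih

/-- **Riemann's theorem** (Weil's form): if `L(0)` and `H¹(0)` are finite-dimensional and all
residue fields are finite over `K`, then `L(D)` and `H¹(D)` are finite-dimensional and
`ℓ(D) − h¹(D) = deg D + ℓ(0) − g`. -/
theorem s44rm_riemann (h0 : Module.Finite K ↥(riemannRochSpace (0 : Divisor K F)))
    (hg : Module.Finite K (H1 (0 : Divisor K F))) (D : Divisor K F) :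
    Module.Finite K ↥(riemannRochSpace D) ∧ Module.Finite K (H1 D) ∧
      (Module.finrank K ↥(riemannRochSpace D) : ℤ) - Module.finrank K (H1 D) =
        Divisor.degree D +
          ((Module.finrank K ↥(riemannRochSpace (0 : Divisor K F)) : ℤ) - genusFF K F) :=
  s44rm_good h0 hg D

/-- **Riemann's inequality**: `ℓ(D) ≥ deg D + ℓ(0) − g`. -/
theorem s44rm_riemann_ineq (h0 : Module.Finite K ↥(riemannRochSpace (0 : Divisor K F)))
    (hg : Module.Finite K (H1 (0 : Divisor K F))) (D : Divisor K F) :
    Divisor.degree D +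
        ((Module.finrank K ↥(riemannRochSpace (0 : Divisor K F)) : ℤ) - genusFF K F) ≤
      Module.finrank K ↥(riemannRochSpace D) := by
  obtain ⟨-, -, h⟩ := s44rm_riemann h0 hg D
  have : (0 : ℤ) ≤ Module.finrank K (H1 D) := Int.natCast_nonneg _
  omega

end Global

end Fermat.Agent.Lib.S44

end
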