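/-
[M-AT-P re-publication under Lib/S44 (fresh names `s44rm_`/`s44rq_`) of helper5's P-AT-P brick
`Lib/S33/RiemannFull.lean`, which is not on main.]
P-AT-P programme, brick [RIEMANN] part 2 (helper5): from a UNIFORM WEAK Riemann inequality
(`deg D − ℓ(D)` bounded above) and "every function has finitely many poles", derive that
`H¹(D)` is finite-dimensional for every `D` (so the genus `genusFF K F = dim H¹(0)` is honest),
and that `H¹(D) = 0` for all `D` above some `D₀` (Stichtenoth 1.5.4 in Weil's language).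
General Prelude function field, any characteristic.
-/
import Fermat.Agent.Lib.S44.RRiem

set_option autoImplicit false

noncomputable section

open AlgebraicCurve WithZero IsDedekindDomain Fermat.Agent.Lib.FF

namespace Fermat.Agent.Lib.S44

variable {K F : Type*} [Field K] [Field F] [Algebra K F]

/-! ### One-sided one-place steps -/

section OneSided

variable (D : Divisor K F) (P : Place K F)

theorem s44rm_step_finite_L_up [Module.Finite K P.ResidueField]
    (h1 : Module.Finite K ↥(riemannRochSpace D)) :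
    Module.Finite K ↥(riemannRochSpace (D + Finsupp.single P 1)) := by
  obtain ⟨π, hπ⟩ := IsDiscreteValuationRing.exists_irreducible P.toValuationSubring
  rw [← s44rm_comap_diag] at h1 ⊢
  exact s44rm_finite_L_up_ev (s44rm_diag K F) (s44rm_ev D P hπ)
    (s44rm_le_succ D P) (s44rm_ev_surjective D P hπ) (s44rm_ker_ev D P hπ) h1

theorem s44rm_step_finite_L_down
    (h1 : Module.Finite K ↥(riemannRochSpace (D + Finsupp.single P 1))) :
    Module.Finite K ↥(riemannRochSpace D) := by
  rw [← s44rm_comap_diag] at h1 ⊢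
  exact s44rm_finite_L_down (s44rm_diag K F) (s44rm_le_succ D P) h1

theorem s44rm_step_finite_H_up (h2 : Module.Finite K (H1 D)) :
    Module.Finite K (H1 (D + Finsupp.single P 1)) :=
  s44rm_finite_H_up (principalRepartitions K F) (s44rm_le_succ D P) h2

theorem s44rm_step_finite_H_down [Module.Finite K P.ResidueField]
    (h2 : Module.Finite K (H1 (D + Finsupp.single P 1))) : Module.Finite K (H1 D) := by
  obtain ⟨π, hπ⟩ := IsDiscreteValuationRing.exists_irreducible P.toValuationSubring
  exact s44rm_finite_H_down_ev (principalRepartitions K F) (s44rm_ev D P hπ)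
    (s44rm_le_succ D P) (s44rm_ev_surjective D P hπ) (s44rm_ker_ev D P hπ) h2

theorem s44rm_step_finrank_le [Module.Finite K P.ResidueField]
    [Module.Finite K ↥(riemannRochSpace (D + Finsupp.single P 1))] :
    Module.finrank K ↥(riemannRochSpace (D + Finsupp.single P 1)) ≤
      Module.finrank K ↥(riemannRochSpace D) + P.deg := by
  obtain ⟨π, hπ⟩ := IsDiscreteValuationRing.exists_irreducible P.toValuationSubring
  have h1 : Module.Finite K
      ↥((repartitionsOf (D + Finsupp.single P 1)).comap (s44rm_diag K F)) := by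
    rw [s44rm_comap_diag]; infer_instance
  have := s44rm_finrank_L_le_ev (principalRepartitions K F) (s44rm_diag K F) (s44rm_ev D P hπ)
    (s44rm_le_succ D P) s44rm_range_diag (s44rm_ev_surjective D P hπ) (s44rm_ker_ev D P hπ)
  rw [s44rm_comap_diag, s44rm_comap_diag] at this
  exact this

theorem s44rm_step_sup_le [Module.Finite K P.ResidueField]
    [Module.Finite K ↥(riemannRochSpace (D + Finsupp.single P 1))]
    (h : Module.finrank K ↥(riemannRochSpace (D + Finsupp.single P 1)) =
      Module.finrank K ↥(riemannRochSpace D) + P.deg) :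
    repartitionsOf (D + Finsupp.single P 1) ⊔ principalRepartitions K F ≤
      repartitionsOf D ⊔ principalRepartitions K F := by
  obtain ⟨π, hπ⟩ := IsDiscreteValuationRing.exists_irreducible P.toValuationSubring
  have h1 : Module.Finite K
      ↥((repartitionsOf (D + Finsupp.single P 1)).comap (s44rm_diag K F)) := by
    rw [s44rm_comap_diag]; infer_instance
  refine s44rm_sup_le_of_finrank_eq_ev (principalRepartitions K F) (s44rm_diag K F)
    (s44rm_ev D P hπ) (s44rm_le_succ D P) s44rm_range_diag (s44rm_ev_surjective D P hπ)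
    (s44rm_ker_ev D P hπ) ?_
  rw [s44rm_comap_diag, s44rm_comap_diag]
  exact h

end OneSided

/-! ### Transfer along divisors -/

theorem s44rm_transfer_single (Q : Divisor K F → Prop)
    (h : ∀ (D : Divisor K F) (P : Place K F), Q D ↔ Q (D + Finsupp.single P 1))
    (D : Divisor K F) (P : Place K F) (n : ℤ) : Q D ↔ Q (D + Finsupp.single P n) := by
  induction n using Int.induction_on with
  | zero => rw [Finsupp.single_zero, add_zero]
  | succ k ih =>
    rw [ih, h (D + Finsupp.single P (k : ℤ)) P, add_assoc, ← Finsupp.single_add]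
  | pred k ih =>
    rw [ih, h (D + Finsupp.single P (-(k : ℤ) - 1)) P, add_assoc, ← Finsupp.single_add]
    have : (-(k : ℤ) - 1 + 1) = -(k : ℤ) := by ring
    rw [this]

theorem s44rm_transfer_add (Q : Divisor K F → Prop)
    (h : ∀ (D : Divisor K F) (P : Place K F), Q D ↔ Q (D + Finsupp.single P 1))
    (E : Divisor K F) : ∀ D : Divisor K F, Q D ↔ Q (D + E) := by
  induction E using Finsupp.induction with
  | zero => intro D; rw [add_zero]
  | single_add P n E _ _ ih =>
    intro D
    rw [s44rm_transfer_single Q h D P n, ih (D + Finsupp.single P n), add_assoc]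

theorem s44rm_transfer (Q : Divisor K F → Prop)
    (h : ∀ (D : Divisor K F) (P : Place K F), Q D ↔ Q (D + Finsupp.single P 1))
    (D D' : Divisor K F) : Q D ↔ Q D' := by
  have := s44rm_transfer_add Q h (D' - D) D
  rwa [add_sub_cancel] at this

section Global

variable [hres : ∀ P : Place K F, Module.Finite K P.ResidueField]

/-- `L(D)` is finite-dimensional for every `D` as soon as `L(0)` is. -/
theorem s44rm_finite_L (h0 : Module.Finite K ↥(riemannRochSpace (0 : Divisor K F)))
    (D : Divisor K F) : Module.Finite K ↥(riemannRochSpace D) :=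
  (s44rm_transfer (fun D => Module.Finite K ↥(riemannRochSpace D))
    (fun D P => ⟨s44rm_step_finite_L_up D P, s44rm_step_finite_L_down D P⟩) 0 D).mp h0

/-- `H¹(D')` is finite-dimensional for every `D'` as soon as one `H¹(D)` is. -/
theorem s44rm_finite_H (D : Divisor K F) (h : Module.Finite K (H1 D)) (D' : Divisor K F) :
    Module.Finite K (H1 D') :=
  (s44rm_transfer (fun D => Module.Finite K (H1 D))
    (fun D P => ⟨s44rm_step_finite_H_up D P, s44rm_step_finite_H_down D P⟩) D D').mp h

/-! ### The index `deg D − ℓ(D)` and its maximisers -/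

/-- The index `deg D − ℓ(D)`. -/
def s44rm_idx (D : Divisor K F) : ℤ :=
  Divisor.degree D - Module.finrank K ↥(riemannRochSpace D)

/-- `D₀` maximises the index. -/
def s44rm_IsMax (D₀ : Divisor K F) : Prop := ∀ D : Divisor K F, s44rm_idx D ≤ s44rm_idx D₀

theorem s44rm_idx_le_succ (h0 : Module.Finite K ↥(riemannRochSpace (0 : Divisor K F)))
    (D : Divisor K F) (P : Place K F) : s44rm_idx D ≤ s44rm_idx (D + Finsupp.single P 1) := by
  have := s44rm_finite_L h0 (D + Finsupp.single P 1)
  have h := s44rm_step_finrank_le D P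
  unfold s44rm_idx
  rw [map_add, Divisor.degree_single]
  omega

theorem s44rm_idx_le_add_nat (h0 : Module.Finite K ↥(riemannRochSpace (0 : Divisor K F)))
    (P : Place K F) (n : ℕ) (D : Divisor K F) :
    s44rm_idx D ≤ s44rm_idx (D + Finsupp.single P (n : ℤ)) := by
  induction n with
  | zero => rw [Nat.cast_zero, Finsupp.single_zero, add_zero]
  | succ k ih =>
    have h1 := s44rm_idx_le_succ h0 (D + Finsupp.single P (k : ℤ)) P
    rw [add_assoc, ← Finsupp.single_add] at h1
    rw [Nat.cast_succ]
    exact ih.trans h1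

theorem s44rm_idx_le_add (h0 : Module.Finite K ↥(riemannRochSpace (0 : Divisor K F)))
    (E : Divisor K F) : ∀ D : Divisor K F, 0 ≤ E → s44rm_idx D ≤ s44rm_idx (D + E) := by
  induction E using Finsupp.induction with
  | zero => intro D _; rw [add_zero]
  | single_add P n E hP _ ih =>
    intro D hE
    have hEP : E P = 0 := Finsupp.notMem_support_iff.mp hP
    have hn : 0 ≤ n := by
      have := Finsupp.le_def.mp hE P
      rw [Finsupp.add_apply, Finsupp.single_eq_same, hEP, add_zero] at this
      exact this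
    have hE' : 0 ≤ E := by
      rw [Finsupp.le_def]
      intro v
      by_cases hv : v = P
      · subst hv; rw [hEP]; rfl
      · have := Finsupp.le_def.mp hE v
        rwa [Finsupp.add_apply, Finsupp.single_eq_of_ne hv, zero_add] at this
    obtain ⟨m, rfl⟩ := Int.eq_ofNat_of_zero_le hn
    have h1 := s44rm_idx_le_add_nat h0 P m D
    have h2 := ih (D + Finsupp.single P (m : ℤ)) hE'
    rw [add_assoc] at h2
    exact h1.trans h2

/-- The index `deg − ℓ` is monotone. -/
theorem s44rm_idx_mono (h0 : Module.Finite K ↥(riemannRochSpace (0 : Divisor K F)))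
    {D D' : Divisor K F} (h : D ≤ D') : s44rm_idx D ≤ s44rm_idx D' := by
  have := s44rm_idx_le_add h0 (D' - D) D (sub_nonneg.mpr h)
  rwa [add_sub_cancel] at this

theorem s44rm_sup_le_of_idx_eq (h0 : Module.Finite K ↥(riemannRochSpace (0 : Divisor K F)))
    (D : Divisor K F) (P : Place K F) (h : s44rm_idx (D + Finsupp.single P 1) = s44rm_idx D) :
    repartitionsOf (D + Finsupp.single P 1) ⊔ principalRepartitions K F ≤
      repartitionsOf D ⊔ principalRepartitions K F := by
  have := s44rm_finite_L h0 (D + Finsupp.single P 1)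
  apply s44rm_step_sup_le D P
  unfold s44rm_idx at h
  rw [map_add, Divisor.degree_single] at h
  omega

omit hres in
theorem s44rm_exists_isMax (hR1 : ∃ γ : ℤ, ∀ D : Divisor K F, s44rm_idx D ≤ γ) :
    ∃ D₀ : Divisor K F, s44rm_IsMax D₀ := by
  obtain ⟨γ, hγ⟩ := hR1
  obtain ⟨ub, ⟨D₀, hD₀⟩, hub⟩ := Int.exists_greatest_of_bdd
    (P := fun z => ∃ D : Divisor K F, s44rm_idx D = z)
    ⟨γ, fun z ⟨D, hD⟩ => hD ▸ hγ D⟩ ⟨s44rm_idx (0 : Divisor K F), 0, rfl⟩
  exact ⟨D₀, fun D => hD₀ ▸ hub _ ⟨D, rfl⟩⟩

theorem s44rm_isMax_succ (h0 : Module.Finite K ↥(riemannRochSpace (0 : Divisor K F)))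
    {D₀ : Divisor K F} (hmax : s44rm_IsMax D₀) (P : Place K F) :
    s44rm_IsMax (D₀ + Finsupp.single P 1) ∧
      repartitionsOf (D₀ + Finsupp.single P 1) ⊔ principalRepartitions K F ≤
        repartitionsOf D₀ ⊔ principalRepartitions K F := by
  have h1 := s44rm_idx_le_succ h0 D₀ P
  have h2 := hmax (D₀ + Finsupp.single P 1)
  have h3 : s44rm_idx (D₀ + Finsupp.single P 1) = s44rm_idx D₀ := le_antisymm h2 h1
  exact ⟨fun D => h3 ▸ hmax D, s44rm_sup_le_of_idx_eq h0 D₀ P h3⟩

theorem s44rm_isMax_nat (h0 : Module.Finite K ↥(riemannRochSpace (0 : Divisor K F)))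
    (P : Place K F) (n : ℕ) : ∀ {D₀ : Divisor K F}, s44rm_IsMax D₀ →
    s44rm_IsMax (D₀ + Finsupp.single P (n : ℤ)) ∧
      repartitionsOf (D₀ + Finsupp.single P (n : ℤ)) ⊔ principalRepartitions K F ≤
        repartitionsOf D₀ ⊔ principalRepartitions K F := by
  induction n with
  | zero =>
    intro D₀ hmax
    rw [Nat.cast_zero, Finsupp.single_zero, add_zero]
    exact ⟨hmax, le_rfl⟩
  | succ k ih =>
    intro D₀ hmax
    obtain ⟨h1, h2⟩ := ih hmax
    obtain ⟨h3, h4⟩ := s44rm_isMax_succ h0 h1 P
    rw [add_assoc, ← Finsupp.single_add] at h3 h4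
    rw [Nat.cast_succ]
    exact ⟨h3, h4.trans h2⟩

theorem s44rm_isMax_add (h0 : Module.Finite K ↥(riemannRochSpace (0 : Divisor K F)))
    (E : Divisor K F) : ∀ {D₀ : Divisor K F}, 0 ≤ E → s44rm_IsMax D₀ →
    s44rm_IsMax (D₀ + E) ∧
      repartitionsOf (D₀ + E) ⊔ principalRepartitions K F ≤
        repartitionsOf D₀ ⊔ principalRepartitions K F := by
  induction E using Finsupp.induction with
  | zero =>
    intro D₀ _ hmax
    rw [add_zero]
    exact ⟨hmax, le_rfl⟩
  | single_add P n E hP _ ih =>
    intro D₀ hE hmax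
    have hEP : E P = 0 := Finsupp.notMem_support_iff.mp hP
    have hn : 0 ≤ n := by
      have := Finsupp.le_def.mp hE P
      rw [Finsupp.add_apply, Finsupp.single_eq_same, hEP, add_zero] at this
      exact this
    have hE' : 0 ≤ E := by
      rw [Finsupp.le_def]
      intro v
      by_cases hv : v = P
      · subst hv; rw [hEP]; rfl
      · have := Finsupp.le_def.mp hE v
        rwa [Finsupp.add_apply, Finsupp.single_eq_of_ne hv, zero_add] at this
    obtain ⟨m, rfl⟩ := Int.eq_ofNat_of_zero_le hn
    obtain ⟨h1, h2⟩ := s44rm_isMax_nat h0 P m hmax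
    obtain ⟨h3, h4⟩ := ih hE' h1
    rw [add_assoc] at h3 h4
    exact ⟨h3, h4.trans h2⟩

/-! ### Every repartition is bounded by a divisor -/

omit hres in
theorem s44rm_finite_poles (hR0 : ∀ f : F, {v : Place K F | v.ord f < 0}.Finite)
    (α : ↥(repartitions K F)) :
    {v : Place K F | ¬ v.adicValuation ((α : Place K F → F) v) ≤ 1}.Finite := by
  obtain ⟨a, ha⟩ := α
  show {v : Place K F | ¬ v.adicValuation (a v) ≤ 1}.Finite
  induction ha using Algebra.adjoin_induction with
  | mem x hx => exact hx
  | algebraMap f =>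
    have : {v : Place K F | ¬ v.adicValuation ((algebraMap F (Place K F → F) f) v) ≤ 1} =
        {v : Place K F | v.ord f < 0} :=
      Set.ext fun v => v.not_adicValuation_le_one_iff
    rw [this]
    exact hR0 f
  | add x y _ _ hx hy =>
    refine (hx.union hy).subset fun v hv => ?_
    by_contra hcon
    rw [Set.mem_union, not_or] at hcon
    simp only [Set.mem_ofPred_eq, not_not] at hcon hv
    exact hv ((Valuation.map_add _ _ _).trans (max_le hcon.1 hcon.2))
  | mul x y _ _ hx hy =>
    refine (hx.union hy).subset fun v hv => ?_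
    by_contra hcon
    rw [Set.mem_union, not_or] at hcon
    simp only [Set.mem_ofPred_eq, not_not] at hcon hv
    apply hv
    show v.adicValuation (x v * y v) ≤ 1
    rw [map_mul]
    exact mul_le_one' hcon.1 hcon.2

omit hres in
theorem s44rm_exists_bound (hR0 : ∀ f : F, {v : Place K F | v.ord f < 0}.Finite)
    (α : ↥(repartitions K F)) : ∃ D : Divisor K F, α ∈ repartitionsOf D := by
  classical
  have hfin := s44rm_finite_poles hR0 α
  let D : Divisor K F := Finsupp.onFinset hfin.toFinset
    (fun v => max 0 (-(v.ord ((α : Place K F → F) v)))) (by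
      intro v hv
      rw [Set.Finite.mem_toFinset, Set.mem_ofPred_eq, v.not_adicValuation_le_one_iff]
      by_contra hcon
      apply hv
      rw [max_eq_left]
      omega)
  refine ⟨D, fun v => ?_⟩
  rw [v.adicValuation_le_exp_iff]
  by_cases h0 : (α : Place K F → F) v = 0
  · exact Or.inl h0
  · right
    show -(max 0 (-(v.ord ((α : Place K F → F) v)))) ≤ _
    have := le_max_right 0 (-(v.ord ((α : Place K F → F) v)))
    omega

/-! ### Vanishing of `H¹` above a maximiser, finiteness of `H¹` -/

/-- **`H¹(D₀) = 0` for a maximiser `D₀` of `deg − ℓ`.** -/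
theorem s44rm_sup_eq_top_of_isMax (hR0 : ∀ f : F, {v : Place K F | v.ord f < 0}.Finite)
    (h0 : Module.Finite K ↥(riemannRochSpace (0 : Divisor K F)))
    {D₀ : Divisor K F} (hmax : s44rm_IsMax D₀) :
    repartitionsOf D₀ ⊔ principalRepartitions K F = ⊤ := by
  classical
  rw [eq_top_iff]
  intro α _
  obtain ⟨D', hD'⟩ := s44rm_exists_bound hR0 α
  -- `E = (D' − D₀)⁺`
  have hE : 0 ≤ (D₀ ⊔ D') - D₀ := sub_nonneg.mpr le_sup_left
  obtain ⟨-, h2⟩ := s44rm_isMax_add h0 ((D₀ ⊔ D') - D₀) hE hmax
  rw [add_sub_cancel] at h2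
  exact h2 (Submodule.mem_sup_left (repartitionsOf_mono le_sup_right hD'))

/-- Vanishing of `H¹(D)` for every `D` above a maximiser. -/
theorem s44rm_sup_eq_top_of_le (hR0 : ∀ f : F, {v : Place K F | v.ord f < 0}.Finite)
    (h0 : Module.Finite K ↥(riemannRochSpace (0 : Divisor K F)))
    {D₀ D : Divisor K F} (hmax : s44rm_IsMax D₀) (hle : D₀ ≤ D) :
    repartitionsOf D ⊔ principalRepartitions K F = ⊤ := by
  rw [eq_top_iff, ← s44rm_sup_eq_top_of_isMax hR0 h0 hmax]
  exact sup_le_sup_right (repartitionsOf_mono hle) _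

omit hres in
theorem s44rm_subsingleton_H1 {D : Divisor K F}
    (h : repartitionsOf D ⊔ principalRepartitions K F = ⊤) : Subsingleton (H1 D) := by
  exact Submodule.Quotient.subsingleton_iff.mpr h

/-- **`H¹(D)` is finite-dimensional for every `D`** (so `genusFF K F` is the honest genus),
from the uniform weak Riemann inequality. -/
theorem s44rm_finite_H1 (hR0 : ∀ f : F, {v : Place K F | v.ord f < 0}.Finite)
    (hR1 : ∃ γ : ℤ, ∀ D : Divisor K F, s44rm_idx D ≤ γ)
    (h0 : Module.Finite K ↥(riemannRochSpace (0 : Divisor K F))) (D : Divisor K F) :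
    Module.Finite K (H1 D) := by
  obtain ⟨D₀, hmax⟩ := s44rm_exists_isMax hR1
  have := s44rm_subsingleton_H1 (s44rm_sup_eq_top_of_isMax hR0 h0 hmax)
  exact s44rm_finite_H D₀ inferInstance D

/-- **Riemann's theorem, unconditional form.** -/
theorem s44rm_riemann_full (hR0 : ∀ f : F, {v : Place K F | v.ord f < 0}.Finite)
    (hR1 : ∃ γ : ℤ, ∀ D : Divisor K F, s44rm_idx D ≤ γ)
    (h0 : Module.Finite K ↥(riemannRochSpace (0 : Divisor K F))) (D : Divisor K F) :
    Module.Finite K ↥(riemannRochSpace D) ∧ Module.Finite K (H1 D) ∧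
      (Module.finrank K ↥(riemannRochSpace D) : ℤ) - Module.finrank K (H1 D) =
        Divisor.degree D +
          ((Module.finrank K ↥(riemannRochSpace (0 : Divisor K F)) : ℤ) - genusFF K F) :=
  s44rm_riemann h0 (s44rm_finite_H1 hR0 hR1 h0 0) D

/-- Above a maximiser: `ℓ(D) = deg D + ℓ(0) − g`. -/
theorem s44rm_riemann_eq_of_le (hR0 : ∀ f : F, {v : Place K F | v.ord f < 0}.Finite)
    (hR1 : ∃ γ : ℤ, ∀ D : Divisor K F, s44rm_idx D ≤ γ)
    (h0 : Module.Finite K ↥(riemannRochSpace (0 : Divisor K F)))
    {D₀ D : Divisor K F} (hmax : s44rm_IsMax D₀) (hle : D₀ ≤ D) :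
    (Module.finrank K ↥(riemannRochSpace D) : ℤ) =
      Divisor.degree D +
        ((Module.finrank K ↥(riemannRochSpace (0 : Divisor K F)) : ℤ) - genusFF K F) := by
  obtain ⟨-, -, h⟩ := s44rm_riemann_full hR0 hR1 h0 D
  have := s44rm_subsingleton_H1 (s44rm_sup_eq_top_of_le hR0 h0 hmax hle)
  have h1 : Module.finrank K (H1 D) = 0 := Module.finrank_zero_of_subsingleton
  rw [h1] at h
  simpa using h

/-! ### Large degree: `H¹(D) = 0` and `ℓ(D) = deg D + ℓ(0) − g` -/

omit hres in
theorem s44rm_finite_poles_of_principal [HasPrincipalDivisors K F] (f : F) :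
    {v : Place K F | v.ord f < 0}.Finite := by
  rcases eq_or_ne f 0 with rfl | hf
  · simp
  · obtain ⟨D, hD, -⟩ := HasPrincipalDivisors.exists_divisor (K := K) f hf
    refine D.support.finite_toSet.subset fun v hv => ?_
    rw [Finset.mem_coe, Finsupp.mem_support_iff, hD v]
    rw [Set.mem_ofPred_eq] at hv
    omega

omit hres in
/-- Multiplication by `z` maps `A(D + (z)) + F` into `A(D) + F`. -/
theorem s44rm_smul_mem_sup {z : F} (hz : z ≠ 0) {D Dz : Divisor K F}
    (hDz : ∀ v : Place K F, Dz v = v.ord z) {β : ↥(repartitions K F)}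
    (hβ : β ∈ repartitionsOf (D + Dz) ⊔ principalRepartitions K F) :
    z • β ∈ repartitionsOf D ⊔ principalRepartitions K F := by
  obtain ⟨a, ha, s, hs, rfl⟩ := Submodule.mem_sup.mp hβ
  rw [smul_add]
  refine Submodule.add_mem _ (Submodule.mem_sup_left ?_) (Submodule.mem_sup_right ?_)
  · intro v
    show v.adicValuation (z * (a : Place K F → F) v) ≤ exp (D v)
    have h1 := ha v
    rw [Finsupp.add_apply, hDz v] at h1
    rw [map_mul, v.adicValuation_eq_exp_neg_ord hz]
    calc exp (-v.ord z) * v.adicValuation ((a : Place K F → F) v)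
        ≤ exp (-v.ord z) * exp (D v + v.ord z) := mul_le_mul' le_rfl h1
      _ = exp (D v) := by rw [← exp_add]; congr 1; ring
  · obtain ⟨f, hf⟩ := mem_principalRepartitions_iff.mp hs
    rw [mem_principalRepartitions_iff]
    refine ⟨z * f, ?_⟩
    funext v
    show z * (s : Place K F → F) v = z * f
    rw [hf]

/-- **Riemann's theorem for divisors of large degree.** -/
theorem s44rm_riemann_large [HasPrincipalDivisors K F]
    (hR1 : ∃ γ : ℤ, ∀ D : Divisor K F, s44rm_idx D ≤ γ)
    (h0 : Module.Finite K ↥(riemannRochSpace (0 : Divisor K F))) :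
    ∃ c : ℤ, ∀ D : Divisor K F, c ≤ Divisor.degree D →
      repartitionsOf D ⊔ principalRepartitions K F = ⊤ ∧
      (Module.finrank K ↥(riemannRochSpace D) : ℤ) =
        Divisor.degree D +
          ((Module.finrank K ↥(riemannRochSpace (0 : Divisor K F)) : ℤ) - genusFF K F) := by
  have hR0 : ∀ f : F, {v : Place K F | v.ord f < 0}.Finite :=
    fun f => s44rm_finite_poles_of_principal f
  obtain ⟨D₀, hmax⟩ := s44rm_exists_isMax hR1
  refine ⟨Divisor.degree D₀ + 1 -
    ((Module.finrank K ↥(riemannRochSpace (0 : Divisor K F)) : ℤ) - genusFF K F), fun D hD => ?_⟩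
  -- a nonzero element of `L(D − D₀)`
  obtain ⟨hfin, -, hRR⟩ := s44rm_riemann_full hR0 hR1 h0 (D - D₀)
  have hpos : 0 < Module.finrank K ↥(riemannRochSpace (D - D₀)) := by
    have : (0 : ℤ) ≤ Module.finrank K (H1 (D - D₀)) := Int.natCast_nonneg _
    rw [map_sub] at hRR
    have : (0 : ℤ) < Module.finrank K ↥(riemannRochSpace (D - D₀)) := by omega
    exact_mod_cast this
  obtain ⟨⟨z, hzmem⟩, hzne⟩ := Module.finrank_pos_iff_exists_ne_zero.mp hpos
  have hz : z ≠ 0 := fun h => hzne (Subtype.ext h)
  obtain ⟨Dz, hDz, -⟩ := HasPrincipalDivisors.exists_divisor (K := K) z hz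
  have hle : D₀ ≤ D + Dz := by
    rw [Finsupp.le_def]
    intro v
    rcases mem_riemannRochSpace_iff.mp hzmem v with h | h
    · exact absurd h hz
    · rw [Finsupp.sub_apply] at h
      rw [Finsupp.add_apply, hDz v]
      omega
  have htop' := s44rm_sup_eq_top_of_le hR0 h0 hmax hle
  have htop : repartitionsOf D ⊔ principalRepartitions K F = ⊤ := by
    rw [eq_top_iff]
    intro γ _
    have h1 : z⁻¹ • γ ∈ repartitionsOf (D + Dz) ⊔ principalRepartitions K F := by
      rw [htop']; exact Submodule.mem_top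
    have h2 := s44rm_smul_mem_sup hz hDz h1
    rwa [smul_smul, mul_inv_cancel₀ hz, one_smul] at h2
  refine ⟨htop, ?_⟩
  obtain ⟨-, -, h⟩ := s44rm_riemann_full hR0 hR1 h0 D
  have := s44rm_subsingleton_H1 htop
  have h1 : Module.finrank K (H1 D) = 0 := Module.finrank_zero_of_subsingleton
  rw [h1] at h
  simpa using h

end Global

end Fermat.Agent.Lib.S44

end
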