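/-
[M-AT-P re-publication under Lib/S44 (fresh names `s44rm_`/`s44rq_`) of helper5's P-AT-P brick
`Lib/S33/SepFF.lean`, which is not on main.]
P-AT-P programme, brick [RIEMANN] part 3a (helper5): the Dedekind dictionary and the fundamental
identity `Σ_{P | x = 0} ord_P x = [F : K(x)]` of Lib/FF (FFBasicDedekind / FFBasicIdentity, which
assume `CharZero K`), ported VERBATIM to a SEPARABLE generator `x` in any characteristic:
`[FFGen K x] [Algebra.IsSeparable K⟮x⟯ F]`.  Only the declarations of Lib/FF that carry the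
`CharZero` hypothesis are repeated (prefix `s44rq_`); the others are used as they are.
-/
import Fermat.Agent.Lib.FF.FFBasicIdentity
import Fermat.Agent.Lib.S37.DegOne

set_option autoImplicit false
set_option linter.style.haveILetI false
set_option linter.unusedSectionVars false
set_option linter.deprecated false

noncomputable section

open IsDedekindDomain WithZero IsLocalRing AlgebraicCurve IntermediateField Polynomial
  Fermat.Agent.Lib.FF
open scoped IntermediateField.algebraAdjoinAdjoin

namespace Fermat.Agent.Lib.S44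

variable {K F : Type*} [Field K] [Field F] [Algebra K F]

section Instances
variable {x : F}

instance s44rq_isDedekindDomain [FFGen K x] [Algebra.IsSeparable K⟮x⟯ F] :
    IsDedekindDomain (ffB K x) :=
  integralClosure.isDedekindDomain (ffA K x) K⟮x⟯ F

instance s44rq_finite [FFGen K x] [Algebra.IsSeparable K⟮x⟯ F] :
    Module.Finite (ffA K x) (ffB K x) :=
  IsIntegralClosure.finite (ffA K x) K⟮x⟯ F (ffB K x)

end Instances

section Dictionary

variable (K) (x : F) [FFGen K x] [Algebra.IsSeparable K⟮x⟯ F]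

/-- the place attached to a nonzero prime of `B` -/
def s44rq_placeOf (w : HeightOneSpectrum (ffB K x)) : Place K F :=
  Place.ofHeightOneSpectrum (K := K) w

variable {K x}

theorem s44rq_placeOf_toValuationSubring (w : HeightOneSpectrum (ffB K x)) :
    (s44rq_placeOf K x w).toValuationSubring = (w.valuation F).valuationSubring := rfl

theorem s44rq_mem_placeOf_iff (w : HeightOneSpectrum (ffB K x)) (f : F) :
    f ∈ (s44rq_placeOf K x w).toValuationSubring ↔ w.valuation F f ≤ 1 := Iff.rfl

theorem s44rq_coe_mem_placeOf (w : HeightOneSpectrum (ffB K x)) (b : ffB K x) :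
    (b : F) ∈ (s44rq_placeOf K x w).toValuationSubring :=
  w.valuation_le_one b

theorem s44rq_x_mem_placeOf (w : HeightOneSpectrum (ffB K x)) :
    x ∈ (s44rq_placeOf K x w).toValuationSubring := by
  have hx : x ∈ ffB K x := by
    have : IsIntegral (ffA K x) (algebraMap (ffA K x) F (ffX K x)) := isIntegral_algebraMap
    exact this
  exact s44rq_coe_mem_placeOf w ⟨x, hx⟩

/-- the normalised order of `s44rq_placeOf w` is the `w`-adic valuation -/
theorem s44rq_placeOf_ord (w : HeightOneSpectrum (ffB K x)) (f : F) :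
    (s44rq_placeOf K x w).ord f = -(WithZero.log (w.valuation F f)) := by
  rcases eq_or_ne f 0 with rfl | hf
  · simp
  set v := s44rq_placeOf K x w
  obtain ⟨m, hm, hmf⟩ := ff_ord_unique v (fun f => -(WithZero.log (w.valuation F f)))
    (fun f g hf hg => by
      simp only [map_mul]
      rw [WithZero.log_mul ((Valuation.ne_zero_iff _).mpr hf) ((Valuation.ne_zero_iff _).mpr hg)]
      ring)
    (fun f hf => by
      rw [s44rq_mem_placeOf_iff, neg_nonneg, ← WithZero.log_one,
        WithZero.log_le_log ((Valuation.ne_zero_iff _).mpr hf) one_ne_zero])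
  obtain ⟨ϖ, hϖ⟩ := w.valuation_exists_uniformizer F
  have hϖ0 : ϖ ≠ 0 := by
    rintro rfl
    rw [map_zero] at hϖ
    exact WithZero.exp_ne_zero hϖ.symm
  have h1 := hmf ϖ hϖ0
  simp only [hϖ, WithZero.log_exp, neg_neg] at h1
  have hm1 : m = 1 := by
    have hd : m ∣ 1 := ⟨v.ord ϖ, h1⟩
    exact Int.eq_one_of_dvd_one hm.le hd
  have := hmf f hf
  simp only [hm1, one_mul] at this
  exact this.symm

end Dictionary


section Dictionary2

variable {x : F} [FFGen K x] [Algebra.IsSeparable K⟮x⟯ F]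

theorem s44rq_placeOf_injective : Function.Injective (s44rq_placeOf K x) := by
  intro w w' h
  apply HeightOneSpectrum.eq_of_valuation_isEquiv_valuation (K := F)
  rw [Valuation.isEquiv_iff_val_le_one]
  intro f
  have := congrArg Place.toValuationSubring h
  rw [← s44rq_mem_placeOf_iff, ← s44rq_mem_placeOf_iff, this]

theorem s44rq_placeOf_primeOf (v : Place K F) (hx : x ∈ v.toValuationSubring) :
    s44rq_placeOf K x (ff_primeOf v hx) = v := by
  apply ff_place_eq_of_le
  intro f hf
  rw [s44rq_mem_placeOf_iff] at hf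
  obtain ⟨n, d, hnd⟩ := (ff_primeOf v hx).exists_primeCompl_mul_eq_of_integer f hf
  have hd : IsUnit (ff_BtoO v hx d) := by
    by_contra hnu
    apply d.2
    show (d : ffB K x) ∈ (IsLocalRing.maximalIdeal v.toValuationSubring).comap (ff_BtoO v hx)
    rw [Ideal.mem_comap, IsLocalRing.mem_maximalIdeal]; exact hnu
  have hd0 : algebraMap (ffB K x) F d ≠ 0 := by
    intro h0
    have : (ff_BtoO v hx d) = 0 := Subtype.ext h0
    rw [this] at hd
    exact not_isUnit_zero hd
  have : f = algebraMap (ffB K x) F n * (algebraMap (ffB K x) F d)⁻¹ := by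
    rw [← hnd, mul_assoc, mul_inv_cancel₀ hd0, mul_one]
  rw [this]
  exact mul_mem (ff_B_mem_of_mem v hx n) (ff_inv_mem_of_isUnit v hd)

theorem s44rq_range_placeOf :
    Set.range (s44rq_placeOf K x) = {v | x ∈ v.toValuationSubring} := by
  ext v
  constructor
  · rintro ⟨w, rfl⟩
    exact s44rq_x_mem_placeOf w
  · intro hx
    exact ⟨ff_primeOf v hx, s44rq_placeOf_primeOf v hx⟩


end Dictionary2

section Inertia

variable {x : F} [FFGen K x] [Algebra.IsSeparable K⟮x⟯ F] [IsAlgClosed K]

theorem s44rq_inertiaDeg_eq_one (P : Ideal (ffB K x)) [P.IsPrime] [P.LiesOver (ffP K x)] :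
    Ideal.inertiaDeg' (ffP K x) P = 1 := by
  apply ff_inertiaDeg_eq_one_aux (K := K)
  intro y
  obtain ⟨a, rfl⟩ := Ideal.Quotient.mk_surjective y
  obtain ⟨c, hc⟩ := ffA_exists_const a
  refine ⟨c, ?_⟩
  rw [IsScalarTower.algebraMap_apply K (ffA K x) (ffA K x ⧸ ffP K x)]
  symm
  exact Ideal.Quotient.eq.mpr hc


end Inertia

section Ramification

variable {x : F} [FFGen K x] [Algebra.IsSeparable K⟮x⟯ F]

theorem s44rq_intValuation_XB (w : HeightOneSpectrum (ffB K x)) :
    w.intValuation (ffXB K x) = WithZero.exp (-((s44rq_placeOf K x w).ord x)) := by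
  rw [s44rq_placeOf_ord, neg_neg]
  have h1 : w.valuation F x = w.intValuation (ffXB K x) := by
    rw [← w.valuation_of_algebraMap (K := F)]; rfl
  rw [h1, WithZero.exp_log]
  exact w.intValuation_ne_zero _ ffXB_ne_zero

theorem s44rq_ord_x_nonneg (w : HeightOneSpectrum (ffB K x)) : 0 ≤ (s44rq_placeOf K x w).ord x := by
  have hx0 : x ≠ 0 := by
    have := ff_sub_ne_zero (K := K) (x := x) 0
    simpa using this
  exact (ff_mem_iff_ord_nonneg _ hx0).mp (s44rq_x_mem_placeOf w)

theorem s44rq_ramificationIdx_eq (w : HeightOneSpectrum (ffB K x)) :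
    (Ideal.ramificationIdx' (ffP K x) w.asIdeal : ℤ) = (s44rq_placeOf K x w).ord x := by
  obtain ⟨n, hn⟩ := Int.eq_ofNat_of_zero_le (s44rq_ord_x_nonneg w)
  have hval := s44rq_intValuation_XB w
  rw [hn] at hval
  have h1 : (ffP K x).map (algebraMap (ffA K x) (ffB K x)) ≤ w.asIdeal ^ n := by
    rw [ffP_map, Ideal.span_singleton_le_iff_mem, ← w.intValuation_le_pow_iff_mem, hval]
  have h2 : ¬ (ffP K x).map (algebraMap (ffA K x) (ffB K x)) ≤ w.asIdeal ^ (n + 1) := by
    rw [ffP_map, Ideal.span_singleton_le_iff_mem, ← w.intValuation_le_pow_iff_mem, hval,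
      WithZero.exp_le_exp]
    push_cast
    omega
  rw [Ideal.ramificationIdx'_spec h1 h2, hn]


end Ramification

section FibreSum

variable {x : F} [FFGen K x] [Algebra.IsSeparable K⟮x⟯ F]

theorem s44rq_ord_x_pos_iff (w : HeightOneSpectrum (ffB K x)) :
    0 < (s44rq_placeOf K x w).ord x ↔ ffXB K x ∈ w.asIdeal := by
  rw [← w.intValuation_lt_one_iff_mem, s44rq_intValuation_XB, ← WithZero.exp_zero,
    WithZero.exp_lt_exp]
  omega

theorem s44rq_liesOver_of_mem (w : HeightOneSpectrum (ffB K x)) (h : ffXB K x ∈ w.asIdeal) :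
    w.asIdeal.LiesOver (ffP K x) := by
  constructor
  have hle : ffP K x ≤ w.asIdeal.under (ffA K x) := by
    rw [ffP, Ideal.span_singleton_le_iff_mem, Ideal.under_def, Ideal.mem_comap]
    exact h
  have hne : w.asIdeal.under (ffA K x) ≠ ⊤ := by
    rw [Ideal.under_def]
    exact (Ideal.comap_isPrime _ _).ne_top
  exact (ffP_isMaximal (K := K) (x := x)).eq_of_le hne hle

theorem s44rq_mem_of_liesOver (P : Ideal (ffB K x)) [h : P.LiesOver (ffP K x)] : ffXB K x ∈ P := by
  have h1 : ffX K x ∈ ffP K x := Ideal.subset_span rfl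
  rw [h.over, Ideal.under_def, Ideal.mem_comap] at h1
  exact h1

variable (K x) in
/-- (D4) the fundamental identity for the zeros of `x` -/
theorem s44rq_fibreSum [IsAlgClosed K] : ∃ P : Finset (Place K F),
    (∀ v, v ∈ P ↔ 0 < v.ord x) ∧ ∑ v ∈ P, v.ord x = Module.finrank K⟮x⟯ F := by
  classical
  set S := IsDedekindDomain.primesOverFinset (ffP K x) (ffB K x) with hS
  have hmem : ∀ P : Ideal (ffB K x), P ∈ S ↔ P ∈ Ideal.primesOver (ffP K x) (ffB K x) :=
    fun P => IsDedekindDomain.mem_primesOverFinset_iff (A := ffA K x) (p := ffP K x)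
      (ffP_ne_bot (K := K) (x := x)) (ffB K x)
  have hprime : ∀ P : {P // P ∈ S}, P.1.IsPrime := fun P => ((hmem P.1).mp P.2).1
  have hlies : ∀ P : {P // P ∈ S}, P.1.LiesOver (ffP K x) := fun P => ((hmem P.1).mp P.2).2
  have hnebot : ∀ P : {P // P ∈ S}, P.1 ≠ ⊥ := fun P h => by
    haveI := hlies P
    have h1 := s44rq_mem_of_liesOver (K := K) (x := x) P.1
    rw [h, Ideal.mem_bot] at h1
    exact ffXB_ne_zero (K := K) (x := x) h1
  let φ : {P // P ∈ S} → HeightOneSpectrum (ffB K x) := fun P => ⟨P.1, hprime P, hnebot P⟩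
  have hφinj : Function.Injective φ := by
    intro P Q h
    apply Subtype.ext
    exact congrArg HeightOneSpectrum.asIdeal h
  refine ⟨S.attach.image (fun P => s44rq_placeOf K x (φ P)), ?_, ?_⟩
  · intro v
    rw [Finset.mem_image]
    constructor
    · rintro ⟨P, _, rfl⟩
      rw [s44rq_ord_x_pos_iff]
      haveI := hlies P
      exact s44rq_mem_of_liesOver P.1
    · intro hv
      have hx0 : x ≠ 0 := by
        have := ff_sub_ne_zero (K := K) (x := x) 0
        simpa using this
      have hx : x ∈ v.toValuationSubring := (ff_mem_iff_ord_nonneg v hx0).mpr hv.le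
      set w := ff_primeOf v hx with hw
      have hvw : s44rq_placeOf K x w = v := s44rq_placeOf_primeOf v hx
      have hxw : ffXB K x ∈ w.asIdeal := by
        rw [← s44rq_ord_x_pos_iff, hvw]; exact hv
      have hwS : w.asIdeal ∈ S := by
        rw [hmem]
        exact ⟨w.isPrime, s44rq_liesOver_of_mem w hxw⟩
      refine ⟨⟨w.asIdeal, hwS⟩, Finset.mem_attach _ _, ?_⟩
      rw [← hvw]
  · rw [Finset.sum_image (fun P _ Q _ h => hφinj (s44rq_placeOf_injective h))]
    have h1 : ∀ P ∈ S.attach, (s44rq_placeOf K x (φ P)).ord x =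
        ((Ideal.ramificationIdx' (ffP K x) P.1 * Ideal.inertiaDeg' (ffP K x) P.1 : ℕ) : ℤ) := by
      intro P _
      haveI := hprime P
      haveI := hlies P
      rw [s44rq_inertiaDeg_eq_one P.1, mul_one, ← s44rq_ramificationIdx_eq (φ P)]
    rw [Finset.sum_congr rfl h1, ← Nat.cast_sum,
      Finset.sum_attach S (fun P => Ideal.ramificationIdx' (ffP K x) P * Ideal.inertiaDeg' (ffP K x) P)]
    congr 1
    exact Ideal.sum_ramification_inertia (R := ffA K x) (ffB K x) K⟮x⟯ F (p := ffP K x)
      (ffP_ne_bot (K := K) (x := x))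


end FibreSum

section FibreSum2

theorem s44rq_isSeparable_of_eq {x y : F} (h : K⟮y⟯ = K⟮x⟯) [hs : Algebra.IsSeparable K⟮x⟯ F] :
    Algebra.IsSeparable K⟮y⟯ F := by
  rw [h]; exact hs

variable (K) (x : F) [FFGen K x] [Algebra.IsSeparable K⟮x⟯ F] [IsAlgClosed K]

/-- (D4) zeros of `x - c` -/
theorem s44rq_fibreSum_sub_const (c : K) : ∃ P : Finset (Place K F),
    (∀ v, v ∈ P ↔ 0 < v.ord (x - algebraMap K F c)) ∧
      ∑ v ∈ P, v.ord (x - algebraMap K F c) = Module.finrank K⟮x⟯ F := by
  haveI : Algebra.IsSeparable K⟮x - algebraMap K F c⟯ F :=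
    s44rq_isSeparable_of_eq (ff_adjoin_sub_const x c)
  obtain ⟨P, h1, h2⟩ := s44rq_fibreSum K (x - algebraMap K F c)
  refine ⟨P, h1, ?_⟩
  rw [h2, ff_adjoin_sub_const]

/-- (D4) poles of `x` -/
theorem s44rq_fibreSum_poles : ∃ P : Finset (Place K F),
    (∀ v, v ∈ P ↔ v.ord x < 0) ∧ ∑ v ∈ P, v.ord x = -(Module.finrank K⟮x⟯ F : ℤ) := by
  haveI : Algebra.IsSeparable K⟮x⁻¹⟯ F := s44rq_isSeparable_of_eq (ff_adjoin_inv x)
  obtain ⟨P, h1, h2⟩ := s44rq_fibreSum K x⁻¹
  refine ⟨P, fun v => ?_, ?_⟩
  · rw [h1, v.ord_inv]; omega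
  · rw [ff_adjoin_inv] at h2
    rw [← h2, ← Finset.sum_neg_distrib]
    exact Finset.sum_congr rfl (fun v _ => by rw [v.ord_inv, neg_neg])

end FibreSum2

end Fermat.Agent.Lib.S44

end
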