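/-
[M-AT-P re-publication under Lib/S44 (fresh names `s44rm_`/`s44rq_`) of helper5's P-AT-P brick
`Lib/S33/RiemannIneq.lean`, which is not on main.]
P-AT-P programme, brick [RIEMANN] part 3b (helper5): the UNIFORM WEAK RIEMANN INEQUALITY
`deg D − ℓ(D) ≤ γ` for a function field `F/K`, `K` algebraically closed of ANY characteristic,
with a separable generator `x` (`[FFGen K x] [Algebra.IsSeparable K⟮x⟯ F]`) and principal divisors
of degree zero (`[HasPrincipalDivisors K F]`); consequently (Lib/S33/RiemannFull) `H¹(D)` is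
finite-dimensional for every `D`, `L(0) = K`, and Riemann's theorem holds with
`g = genusFF K F`.

The big spaces `V_m ≤ L((m + c₀) B)` are those of Lib/S37/IRiemann (which assumes `CharZero K`),
ported verbatim on top of Lib/S33/SepFF.
-/
import Fermat.Agent.Lib.S44.RSepFF
import Fermat.Agent.Lib.S44.RRiemFull

set_option autoImplicit false

noncomputable section

open AlgebraicCurve IntermediateField Polynomial Fermat.Agent.Lib.FF Fermat.Agent.Lib.S37
open scoped IntermediateField.algebraAdjoinAdjoin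

namespace Fermat.Agent.Lib.S44

set_option linter.unusedSectionVars false

variable {K F : Type*} [Field K] [Field F] [Algebra K F]

/-! ### Part 1: the spaces `L(D)` -/

theorem s44rm_mem_L {D : Divisor K F} {f : F} (hf : f ≠ 0) :
    f ∈ riemannRochSpace D ↔ ∀ v : Place K F, 0 ≤ D v + v.ord f := by
  rw [mem_riemannRochSpace_iff]
  refine forall_congr' fun v => ?_
  constructor
  · rintro (h | h)
    · exact absurd h hf
    · omega
  · intro h
    right
    omega

theorem s44rm_L_mono {D D' : Divisor K F} (h : D ≤ D') :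
    riemannRochSpace D ≤ riemannRochSpace D' := by
  intro f hf
  rw [mem_riemannRochSpace_iff] at hf ⊢
  intro v
  rcases hf v with h0 | h0
  · exact Or.inl h0
  · right
    have := Finsupp.le_def.mp h v
    omega

/-- `L(D₁) · L(D₂) ⊆ L(D₁ + D₂)`. -/
theorem s44rm_mul_mem_L {D₁ D₂ : Divisor K F} {f g : F} (hf : f ∈ riemannRochSpace D₁)
    (hg : g ∈ riemannRochSpace D₂) : f * g ∈ riemannRochSpace (D₁ + D₂) := by
  rcases eq_or_ne f 0 with rfl | hf0
  · rw [zero_mul]; exact Submodule.zero_mem _
  rcases eq_or_ne g 0 with rfl | hg0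
  · rw [mul_zero]; exact Submodule.zero_mem _
  rw [s44rm_mem_L hf0] at hf
  rw [s44rm_mem_L hg0] at hg
  rw [s44rm_mem_L (mul_ne_zero hf0 hg0)]
  intro v
  rw [v.ord_mul hf0 hg0, Finsupp.add_apply]
  have := hf v
  have := hg v
  omega

section Step

variable (x : F) [FFGen K x] [Algebra.IsSeparable K⟮x⟯ F] [IsAlgClosed K]

include x in
theorem s44rm_degree_eq_sum (D : Divisor K F) : Divisor.degree D = D.sum fun _ n => n := by
  rw [Divisor.degree, Finsupp.liftAddHom_apply]
  refine Finsupp.sum_congr fun v _ => ?_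
  rw [AddMonoidHom.coe_mulRight, s37dg_deg_eq_one x v]
  simp

include x in
theorem s44rm_degree_nonneg {E : Divisor K F} (hE : 0 ≤ E) : 0 ≤ Divisor.degree E := by
  rw [s44rm_degree_eq_sum x]
  exact Finsupp.sum_nonneg fun v _ => Finsupp.le_def.mp hE v

include x in
theorem s44rm_degree_mono {D D' : Divisor K F} (h : D ≤ D') :
    Divisor.degree D ≤ Divisor.degree D' := by
  have h1 : 0 ≤ D' - D := sub_nonneg.mpr h
  have h2 := s44rm_degree_nonneg x h1
  rw [map_sub] at h2
  omega

include x in
theorem s44rm_eq_zero_of_degree_eq_zero {E : Divisor K F} (hE : 0 ≤ E)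
    (hdeg : Divisor.degree E = 0) : E = 0 := by
  rw [s44rm_degree_eq_sum x, Finsupp.sum] at hdeg
  have h1 := (Finset.sum_eq_zero_iff_of_nonneg fun v _ => Finsupp.le_def.mp hE v).mp hdeg
  ext v
  by_cases hv : v ∈ E.support
  · exact h1 v hv
  · exact Finsupp.notMem_support_iff.mp hv

/-! ### Part 4: the pole divisor of `x` and the big spaces -/

include x in
/-- The pole divisor `B = (x)_∞`, of degree `n = [F : K(x)]`. -/
theorem s44rm_exists_poleDivisor : ∃ B : Divisor K F,
    (∀ v : Place K F, 0 ≤ v.ord x → B v = 0) ∧ (∀ v : Place K F, v.ord x < 0 → B v = -v.ord x) ∧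
      Divisor.degree B = (Module.finrank K⟮x⟯ F : ℤ) := by
  classical
  obtain ⟨P, hP, hsum⟩ := s44rq_fibreSum_poles K x
  let B : Divisor K F := Finsupp.onFinset P (fun v => if v.ord x < 0 then -v.ord x else 0) (by
    intro v hv
    rw [hP]
    by_contra h
    exact hv (if_neg h))
  have hB : ∀ v, B v = if v.ord x < 0 then -v.ord x else 0 := fun v => rfl
  refine ⟨B, fun v hv => ?_, fun v hv => ?_, ?_⟩
  · rw [hB, if_neg (by omega)]
  · rw [hB, if_pos hv]
  · rw [s44rm_degree_eq_sum x, Finsupp.onFinset_sum _ (fun _ => rfl)]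
    have : ∀ v ∈ P, (if v.ord x < 0 then -v.ord x else 0) = -v.ord x := fun v hv => by
      rw [if_pos ((hP v).mp hv)]
    rw [Finset.sum_congr rfl this, Finset.sum_neg_distrib, hsum, neg_neg]

include x in
/-- `x^k ∈ L(k B)`. -/
theorem s44rm_pow_mem (B : Divisor K F) (hB0 : ∀ v : Place K F, 0 ≤ v.ord x → B v = 0)
    (hB1 : ∀ v : Place K F, v.ord x < 0 → B v = -v.ord x) (k : ℕ) :
    x ^ k ∈ riemannRochSpace (k • B) := by
  have hx0 : x ≠ 0 := by
    have := ff_sub_ne_zero (K := K) (x := x) 0
    simpa using this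
  rw [s44rm_mem_L (pow_ne_zero k hx0)]
  intro v
  have h1 : v.ord (x ^ k) = k * v.ord x := by
    have := v.ord_zpow x k
    simpa using this
  rw [h1, Finsupp.smul_apply, nsmul_eq_mul]
  by_cases hv : v.ord x < 0
  · rw [hB1 v hv]
    have : (k : ℤ) * -v.ord x + k * v.ord x = 0 := by ring
    omega
  · rw [hB0 v (by omega), mul_zero, zero_add]
    exact mul_nonneg (by positivity) (by omega)

include x in
/-- An element integral over `K[x]` lies in `L(c B)` for some `c`. -/
theorem s44rm_integral_mem (B : Divisor K F) (hB0 : ∀ v : Place K F, 0 ≤ v.ord x → B v = 0)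
    (hB1 : ∀ v : Place K F, v.ord x < 0 → B v = -v.ord x) (b : F)
    (hb : IsIntegral (ffA K x) b) : ∃ c : ℕ, b ∈ riemannRochSpace (c • B) := by
  classical
  rcases eq_or_ne b 0 with rfl | hb0
  · exact ⟨0, Submodule.zero_mem _⟩
  obtain ⟨P, hP, -⟩ := s44rq_fibreSum_poles K x
  have hx0 : x ≠ 0 := by
    have := ff_sub_ne_zero (K := K) (x := x) 0
    simpa using this
  refine ⟨∑ v ∈ P, (-(v.ord b)).toNat, ?_⟩
  rw [s44rm_mem_L hb0]
  intro v
  rw [Finsupp.smul_apply, nsmul_eq_mul]
  by_cases hv : v.ord x < 0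
  · rw [hB1 v hv]
    have hvP : v ∈ P := (hP v).mpr hv
    have h1 : (-(v.ord b)).toNat ≤ ∑ w ∈ P, (-(w.ord b)).toNat :=
      Finset.single_le_sum (f := fun w : Place K F => (-(w.ord b)).toNat)
        (fun _ _ => Nat.zero_le _) hvP
    have h2 : -(v.ord b) ≤ ((-(v.ord b)).toNat : ℤ) := Int.self_le_toNat _
    have h3 : ((∑ w ∈ P, (-(w.ord b)).toNat : ℕ) : ℤ) ≤
        ((∑ w ∈ P, (-(w.ord b)).toNat : ℕ) : ℤ) * -v.ord x := by
      have : (1 : ℤ) ≤ -v.ord x := by omega
      nlinarith [Int.natCast_nonneg (∑ w ∈ P, (-(w.ord b)).toNat)]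
    have h4 : ((-(v.ord b)).toNat : ℤ) ≤ ((∑ w ∈ P, (-(w.ord b)).toNat : ℕ) : ℤ) := by
      exact_mod_cast h1
    omega
  · rw [hB0 v (by omega), mul_zero, zero_add]
    have hx : x ∈ v.toValuationSubring := (ff_mem_iff_ord_nonneg v hx0).mpr (by omega)
    have hmem : b ∈ v.toValuationSubring := ff_B_mem_of_mem v hx ⟨b, hb⟩
    exact (ff_mem_iff_ord_nonneg v hb0).mp hmem

theorem s44rm_linearIndependent_pow {A : Type*} [CommRing A] [Algebra K A] (g : A)
    (hg : Transcendental K g) : LinearIndependent K (fun k : ℕ => g ^ k) := by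
  have h1 : LinearIndependent K (fun k : ℕ => (Polynomial.basisMonomials K) k) :=
    (Polynomial.basisMonomials K).linearIndependent
  have h2 := h1.map' (Polynomial.aeval g).toLinearMap
    (LinearMap.ker_eq_bot.mpr (transcendental_iff_injective.mp hg))
  have h3 : (fun k : ℕ => g ^ k) =
      (⇑(Polynomial.aeval g).toLinearMap ∘ fun k : ℕ => (Polynomial.basisMonomials K) k) := by
    funext k
    simp [Polynomial.coe_basisMonomials]
  rw [h3]
  exact h2

include x in
theorem s44rm_poleDivisor_nonneg (B : Divisor K F) (hB0 : ∀ v : Place K F, 0 ≤ v.ord x → B v = 0)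
    (hB1 : ∀ v : Place K F, v.ord x < 0 → B v = -v.ord x) : 0 ≤ B := by
  rw [Finsupp.le_def]
  intro v
  simp only [Finsupp.coe_zero, Pi.zero_apply]
  by_cases hv : v.ord x < 0
  · rw [hB1 v hv]; omega
  · rw [hB0 v (by omega)]

theorem s44rm_smul_le_smul {B : Divisor K F} (hB : 0 ≤ B) {a b : ℕ} (h : a ≤ b) :
    a • B ≤ b • B := by
  rw [Finsupp.le_def]
  intro v
  rw [Finsupp.smul_apply, Finsupp.smul_apply, nsmul_eq_mul, nsmul_eq_mul]
  have h1 : (0 : ℤ) ≤ B v := Finsupp.le_def.mp hB v
  have h2 : (a : ℤ) ≤ b := by exact_mod_cast h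
  exact mul_le_mul_of_nonneg_right h2 h1

include x in
/-- **The big spaces**: `V_m ≤ L((m + c₀) B)` of dimension `(m + 1) n`. -/
theorem s44rm_exists_big (B : Divisor K F) (hB0 : ∀ v : Place K F, 0 ≤ v.ord x → B v = 0)
    (hB1 : ∀ v : Place K F, v.ord x < 0 → B v = -v.ord x) :
    ∃ c0 : ℕ, ∀ m : ℕ, ∃ V : Submodule K F, FiniteDimensional K V ∧
      V ≤ riemannRochSpace ((m + c0) • B) ∧
      Module.finrank K V = (m + 1) * Module.finrank K⟮x⟯ F := by
  classical
  have hBnn := s44rm_poleDivisor_nonneg x B hB0 hB1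
  obtain ⟨s, b, hb⟩ := FiniteDimensional.exists_is_basis_integral (ffA K x) K⟮x⟯ F
  choose c hc using fun i : s => s44rm_integral_mem x B hB0 hB1 (b i) (hb i)
  refine ⟨∑ i, c i, fun m => ?_⟩
  have htr : Transcendental K (AdjoinSimple.gen K x) := by
    rw [← transcendental_algebraMap_iff (algebraMap K⟮x⟯ F).injective]
    have h0 : Transcendental K x := FFGen.transc
    exact h0
  have hpow := s44rm_linearIndependent_pow (K := K) (AdjoinSimple.gen K x) htr
  have hpow' : LinearIndependent K (fun k : Fin (m + 1) => (AdjoinSimple.gen K x) ^ (k : ℕ)) :=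
    hpow.comp (fun k : Fin (m + 1) => (k : ℕ)) Fin.val_injective
  have hw := linearIndependent_smul hpow' b.linearIndependent
  set w : Fin (m + 1) × s → F := fun p => (AdjoinSimple.gen K x) ^ (p.1 : ℕ) • b p.2 with hwdef
  refine ⟨Submodule.span K (Set.range w), FiniteDimensional.span_of_finite K (Set.finite_range w),
    ?_, ?_⟩
  · rw [Submodule.span_le]
    rintro _ ⟨⟨k, i⟩, rfl⟩
    have h1 : w (k, i) = x ^ (k : ℕ) * b i := by
      rw [hwdef]
      simp only
      rw [IntermediateField.smul_def, smul_eq_mul]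
      congr 1
    rw [SetLike.mem_coe, h1]
    have h2 := s44rm_mul_mem_L (s44rm_pow_mem x B hB0 hB1 (k : ℕ)) (hc i)
    rw [← add_smul] at h2
    refine s44rm_L_mono (s44rm_smul_le_smul hBnn ?_) h2
    have h3 : c i ≤ ∑ j, c j := Finset.single_le_sum (f := c) (fun _ _ => Nat.zero_le _)
      (Finset.mem_univ i)
    have h4 : (k : ℕ) ≤ m := Nat.lt_succ_iff.mp k.2
    omega
  · rw [finrank_span_eq_card hw, Fintype.card_prod, Fintype.card_fin,
      Module.finrank_eq_card_basis b]

theorem s44rm_ord_pow (v : Place K F) (f : F) (k : ℕ) : v.ord (f ^ k) = k * v.ord f := by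
  have := v.ord_zpow f (k : ℤ)
  rwa [zpow_natCast] at this

theorem s44rm_ord_prod {ι : Type*} (v : Place K F) (s : Finset ι) (g : ι → F)
    (h : ∀ i ∈ s, g i ≠ 0) : v.ord (∏ i ∈ s, g i) = ∑ i ∈ s, v.ord (g i) := by
  classical
  induction s using Finset.induction_on with
  | empty => simp
  | insert a s ha ih =>
    have hga : g a ≠ 0 := h a (Finset.mem_insert_self a s)
    have hs : ∀ i ∈ s, g i ≠ 0 := fun i hi => h i (Finset.mem_insert_of_mem hi)
    have hp : ∏ i ∈ s, g i ≠ 0 := Finset.prod_ne_zero_iff.mpr hs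
    rw [Finset.prod_insert ha, Finset.sum_insert ha, v.ord_mul hga hp, ih hs]

/-! ### Part 5: centres, linear equivalence -/

include x in
/-- a centre of a place at which `x` is regular (any characteristic). -/
theorem s44rm_exists_ord_sub_pos (v : Place K F) (hx : x ∈ v.toValuationSubring) :
    ∃ a : K, 0 < v.ord (x - algebraMap K F a) := by
  obtain ⟨c, hc, hc'⟩ := s37dg_exists_value x v x hx
  refine ⟨c, ?_⟩
  have hne := ff_sub_ne_zero (K := K) (x := x) c
  rw [ff_ord_pos_iff v hne]
  exact ⟨hc, hc'.resolve_left hne⟩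

omit [IsAlgClosed K] in
/-- `ℓ(D + (z)) = ℓ(D)`. -/
theorem s44rm_finrank_L_add_principal {z : F} (hz : z ≠ 0) {D Dz : Divisor K F}
    (hDz : ∀ v : Place K F, Dz v = v.ord z) :
    Module.finrank K ↥(riemannRochSpace (D + Dz)) = Module.finrank K ↥(riemannRochSpace D) := by
  have hinj : Function.Injective (LinearMap.mulLeft K z) := fun a b h =>
    mul_left_cancel₀ hz (by simpa using h)
  have hmap : (riemannRochSpace (D + Dz)).map (LinearMap.mulLeft K z) = riemannRochSpace D := by
    ext g
    rw [Submodule.mem_map]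
    constructor
    · rintro ⟨f, hf, rfl⟩
      intro v
      have h1 := hf v
      rw [Finsupp.add_apply, hDz v] at h1
      rw [LinearMap.mulLeft_apply, map_mul, v.adicValuation_eq_exp_neg_ord hz]
      calc WithZero.exp (-v.ord z) * v.adicValuation f
          ≤ WithZero.exp (-v.ord z) * WithZero.exp (D v + v.ord z) := mul_le_mul' le_rfl h1
        _ = WithZero.exp (D v) := by rw [← WithZero.exp_add]; congr 1; ring
    · intro hg
      refine ⟨z⁻¹ * g, fun v => ?_, ?_⟩
      · have h1 := hg v
        rw [Finsupp.add_apply, hDz v, map_mul, v.adicValuation_eq_exp_neg_ord (inv_ne_zero hz),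
          v.ord_inv, neg_neg]
        calc WithZero.exp (v.ord z) * v.adicValuation g
            ≤ WithZero.exp (v.ord z) * WithZero.exp (D v) := mul_le_mul' le_rfl h1
          _ = WithZero.exp (D v + v.ord z) := by rw [← WithZero.exp_add]; congr 1; ring
      · rw [LinearMap.mulLeft_apply, ← mul_assoc, mul_inv_cancel₀ hz, one_mul]
  rw [← hmap]
  exact (Submodule.equivMapOfInjective _ hinj _).finrank_eq

/-! ### Part 6: `L(0) = K`, the uniform weak Riemann inequality -/

include x in
theorem s44rm_finite_residue (P : Place K F) : Module.Finite K P.ResidueField := by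
  have h : Module.finrank K P.ResidueField = 1 := s37dg_deg_eq_one x P
  exact Module.finite_of_finrank_pos (by omega)

include x in
theorem s44rm_nonempty_place : Nonempty (Place K F) := by
  obtain ⟨P, hP, hsum⟩ := s44rq_fibreSum_poles K x
  by_contra hne
  rw [not_nonempty_iff] at hne
  have hPe : P = ∅ := Finset.eq_empty_of_isEmpty P
  rw [hPe, Finset.sum_empty] at hsum
  have hpos : 0 < Module.finrank K⟮x⟯ F := Module.finrank_pos
  omega

include x in
/-- **`L(0) = K`**: a function without poles is constant. -/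
theorem s44rm_L_zero [HasPrincipalDivisors K F] :
    riemannRochSpace (0 : Divisor K F) = Submodule.span K {(1 : F)} := by
  apply le_antisymm
  · intro f hf
    obtain ⟨Q⟩ := s44rm_nonempty_place (K := K) x
    have hfQ : f ∈ Q.toValuationSubring := by
      rw [ff_mem_iff_adicValuation_le_one]
      simpa using hf Q
    obtain ⟨c, hc, hc'⟩ := s37dg_exists_value x Q f hfQ
    rw [Submodule.mem_span_singleton]
    refine ⟨c, ?_⟩
    rw [Algebra.smul_def, mul_one]
    by_contra hne
    have hg : f - algebraMap K F c ≠ 0 := fun h => hne (sub_eq_zero.mp h).symm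
    have hpos : 0 < Q.ord (f - algebraMap K F c) := by
      rw [ff_ord_pos_iff Q hg]
      exact ⟨hc, hc'.resolve_left hg⟩
    obtain ⟨Dg, hDg, hdeg⟩ := HasPrincipalDivisors.exists_divisor (K := K) _ hg
    have hnn : 0 ≤ Dg := by
      rw [Finsupp.le_def]
      intro v
      rw [hDg v]
      have h1 : f - algebraMap K F c ∈ v.toValuationSubring := by
        refine sub_mem ?_ (v.algebraMap_mem' c)
        rw [ff_mem_iff_adicValuation_le_one]
        simpa using hf v
      exact (ff_mem_iff_ord_nonneg v hg).mp h1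
    have h0 := s44rm_eq_zero_of_degree_eq_zero x hnn hdeg
    have := hDg Q
    rw [h0] at this
    simp only [Finsupp.coe_zero, Pi.zero_apply] at this
    omega
  · rw [Submodule.span_le, Set.singleton_subset_iff]
    intro v
    simp

include x in
theorem s44rm_finite_L_zero [HasPrincipalDivisors K F] :
    Module.Finite K ↥(riemannRochSpace (0 : Divisor K F)) := by
  rw [s44rm_L_zero x]
  infer_instance

include x in
theorem s44rm_finrank_L_zero [HasPrincipalDivisors K F] :
    Module.finrank K ↥(riemannRochSpace (0 : Divisor K F)) = 1 := by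
  rw [s44rm_L_zero x]
  exact finrank_span_singleton one_ne_zero

include x in
/-- **Uniform weak Riemann inequality**: `deg D − ℓ(D)` is bounded above. -/
theorem s44rm_idx_bounded [HasPrincipalDivisors K F] :
    ∃ γ : ℤ, ∀ D : Divisor K F, s44rm_idx D ≤ γ := by
  classical
  have : ∀ P : Place K F, Module.Finite K P.ResidueField := s44rm_finite_residue x
  have h0 := s44rm_finite_L_zero (K := K) x
  obtain ⟨B, hB0, hB1, hBdeg⟩ := s44rm_exists_poleDivisor (K := K) x
  obtain ⟨c0, hbig⟩ := s44rm_exists_big x B hB0 hB1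
  have hBnn := s44rm_poleDivisor_nonneg x B hB0 hB1
  have hx0 : x ≠ 0 := by
    have := ff_sub_ne_zero (K := K) (x := x) 0
    simpa using this
  set n : ℕ := Module.finrank K⟮x⟯ F with hn
  refine ⟨((c0 : ℤ) - 1) * n, fun D => ?_⟩
  obtain ⟨Ppol, hPpol, -⟩ := s44rq_fibreSum_poles K x
  -- the places where `D` is positive and `x` is regular
  set S : Finset (Place K F) := D.support.filter (fun v => 0 < D v ∧ 0 ≤ v.ord x) with hSdef
  have hS : ∀ v : Place K F, 0 ≤ v.ord x → ∃ a : K, 0 < v.ord (x - algebraMap K F a) :=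
    fun v hv => s44rm_exists_ord_sub_pos x v ((ff_mem_iff_ord_nonneg v hx0).mpr hv)
  have hS' : ∀ v : Place K F, ∃ a : K, 0 ≤ v.ord x → 0 < v.ord (x - algebraMap K F a) := by
    intro v
    by_cases hv : 0 ≤ v.ord x
    · obtain ⟨a, ha⟩ := hS v hv
      exact ⟨a, fun _ => ha⟩
    · exact ⟨0, fun h => absurd h hv⟩
  choose a ha using hS'
  set z : F := ∏ v ∈ S, (x - algebraMap K F (a v)) ^ (D v).toNat with hzdef
  have hfac : ∀ v ∈ S, (x - algebraMap K F (a v)) ^ (D v).toNat ≠ 0 :=
    fun v _ => pow_ne_zero _ (ff_sub_ne_zero (a v))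
  have hz : z ≠ 0 := Finset.prod_ne_zero_iff.mpr hfac
  obtain ⟨Dz, hDz, hDzdeg⟩ := HasPrincipalDivisors.exists_divisor (K := K) z hz
  set D₁ : Divisor K F := D - Dz with hD₁
  have hD₁deg : Divisor.degree D₁ = Divisor.degree D := by
    rw [hD₁, map_sub, hDzdeg, sub_zero]
  have hfacord : ∀ v w : Place K F, 0 ≤ v.ord x →
      0 ≤ v.ord ((x - algebraMap K F (a w)) ^ (D w).toNat) := by
    intro v w hv
    have h1 : v.ord ((x - algebraMap K F (a w)) ^ (D w).toNat) =
        (D w).toNat * v.ord (x - algebraMap K F (a w)) := s44rm_ord_pow v _ _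
    rw [h1]
    have hx : x ∈ v.toValuationSubring := (ff_mem_iff_ord_nonneg v hx0).mpr hv
    have hmem : x - algebraMap K F (a w) ∈ v.toValuationSubring :=
      sub_mem hx (v.algebraMap_mem' (a w))
    have h2 := (ff_mem_iff_ord_nonneg v (ff_sub_ne_zero (a w))).mp hmem
    exact mul_nonneg (by positivity) h2
  have hnonpole : ∀ v : Place K F, 0 ≤ v.ord x → D₁ v ≤ 0 := by
    intro v hv
    rw [hD₁, Finsupp.sub_apply, hDz v, hzdef, s44rm_ord_prod v S _ hfac]
    have hsum_nonneg : 0 ≤ ∑ w ∈ S, v.ord ((x - algebraMap K F (a w)) ^ (D w).toNat) :=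
      Finset.sum_nonneg fun w _ => hfacord v w hv
    by_cases hvS : v ∈ S
    · have h1 : v.ord ((x - algebraMap K F (a v)) ^ (D v).toNat) ≤
          ∑ w ∈ S, v.ord ((x - algebraMap K F (a w)) ^ (D w).toNat) :=
        Finset.single_le_sum (f := fun w => v.ord ((x - algebraMap K F (a w)) ^ (D w).toNat))
          (fun w _ => hfacord v w hv) hvS
      have h2 : v.ord ((x - algebraMap K F (a v)) ^ (D v).toNat) =
          (D v).toNat * v.ord (x - algebraMap K F (a v)) := s44rm_ord_pow v _ _
      have h3 := ha v hv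
      have h4 : D v ≤ ((D v).toNat : ℤ) := Int.self_le_toNat _
      have h5 : ((D v).toNat : ℤ) ≤ (D v).toNat * v.ord (x - algebraMap K F (a v)) := by
        have : (1 : ℤ) ≤ v.ord (x - algebraMap K F (a v)) := h3
        nlinarith [Int.natCast_nonneg (D v).toNat]
      omega
    · have h1 : D v ≤ 0 := by
        by_contra hpos
        apply hvS
        rw [hSdef, Finset.mem_filter, Finsupp.mem_support_iff]
        exact ⟨by omega, by omega, hv⟩
      omega
  set m : ℕ := ∑ v ∈ Ppol, (D₁ v).toNat with hm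
  have hle : D₁ ≤ (m + c0) • B := by
    rw [Finsupp.le_def]
    intro v
    rw [Finsupp.smul_apply, nsmul_eq_mul]
    by_cases hv : v.ord x < 0
    · rw [hB1 v hv]
      have hvP : v ∈ Ppol := (hPpol v).mpr hv
      have h1 : (D₁ v).toNat ≤ m :=
        Finset.single_le_sum (f := fun w : Place K F => (D₁ w).toNat)
          (fun _ _ => Nat.zero_le _) hvP
      have h2 : D₁ v ≤ ((D₁ v).toNat : ℤ) := Int.self_le_toNat _
      have h3 : ((m + c0 : ℕ) : ℤ) ≤ ((m + c0 : ℕ) : ℤ) * -v.ord x := by
        have : (1 : ℤ) ≤ -v.ord x := by omega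
        nlinarith [Int.natCast_nonneg (m + c0)]
      have h4 : ((D₁ v).toNat : ℤ) ≤ ((m + c0 : ℕ) : ℤ) := by
        have : (D₁ v).toNat ≤ m + c0 := by omega
        exact_mod_cast this
      omega
    · rw [hB0 v (by omega), mul_zero]
      exact hnonpole v (by omega)
  obtain ⟨V, hVfd, hVle, hVrank⟩ := hbig m
  -- `idx D = idx D₁ ≤ idx ((m + c₀) B) ≤ (c₀ − 1) n`
  have hidx1 : s44rm_idx D = s44rm_idx D₁ := by
    have h1 : D = D₁ + Dz := by rw [hD₁]; abel
    have h2 := s44rm_finrank_L_add_principal hz hDz (D := D₁)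
    rw [← h1] at h2
    unfold s44rm_idx
    rw [hD₁deg, h2]
  have hidx2 := s44rm_idx_mono h0 hle
  have hfinL := s44rm_finite_L h0 ((m + c0) • B)
  have hrank : (m + 1) * n ≤ Module.finrank K ↥(riemannRochSpace ((m + c0) • B)) := by
    rw [← hVrank]
    exact Submodule.finrank_mono hVle
  have hdegB : Divisor.degree ((m + c0) • B) = ((m + c0 : ℕ) : ℤ) * (n : ℤ) := by
    rw [map_nsmul, hBdeg, nsmul_eq_mul]
  have hidx3 : s44rm_idx ((m + c0) • B) ≤ ((c0 : ℤ) - 1) * n := by
    unfold s44rm_idx
    rw [hdegB]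
    have : (((m + 1) * n : ℕ) : ℤ) ≤
        (Module.finrank K ↥(riemannRochSpace ((m + c0) • B)) : ℤ) := by exact_mod_cast hrank
    push_cast at this ⊢
    nlinarith
  rw [hidx1]
  exact hidx2.trans hidx3

/-! ### Part 7: Riemann's theorem for separably generated function fields -/

include x in
/-- `L(D)` is finite-dimensional. -/
theorem s44rm_sep_finite_L [HasPrincipalDivisors K F] (D : Divisor K F) :
    Module.Finite K ↥(riemannRochSpace D) := by
  have : ∀ P : Place K F, Module.Finite K P.ResidueField := s44rm_finite_residue x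
  exact s44rm_finite_L (s44rm_finite_L_zero (K := K) x) D

include x in
/-- **`H¹(D)` is finite-dimensional**; in particular `genusFF K F = dim H¹(0)` is the genus. -/
theorem s44rm_sep_finite_H1 [HasPrincipalDivisors K F] (D : Divisor K F) :
    Module.Finite K (H1 D) := by
  have : ∀ P : Place K F, Module.Finite K P.ResidueField := s44rm_finite_residue x
  exact s44rm_finite_H1 (fun f => s44rm_finite_poles_of_principal f) (s44rm_idx_bounded x)
    (s44rm_finite_L_zero (K := K) x) D

include x in
/-- **Riemann's theorem**: `ℓ(D) − h¹(D) = deg D + 1 − g`. -/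
theorem s44rm_sep_riemann [HasPrincipalDivisors K F] (D : Divisor K F) :
    (Module.finrank K ↥(riemannRochSpace D) : ℤ) - Module.finrank K (H1 D) =
      Divisor.degree D + 1 - genusFF K F := by
  have : ∀ P : Place K F, Module.Finite K P.ResidueField := s44rm_finite_residue x
  obtain ⟨-, -, h⟩ := s44rm_riemann (s44rm_finite_L_zero (K := K) x) (s44rm_sep_finite_H1 x 0) D
  rw [s44rm_finrank_L_zero x] at h
  push_cast at h
  omega

include x in
/-- **Riemann's theorem for large degree**: `H¹(D) = 0` and `ℓ(D) = deg D + 1 − g`. -/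
theorem s44rm_sep_riemann_large [HasPrincipalDivisors K F] :
    ∃ c : ℤ, ∀ D : Divisor K F, c ≤ Divisor.degree D →
      Subsingleton (H1 D) ∧
      (Module.finrank K ↥(riemannRochSpace D) : ℤ) = Divisor.degree D + 1 - genusFF K F := by
  have : ∀ P : Place K F, Module.Finite K P.ResidueField := s44rm_finite_residue x
  obtain ⟨c, hc⟩ := s44rm_riemann_large (s44rm_idx_bounded x) (s44rm_finite_L_zero (K := K) x)
  refine ⟨c, fun D hD => ?_⟩
  obtain ⟨h1, h2⟩ := hc D hD
  refine ⟨s44rm_subsingleton_H1 h1, ?_⟩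
  rw [s44rm_finrank_L_zero x] at h2
  push_cast at h2
  omega

include x in
/-- **Riemann's inequality**: `ℓ(D) ≥ deg D + 1 − g`. -/
theorem s44rm_sep_riemann_ineq [HasPrincipalDivisors K F] (D : Divisor K F) :
    Divisor.degree D + 1 - genusFF K F ≤ Module.finrank K ↥(riemannRochSpace D) := by
  have h := s44rm_sep_riemann x D
  have : (0 : ℤ) ≤ Module.finrank K (H1 D) := Int.natCast_nonneg _
  omega

end Step

end Fermat.Agent.Lib.S44

end
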