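/-
M-AT-P programme (S44), W4, brick [RIEMANN-p] (helper5): principal divisors have degree zero in
CHARACTERISTIC `p`, hence Riemann's theorem and the finiteness of `H¹` for the special fibre.

* `s44rq_exists_divisor_sep`       : a separating element `f` (`F / K(f)` finite separable, `K`
                                     algebraically closed) has a divisor, of degree zero (fundamental
                                     identity for the zeros and for the poles);
* `s44rq_exists_principal_divisor` : `K` algebraically closed of characteristic `p`, `x` a coordinate of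
                                     `F` which is not a `p`-th power: EVERY `f ≠ 0` has a divisor of degree
                                     zero (if `f = y ^ p` is not separating, `f x` is, and
                                     `div f = div (f x) - div x`);
* `s44rq_hasPrincipalDivisors`     : `HasPrincipalDivisors K F`;
* `s44rq_fbar_*`                   : the instance `F = F_κ(M) = κ(j̄(q^d) : d ∣ M)`, `κ` algebraically closed
                                     of characteristic `p`, coordinate `j̄`: `HasPrincipalDivisors`,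
                                     `Module.Finite κ (H1 D)`, `L(0) = κ`, Riemann's theorem.
-/
import Fermat.Agent.Lib.S44.RRiemIneq
import Fermat.Agent.Lib.S37.BGen

set_option autoImplicit false
set_option linter.unusedSectionVars false
set_option linter.style.haveILetI false

noncomputable section

open AlgebraicCurve IntermediateField Polynomial Fermat.Agent.Lib.FF Fermat.Agent.Lib.S37
  Fermat.Agent.Lib.S18
open scoped IntermediateField.algebraAdjoinAdjoin

namespace Fermat.Agent.Lib.S44

variable {K F : Type*} [Field K] [Field F] [Algebra K F]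

/-! ### Separating elements -/

/-- **The divisor of a separating element has degree zero.** -/
theorem s44rq_exists_divisor_sep [IsAlgClosed K] (f : F) [FFGen K f]
    [Algebra.IsSeparable K⟮f⟯ F] :
    ∃ D : Divisor K F, (∀ v : Place K F, D v = v.ord f) ∧ Divisor.degree D = 0 := by
  classical
  obtain ⟨P₁, hP₁, hs₁⟩ := s44rq_fibreSum K f
  obtain ⟨P₂, hP₂, hs₂⟩ := s44rq_fibreSum_poles K f
  let D : Divisor K F := Finsupp.onFinset (P₁ ∪ P₂) (fun v => v.ord f) (by
    intro v hv
    rw [Finset.mem_union, hP₁, hP₂]
    omega)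
  have hD : ∀ v : Place K F, D v = v.ord f := fun v => rfl
  refine ⟨D, hD, ?_⟩
  have hdisj : Disjoint P₁ P₂ := by
    rw [Finset.disjoint_left]
    intro v h1 h2
    have := (hP₁ v).mp h1
    have := (hP₂ v).mp h2
    omega
  rw [s44rm_degree_eq_sum f, Finsupp.onFinset_sum _ (fun _ => rfl), Finset.sum_union hdisj, hs₁, hs₂]
  ring

/-! ### Characteristic `p` -/

section CharP

variable (x : F) [FFGen K x] [IsAlgClosed K] (p : ℕ) [hp : Fact p.Prime] [CharP K p]

/-- an element which is not a `p`-th power is transcendental (`K` algebraically closed). -/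
theorem s44rq_transcendental_of_not_pow {f : F} (hf : ∀ y : F, y ^ p ≠ f) : Transcendental K f := by
  intro halg
  obtain ⟨a, rfl⟩ := ff_mem_range_of_isAlgebraic halg
  obtain ⟨b, hb⟩ := IsAlgClosed.exists_pow_nat_eq a hp.out.pos
  exact hf (algebraMap K F b) (by rw [← map_pow, hb])

include x in
/-- an element which is not a `p`-th power is separating. -/
theorem s44rq_sep_of_not_pow {f : F} (hf : ∀ y : F, y ^ p ≠ f) :
    ∃ _ : FFGen K f, Algebra.IsSeparable K⟮f⟯ F := by
  have htr := s44rq_transcendental_of_not_pow (K := K) p hf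
  have hgen : FFGen K f := ff_gen_of_transcendental (x := x) htr
  haveI : CharP F p := ((algebraMap K F).charP_iff_charP p).mp inferInstance
  haveI : Module.Finite ↥K⟮f⟯ F := hgen.finite
  exact ⟨hgen, s37b_isSeparable_abs p f hf⟩

include x in
/-- **Every non-zero function has a divisor, of degree zero** (characteristic `p`). -/
theorem s44rq_exists_principal_divisor (hxpow : ∀ w : F, w ^ p ≠ x) (f : F) (hf : f ≠ 0) :
    ∃ D : Divisor K F, (∀ v : Place K F, D v = v.ord f) ∧ Divisor.degree D = 0 := by
  classical
  by_cases hpow : ∀ y : F, y ^ p ≠ f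
  · obtain ⟨hgen, hsep⟩ := s44rq_sep_of_not_pow (K := K) x p hpow
    exact s44rq_exists_divisor_sep (K := K) f
  · push_neg at hpow
    obtain ⟨y, hy⟩ := hpow
    have hy0 : y ≠ 0 := by
      rintro rfl
      rw [zero_pow hp.out.ne_zero] at hy
      exact hf hy.symm
    have hx0 : x ≠ 0 := by
      rintro h0
      exact hxpow 0 (by rw [zero_pow hp.out.ne_zero, h0])
    -- `f x` is not a `p`-th power
    have hfx : ∀ z : F, z ^ p ≠ f * x := by
      intro z hz
      refine hxpow (z / y) ?_
      rw [div_pow, hz, hy]
      field_simp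
    obtain ⟨hgen₁, hsep₁⟩ := s44rq_sep_of_not_pow (K := K) x p hfx
    obtain ⟨hgen₂, hsep₂⟩ := s44rq_sep_of_not_pow (K := K) x p hxpow
    obtain ⟨D₁, hD₁, hdeg₁⟩ := s44rq_exists_divisor_sep (K := K) (f * x)
    obtain ⟨D₂, hD₂, hdeg₂⟩ := s44rq_exists_divisor_sep (K := K) x
    refine ⟨D₁ - D₂, fun v => ?_, ?_⟩
    · rw [Finsupp.sub_apply, hD₁, hD₂, v.ord_mul hf hx0]
      ring
    · rw [map_sub, hdeg₁, hdeg₂, sub_zero]

include x in
/-- **`HasPrincipalDivisors`** for a function field over an algebraically closed field of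
characteristic `p` with a coordinate which is not a `p`-th power. -/
theorem s44rq_hasPrincipalDivisors (hxpow : ∀ w : F, w ^ p ≠ x) : HasPrincipalDivisors K F :=
  ⟨s44rq_exists_principal_divisor x p hxpow⟩

end CharP

/-! ### The special fibre `F_κ(M)` -/

section Fbar

open ModularCurve Fermat.Agent.Lib.S28

variable (κ : Type*) [Field κ] [IsAlgClosed κ] (M : ℕ) [NeZero M]

/-- the coordinate `j̄` of `F_κ(M)`. -/
def s44rq_jbar : ↥(modularFunctionFieldFullC κ M) := ⟨jqModC κ, jqModC_mem_full κ M⟩

theorem s44rq_jbar_ffGen : FFGen κ (s44rq_jbar κ M) := s37b_ffGen_jF κ M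

theorem s44rq_jbar_not_pow (p : ℕ) [Fact p.Prime] [CharP κ p] : ∀ w : ↥(modularFunctionFieldFullC κ M), w ^ p ≠ s44rq_jbar κ M :=
  s37b_not_pow κ M p (s44rq_jbar κ M) (s37b_coord_jq κ p).2.1

theorem s44rq_jbar_isSeparable (p : ℕ) [Fact p.Prime] [CharP κ p] :
    Algebra.IsSeparable ↥κ⟮s44rq_jbar κ M⟯ ↥(modularFunctionFieldFullC κ M) :=
  s37b_isSeparable κ M p (s44rq_jbar κ M) (s37b_coord_jq κ p)

/-- **principal divisors of the special fibre have degree zero.** -/
theorem s44rq_fbar_hasPrincipalDivisors (p : ℕ) [Fact p.Prime] [CharP κ p] :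
    HasPrincipalDivisors κ ↥(modularFunctionFieldFullC κ M) := by
  haveI := s44rq_jbar_ffGen κ M
  exact s44rq_hasPrincipalDivisors (s44rq_jbar κ M) p (s44rq_jbar_not_pow κ M p)

/-- **`H¹(D)` of the special fibre is finite-dimensional.** -/
theorem s44rq_fbar_finite_H1 (p : ℕ) [Fact p.Prime] [CharP κ p] (D : Divisor κ ↥(modularFunctionFieldFullC κ M)) :
    Module.Finite κ (H1 D) := by
  haveI := s44rq_jbar_ffGen κ M
  haveI := s44rq_jbar_isSeparable κ M p
  haveI := s44rq_fbar_hasPrincipalDivisors κ M p
  exact s44rm_sep_finite_H1 (s44rq_jbar κ M) D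

/-- **`L(D)` of the special fibre is finite-dimensional.** -/
theorem s44rq_fbar_finite_L (p : ℕ) [Fact p.Prime] [CharP κ p] (D : Divisor κ ↥(modularFunctionFieldFullC κ M)) :
    Module.Finite κ ↥(riemannRochSpace D) := by
  haveI := s44rq_jbar_ffGen κ M
  haveI := s44rq_jbar_isSeparable κ M p
  haveI := s44rq_fbar_hasPrincipalDivisors κ M p
  exact s44rm_sep_finite_L (s44rq_jbar κ M) D

/-- **Riemann's theorem on the special fibre.** -/
theorem s44rq_fbar_riemann (p : ℕ) [Fact p.Prime] [CharP κ p] (D : Divisor κ ↥(modularFunctionFieldFullC κ M)) :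
    (Module.finrank κ ↥(riemannRochSpace D) : ℤ) - Module.finrank κ (H1 D) =
      Divisor.degree D + 1 - genusFF κ ↥(modularFunctionFieldFullC κ M) := by
  haveI := s44rq_jbar_ffGen κ M
  haveI := s44rq_jbar_isSeparable κ M p
  haveI := s44rq_fbar_hasPrincipalDivisors κ M p
  exact s44rm_sep_riemann (s44rq_jbar κ M) D

/-- **Riemann's theorem for large degree on the special fibre.** -/
theorem s44rq_fbar_riemann_large (p : ℕ) [Fact p.Prime] [CharP κ p] :
    ∃ c : ℤ, ∀ D : Divisor κ ↥(modularFunctionFieldFullC κ M), c ≤ Divisor.degree D →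
      Subsingleton (H1 D) ∧
      (Module.finrank κ ↥(riemannRochSpace D) : ℤ) =
        Divisor.degree D + 1 - genusFF κ ↥(modularFunctionFieldFullC κ M) := by
  haveI := s44rq_jbar_ffGen κ M
  haveI := s44rq_jbar_isSeparable κ M p
  haveI := s44rq_fbar_hasPrincipalDivisors κ M p
  exact s44rm_sep_riemann_large (s44rq_jbar κ M)

/-- **`L(0) = κ` on the special fibre**: a function without poles is constant. -/
theorem s44rq_fbar_L_zero (p : ℕ) [Fact p.Prime] [CharP κ p] :
    riemannRochSpace (0 : Divisor κ ↥(modularFunctionFieldFullC κ M)) =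
      Submodule.span κ {(1 : ↥(modularFunctionFieldFullC κ M))} := by
  haveI := s44rq_jbar_ffGen κ M
  haveI := s44rq_jbar_isSeparable κ M p
  haveI := s44rq_fbar_hasPrincipalDivisors κ M p
  exact s44rm_L_zero (s44rq_jbar κ M)

/-- every place of the special fibre has degree one. -/
theorem s44rq_fbar_deg_eq_one (v : Place κ ↥(modularFunctionFieldFullC κ M)) : v.deg = 1 := by
  haveI := s44rq_jbar_ffGen κ M
  exact s37dg_deg_eq_one (s44rq_jbar κ M) v

end Fbar

end Fermat.Agent.Lib.S44

end
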