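/-
M-AT-P / W4, brick [T] part A: Tate's trace for finite-potent endomorphisms
(J. Tate, Residues of differentials on curves, 1968, section 1), abstract linear algebra.

`s44h_IsCore θ W` : `W` is a finite-dimensional `θ`-stable subspace absorbing a power of `θ`.
`s44h_tr θ`       : the trace of `θ` on any core (`0` when there is none).
-/
import Mathlib

set_option autoImplicit false

namespace Fermat.Agent.Lib.S44

open Module

section Trace

variable {k : Type*} [Field k] {V : Type*} [AddCommGroup V] [Module k V]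

/-- Trace of `θ` on a `θ`-stable subspace `W` (junk value unless `W` is finite-dimensional). -/
noncomputable def s44h_trOn (θ : End k V) (W : Submodule k V) (h : ∀ x ∈ W, θ x ∈ W) : k :=
  LinearMap.trace k W (θ.restrict h)

theorem s44h_trOn_congr (θ : End k V) {W W' : Submodule k V} (e : W = W')
    (h : ∀ x ∈ W, θ x ∈ W) (h' : ∀ x ∈ W', θ x ∈ W') :
    s44h_trOn θ W h = s44h_trOn θ W' h' := by
  subst e; rfl

theorem s44h_pow_mem (θ : End k V) {W : Submodule k V} (h : ∀ x ∈ W, θ x ∈ W) (n : ℕ) :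
    ∀ x ∈ W, (θ ^ n) x ∈ W := by
  induction n with
  | zero => intro x hx; simpa using hx
  | succ n ih =>
    intro x hx
    rw [pow_succ, Module.End.mul_apply]
    exact ih _ (h x hx)

/-- (H1) If `θ` maps `W` into the smaller stable subspace `W'`, the traces agree. -/
theorem s44h_trOn_eq_of_le (θ : End k V) {W W' : Submodule k V} [FiniteDimensional k W]
    (hle : W' ≤ W) (hWW' : ∀ x ∈ W, θ x ∈ W') :
    s44h_trOn θ W (fun x hx => hle (hWW' x hx)) =
      s44h_trOn θ W' (fun x hx => hWW' x (hle hx)) := by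
  unfold s44h_trOn
  have hfP : ∀ x : W, (θ.restrict (fun x hx => hle (hWW' x hx)) : End k W) x ∈
      W'.comap W.subtype := fun x => hWW' x.1 x.2
  have h1 := LinearMap.trace_restrict_eq_of_forall_mem (W'.comap W.subtype)
    (θ.restrict (fun x hx => hle (hWW' x hx)) : End k W) hfP
  rw [← h1, ← LinearMap.trace_conj' _ (Submodule.comapSubtypeEquivOfLe hle)]
  congr 1

/-- (H2) If a power of `θ` maps `W` into the smaller stable subspace `W'`, the traces agree. -/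
theorem s44h_trOn_eq_of_pow (θ : End k V) (n : ℕ) :
    ∀ (W W' : Submodule k V) [FiniteDimensional k W] (_hle : W' ≤ W)
      (hW : ∀ x ∈ W, θ x ∈ W) (hW' : ∀ x ∈ W', θ x ∈ W')
      (_hn : ∀ x ∈ W, (θ ^ n) x ∈ W'), s44h_trOn θ W hW = s44h_trOn θ W' hW' := by
  induction n with
  | zero =>
    intro W W' _ hle hW hW' hn
    have : W = W' := le_antisymm (fun x hx => by simpa using hn x hx) hle
    exact s44h_trOn_congr θ this hW hW'
  | succ n ih =>
    intro W W' _ hle hW hW' hn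
    have hW₁le : W' ⊔ W.map θ ≤ W :=
      sup_le hle (Submodule.map_le_iff_le_comap.mpr fun x hx => hW x hx)
    haveI : FiniteDimensional k ↥(W' ⊔ W.map θ) := Submodule.finiteDimensional_of_le hW₁le
    have hWW₁ : ∀ x ∈ W, θ x ∈ W' ⊔ W.map θ := fun x hx =>
      Submodule.mem_sup_right (Submodule.mem_map_of_mem hx)
    have e1 := s44h_trOn_eq_of_le θ hW₁le hWW₁
    have hW₁ : ∀ x ∈ W' ⊔ W.map θ, θ x ∈ W' ⊔ W.map θ := fun x hx => hWW₁ x (hW₁le hx)
    have hn₁ : ∀ x ∈ W' ⊔ W.map θ, (θ ^ n) x ∈ W' := by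
      intro x hx
      obtain ⟨a, ha, b, hb, rfl⟩ := Submodule.mem_sup.mp hx
      obtain ⟨w, hw, rfl⟩ := Submodule.mem_map.mp hb
      rw [map_add]
      refine W'.add_mem (s44h_pow_mem θ hW' n a ha) ?_
      have := hn w hw
      rwa [pow_succ, Module.End.mul_apply] at this
    have e2 := ih (W' ⊔ W.map θ) W' le_sup_left hW₁ hW' hn₁
    exact e1.trans e2

/-- `W` is a core of `θ`. -/
structure s44h_IsCore (θ : End k V) (W : Submodule k V) : Prop where
  fin : FiniteDimensional k W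
  stable : ∀ x ∈ W, θ x ∈ W
  pow : ∃ n : ℕ, ∀ x, (θ ^ n) x ∈ W

theorem s44h_IsCore.sup {θ : End k V} {W₁ W₂ : Submodule k V} (h₁ : s44h_IsCore θ W₁)
    (h₂ : s44h_IsCore θ W₂) : s44h_IsCore θ (W₁ ⊔ W₂) := by
  haveI := h₁.fin
  haveI := h₂.fin
  refine ⟨inferInstance, ?_, ?_⟩
  · intro x hx
    obtain ⟨a, ha, b, hb, rfl⟩ := Submodule.mem_sup.mp hx
    rw [map_add]
    exact Submodule.add_mem _ (Submodule.mem_sup_left (h₁.stable a ha))
      (Submodule.mem_sup_right (h₂.stable b hb))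
  · obtain ⟨n, hn⟩ := h₁.pow
    exact ⟨n, fun x => Submodule.mem_sup_left (hn x)⟩

theorem s44h_trOn_eq_of_core_le {θ : End k V} {W W' : Submodule k V} (h : s44h_IsCore θ W)
    (h' : s44h_IsCore θ W') (hle : W' ≤ W) :
    s44h_trOn θ W h.stable = s44h_trOn θ W' h'.stable := by
  haveI := h.fin
  obtain ⟨n, hn⟩ := h'.pow
  exact s44h_trOn_eq_of_pow θ n W W' hle h.stable h'.stable (fun x _ => hn x)

theorem s44h_trOn_eq_of_cores {θ : End k V} {W₁ W₂ : Submodule k V} (h₁ : s44h_IsCore θ W₁)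
    (h₂ : s44h_IsCore θ W₂) : s44h_trOn θ W₁ h₁.stable = s44h_trOn θ W₂ h₂.stable :=
  (s44h_trOn_eq_of_core_le (h₁.sup h₂) h₁ le_sup_left).symm.trans
    (s44h_trOn_eq_of_core_le (h₁.sup h₂) h₂ le_sup_right)

open Classical in
/-- Tate's trace of a finite-potent endomorphism (`0` if `θ` is not finite-potent). -/
noncomputable def s44h_tr (θ : End k V) : k :=
  if h : ∃ W, s44h_IsCore θ W then s44h_trOn θ h.choose h.choose_spec.stable else 0

theorem s44h_tr_eq_trOn {θ : End k V} {W : Submodule k V} (h : s44h_IsCore θ W) :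
    s44h_tr θ = s44h_trOn θ W h.stable := by
  have hex : ∃ W, s44h_IsCore θ W := ⟨W, h⟩
  unfold s44h_tr
  rw [dif_pos hex]
  exact s44h_trOn_eq_of_cores hex.choose_spec h

theorem s44h_tr_add_of_core {θ₁ θ₂ : End k V} {W : Submodule k V} (h₁ : s44h_IsCore θ₁ W)
    (h₂ : s44h_IsCore θ₂ W) (h₁₂ : s44h_IsCore (θ₁ + θ₂) W) :
    s44h_tr (θ₁ + θ₂) = s44h_tr θ₁ + s44h_tr θ₂ := by
  rw [s44h_tr_eq_trOn h₁, s44h_tr_eq_trOn h₂, s44h_tr_eq_trOn h₁₂]
  unfold s44h_trOn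
  rw [← map_add]
  congr 1

theorem s44h_IsCore.smul {θ : End k V} {W : Submodule k V} (h : s44h_IsCore θ W) (c : k) :
    s44h_IsCore (c • θ) W := by
  refine ⟨h.fin, fun x hx => ?_, ?_⟩
  · rw [LinearMap.smul_apply]
    exact W.smul_mem c (h.stable x hx)
  · obtain ⟨n, hn⟩ := h.pow
    refine ⟨n, fun x => ?_⟩
    rw [smul_pow, LinearMap.smul_apply]
    exact W.smul_mem _ (hn x)

theorem s44h_tr_smul {θ : End k V} {W : Submodule k V} (h : s44h_IsCore θ W) (c : k) :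
    s44h_tr (c • θ) = c * s44h_tr θ := by
  rw [s44h_tr_eq_trOn h, s44h_tr_eq_trOn (h.smul c)]
  unfold s44h_trOn
  rw [← smul_eq_mul, ← map_smul]
  congr 1

theorem s44h_IsCore.neg {θ : End k V} {W : Submodule k V} (h : s44h_IsCore θ W) :
    s44h_IsCore (-θ) W := by
  have := h.smul (-1)
  rwa [neg_one_smul] at this

theorem s44h_tr_neg {θ : End k V} {W : Submodule k V} (h : s44h_IsCore θ W) :
    s44h_tr (-θ) = - s44h_tr θ := by
  have := s44h_tr_smul h (-1)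
  rwa [neg_one_smul, neg_one_mul] at this

/-- A finite-rank endomorphism has its range as a core. -/
theorem s44h_isCore_range (θ : End k V) [FiniteDimensional k (LinearMap.range θ)] :
    s44h_IsCore θ (LinearMap.range θ) :=
  ⟨inferInstance, fun x _ => LinearMap.mem_range_self θ x,
    ⟨1, fun x => by rw [pow_one]; exact LinearMap.mem_range_self θ x⟩⟩

/-- If `θ²` has finite rank, then `range θ²` is a core. -/
theorem s44h_isCore_range_sq (θ : End k V) [FiniteDimensional k (LinearMap.range (θ * θ))] :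
    s44h_IsCore θ (LinearMap.range (θ * θ)) := by
  refine ⟨inferInstance, ?_, ⟨2, fun x => ?_⟩⟩
  · rintro x ⟨y, rfl⟩
    exact ⟨θ y, by simp only [Module.End.mul_apply]⟩
  · rw [pow_two]
    exact LinearMap.mem_range_self _ x

theorem s44h_isCore_bot_of_sq {θ : End k V} (h : θ * θ = 0) : s44h_IsCore θ ⊥ := by
  refine ⟨inferInstance, ?_, ⟨2, fun x => ?_⟩⟩
  · intro x hx
    rw [(Submodule.mem_bot k).mp hx, map_zero]
    exact Submodule.zero_mem _
  · rw [pow_two, h]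
    exact Submodule.zero_mem _

theorem s44h_trOn_bot (θ : End k V) (h : ∀ x ∈ (⊥ : Submodule k V), θ x ∈ (⊥ : Submodule k V)) :
    s44h_trOn θ ⊥ h = 0 := by
  unfold s44h_trOn
  have : θ.restrict h = 0 := LinearMap.ext fun x => Subsingleton.elim _ _
  rw [this, map_zero]

/-- (T3) A square-zero endomorphism has trace `0`. -/
theorem s44h_tr_eq_zero_of_sq {θ : End k V} (h : θ * θ = 0) : s44h_tr θ = 0 := by
  rw [s44h_tr_eq_trOn (s44h_isCore_bot_of_sq h)]
  exact s44h_trOn_bot θ _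

theorem s44h_tr_zero : s44h_tr (0 : End k V) = 0 :=
  s44h_tr_eq_zero_of_sq (by simp)

/-- If `θ` is the identity on a core `W`, its trace is `dim W`. -/
theorem s44h_tr_eq_finrank {θ : End k V} {W : Submodule k V} (h : s44h_IsCore θ W)
    (hid : ∀ x ∈ W, θ x = x) : s44h_tr θ = (finrank k W : k) := by
  haveI := h.fin
  rw [s44h_tr_eq_trOn h]
  unfold s44h_trOn
  have : θ.restrict h.stable = (1 : End k W) :=
    LinearMap.ext fun x => Subtype.ext (hid x.1 x.2)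
  rw [this, LinearMap.trace_one]

/-- Additivity of the trace on a pair spanning a finite-potent subspace (all products of two
of `θ₁, θ₂` have finite rank). -/
theorem s44h_tr_add_of_fin {θ₁ θ₂ : End k V}
    (hfin : FiniteDimensional k
      ↥((LinearMap.range θ₁ ⊔ LinearMap.range θ₂).map θ₁ ⊔
        (LinearMap.range θ₁ ⊔ LinearMap.range θ₂).map θ₂)) :
    (∃ W, s44h_IsCore θ₁ W ∧ s44h_IsCore θ₂ W ∧ s44h_IsCore (θ₁ + θ₂) W) ∧
      s44h_tr (θ₁ + θ₂) = s44h_tr θ₁ + s44h_tr θ₂ := by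
  set R : Submodule k V := LinearMap.range θ₁ ⊔ LinearMap.range θ₂ with hR
  set W : Submodule k V := R.map θ₁ ⊔ R.map θ₂ with hW
  have hWR : W ≤ R := by
    refine sup_le ?_ ?_
    · rintro _ ⟨x, _, rfl⟩
      exact Submodule.mem_sup_left (LinearMap.mem_range_self θ₁ x)
    · rintro _ ⟨x, _, rfl⟩
      exact Submodule.mem_sup_right (LinearMap.mem_range_self θ₂ x)
  have hr₁ : ∀ x, θ₁ x ∈ R := fun x => Submodule.mem_sup_left (LinearMap.mem_range_self θ₁ x)
  have hr₂ : ∀ x, θ₂ x ∈ R := fun x => Submodule.mem_sup_right (LinearMap.mem_range_self θ₂ x)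
  have hs₁ : ∀ x ∈ R, θ₁ x ∈ W := fun x hx =>
    Submodule.mem_sup_left (Submodule.mem_map_of_mem hx)
  have hs₂ : ∀ x ∈ R, θ₂ x ∈ W := fun x hx =>
    Submodule.mem_sup_right (Submodule.mem_map_of_mem hx)
  have c₁ : s44h_IsCore θ₁ W :=
    ⟨hfin, fun x hx => hs₁ x (hWR hx), ⟨2, fun x => by
      rw [pow_two, Module.End.mul_apply]; exact hs₁ _ (hr₁ x)⟩⟩
  have c₂ : s44h_IsCore θ₂ W :=
    ⟨hfin, fun x hx => hs₂ x (hWR hx), ⟨2, fun x => by
      rw [pow_two, Module.End.mul_apply]; exact hs₂ _ (hr₂ x)⟩⟩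
  have hs₁₂ : ∀ x ∈ R, (θ₁ + θ₂) x ∈ W := fun x hx => by
    rw [LinearMap.add_apply]; exact W.add_mem (hs₁ x hx) (hs₂ x hx)
  have c₁₂ : s44h_IsCore (θ₁ + θ₂) W :=
    ⟨hfin, fun x hx => hs₁₂ x (hWR hx), ⟨2, fun x => by
      rw [pow_two, Module.End.mul_apply]
      refine hs₁₂ _ ?_
      rw [LinearMap.add_apply]
      exact R.add_mem (hr₁ x) (hr₂ x)⟩⟩
  exact ⟨⟨W, c₁, c₂, c₁₂⟩, s44h_tr_add_of_core c₁ c₂ c₁₂⟩

end Trace

section TwoSpaces

variable {k : Type*} [Field k] {V : Type*} [AddCommGroup V] [Module k V]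
  {V' : Type*} [AddCommGroup V'] [Module k V']

theorem s44h_comp_pow_succ (φ : V' →ₗ[k] V) (ψ : V →ₗ[k] V') (n : ℕ) (x : V') :
    ((ψ ∘ₗ φ : End k V') ^ (n + 1)) x = ψ (((φ ∘ₗ ψ : End k V) ^ n) (φ x)) := by
  induction n generalizing x with
  | zero => simp
  | succ n ih =>
    rw [pow_succ, Module.End.mul_apply, ih, pow_succ (φ ∘ₗ ψ : End k V), Module.End.mul_apply]
    rfl

/-- (T5) `tr (ψ φ) = tr (φ ψ)` as soon as `φ ψ` is finite-potent. -/
theorem s44h_tr_comp_comm (φ : V' →ₗ[k] V) (ψ : V →ₗ[k] V') {W : Submodule k V}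
    (hW : s44h_IsCore (φ ∘ₗ ψ : End k V) W) :
    s44h_IsCore (ψ ∘ₗ φ : End k V') (W.map ψ) ∧
      s44h_tr (ψ ∘ₗ φ : End k V') = s44h_tr (φ ∘ₗ ψ : End k V) := by
  haveI := hW.fin
  have hφ : ∀ y ∈ W.map ψ, φ y ∈ W := by
    rintro _ ⟨w, hw, rfl⟩
    exact hW.stable w hw
  have hcore : s44h_IsCore (ψ ∘ₗ φ : End k V') (W.map ψ) := by
    refine ⟨inferInstance, ?_, ?_⟩
    · intro y hy
      exact Submodule.mem_map_of_mem (hφ y hy)
    · obtain ⟨n, hn⟩ := hW.pow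
      refine ⟨n + 1, fun x => ?_⟩
      rw [s44h_comp_pow_succ]
      exact Submodule.mem_map_of_mem (hn _)
  refine ⟨hcore, ?_⟩
  rw [s44h_tr_eq_trOn hcore, s44h_tr_eq_trOn hW]
  unfold s44h_trOn
  have hψ : ∀ w ∈ W, ψ w ∈ W.map ψ := fun w hw => Submodule.mem_map_of_mem hw
  have e1 : (ψ ∘ₗ φ : End k V').restrict hcore.stable =
      (ψ.restrict hψ) ∘ₗ (φ.restrict hφ) := rfl
  have e2 : (φ ∘ₗ ψ : End k V).restrict hW.stable =
      (φ.restrict hφ) ∘ₗ (ψ.restrict hψ) := rfl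
  rw [e1, e2]
  exact LinearMap.trace_comp_comm' _ _

/-- Transport of the trace along an injective intertwiner whose image contains `range θ`. -/
theorem s44h_tr_eq_of_intertwine (ι : V' →ₗ[k] V) (hι : Function.Injective ι) (θ : End k V)
    (θ' : End k V') (h : ∀ x, θ (ι x) = ι (θ' x)) (hr : LinearMap.range θ ≤ LinearMap.range ι)
    {W : Submodule k V} (hW : s44h_IsCore θ W) :
    (∃ W', s44h_IsCore θ' W') ∧ s44h_tr θ' = s44h_tr θ := by
  obtain ⟨r, hrι⟩ := LinearMap.exists_leftInverse_of_injective ι (LinearMap.ker_eq_bot.mpr hι)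
  have hrι' : ∀ x, r (ι x) = x := fun x => by
    have := congrArg (fun f => f x) hrι
    simpa using this
  have e1 : (ι ∘ₗ (r ∘ₗ θ) : End k V) = θ := by
    ext x
    obtain ⟨y, hy⟩ := hr (LinearMap.mem_range_self θ x)
    simp only [LinearMap.coe_comp, Function.comp_apply]
    rw [← hy, hrι']
  have e2 : ((r ∘ₗ θ) ∘ₗ ι : End k V') = θ' := by
    ext x
    simp only [LinearMap.coe_comp, Function.comp_apply]
    rw [h, hrι']
  have hW' : s44h_IsCore (ι ∘ₗ (r ∘ₗ θ) : End k V) W := by rw [e1]; exact hW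
  obtain ⟨hc, ht⟩ := s44h_tr_comp_comm ι (r ∘ₗ θ) hW'
  rw [e2] at hc ht
  rw [e1] at ht
  exact ⟨⟨_, hc⟩, ht⟩

end TwoSpaces

section More

variable {k : Type*} [Field k] {V : Type*} [AddCommGroup V] [Module k V]

/-- (T5) on one space. -/
theorem s44h_tr_mul_comm (φ ψ : End k V) {W : Submodule k V} (hW : s44h_IsCore (φ * ψ) W) :
    s44h_IsCore (ψ * φ) (W.map ψ) ∧ s44h_tr (ψ * φ) = s44h_tr (φ * ψ) :=
  s44h_tr_comp_comm φ ψ hW

theorem s44h_add_pow_of_mul_eq_zero {θ₁ θ₂ : End k V} (h12 : θ₁ * θ₂ = 0) (h21 : θ₂ * θ₁ = 0)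
    (m : ℕ) : (θ₁ + θ₂) ^ (m + 1) = θ₁ ^ (m + 1) + θ₂ ^ (m + 1) := by
  induction m with
  | zero => simp
  | succ m ih =>
    rw [pow_succ, ih, add_mul, mul_add, mul_add, pow_succ θ₁ (m + 1), pow_succ θ₂ (m + 1)]
    have a1 : θ₁ ^ (m + 1) * θ₂ = 0 := by rw [pow_succ, mul_assoc, h12, mul_zero]
    have a2 : θ₂ ^ (m + 1) * θ₁ = 0 := by rw [pow_succ, mul_assoc, h21, mul_zero]
    rw [a1, a2, add_zero, zero_add]

/-- Additivity of the trace for two finite-potent endomorphisms annihilating each other. -/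
theorem s44h_tr_add_of_mul_eq_zero {θ₁ θ₂ : End k V} (h12 : θ₁ * θ₂ = 0) (h21 : θ₂ * θ₁ = 0)
    {W₁ W₂ : Submodule k V} (hW₁ : s44h_IsCore θ₁ W₁) (hW₂ : s44h_IsCore θ₂ W₂) :
    s44h_IsCore (θ₁ + θ₂) (W₁.map θ₁ ⊔ W₂.map θ₂) ∧
      s44h_tr (θ₁ + θ₂) = s44h_tr θ₁ + s44h_tr θ₂ := by
  haveI := hW₁.fin
  haveI := hW₂.fin
  have z12 : ∀ x, θ₁ (θ₂ x) = 0 := fun x => by
    rw [← Module.End.mul_apply, h12, LinearMap.zero_apply]
  have z21 : ∀ x, θ₂ (θ₁ x) = 0 := fun x => by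
    rw [← Module.End.mul_apply, h21, LinearMap.zero_apply]
  set W : Submodule k V := W₁.map θ₁ ⊔ W₂.map θ₂ with hWdef
  have hfin : FiniteDimensional k W := inferInstance
  have st₁ : ∀ x ∈ W, θ₁ x ∈ W := by
    intro x hx
    obtain ⟨a, ha, b, hb, rfl⟩ := Submodule.mem_sup.mp hx
    obtain ⟨w, hw, rfl⟩ := Submodule.mem_map.mp ha
    obtain ⟨w', _, rfl⟩ := Submodule.mem_map.mp hb
    rw [map_add, z12, add_zero]
    exact Submodule.mem_sup_left (Submodule.mem_map_of_mem (hW₁.stable w hw))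
  have st₂ : ∀ x ∈ W, θ₂ x ∈ W := by
    intro x hx
    obtain ⟨a, ha, b, hb, rfl⟩ := Submodule.mem_sup.mp hx
    obtain ⟨w, _, rfl⟩ := Submodule.mem_map.mp ha
    obtain ⟨w', hw', rfl⟩ := Submodule.mem_map.mp hb
    rw [map_add, z21, zero_add]
    exact Submodule.mem_sup_right (Submodule.mem_map_of_mem (hW₂.stable w' hw'))
  obtain ⟨n₁, hn₁⟩ := hW₁.pow
  obtain ⟨n₂, hn₂⟩ := hW₂.pow
  have p₁ : ∀ m, n₁ ≤ m → ∀ x, (θ₁ ^ (m + 1)) x ∈ W := by
    intro m hm x
    obtain ⟨d, rfl⟩ := Nat.exists_eq_add_of_le hm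
    rw [pow_succ', Module.End.mul_apply, pow_add, Module.End.mul_apply]
    refine Submodule.mem_sup_left (Submodule.mem_map_of_mem ?_)
    exact hn₁ _
  have p₂ : ∀ m, n₂ ≤ m → ∀ x, (θ₂ ^ (m + 1)) x ∈ W := by
    intro m hm x
    obtain ⟨d, rfl⟩ := Nat.exists_eq_add_of_le hm
    rw [pow_succ', Module.End.mul_apply, pow_add, Module.End.mul_apply]
    refine Submodule.mem_sup_right (Submodule.mem_map_of_mem ?_)
    exact hn₂ _
  have c₁ : s44h_IsCore θ₁ W := ⟨hfin, st₁, ⟨n₁ + 1, p₁ n₁ le_rfl⟩⟩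
  have c₂ : s44h_IsCore θ₂ W := ⟨hfin, st₂, ⟨n₂ + 1, p₂ n₂ le_rfl⟩⟩
  have c₁₂ : s44h_IsCore (θ₁ + θ₂) W := by
    refine ⟨hfin, fun x hx => ?_, ⟨max n₁ n₂ + 1, fun x => ?_⟩⟩
    · rw [LinearMap.add_apply]; exact W.add_mem (st₁ x hx) (st₂ x hx)
    · rw [s44h_add_pow_of_mul_eq_zero h12 h21, LinearMap.add_apply]
      exact W.add_mem (p₁ _ (le_max_left _ _) x) (p₂ _ (le_max_right _ _) x)
  exact ⟨c₁₂, s44h_tr_add_of_core c₁ c₂ c₁₂⟩

/-- Finite sums of pairwise annihilating finite-potent endomorphisms. -/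
theorem s44h_tr_sum_of_pairwise {ι : Type*} [DecidableEq ι] (s : Finset ι) (θ : ι → End k V)
    (hcore : ∀ i ∈ s, ∃ W, s44h_IsCore (θ i) W)
    (hz : ∀ i ∈ s, ∀ j ∈ s, i ≠ j → θ i * θ j = 0) :
    (∃ W, s44h_IsCore (∑ i ∈ s, θ i) W) ∧ s44h_tr (∑ i ∈ s, θ i) = ∑ i ∈ s, s44h_tr (θ i) := by
  induction s using Finset.induction_on with
  | empty =>
    simp only [Finset.sum_empty]
    exact ⟨⟨⊥, s44h_isCore_bot_of_sq (by simp)⟩, s44h_tr_zero⟩
  | insert a s ha ih =>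
    have ih' := ih (fun i hi => hcore i (Finset.mem_insert_of_mem hi))
      (fun i hi j hj hij => hz i (Finset.mem_insert_of_mem hi) j (Finset.mem_insert_of_mem hj) hij)
    obtain ⟨⟨W₂, hW₂⟩, ht⟩ := ih'
    obtain ⟨W₁, hW₁⟩ := hcore a (Finset.mem_insert_self a s)
    have h12 : θ a * ∑ i ∈ s, θ i = 0 := by
      rw [Finset.mul_sum]
      refine Finset.sum_eq_zero fun i hi => ?_
      exact hz a (Finset.mem_insert_self a s) i (Finset.mem_insert_of_mem hi)
        (fun e => ha (e ▸ hi))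
    have h21 : (∑ i ∈ s, θ i) * θ a = 0 := by
      rw [Finset.sum_mul]
      refine Finset.sum_eq_zero fun i hi => ?_
      exact hz i (Finset.mem_insert_of_mem hi) a (Finset.mem_insert_self a s)
        (fun e => ha (e ▸ hi))
    obtain ⟨hc, hadd⟩ := s44h_tr_add_of_mul_eq_zero h12 h21 hW₁ hW₂
    rw [Finset.sum_insert ha, Finset.sum_insert ha, hadd, ht]
    exact ⟨⟨_, hc⟩, rfl⟩

/-- `tr (ν + φ) = tr φ` for `ν² = 0` and `φ` of finite rank. -/
theorem s44h_tr_sq_zero_add_fin {ν φ : End k V} (hν : ν * ν = 0)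
    [FiniteDimensional k (LinearMap.range φ)] :
    s44h_tr (ν + φ) = s44h_tr φ := by
  set R : Submodule k V := LinearMap.range φ with hR
  set W : Submodule k V := R ⊔ R.map ν with hWdef
  have hfin : FiniteDimensional k W := inferInstance
  have zν : ∀ x, ν (ν x) = 0 := fun x => by
    rw [← Module.End.mul_apply, hν, LinearMap.zero_apply]
  have hφW : ∀ x, φ x ∈ W := fun x => Submodule.mem_sup_left (LinearMap.mem_range_self φ x)
  have stν : ∀ x ∈ W, ν x ∈ W := by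
    intro x hx
    obtain ⟨a, ha, b, hb, rfl⟩ := Submodule.mem_sup.mp hx
    obtain ⟨w, _, rfl⟩ := Submodule.mem_map.mp hb
    rw [map_add, zν, add_zero]
    exact Submodule.mem_sup_right (Submodule.mem_map_of_mem ha)
  have cν : s44h_IsCore ν W :=
    ⟨hfin, stν, ⟨2, fun x => by rw [pow_two, hν]; exact W.zero_mem⟩⟩
  have cφ : s44h_IsCore φ W :=
    ⟨hfin, fun x _ => hφW x, ⟨1, fun x => by rw [pow_one]; exact hφW x⟩⟩
  have cνφ : s44h_IsCore (ν + φ) W := by
    refine ⟨hfin, fun x hx => ?_, ⟨2, fun x => ?_⟩⟩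
    · rw [LinearMap.add_apply]; exact W.add_mem (stν x hx) (hφW x)
    · rw [pow_two, Module.End.mul_apply, LinearMap.add_apply, LinearMap.add_apply, map_add, zν,
        zero_add]
      refine W.add_mem ?_ (hφW _)
      exact Submodule.mem_sup_right (Submodule.mem_map_of_mem (LinearMap.mem_range_self φ x))
  rw [s44h_tr_add_of_core cν cφ cνφ, s44h_tr_eq_zero_of_sq hν, zero_add]

end More

end Fermat.Agent.Lib.S44
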