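/-
M-AT-P / W4, brick [T] part B: Tate's abstract residue `res^V_A(f dg)`
(J. Tate, Residues of differentials on curves, 1968, sections 1-2), abstract linear algebra.

`s44h_res A f g := tr [π f, g]` for a projection `π` of `V` onto `A`; independence of the
choices, bilinearity, Leibniz rule, (R1) dependence on the commensurability class of `A`,
(R2) vanishing for `f, g` preserving `A`, (R4') `res(g⁻¹ dg) = dim A/gA`, the global vanishing
criterion (`A ∩ B` finite-dimensional, `A + B` cofinite, `B` stable) and transport.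
-/
import Fermat.Agent.Lib.S44.HTateTrace

set_option autoImplicit false

namespace Fermat.Agent.Lib.S44

open Module

section Small

variable {k : Type*} [Field k] {V : Type*} [AddCommGroup V] [Module k V]

/-- `X ≺ Y`: `X` is contained in `Y` up to a finite-dimensional subspace. -/
def s44h_Small (X Y : Submodule k V) : Prop :=
  ∃ U : Submodule k V, FiniteDimensional k U ∧ X ≤ Y ⊔ U

theorem s44h_Small.of_le {X Y : Submodule k V} (h : X ≤ Y) : s44h_Small X Y :=
  ⟨⊥, inferInstance, h.trans le_sup_left⟩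

theorem s44h_Small.refl (X : Submodule k V) : s44h_Small X X := s44h_Small.of_le le_rfl

theorem s44h_Small.of_fin (X Y : Submodule k V) [h : FiniteDimensional k X] : s44h_Small X Y :=
  ⟨X, h, le_sup_right⟩

theorem s44h_Small.trans {X Y Z : Submodule k V} (h₁ : s44h_Small X Y) (h₂ : s44h_Small Y Z) :
    s44h_Small X Z := by
  obtain ⟨U₁, hU₁, h₁⟩ := h₁
  obtain ⟨U₂, hU₂, h₂⟩ := h₂
  refine ⟨U₂ ⊔ U₁, inferInstance, h₁.trans ?_⟩
  rw [← sup_assoc]
  exact sup_le_sup_right h₂ U₁

theorem s44h_Small.mono_left {X X' Y : Submodule k V} (h : X' ≤ X) (h₁ : s44h_Small X Y) :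
    s44h_Small X' Y := (s44h_Small.of_le h).trans h₁

theorem s44h_Small.map (θ : End k V) {X Y : Submodule k V} (h : s44h_Small X Y) :
    s44h_Small (X.map θ) (Y.map θ) := by
  obtain ⟨U, hU, h⟩ := h
  refine ⟨U.map θ, inferInstance, ?_⟩
  rw [← Submodule.map_sup]
  exact Submodule.map_mono h

theorem s44h_Small.sup {X₁ X₂ Y : Submodule k V} (h₁ : s44h_Small X₁ Y) (h₂ : s44h_Small X₂ Y) :
    s44h_Small (X₁ ⊔ X₂) Y := by
  obtain ⟨U₁, hU₁, h₁⟩ := h₁
  obtain ⟨U₂, hU₂, h₂⟩ := h₂
  refine ⟨U₁ ⊔ U₂, inferInstance, sup_le ?_ ?_⟩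
  · exact h₁.trans (sup_le_sup_left le_sup_left Y)
  · exact h₂.trans (sup_le_sup_left le_sup_right Y)

theorem s44h_Small.fin_of_bot {X : Submodule k V} (h : s44h_Small X ⊥) :
    FiniteDimensional k X := by
  obtain ⟨U, hU, h⟩ := h
  rw [bot_sup_eq] at h
  exact Submodule.finiteDimensional_of_le h

/-- If `X ≺ A` and `θ A` is finite-dimensional then `θ X` is finite-dimensional. -/
theorem s44h_Small.fin_map {X A : Submodule k V} (h : s44h_Small X A) (θ : End k V)
    (hθ : FiniteDimensional k (A.map θ)) : FiniteDimensional k (X.map θ) := by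
  obtain ⟨U, hU, h⟩ := h
  have : X.map θ ≤ A.map θ ⊔ U.map θ := by
    rw [← Submodule.map_sup]
    exact Submodule.map_mono h
  exact Submodule.finiteDimensional_of_le this

end Small

section Ideals

variable {k : Type*} [Field k] {V : Type*} [AddCommGroup V] [Module k V]

/-- `θ A ≺ A`. -/
def s44h_E (A : Submodule k V) (θ : End k V) : Prop := s44h_Small (A.map θ) A

/-- `θ V ≺ A`. -/
def s44h_E1 (A : Submodule k V) (θ : End k V) : Prop := s44h_Small (LinearMap.range θ) A

/-- `θ A` is finite-dimensional. -/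
def s44h_E2 (A : Submodule k V) (θ : End k V) : Prop := FiniteDimensional k (A.map θ)

theorem s44h_map_mul (A : Submodule k V) (θ φ : End k V) :
    A.map (θ * φ) = (A.map φ).map θ := by
  rw [Module.End.mul_eq_comp, Submodule.map_comp]

theorem s44h_range_mul (θ φ : End k V) :
    LinearMap.range (θ * φ) = (LinearMap.range φ).map θ := by
  rw [Module.End.mul_eq_comp, LinearMap.range_comp]

theorem s44h_map_add_le (A : Submodule k V) (θ φ : End k V) :
    A.map (θ + φ) ≤ A.map θ ⊔ A.map φ := by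
  rintro _ ⟨x, hx, rfl⟩
  rw [LinearMap.add_apply]
  exact Submodule.add_mem _ (Submodule.mem_sup_left (Submodule.mem_map_of_mem hx))
    (Submodule.mem_sup_right (Submodule.mem_map_of_mem hx))

theorem s44h_range_add_le (θ φ : End k V) :
    LinearMap.range (θ + φ) ≤ LinearMap.range θ ⊔ LinearMap.range φ := by
  rintro _ ⟨x, rfl⟩
  rw [LinearMap.add_apply]
  exact Submodule.add_mem _ (Submodule.mem_sup_left (LinearMap.mem_range_self θ x))
    (Submodule.mem_sup_right (LinearMap.mem_range_self φ x))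

theorem s44h_map_smul_le (A : Submodule k V) (c : k) (θ : End k V) :
    A.map (c • θ) ≤ A.map θ := by
  rintro _ ⟨x, hx, rfl⟩
  rw [LinearMap.smul_apply]
  exact Submodule.smul_mem _ c (Submodule.mem_map_of_mem hx)

theorem s44h_range_smul_le (c : k) (θ : End k V) :
    LinearMap.range (c • θ) ≤ LinearMap.range θ := by
  rintro _ ⟨x, rfl⟩
  rw [LinearMap.smul_apply]
  exact Submodule.smul_mem _ c (LinearMap.mem_range_self θ x)

variable {A : Submodule k V}

/-! ### `E` -/

theorem s44h_E.of_stable {θ : End k V} (h : ∀ x ∈ A, θ x ∈ A) : s44h_E A θ :=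
  s44h_Small.of_le (Submodule.map_le_iff_le_comap.mpr h)

theorem s44h_E.one : s44h_E A (1 : End k V) :=
  s44h_E.of_stable fun x hx => by simpa using hx

theorem s44h_E.mul {θ φ : End k V} (hθ : s44h_E A θ) (hφ : s44h_E A φ) : s44h_E A (θ * φ) := by
  unfold s44h_E
  rw [s44h_map_mul]
  exact (s44h_Small.map θ hφ).trans hθ

theorem s44h_E.add {θ φ : End k V} (hθ : s44h_E A θ) (hφ : s44h_E A φ) : s44h_E A (θ + φ) :=
  (hθ.sup hφ).mono_left (s44h_map_add_le A θ φ)

theorem s44h_E.smul {θ : End k V} (hθ : s44h_E A θ) (c : k) : s44h_E A (c • θ) :=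
  s44h_Small.mono_left (s44h_map_smul_le A c θ) hθ

theorem s44h_E.neg {θ : End k V} (hθ : s44h_E A θ) : s44h_E A (-θ) := by
  have := hθ.smul (-1)
  rwa [neg_one_smul] at this

theorem s44h_E.sub {θ φ : End k V} (hθ : s44h_E A θ) (hφ : s44h_E A φ) : s44h_E A (θ - φ) := by
  rw [sub_eq_add_neg]
  exact hθ.add hφ.neg

/-! ### `E₁` -/

theorem s44h_E1.toE {θ : End k V} (hθ : s44h_E1 A θ) : s44h_E A θ :=
  s44h_Small.mono_left (LinearMap.map_le_range) hθ

theorem s44h_E1.mul_right {θ : End k V} (hθ : s44h_E1 A θ) (φ : End k V) :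
    s44h_E1 A (θ * φ) := by
  refine s44h_Small.mono_left ?_ hθ
  rw [Module.End.mul_eq_comp]
  exact LinearMap.range_comp_le_range φ θ

theorem s44h_E1.mul_left {θ : End k V} (hθ : s44h_E1 A θ) {φ : End k V} (hφ : s44h_E A φ) :
    s44h_E1 A (φ * θ) := by
  unfold s44h_E1
  rw [s44h_range_mul]
  exact (s44h_Small.map φ hθ).trans hφ

theorem s44h_E1.add {θ φ : End k V} (hθ : s44h_E1 A θ) (hφ : s44h_E1 A φ) :
    s44h_E1 A (θ + φ) :=
  (hθ.sup hφ).mono_left (s44h_range_add_le θ φ)

theorem s44h_E1.smul {θ : End k V} (hθ : s44h_E1 A θ) (c : k) : s44h_E1 A (c • θ) :=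
  s44h_Small.mono_left (s44h_range_smul_le c θ) hθ

theorem s44h_E1.neg {θ : End k V} (hθ : s44h_E1 A θ) : s44h_E1 A (-θ) := by
  have := hθ.smul (-1)
  rwa [neg_one_smul] at this

theorem s44h_E1.sub {θ φ : End k V} (hθ : s44h_E1 A θ) (hφ : s44h_E1 A φ) :
    s44h_E1 A (θ - φ) := by
  rw [sub_eq_add_neg]
  exact hθ.add hφ.neg

/-! ### `E₂` -/

theorem s44h_E2.toE {θ : End k V} (hθ : s44h_E2 A θ) : s44h_E A θ :=
  @s44h_Small.of_fin _ _ _ _ _ _ _ hθ

theorem s44h_E2.mul_left {θ : End k V} (hθ : s44h_E2 A θ) (φ : End k V) :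
    s44h_E2 A (φ * θ) := by
  unfold s44h_E2 at hθ ⊢
  rw [s44h_map_mul]
  infer_instance

theorem s44h_E2.mul_right {θ : End k V} (hθ : s44h_E2 A θ) {φ : End k V} (hφ : s44h_E A φ) :
    s44h_E2 A (θ * φ) := by
  unfold s44h_E2
  rw [s44h_map_mul]
  exact s44h_Small.fin_map hφ θ hθ

theorem s44h_E2.add {θ φ : End k V} (hθ : s44h_E2 A θ) (hφ : s44h_E2 A φ) :
    s44h_E2 A (θ + φ) := by
  unfold s44h_E2 at hθ hφ ⊢
  exact Submodule.finiteDimensional_of_le (s44h_map_add_le A θ φ)

theorem s44h_E2.smul {θ : End k V} (hθ : s44h_E2 A θ) (c : k) : s44h_E2 A (c • θ) := by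
  unfold s44h_E2 at hθ ⊢
  exact Submodule.finiteDimensional_of_le (s44h_map_smul_le A c θ)

theorem s44h_E2.neg {θ : End k V} (hθ : s44h_E2 A θ) : s44h_E2 A (-θ) := by
  have := hθ.smul (-1)
  rwa [neg_one_smul] at this

theorem s44h_E2.sub {θ φ : End k V} (hθ : s44h_E2 A θ) (hφ : s44h_E2 A φ) :
    s44h_E2 A (θ - φ) := by
  rw [sub_eq_add_neg]
  exact hθ.add hφ.neg

/-! ### Change of `A` inside its commensurability class -/

theorem s44h_E1.congr {A' : Submodule k V} (h : s44h_Small A A') {θ : End k V}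
    (hθ : s44h_E1 A θ) : s44h_E1 A' θ := s44h_Small.trans hθ h

theorem s44h_E2.congr {A' : Submodule k V} (h : s44h_Small A' A) {θ : End k V}
    (hθ : s44h_E2 A θ) : s44h_E2 A' θ := s44h_Small.fin_map h θ hθ

theorem s44h_E.congr {A' : Submodule k V} (h : s44h_Small A A') (h' : s44h_Small A' A)
    {θ : End k V} (hθ : s44h_E A θ) : s44h_E A' θ :=
  ((s44h_Small.map θ h').trans hθ).trans h

/-! ### `E₀ = E₁ ∩ E₂` -/

/-- `E₀ = E₁ ∩ E₂`. -/
def s44h_E0 (A : Submodule k V) (θ : End k V) : Prop := s44h_E1 A θ ∧ s44h_E2 A θ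

theorem s44h_fin_range_mul {a b : End k V} (ha : s44h_E2 A a) (hb : s44h_E1 A b) :
    FiniteDimensional k (LinearMap.range (a * b)) := by
  rw [s44h_range_mul]
  exact s44h_Small.fin_map hb a ha

theorem s44h_E0.core {θ : End k V} (h : s44h_E0 A θ) :
    s44h_IsCore θ (LinearMap.range (θ * θ)) :=
  @s44h_isCore_range_sq _ _ _ _ _ θ (s44h_fin_range_mul h.2 h.1)

theorem s44h_E0.add {a b : End k V} (ha : s44h_E0 A a) (hb : s44h_E0 A b) : s44h_E0 A (a + b) :=
  ⟨ha.1.add hb.1, ha.2.add hb.2⟩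

theorem s44h_E0.neg {a : End k V} (ha : s44h_E0 A a) : s44h_E0 A (-a) := ⟨ha.1.neg, ha.2.neg⟩

theorem s44h_E0.sub {a b : End k V} (ha : s44h_E0 A a) (hb : s44h_E0 A b) : s44h_E0 A (a - b) :=
  ⟨ha.1.sub hb.1, ha.2.sub hb.2⟩

theorem s44h_E0.smul {a : End k V} (ha : s44h_E0 A a) (c : k) : s44h_E0 A (c • a) :=
  ⟨ha.1.smul c, ha.2.smul c⟩

/-- The trace is additive on `E₀`. -/
theorem s44h_tr_add_E0 {a b : End k V} (ha : s44h_E0 A a) (hb : s44h_E0 A b) :
    s44h_tr (a + b) = s44h_tr a + s44h_tr b := by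
  refine (s44h_tr_add_of_fin ?_).2
  have hR : s44h_Small (LinearMap.range a ⊔ LinearMap.range b) A := ha.1.sup hb.1
  haveI := s44h_Small.fin_map hR a ha.2
  haveI := s44h_Small.fin_map hR b hb.2
  infer_instance

theorem s44h_tr_neg_E0 {a : End k V} (ha : s44h_E0 A a) : s44h_tr (-a) = - s44h_tr a :=
  s44h_tr_neg ha.core

theorem s44h_tr_sub_E0 {a b : End k V} (ha : s44h_E0 A a) (hb : s44h_E0 A b) :
    s44h_tr (a - b) = s44h_tr a - s44h_tr b := by
  rw [sub_eq_add_neg, s44h_tr_add_E0 ha hb.neg, s44h_tr_neg_E0 hb, sub_eq_add_neg]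

theorem s44h_tr_smul_E0 {a : End k V} (ha : s44h_E0 A a) (c : k) :
    s44h_tr (c • a) = c * s44h_tr a :=
  s44h_tr_smul ha.core c

/-- The commutator `a b - b a`. -/
def s44h_comm (a b : End k V) : End k V := a * b - b * a

/-- The trace of a commutator vanishes as soon as both products lie in `E₀`. -/
theorem s44h_tr_comm_E0 {a b : End k V} (hab : s44h_E0 A (a * b)) (hba : s44h_E0 A (b * a)) :
    s44h_tr (s44h_comm a b) = 0 := by
  unfold s44h_comm
  rw [s44h_tr_sub_E0 hab hba, (s44h_tr_mul_comm a b hab.core).2, sub_self]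

end Ideals

section Res

variable {k : Type*} [Field k] {V : Type*} [AddCommGroup V] [Module k V]

/-- A chosen projection of `V` onto `A`. -/
noncomputable def s44h_proj (A : Submodule k V) : End k V :=
  A.projection _ (Classical.choose_spec A.exists_isCompl)

theorem s44h_proj_isProj (A : Submodule k V) : LinearMap.IsProj A (s44h_proj A) :=
  ⟨fun x => Submodule.projection_apply_mem _ x,
    fun x hx => Submodule.projection_apply_of_mem_left _ hx⟩

/-- Tate's abstract residue `res^V_A(f dg)`. -/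
noncomputable def s44h_res (A : Submodule k V) (f g : End k V) : k :=
  s44h_tr (s44h_comm (s44h_proj A * f) g)

variable {A : Submodule k V}

theorem s44h_isProj_E1 {π : End k V} (hπ : LinearMap.IsProj A π) : s44h_E1 A π :=
  s44h_Small.of_le (by rintro _ ⟨x, rfl⟩; exact hπ.map_mem x)

theorem s44h_isProj_E2 {π : End k V} (hπ : LinearMap.IsProj A π) : s44h_E2 A (1 - π) := by
  have : A.map (1 - π) = ⊥ := by
    rw [eq_bot_iff]
    rintro _ ⟨x, hx, rfl⟩
    rw [LinearMap.sub_apply, Module.End.one_apply, hπ.map_id x hx, sub_self]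
    exact Submodule.zero_mem _
  unfold s44h_E2
  rw [this]
  infer_instance

theorem s44h_isProj_mul_E1 {π : End k V} (hπ : LinearMap.IsProj A π) (f : End k V) :
    s44h_E1 A (π * f) := (s44h_isProj_E1 hπ).mul_right f

theorem s44h_isProj_mul_E2 {π : End k V} (hπ : LinearMap.IsProj A π) {f : End k V}
    (hf : s44h_E A f) : s44h_E2 A (π * f - f) := by
  have : π * f - f = -((1 - π) * f) := by noncomm_ring
  rw [this]
  exact ((s44h_isProj_E2 hπ).mul_right hf).neg

/-- `[f₁, g] ∈ E₀` when `f₁ ∈ E₁`, `f₁ ≡ f mod E₂`, `g ∈ E` and `f g = g f`. -/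
theorem s44h_comm_E0 {f g f₁ : End k V} (hg : s44h_E A g) (hfg : f * g = g * f)
    (h1 : s44h_E1 A f₁) (h2 : s44h_E2 A (f₁ - f)) : s44h_E0 A (s44h_comm f₁ g) := by
  refine ⟨(h1.mul_right g).sub (h1.mul_left hg), ?_⟩
  have : s44h_comm f₁ g = (f₁ - f) * g - g * (f₁ - f) := by
    unfold s44h_comm
    have : f₁ * g - g * f₁ = (f₁ - f) * g - g * (f₁ - f) + (f * g - g * f) := by noncomm_ring
    rw [this, hfg, sub_self, add_zero]
  rw [this]
  exact (h2.mul_right hg).sub (h2.mul_left g)

/-- Independence of the choices: any `f₁ ∈ E₁` with `f₁ ≡ f mod E₂` computes the residue. -/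
theorem s44h_res_eq_tr {f g : End k V} (hf : s44h_E A f) (hg : s44h_E A g) (hfg : f * g = g * f)
    {f₁ : End k V} (h1 : s44h_E1 A f₁) (h2 : s44h_E2 A (f₁ - f)) :
    s44h_res A f g = s44h_tr (s44h_comm f₁ g) := by
  unfold s44h_res
  have hπ := s44h_proj_isProj A
  set π := s44h_proj A with hπdef
  have p1 : s44h_E1 A (π * f) := s44h_isProj_mul_E1 hπ f
  have p2 : s44h_E2 A (π * f - f) := s44h_isProj_mul_E2 hπ hf
  have c1 : s44h_E1 A (f₁ - π * f) := h1.sub p1
  have c2 : s44h_E2 A (f₁ - π * f) := by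
    have : f₁ - π * f = (f₁ - f) - (π * f - f) := by noncomm_ring
    rw [this]
    exact h2.sub p2
  have e0 : s44h_E0 A (s44h_comm (π * f) g) := s44h_comm_E0 hg hfg p1 p2
  have ecg : s44h_E0 A ((f₁ - π * f) * g) := ⟨c1.mul_right g, c2.mul_right hg⟩
  have egc : s44h_E0 A (g * (f₁ - π * f)) := ⟨c1.mul_left hg, c2.mul_left g⟩
  have e1 : s44h_E0 A (s44h_comm (f₁ - π * f) g) := ecg.sub egc
  have hsplit : s44h_comm f₁ g = s44h_comm (π * f) g + s44h_comm (f₁ - π * f) g := by
    unfold s44h_comm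
    noncomm_ring
  rw [hsplit, s44h_tr_add_E0 e0 e1, s44h_tr_comm_E0 ecg egc, add_zero]

/-- The residue can be computed with any projection onto `A`. -/
theorem s44h_res_eq_of_isProj {f g : End k V} (hf : s44h_E A f) (hg : s44h_E A g)
    (hfg : f * g = g * f) {π : End k V} (hπ : LinearMap.IsProj A π) :
    s44h_res A f g = s44h_tr (s44h_comm (π * f) g) :=
  s44h_res_eq_tr hf hg hfg (s44h_isProj_mul_E1 hπ f) (s44h_isProj_mul_E2 hπ hf)

/-- (R1) The residue only depends on the commensurability class of `A`. -/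
theorem s44h_res_congr {A' : Submodule k V} (h : s44h_Small A A') (h' : s44h_Small A' A)
    {f g : End k V} (hf : s44h_E A f) (hg : s44h_E A g) (hfg : f * g = g * f) :
    s44h_res A f g = s44h_res A' f g := by
  have hπ' := s44h_proj_isProj A'
  have hf' : s44h_E A' f := hf.congr h h'
  refine s44h_res_eq_tr hf hg hfg (f₁ := s44h_proj A' * f) ?_ ?_
  · exact (s44h_isProj_mul_E1 hπ' f).congr h'
  · exact (s44h_isProj_mul_E2 hπ' hf').congr h

/-! ### Bilinearity and the Leibniz rule -/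

theorem s44h_res_add_left {f f' g : End k V} (hf : s44h_E A f) (hf' : s44h_E A f')
    (hg : s44h_E A g) (hfg : f * g = g * f) (hf'g : f' * g = g * f') :
    s44h_res A (f + f') g = s44h_res A f g + s44h_res A f' g := by
  have hπ := s44h_proj_isProj A
  unfold s44h_res
  have e : s44h_comm (s44h_proj A * (f + f')) g =
      s44h_comm (s44h_proj A * f) g + s44h_comm (s44h_proj A * f') g := by
    unfold s44h_comm; noncomm_ring
  rw [e]
  exact s44h_tr_add_E0
    (s44h_comm_E0 hg hfg (s44h_isProj_mul_E1 hπ f) (s44h_isProj_mul_E2 hπ hf))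
    (s44h_comm_E0 hg hf'g (s44h_isProj_mul_E1 hπ f') (s44h_isProj_mul_E2 hπ hf'))

theorem s44h_res_smul_left {f g : End k V} (hf : s44h_E A f) (hg : s44h_E A g)
    (hfg : f * g = g * f) (c : k) : s44h_res A (c • f) g = c * s44h_res A f g := by
  have hπ := s44h_proj_isProj A
  unfold s44h_res
  have e : s44h_comm (s44h_proj A * (c • f)) g = c • s44h_comm (s44h_proj A * f) g := by
    unfold s44h_comm
    rw [mul_smul_comm, smul_mul_assoc, mul_smul_comm, smul_sub]
  rw [e]
  exact s44h_tr_smul_E0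
    (s44h_comm_E0 hg hfg (s44h_isProj_mul_E1 hπ f) (s44h_isProj_mul_E2 hπ hf)) c

theorem s44h_res_add_right {f g g' : End k V} (hf : s44h_E A f) (hg : s44h_E A g)
    (hg' : s44h_E A g') (hfg : f * g = g * f) (hfg' : f * g' = g' * f) :
    s44h_res A f (g + g') = s44h_res A f g + s44h_res A f g' := by
  have hπ := s44h_proj_isProj A
  unfold s44h_res
  have e : s44h_comm (s44h_proj A * f) (g + g') =
      s44h_comm (s44h_proj A * f) g + s44h_comm (s44h_proj A * f) g' := by
    unfold s44h_comm; noncomm_ring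
  rw [e]
  exact s44h_tr_add_E0
    (s44h_comm_E0 hg hfg (s44h_isProj_mul_E1 hπ f) (s44h_isProj_mul_E2 hπ hf))
    (s44h_comm_E0 hg' hfg' (s44h_isProj_mul_E1 hπ f) (s44h_isProj_mul_E2 hπ hf))

theorem s44h_res_smul_right {f g : End k V} (hf : s44h_E A f) (hg : s44h_E A g)
    (hfg : f * g = g * f) (c : k) : s44h_res A f (c • g) = c * s44h_res A f g := by
  have hπ := s44h_proj_isProj A
  unfold s44h_res
  have e : s44h_comm (s44h_proj A * f) (c • g) = c • s44h_comm (s44h_proj A * f) g := by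
    unfold s44h_comm
    rw [mul_smul_comm, smul_mul_assoc, smul_sub]
  rw [e]
  exact s44h_tr_smul_E0
    (s44h_comm_E0 hg hfg (s44h_isProj_mul_E1 hπ f) (s44h_isProj_mul_E2 hπ hf)) c

/-- Leibniz rule: `res(f d(gh)) = res(fg dh) + res(fh dg)`. -/
theorem s44h_res_mul_right {f g h : End k V} (hf : s44h_E A f) (hg : s44h_E A g)
    (hh : s44h_E A h) (hfg : f * g = g * f) (hfh : f * h = h * f) (hgh : g * h = h * g) :
    s44h_res A f (g * h) = s44h_res A (f * g) h + s44h_res A (f * h) g := by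
  have hπ := s44h_proj_isProj A
  have p1 : s44h_E1 A (s44h_proj A * f) := s44h_isProj_mul_E1 hπ f
  have p2 : s44h_E2 A (s44h_proj A * f - f) := s44h_isProj_mul_E2 hπ hf
  -- the second summand, computed with `h π f`
  have q1 : s44h_E1 A (h * (s44h_proj A * f)) := p1.mul_left hh
  have q2 : s44h_E2 A (h * (s44h_proj A * f) - f * h) := by
    have : h * (s44h_proj A * f) - f * h = h * (s44h_proj A * f - f) := by
      rw [hfh]; noncomm_ring
    rw [this]
    exact p2.mul_left h
  have c_fh_g : (f * h) * g = g * (f * h) := by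
    rw [mul_assoc, ← hgh, ← mul_assoc, hfg, mul_assoc]
  have c_fg_h : (f * g) * h = h * (f * g) := by
    rw [mul_assoc, hgh, ← mul_assoc, hfh, mul_assoc]
  have r2 : s44h_res A (f * h) g = s44h_tr (s44h_comm (h * (s44h_proj A * f)) g) :=
    s44h_res_eq_tr (hf.mul hh) hg c_fh_g q1 q2
  have r1 : s44h_res A (f * g) h = s44h_tr (s44h_comm (s44h_proj A * f * g) h) := by
    unfold s44h_res
    rw [mul_assoc]
  have e : s44h_comm (s44h_proj A * f) (g * h) =
      s44h_comm (s44h_proj A * f * g) h + s44h_comm (h * (s44h_proj A * f)) g := by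
    unfold s44h_comm
    noncomm_ring
  rw [r1, r2]
  unfold s44h_res
  rw [e]
  refine s44h_tr_add_E0 ?_ (s44h_comm_E0 hg c_fh_g q1 q2)
  have : s44h_proj A * f * g = s44h_proj A * (f * g) := mul_assoc _ _ _
  rw [this]
  exact s44h_comm_E0 hh c_fg_h (s44h_isProj_mul_E1 hπ (f * g))
    (s44h_isProj_mul_E2 hπ (hf.mul hg))

/-! ### (R2) -/

/-- For a projection `π` onto `A` and commuting `f, g` preserving `A`, `[π f, g]² = 0`. -/
theorem s44h_comm_sq_zero_of_stable {π f g : End k V} (hπ : LinearMap.IsProj A π)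
    (hfg : f * g = g * f) (hgA : ∀ x ∈ A, g x ∈ A) (hfA : ∀ x ∈ A, f x ∈ A) :
    s44h_comm (π * f) g * s44h_comm (π * f) g = 0 := by
  have hmem : ∀ x, s44h_comm (π * f) g x ∈ A := by
    intro x
    unfold s44h_comm
    simp only [LinearMap.sub_apply, Module.End.mul_apply]
    exact A.sub_mem (hπ.map_mem _) (hgA _ (hπ.map_mem _))
  have hzero : ∀ a ∈ A, s44h_comm (π * f) g a = 0 := by
    intro a ha
    unfold s44h_comm
    simp only [LinearMap.sub_apply, Module.End.mul_apply]
    rw [hπ.map_id _ (hfA _ (hgA a ha)), hπ.map_id _ (hfA a ha)]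
    have := congrArg (fun φ : End k V => φ a) hfg
    simp only [Module.End.mul_apply] at this
    rw [this, sub_self]
  ext x
  rw [Module.End.mul_apply, LinearMap.zero_apply]
  exact hzero _ (hmem x)

/-- (R2) `res^V_A(f dg) = 0` if `f` and `g` preserve `A`. -/
theorem s44h_res_eq_zero_of_stable {f g : End k V} (hfg : f * g = g * f)
    (hfA : ∀ x ∈ A, f x ∈ A) (hgA : ∀ x ∈ A, g x ∈ A) : s44h_res A f g = 0 :=
  s44h_tr_eq_zero_of_sq (s44h_comm_sq_zero_of_stable (s44h_proj_isProj A) hfg hgA hfA)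

/-! ### (R4') -/

/-- (R4') `res(g⁻¹ dg) = dim A / gA` when `gA ⊆ A`; `W` is a complement of `gA` in `A`. -/
theorem s44h_res_inv {g ginv : End k V} (h1 : g * ginv = 1) (h2 : ginv * g = 1)
    (hgA : ∀ x ∈ A, g x ∈ A) (hginv : s44h_E A ginv) (W : Submodule k V)
    [FiniteDimensional k W] (hWA : W ≤ A) (hdisj : Disjoint (A.map g) W)
    (hsup : A ≤ A.map g ⊔ W) : s44h_res A ginv g = (finrank k W : k) := by
  have hπ := s44h_proj_isProj A
  have hgE : s44h_E A g := s44h_E.of_stable hgA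
  have hcomm : ginv * g = g * ginv := by rw [h1, h2]
  set π := s44h_proj A with hπdef
  set θ : End k V := s44h_comm (π * ginv) g with hθdef
  have g_ginv : ∀ x, g (ginv x) = x := fun x => by
    rw [← Module.End.mul_apply, h1, Module.End.one_apply]
  have ginv_g : ∀ x, ginv (g x) = x := fun x => by
    rw [← Module.End.mul_apply, h2, Module.End.one_apply]
  have hθx : ∀ x, θ x = π x - g (π (ginv x)) := by
    intro x
    rw [hθdef]
    unfold s44h_comm
    simp only [LinearMap.sub_apply, Module.End.mul_apply]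
    rw [ginv_g]
  have hθA : ∀ x, θ x ∈ A := fun x => by
    rw [hθx]; exact A.sub_mem (hπ.map_mem _) (hgA _ (hπ.map_mem _))
  have hθgA : ∀ a ∈ A, θ (g a) = 0 := fun a ha => by
    rw [hθx, ginv_g, hπ.map_id a ha, hπ.map_id _ (hgA a ha), sub_self]
  -- `θ A = θ W`
  have hθAW : ∀ a ∈ A, θ a ∈ W.map θ := by
    intro a ha
    obtain ⟨y, hy, w, hw, rfl⟩ := Submodule.mem_sup.mp (hsup ha)
    obtain ⟨a', ha', rfl⟩ := Submodule.mem_map.mp hy
    rw [map_add, hθgA a' ha', zero_add]
    exact Submodule.mem_map_of_mem hw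
  -- `θ` is the identity on `θ A`
  have hθid : ∀ a ∈ A, θ (θ a) = θ a := by
    intro a ha
    have e1 : θ a = a - g (π (ginv a)) := by rw [hθx, hπ.map_id a ha]
    have e2 : θ (g (π (ginv a))) = 0 := hθgA _ (hπ.map_mem _)
    conv_lhs => rw [e1, map_sub, e2, sub_zero]
  have hcore : s44h_IsCore θ (W.map θ) := by
    refine ⟨inferInstance, ?_, ⟨2, fun x => ?_⟩⟩
    · rintro _ ⟨w, hw, rfl⟩
      exact hθAW _ (hθA w)
    · rw [pow_two, Module.End.mul_apply]
      exact hθAW _ (hθA x)
  have hid : ∀ y ∈ W.map θ, θ y = y := by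
    rintro _ ⟨w, hw, rfl⟩
    exact hθid w (hWA hw)
  have hfr : finrank k ↥(W.map θ) = finrank k W := by
    have hinj : Function.Injective (θ ∘ₗ W.subtype) := by
      rw [← LinearMap.ker_eq_bot, eq_bot_iff]
      intro w hw
      rw [LinearMap.mem_ker, LinearMap.comp_apply, Submodule.subtype_apply] at hw
      have hwA : (w : V) ∈ A := hWA w.2
      have e1 : θ (w : V) = (w : V) - g (π (ginv (w : V))) := by rw [hθx, hπ.map_id _ hwA]
      rw [e1, sub_eq_zero] at hw
      have : (w : V) ∈ A.map g ⊓ W :=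
        ⟨by rw [hw]; exact Submodule.mem_map_of_mem (hπ.map_mem _), w.2⟩
      rw [hdisj.eq_bot] at this
      exact (Submodule.mem_bot k).mpr (Subtype.ext ((Submodule.mem_bot k).mp this))
    have := LinearMap.finrank_range_of_inj hinj
    rwa [LinearMap.range_comp, Submodule.range_subtype] at this
  have hres : s44h_res A ginv g = s44h_tr θ := rfl
  rw [hres, s44h_tr_eq_finrank hcore hid, hfr]

/-! ### Global vanishing -/

/-- If `B` is stable under `f, g`, `A ∩ B` is finite-dimensional and `A + B` has finite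
codimension, then `res^V_A(f dg) = 0` (abstract residue theorem). -/
theorem s44h_res_eq_zero_of_compl {f g : End k V} (hf : s44h_E A f) (hg : s44h_E A g)
    (hfg : f * g = g * f) (B : Submodule k V) (hfB : ∀ x ∈ B, f x ∈ B) (hgB : ∀ x ∈ B, g x ∈ B)
    [FiniteDimensional k ↥(A ⊓ B)] [FiniteDimensional k (V ⧸ (A ⊔ B))] :
    s44h_res A f g = 0 := by
  obtain ⟨r₀, hr₀⟩ := (A ⊓ B).exists_isCompl
  obtain ⟨C, hC⟩ := (A ⊔ B).exists_isCompl
  haveI : FiniteDimensional k C :=
    LinearEquiv.finiteDimensional (Submodule.quotientEquivOfIsCompl (A ⊔ B) C hC)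
  set A₁ : Submodule k V := r₀ ⊓ A with hA₁
  set A' : Submodule k V := A₁ ⊔ C with hA'
  have hAdec : A = (A ⊓ B) ⊔ A₁ := by
    have := sup_inf_assoc_of_le r₀ (inf_le_left : A ⊓ B ≤ A)
    rw [hr₀.sup_eq_top, top_inf_eq] at this
    exact this
  have s1 : s44h_Small A A' := by
    refine ⟨A ⊓ B, inferInstance, ?_⟩
    conv_lhs => rw [hAdec]
    rw [sup_comm]
    exact sup_le_sup_right le_sup_left _
  have s2 : s44h_Small A' A :=
    ⟨C, inferInstance, sup_le_sup_right inf_le_right C⟩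
  have hcompl : IsCompl A' B := by
    constructor
    · rw [Submodule.disjoint_def]
      intro x hxA' hxB
      obtain ⟨a, ha, c, hc, rfl⟩ := Submodule.mem_sup.mp hxA'
      have hcAB : c ∈ A ⊔ B := by
        have : c = (a + c) - a := by abel
        rw [this]
        exact Submodule.sub_mem _ (Submodule.mem_sup_right hxB) (Submodule.mem_sup_left ha.2)
      have hc0 : c = 0 := by
        have : c ∈ (A ⊔ B) ⊓ C := ⟨hcAB, hc⟩
        rw [hC.inf_eq_bot] at this
        exact (Submodule.mem_bot k).mp this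
      rw [hc0, add_zero] at hxB ⊢
      have : a ∈ (A ⊓ B) ⊓ r₀ := ⟨⟨ha.2, hxB⟩, ha.1⟩
      rw [hr₀.inf_eq_bot] at this
      exact (Submodule.mem_bot k).mp this
    · rw [codisjoint_iff, eq_top_iff, ← hC.sup_eq_top]
      refine sup_le (sup_le ?_ le_sup_right) (le_sup_left.trans' le_sup_right |>.trans' le_rfl)
      conv_lhs => rw [hAdec]
      exact sup_le (inf_le_right.trans le_sup_right) (le_sup_left.trans le_sup_left)
  rw [s44h_res_congr s1 s2 hf hg hfg]
  have hf' : s44h_E A' f := hf.congr s1 s2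
  have hg' : s44h_E A' g := hg.congr s1 s2
  have hπ' : LinearMap.IsProj A' (A'.projection B hcompl) :=
    ⟨fun x => Submodule.projection_apply_mem _ x,
      fun x hx => Submodule.projection_apply_of_mem_left _ hx⟩
  have hρ : LinearMap.IsProj B (B.projection A' hcompl.symm) :=
    ⟨fun x => Submodule.projection_apply_mem _ x,
      fun x hx => Submodule.projection_apply_of_mem_left _ hx⟩
  rw [s44h_res_eq_of_isProj hf' hg' hfg hπ']
  have hsq := s44h_comm_sq_zero_of_stable hρ hfg hgB hfB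
  have hrel : s44h_comm (A'.projection B hcompl * f) g =
      - s44h_comm (B.projection A' hcompl.symm * f) g := by
    have e : B.projection A' hcompl.symm = 1 - A'.projection B hcompl :=
      Submodule.projection_eq_id_sub_projection hcompl
    rw [e]
    unfold s44h_comm
    have : (1 - A'.projection B hcompl) * f * g - g * ((1 - A'.projection B hcompl) * f) =
        (f * g - g * f) - (A'.projection B hcompl * f * g - g * (A'.projection B hcompl * f)) := by
      noncomm_ring
    rw [this, hfg, sub_self, zero_sub, neg_neg]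
  refine s44h_tr_eq_zero_of_sq ?_
  rw [hrel, neg_mul_neg]
  exact hsq

end Res

section Transport

variable {k : Type*} [Field k] {V : Type*} [AddCommGroup V] [Module k V]
  {V' : Type*} [AddCommGroup V'] [Module k V']

/-- Transport of the residue along an injective linear map intertwining `f', g'` with `f, g`. -/
theorem s44h_res_transport (ι : V' →ₗ[k] V) (hι : Function.Injective ι) (A' : Submodule k V')
    {f' g' : End k V'} {f g : End k V} (hf : ∀ x, f (ι x) = ι (f' x))
    (hg : ∀ x, g (ι x) = ι (g' x)) (hf' : s44h_E A' f') (hg' : s44h_E A' g')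
    (hfg' : f' * g' = g' * f') (hfE : s44h_E (A'.map ι) f) (hgE : s44h_E (A'.map ι) g)
    (hfg : f * g = g * f) :
    s44h_res (A'.map ι) f g = s44h_res A' f' g' := by
  obtain ⟨r, hrι⟩ := LinearMap.exists_leftInverse_of_injective ι (LinearMap.ker_eq_bot.mpr hι)
  have hrι' : ∀ x, r (ι x) = x := fun x => by
    have := congrArg (fun φ => φ x) hrι
    simpa using this
  have hπ' := s44h_proj_isProj A'
  set π' := s44h_proj A' with hπ'def
  set π : End k V := ι ∘ₗ π' ∘ₗ r with hπdef
  have hπ : LinearMap.IsProj (A'.map ι) π := by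
    refine ⟨fun x => Submodule.mem_map_of_mem (hπ'.map_mem _), ?_⟩
    rintro _ ⟨a, ha, rfl⟩
    show ι (π' (r (ι a))) = ι a
    rw [hrι', hπ'.map_id a ha]
  have hπι : ∀ x, π (ι x) = ι (π' x) := fun x => by
    show ι (π' (r (ι x))) = ι (π' x)
    rw [hrι']
  rw [s44h_res_eq_of_isProj hfE hgE hfg hπ]
  have e0 : s44h_E0 (A'.map ι) (s44h_comm (π * f) g) :=
    s44h_comm_E0 hgE hfg (s44h_isProj_mul_E1 hπ f) (s44h_isProj_mul_E2 hπ hfE)
  have hint : ∀ x, s44h_comm (π * f) g (ι x) = ι (s44h_comm (π' * f') g' x) := by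
    intro x
    unfold s44h_comm
    simp only [LinearMap.sub_apply, Module.End.mul_apply, map_sub]
    rw [hg, hf, hπι, hf, hπι, hg]
  have hrange : LinearMap.range (s44h_comm (π * f) g) ≤ LinearMap.range ι := by
    rintro _ ⟨x, rfl⟩
    unfold s44h_comm
    simp only [LinearMap.sub_apply, Module.End.mul_apply]
    refine Submodule.sub_mem _ ⟨π' (r (f (g x))), rfl⟩ ?_
    have : π (f x) = ι (π' (r (f x))) := rfl
    rw [this, hg]
    exact LinearMap.mem_range_self _ _
  exact ((s44h_tr_eq_of_intertwine ι hι _ _ hint hrange e0.core).2).symm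

end Transport

end Fermat.Agent.Lib.S44
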