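/-
M-AT-P / W4, brick [T] part C1: more of Tate's abstract residue (abstract linear algebra,
on top of `HTateRes`):

* `s44h_res_eq_tr₂`      : independence of BOTH choices `f₁ ≡ f`, `g₁ ≡ g mod E₂`;
* `s44h_res_one_left`    : `res(1 dg) = 0`;  `s44h_res_pow_self` : `res(gᵐ dg) = 0` (R3);
* `s44h_resM`            : residues of multiplication operators on a commutative algebra, with
  `s44h_resM_sum_of_idem`: decomposition along a finite family of orthogonal idempotents;
* `s44h_res_transport_dense` : transport along an injective map with `A + range ι = V`;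
* `s44h_exists_fin_sup_ker` : lifting a finite-dimensional quotient.
-/
import Fermat.Agent.Lib.S44.HTateRes

set_option autoImplicit false

namespace Fermat.Agent.Lib.S44

open Module

section Indep

variable {k : Type*} [Field k] {V : Type*} [AddCommGroup V] [Module k V] {A : Submodule k V}

/-- Independence of both choices. -/
theorem s44h_res_eq_tr₂ {f g : End k V} (hf : s44h_E A f) (hg : s44h_E A g) (hfg : f * g = g * f)
    {f₁ g₁ : End k V} (h1 : s44h_E1 A f₁) (h2 : s44h_E2 A (f₁ - f)) (h3 : s44h_E2 A (g₁ - g)) :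
    s44h_res A f g = s44h_tr (s44h_comm f₁ g₁) := by
  rw [s44h_res_eq_tr hf hg hfg h1 h2]
  have hfE : s44h_E A f₁ := h1.toE
  have hbE : s44h_E A (g₁ - g) := h3.toE
  have e0 : s44h_E0 A (s44h_comm f₁ g) := s44h_comm_E0 hg hfg h1 h2
  have e1 : s44h_E0 A (f₁ * (g₁ - g)) := ⟨h1.mul_right _, h3.mul_left f₁⟩
  have e2 : s44h_E0 A ((g₁ - g) * f₁) := ⟨h1.mul_left hbE, h3.mul_right hfE⟩
  have hsplit : s44h_comm f₁ g₁ = s44h_comm f₁ g + s44h_comm f₁ (g₁ - g) := by
    unfold s44h_comm; noncomm_ring
  have e12 : s44h_E0 A (s44h_comm f₁ (g₁ - g)) := e1.sub e2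
  rw [hsplit, s44h_tr_add_E0 e0 e12, s44h_tr_comm_E0 e1 e2, add_zero]

/-- `res(1 dg) = 0`. -/
theorem s44h_res_one_left {g : End k V} (hg : s44h_E A g) : s44h_res A 1 g = 0 := by
  have hπ := s44h_proj_isProj A
  set π := s44h_proj A with hπdef
  have hππ : π * π = π := by
    ext x
    rw [Module.End.mul_apply, hπ.map_id _ (hπ.map_mem x)]
  have h1 : s44h_E1 A π := s44h_isProj_E1 hπ
  have h2 : s44h_E2 A (π - 1) := by
    have := (s44h_isProj_E2 hπ).neg
    rwa [neg_sub] at this
  have h3 : s44h_E2 A (π * g - g) := s44h_isProj_mul_E2 hπ hg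
  rw [s44h_res_eq_tr₂ s44h_E.one hg (by rw [one_mul, mul_one]) h1 h2 h3]
  refine s44h_tr_eq_zero_of_sq ?_
  have : s44h_comm π (π * g) = π * g * (1 - π) := by
    unfold s44h_comm
    have : π * (π * g) - π * g * π = (π * π) * g - π * g * π := by noncomm_ring
    rw [this, hππ]
    noncomm_ring
  rw [this]
  have hz : (1 - π) * π = 0 := by rw [sub_mul, one_mul, hππ, sub_self]
  calc π * g * (1 - π) * (π * g * (1 - π)) = π * g * ((1 - π) * π) * g * (1 - π) := by
        noncomm_ring
    _ = 0 := by rw [hz]; simp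

/-- (R3) `res(gᵐ dg) = 0` for `m ≥ 0`. -/
theorem s44h_res_pow_self {g : End k V} (hg : s44h_E A g) (m : ℕ) :
    s44h_res A (g ^ m) g = 0 := by
  rcases Nat.eq_zero_or_pos m with rfl | hm
  · rw [pow_zero]; exact s44h_res_one_left hg
  have hπ := s44h_proj_isProj A
  set π := s44h_proj A with hπdef
  have hgm : ∀ n : ℕ, s44h_E A (g ^ n) := by
    intro n
    induction n with
    | zero => rw [pow_zero]; exact s44h_E.one
    | succ n ih => rw [pow_succ]; exact ih.mul hg
  have hcomm : g ^ m * g = g * g ^ m := by rw [← pow_succ, ← pow_succ']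
  have h3 : s44h_E2 A (π * g - g) := s44h_isProj_mul_E2 hπ hg
  have hπg1 : s44h_E1 A (π * g) := s44h_isProj_mul_E1 hπ g
  -- `(π g)ⁿ ∈ E₁` for `n ≥ 1` and `(π g)ⁿ ≡ gⁿ mod E₂`
  have key : ∀ n : ℕ, s44h_E1 A ((π * g) ^ (n + 1)) ∧ s44h_E2 A ((π * g) ^ (n + 1) - g ^ (n + 1)) := by
    intro n
    induction n with
    | zero => simpa using ⟨hπg1, h3⟩
    | succ n ih =>
      refine ⟨?_, ?_⟩
      · rw [pow_succ]; exact ih.1.mul_right _
      · have : (π * g) ^ (n + 1 + 1) - g ^ (n + 1 + 1) =
            ((π * g) ^ (n + 1) - g ^ (n + 1)) * (π * g) + g ^ (n + 1) * (π * g - g) := by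
          rw [pow_succ ((π * g)) (n + 1), pow_succ g (n + 1)]
          noncomm_ring
        rw [this]
        exact (ih.2.mul_right hπg1.toE).add (h3.mul_left _)
  obtain ⟨n, rfl⟩ : ∃ n, m = n + 1 := ⟨m - 1, by omega⟩
  rw [s44h_res_eq_tr₂ (hgm _) hg hcomm (key n).1 (key n).2 h3]
  have : s44h_comm ((π * g) ^ (n + 1)) (π * g) = 0 := by
    unfold s44h_comm
    rw [← pow_succ, ← pow_succ', sub_self]
  rw [this, s44h_tr_zero]

end Indep

section Lift

variable {k : Type*} [Field k] {V : Type*} [AddCommGroup V] [Module k V]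
  {Q : Type*} [AddCommGroup Q] [Module k Q]

/-- Lifting a finite-dimensional quotient: `⊤ ≤ ker φ ⊔ S` with `S` finite-dimensional. -/
theorem s44h_exists_fin_sup_ker (φ : V →ₗ[k] Q) (hφ : Function.Surjective φ)
    [FiniteDimensional k Q] :
    ∃ S : Submodule k V, FiniteDimensional k S ∧ ⊤ ≤ LinearMap.ker φ ⊔ S := by
  obtain ⟨n, s, hs⟩ := Module.Finite.exists_fin (R := k) (M := Q)
  choose l hl using fun i => hφ (s i)
  refine ⟨Submodule.span k (Set.range l), FiniteDimensional.span_of_finite k (Set.finite_range l),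
    fun x _ => ?_⟩
  have hx : φ x ∈ Submodule.span k (Set.range s) := by rw [hs]; trivial
  have hmap : Submodule.span k (Set.range s) = (Submodule.span k (Set.range l)).map φ := by
    rw [Submodule.map_span, ← Set.range_comp]
    congr 2
    ext i
    exact (hl i).symm
  rw [hmap] at hx
  obtain ⟨y, hy, hyx⟩ := hx
  have : x = (x - y) + y := by abel
  rw [this]
  refine Submodule.add_mem _ (Submodule.mem_sup_left ?_) (Submodule.mem_sup_right hy)
  rw [LinearMap.mem_ker, map_sub, hyx, sub_self]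

end Lift

section Dense

variable {k : Type*} [Field k] {V : Type*} [AddCommGroup V] [Module k V]
  {V' : Type*} [AddCommGroup V'] [Module k V']

/-- Transport of the residue along an injective `ι : V' → V` with `A + range ι = V`
(`A' = ι⁻¹ A`). -/
theorem s44h_res_transport_dense (ι : V' →ₗ[k] V) (hι : Function.Injective ι)
    (A : Submodule k V) (hdense : A ⊔ LinearMap.range ι = ⊤)
    {f' g' : End k V'} {f g : End k V} (hf : ∀ x, f (ι x) = ι (f' x))
    (hg : ∀ x, g (ι x) = ι (g' x)) (hf' : s44h_E (A.comap ι) f') (hg' : s44h_E (A.comap ι) g')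
    (hfg' : f' * g' = g' * f') (hfE : s44h_E A f) (hgE : s44h_E A g) (hfg : f * g = g * f) :
    s44h_res A f g = s44h_res (A.comap ι) f' g' := by
  have hπ' := s44h_proj_isProj (A.comap ι)
  set π' := s44h_proj (A.comap ι) with hπ'def
  -- the complement `N = ι (ker π')` of `A`
  set N : Submodule k V := (LinearMap.ker π').map ι with hN
  have hππ' : ∀ x, π' (π' x) = π' x := fun x => hπ'.map_id _ (hπ'.map_mem x)
  have hcompl : IsCompl A N := by
    constructor
    · rw [Submodule.disjoint_def]
      rintro y hyA ⟨n, hn, rfl⟩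
      have h1 : n ∈ A.comap ι := hyA
      have h2 : π' n = n := hπ'.map_id n h1
      have hn' : π' n = 0 := LinearMap.mem_ker.mp hn
      rw [← h2, hn', map_zero]
    · rw [codisjoint_iff, eq_top_iff, ← hdense]
      refine sup_le le_sup_left ?_
      rintro _ ⟨x, rfl⟩
      have hx : x = π' x + (x - π' x) := by abel
      rw [hx, map_add]
      refine Submodule.add_mem _ (Submodule.mem_sup_left (hπ'.map_mem x)) (Submodule.mem_sup_right ?_)
      refine ⟨x - π' x, LinearMap.mem_ker.mpr ?_, rfl⟩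
      rw [map_sub, hππ', sub_self]
  set π : End k V := A.projection N hcompl with hπdef
  have hπ : LinearMap.IsProj A π :=
    ⟨fun x => Submodule.projection_apply_mem _ x,
      fun x hx => Submodule.projection_apply_of_mem_left _ hx⟩
  have hπι : ∀ x, π (ι x) = ι (π' x) := by
    intro x
    have hx : ι x = ι (π' x) + ι (x - π' x) := by rw [← map_add]; congr 1; abel
    have h2 : ι (x - π' x) ∈ N := ⟨x - π' x, LinearMap.mem_ker.mpr (by
      rw [map_sub, hππ', sub_self]), rfl⟩
    rw [hx, map_add, hπ.map_id _ (hπ'.map_mem x),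
      (Submodule.projection_apply_eq_zero_iff hcompl).mpr h2, add_zero]
  have hρN : ∀ x, x - π x ∈ N := by
    intro x
    have := Submodule.projection_apply_mem hcompl.symm x
    have e : N.projection A hcompl.symm = LinearMap.id - A.projection N hcompl :=
      Submodule.projection_eq_id_sub_projection hcompl
    rw [e] at this
    simpa using this
  rw [s44h_res_eq_of_isProj hfE hgE hfg hπ]
  have e0 : s44h_E0 A (s44h_comm (π * f) g) :=
    s44h_comm_E0 hgE hfg (s44h_isProj_mul_E1 hπ f) (s44h_isProj_mul_E2 hπ hfE)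
  have hint : ∀ x, s44h_comm (π * f) g (ι x) = ι (s44h_comm (π' * f') g' x) := by
    intro x
    unfold s44h_comm
    simp only [LinearMap.sub_apply, Module.End.mul_apply, map_sub]
    rw [hg, hf, hπι, hf, hπι, hg]
  have hNι : N ≤ LinearMap.range ι := by
    rintro _ ⟨n, _, rfl⟩
    exact LinearMap.mem_range_self ι n
  have hgι : ∀ y ∈ LinearMap.range ι, g y ∈ LinearMap.range ι := by
    rintro _ ⟨x, rfl⟩
    rw [hg]
    exact LinearMap.mem_range_self _ _
  have hrange : LinearMap.range (s44h_comm (π * f) g) ≤ LinearMap.range ι := by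
    rintro _ ⟨x, rfl⟩
    -- `[π f, g] = -[(1 - π) f, g]`
    have hx : s44h_comm (π * f) g x = g (f x - π (f x)) - (f (g x) - π (f (g x))) := by
      unfold s44h_comm
      simp only [LinearMap.sub_apply, Module.End.mul_apply, map_sub]
      have := congrArg (fun φ : End k V => φ x) hfg
      simp only [Module.End.mul_apply] at this
      rw [this]
      abel
    rw [hx]
    exact Submodule.sub_mem _ (hgι _ (hNι (hρN _))) (hNι (hρN _))
  exact ((s44h_tr_eq_of_intertwine ι hι _ _ hint hrange e0.core).2).symm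

end Dense

section Mul

variable {k : Type*} [Field k] {R : Type*} [CommRing R] [Algebra k R]

/-- Tate's residue for multiplication operators on a commutative `k`-algebra. -/
noncomputable def s44h_resM (A : Submodule k R) (f g : R) : k :=
  s44h_res A (LinearMap.mulLeft k f) (LinearMap.mulLeft k g)

theorem s44h_mulLeft_comm (f g : R) :
    (LinearMap.mulLeft k f : End k R) * LinearMap.mulLeft k g =
      LinearMap.mulLeft k g * LinearMap.mulLeft k f := by
  ext x
  simp only [Module.End.mul_apply, LinearMap.mulLeft_apply]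
  ring

theorem s44h_mulLeft_mul' (f g : R) :
    (LinearMap.mulLeft k (f * g) : End k R) = LinearMap.mulLeft k f * LinearMap.mulLeft k g := by
  ext x
  simp only [Module.End.mul_apply, LinearMap.mulLeft_apply]
  ring

/-- the multiplication operators lying in `E(A)`. -/
def s44h_EM (A : Submodule k R) (f : R) : Prop := s44h_E A (LinearMap.mulLeft k f : End k R)

theorem s44h_EM.mul {A : Submodule k R} {f g : R} (hf : s44h_EM A f) (hg : s44h_EM A g) :
    s44h_EM A (f * g) := by
  unfold s44h_EM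
  rw [s44h_mulLeft_mul']
  exact s44h_E.mul hf hg

theorem s44h_EM.of_stable {A : Submodule k R} {f : R} (h : ∀ x ∈ A, f * x ∈ A) :
    s44h_EM A f := s44h_E.of_stable h

theorem s44h_EM.one {A : Submodule k R} : s44h_EM A (1 : R) :=
  s44h_EM.of_stable fun x hx => by rwa [one_mul]

theorem s44h_EM.pow {A : Submodule k R} {f : R} (hf : s44h_EM A f) (n : ℕ) :
    s44h_EM A (f ^ n) := by
  induction n with
  | zero => rw [pow_zero]; exact s44h_EM.one
  | succ n ih => rw [pow_succ]; exact ih.mul hf

variable {A : Submodule k R}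

theorem s44h_resM_add_left {f f' g : R} (hf : s44h_EM A f) (hf' : s44h_EM A f')
    (hg : s44h_EM A g) : s44h_resM A (f + f') g = s44h_resM A f g + s44h_resM A f' g := by
  unfold s44h_resM
  have : (LinearMap.mulLeft k (f + f') : End k R) = LinearMap.mulLeft k f + LinearMap.mulLeft k f' := by
    ext x; simp [add_mul]
  rw [this]
  exact s44h_res_add_left hf hf' hg (s44h_mulLeft_comm f g) (s44h_mulLeft_comm f' g)

theorem s44h_resM_smul_left {f g : R} (hf : s44h_EM A f) (hg : s44h_EM A g) (c : k) :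
    s44h_resM A (c • f) g = c * s44h_resM A f g := by
  unfold s44h_resM
  have : (LinearMap.mulLeft k (c • f) : End k R) = c • LinearMap.mulLeft k f := by
    ext x; simp
  rw [this]
  exact s44h_res_smul_left hf hg (s44h_mulLeft_comm f g) c

theorem s44h_resM_add_right {f g g' : R} (hf : s44h_EM A f) (hg : s44h_EM A g)
    (hg' : s44h_EM A g') : s44h_resM A f (g + g') = s44h_resM A f g + s44h_resM A f g' := by
  unfold s44h_resM
  have : (LinearMap.mulLeft k (g + g') : End k R) = LinearMap.mulLeft k g + LinearMap.mulLeft k g' := by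
    ext x; simp [add_mul]
  rw [this]
  exact s44h_res_add_right hf hg hg' (s44h_mulLeft_comm f g) (s44h_mulLeft_comm f g')

theorem s44h_resM_smul_right {f g : R} (hf : s44h_EM A f) (hg : s44h_EM A g) (c : k) :
    s44h_resM A f (c • g) = c * s44h_resM A f g := by
  unfold s44h_resM
  have : (LinearMap.mulLeft k (c • g) : End k R) = c • LinearMap.mulLeft k g := by
    ext x; simp
  rw [this]
  exact s44h_res_smul_right hf hg (s44h_mulLeft_comm f g) c

/-- Leibniz. -/
theorem s44h_resM_mul_right {f g h : R} (hf : s44h_EM A f) (hg : s44h_EM A g) (hh : s44h_EM A h) :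
    s44h_resM A f (g * h) = s44h_resM A (f * g) h + s44h_resM A (f * h) g := by
  unfold s44h_resM
  rw [s44h_mulLeft_mul' g h, s44h_mulLeft_mul' f g, s44h_mulLeft_mul' f h]
  exact s44h_res_mul_right hf hg hh (s44h_mulLeft_comm f g) (s44h_mulLeft_comm f h)
    (s44h_mulLeft_comm g h)

/-- (R2). -/
theorem s44h_resM_eq_zero_of_stable {f g : R} (hfA : ∀ x ∈ A, f * x ∈ A)
    (hgA : ∀ x ∈ A, g * x ∈ A) : s44h_resM A f g = 0 :=
  s44h_res_eq_zero_of_stable (s44h_mulLeft_comm f g) hfA hgA

/-- `res(f d1) = 0`. -/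
theorem s44h_resM_one_right {f : R} (hf : s44h_EM A f) : s44h_resM A f 1 = 0 := by
  have h := s44h_resM_mul_right hf (s44h_EM.one (A := A)) (s44h_EM.one (A := A))
  rw [mul_one, mul_one] at h
  -- `x = x + x ⇒ x = 0`
  have : s44h_resM A f 1 + 0 = s44h_resM A f 1 + s44h_resM A f 1 := by rw [add_zero]; exact h
  exact (add_left_cancel this).symm

/-- `res(f d(c·1)) = 0` for constants `c`. -/
theorem s44h_resM_algebraMap_right {f : R} (hf : s44h_EM A f) (c : k) :
    s44h_resM A f (algebraMap k R c) = 0 := by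
  rw [Algebra.algebraMap_eq_smul_one, s44h_resM_smul_right hf s44h_EM.one,
    s44h_resM_one_right hf, mul_zero]

/-- power rule: `res(f d(gⁿ)) = n · res(f gⁿ⁻¹ dg)`. -/
theorem s44h_resM_pow_right {f g : R} (hf : s44h_EM A f) (hg : s44h_EM A g) (n : ℕ) :
    s44h_resM A f (g ^ (n + 1)) = ((n + 1 : ℕ) : k) * s44h_resM A (f * g ^ n) g := by
  induction n generalizing f with
  | zero => simp
  | succ n ih =>
    rw [pow_succ g (n + 1), s44h_resM_mul_right hf (hg.pow _) hg, ih (hf.mul hg)]
    have e1 : f * g * g ^ n = f * g ^ (n + 1) := by rw [pow_succ]; ring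
    rw [e1]
    push_cast
    ring

/-- in characteristic `p`: `res(f d(gᵖ)) = 0`. -/
theorem s44h_resM_pow_char (p : ℕ) [CharP k p] (hp : p ≠ 0) {f g : R} (hf : s44h_EM A f)
    (hg : s44h_EM A g) : s44h_resM A f (g ^ p) = 0 := by
  obtain ⟨n, rfl⟩ : ∃ n, p = n + 1 := ⟨p - 1, by omega⟩
  rw [s44h_resM_pow_right hf hg, CharP.cast_eq_zero, zero_mul]

/-- inverse rule: `res(f d(g⁻¹)) = - res(f g⁻² dg)` (`g h = 1`). -/
theorem s44h_resM_inv_right {f g h : R} (hf : s44h_EM A f) (hg : s44h_EM A g) (hh : s44h_EM A h)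
    (hgh : g * h = 1) : s44h_resM A f h = - s44h_resM A (f * h * h) g := by
  have h1 := s44h_resM_mul_right ((hf.mul hh)) hg hh
  rw [hgh, s44h_resM_one_right (hf.mul hh)] at h1
  have e : f * h * g = f := by rw [mul_assoc, mul_comm h g, hgh, mul_one]
  rw [e] at h1
  exact eq_neg_of_add_eq_zero_left h1.symm

/-- **Decomposition along orthogonal idempotents** `e_i` (`∑ e_i = 1`, `e_i A ⊆ A`):
`res_A = ∑ res_{e_i A}`. -/
theorem s44h_resM_sum_of_idem {ι : Type*} [DecidableEq ι] (s : Finset ι) (e : ι → R)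
    (he : ∀ i ∈ s, ∀ j ∈ s, i ≠ j → e i * e j = 0) (hee : ∀ i ∈ s, e i * e i = e i)
    (hsum : ∑ i ∈ s, e i = 1) (heA : ∀ i ∈ s, ∀ a ∈ A, e i * a ∈ A) {f g : R}
    (hf : s44h_EM A f) (hg : s44h_EM A g) :
    s44h_resM A f g =
      ∑ i ∈ s, s44h_resM (A.map (LinearMap.mulLeft k (e i) : End k R)) f g := by
  classical
  have hπ₀ := s44h_proj_isProj A
  set π₀ := s44h_proj A with hπ₀def
  set F : End k R := LinearMap.mulLeft k f with hF
  set G : End k R := LinearMap.mulLeft k g with hG
  have hFG : F * G = G * F := s44h_mulLeft_comm f g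
  set E : ι → End k R := fun i => LinearMap.mulLeft k (e i) with hE
  have hEx : ∀ i x, E i x = e i * x := fun i x => rfl
  set π : ι → End k R := fun i => E i * π₀ * E i with hπ
  have hπi : ∀ i ∈ s, LinearMap.IsProj (A.map (E i)) (π i) := by
    intro i hi
    refine ⟨fun x => ⟨π₀ (E i x), hπ₀.map_mem _, rfl⟩, ?_⟩
    rintro _ ⟨a, ha, rfl⟩
    show E i (π₀ (E i (E i a))) = E i a
    have : E i (E i a) = E i a := by rw [hEx, hEx, ← mul_assoc, hee i hi]
    have h2 : π₀ (E i a) = E i a := hπ₀.map_id _ (heA i hi a ha)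
    rw [this, h2]
    exact this
  have hEi : ∀ i ∈ s, s44h_E (A.map (E i)) F ∧ s44h_E (A.map (E i)) G := by
    intro i _
    have hcF : (A.map (E i)).map F = (A.map F).map (E i) := by
      rw [← s44h_map_mul, ← s44h_map_mul, s44h_mulLeft_comm]
    have hcG : (A.map (E i)).map G = (A.map G).map (E i) := by
      rw [← s44h_map_mul, ← s44h_map_mul, s44h_mulLeft_comm]
    refine ⟨?_, ?_⟩
    · unfold s44h_E; rw [hcF]; exact s44h_Small.map (E i) hf
    · unfold s44h_E; rw [hcG]; exact s44h_Small.map (E i) hg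
  -- the global projection
  have hπs : LinearMap.IsProj A (∑ i ∈ s, π i) := by
    refine ⟨fun x => ?_, fun a ha => ?_⟩
    · rw [LinearMap.sum_apply]
      refine Submodule.sum_mem _ fun i hi => ?_
      exact heA i hi _ (hπ₀.map_mem _)
    · rw [LinearMap.sum_apply]
      have : ∀ i ∈ s, π i a = e i * a := by
        intro i hi
        show E i (π₀ (E i a)) = e i * a
        have h2 : π₀ (E i a) = E i a := hπ₀.map_id _ (heA i hi a ha)
        rw [h2, hEx, hEx, ← mul_assoc, hee i hi]
      rw [Finset.sum_congr rfl this, ← Finset.sum_mul, hsum, one_mul]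
  -- `θ_i = E_i C E_i`
  set C : End k R := s44h_comm (π₀ * F) G with hC
  have hθ : ∀ i, s44h_comm (π i * F) G = E i * C * E i := by
    intro i
    ext x
    have h1 : e i * (f * (g * x)) = f * (g * (e i * x)) := by ring
    have h2 : e i * (f * x) = f * (e i * x) := by ring
    show e i * π₀ (e i * (f * (g * x))) - g * (e i * π₀ (e i * (f * x))) =
      e i * (π₀ (f * (g * (e i * x))) - g * π₀ (f * (e i * x)))
    rw [h1, h2]
    ring
  have hθz : ∀ i ∈ s, ∀ j ∈ s, i ≠ j →
      s44h_comm (π i * F) G * s44h_comm (π j * F) G = 0 := by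
    intro i hi j hj hij
    rw [hθ i, hθ j]
    have : E i * E j = 0 := by
      ext x
      simp only [Module.End.mul_apply, hEx, LinearMap.zero_apply]
      rw [← mul_assoc, he i hi j hj hij, zero_mul]
    calc E i * C * E i * (E j * C * E j) = E i * C * (E i * E j) * C * E j := by noncomm_ring
      _ = 0 := by rw [this]; simp
  have hcore : ∀ i ∈ s, ∃ W, s44h_IsCore (s44h_comm (π i * F) G) W := by
    intro i hi
    exact ⟨_, (s44h_comm_E0 (hEi i hi).2 hFG (s44h_isProj_mul_E1 (hπi i hi) F)
      (s44h_isProj_mul_E2 (hπi i hi) (hEi i hi).1)).core⟩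
  have hsumθ : s44h_comm ((∑ i ∈ s, π i) * F) G = ∑ i ∈ s, s44h_comm (π i * F) G := by
    unfold s44h_comm
    rw [Finset.sum_mul, Finset.sum_mul, Finset.mul_sum, ← Finset.sum_sub_distrib]
  unfold s44h_resM
  rw [s44h_res_eq_of_isProj hf hg hFG hπs, hsumθ,
    (s44h_tr_sum_of_pairwise s _ hcore hθz).2]
  refine Finset.sum_congr rfl fun i hi => ?_
  exact (s44h_res_eq_of_isProj (hEi i hi).1 (hEi i hi).2 hFG (hπi i hi)).symm

end Mul

end Fermat.Agent.Lib.S44
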