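/-
M-AT-P programme (S44), W4, Tate's residues, part C2 (helper3): **the residue theorem** on a function
field in the sense of the Prelude (`AlgebraicCurve.Place K F`, `repartitions`, `H1`).

* `s44h_Ov v`            : the valuation ring of `v` as a `K`-subspace of `F`;
* `s44h_resP v f g`      : the local residue `res_v (f dg)` (Tate's abstract residue of the multiplication
                           operators `f`, `g` on `F` relative to `O_v`);
* `s44h_EM_Ov`           : every `f ∈ F` lies in `E(O_v)` (residue field finite over `K`);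
* `s44h_resP_eq_zero_of_mem`, `s44h_resP_mul_right`, `s44h_resP_pow_char`, … : the local calculus;
* `s44h_resP_dlog_pth`   : in characteristic `p`, `res_v (u g⁻¹ dg) = 0` if `u ∈ O_v` and `p ∣ ord_v g`;
* `s44h_residue_theorem` : `∑_{v ∈ S} res_v (f dg) = 0` if `f, g` are regular outside the finite set `S`,
                           `L(0)` and `H¹(0)` are finite-dimensional and the residue fields are finite.
-/
import Fermat.Agent.Lib.S44.HTateSum
import Fermat.Agent.Lib.FF.FFBasicPlace
import Fermat.Prelude.Def_AlgebraicCurve_Repartitions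

set_option autoImplicit false
set_option linter.unusedSectionVars false

noncomputable section

open AlgebraicCurve Module Fermat.Agent.Lib.FF

namespace Fermat.Agent.Lib.S44

variable {K F : Type*} [Field K] [Field F] [Algebra K F]

/-! ### The local spaces -/

/-- the valuation ring of `v` as a `K`-subspace of `F`. -/
def s44h_Ov (v : Place K F) : Submodule K F where
  carrier := {x | x ∈ v.toValuationSubring}
  add_mem' := fun ha hb => v.toValuationSubring.add_mem _ _ ha hb
  zero_mem' := v.toValuationSubring.zero_mem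
  smul_mem' := fun c x hx => by
    rw [Algebra.smul_def]
    exact v.toValuationSubring.mul_mem _ _ (v.algebraMap_mem' c) hx

theorem s44h_mem_Ov {v : Place K F} {x : F} : x ∈ s44h_Ov v ↔ x ∈ v.toValuationSubring := Iff.rfl

/-- the local residue `res_v (f dg)`. -/
def s44h_resP (v : Place K F) (f g : F) : K := s44h_resM (s44h_Ov v) f g

/-- `O_v ≤ π O_v + S` with `S` finite-dimensional (`κ(v)` finite over `K`). -/
theorem s44h_Ov_le_sup (v : Place K F) [Module.Finite K v.ResidueField] {π : F} (hπ0 : π ≠ 0)
    (hπ : v.ord π = 1) :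
    ∃ S : Submodule K F, FiniteDimensional K S ∧
      s44h_Ov v ≤ (s44h_Ov v).map (LinearMap.mulLeft K π : End K F) ⊔ S := by
  let φ : ↥v.toValuationSubring →ₗ[K] v.ResidueField :=
    (IsScalarTower.toAlgHom K ↥v.toValuationSubring v.ResidueField).toLinearMap
  have hφ : Function.Surjective φ := IsLocalRing.residue_surjective
  obtain ⟨S', hS', hsup⟩ := s44h_exists_fin_sup_ker φ hφ
  let incl : ↥v.toValuationSubring →ₗ[K] F :=
    (IsScalarTower.toAlgHom K ↥v.toValuationSubring F).toLinearMap
  refine ⟨S'.map incl, inferInstance, fun x hx => ?_⟩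
  have hx' : (⟨x, hx⟩ : ↥v.toValuationSubring) ∈ LinearMap.ker φ ⊔ S' := hsup trivial
  obtain ⟨m, hm, s, hs, hms⟩ := Submodule.mem_sup.mp hx'
  have hxe : x = (m : F) + (s : F) := by
    have := congrArg Subtype.val hms
    exact this.symm
  rw [hxe]
  refine Submodule.add_mem _ (Submodule.mem_sup_left ?_) (Submodule.mem_sup_right ⟨s, hs, rfl⟩)
  have hm' : m ∈ IsLocalRing.maximalIdeal ↥v.toValuationSubring :=
    (IsLocalRing.residue_eq_zero_iff m).mp hm
  refine ⟨π⁻¹ * (m : F), ?_, ?_⟩
  · by_cases hm0 : (m : F) = 0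
    · rw [hm0, mul_zero]; exact (s44h_Ov v).zero_mem
    · have h0 : 0 ≤ v.ord (m : F) := (ff_mem_iff_ord_nonneg v hm0).mp m.2
      have h1 : v.ord (m : F) ≠ 0 := by
        intro h
        have hinv : (m : F)⁻¹ ∈ v.toValuationSubring := by
          rw [ff_mem_iff_ord_nonneg v (inv_ne_zero hm0), v.ord_inv, h, neg_zero]
        have hu : IsUnit m := by
          refine ⟨⟨m, ⟨_, hinv⟩, ?_, ?_⟩, rfl⟩
          · apply Subtype.ext
            show (m : F) * (m : F)⁻¹ = 1
            exact mul_inv_cancel₀ hm0
          · apply Subtype.ext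
            show (m : F)⁻¹ * (m : F) = 1
            exact inv_mul_cancel₀ hm0
        exact (IsLocalRing.mem_maximalIdeal _).mp hm' hu
      show π⁻¹ * (m : F) ∈ v.toValuationSubring
      rw [ff_mem_iff_ord_nonneg v (mul_ne_zero (inv_ne_zero hπ0) hm0),
        v.ord_mul (inv_ne_zero hπ0) hm0, v.ord_inv, hπ]
      omega
  · rw [LinearMap.mulLeft_apply, ← mul_assoc, mul_inv_cancel₀ hπ0, one_mul]

/-- `π⁻¹ ∈ E(O_v)`. -/
theorem s44h_EM_inv_unif (v : Place K F) [Module.Finite K v.ResidueField] {π : F} (hπ0 : π ≠ 0)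
    (hπ : v.ord π = 1) : s44h_EM (s44h_Ov v) π⁻¹ := by
  obtain ⟨S, hS, hle⟩ := s44h_Ov_le_sup v hπ0 hπ
  refine ⟨S.map (LinearMap.mulLeft K π⁻¹ : End K F), inferInstance, ?_⟩
  refine (Submodule.map_mono hle).trans ?_
  rw [Submodule.map_sup]
  refine sup_le_sup_right ?_ _
  rintro _ ⟨_, ⟨y, hy, rfl⟩, rfl⟩
  rw [LinearMap.mulLeft_apply, LinearMap.mulLeft_apply, ← mul_assoc, inv_mul_cancel₀ hπ0, one_mul]
  exact hy

theorem s44h_ord_pow (v : Place K F) (f : F) (n : ℕ) : v.ord (f ^ n) = n * v.ord f := by
  have := v.ord_zpow f n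
  rwa [zpow_natCast] at this

/-- **every `f ∈ F` lies in `E(O_v)`.** -/
theorem s44h_EM_Ov (v : Place K F) [Module.Finite K v.ResidueField] (f : F) :
    s44h_EM (s44h_Ov v) f := by
  by_cases hf : f = 0
  · subst hf
    exact s44h_EM.of_stable (fun x _ => by rw [zero_mul]; exact Submodule.zero_mem _)
  obtain ⟨π, hπ0, hπ⟩ := ff_exists_ord_eq_one v
  by_cases hn : 0 ≤ v.ord f
  · exact s44h_EM.of_stable fun x hx =>
      v.toValuationSubring.mul_mem _ _ ((ff_mem_iff_ord_nonneg v hf).mpr hn) hx
  · push_neg at hn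
    obtain ⟨k, hk⟩ : ∃ k : ℕ, v.ord f = -(k : ℤ) := ⟨(-v.ord f).toNat, by omega⟩
    have hu : f * π ^ k ∈ v.toValuationSubring := by
      rw [ff_mem_iff_ord_nonneg v (mul_ne_zero hf (pow_ne_zero k hπ0)),
        v.ord_mul hf (pow_ne_zero _ hπ0), s44h_ord_pow, hπ, hk]
      omega
    have e : f = (f * π ^ k) * (π⁻¹) ^ k := by
      rw [inv_pow, mul_assoc, mul_inv_cancel₀ (pow_ne_zero k hπ0), mul_one]
    rw [e]
    exact (s44h_EM.of_stable fun x hx => v.toValuationSubring.mul_mem _ _ hu hx).mul
      ((s44h_EM_inv_unif v hπ0 hπ).pow k)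

/-! ### The local calculus -/

section LocalCalc

variable (v : Place K F)

/-- (R2) `res_v (f dg) = 0` if `f` and `g` are regular at `v`. -/
theorem s44h_resP_eq_zero_of_mem {f g : F} (hf : f ∈ v.toValuationSubring)
    (hg : g ∈ v.toValuationSubring) : s44h_resP v f g = 0 :=
  s44h_resM_eq_zero_of_stable (fun x hx => v.toValuationSubring.mul_mem _ _ hf hx)
    (fun x hx => v.toValuationSubring.mul_mem _ _ hg hx)

variable [Module.Finite K v.ResidueField]

theorem s44h_resP_add_left (f f' g : F) :
    s44h_resP v (f + f') g = s44h_resP v f g + s44h_resP v f' g :=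
  s44h_resM_add_left (s44h_EM_Ov v f) (s44h_EM_Ov v f') (s44h_EM_Ov v g)

theorem s44h_resP_add_right (f g g' : F) :
    s44h_resP v f (g + g') = s44h_resP v f g + s44h_resP v f g' :=
  s44h_resM_add_right (s44h_EM_Ov v f) (s44h_EM_Ov v g) (s44h_EM_Ov v g')

theorem s44h_resP_smul_left (c : K) (f g : F) : s44h_resP v (c • f) g = c * s44h_resP v f g :=
  s44h_resM_smul_left (s44h_EM_Ov v f) (s44h_EM_Ov v g) c

theorem s44h_resP_smul_right (c : K) (f g : F) : s44h_resP v f (c • g) = c * s44h_resP v f g :=
  s44h_resM_smul_right (s44h_EM_Ov v f) (s44h_EM_Ov v g) c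

/-- Leibniz. -/
theorem s44h_resP_mul_right (f g h : F) :
    s44h_resP v f (g * h) = s44h_resP v (f * g) h + s44h_resP v (f * h) g :=
  s44h_resM_mul_right (s44h_EM_Ov v f) (s44h_EM_Ov v g) (s44h_EM_Ov v h)

/-- `res_v (f d(g^p)) = 0` in characteristic `p`. -/
theorem s44h_resP_pow_char (p : ℕ) [CharP K p] (hp : p ≠ 0) (f g : F) :
    s44h_resP v f (g ^ p) = 0 :=
  s44h_resM_pow_char p hp (s44h_EM_Ov v f) (s44h_EM_Ov v g)

/-- **In characteristic `p`: `res_v (u g⁻¹ dg) = 0` if `u` is regular at `v` and `p ∣ ord_v g`.** -/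
theorem s44h_resP_dlog_pth (p : ℕ) [CharP K p] (hp : p ≠ 0) {u g : F}
    (hu : u ∈ v.toValuationSubring) (hg : g ≠ 0) (hdvd : (p : ℤ) ∣ v.ord g) :
    s44h_resP v (u * g⁻¹) g = 0 := by
  obtain ⟨π, hπ0, hπ⟩ := ff_exists_ord_eq_one v
  obtain ⟨m, hm⟩ := hdvd
  -- `g = w * s ^ p`, `s = π ^ m`, `w` a unit at `v`
  set s : F := π ^ m with hs
  have hs0 : s ≠ 0 := zpow_ne_zero _ hπ0
  set w : F := g * (s ^ p)⁻¹ with hw
  have hsp0 : s ^ p ≠ 0 := pow_ne_zero _ hs0
  have hw0 : w ≠ 0 := mul_ne_zero hg (inv_ne_zero hsp0)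
  have hordw : v.ord w = 0 := by
    rw [hw, v.ord_mul hg (inv_ne_zero hsp0), v.ord_inv, s44h_ord_pow, hs, v.ord_zpow, hπ, hm]
    ring
  have hwO : w ∈ v.toValuationSubring := (ff_mem_iff_ord_nonneg v hw0).mpr hordw.ge
  have hwinvO : w⁻¹ ∈ v.toValuationSubring := by
    rw [ff_mem_iff_ord_nonneg v (inv_ne_zero hw0), v.ord_inv, hordw, neg_zero]
  have hgw : g = w * s ^ p := by
    rw [hw, mul_assoc, inv_mul_cancel₀ hsp0, mul_one]
  have h1 : s44h_resP v (u * g⁻¹) g =
      s44h_resP v (u * g⁻¹ * w) (s ^ p) + s44h_resP v (u * g⁻¹ * s ^ p) w := by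
    conv_lhs => rw [hgw]
    rw [← hgw]
    have := s44h_resP_mul_right v (u * g⁻¹) w (s ^ p)
    rw [← hgw] at this
    exact this
  rw [h1, s44h_resP_pow_char v p hp, zero_add]
  have e : u * g⁻¹ * s ^ p = u * w⁻¹ := by
    rw [hgw, mul_inv, mul_assoc, mul_assoc, inv_mul_cancel₀ hsp0, mul_one]
  rw [e]
  exact s44h_resP_eq_zero_of_mem v (v.toValuationSubring.mul_mem _ _ hu hwinvO) hwO

end LocalCalc

/-! ### Repartitions -/

section Global

open Classical in
/-- the function with value `x` at `v` and `0` elsewhere. -/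
def s44h_singleFun (v : Place K F) (x : F) : Place K F → F := fun w => if w = v then x else 0

theorem s44h_singleFun_mem (v : Place K F) (x : F) : s44h_singleFun v x ∈ repartitions K F := by
  classical
  refine mem_repartitions_of_finite ((Set.finite_singleton v).subset ?_)
  intro w hw
  by_contra hne
  apply hw
  have : s44h_singleFun v x w = 0 := if_neg hne
  rw [this]
  simp

/-- the repartition with value `x` at `v` and `0` elsewhere. -/
def s44h_single (v : Place K F) : F →ₗ[K] ↥(repartitions K F) where
  toFun x := ⟨s44h_singleFun v x, s44h_singleFun_mem v x⟩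
  map_add' x y := by
    classical
    apply Subtype.ext
    funext w
    show s44h_singleFun v (x + y) w = s44h_singleFun v x w + s44h_singleFun v y w
    unfold s44h_singleFun
    split_ifs <;> simp
  map_smul' c x := by
    classical
    apply Subtype.ext
    funext w
    show s44h_singleFun v (c • x) w = c • s44h_singleFun v x w
    unfold s44h_singleFun
    split_ifs <;> simp

theorem s44h_single_same (v : Place K F) (x : F) :
    ((s44h_single v x : ↥(repartitions K F)) : Place K F → F) v = x := by
  classical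
  show s44h_singleFun v x v = x
  exact if_pos rfl

theorem s44h_single_ne {v w : Place K F} (h : w ≠ v) (x : F) :
    ((s44h_single v x : ↥(repartitions K F)) : Place K F → F) w = 0 := by
  classical
  show s44h_singleFun v x w = 0
  exact if_neg h

theorem s44h_single_injective (v : Place K F) : Function.Injective (s44h_single (K := K) v) := by
  intro x y h
  have := congrArg (fun α : ↥(repartitions K F) => (α : Place K F → F) v) h
  simpa [s44h_single_same] using this

theorem s44h_coe_mul (α β : ↥(repartitions K F)) (w : Place K F) :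
    ((α * β : ↥(repartitions K F)) : Place K F → F) w =
      (α : Place K F → F) w * (β : Place K F → F) w := rfl

theorem s44h_coe_algebraMap (f : F) (w : Place K F) :
    ((algebraMap F ↥(repartitions K F) f : ↥(repartitions K F)) : Place K F → F) w = f := rfl

theorem s44h_mul_single (α : ↥(repartitions K F)) (v : Place K F) (x : F) :
    α * s44h_single v x = s44h_single v ((α : Place K F → F) v * x) := by
  apply Subtype.ext
  funext w
  rw [s44h_coe_mul]
  by_cases h : w = v
  · subst h; rw [s44h_single_same, s44h_single_same]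
  · rw [s44h_single_ne h, s44h_single_ne h, mul_zero]

open Classical in
/-- the indicator repartition of a set of places. -/
def s44h_ind (T : Set (Place K F)) : ↥(repartitions K F) :=
  ⟨fun w => if w ∈ T then 1 else 0, mem_repartitions_of_finite (by
    convert Set.finite_empty (α := Place K F)
    ext w
    simp only [Set.mem_ofPred_eq, Set.mem_empty_iff_false, iff_false, not_not]
    split_ifs <;> simp)⟩

theorem s44h_ind_mem (T : Set (Place K F)) {w : Place K F} (h : w ∈ T) :
    ((s44h_ind T : ↥(repartitions K F)) : Place K F → F) w = 1 := by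
  classical
  show (if w ∈ T then (1 : F) else 0) = 1
  rw [if_pos h]

theorem s44h_ind_not_mem (T : Set (Place K F)) {w : Place K F} (h : w ∉ T) :
    ((s44h_ind T : ↥(repartitions K F)) : Place K F → F) w = 0 := by
  classical
  show (if w ∈ T then (1 : F) else 0) = 0
  rw [if_neg h]

theorem s44h_ind_mul (T T' : Set (Place K F)) : s44h_ind T * s44h_ind T' = s44h_ind (K := K) (T ∩ T') := by
  classical
  apply Subtype.ext
  funext w
  rw [s44h_coe_mul]
  by_cases h1 : w ∈ T
  · by_cases h2 : w ∈ T'
    · rw [s44h_ind_mem _ h1, s44h_ind_mem _ h2, s44h_ind_mem _ (Set.mem_inter h1 h2), one_mul]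
    · rw [s44h_ind_not_mem _ h2,
        s44h_ind_not_mem _ (fun h : w ∈ T ∩ T' => h2 (Set.mem_of_mem_inter_right h)), mul_zero]
  · rw [s44h_ind_not_mem _ h1,
      s44h_ind_not_mem _ (fun h : w ∈ T ∩ T' => h1 (Set.mem_of_mem_inter_left h)), zero_mul]

theorem s44h_ind_singleton (v : Place K F) : s44h_ind {v} = s44h_single (K := K) v 1 := by
  classical
  apply Subtype.ext
  funext w
  by_cases h : w = v
  · subst h; rw [s44h_single_same, s44h_ind_mem _ (Set.mem_singleton w)]
  · rw [s44h_single_ne h, s44h_ind_not_mem _ (by simpa using h)]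

theorem s44h_mem_A0 {α : ↥(repartitions K F)} :
    α ∈ repartitionsOf (0 : Divisor K F) ↔
      ∀ v : Place K F, (α : Place K F → F) v ∈ v.toValuationSubring := by
  show (∀ v : Place K F, v.adicValuation ((α : Place K F → F) v) ≤
    WithZero.exp ((0 : Divisor K F) v)) ↔ _
  refine forall_congr' fun v => ?_
  rw [ff_mem_iff_adicValuation_le_one, Finsupp.zero_apply, WithZero.exp_zero]

theorem s44h_ind_mul_mem_A0 (T : Set (Place K F)) {α : ↥(repartitions K F)}
    (hα : α ∈ repartitionsOf (0 : Divisor K F)) :
    s44h_ind T * α ∈ repartitionsOf (0 : Divisor K F) := by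
  classical
  rw [s44h_mem_A0] at hα ⊢
  intro w
  rw [s44h_coe_mul]
  by_cases hw : w ∈ T
  · rw [s44h_ind_mem _ hw, one_mul]; exact hα w
  · rw [s44h_ind_not_mem _ hw, zero_mul]; exact w.toValuationSubring.zero_mem

theorem s44h_single_mem_A0 {v : Place K F} {x : F} (hx : x ∈ v.toValuationSubring) :
    s44h_single v x ∈ repartitionsOf (0 : Divisor K F) := by
  rw [s44h_mem_A0]
  intro w
  by_cases h : w = v
  · subst h; rw [s44h_single_same]; exact hx
  · rw [s44h_single_ne h]; exact w.toValuationSubring.zero_mem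

open Classical in
theorem s44h_coe_sum_single (S : Finset (Place K F)) (u : Place K F → F) (w : Place K F) :
    ((∑ v ∈ S, s44h_single (K := K) v (u v) : ↥(repartitions K F)) : Place K F → F) w =
      if w ∈ S then u w else 0 := by
  classical
  have h1 : ((∑ v ∈ S, s44h_single (K := K) v (u v) : ↥(repartitions K F)) : Place K F → F) =
      ∑ v ∈ S, ((s44h_single (K := K) v (u v) : ↥(repartitions K F)) : Place K F → F) :=
    map_sum (repartitions K F).val _ _
  rw [h1, Finset.sum_apply]
  split_ifs with hw
  · rw [Finset.sum_eq_single w]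
    · exact s44h_single_same w _
    · intro v _ hv
      exact s44h_single_ne (Ne.symm hv) _
    · intro h; exact absurd hw h
  · refine Finset.sum_eq_zero fun v hv => ?_
    exact s44h_single_ne (fun h : w = v => hw (h ▸ hv)) _

/-- **the diagonal `f` lies in `E(𝔸(0))`.** -/
theorem s44h_EM_A0 [∀ v : Place K F, Module.Finite K v.ResidueField] (f : F)
    (S : Finset (Place K F)) (hS : ∀ v ∉ S, f ∈ v.toValuationSubring) :
    s44h_EM (repartitionsOf (0 : Divisor K F)) (algebraMap F ↥(repartitions K F) f) := by
  classical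
  have hloc : ∀ v : Place K F, ∃ U : Submodule K F, FiniteDimensional K U ∧
      (s44h_Ov v).map (LinearMap.mulLeft K f : End K F) ≤ s44h_Ov v ⊔ U :=
    fun v => s44h_EM_Ov v f
  choose U hU hle using hloc
  refine ⟨S.sup fun v => (U v).map (s44h_single v), ?_, ?_⟩
  · haveI : ∀ v, FiniteDimensional K ↥((U v).map (s44h_single (K := K) v)) := fun v =>
      inferInstance
    exact Submodule.finiteDimensional_finset_sup _ _
  rintro _ ⟨α, hα, rfl⟩
  rw [LinearMap.mulLeft_apply]
  have hα' := s44h_mem_A0.mp hα
  have hdec : ∀ v : Place K F, ∃ u ∈ U v, f * (α : Place K F → F) v - u ∈ v.toValuationSubring := by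
    intro v
    have : f * (α : Place K F → F) v ∈ s44h_Ov v ⊔ U v :=
      hle v ⟨_, hα' v, rfl⟩
    obtain ⟨o, ho, u, hu, hou⟩ := Submodule.mem_sup.mp this
    refine ⟨u, hu, ?_⟩
    rw [← hou, add_sub_cancel_right]
    exact ho
  choose u hu hou using hdec
  have e : algebraMap F ↥(repartitions K F) f * α =
      (algebraMap F ↥(repartitions K F) f * α - ∑ v ∈ S, s44h_single v (u v)) +
        ∑ v ∈ S, s44h_single v (u v) := by ring
  rw [e]
  refine Submodule.add_mem _ (Submodule.mem_sup_left ?_) (Submodule.mem_sup_right ?_)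
  · rw [s44h_mem_A0]
    intro w
    have : ((algebraMap F ↥(repartitions K F) f * α - ∑ v ∈ S, s44h_single v (u v) :
        ↥(repartitions K F)) : Place K F → F) w =
        f * (α : Place K F → F) w - if w ∈ S then u w else 0 := by
      rw [← s44h_coe_sum_single S u w]
      rfl
    rw [this]
    split_ifs with hw
    · exact hou w
    · rw [sub_zero]
      exact w.toValuationSubring.mul_mem _ _ (hS w hw) (hα' w)
  · refine Submodule.sum_mem _ fun v hv => ?_
    exact (Finset.le_sup (f := fun v => (U v).map (s44h_single (K := K) v)) hv)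
      (Submodule.mem_map_of_mem (hu v))

variable (K F) in
/-- the diagonal. -/
def s44h_diag : F →ₗ[K] ↥(repartitions K F) :=
  (Algebra.linearMap F ↥(repartitions K F)).restrictScalars K

theorem s44h_inf_le_map :
    repartitionsOf (0 : Divisor K F) ⊓ principalRepartitions K F ≤
      (riemannRochSpace (0 : Divisor K F)).map (s44h_diag K F) := by
  rintro x ⟨hxA, hxB⟩
  obtain ⟨f, hf⟩ := mem_principalRepartitions_iff.mp hxB
  refine ⟨f, ?_, Subtype.ext hf.symm⟩
  intro v
  have := hxA v
  rwa [hf] at this

/-- **the global residue vanishes.** -/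
theorem s44h_resM_A0_eq_zero [∀ v : Place K F, Module.Finite K v.ResidueField]
    [Module.Finite K ↥(riemannRochSpace (0 : Divisor K F))]
    [Module.Finite K (H1 (0 : Divisor K F))] (f g : F) (S : Finset (Place K F))
    (hS : ∀ v ∉ S, f ∈ v.toValuationSubring ∧ g ∈ v.toValuationSubring) :
    s44h_resM (repartitionsOf (0 : Divisor K F)) (algebraMap F ↥(repartitions K F) f)
      (algebraMap F ↥(repartitions K F) g) = 0 := by
  have hf := s44h_EM_A0 f S fun v hv => (hS v hv).1
  have hg := s44h_EM_A0 g S fun v hv => (hS v hv).2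
  haveI : FiniteDimensional K
      ↥(repartitionsOf (0 : Divisor K F) ⊓ principalRepartitions K F) :=
    Submodule.finiteDimensional_of_le s44h_inf_le_map
  haveI : FiniteDimensional K (↥(repartitions K F) ⧸
      (repartitionsOf (0 : Divisor K F) ⊔ principalRepartitions K F)) :=
    inferInstanceAs (Module.Finite K (H1 (0 : Divisor K F)))
  have hB : ∀ h : F, ∀ x ∈ principalRepartitions K F,
      (LinearMap.mulLeft K (algebraMap F ↥(repartitions K F) h) : End K ↥(repartitions K F)) x ∈
        principalRepartitions K F := by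
    intro h x hx
    obtain ⟨y, hy⟩ := mem_principalRepartitions_iff.mp hx
    rw [mem_principalRepartitions_iff]
    refine ⟨h * y, ?_⟩
    funext w
    rw [LinearMap.mulLeft_apply, s44h_coe_mul, s44h_coe_algebraMap, hy]
  exact s44h_res_eq_zero_of_compl hf hg (s44h_mulLeft_comm _ _) (principalRepartitions K F)
    (hB f) (hB g)

/-- **The residue theorem.** -/
theorem s44h_residue_theorem [∀ v : Place K F, Module.Finite K v.ResidueField]
    [Module.Finite K ↥(riemannRochSpace (0 : Divisor K F))]
    [Module.Finite K (H1 (0 : Divisor K F))] (f g : F) (S : Finset (Place K F))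
    (hS : ∀ v ∉ S, f ∈ v.toValuationSubring ∧ g ∈ v.toValuationSubring) :
    ∑ v ∈ S, s44h_resP v f g = 0 := by
  classical
  set A : Submodule K ↥(repartitions K F) := repartitionsOf (0 : Divisor K F) with hA
  set fh : ↥(repartitions K F) := algebraMap F ↥(repartitions K F) f with hfh
  set gh : ↥(repartitions K F) := algebraMap F ↥(repartitions K F) g with hgh
  have hf : s44h_EM A fh := s44h_EM_A0 f S fun v hv => (hS v hv).1
  have hg : s44h_EM A gh := s44h_EM_A0 g S fun v hv => (hS v hv).2
  -- the idempotents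
  let e : Option (Place K F) → ↥(repartitions K F) := fun o =>
    o.elim (s44h_ind {w | w ∉ S}) (fun v => s44h_ind {v})
  have he : ∀ i ∈ Finset.insertNone S, ∀ j ∈ Finset.insertNone S, i ≠ j → e i * e j = 0 := by
    intro i hi j hj hij
    have hz : s44h_ind (K := K) (F := F) ∅ = 0 := by
      apply Subtype.ext
      funext w
      exact s44h_ind_not_mem _ (Set.notMem_empty w)
    rcases i with _ | v <;> rcases j with _ | w
    · exact absurd rfl hij
    · have hw : w ∈ S := Finset.some_mem_insertNone.mp hj
      show s44h_ind {w | w ∉ S} * s44h_ind {w} = 0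
      rw [s44h_ind_mul, ← hz]
      congr 1
      ext x
      simp only [Set.mem_inter_iff, Set.mem_ofPred_eq, Set.mem_singleton_iff,
        Set.mem_empty_iff_false, iff_false, not_and]
      rintro h rfl
      exact h hw
    · have hv : v ∈ S := Finset.some_mem_insertNone.mp hi
      show s44h_ind {v} * s44h_ind {w | w ∉ S} = 0
      rw [s44h_ind_mul, ← hz]
      congr 1
      ext x
      simp only [Set.mem_inter_iff, Set.mem_ofPred_eq, Set.mem_singleton_iff,
        Set.mem_empty_iff_false, iff_false, not_and, not_not]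
      rintro rfl
      exact hv
    · show s44h_ind {v} * s44h_ind {w} = 0
      rw [s44h_ind_mul, ← hz]
      congr 1
      ext x
      simp only [Set.mem_inter_iff, Set.mem_singleton_iff, Set.mem_empty_iff_false, iff_false,
        not_and]
      rintro rfl rfl
      exact hij rfl
  have hee : ∀ i ∈ Finset.insertNone S, e i * e i = e i := by
    intro i _
    rcases i with _ | v
    · show s44h_ind {w | w ∉ S} * s44h_ind {w | w ∉ S} = s44h_ind {w | w ∉ S}
      rw [s44h_ind_mul, Set.inter_self]
    · show s44h_ind {v} * s44h_ind {v} = s44h_ind {v}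
      rw [s44h_ind_mul, Set.inter_self]
  have hsum : ∑ i ∈ Finset.insertNone S, e i = 1 := by
    rw [Finset.sum_insertNone]
    show s44h_ind {w | w ∉ S} + ∑ v ∈ S, s44h_ind {v} = 1
    apply Subtype.ext
    funext w
    have h1 : ∑ v ∈ S, s44h_ind (K := K) {v} = ∑ v ∈ S, s44h_single (K := K) v ((fun _ => (1 : F)) v) :=
      Finset.sum_congr rfl fun v _ => s44h_ind_singleton v
    rw [h1]
    show ((s44h_ind {w | w ∉ S} : ↥(repartitions K F)) : Place K F → F) w +
      ((∑ v ∈ S, s44h_single (K := K) v ((fun _ => (1 : F)) v) : ↥(repartitions K F)) :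
        Place K F → F) w = 1
    rw [s44h_coe_sum_single]
    by_cases hw : w ∈ S
    · rw [s44h_ind_not_mem _ (by simpa using hw), if_pos hw, zero_add]
    · rw [s44h_ind_mem _ (by simpa using hw), if_neg hw, add_zero]
  have heA : ∀ i ∈ Finset.insertNone S, ∀ a ∈ A, e i * a ∈ A := by
    intro i _ a ha
    rcases i with _ | v
    · exact s44h_ind_mul_mem_A0 _ ha
    · exact s44h_ind_mul_mem_A0 _ ha
  have hdec := s44h_resM_sum_of_idem (Finset.insertNone S) e he hee hsum heA hf hg
  rw [Finset.sum_insertNone] at hdec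
  rw [s44h_resM_A0_eq_zero f g S hS] at hdec
  -- the rest term vanishes
  have hrest : s44h_resM (A.map (LinearMap.mulLeft K (e none) : End K ↥(repartitions K F))) fh gh
      = 0 := by
    have key : ∀ h : F, (∀ v ∉ S, h ∈ v.toValuationSubring) →
        ∀ x ∈ A.map (LinearMap.mulLeft K (e none) : End K ↥(repartitions K F)),
          algebraMap F ↥(repartitions K F) h * x ∈
            A.map (LinearMap.mulLeft K (e none) : End K ↥(repartitions K F)) := by
      rintro h hh _ ⟨a, ha, rfl⟩
      refine ⟨e none * (algebraMap F ↥(repartitions K F) h * a), ?_, ?_⟩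
      · -- lies in `A`
        show s44h_ind {w | w ∉ S} * (algebraMap F ↥(repartitions K F) h * a) ∈ A
        rw [hA, s44h_mem_A0]
        intro w
        rw [s44h_coe_mul]
        by_cases hw : w ∈ S
        · rw [s44h_ind_not_mem _ (by simpa using hw), zero_mul]
          exact w.toValuationSubring.zero_mem
        · rw [s44h_ind_mem _ (by simpa using hw), one_mul, s44h_coe_mul, s44h_coe_algebraMap]
          exact w.toValuationSubring.mul_mem _ _ (hh w hw) (s44h_mem_A0.mp ha w)
      · rw [LinearMap.mulLeft_apply, LinearMap.mulLeft_apply, ← mul_assoc (e none) (e none),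
          hee none Finset.none_mem_insertNone]
        ring
    exact s44h_resM_eq_zero_of_stable (key f fun v hv => (hS v hv).1)
      (key g fun v hv => (hS v hv).2)
  rw [hrest, zero_add] at hdec
  rw [hdec]
  refine Finset.sum_congr rfl fun v hv => ?_
  -- the local term
  have hmap : A.map (LinearMap.mulLeft K (e (some v)) : End K ↥(repartitions K F)) =
      (s44h_Ov v).map (s44h_single v) := by
    apply le_antisymm
    · rintro _ ⟨a, ha, rfl⟩
      refine ⟨(a : Place K F → F) v, s44h_mem_A0.mp ha v, ?_⟩
      show s44h_single v _ = s44h_ind {v} * a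
      rw [s44h_ind_singleton, mul_comm, s44h_mul_single, mul_one]
    · rintro _ ⟨x, hx, rfl⟩
      refine ⟨s44h_single v x, s44h_single_mem_A0 hx, ?_⟩
      show s44h_ind {v} * s44h_single v x = s44h_single v x
      rw [s44h_mul_single, s44h_ind_mem _ (Set.mem_singleton v), one_mul]
  rw [hmap]
  have hint : ∀ h x : F, (LinearMap.mulLeft K (algebraMap F ↥(repartitions K F) h) :
      End K ↥(repartitions K F)) (s44h_single v x) =
        s44h_single v ((LinearMap.mulLeft K h : End K F) x) := by
    intro h x
    rw [LinearMap.mulLeft_apply, LinearMap.mulLeft_apply, s44h_mul_single, s44h_coe_algebraMap]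
  have hE : ∀ h : F, s44h_E ((s44h_Ov v).map (s44h_single v))
      (LinearMap.mulLeft K (algebraMap F ↥(repartitions K F) h) :
        End K ↥(repartitions K F)) := by
    intro h
    obtain ⟨U, hU, hle⟩ := s44h_EM_Ov v h
    refine ⟨U.map (s44h_single v), inferInstance, ?_⟩
    rintro _ ⟨_, ⟨x, hx, rfl⟩, rfl⟩
    rw [hint, ← Submodule.map_sup]
    exact Submodule.mem_map_of_mem (hle ⟨x, hx, rfl⟩)
  exact (s44h_res_transport (s44h_single v) (s44h_single_injective v) (s44h_Ov v) (hint f)
    (hint g) (s44h_EM_Ov v f) (s44h_EM_Ov v g) (s44h_mulLeft_comm f g) (hE f) (hE g)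
    (s44h_mulLeft_comm _ _)).symm

end Global

end Fermat.Agent.Lib.S44

end
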