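/-
M-AT-P programme (S44), W4, Tate's residues, part C3 (helper3): **Tate's Theorem 2** for Laurent series:
on `V = κ((q))` relative to `A = κ[[q]]` the abstract residue is the classical one,

  `res_A (f dg) = coeff₀ (f · θ g)`,  `θ = q d/dq`   (any characteristic).

* `s44h_LA a`        : `q^a κ[[q]]` as a `κ`-subspace of `κ((q))`;
* `s44h_EM_LA`       : every `f ∈ κ((q))` lies in `E(κ[[q]])`;
* `s44h_resL f g`    : `s44h_resM (s44h_LA 0) f g`;
* `s44h_resL_eq`     : **`s44h_resL f g = (f * ffd_theta g).coeff 0`**.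
-/
import Fermat.Agent.Lib.S44.HTateSum
import Fermat.Agent.Lib.FF.LaurentDeriv

set_option autoImplicit false
set_option linter.unusedSectionVars false

noncomputable section

open Module HahnSeries Fermat.Agent.Lib.FF

namespace Fermat.Agent.Lib.S44

variable {κ : Type*} [Field κ]

/- On `κ((q))` the `κ`-module structure of the ALGEBRA structure (`HahnSeries.powerSeriesAlgebra`) is
not definitionally the coefficientwise one; in this file we only use the former. -/
attribute [local instance 100000] Algebra.toModule Algebra.toSMul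

/-! ### The lattices `q^a κ[[q]]` -/

/-- `κ`-subspaces of `κ((q))` for the module structure coming from the ALGEBRA structure
(`HahnSeries.powerSeriesAlgebra`; not definitionally the coefficientwise one). -/
abbrev s44h_SubL (κ : Type*) [Field κ] : Type _ :=
  @Submodule κ (LaurentSeries κ) _ _ Algebra.toModule

theorem s44h_algebraMap_eq_C (c : κ) : algebraMap κ (LaurentSeries κ) c = HahnSeries.C c := by
  rw [HahnSeries.algebraMap_apply']
  have h1 : algebraMap κ (PowerSeries κ) c = PowerSeries.C c := by simp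
  rw [h1, HahnSeries.ofPowerSeries_C]

/-- the algebra scalar multiplication is multiplication by the constant series. -/
theorem s44h_smul_eq (c : κ) (x : LaurentSeries κ) :
    @HSMul.hSMul κ (LaurentSeries κ) (LaurentSeries κ)
      (@instHSMul κ (LaurentSeries κ) Algebra.toSMul) c x = HahnSeries.C c * x := by
  rw [Algebra.smul_def, s44h_algebraMap_eq_C]

theorem s44h_coeff_C_mul (c : κ) (x : LaurentSeries κ) (k : ℤ) :
    (HahnSeries.C c * x).coeff k = c * x.coeff k := by
  rw [HahnSeries.C_mul_eq_smul, HahnSeries.coeff_smul, smul_eq_mul]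

/-- `q^a κ[[q]]`. -/
def s44h_LA (a : ℤ) : s44h_SubL κ where
  carrier := {x | ∀ k : ℤ, k < a → x.coeff k = 0}
  add_mem' := fun hx hy k hk => by rw [HahnSeries.coeff_add, hx k hk, hy k hk, add_zero]
  zero_mem' := fun k _ => HahnSeries.coeff_zero
  smul_mem' := fun c x hx k hk => by
    rw [s44h_smul_eq, s44h_coeff_C_mul, hx k hk, mul_zero]

theorem s44h_mem_LA {a : ℤ} {x : LaurentSeries κ} :
    x ∈ s44h_LA (κ := κ) a ↔ ∀ k : ℤ, k < a → x.coeff k = 0 := Iff.rfl

theorem s44h_LA_mono {a b : ℤ} (h : a ≤ b) : s44h_LA (κ := κ) b ≤ s44h_LA a :=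
  fun _ hx k hk => hx k (lt_of_lt_of_le hk h)

/-- the monomial `q^b`. -/
def s44h_T (b : ℤ) : LaurentSeries κ := HahnSeries.single b (1 : κ)

theorem s44h_T_mul (a b : ℤ) : s44h_T (κ := κ) a * s44h_T b = s44h_T (a + b) := by
  unfold s44h_T
  rw [HahnSeries.single_mul_single, mul_one]

theorem s44h_T_zero : s44h_T (κ := κ) 0 = 1 := rfl

theorem s44h_T_pow (a : ℤ) (n : ℕ) : s44h_T (κ := κ) a ^ n = s44h_T (n * a) := by
  unfold s44h_T
  rw [HahnSeries.single_pow, one_pow, nsmul_eq_mul]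

theorem s44h_coeff_T_mul (b : ℤ) (x : LaurentSeries κ) (k : ℤ) :
    (s44h_T b * x).coeff k = x.coeff (k - b) := by
  have := HahnSeries.coeff_single_mul_add (r := (1 : κ)) (x := x) (a := k - b) (b := b)
  rw [sub_add_cancel, one_mul] at this
  exact this

theorem s44h_coeff_mul_T (b : ℤ) (x : LaurentSeries κ) (k : ℤ) :
    (x * s44h_T b).coeff k = x.coeff (k - b) := by
  rw [mul_comm, s44h_coeff_T_mul]

theorem s44h_coeff_T (b k : ℤ) : (s44h_T (κ := κ) b).coeff k = if k = b then 1 else 0 := by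
  unfold s44h_T
  by_cases h : k = b
  · subst h; rw [HahnSeries.coeff_single_same, if_pos rfl]
  · rw [HahnSeries.coeff_single_of_ne h, if_neg h]

theorem s44h_T_mem (b : ℤ) : s44h_T (κ := κ) b ∈ s44h_LA (κ := κ) b := by
  intro k hk
  rw [s44h_coeff_T, if_neg (ne_of_lt hk)]

theorem s44h_T_mul_mem {a : ℤ} (b : ℤ) {x : LaurentSeries κ} (hx : x ∈ s44h_LA (κ := κ) a) :
    s44h_T b * x ∈ s44h_LA (κ := κ) (a + b) := by
  intro k hk
  rw [s44h_coeff_T_mul]
  exact hx _ (by omega)

/-- `q^a κ[[q]] · q^b κ[[q]] ⊆ q^(a+b) κ[[q]]`. -/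
theorem s44h_mul_mem_LA {a b : ℤ} {x y : LaurentSeries κ} (hx : x ∈ s44h_LA (κ := κ) a)
    (hy : y ∈ s44h_LA (κ := κ) b) : x * y ∈ s44h_LA (κ := κ) (a + b) := by
  intro k hk
  rw [HahnSeries.coeff_mul]
  refine Finset.sum_eq_zero ?_
  rintro ⟨i, j⟩ hij
  rw [Finset.mem_antidiagonal] at hij
  obtain ⟨-, -, hsum⟩ := hij
  simp only at hsum
  by_cases hi : i < a
  · rw [hx i hi, zero_mul]
  · rw [hy j (by omega), mul_zero]

theorem s44h_exists_mem_LA (x : LaurentSeries κ) : ∃ n : ℕ, x ∈ s44h_LA (κ := κ) (-(n : ℤ)) := by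
  refine ⟨(-x.order).toNat, fun k hk => ?_⟩
  exact HahnSeries.coeff_eq_zero_of_lt_order (by omega)

theorem s44h_theta_mem_LA {a : ℤ} {x : LaurentSeries κ} (hx : x ∈ s44h_LA (κ := κ) a) :
    ffd_theta x ∈ s44h_LA (κ := κ) a := by
  intro k hk
  rw [ffd_theta_coeff, hx k hk, mul_zero]

/-- peeling off the lowest term. -/
theorem s44h_sub_mem_LA {a : ℤ} {x : LaurentSeries κ} (hx : x ∈ s44h_LA (κ := κ) a) :
    x - HahnSeries.C (x.coeff a) * s44h_T a ∈ s44h_LA (κ := κ) (a + 1) := by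
  intro k hk
  rw [HahnSeries.coeff_sub, s44h_coeff_C_mul, s44h_coeff_T]
  by_cases h : k = a
  · subst h; rw [if_pos rfl, mul_one, sub_self]
  · rw [if_neg h, mul_zero, sub_zero]
    exact hx k (by omega)

theorem s44h_LA_small_succ (a : ℤ) : s44h_Small (s44h_LA (κ := κ) a) (s44h_LA (a + 1)) := by
  refine ⟨@Submodule.span κ (LaurentSeries κ) _ _ Algebra.toModule {s44h_T a}, inferInstance,
    fun x hx => ?_⟩
  have e : x = (x - HahnSeries.C (x.coeff a) * s44h_T a) + HahnSeries.C (x.coeff a) * s44h_T a := by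
    ring
  rw [e]
  refine Submodule.add_mem _ (Submodule.mem_sup_left (s44h_sub_mem_LA hx))
    (Submodule.mem_sup_right ?_)
  rw [← s44h_smul_eq]
  exact Submodule.smul_mem _ _ (Submodule.mem_span_singleton_self _)

theorem s44h_LA_small (a : ℤ) (n : ℕ) : s44h_Small (s44h_LA (κ := κ) a) (s44h_LA (a + n)) := by
  induction n with
  | zero => rw [Nat.cast_zero, add_zero]; exact s44h_Small.refl _
  | succ n ih =>
    have := s44h_LA_small_succ (κ := κ) (a + n)
    rw [add_assoc] at this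
    rw [Nat.cast_succ]
    exact ih.trans this

/-- **every `f ∈ κ((q))` lies in `E(κ[[q]])`.** -/
theorem s44h_EM_LA (f : LaurentSeries κ) : s44h_EM (s44h_LA (κ := κ) 0) f := by
  obtain ⟨n, hn⟩ := s44h_exists_mem_LA f
  have h1 : (s44h_LA (κ := κ) 0).map (LinearMap.mulLeft κ f : End κ (LaurentSeries κ)) ≤
      s44h_LA (-(n : ℤ)) := by
    rintro _ ⟨x, hx, rfl⟩
    rw [LinearMap.mulLeft_apply]
    have := s44h_mul_mem_LA hn hx
    rwa [add_zero] at this
  have h2 := s44h_LA_small (κ := κ) (-(n : ℤ)) n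
  rw [neg_add_cancel] at h2
  exact s44h_Small.mono_left h1 h2

/-- the residue on `κ((q))` relative to `κ[[q]]`. -/
def s44h_resL (f g : LaurentSeries κ) : κ := s44h_resM (s44h_LA (κ := κ) 0) f g

/-! ### The calculus -/

theorem s44h_resL_add_left (f f' g : LaurentSeries κ) :
    s44h_resL (f + f') g = s44h_resL f g + s44h_resL f' g :=
  s44h_resM_add_left (s44h_EM_LA f) (s44h_EM_LA f') (s44h_EM_LA g)

theorem s44h_resL_add_right (f g g' : LaurentSeries κ) :
    s44h_resL f (g + g') = s44h_resL f g + s44h_resL f g' :=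
  s44h_resM_add_right (s44h_EM_LA f) (s44h_EM_LA g) (s44h_EM_LA g')

theorem s44h_resL_smul_left (c : κ) (f g : LaurentSeries κ) :
    s44h_resL (HahnSeries.C c * f) g = c * s44h_resL f g := by
  have := s44h_resM_smul_left (s44h_EM_LA f) (s44h_EM_LA g) c
  rw [s44h_smul_eq] at this
  exact this

theorem s44h_resL_smul_right (c : κ) (f g : LaurentSeries κ) :
    s44h_resL f (HahnSeries.C c * g) = c * s44h_resL f g := by
  have := s44h_resM_smul_right (s44h_EM_LA f) (s44h_EM_LA g) c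
  rw [s44h_smul_eq] at this
  exact this

theorem s44h_resL_sub_left (f f' g : LaurentSeries κ) :
    s44h_resL (f - f') g = s44h_resL f g - s44h_resL f' g := by
  have h := s44h_resL_add_left (f - f') f' g
  rw [sub_add_cancel] at h
  rw [h, add_sub_cancel_right]

theorem s44h_resL_sub_right (f g g' : LaurentSeries κ) :
    s44h_resL f (g - g') = s44h_resL f g - s44h_resL f g' := by
  have h := s44h_resL_add_right f (g - g') g'
  rw [sub_add_cancel] at h
  rw [h, add_sub_cancel_right]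

theorem s44h_resL_mul_right (f g h : LaurentSeries κ) :
    s44h_resL f (g * h) = s44h_resL (f * g) h + s44h_resL (f * h) g :=
  s44h_resM_mul_right (s44h_EM_LA f) (s44h_EM_LA g) (s44h_EM_LA h)

/-- (R2). -/
theorem s44h_resL_eq_zero_of_mem {f g : LaurentSeries κ} (hf : f ∈ s44h_LA (κ := κ) 0)
    (hg : g ∈ s44h_LA (κ := κ) 0) : s44h_resL f g = 0 := by
  refine s44h_resM_eq_zero_of_stable (fun x hx => ?_) (fun x hx => ?_)
  · have := s44h_mul_mem_LA hf hx
    rwa [add_zero] at this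
  · have := s44h_mul_mem_LA hg hx
    rwa [add_zero] at this

theorem s44h_mulLeft_one' : (LinearMap.mulLeft κ (1 : LaurentSeries κ) : End κ (LaurentSeries κ)) = 1 := by
  ext x
  rw [LinearMap.mulLeft_apply, one_mul, Module.End.one_apply]

theorem s44h_mulLeft_pow' (x : LaurentSeries κ) (m : ℕ) :
    (LinearMap.mulLeft κ (x ^ m) : End κ (LaurentSeries κ)) = (LinearMap.mulLeft κ x) ^ m := by
  induction m with
  | zero => rw [pow_zero, pow_zero, s44h_mulLeft_one']
  | succ m ih => rw [pow_succ, pow_succ, s44h_mulLeft_mul', ih]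

/-- `res(1 · dg) = 0`. -/
theorem s44h_resL_one_left (g : LaurentSeries κ) : s44h_resL 1 g = 0 := by
  unfold s44h_resL s44h_resM
  rw [s44h_mulLeft_one']
  exact s44h_res_one_left (s44h_EM_LA g)

/-- (R3) `res(g^m dg) = 0`. -/
theorem s44h_resL_pow_self (g : LaurentSeries κ) (m : ℕ) : s44h_resL (g ^ m) g = 0 := by
  unfold s44h_resL s44h_resM
  rw [s44h_mulLeft_pow']
  exact s44h_res_pow_self (s44h_EM_LA g) m

/-- `res(f dg) = - res(g df)`. -/
theorem s44h_resL_symm (f g : LaurentSeries κ) : s44h_resL f g = - s44h_resL g f := by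
  have h := s44h_resL_mul_right 1 f g
  rw [one_mul, one_mul, s44h_resL_one_left] at h
  exact eq_neg_of_add_eq_zero_left h.symm

/-- **`res(q⁻¹ dq) = 1`** (R4'). -/
theorem s44h_resL_Tinv_T : s44h_resL (s44h_T (κ := κ) (-1)) (s44h_T 1) = 1 := by
  unfold s44h_resL s44h_resM
  have h1 : (LinearMap.mulLeft κ (s44h_T (κ := κ) 1) : End κ (LaurentSeries κ)) *
      LinearMap.mulLeft κ (s44h_T (-1)) = 1 := by
    rw [← s44h_mulLeft_mul', s44h_T_mul, show (1 : ℤ) + -1 = 0 by norm_num, s44h_T_zero,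
      s44h_mulLeft_one']
  have h2 : (LinearMap.mulLeft κ (s44h_T (κ := κ) (-1)) : End κ (LaurentSeries κ)) *
      LinearMap.mulLeft κ (s44h_T 1) = 1 := by
    rw [← s44h_mulLeft_mul', s44h_T_mul, show (-1 : ℤ) + 1 = 0 by norm_num, s44h_T_zero,
      s44h_mulLeft_one']
  have hgA : ∀ x ∈ s44h_LA (κ := κ) 0,
      (LinearMap.mulLeft κ (s44h_T (κ := κ) 1) : End κ (LaurentSeries κ)) x ∈ s44h_LA (κ := κ) 0 := by
    intro x hx
    rw [LinearMap.mulLeft_apply]
    exact s44h_LA_mono (by norm_num) (s44h_T_mul_mem 1 hx)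
  set W : s44h_SubL κ := @Submodule.span κ (LaurentSeries κ) _ _ Algebra.toModule
    {(1 : LaurentSeries κ)} with hWdef
  have hW : W ≤ s44h_LA (κ := κ) 0 := by
    rw [hWdef, Submodule.span_singleton_le_iff_mem, ← s44h_T_zero]
    exact s44h_T_mem 0
  have hmap : ∀ y ∈ (s44h_LA (κ := κ) 0).map
      (LinearMap.mulLeft κ (s44h_T (κ := κ) 1) : End κ (LaurentSeries κ)), y.coeff 0 = 0 := by
    rintro _ ⟨x, hx, rfl⟩
    rw [LinearMap.mulLeft_apply, s44h_coeff_T_mul]
    exact hx _ (by norm_num)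
  have hdisj : Disjoint ((s44h_LA (κ := κ) 0).map
      (LinearMap.mulLeft κ (s44h_T (κ := κ) 1) : End κ (LaurentSeries κ))) W := by
    rw [Submodule.disjoint_def]
    intro y hy hyW
    obtain ⟨c, rfl⟩ := Submodule.mem_span_singleton.mp hyW
    have := hmap _ hy
    rw [s44h_smul_eq, s44h_coeff_C_mul, HahnSeries.coeff_one, if_pos rfl, mul_one] at this
    rw [this, zero_smul]
  have hsup : s44h_LA (κ := κ) 0 ≤ (s44h_LA (κ := κ) 0).map
      (LinearMap.mulLeft κ (s44h_T (κ := κ) 1) : End κ (LaurentSeries κ)) ⊔ W := by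
    intro x hx
    have hx1 := s44h_sub_mem_LA hx
    rw [s44h_T_zero, zero_add, mul_one] at hx1
    have e : x = s44h_T 1 * (s44h_T (-1) * (x - HahnSeries.C (x.coeff 0))) +
        HahnSeries.C (x.coeff 0) * 1 := by
      rw [← mul_assoc, s44h_T_mul, show (1 : ℤ) + -1 = 0 by norm_num, s44h_T_zero, one_mul]
      ring
    rw [e]
    refine Submodule.add_mem _ (Submodule.mem_sup_left ⟨_, ?_, rfl⟩) (Submodule.mem_sup_right ?_)
    · have := s44h_T_mul_mem (-1) hx1
      rwa [show (1 : ℤ) + -1 = 0 by norm_num] at this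
    · rw [← s44h_smul_eq]
      exact Submodule.smul_mem _ _ (Submodule.mem_span_singleton_self _)
  have := s44h_res_inv h1 h2 hgA (s44h_EM_LA (s44h_T (-1))) W hW hdisj hsup
  rw [this, hWdef, finrank_span_singleton (one_ne_zero), Nat.cast_one]

/-- `res(q^b dq) = δ_{b,-1}`. -/
theorem s44h_resL_T_T (b : ℤ) :
    s44h_resL (s44h_T (κ := κ) b) (s44h_T 1) = if b = -1 then 1 else 0 := by
  by_cases hb : 0 ≤ b
  · rw [if_neg (by omega)]
    exact s44h_resL_eq_zero_of_mem (s44h_LA_mono hb (s44h_T_mem b))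
      (s44h_LA_mono (by norm_num) (s44h_T_mem 1))
  by_cases hb1 : b = -1
  · rw [if_pos hb1, hb1]; exact s44h_resL_Tinv_T
  rw [if_neg hb1]
  obtain ⟨n, hn⟩ : ∃ n : ℕ, b = -((n : ℤ) + 2) := ⟨(-b - 2).toNat, by omega⟩
  -- inverse rule with `g = q`, `h = q⁻¹`, `f = (q⁻¹)^n`
  have hinv := s44h_resM_inv_right (A := s44h_LA (κ := κ) 0) (f := s44h_T (-1) ^ n)
    (g := s44h_T 1) (h := s44h_T (-1)) (s44h_EM_LA _) (s44h_EM_LA _) (s44h_EM_LA _)
    (by rw [s44h_T_mul, show (1 : ℤ) + -1 = 0 by norm_num, s44h_T_zero])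
  have h0 : s44h_resM (s44h_LA (κ := κ) 0) (s44h_T (-1) ^ n) (s44h_T (-1)) = 0 :=
    s44h_resL_pow_self (s44h_T (-1)) n
  rw [h0] at hinv
  have e : s44h_T (κ := κ) (-1) ^ n * s44h_T (-1) * s44h_T (-1) = s44h_T b := by
    rw [s44h_T_pow, s44h_T_mul, s44h_T_mul, hn]
    congr 1
    ring
  rw [e] at hinv
  exact neg_eq_zero.mp hinv.symm

/-- **`res(h dq) = coeff₋₁ h`.** -/
theorem s44h_resL_T (h : LaurentSeries κ) : s44h_resL h (s44h_T 1) = h.coeff (-1) := by
  obtain ⟨n, hn⟩ := s44h_exists_mem_LA h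
  induction n generalizing h with
  | zero =>
    rw [Nat.cast_zero, neg_zero] at hn
    rw [hn (-1) (by norm_num)]
    exact s44h_resL_eq_zero_of_mem hn (s44h_LA_mono (by norm_num) (s44h_T_mem 1))
  | succ n ih =>
    set a : ℤ := -((n + 1 : ℕ) : ℤ) with ha
    have h1 := s44h_sub_mem_LA hn
    have ea : a + 1 = -(n : ℤ) := by rw [ha]; push_cast; ring
    rw [ea] at h1
    have := ih _ h1
    rw [s44h_resL_sub_left, s44h_resL_smul_left, s44h_resL_T_T, HahnSeries.coeff_sub,
      s44h_coeff_C_mul, s44h_coeff_T] at this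
    have e2 : ((-1 : ℤ) = a) ↔ (a = -1) := eq_comm
    simp only [e2] at this
    exact sub_left_injective this

/-- `(f * q^b).coeff k`. -/
theorem s44h_resL_mul_T (f : LaurentSeries κ) (b : ℤ) :
    s44h_resL (f * s44h_T b) (s44h_T 1) = f.coeff (-1 - b) := by
  rw [s44h_resL_T, s44h_coeff_mul_T]

/-- **`res(f d(q^b)) = b · coeff_{-b} f`.** -/
theorem s44h_resL_dT (f : LaurentSeries κ) (b : ℤ) :
    s44h_resL f (s44h_T b) = (b : κ) * f.coeff (-b) := by
  rcases le_or_gt 0 b with hb | hb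
  · obtain ⟨n, rfl⟩ : ∃ n : ℕ, b = n := ⟨b.toNat, by omega⟩
    rcases n with _ | m
    · rw [Nat.cast_zero, s44h_T_zero, Int.cast_zero, zero_mul]
      exact s44h_resM_one_right (s44h_EM_LA f)
    · have e : s44h_T (κ := κ) ((m + 1 : ℕ) : ℤ) = s44h_T 1 ^ (m + 1) := by
        rw [s44h_T_pow, mul_one]
      rw [e]
      have := s44h_resM_pow_right (A := s44h_LA (κ := κ) 0) (s44h_EM_LA f) (s44h_EM_LA (s44h_T 1)) m
      unfold s44h_resL
      rw [this, s44h_T_pow, mul_one]
      have h2 := s44h_resL_mul_T f (m : ℤ)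
      unfold s44h_resL at h2
      rw [h2]
      push_cast
      congr 2
      ring
  · obtain ⟨m, rfl⟩ : ∃ m : ℕ, b = -((m : ℤ) + 1) := ⟨(-b - 1).toNat, by omega⟩
    have e : s44h_T (κ := κ) (-((m : ℤ) + 1)) = s44h_T (-1) ^ (m + 1) := by
      rw [s44h_T_pow]
      congr 1
      push_cast
      ring
    rw [e]
    have := s44h_resM_pow_right (A := s44h_LA (κ := κ) 0) (s44h_EM_LA f)
      (s44h_EM_LA (s44h_T (-1))) m
    unfold s44h_resL
    rw [this]
    have hinv := s44h_resM_inv_right (A := s44h_LA (κ := κ) 0) (f := f * s44h_T (-1) ^ m)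
      (g := s44h_T 1) (h := s44h_T (-1)) (s44h_EM_LA _) (s44h_EM_LA _) (s44h_EM_LA _)
      (by rw [s44h_T_mul, show (1 : ℤ) + -1 = 0 by norm_num, s44h_T_zero])
    rw [hinv]
    have e3 : f * s44h_T (κ := κ) (-1) ^ m * s44h_T (-1) * s44h_T (-1) =
        f * s44h_T (-(m : ℤ) - 2) := by
      rw [s44h_T_pow, mul_assoc, mul_assoc, s44h_T_mul, s44h_T_mul]
      congr 2
      ring
    rw [e3]
    have h2 := s44h_resL_mul_T f (-(m : ℤ) - 2)
    unfold s44h_resL at h2
    rw [h2]
    push_cast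
    have e4 : (-1 : ℤ) - (-(m : ℤ) - 2) = - -((m : ℤ) + 1) := by ring
    rw [e4]
    ring

/-- **continuity**: `res(f dg) = 0` if `f ∈ q^(-n) κ[[q]]`, `g ∈ q^N κ[[q]]`, `n < N`. -/
theorem s44h_resL_eq_zero_of_far {n N : ℤ} (hnN : n < N) {f g : LaurentSeries κ}
    (hf : f ∈ s44h_LA (κ := κ) (-n)) (hg : g ∈ s44h_LA (κ := κ) N) : s44h_resL f g = 0 := by
  rw [s44h_resL_symm, neg_eq_zero]
  -- `f = q^(-n) * u`
  set u : LaurentSeries κ := s44h_T n * f with hu
  have huA : u ∈ s44h_LA (κ := κ) 0 := by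
    have := s44h_T_mul_mem n hf
    rwa [neg_add_cancel] at this
  have hfu : f = s44h_T (-n) * u := by
    rw [hu, ← mul_assoc, s44h_T_mul, neg_add_cancel, s44h_T_zero, one_mul]
  rw [hfu, s44h_resL_mul_right]
  have h1 : s44h_resL (g * s44h_T (-n)) u = 0 := by
    refine s44h_resL_eq_zero_of_mem ?_ huA
    rw [mul_comm]
    exact s44h_LA_mono (by omega) (s44h_T_mul_mem (-n) hg)
  have h2 : s44h_resL (g * u) (s44h_T (-n)) = 0 := by
    rw [s44h_resL_dT, neg_neg]
    have : g * u ∈ s44h_LA (κ := κ) (N + 0) := s44h_mul_mem_LA hg huA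
    rw [add_zero] at this
    rw [this n hnN, mul_zero]
  rw [h1, h2, add_zero]

/-- **Tate's Theorem 2**: on `κ((q))` relative to `κ[[q]]`, `res(f dg) = coeff₀ (f · θ g)`. -/
theorem s44h_resL_eq (f g : LaurentSeries κ) : s44h_resL f g = (f * ffd_theta g).coeff 0 := by
  obtain ⟨n, hn⟩ := s44h_exists_mem_LA f
  -- induction on the distance of `g` to `q^(n+1) κ[[q]]`
  have key : ∀ k : ℕ, ∀ g : LaurentSeries κ, g ∈ s44h_LA (κ := κ) ((n : ℤ) + 1 - k) →
      s44h_resL f g = (f * ffd_theta g).coeff 0 := by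
    intro k
    induction k with
    | zero =>
      intro g hg
      rw [Nat.cast_zero, sub_zero] at hg
      rw [s44h_resL_eq_zero_of_far (n := n) (by omega) hn hg]
      have : f * ffd_theta g ∈ s44h_LA (κ := κ) (-(n : ℤ) + ((n : ℤ) + 1)) :=
        s44h_mul_mem_LA hn (s44h_theta_mem_LA hg)
      exact (this 0 (by omega)).symm
    | succ k ih =>
      intro g hg
      set a : ℤ := (n : ℤ) + 1 - ((k + 1 : ℕ) : ℤ) with ha
      have h1 := s44h_sub_mem_LA hg
      have ea : a + 1 = (n : ℤ) + 1 - k := by rw [ha]; push_cast; ring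
      rw [ea] at h1
      have h2 := ih _ h1
      rw [s44h_resL_sub_right, s44h_resL_smul_right, s44h_resL_dT] at h2
      have h3 : ffd_theta (g - HahnSeries.C (g.coeff a) * s44h_T a) =
          ffd_theta g - HahnSeries.C (g.coeff a * (a : κ)) * s44h_T a := by
        ext j
        rw [ffd_theta_coeff, HahnSeries.coeff_sub, HahnSeries.coeff_sub, s44h_coeff_C_mul,
          s44h_coeff_C_mul, ffd_theta_coeff, s44h_coeff_T]
        by_cases hj : j = a
        · subst hj; simp only [if_true, mul_one]; ring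
        · simp only [if_neg hj, mul_zero, sub_zero]
      have e5 : f * (HahnSeries.C (g.coeff a * (a : κ)) * s44h_T a) =
          HahnSeries.C (g.coeff a * (a : κ)) * (f * s44h_T a) := by ring
      rw [h3, mul_sub, HahnSeries.coeff_sub, e5, s44h_coeff_C_mul, s44h_coeff_mul_T, zero_sub] at h2
      linear_combination h2
  obtain ⟨m, hm⟩ := s44h_exists_mem_LA g
  exact key (n + 1 + m) g (s44h_LA_mono (by push_cast; omega) hm)

end Fermat.Agent.Lib.S44

end
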