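/-
M-AT-P programme (S44), W4, Tate's residues, part C4 (helper3): the residue at the place `q = 0` of a
subfield `F ⊆ κ((q))`.

* `s44h_wInf F`, `s44h_infPlace F hne` : the `q`-adic valuation restricted to `F` and its place
  (`hne`: `F` contains an element with a pole);
* `s44h_mem_infPlace`                  : `f ∈ O_∞ ↔ f ∈ κ[[q]]`;
* `s44h_dense`                         : `κ[[q]] + F = κ((q))` if `F` contains, for every `b`, an element
  `q^{-b} + …`;
* `s44h_resP_inf_eq`                   : **`res_∞ (φ dψ) = coeff₀ (φ · θ ψ)`** for `φ, ψ ∈ F`.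
-/
import Fermat.Agent.Lib.S44.HTateCurve
import Fermat.Agent.Lib.S44.HTateLaurent
import Fermat.Agent.Lib.S29.BPPlace

set_option autoImplicit false
set_option linter.unusedSectionVars false

noncomputable section

open AlgebraicCurve Module HahnSeries WithZero Fermat.Agent.Lib.FF Fermat.Agent.Lib.S29

namespace Fermat.Agent.Lib.S44

variable {κ : Type*} [Field κ] (F : IntermediateField κ (LaurentSeries κ))

attribute [local instance 100000] Algebra.toModule Algebra.toSMul

/-- the `q`-adic valuation restricted to `F`. -/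
def s44h_wInf : Valuation F ℤᵐ⁰ :=
  (Valued.v : Valuation (LaurentSeries κ) ℤᵐ⁰).comap (algebraMap F (LaurentSeries κ))

theorem s44h_wInf_le_one_iff (f : F) :
    s44h_wInf F f ≤ 1 ↔ (f : LaurentSeries κ) ∈ s44h_LA (κ := κ) 0 := by
  have := LaurentSeries.valuation_le_iff_coeff_lt_eq_zero κ (D := 0) (f := (f : LaurentSeries κ))
  rw [neg_zero, WithZero.exp_zero] at this
  exact this

theorem s44h_C_mem_LA (c : κ) : (HahnSeries.C c : LaurentSeries κ) ∈ s44h_LA (κ := κ) 0 := by
  intro k hk
  rw [HahnSeries.C_apply, HahnSeries.coeff_single_of_ne (ne_of_lt hk)]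

/-- the place `q = 0` of `F`. -/
def s44h_infPlace (hne : ∃ y : F, (y : LaurentSeries κ) ∉ s44h_LA (κ := κ) 0) : Place κ F where
  toValuationSubring := (s44h_wInf F).valuationSubring
  algebraMap_mem' := fun c => by
    rw [Valuation.mem_valuationSubring_iff, s44h_wInf_le_one_iff]
    have : ((algebraMap κ F c : F) : LaurentSeries κ) = HahnSeries.C c := by
      rw [← s44h_algebraMap_eq_C]
      rfl
    rw [this]
    exact s44h_C_mem_LA c
  ne_top' := by
    intro htop
    obtain ⟨y, hy⟩ := hne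
    apply hy
    rw [← s44h_wInf_le_one_iff, ← Valuation.mem_valuationSubring_iff, htop]
    exact ValuationSubring.mem_top _
  isPrincipalIdealRing' := s29bp_isPrincipalIdealRing_valuationSubring _

variable {F}

theorem s44h_mem_infPlace (hne : ∃ y : F, (y : LaurentSeries κ) ∉ s44h_LA (κ := κ) 0) (f : F) :
    f ∈ (s44h_infPlace F hne).toValuationSubring ↔ (f : LaurentSeries κ) ∈ s44h_LA (κ := κ) 0 := by
  rw [← s44h_wInf_le_one_iff]
  exact Valuation.mem_valuationSubring_iff _ _

/-- the inclusion `F → κ((q))`, `κ`-linear. -/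
def s44h_incl (F : IntermediateField κ (LaurentSeries κ)) : F →ₗ[κ] LaurentSeries κ :=
  F.val.toLinearMap

theorem s44h_incl_apply (f : F) : s44h_incl F f = (f : LaurentSeries κ) := rfl

theorem s44h_incl_injective : Function.Injective (s44h_incl F) := Subtype.val_injective

theorem s44h_comap_LA (hne : ∃ y : F, (y : LaurentSeries κ) ∉ s44h_LA (κ := κ) 0) :
    (s44h_LA (κ := κ) 0).comap (s44h_incl F) = s44h_Ov (s44h_infPlace F hne) := by
  ext f
  rw [Submodule.mem_comap, s44h_mem_Ov, s44h_mem_infPlace, s44h_incl_apply]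

/-- **density**: `κ[[q]] + F = κ((q))`. -/
theorem s44h_dense
    (hJ : ∀ b : ℕ, ∃ y : F, (y : LaurentSeries κ) ∈ s44h_LA (κ := κ) (-(b : ℤ)) ∧
      (y : LaurentSeries κ).coeff (-(b : ℤ)) = 1) :
    s44h_LA (κ := κ) 0 ⊔ LinearMap.range (s44h_incl F) = ⊤ := by
  rw [eq_top_iff]
  intro x _
  obtain ⟨n, hn⟩ := s44h_exists_mem_LA x
  induction n generalizing x with
  | zero =>
    rw [Nat.cast_zero, neg_zero] at hn
    exact Submodule.mem_sup_left hn
  | succ n ih =>
    obtain ⟨y, hy, hy1⟩ := hJ (n + 1)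
    set a : ℤ := -((n + 1 : ℕ) : ℤ) with ha
    set c : κ := x.coeff a with hc
    have h1 : x - HahnSeries.C c * (y : LaurentSeries κ) ∈ s44h_LA (κ := κ) (-(n : ℤ)) := by
      intro k hk
      rw [HahnSeries.coeff_sub, s44h_coeff_C_mul]
      by_cases hka : k = a
      · rw [hka, hy1, mul_one, sub_self]
      · have hk' : k < a := by
          have : k < a + 1 := by rw [ha]; push_cast; omega
          omega
        rw [hn k hk', hy k hk', mul_zero, sub_zero]
    have e : x = (x - HahnSeries.C c * (y : LaurentSeries κ)) +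
        HahnSeries.C c * (y : LaurentSeries κ) := by ring
    rw [e]
    refine Submodule.add_mem _ (ih Submodule.mem_top h1) (Submodule.mem_sup_right ⟨c • y, ?_⟩)
    rw [map_smul, s44h_incl_apply, s44h_smul_eq]

/-- **`res_∞ (φ dψ) = coeff₀ (φ · θ ψ)`.** -/
theorem s44h_resP_inf_eq (hne : ∃ y : F, (y : LaurentSeries κ) ∉ s44h_LA (κ := κ) 0)
    [Module.Finite κ (s44h_infPlace F hne).ResidueField]
    (hJ : ∀ b : ℕ, ∃ y : F, (y : LaurentSeries κ) ∈ s44h_LA (κ := κ) (-(b : ℤ)) ∧
      (y : LaurentSeries κ).coeff (-(b : ℤ)) = 1) (φ ψ : F) :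
    s44h_resP (s44h_infPlace F hne) φ ψ =
      ((φ : LaurentSeries κ) * ffd_theta (ψ : LaurentSeries κ)).coeff 0 := by
  rw [← s44h_resL_eq]
  unfold s44h_resP s44h_resL s44h_resM
  have hint : ∀ h x : F, (LinearMap.mulLeft κ (h : LaurentSeries κ) :
      End κ (LaurentSeries κ)) (s44h_incl F x) = s44h_incl F ((LinearMap.mulLeft κ h : End κ F) x) := by
    intro h x
    rfl
  have hE : ∀ h : F, s44h_E ((s44h_LA (κ := κ) 0).comap (s44h_incl F))
      (LinearMap.mulLeft κ h : End κ F) := by
    intro h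
    rw [s44h_comap_LA hne]
    exact s44h_EM_Ov _ h
  have := s44h_res_transport_dense (s44h_incl F) s44h_incl_injective (s44h_LA (κ := κ) 0)
    (s44h_dense hJ) (hint φ) (hint ψ) (hE φ) (hE ψ) (s44h_mulLeft_comm φ ψ)
    (s44h_EM_LA (φ : LaurentSeries κ)) (s44h_EM_LA (ψ : LaurentSeries κ)) (s44h_mulLeft_comm _ _)
  rw [this, s44h_comap_LA hne]

end Fermat.Agent.Lib.S44

end
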