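/-
M-AT-P programme (S44), W4′, brick **[RES-p]** (helper3): on the special fibre
`Fb = F_κ(M) = κ(j̃(q^d) : d ∣ M)`, `κ` algebraically closed of characteristic `p`:

  if `ū ∈ Fb` is regular away from `∞̃` (the place `q = 0`) and `p ∣ ord_v g̃` for every place `v`,
  then `coeff₀ (ū · θ g̃ / g̃) = 0`,

i.e. the logarithmic differential `dg̃ / g̃` is orthogonal to `B̃` for the pairing `⟨U, φ⟩ = coeff₀ (U φ)`.

Proof: the residue theorem (`HTateCurve`, global inputs = helper5's [RIEMANN-p] `RSepDiv`), the local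
vanishing `s44h_resP_dlog_pth` at the places `≠ ∞̃`, and Tate's Theorem 2 at `∞̃` (`HTateLaurent`,
`HResInf`).

* `s44h_fbarInf κ M`   : the place `∞̃` of `Fb`;
* `s44h_mem_fbarInf`   : `f ∈ O_∞̃ ↔ f ∈ κ[[q]]`;
* `s44h_fbar_resInf`   : `res_∞̃ (φ dψ) = coeff₀ (φ · θ ψ)`;
* `s44h_fbar_residue`  : the residue theorem `∑_{v ∈ S} res_v (φ dψ) = 0` on `Fb`;
* `s44h_res_p`         : **[RES-p]**.
-/
import Fermat.Agent.Lib.S44.HResInf
import Fermat.Agent.Lib.S44.RSepDiv

set_option autoImplicit false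
set_option linter.unusedSectionVars false
set_option linter.style.haveILetI false

noncomputable section

open AlgebraicCurve Module HahnSeries ModularCurve Fermat.Agent.Lib.FF

namespace Fermat.Agent.Lib.S44

variable (κ : Type*) [Field κ] [IsAlgClosed κ] (M : ℕ) [NeZero M]

theorem s44h_fbar_hne :
    ∃ y : ↥(modularFunctionFieldFullC κ M), (y : LaurentSeries κ) ∉ s44h_LA (κ := κ) 0 := by
  refine ⟨s44rq_jbar κ M, fun h => ?_⟩
  have h1 := h (-1) (by norm_num)
  have h2 : ((s44rq_jbar κ M : ↥(modularFunctionFieldFullC κ M)) : LaurentSeries κ) = jqModC κ := rfl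
  rw [h2, coeff_jqModC_neg_one] at h1
  exact one_ne_zero h1

theorem s44h_fbar_hJ : ∀ b : ℕ, ∃ y : ↥(modularFunctionFieldFullC κ M),
    (y : LaurentSeries κ) ∈ s44h_LA (κ := κ) (-(b : ℤ)) ∧
      (y : LaurentSeries κ).coeff (-(b : ℤ)) = 1 := by
  intro b
  refine ⟨s44rq_jbar κ M ^ b, ?_, ?_⟩
  · intro k hk
    exact coeff_jqModC_pow_of_lt κ hk
  · exact coeff_jqModC_pow_self κ b

/-- **the place `∞̃` (`q = 0`) of the special fibre.** -/
def s44h_fbarInf : Place κ ↥(modularFunctionFieldFullC κ M) :=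
  s44h_infPlace (modularFunctionFieldFullC κ M) (s44h_fbar_hne κ M)

theorem s44h_mem_fbarInf (f : ↥(modularFunctionFieldFullC κ M)) :
    f ∈ (s44h_fbarInf κ M).toValuationSubring ↔ ∀ k : ℤ, k < 0 → (f : LaurentSeries κ).coeff k = 0 :=
  s44h_mem_infPlace (s44h_fbar_hne κ M) f

theorem s44h_fbar_finite_residue (v : Place κ ↥(modularFunctionFieldFullC κ M)) :
    Module.Finite κ v.ResidueField := by
  have h := s44rq_fbar_deg_eq_one κ M v
  unfold Place.deg at h
  exact Module.finite_of_finrank_pos (by rw [h]; exact Nat.one_pos)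

/-- **`res_∞̃ (φ dψ) = coeff₀ (φ · θ ψ)`.** -/
theorem s44h_fbar_resInf (φ ψ : ↥(modularFunctionFieldFullC κ M)) :
    s44h_resP (s44h_fbarInf κ M) φ ψ =
      ((φ : LaurentSeries κ) * ffd_theta (ψ : LaurentSeries κ)).coeff 0 := by
  haveI : Module.Finite κ
      (s44h_infPlace (modularFunctionFieldFullC κ M) (s44h_fbar_hne κ M)).ResidueField :=
    s44h_fbar_finite_residue κ M (s44h_fbarInf κ M)
  exact s44h_resP_inf_eq (s44h_fbar_hne κ M) (s44h_fbar_hJ κ M) φ ψ

/-- **the residue theorem on the special fibre.** -/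
theorem s44h_fbar_residue (p : ℕ) [Fact p.Prime] [CharP κ p] (φ ψ : ↥(modularFunctionFieldFullC κ M))
    (S : Finset (Place κ ↥(modularFunctionFieldFullC κ M)))
    (hS : ∀ v ∉ S, φ ∈ v.toValuationSubring ∧ ψ ∈ v.toValuationSubring) :
    ∑ v ∈ S, s44h_resP v φ ψ = 0 := by
  haveI := s44h_fbar_finite_residue κ M
  haveI := s44rq_fbar_finite_L κ M p 0
  haveI := s44rq_fbar_finite_H1 κ M p 0
  exact s44h_residue_theorem φ ψ S hS

/-- **[RES-p]**: `ū` regular away from `∞̃`, `p ∣ div g̃` ⇒ `coeff₀ (ū · g̃⁻¹ · θ g̃) = 0`. -/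
theorem s44h_res_p (p : ℕ) [hp : Fact p.Prime] [CharP κ p] (u g : ↥(modularFunctionFieldFullC κ M)) (hg : g ≠ 0)
    (hu : ∀ v : Place κ ↥(modularFunctionFieldFullC κ M), v ≠ s44h_fbarInf κ M →
      u ∈ v.toValuationSubring)
    (hdvd : ∀ v : Place κ ↥(modularFunctionFieldFullC κ M), (p : ℤ) ∣ v.ord g) :
    ((u : LaurentSeries κ) * (g : LaurentSeries κ)⁻¹ * ffd_theta (g : LaurentSeries κ)).coeff 0 = 0 := by
  classical
  haveI := s44h_fbar_finite_residue κ M
  haveI : CharP κ p := inferInstance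
  obtain ⟨D, hD, -⟩ := (s44rq_fbar_hasPrincipalDivisors κ M p).exists_divisor g hg
  set S : Finset (Place κ ↥(modularFunctionFieldFullC κ M)) := insert (s44h_fbarInf κ M) D.support
    with hSdef
  have hginv0 : g⁻¹ ≠ 0 := inv_ne_zero hg
  have hS : ∀ v ∉ S, u * g⁻¹ ∈ v.toValuationSubring ∧ g ∈ v.toValuationSubring := by
    intro v hv
    rw [hSdef, Finset.mem_insert, not_or] at hv
    have h0 : v.ord g = 0 := by
      rw [← hD v]
      exact Finsupp.notMem_support_iff.mp hv.2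
    have h1 : g ∈ v.toValuationSubring := (ff_mem_iff_ord_nonneg v hg).mpr h0.ge
    have h2 : g⁻¹ ∈ v.toValuationSubring := by
      rw [ff_mem_iff_ord_nonneg v hginv0, v.ord_inv, h0, neg_zero]
    exact ⟨v.toValuationSubring.mul_mem _ _ (hu v hv.1) h2, h1⟩
  have hsum := s44h_fbar_residue κ M p (u * g⁻¹) g S hS
  rw [Finset.sum_eq_single (s44h_fbarInf κ M)
    (fun v _ hne => s44h_resP_dlog_pth v p hp.out.ne_zero (hu v hne) hg (hdvd v))
    (fun h => absurd (Finset.mem_insert_self _ _) h), s44h_fbar_resInf] at hsum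
  exact hsum

/-- **[RES-p]**, second form: `coeff₀ (ū · (θ g̃ / g̃)) = 0`. -/
theorem s44h_res_p' (p : ℕ) [Fact p.Prime] [CharP κ p] (u g : ↥(modularFunctionFieldFullC κ M)) (hg : g ≠ 0)
    (hu : ∀ v : Place κ ↥(modularFunctionFieldFullC κ M), v ≠ s44h_fbarInf κ M →
      u ∈ v.toValuationSubring)
    (hdvd : ∀ v : Place κ ↥(modularFunctionFieldFullC κ M), (p : ℤ) ∣ v.ord g) :
    ((u : LaurentSeries κ) * (ffd_theta (g : LaurentSeries κ) / (g : LaurentSeries κ))).coeff 0 = 0 := by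
  have := s44h_res_p κ M p u g hg hu hdvd
  rw [div_eq_mul_inv, mul_comm (ffd_theta _), ← mul_assoc]
  exact this

end Fermat.Agent.Lib.S44

end
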