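/-
M-AT-P programme (S44), wall W4′, brick [GR] 'good reduction of B' (owner helper6), piece **[GR-E]** (helper9):
pure algebra, Mathlib only.

PART 1 — Hensel uniqueness.
* `s44g_e_hensel_unique`    : `S` a domain, `red : S →+* S̄`, `G ∈ S[Y]`, `y₁ y₂ ∈ S` roots of `G` with
                              `red y₁ = red y₂` and `Ḡ′(red y₁) ≠ 0` ⇒ `y₁ = y₂`.
* `s44g_e_hensel_unique_ps` : the same for `S = A⟦X⟧`, `A` a valuation subring of `K`, `red = map π`, the two
                              root conditions read in `K⟦X⟧` (helper6's wording, #2217).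

PART 2 — the `t`-adic expansion at a rational point.  `K` a commutative ring (a field in the application, or a
valuation ring `A`), `R` a commutative `K`-algebra, `ev : R →ₐ[K] K`, `t : R` a non-zero-divisor generating
`ker ev`:
* `s44g_eD`  : `𝒟 f`, with `f = ev f + t · 𝒟 f` (`s44g_eD_spec`), unique (`s44g_eD_unique`), `K`-linear, twisted
               Leibniz rule `𝒟 (f g) = ev f • 𝒟 g + 𝒟 f * g`;
* `s44g_eps` : **`ε : R →ₐ[K] K⟦X⟧`**, `coeff n (ε f) = ev (𝒟^[n] f)`, `ε t = X`;
* `s44g_eps_X_pow_dvd_iff` : `X ^ n ∣ ε f ↔ t ^ n ∣ f`; `s44g_eps_injective` (if `⋂ tⁿR = 0`);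
  `s44g_eps_order_eq_iff`;
* `s44g_eps_natural` : naturality: `(ρ, π) : (R, K) → (R', K')` intertwining `(ev, t)` ⇒
                       `map π (ε f) = ε' (ρ f)`.
-/
import Mathlib

set_option autoImplicit false

noncomputable section

namespace Fermat.Agent.Lib.S44

open Polynomial

/-! ### Part 1: Hensel uniqueness -/

section Hensel

/-- **Hensel uniqueness** in a domain. -/
theorem s44g_e_hensel_unique {S Sb : Type*} [CommRing S] [IsDomain S] [CommRing Sb]
    (red : S →+* Sb) (G : S[X]) (y₁ y₂ : S) (h₁ : G.eval y₁ = 0) (h₂ : G.eval y₂ = 0)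
    (hcong : red y₁ = red y₂) (hder : (derivative (G.map red)).eval (red y₁) ≠ 0) : y₁ = y₂ := by
  obtain ⟨H, hH⟩ := X_sub_C_dvd_sub_C_eval (a := y₁) (p := G)
  rw [h₁, C_0, sub_zero] at hH
  -- `G′(y₁) = H(y₁)`
  have hd : (derivative G).eval y₁ = H.eval y₁ := by
    rw [hH, derivative_mul, derivative_sub, derivative_X, derivative_C, sub_zero, one_mul, eval_add,
      eval_mul, eval_sub, eval_X, eval_C, sub_self, zero_mul, add_zero]
  -- `0 = G(y₂) = (y₂ - y₁) H(y₂)`
  have h3 : (y₂ - y₁) * H.eval y₂ = 0 := by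
    have := congrArg (eval y₂) hH
    rw [h₂, eval_mul, eval_sub, eval_X, eval_C] at this
    exact this.symm
  rcases mul_eq_zero.mp h3 with h | h
  · exact (sub_eq_zero.mp h).symm
  · exfalso
    apply hder
    have e1 : red (H.eval y₂) = (H.map red).eval (red y₂) := by
      rw [eval_map, eval₂_at_apply]
    have e2 : red ((derivative G).eval y₁) = (derivative (G.map red)).eval (red y₁) := by
      rw [derivative_map, eval_map, eval₂_at_apply]
    have e3 : red (H.eval y₁) = (H.map red).eval (red y₁) := by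
      rw [eval_map, eval₂_at_apply]
    rw [← e2, hd, e3, hcong, ← e1, h, map_zero]

/-- **Hensel uniqueness for power series over a valuation subring** (roots read in `K⟦X⟧`). -/
theorem s44g_e_hensel_unique_ps {K κ : Type*} [Field K] [CommRing κ] (A : ValuationSubring K)
    (π : A →+* κ) (G : (PowerSeries A)[X]) (y₁ y₂ : PowerSeries A)
    (h₁ : (G.map (PowerSeries.map A.subtype)).eval (PowerSeries.map A.subtype y₁) = 0)
    (h₂ : (G.map (PowerSeries.map A.subtype)).eval (PowerSeries.map A.subtype y₂) = 0)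
    (hcong : PowerSeries.map π y₁ = PowerSeries.map π y₂)
    (hder : (derivative (G.map (PowerSeries.map π))).eval (PowerSeries.map π y₁) ≠ 0) :
    y₁ = y₂ := by
  have hinj : Function.Injective (PowerSeries.map A.subtype) := by
    intro a b hab
    ext n
    have := congrArg (PowerSeries.coeff n) hab
    rw [PowerSeries.coeff_map, PowerSeries.coeff_map] at this
    exact this
  have key : ∀ y : PowerSeries A,
      (G.map (PowerSeries.map A.subtype)).eval (PowerSeries.map A.subtype y) = 0 →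
        G.eval y = 0 := by
    intro y hy
    apply hinj
    rw [map_zero, ← hy, eval_map, eval₂_at_apply]
  exact s44g_e_hensel_unique (PowerSeries.map π) G y₁ y₂ (key y₁ h₁) (key y₂ h₂) hcong hder

end Hensel

/-! ### Part 2: the `t`-adic expansion at a rational point -/

section Expansion

variable {K R : Type*} [CommRing K] [CommRing R] [Algebra K R] (ev : R →ₐ[K] K) (t : R)
  (hdiv : ∀ f : R, ev f = 0 → ∃ g : R, f = t * g)

theorem s44g_e_ev_sub (f : R) : ev (f - algebraMap K R (ev f)) = 0 := by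
  rw [map_sub, AlgHom.commutes, Algebra.algebraMap_self, RingHom.id_apply, sub_self]

/-- **`𝒟 f = (f - f(P)) / t`.** -/
def s44g_eD (f : R) : R := Classical.choose (hdiv _ (s44g_e_ev_sub ev f))

/-- `f = f(P) + t · 𝒟 f`. -/
theorem s44g_eD_spec (f : R) : f = algebraMap K R (ev f) + t * s44g_eD ev t hdiv f := by
  have h := Classical.choose_spec (hdiv _ (s44g_e_ev_sub ev f))
  rw [← show s44g_eD ev t hdiv f = Classical.choose (hdiv _ (s44g_e_ev_sub ev f)) from rfl] at h
  rw [← h]
  ring

variable (ht : ∀ g : R, t * g = 0 → g = 0) (hevt : ev t = 0)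

include ht hevt in
/-- uniqueness of the decomposition `f = c + t g`. -/
theorem s44g_eD_unique (f : R) (c : K) (g : R) (h : f = algebraMap K R c + t * g) :
    c = ev f ∧ g = s44g_eD ev t hdiv f := by
  have hc : c = ev f := by
    have := congrArg ev h
    rw [map_add, map_mul, hevt, zero_mul, add_zero, AlgHom.commutes, Algebra.algebraMap_self,
      RingHom.id_apply] at this
    exact this.symm
  refine ⟨hc, ?_⟩
  have h2 := s44g_eD_spec ev t hdiv f
  rw [← hc] at h2
  have h3 : t * (g - s44g_eD ev t hdiv f) = 0 := by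
    rw [mul_sub]
    have : t * g = t * s44g_eD ev t hdiv f := add_left_cancel (h.symm.trans h2)
    rw [this, sub_self]
  exact sub_eq_zero.mp (ht _ h3)

include ht hevt in
theorem s44g_eD_add (f g : R) :
    s44g_eD ev t hdiv (f + g) = s44g_eD ev t hdiv f + s44g_eD ev t hdiv g := by
  refine ((s44g_eD_unique ev t hdiv ht hevt (f + g) (ev f + ev g) _ ?_).2).symm
  conv_lhs => rw [s44g_eD_spec ev t hdiv f, s44g_eD_spec ev t hdiv g]
  rw [map_add]
  ring

include ht hevt in
theorem s44g_eD_smul (c : K) (f : R) :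
    s44g_eD ev t hdiv (c • f) = c • s44g_eD ev t hdiv f := by
  refine ((s44g_eD_unique ev t hdiv ht hevt (c • f) (c * ev f) _ ?_).2).symm
  conv_lhs => rw [s44g_eD_spec ev t hdiv f]
  rw [smul_add, map_mul, Algebra.smul_def, Algebra.smul_def, Algebra.smul_def]
  ring

include ht hevt in
theorem s44g_eD_algebraMap (c : K) : s44g_eD ev t hdiv (algebraMap K R c) = 0 := by
  refine ((s44g_eD_unique ev t hdiv ht hevt (algebraMap K R c) c 0 ?_).2).symm
  rw [mul_zero, add_zero]

include ht hevt in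
theorem s44g_eD_zero : s44g_eD ev t hdiv 0 = 0 := by
  have := s44g_eD_algebraMap ev t hdiv ht hevt 0
  rwa [map_zero] at this

include ht hevt in
theorem s44g_eD_one : s44g_eD ev t hdiv 1 = 0 := by
  have := s44g_eD_algebraMap ev t hdiv ht hevt 1
  rwa [map_one] at this

include ht hevt in
/-- `𝒟 (t g) = g`. -/
theorem s44g_eD_t_mul (g : R) : s44g_eD ev t hdiv (t * g) = g := by
  refine ((s44g_eD_unique ev t hdiv ht hevt (t * g) 0 g ?_).2).symm
  rw [map_zero, zero_add]

include ht hevt in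
theorem s44g_eD_t : s44g_eD ev t hdiv t = 1 := by
  have := s44g_eD_t_mul ev t hdiv ht hevt 1
  rwa [mul_one] at this

include ht hevt in
/-- **twisted Leibniz rule.** -/
theorem s44g_eD_mul (f g : R) :
    s44g_eD ev t hdiv (f * g) = ev f • s44g_eD ev t hdiv g + s44g_eD ev t hdiv f * g := by
  refine ((s44g_eD_unique ev t hdiv ht hevt (f * g) (ev f * ev g) _ ?_).2).symm
  have hf := s44g_eD_spec ev t hdiv f
  have hg := s44g_eD_spec ev t hdiv g
  rw [map_mul, Algebra.smul_def]
  linear_combination g * hf + algebraMap K R (ev f) * hg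

/-- **`ε f = Σ ev (𝒟ⁿ f) Xⁿ`.** -/
def s44g_epsFun (f : R) : PowerSeries K :=
  PowerSeries.mk fun n => ev ((s44g_eD ev t hdiv)^[n] f)

theorem s44g_epsFun_coeff (f : R) (n : ℕ) :
    PowerSeries.coeff n (s44g_epsFun ev t hdiv f) = ev ((s44g_eD ev t hdiv)^[n] f) :=
  PowerSeries.coeff_mk _ _

/-- `ε f = f(P) + X · ε (𝒟 f)`. -/
theorem s44g_epsFun_eq (f : R) :
    s44g_epsFun ev t hdiv f =
      PowerSeries.C (ev f) + PowerSeries.X * s44g_epsFun ev t hdiv (s44g_eD ev t hdiv f) := by
  ext n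
  cases n with
  | zero =>
    rw [map_add, PowerSeries.coeff_zero_X_mul, add_zero, s44g_epsFun_coeff,
      PowerSeries.coeff_zero_C]
    rfl
  | succ n =>
    rw [map_add, PowerSeries.coeff_succ_X_mul, s44g_epsFun_coeff, s44g_epsFun_coeff,
      PowerSeries.coeff_C, if_neg (Nat.succ_ne_zero n), zero_add, Function.iterate_succ_apply]

include ht hevt in
theorem s44g_eD_iterate_add (n : ℕ) (f g : R) :
    (s44g_eD ev t hdiv)^[n] (f + g) =
      (s44g_eD ev t hdiv)^[n] f + (s44g_eD ev t hdiv)^[n] g := by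
  induction n generalizing f g with
  | zero => rfl
  | succ n ih =>
    rw [Function.iterate_succ_apply, Function.iterate_succ_apply, Function.iterate_succ_apply,
      s44g_eD_add ev t hdiv ht hevt, ih]

include ht hevt in
theorem s44g_eD_iterate_smul (n : ℕ) (c : K) (f : R) :
    (s44g_eD ev t hdiv)^[n] (c • f) = c • (s44g_eD ev t hdiv)^[n] f := by
  induction n generalizing f with
  | zero => rfl
  | succ n ih =>
    rw [Function.iterate_succ_apply, Function.iterate_succ_apply, s44g_eD_smul ev t hdiv ht hevt,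
      ih]

include ht hevt in
theorem s44g_epsFun_add (f g : R) :
    s44g_epsFun ev t hdiv (f + g) = s44g_epsFun ev t hdiv f + s44g_epsFun ev t hdiv g := by
  ext n
  rw [map_add, s44g_epsFun_coeff, s44g_epsFun_coeff, s44g_epsFun_coeff,
    s44g_eD_iterate_add ev t hdiv ht hevt, map_add]

include ht hevt in
theorem s44g_epsFun_smul (c : K) (f : R) :
    s44g_epsFun ev t hdiv (c • f) = c • s44g_epsFun ev t hdiv f := by
  ext n
  rw [PowerSeries.coeff_smul, s44g_epsFun_coeff, s44g_epsFun_coeff,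
    s44g_eD_iterate_smul ev t hdiv ht hevt, map_smul]

include ht hevt in
theorem s44g_epsFun_algebraMap (c : K) :
    s44g_epsFun ev t hdiv (algebraMap K R c) = PowerSeries.C c := by
  rw [s44g_epsFun_eq, s44g_eD_algebraMap ev t hdiv ht hevt, AlgHom.commutes,
    Algebra.algebraMap_self, RingHom.id_apply]
  have h0 : s44g_epsFun ev t hdiv (0 : R) = 0 := by
    have := s44g_epsFun_smul ev t hdiv ht hevt 0 (0 : R)
    rwa [zero_smul, zero_smul] at this
  rw [h0, mul_zero, add_zero]

include ht hevt in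
/-- multiplicativity of `ε`, coefficientwise. -/
theorem s44g_epsFun_mul_coeff (n : ℕ) : ∀ f g : R,
    PowerSeries.coeff n (s44g_epsFun ev t hdiv (f * g)) =
      PowerSeries.coeff n (s44g_epsFun ev t hdiv f * s44g_epsFun ev t hdiv g) := by
  induction n with
  | zero =>
    intro f g
    rw [PowerSeries.coeff_zero_eq_constantCoeff_apply, PowerSeries.coeff_zero_eq_constantCoeff_apply,
      map_mul, ← PowerSeries.coeff_zero_eq_constantCoeff_apply,
      ← PowerSeries.coeff_zero_eq_constantCoeff_apply, ← PowerSeries.coeff_zero_eq_constantCoeff_apply,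
      s44g_epsFun_coeff, s44g_epsFun_coeff, s44g_epsFun_coeff]
    exact map_mul ev f g
  | succ n ih =>
    intro f g
    have e1 : PowerSeries.coeff (n + 1) (s44g_epsFun ev t hdiv (f * g)) =
        ev f * PowerSeries.coeff n (s44g_epsFun ev t hdiv (s44g_eD ev t hdiv g)) +
          PowerSeries.coeff n (s44g_epsFun ev t hdiv (s44g_eD ev t hdiv f * g)) := by
      rw [s44g_epsFun_eq ev t hdiv (f * g), map_add, PowerSeries.coeff_succ_X_mul,
        PowerSeries.coeff_C, if_neg (Nat.succ_ne_zero n), zero_add,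
        s44g_eD_mul ev t hdiv ht hevt, s44g_epsFun_add ev t hdiv ht hevt,
        s44g_epsFun_smul ev t hdiv ht hevt, map_add, PowerSeries.coeff_smul, smul_eq_mul]
    have e2 : PowerSeries.coeff (n + 1) (s44g_epsFun ev t hdiv f * s44g_epsFun ev t hdiv g) =
        ev f * PowerSeries.coeff n (s44g_epsFun ev t hdiv (s44g_eD ev t hdiv g)) +
          PowerSeries.coeff n (s44g_epsFun ev t hdiv (s44g_eD ev t hdiv f) *
            s44g_epsFun ev t hdiv g) := by
      conv_lhs => rw [s44g_epsFun_eq ev t hdiv f]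
      rw [add_mul, map_add, mul_assoc, PowerSeries.coeff_succ_X_mul, PowerSeries.coeff_C_mul]
      congr 1
      rw [s44g_epsFun_eq ev t hdiv g, map_add, PowerSeries.coeff_succ_X_mul, PowerSeries.coeff_C,
        if_neg (Nat.succ_ne_zero n), zero_add]
    rw [e1, e2, ih]

include ht hevt in
theorem s44g_epsFun_mul (f g : R) :
    s44g_epsFun ev t hdiv (f * g) = s44g_epsFun ev t hdiv f * s44g_epsFun ev t hdiv g := by
  ext n
  exact s44g_epsFun_mul_coeff ev t hdiv ht hevt n f g

/-- **the `t`-adic expansion `ε : R →ₐ[K] K⟦X⟧`.** -/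
def s44g_eps : R →ₐ[K] PowerSeries K where
  toFun := s44g_epsFun ev t hdiv
  map_one' := by
    have := s44g_epsFun_algebraMap ev t hdiv ht hevt 1
    rwa [map_one, map_one] at this
  map_mul' := s44g_epsFun_mul ev t hdiv ht hevt
  map_zero' := by
    have := s44g_epsFun_algebraMap ev t hdiv ht hevt 0
    rwa [map_zero, map_zero] at this
  map_add' := s44g_epsFun_add ev t hdiv ht hevt
  commutes' := fun c => by
    rw [s44g_epsFun_algebraMap ev t hdiv ht hevt]
    rfl

theorem s44g_eps_coeff (f : R) (n : ℕ) :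
    PowerSeries.coeff n (s44g_eps ev t hdiv ht hevt f) = ev ((s44g_eD ev t hdiv)^[n] f) :=
  s44g_epsFun_coeff ev t hdiv f n

theorem s44g_eps_eq (f : R) :
    s44g_eps ev t hdiv ht hevt f =
      PowerSeries.C (ev f) + PowerSeries.X * s44g_eps ev t hdiv ht hevt (s44g_eD ev t hdiv f) :=
  s44g_epsFun_eq ev t hdiv f

/-- **`ε t = X`.** -/
theorem s44g_eps_t : s44g_eps ev t hdiv ht hevt t = PowerSeries.X := by
  rw [s44g_eps_eq, hevt, map_zero, zero_add, s44g_eD_t ev t hdiv ht hevt, map_one, mul_one]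

end Expansion

section Order

variable {K R : Type*} [CommRing K] [CommRing R] [Algebra K R] (ev : R →ₐ[K] K) (t : R)
  (hdiv : ∀ f : R, ev f = 0 → ∃ g : R, f = t * g)
  (ht : ∀ g : R, t * g = 0 → g = 0) (hevt : ev t = 0)

/-- if the first `n` coefficients of `ε f` vanish then `f = tⁿ · 𝒟ⁿ f`. -/
theorem s44g_e_eq_pow_mul (n : ℕ) : ∀ f : R,
    (∀ i, i < n → ev ((s44g_eD ev t hdiv)^[i] f) = 0) →
      f = t ^ n * (s44g_eD ev t hdiv)^[n] f := by
  induction n with
  | zero =>
    intro f _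
    rw [pow_zero, one_mul]
    rfl
  | succ n ih =>
    intro f h
    have h0 : ev f = 0 := h 0 (Nat.succ_pos n)
    have h1 : f = t * s44g_eD ev t hdiv f := by
      have := s44g_eD_spec ev t hdiv f
      rwa [h0, map_zero, zero_add] at this
    have h2 := ih (s44g_eD ev t hdiv f) (fun i hi => by
      have := h (i + 1) (Nat.succ_lt_succ hi)
      rwa [Function.iterate_succ_apply] at this)
    rw [Function.iterate_succ_apply, pow_succ, mul_comm (t ^ n) t, mul_assoc, ← h2]
    exact h1

/-- **`Xⁿ ∣ ε f ↔ tⁿ ∣ f`.** -/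
theorem s44g_eps_X_pow_dvd_iff (n : ℕ) (f : R) :
    (PowerSeries.X : PowerSeries K) ^ n ∣ s44g_eps ev t hdiv ht hevt f ↔ t ^ n ∣ f := by
  constructor
  · intro h
    rw [PowerSeries.X_pow_dvd_iff] at h
    refine ⟨(s44g_eD ev t hdiv)^[n] f, s44g_e_eq_pow_mul ev t hdiv n f (fun i hi => ?_)⟩
    rw [← s44g_eps_coeff ev t hdiv ht hevt]
    exact h i hi
  · rintro ⟨g, rfl⟩
    rw [map_mul, map_pow, s44g_eps_t]
    exact Dvd.intro _ rfl

/-- `ε f = 0 ↔ f ∈ ⋂ tⁿ R`. -/
theorem s44g_eps_eq_zero_iff (f : R) :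
    s44g_eps ev t hdiv ht hevt f = 0 ↔ ∀ n : ℕ, t ^ n ∣ f := by
  constructor
  · intro h n
    rw [← s44g_eps_X_pow_dvd_iff ev t hdiv ht hevt, h]
    exact dvd_zero _
  · intro h
    ext n
    have h1 := (s44g_eps_X_pow_dvd_iff ev t hdiv ht hevt (n + 1) f).mpr (h (n + 1))
    rw [PowerSeries.X_pow_dvd_iff] at h1
    rw [h1 n (Nat.lt_succ_self n), map_zero]

/-- **`ε` is injective** when `⋂ tⁿ R = 0`. -/
theorem s44g_eps_injective (hsep : ∀ f : R, (∀ n : ℕ, t ^ n ∣ f) → f = 0) :
    Function.Injective (s44g_eps ev t hdiv ht hevt) := by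
  rw [injective_iff_map_eq_zero]
  intro f hf
  exact hsep f ((s44g_eps_eq_zero_iff ev t hdiv ht hevt f).mp hf)

/-- **`order (ε f) = n ↔ f ∈ tⁿ R ∖ tⁿ⁺¹ R`.** -/
theorem s44g_eps_order_eq_iff (n : ℕ) (f : R) :
    PowerSeries.order (s44g_eps ev t hdiv ht hevt f) = n ↔ t ^ n ∣ f ∧ ¬ t ^ (n + 1) ∣ f := by
  rw [PowerSeries.order_eq_nat, ← s44g_eps_X_pow_dvd_iff ev t hdiv ht hevt,
    ← s44g_eps_X_pow_dvd_iff ev t hdiv ht hevt, PowerSeries.X_pow_dvd_iff,
    PowerSeries.X_pow_dvd_iff]
  constructor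
  · rintro ⟨h1, h2⟩
    exact ⟨h2, fun h => h1 (h n (Nat.lt_succ_self n))⟩
  · rintro ⟨h1, h2⟩
    refine ⟨fun h => h2 (fun m hm => ?_), h1⟩
    rcases Nat.lt_succ_iff_lt_or_eq.mp hm with h' | rfl
    · exact h1 m h'
    · exact h

end Order

section Natural

variable {K R : Type*} [CommRing K] [CommRing R] [Algebra K R] (ev : R →ₐ[K] K) (t : R)
  (hdiv : ∀ f : R, ev f = 0 → ∃ g : R, f = t * g)
  (ht : ∀ g : R, t * g = 0 → g = 0) (hevt : ev t = 0)
  {K' R' : Type*} [CommRing K'] [CommRing R'] [Algebra K' R'] (ev' : R' →ₐ[K'] K') (t' : R')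
  (hdiv' : ∀ f : R', ev' f = 0 → ∃ g : R', f = t' * g)
  (ht' : ∀ g : R', t' * g = 0 → g = 0) (hevt' : ev' t' = 0)
  (π : K →+* K') (ρ : R →+* R') (hρt : ρ t = t')
  (hρalg : ∀ c : K, ρ (algebraMap K R c) = algebraMap K' R' (π c))

include hdiv hdiv' ht' hevt' hρt hρalg in
/-- `ev' (ρ f) = π (ev f)` (automatic). -/
theorem s44g_e_ev_natural (f : R) : ev' (ρ f) = π (ev f) := by
  refine ((s44g_eD_unique ev' t' hdiv' ht' hevt' (ρ f) (π (ev f)) (ρ (s44g_eD ev t hdiv f)) ?_).1).symm
  conv_lhs => rw [s44g_eD_spec ev t hdiv f]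
  rw [map_add, map_mul, hρalg, hρt]

include ht' hevt' hρt hρalg in
/-- `ρ (𝒟 f) = 𝒟' (ρ f)`. -/
theorem s44g_eD_natural (f : R) :
    ρ (s44g_eD ev t hdiv f) = s44g_eD ev' t' hdiv' (ρ f) := by
  refine (s44g_eD_unique ev' t' hdiv' ht' hevt' (ρ f) (π (ev f)) _ ?_).2
  conv_lhs => rw [s44g_eD_spec ev t hdiv f]
  rw [map_add, map_mul, hρalg, hρt]

include ht' hevt' hρt hρalg in
theorem s44g_eD_iterate_natural (n : ℕ) (f : R) :
    ρ ((s44g_eD ev t hdiv)^[n] f) = (s44g_eD ev' t' hdiv')^[n] (ρ f) := by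
  induction n generalizing f with
  | zero => rfl
  | succ n ih =>
    rw [Function.iterate_succ_apply, Function.iterate_succ_apply, ih,
      s44g_eD_natural ev t hdiv ev' t' hdiv' ht' hevt' π ρ hρt hρalg]

include hρt hρalg in
/-- **naturality of the expansion**: `map π (ε f) = ε' (ρ f)`. -/
theorem s44g_eps_natural (f : R) :
    PowerSeries.map π (s44g_eps ev t hdiv ht hevt f) = s44g_eps ev' t' hdiv' ht' hevt' (ρ f) := by
  ext n
  rw [PowerSeries.coeff_map, s44g_eps_coeff, s44g_eps_coeff,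
    ← s44g_e_ev_natural ev t hdiv ev' t' hdiv' ht' hevt' π ρ hρt hρalg,
    s44g_eD_iterate_natural ev t hdiv ev' t' hdiv' ht' hevt' π ρ hρt hρalg]

end Natural

/-! ### The model case: power series, `t = S = X · unit` -/

section PowerSeriesInstance

variable {K : Type*} [CommRing K]

/-- the constant coefficient, as a `K`-algebra homomorphism. -/
def s44g_e_psEv : PowerSeries K →ₐ[K] K :=
  { PowerSeries.constantCoeff (R := K) with
    commutes' := fun c => by
      show PowerSeries.constantCoeff (algebraMap K (PowerSeries K) c) = c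
      rw [PowerSeries.algebraMap_apply, Algebra.algebraMap_self, RingHom.id_apply,
        PowerSeries.constantCoeff_C] }

theorem s44g_e_psEv_apply (f : PowerSeries K) :
    s44g_e_psEv f = PowerSeries.constantCoeff f := rfl

variable (S u v : PowerSeries K) (huv : u * v = 1) (hS : S = PowerSeries.X * u)

include huv hS in
theorem s44g_e_ps_hdiv (f : PowerSeries K) (hf : s44g_e_psEv f = 0) : ∃ g, f = S * g := by
  rw [s44g_e_psEv_apply] at hf
  obtain ⟨g, rfl⟩ := PowerSeries.X_dvd_iff.mpr hf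
  refine ⟨v * g, ?_⟩
  rw [hS, mul_assoc, ← mul_assoc u v g, huv, one_mul]

include huv hS in
theorem s44g_e_ps_ht (g : PowerSeries K) (hg : S * g = 0) : g = 0 := by
  have h1 : PowerSeries.X * (u * g) = 0 := by rw [← mul_assoc, ← hS, hg]
  have h2 : u * g = 0 := by
    ext n
    have := congrArg (PowerSeries.coeff (n + 1)) h1
    rwa [PowerSeries.coeff_succ_X_mul, map_zero] at this
  have h3 : v * (u * g) = g := by rw [← mul_assoc, mul_comm v u, huv, one_mul]
  rw [← h3, h2, mul_zero]

include hS in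
theorem s44g_e_ps_hevt : s44g_e_psEv S = 0 := by
  rw [s44g_e_psEv_apply, hS, map_mul, PowerSeries.constantCoeff_X, zero_mul]

/-- **re-expansion of a power series in the parameter `S = X · unit`**: the `K`-algebra endomorphism `ε_S` of
`K⟦X⟧` with `ε_S S = X`. -/
def s44g_e_psEps : PowerSeries K →ₐ[K] PowerSeries K :=
  s44g_eps s44g_e_psEv S (s44g_e_ps_hdiv S u v huv hS) (s44g_e_ps_ht S u v huv hS)
    (s44g_e_ps_hevt S u hS)

theorem s44g_e_psEps_S : s44g_e_psEps S u v huv hS S = PowerSeries.X :=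
  s44g_eps_t _ _ _ _ _

/-- `ε_S` commutes with coefficient maps. -/
theorem s44g_e_psEps_map {K' : Type*} [CommRing K'] (π : K →+* K') (f : PowerSeries K) :
    PowerSeries.map π (s44g_e_psEps S u v huv hS f) =
      s44g_e_psEps (PowerSeries.map π S) (PowerSeries.map π u) (PowerSeries.map π v)
        (by rw [← map_mul, huv, map_one]) (by rw [hS, map_mul, PowerSeries.map_X])
        (PowerSeries.map π f) := by
  refine s44g_eps_natural _ _ _ _ _ _ _ _ _ _ π (PowerSeries.map π) rfl (fun c => ?_) f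
  rw [PowerSeries.algebraMap_apply, PowerSeries.algebraMap_apply, Algebra.algebraMap_self,
    Algebra.algebraMap_self, RingHom.id_apply, RingHom.id_apply, PowerSeries.map_C]

end PowerSeriesInstance

end Fermat.Agent.Lib.S44
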