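/-
M-AT-P programme (S44), W4′ [GR-B1] (helper5, prefix `s44g_i`), generic part: the `q`-order place
of a subfield `F ⊆ κ((q))`.

`v : Place κ F` with `O_v = F ∩ κ[[q]]` (`hv`).  Then
* `s44g_i_rho v hv : O_v →ₐ[κ] κ⟦X⟧` (the `q`-expansion), `s44g_i_ev v hv : O_v →ₐ[κ] κ` (the constant
  coefficient);
* for `s ∈ O_v` with `q`-expansion `X · unit`: division by `s` in `O_v`, and the `s`-adic expansion
  `ε` of helper9's `GExp` is the re-expansion `s44g_e_psEps` of the `q`-expansion
  (`s44g_i_eps_eq`);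
* over an algebraically closed `κ`: `s37pv_ev x v f` is the constant coefficient (`s44g_i_pv_ev`).
-/
import Fermat.Agent.Lib.S44.GExp
import Fermat.Agent.Lib.S37.PValue
import Fermat.Prelude.Def_ModularCurve_X0ModL

set_option autoImplicit false
set_option linter.unusedSectionVars false
set_option linter.style.haveILetI false

noncomputable section

namespace Fermat.Agent.Lib.S44

open AlgebraicCurve ModularCurve Fermat.Agent.Lib.FF Fermat.Agent.Lib.S37

section PS

variable {R : Type*} [CommRing R]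

/-- the power series of the coefficients of non-negative index. -/
def s44g_i_psOf (y : LaurentSeries R) : PowerSeries R := PowerSeries.mk fun n => y.coeff (n : ℤ)

theorem s44g_i_coeff_psOf (y : LaurentSeries R) (n : ℕ) :
    PowerSeries.coeff n (s44g_i_psOf y) = y.coeff (n : ℤ) := PowerSeries.coeff_mk _ _

theorem s44g_i_ofPS_psOf (y : LaurentSeries R) (hy : ∀ n : ℤ, n < 0 → y.coeff n = 0) :
    HahnSeries.ofPowerSeries ℤ R (s44g_i_psOf y) = y := by
  ext k
  rcases le_or_gt 0 k with hk | hk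
  · lift k to ℕ using hk
    rw [HahnSeries.ofPowerSeries_apply_coeff, s44g_i_coeff_psOf]
  · rw [ofPowerSeries_coeff_of_neg _ hk, hy k hk]

theorem s44g_i_psOf_ofPS (P : PowerSeries R) :
    s44g_i_psOf (HahnSeries.ofPowerSeries ℤ R P) = P := by
  ext n
  rw [s44g_i_coeff_psOf, HahnSeries.ofPowerSeries_apply_coeff]

theorem s44g_i_ofPS_coeff_neg (P : PowerSeries R) (n : ℤ) (hn : n < 0) :
    (HahnSeries.ofPowerSeries ℤ R P).coeff n = 0 := ofPowerSeries_coeff_of_neg _ hn

theorem s44g_i_psOf_map {S : Type*} [CommRing S] (f : R →+* S) (y : LaurentSeries R) :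
    s44g_i_psOf (coeffMap f y) = PowerSeries.map f (s44g_i_psOf y) := by
  ext n
  rw [s44g_i_coeff_psOf, coeffMap_coeff, PowerSeries.coeff_map, s44g_i_coeff_psOf]

end PS

section Place

variable {κ : Type*} [Field κ] {F : IntermediateField κ (LaurentSeries κ)} (v : Place κ F)
  (hv : ∀ f : F, f ∈ v.toValuationSubring ↔ ∀ n : ℤ, n < 0 → (f : LaurentSeries κ).coeff n = 0)

include hv in
theorem s44g_i_ofPS_rho (f : ↥v.toValuationSubring) :
    HahnSeries.ofPowerSeries ℤ κ (s44g_i_psOf (((f : F) : LaurentSeries κ))) =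
      ((f : F) : LaurentSeries κ) :=
  s44g_i_ofPS_psOf _ ((hv f).mp f.2)

/-- **the `q`-expansion** `O_v →ₐ[κ] κ⟦X⟧`. -/
def s44g_i_rho : ↥v.toValuationSubring →ₐ[κ] PowerSeries κ where
  toFun f := s44g_i_psOf (((f : F) : LaurentSeries κ))
  map_one' := by
    apply HahnSeries.ofPowerSeries_injective (Γ := ℤ)
    rw [s44g_i_ofPS_rho v hv, map_one]
    rfl
  map_mul' a b := by
    apply HahnSeries.ofPowerSeries_injective (Γ := ℤ)
    rw [s44g_i_ofPS_rho v hv, map_mul, s44g_i_ofPS_rho v hv, s44g_i_ofPS_rho v hv]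
    rfl
  map_zero' := by
    apply HahnSeries.ofPowerSeries_injective (Γ := ℤ)
    rw [s44g_i_ofPS_rho v hv, map_zero]
    rfl
  map_add' a b := by
    apply HahnSeries.ofPowerSeries_injective (Γ := ℤ)
    rw [s44g_i_ofPS_rho v hv, map_add, s44g_i_ofPS_rho v hv, s44g_i_ofPS_rho v hv]
    rfl
  commutes' c := by
    apply HahnSeries.ofPowerSeries_injective (Γ := ℤ)
    rw [s44g_i_ofPS_rho v hv]
    show algebraMap κ (LaurentSeries κ) c = _
    rw [PowerSeries.algebraMap_apply, Algebra.algebraMap_self, RingHom.id_apply,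
      HahnSeries.ofPowerSeries_C, algebraMap_laurentSeries_eq_single]
    rfl

theorem s44g_i_rho_coe (f : ↥v.toValuationSubring) :
    HahnSeries.ofPowerSeries ℤ κ (s44g_i_rho v hv f) = ((f : F) : LaurentSeries κ) :=
  s44g_i_ofPS_rho v hv f

theorem s44g_i_rho_coeff (f : ↥v.toValuationSubring) (n : ℕ) :
    PowerSeries.coeff n (s44g_i_rho v hv f) = ((f : F) : LaurentSeries κ).coeff (n : ℤ) :=
  s44g_i_coeff_psOf _ n

theorem s44g_i_rho_injective : Function.Injective (s44g_i_rho v hv) := by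
  intro a b h
  apply Subtype.ext
  apply Subtype.ext
  rw [← s44g_i_rho_coe v hv a, ← s44g_i_rho_coe v hv b, h]

/-- **the value at `q = 0`**: the constant coefficient. -/
def s44g_i_ev : ↥v.toValuationSubring →ₐ[κ] κ := s44g_e_psEv.comp (s44g_i_rho v hv)

theorem s44g_i_ev_apply (f : ↥v.toValuationSubring) :
    s44g_i_ev v hv f = ((f : F) : LaurentSeries κ).coeff 0 := by
  show PowerSeries.constantCoeff (s44g_i_rho v hv f) = _
  rw [← PowerSeries.coeff_zero_eq_constantCoeff_apply, s44g_i_rho_coeff, Nat.cast_zero]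

include hv in
/-- membership in `O_v` from a power series expansion. -/
theorem s44g_i_mem_of_eq (f : F) (P : PowerSeries κ)
    (h : (f : LaurentSeries κ) = HahnSeries.ofPowerSeries ℤ κ P) : f ∈ v.toValuationSubring := by
  rw [hv, h]
  exact fun n hn => s44g_i_ofPS_coeff_neg P n hn

theorem s44g_i_rho_of_eq (f : ↥v.toValuationSubring) (P : PowerSeries κ)
    (h : ((f : F) : LaurentSeries κ) = HahnSeries.ofPowerSeries ℤ κ P) :
    s44g_i_rho v hv f = P := by
  apply HahnSeries.ofPowerSeries_injective (Γ := ℤ)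
  rw [s44g_i_rho_coe, h]

section Param

variable (s : ↥v.toValuationSubring) (u w : PowerSeries κ) (huw : u * w = 1)
  (hS : s44g_i_rho v hv s = PowerSeries.X * u)

include huw hS in
theorem s44g_i_s_ne_zero : s ≠ 0 := by
  intro h0
  rw [h0, map_zero] at hS
  have h1 : PowerSeries.X * (u * w) = (0 : PowerSeries κ) := by
    rw [← mul_assoc, ← hS, zero_mul]
  rw [huw, mul_one] at h1
  exact PowerSeries.X_ne_zero h1

include huw hS in
/-- **division by `s`** in `O_v`. -/
theorem s44g_i_hdiv (f : ↥v.toValuationSubring) (hf : s44g_i_ev v hv f = 0) :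
    ∃ g : ↥v.toValuationSubring, f = s * g := by
  have hs0 : s ≠ 0 := s44g_i_s_ne_zero v hv s u w huw hS
  have hs0' : ((s : F)) ≠ 0 := fun h => hs0 (Subtype.ext h)
  have hf' : PowerSeries.constantCoeff (s44g_i_rho v hv f) = 0 := hf
  obtain ⟨f₁, hf₁⟩ := PowerSeries.X_dvd_iff.mpr hf'
  -- the quotient has expansion `f₁ * w`
  have hq : (((f : F) * (s : F)⁻¹ : F) : LaurentSeries κ) =
      HahnSeries.ofPowerSeries ℤ κ (f₁ * w) := by
    have h1 : (((f : F) * (s : F)⁻¹ : F) : LaurentSeries κ) * ((s : F) : LaurentSeries κ) =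
        ((f : F) : LaurentSeries κ) := by
      rw [← IntermediateField.coe_mul, mul_assoc, inv_mul_cancel₀ hs0', mul_one]
    have hs' : ((s : F) : LaurentSeries κ) ≠ 0 := fun h => hs0' (Subtype.ext h)
    apply mul_right_cancel₀ hs'
    rw [h1, ← s44g_i_rho_coe v hv s, ← s44g_i_rho_coe v hv f, hS, ← map_mul]
    congr 1
    show s44g_i_rho v hv f = _
    rw [hf₁]
    calc PowerSeries.X * f₁ = PowerSeries.X * f₁ * (u * w) := by rw [huw, mul_one]
      _ = f₁ * w * (PowerSeries.X * u) := by ring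
  have hmem : (f : F) * (s : F)⁻¹ ∈ v.toValuationSubring := s44g_i_mem_of_eq v hv _ _ hq
  refine ⟨⟨(f : F) * (s : F)⁻¹, hmem⟩, Subtype.ext ?_⟩
  show (f : F) = (s : F) * ((f : F) * (s : F)⁻¹)
  rw [mul_comm (f : F), ← mul_assoc, mul_inv_cancel₀ hs0', one_mul]

include huw hS in
theorem s44g_i_ht (g : ↥v.toValuationSubring) (hg : s * g = 0) : g = 0 :=
  (mul_eq_zero.mp hg).resolve_left (s44g_i_s_ne_zero v hv s u w huw hS)

include hS in
theorem s44g_i_hevt : s44g_i_ev v hv s = 0 := by
  show PowerSeries.constantCoeff (s44g_i_rho v hv s) = 0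
  rw [hS, map_mul, PowerSeries.constantCoeff_X, zero_mul]

/-- **the `s`-adic expansion at `q = 0` is the re-expansion of the `q`-expansion in the parameter
`S = ρ(s)`**. -/
theorem s44g_i_eps_eq (hdiv : ∀ f : ↥v.toValuationSubring, s44g_i_ev v hv f = 0 → ∃ g, f = s * g)
    (ht : ∀ g : ↥v.toValuationSubring, s * g = 0 → g = 0) (hevt : s44g_i_ev v hv s = 0)
    (f : ↥v.toValuationSubring) :
    s44g_eps (s44g_i_ev v hv) s hdiv ht hevt f =
      s44g_e_psEps (s44g_i_rho v hv s) u w huw hS (s44g_i_rho v hv f) := by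
  have h := s44g_eps_natural (s44g_i_ev v hv) s hdiv ht hevt s44g_e_psEv (s44g_i_rho v hv s)
    (s44g_e_ps_hdiv _ u w huw hS) (s44g_e_ps_ht _ u w huw hS) (s44g_e_ps_hevt _ u hS)
    (RingHom.id κ) (s44g_i_rho v hv : ↥v.toValuationSubring →+* PowerSeries κ) rfl
    (fun c => (s44g_i_rho v hv).commutes c) f
  rw [PowerSeries.map_id] at h
  exact h

include huw hS in
/-- the same with the parameter series given up to equality. -/
theorem s44g_i_eps_eq' (S : PowerSeries κ) (hSu : S = PowerSeries.X * u)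
    (hρs : s44g_i_rho v hv s = S)
    (hdiv : ∀ f : ↥v.toValuationSubring, s44g_i_ev v hv f = 0 → ∃ g, f = s * g)
    (ht : ∀ g : ↥v.toValuationSubring, s * g = 0 → g = 0) (hevt : s44g_i_ev v hv s = 0)
    (f : ↥v.toValuationSubring) :
    s44g_eps (s44g_i_ev v hv) s hdiv ht hevt f =
      s44g_e_psEps S u w huw hSu (s44g_i_rho v hv f) := by
  subst hρs
  exact s44g_i_eps_eq v hv s u w huw hS hdiv ht hevt f

end Param

section Ord

include hv in
/-- the normalised order at `v` is the `q`-order (given one element of `q`-order `-1`). -/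
theorem s44g_i_ord (y₀ : F) (hy₀ : ((y₀ : F) : LaurentSeries κ).order = -1) {f : F} (hf : f ≠ 0) :
    v.ord f = ((f : F) : LaurentSeries κ).order := by
  have hcoe : ∀ g : F, g ≠ 0 → ((g : F) : LaurentSeries κ) ≠ 0 := fun g hg h => hg (Subtype.ext h)
  obtain ⟨m, hm, hmf⟩ := ff_ord_unique v (fun g : F => ((g : F) : LaurentSeries κ).order)
    (fun f g hf hg => by
      show ((f : LaurentSeries κ) * (g : LaurentSeries κ)).order = _
      exact HahnSeries.order_mul (hcoe f hf) (hcoe g hg))
    (fun g hg => by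
      rw [hv, HahnSeries.le_order_iff_forall (hcoe g hg)])
  have hy0 : y₀ ≠ 0 := by
    rintro rfl
    have : ((0 : F) : LaurentSeries κ).order = 0 := HahnSeries.order_zero
    rw [this] at hy₀
    omega
  have h1 := hmf y₀ hy0
  simp only [hy₀] at h1
  have hm1 : m = 1 := by
    have hd : m ∣ 1 := ⟨-v.ord y₀, by linarith⟩
    exact Int.eq_one_of_dvd_one hm.le hd
  have h2 := hmf f hf
  simp only [hm1, one_mul] at h2
  exact h2.symm

end Ord

section Value

variable [IsAlgClosed κ] (x : F) [FFGen κ x]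

include hv in
/-- over an algebraically closed field, the value map of S37 at `v` is the constant coefficient. -/
theorem s44g_i_pv_ev (f : ↥v.toValuationSubring) :
    s37pv_ev x v f = ((f : F) : LaurentSeries κ).coeff 0 := by
  set c := ((f : F) : LaurentSeries κ).coeff 0 with hc
  rw [s37pv_ev_coe_eq_iff]
  by_cases h0 : (f : F) = algebraMap κ F c
  · exact Or.inl h0
  · right
    have hne : (f : F) - algebraMap κ F c ≠ 0 := sub_ne_zero.mpr h0
    set g : ↥v.toValuationSubring := f - algebraMap κ ↥v.toValuationSubring c with hg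
    have hgcoe : (g : F) = (f : F) - algebraMap κ F c := rfl
    have hgne : (g : F) ≠ 0 := by rw [hgcoe]; exact hne
    rw [← hgcoe, ff_ord_pos_iff v hgne]
    refine ⟨g.2, fun hinv => ?_⟩
    have hev : s44g_i_ev v hv g = 0 := by
      rw [hg, map_sub, AlgHom.commutes, s44g_i_ev_apply, ← hc, Algebra.algebraMap_self,
        RingHom.id_apply, sub_self]
    have h1 : g * ⟨(g : F)⁻¹, hinv⟩ = 1 := Subtype.ext (mul_inv_cancel₀ hgne)
    have h2 := congrArg (s44g_i_ev v hv) h1
    rw [map_mul, hev, zero_mul, map_one] at h2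
    exact zero_ne_one h2

end Value

end Place

end Fermat.Agent.Lib.S44
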