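/-
M-AT-P programme (S44), wall W4′, brick [GR], piece **[GR-S]** (helper3): the expansion of `s = 1/j`.

`j(q) = q⁻¹ · jNum(q)` with `jNum ∈ 1 + q ℤ[[q]]`, so `1/j(q) = q · u(q)` with `u = jNum⁻¹ ∈ ℤ[[q]]ˣ`.

* `s44g_sU`, `s44g_sV`, `s44g_sS : PowerSeries ℤ` (`u`, `v = jNum`, `S = X u`), `s44g_sU_mul_sV : u v = 1`;
* over any commutative ring `R`: `s44g_sSer R`, `s44g_sUr R`, `s44g_sVr R : PowerSeries R` (images of the integer
  series), `s44g_sUr_mul_sVr`, `s44g_sSer_eq : S = X u`, `s44g_sSer_map` (base change),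
  **`s44g_s_jq_mul : jqModC R * ofPowerSeries ℤ R (S_R) = 1`**;
* at top level (`A ⊆ ℚ̄` a subring-like carrier, here any `ValuationSubring`):
  **`s44g_s_iota`** : `((jF M)⁻¹ : ℚ̄((q))) = coeffMap A.subtype (ofPowerSeries ℤ ↥A (S_A))`,
  **`s44g_s_Jb`** : `jqModC κ * ofPowerSeries ℤ κ (PowerSeries.map π (S_A)) = 1` for every `π : ↥A →+* κ`.
-/
import Fermat.Prelude.Def_ModularCurve_X0ModL
import Fermat.Prelude.Def_ModularCurve_ArithmeticGalois
import Fermat.Agent.Lib.S18.GAlpha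

set_option autoImplicit false
set_option linter.style.haveILetI false
set_option linter.unusedSectionVars false

noncomputable section

namespace Fermat.Agent.Lib.S44

open ModularCurve HahnSeries Fermat.Agent.Lib.S18

/-! ### Over `ℤ` -/

/-- `v = jNum = q · j(q) ∈ 1 + q ℤ[[q]]`. -/
def s44g_sV : PowerSeries ℤ := jNum

/-- `u = jNum⁻¹ ∈ ℤ[[q]]`. -/
def s44g_sU : PowerSeries ℤ := PowerSeries.invOfUnit jNum 1

/-- `S = q · u = 1/j(q)`. -/
def s44g_sS : PowerSeries ℤ := PowerSeries.X * s44g_sU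

theorem s44g_sV_mul_sU : s44g_sV * s44g_sU = 1 :=
  PowerSeries.mul_invOfUnit jNum 1 (by rw [constantCoeff_jNum]; rfl)

theorem s44g_sU_mul_sV : s44g_sU * s44g_sV = 1 := by
  rw [mul_comm]; exact s44g_sV_mul_sU

/-! ### Over any commutative ring -/

section Ring

variable (R : Type*) [CommRing R]

/-- `S`, `u`, `v` over `R`. -/
def s44g_sSer : PowerSeries R := PowerSeries.map (Int.castRingHom R) s44g_sS
def s44g_sUr : PowerSeries R := PowerSeries.map (Int.castRingHom R) s44g_sU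
def s44g_sVr : PowerSeries R := PowerSeries.map (Int.castRingHom R) s44g_sV

theorem s44g_sUr_mul_sVr : s44g_sUr R * s44g_sVr R = 1 := by
  unfold s44g_sUr s44g_sVr
  rw [← map_mul, s44g_sU_mul_sV, map_one]

theorem s44g_sVr_mul_sUr : s44g_sVr R * s44g_sUr R = 1 := by
  rw [mul_comm]; exact s44g_sUr_mul_sVr R

theorem s44g_sSer_eq : s44g_sSer R = PowerSeries.X * s44g_sUr R := by
  unfold s44g_sSer s44g_sUr s44g_sS
  rw [map_mul, PowerSeries.map_X]

variable {R} in
/-- base change. -/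
theorem s44g_sSer_map {S : Type*} [CommRing S] (f : R →+* S) :
    PowerSeries.map f (s44g_sSer R) = s44g_sSer S := by
  unfold s44g_sSer
  rw [← RingHom.comp_apply (PowerSeries.map f) (PowerSeries.map (Int.castRingHom R)),
    ← PowerSeries.map_comp, RingHom.ext_int (f.comp (Int.castRingHom R)) (Int.castRingHom S)]

variable {R} in
theorem s44g_sUr_map {S : Type*} [CommRing S] (f : R →+* S) :
    PowerSeries.map f (s44g_sUr R) = s44g_sUr S := by
  unfold s44g_sUr
  rw [← RingHom.comp_apply (PowerSeries.map f) (PowerSeries.map (Int.castRingHom R)),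
    ← PowerSeries.map_comp, RingHom.ext_int (f.comp (Int.castRingHom R)) (Int.castRingHom S)]

variable {R} in
theorem s44g_sVr_map {S : Type*} [CommRing S] (f : R →+* S) :
    PowerSeries.map f (s44g_sVr R) = s44g_sVr S := by
  unfold s44g_sVr
  rw [← RingHom.comp_apply (PowerSeries.map f) (PowerSeries.map (Int.castRingHom R)),
    ← PowerSeries.map_comp, RingHom.ext_int (f.comp (Int.castRingHom R)) (Int.castRingHom S)]

/-- **`j(q) · S(q) = 1`** over any commutative ring. -/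
theorem s44g_s_jq_mul :
    jqModC R * HahnSeries.ofPowerSeries ℤ R (s44g_sSer R) = 1 := by
  have hX : HahnSeries.ofPowerSeries ℤ R (PowerSeries.X : PowerSeries R) =
      HahnSeries.single (1 : ℤ) (1 : R) := by
    rw [HahnSeries.ofPowerSeries_X]
  have hv : jNum.map (Int.castRingHom R) = s44g_sVr R := rfl
  rw [jqModC, hv, s44g_sSer_eq, map_mul, hX]
  calc HahnSeries.single (-1 : ℤ) (1 : R) * HahnSeries.ofPowerSeries ℤ R (s44g_sVr R) *
        (HahnSeries.single (1 : ℤ) (1 : R) * HahnSeries.ofPowerSeries ℤ R (s44g_sUr R))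
      = (HahnSeries.single (-1 : ℤ) (1 : R) * HahnSeries.single (1 : ℤ) (1 : R)) *
          (HahnSeries.ofPowerSeries ℤ R (s44g_sVr R) *
            HahnSeries.ofPowerSeries ℤ R (s44g_sUr R)) := by ring
    _ = 1 := by
      have h1 : HahnSeries.ofPowerSeries ℤ R (s44g_sVr R) *
          HahnSeries.ofPowerSeries ℤ R (s44g_sUr R) = 1 := by
        rw [← map_mul, s44g_sVr_mul_sUr]
        exact map_one (HahnSeries.ofPowerSeries ℤ R)
      have h2 : HahnSeries.single (-1 : ℤ) (1 : R) * HahnSeries.single (1 : ℤ) (1 : R) = 1 := by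
        rw [HahnSeries.single_mul_single, mul_one]
        rfl
      rw [h1, h2, mul_one]

theorem s44g_s_mul_jq :
    HahnSeries.ofPowerSeries ℤ R (s44g_sSer R) * jqModC R = 1 := by
  rw [mul_comm]; exact s44g_s_jq_mul R

end Ring

/-! ### At top level -/

section Top

local notation "Qbar" => AlgebraicClosure ℚ

variable (A : ValuationSubring Qbar) (M : ℕ)

/-- **the expansion of `s = j⁻¹`** is the `A`-integral power series `S = q u`. -/
theorem s44g_s_iota :
    (((s18g_jF (K := Qbar) M)⁻¹ : ↥(modularFunctionFieldBar M)) : LaurentSeries Qbar) =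
      coeffMap A.subtype (HahnSeries.ofPowerSeries ℤ ↥A (s44g_sSer ↥A)) := by
  rw [coeffMap_ofPowerSeries, s44g_sSer_map]
  have h1 : (((s18g_jF (K := Qbar) M)⁻¹ : ↥(modularFunctionFieldBar M)) : LaurentSeries Qbar) =
      (jqModC Qbar)⁻¹ := by
    rw [IntermediateField.coe_inv, s18g_coe_jF]
  rw [h1]
  exact inv_eq_of_mul_eq_one_right (s44g_s_jq_mul Qbar)

/-- the reduction of `S` is the inverse of `j̄(q)`. -/
theorem s44g_s_Jb {κ : Type*} [CommRing κ] (π : ↥A →+* κ) :
    jqModC κ * HahnSeries.ofPowerSeries ℤ κ (PowerSeries.map π (s44g_sSer ↥A)) = 1 := by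
  rw [s44g_sSer_map]
  exact s44g_s_jq_mul κ

/-- **[GR-S], packaged**: the data `Sser u v` of (A3)/(A4)/`GTopW` and `Jb = j̄(q)` of `GTrans`. -/
theorem s44g_s_package {κ : Type*} [CommRing κ] (π : ↥A →+* κ) :
    ∃ Sser u v : PowerSeries ↥A, u * v = 1 ∧ Sser = PowerSeries.X * u ∧
      (((s18g_jF (K := Qbar) M)⁻¹ : ↥(modularFunctionFieldBar M)) : LaurentSeries Qbar) =
        coeffMap A.subtype (HahnSeries.ofPowerSeries ℤ ↥A Sser) ∧
      jqModC κ * HahnSeries.ofPowerSeries ℤ κ (PowerSeries.map π Sser) = 1 :=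
  ⟨s44g_sSer ↥A, s44g_sUr ↥A, s44g_sVr ↥A, s44g_sUr_mul_sVr ↥A, s44g_sSer_eq ↥A,
    s44g_s_iota A M, s44g_s_Jb A π⟩

end Top

end Fermat.Agent.Lib.S44
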