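/-
M-AT-P programme (S44), wall W2 [EIS/THICK] (helper8, prefix `s44e_`), part 1:
THE MODULAR UNIT OVER `Q̄`, at a level WITHOUT ELLIPTIC POINTS.

`F̄ = ffi_F (M q)`, `j = ffd_jBar (M q)`, `j_q = β̄ j = j(T^q)`, `h` the function with
`d j_q = h • d j`.  The function

  `g₀ = h⁶ · j⁴ (j - 1728)³ / (j_q⁴ (j_q - 1728)³)`      (`= q⁶ Δ(q z)/Δ(z)`)

has NEITHER ZERO NOR POLE at the places at which `j` is regular, as soon as `ν₂(M) = ν₃(M) = 0`
(`s44e_unit_ord_bar`, in the additive form `6 ord h + 4 ord j + 3 ord (j - 1728) - … = 0`).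

Proof: at a place with centre `c` the order `e` of `j - c` is `3, 2, 1` for `c = 0`, `c = 1728`,
other `c` (`s36u_ord_j_sub`), so `6 e - 4 ord j - 3 ord (j - 1728) = 6` in all three cases
(`s44e_weight`); the same holds for `j_q` by the Atkin–Lehner transport of places
(`s36e_exists_al_place`), and `ord h = e(j_q) - e(j)` (`s36e_ord_ratio_D`).
-/
import Fermat.Agent.Lib.S36.REisTheta
import Fermat.Agent.Lib.S37.LLevel

set_option autoImplicit false
set_option linter.unusedSectionVars false
set_option linter.style.haveILetI false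
set_option synthInstance.maxHeartbeats 200000

noncomputable section

namespace Fermat.Agent.Lib.S44

open AlgebraicCurve ModularCurve KaehlerDifferential
open Fermat.Agent.Lib.FF Fermat.Agent.Lib.S18 Fermat.Agent.Lib.S37 Fermat.Agent.Lib.S36

local notation "Kb" => AlgebraicClosure ℚ

section General

variable {K F : Type*} [Field K] [Field F] [Algebra K F] [CharZero K] [DecidableEq K]

/-- **The local weight of a `j`-type function**: if `e = ord_v (x - c)` is `3, 2, 1` for `c = 0`,
`c = 1728`, other `c`, then `6 e - 4 ord_v x - 3 ord_v (x - 1728) = 6`. -/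
theorem s44e_weight (v : Place K F) {x : F} {c : K}
    (he : v.ord (x - algebraMap K F c) = if c = 0 then 3 else if c = 1728 then 2 else 1) :
    6 * v.ord (x - algebraMap K F c) - 4 * v.ord x - 3 * v.ord (x - algebraMap K F 1728) = 6 := by
  have h1728 : (1728 : K) ≠ 0 := by norm_num
  by_cases hc0 : c = 0
  · subst hc0
    rw [if_pos rfl] at he
    rw [map_zero, sub_zero] at he ⊢
    have h1 : v.ord (x - algebraMap K F 1728) = 0 := by
      have hneg : (-1728 : K) ≠ 0 := neg_ne_zero.mpr h1728
      refine s36e_ord_eq_zero_of_centre v hneg ?_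
      rw [map_neg, sub_neg_eq_add, sub_add_cancel, he]
      norm_num
    rw [he, h1]
    norm_num
  · rw [if_neg hc0] at he
    by_cases hc1 : c = 1728
    · subst hc1
      rw [if_pos rfl] at he
      have h0 : v.ord x = 0 :=
        s36e_ord_eq_zero_of_centre v h1728 (by rw [he]; norm_num)
      rw [he, h0]
      norm_num
    · rw [if_neg hc1] at he
      have h0 : v.ord x = 0 := s36e_ord_eq_zero_of_centre v hc0 (by rw [he]; norm_num)
      have h1 : v.ord (x - algebraMap K F 1728) = 0 := by
        have hne : c - 1728 ≠ 0 := sub_ne_zero.mpr hc1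
        refine s36e_ord_eq_zero_of_centre v hne ?_
        have e : x - algebraMap K F 1728 - algebraMap K F (c - 1728) = x - algebraMap K F c := by
          rw [map_sub]; ring
        rw [e, he]
        norm_num
      rw [he, h0, h1]
      norm_num

end General

section Modular

variable (M q : ℕ) [NeZero M] [NeZero q]

/-- **The modular unit has neither zero nor pole where `j` is regular** (level `M q` over `Q̄`,
`ν₂(M) = ν₃(M) = 0`), additive form. -/
theorem s44e_unit_ord_bar (hq : q.Prime) (hqM : ¬ q ∣ M) (h2 : nuTwo M = 0) (h3 : nuThree M = 0)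
    (h : ffi_F (M * q)) (hh : h ≠ 0)
    (hrel : D Kb (ffi_F (M * q)) (heckeBetaBar Kb M q (ffd_jBar M)) =
      h • D Kb (ffi_F (M * q)) (ffd_jBar (M * q)))
    (v : Place Kb (ffi_F (M * q))) (hreg : 0 ≤ v.ord (ffd_jBar (M * q))) :
    6 * v.ord h + 4 * v.ord (ffd_jBar (M * q)) +
        3 * v.ord (ffd_jBar (M * q) - algebraMap Kb (ffi_F (M * q)) 1728) -
        4 * v.ord (heckeBetaBar Kb M q (ffd_jBar M)) -
        3 * v.ord (heckeBetaBar Kb M q (ffd_jBar M) - algebraMap Kb (ffi_F (M * q)) 1728) = 0 := by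
  set jA : ffi_F (M * q) := ffd_jBar (M * q) with hjA
  set jB : ffi_F (M * q) := heckeBetaBar Kb M q (ffd_jBar M) with hjB
  have hgen : FFGen ffi_K (ffd_jBar (M * q)) := s18r_ffGen (M * q)
  obtain ⟨hEFT, hres⟩ := ff_ifaceLocal ffi_K (ffd_jBar (M * q)) v
  haveI := hEFT
  haveI : Nontrivial Ω[ffi_F (M * q)⁄Kb] := ⟨⟨_, 0, ffd_D_jBar_ne_zero (M * q)⟩⟩
  have h2' := s36u_nuTwo_mul M q h2
  have h3' := s36u_nuThree_mul M q h3
  obtain ⟨v₁, hv₁⟩ := s36e_exists_al_place M q hq hqM v
  have hwA : s37w_al M q hq hqM jA = jB := by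
    rw [hjA, ← s36u_alpha_jBar M q, s37w_al_alpha]
  have hwB : s37w_al M q hq hqM jB = jA := by
    rw [hjB, s37w_al_beta, s36u_alpha_jBar]
  have hv₁A : v₁.ord jA = v.ord jB := by rw [← hv₁, hwA]
  have hv₁B : v₁.ord jB = v.ord jA := by rw [← hv₁, hwB]
  rcases ff_ifaceCentre ffi_K (ffd_jBar (M * q)) v with ⟨c, hc⟩ | hpole
  · have heA := s36u_ord_j_sub (M * q) h2' h3' v c hc
    -- `j_q` is regular at `v`
    have hBreg : ¬ v.ord jB < 0 := by
      intro hneg
      have h1 : v₁.ord jA < 0 := by rw [hv₁A]; exact hneg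
      have h4 := (s36u_cusp_type M q hq hqM v₁ h1).2
      have h5 : v₁.ord jB < 0 := by
        rw [← hjB, ← hjA] at h4
        have hqpos : (0 : ℤ) < q := by exact_mod_cast (NeZero.pos q)
        nlinarith
      rw [hv₁B] at h5
      exact absurd hreg (not_le.mpr h5)
    rcases ff_ifaceCentre ffi_K (ffd_jBar (M * q)) v₁ with ⟨c', hc'⟩ | hpole'
    · have hc'v : v.ord (jB - algebraMap Kb (ffi_F (M * q)) c') =
          v₁.ord (jA - algebraMap Kb (ffi_F (M * q)) c') := by
        rw [← hv₁, map_sub, hwA, AlgEquiv.commutes]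
      have heB' := s36u_ord_j_sub (M * q) h2' h3' v₁ c' hc'
      have heB : v.ord (jB - algebraMap Kb (ffi_F (M * q)) c') =
          if c' = 0 then 3 else if c' = 1728 then 2 else 1 := by
        rw [hc'v]; exact heB'
      have hposB : 0 < v.ord (jB - algebraMap Kb (ffi_F (M * q)) c') := by
        rw [hc'v]; exact hc'
      have hrel' : D Kb (ffi_F (M * q)) (jB - algebraMap Kb (ffi_F (M * q)) c') =
          h • D Kb (ffi_F (M * q)) (jA - algebraMap Kb (ffi_F (M * q)) c) := by
        rw [ffd_D_sub_algebraMap, ffd_D_sub_algebraMap]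
        exact hrel
      have hordh := s36e_ord_ratio_D v hres hrel' hh (ne_of_gt hposB) (ne_of_gt hc)
      have wA := s44e_weight v heA
      have wB := s44e_weight v heB
      linarith
    · exfalso
      rw [hv₁A] at hpole'
      exact hBreg hpole'
  · exact absurd hreg (not_le.mpr hpole)

end Modular

end Fermat.Agent.Lib.S44
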