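/-
M-AT-P programme (S44), wall W2 [EIS/THICK] (helper8, prefix `s44e_`), part 2:
THE MODULAR UNIT OVER `Q̄` AT AN ARBITRARY LEVEL `M p` (`p` prime, `p ∤ M`, `5 ≤ p`).

The elliptic points are dodged by RAISING THE LEVEL `M → 36 M` (`ν₂(36 M) = ν₃(36 M) = 0`): the
function `g₀` is the same Laurent series at level `36 M p`, every place of `F̄(M p)` extends to
`F̄(36 M p)` (`s44e_exists_place_above`, from the fundamental identity `∑ e f = n`), and orders
upstairs are `e` times orders downstairs.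

* `s44e_nuTwo_36`, `s44e_nuThree_36` : `ν₂(36 M) = ν₃(36 M) = 0`;
* `s44e_exists_place_above` : places extend along `F̄(N) ⊆ F̄(N')`, `N ∣ N'`;
* **`s44e_unit_ord_bar_gen`** : `6 ord h + 4 ord j + 3 ord (j - 1728) - 4 ord j_p - 3 ord (j_p - 1728) = 0`
  at every place of `F̄(M p)` at which `j` is regular.
-/
import Fermat.Agent.Lib.S44.EUnitBar
import Fermat.Agent.Lib.S36.RKmap

set_option autoImplicit false
set_option linter.unusedSectionVars false
set_option linter.style.haveILetI false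
set_option synthInstance.maxHeartbeats 200000

noncomputable section

namespace Fermat.Agent.Lib.S44

open AlgebraicCurve ModularCurve KaehlerDifferential
open Fermat.Agent.Lib.FF Fermat.Agent.Lib.S18 Fermat.Agent.Lib.S37 Fermat.Agent.Lib.S36

local notation "Kb" => AlgebraicClosure ℚ

/-! ### `ν₂(36 M) = ν₃(36 M) = 0` -/

theorem s44e_nuTwo_four : nuTwo 4 = 0 := by
  rw [nuTwo]
  haveI : IsEmpty {x : ZMod 4 // x ^ 2 + 1 = 0} := ⟨fun ⟨x, hx⟩ => by revert x; decide⟩
  exact Nat.card_of_isEmpty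

theorem s44e_nuThree_nine : nuThree 9 = 0 := by
  rw [nuThree]
  haveI : IsEmpty {x : ZMod 9 // x ^ 2 + x + 1 = 0} := ⟨fun ⟨x, hx⟩ => by revert x; decide⟩
  exact Nat.card_of_isEmpty

theorem s44e_nuTwo_36 (M : ℕ) : nuTwo (36 * M) = 0 := by
  have e : 36 * M = 4 * (9 * M) := by ring
  rw [e]
  exact s36u_nuTwo_mul 4 (9 * M) s44e_nuTwo_four

theorem s44e_nuThree_36 (M : ℕ) : nuThree (36 * M) = 0 := by
  have e : 36 * M = 9 * (4 * M) := by ring
  rw [e]
  exact s36u_nuThree_mul 9 (4 * M) s44e_nuThree_nine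

/-! ### Extension of places -/

section Places

variable (N N' : ℕ) [NeZero N] [NeZero N']

/-- Every place of `F̄(N)` is the restriction of a place of `F̄(N')` along any (finite)
`Q̄`-embedding. -/
theorem s44e_exists_place_above (φ : ffi_F N →ₐ[Kb] ffi_F N') (v : Place Kb (ffi_F N)) :
    ∃ (hφ : φ.toRingHom.IsIntegral) (W : Place Kb (ffi_F N')), W.restrictAlong φ hφ = v := by
  have hfin : FiniteAlong Kb φ := s36w_finiteAlong φ
  have hφ : φ.toRingHom.IsIntegral := s37h_isIntegral_of_finiteAlong φ hfin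
  refine ⟨hφ, ?_⟩
  have hsum := s37l_sum_e_f φ hφ hfin v
  have hpos : 0 < finrankAlong Kb φ := by
    letI := algebraAlong φ
    haveI : Module.Finite (ffi_F N) (ffi_F N') := hfin
    exact Module.finrank_pos
  by_contra hcon
  push Not at hcon
  have hempty : Place.fiberAlong φ hφ v = ∅ := by
    rw [Finset.eq_empty_iff_forall_notMem]
    intro W hW
    exact hcon W (Place.mem_fiberAlong.mp hW)
  rw [hempty, Finset.sum_empty] at hsum
  have : (0 : ℤ) < (finrankAlong Kb φ : ℕ) := by exact_mod_cast hpos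
  omega

end Places

/-! ### The unit at level `M p` -/

section Level

variable (M p : ℕ) [NeZero M] [NeZero p]

theorem s44e_dvd_level : M * p ∣ 36 * M * p := ⟨36, by ring⟩

/-- **The modular unit has neither zero nor pole where `j` is regular**, level `M p` over `Q̄`,
any `M` prime to the prime `p`. -/
theorem s44e_unit_ord_bar_gen (hp : p.Prime) (hpM : ¬ p ∣ M) (hp5 : 5 ≤ p)
    (h : ffi_F (M * p)) (hh : h ≠ 0)
    (hrel : D Kb (ffi_F (M * p)) (heckeBetaBar Kb M p (ffd_jBar M)) =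
      h • D Kb (ffi_F (M * p)) (ffd_jBar (M * p)))
    (v : Place Kb (ffi_F (M * p))) (hreg : 0 ≤ v.ord (ffd_jBar (M * p))) :
    6 * v.ord h + 4 * v.ord (ffd_jBar (M * p)) +
        3 * v.ord (ffd_jBar (M * p) - algebraMap Kb (ffi_F (M * p)) 1728) -
        4 * v.ord (heckeBetaBar Kb M p (ffd_jBar M)) -
        3 * v.ord (heckeBetaBar Kb M p (ffd_jBar M) - algebraMap Kb (ffi_F (M * p)) 1728) = 0 := by
  have hpM' : ¬ p ∣ 36 * M := by
    intro hd
    rcases (Nat.Prime.dvd_mul hp).mp hd with h36 | hM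
    · have hle : p ≤ 36 := Nat.le_of_dvd (by norm_num) h36
      have h36' : p ∣ 2 ^ 2 * 3 ^ 2 := by norm_num; exact h36
      rcases (Nat.Prime.dvd_mul hp).mp h36' with h2 | h3
      · have := (Nat.prime_dvd_prime_iff_eq hp Nat.prime_two).mp (hp.dvd_of_dvd_pow h2)
        omega
      · have := (Nat.prime_dvd_prime_iff_eq hp Nat.prime_three).mp (hp.dvd_of_dvd_pow h3)
        omega
    · exact hpM hM
  set ι : ffi_F (M * p) →ₐ[Kb] ffi_F (36 * M * p) :=
    s37l_incl (M * p) (36 * M * p) (s44e_dvd_level M p) with hι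
  obtain ⟨hιint, W, hW⟩ := s44e_exists_place_above (M * p) (36 * M * p) ι v
  set e : ℕ := Place.ramificationIndexAlong ι W with he
  have hepos : 0 < e := s36u_ramIdx_pos ι hιint W
  have hord : ∀ f : ffi_F (M * p), W.ord (ι f) = (e : ℤ) * v.ord f := by
    intro f
    have := Place.ord_restrictAlong ι hιint W f
    rw [hW] at this
    exact this
  have hιA : ι (ffd_jBar (M * p)) = ffd_jBar (36 * M * p) := by
    apply Subtype.ext
    rw [hι, s37l_coe_incl, ffd_jBar_coe, ffd_jBar_coe]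
  have hιB : ι (heckeBetaBar Kb M p (ffd_jBar M)) =
      heckeBetaBar Kb (36 * M) p (ffd_jBar (36 * M)) := by
    apply Subtype.ext
    rw [hι, s37l_coe_incl, coe_heckeBetaBar, coe_heckeBetaBar, ffd_jBar_coe, ffd_jBar_coe]
  have hιc : ∀ c : Kb, ι (algebraMap Kb (ffi_F (M * p)) c) =
      algebraMap Kb (ffi_F (36 * M * p)) c := fun c => ι.commutes c
  have hrel' := s36r_D_map (RingHom.id Kb) (ι : ffi_F (M * p) →+* ffi_F (36 * M * p))
    (fun a => ι.commutes a) hrel
  simp only [RingHom.coe_coe] at hrel'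
  rw [hιA, hιB] at hrel'
  have hh' : ι h ≠ 0 := (map_ne_zero _).mpr hh
  have hreg' : 0 ≤ W.ord (ffd_jBar (36 * M * p)) := by
    rw [← hιA, hord]
    positivity
  have key := s44e_unit_ord_bar (36 * M) p hp hpM' (s44e_nuTwo_36 M) (s44e_nuThree_36 M)
    (ι h) hh' hrel' W hreg'
  rw [← hιA, ← hιB, ← hιc, ← map_sub, ← map_sub, hord, hord, hord, hord, hord] at key
  have hepos' : (0 : ℤ) < e := by exact_mod_cast hepos
  have : (e : ℤ) * (6 * v.ord h + 4 * v.ord (ffd_jBar (M * p)) +
        3 * v.ord (ffd_jBar (M * p) - algebraMap Kb (ffi_F (M * p)) 1728) -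
        4 * v.ord (heckeBetaBar Kb M p (ffd_jBar M)) -
        3 * v.ord (heckeBetaBar Kb M p (ffd_jBar M) - algebraMap Kb (ffi_F (M * p)) 1728)) = 0 := by
    linarith
  rcases mul_eq_zero.mp this with h0 | h0
  · omega
  · exact h0

end Level

end Fermat.Agent.Lib.S44
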