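/-
M-AT-P programme (S44), wall W4′, brick [RIEMANN-K] (helper4, prefix `s44rk_`), part 1: RESIDUE DEGREES AND THE
FUNDAMENTAL IDENTITY over an ARBITRARY constant field of characteristic zero.

`K` any field of characteristic `0`, `F / K` with `[FFGen K x]`, `B = ffB K x` the integral closure of `K[x]`.
* `s44rk_finrank_residue` : `[κ(v) : K] = [B / w : K]` for `w = ff_primeOf v hx` (`O_v = B_w`);
* `s44rk_deg_placeOf`     : for a prime `w` of `B` over `(x)`: `(ff_placeOf K x w).deg = inertiaDeg' (x) w`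
  (`K[x]/(x) = K`), and the residue field is finite over `K`;
* **`s44rk_fibreSum`**    : `∑_{v, ord_v x > 0} ord_v x · deg v = [F : K(x)]` (no `IsAlgClosed`);
* `s44rk_fibreSum_poles`  : the same for the poles of `x`.
-/
import Fermat.Agent.Lib.FF.FFBasicIdentity

set_option autoImplicit false
set_option linter.style.haveILetI false
set_option linter.unusedSectionVars false

noncomputable section

open IsDedekindDomain WithZero IsLocalRing AlgebraicCurve IntermediateField Polynomial
  Fermat.Agent.Lib.FF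
open scoped IntermediateField.algebraAdjoinAdjoin

namespace Fermat.Agent.Lib.S44

variable {K F : Type*} [Field K] [Field F] [Algebra K F]
variable {x : F} [FFGen K x] [CharZero K]

/-- the prime of `B` cut out by `ff_placeOf w` is `w`. -/
theorem s44rk_primeOf_placeOf (w : HeightOneSpectrum (ffB K x)) :
    ff_primeOf (ff_placeOf K x w) (ff_x_mem_placeOf w) = w :=
  ff_placeOf_injective (ff_placeOf_primeOf _ _)

/-- `[κ(v) : K] = [B / w : K]`. -/
theorem s44rk_finrank_residue (v : Place K F) (hx : x ∈ v.toValuationSubring) :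
    Module.finrank K v.ResidueField =
      Module.finrank K (ffB K x ⧸ (ff_primeOf v hx).asIdeal) := by
  letI := ff_algebraBO v hx
  haveI : (ff_primeOf v hx).asIdeal.IsMaximal := (ff_primeOf v hx).isMaximal
  haveI : IsLocalization.AtPrime v.toValuationSubring (ff_primeOf v hx).asIdeal :=
    ff_isLocalization v hx
  let e : (ffB K x ⧸ (ff_primeOf v hx).asIdeal) ≃+* v.ResidueField :=
    IsLocalization.AtPrime.equivQuotMaximalIdeal (ff_primeOf v hx).asIdeal v.toValuationSubring
  symm
  refine Algebra.finrank_eq_of_equiv_equiv (RingEquiv.refl K) e ?_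
  ext c
  rfl

/-- `K → K[x]/(x)` is bijective. -/
theorem s44rk_bijective_quot :
    Function.Bijective (algebraMap K (ffA K x ⧸ ffP K x)) := by
  refine ⟨(algebraMap K (ffA K x ⧸ ffP K x)).injective, fun y => ?_⟩
  obtain ⟨a, rfl⟩ := Ideal.Quotient.mk_surjective y
  obtain ⟨c, hc⟩ := ffA_exists_const a
  refine ⟨c, ?_⟩
  rw [IsScalarTower.algebraMap_apply K (ffA K x) (ffA K x ⧸ ffP K x)]
  symm
  exact Ideal.Quotient.eq.mpr hc

/-- for a prime `P` of `B` over `(x)`: `[B / P : K] = inertiaDeg' (x) P`. -/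
theorem s44rk_finrank_quot (P : Ideal (ffB K x)) [P.IsPrime] [P.LiesOver (ffP K x)] :
    Module.finrank K (ffB K x ⧸ P) = Ideal.inertiaDeg' (ffP K x) P := by
  rw [Ideal.inertiaDeg'_algebraMap]
  let i : K ≃+* (ffA K x ⧸ ffP K x) :=
    RingEquiv.ofBijective (algebraMap K (ffA K x ⧸ ffP K x)) s44rk_bijective_quot
  refine Algebra.finrank_eq_of_equiv_equiv i (RingEquiv.refl _) ?_
  ext c
  exact (IsScalarTower.algebraMap_apply K (ffA K x ⧸ ffP K x) (ffB K x ⧸ P) c).symm

/-- the degree of the place of a prime over `(x)` is the inertia degree. -/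
theorem s44rk_deg_placeOf (w : HeightOneSpectrum (ffB K x)) [w.asIdeal.LiesOver (ffP K x)] :
    (ff_placeOf K x w).deg = Ideal.inertiaDeg' (ffP K x) w.asIdeal := by
  have h := s44rk_finrank_residue (ff_placeOf K x w) (ff_x_mem_placeOf w)
  rw [s44rk_primeOf_placeOf] at h
  rw [Place.deg, h, s44rk_finrank_quot]

/-- the residue field of the place of a prime over `(x)` is finite over `K`. -/
theorem s44rk_finite_residue_placeOf (w : HeightOneSpectrum (ffB K x))
    [w.asIdeal.LiesOver (ffP K x)] : Module.Finite K (ff_placeOf K x w).ResidueField := by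
  apply Module.finite_of_finrank_pos
  have h : 0 < (ff_placeOf K x w).deg := by
    rw [s44rk_deg_placeOf]
    exact Ideal.inertiaDeg'_pos (ffP K x) w.asIdeal
  exact h

variable (K x) in
/-- **the fundamental identity for the zeros of `x`**, arbitrary constant field of characteristic zero. -/
theorem s44rk_fibreSum : ∃ P : Finset (Place K F),
    (∀ v, v ∈ P ↔ 0 < v.ord x) ∧ (∀ v ∈ P, Module.Finite K v.ResidueField) ∧
      ∑ v ∈ P, v.ord x * (v.deg : ℤ) = Module.finrank K⟮x⟯ F := by
  classical
  set S := IsDedekindDomain.primesOverFinset (ffP K x) (ffB K x) with hS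
  have hmem : ∀ P : Ideal (ffB K x), P ∈ S ↔ P ∈ Ideal.primesOver (ffP K x) (ffB K x) :=
    fun P => IsDedekindDomain.mem_primesOverFinset_iff (A := ffA K x) (p := ffP K x)
      (ffP_ne_bot (K := K) (x := x)) (ffB K x)
  have hprime : ∀ P : {P // P ∈ S}, P.1.IsPrime := fun P => ((hmem P.1).mp P.2).1
  have hlies : ∀ P : {P // P ∈ S}, P.1.LiesOver (ffP K x) := fun P => ((hmem P.1).mp P.2).2
  have hnebot : ∀ P : {P // P ∈ S}, P.1 ≠ ⊥ := fun P h => by
    haveI := hlies P
    have h1 := ff_mem_of_liesOver (K := K) (x := x) P.1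
    rw [h, Ideal.mem_bot] at h1
    exact ffXB_ne_zero (K := K) (x := x) h1
  let φ : {P // P ∈ S} → HeightOneSpectrum (ffB K x) := fun P => ⟨P.1, hprime P, hnebot P⟩
  have hφinj : Function.Injective φ := by
    intro P Q h
    apply Subtype.ext
    exact congrArg HeightOneSpectrum.asIdeal h
  have hφlies : ∀ P : {P // P ∈ S}, (φ P).asIdeal.LiesOver (ffP K x) := fun P => hlies P
  refine ⟨S.attach.image (fun P => ff_placeOf K x (φ P)), ?_, ?_, ?_⟩
  · intro v
    rw [Finset.mem_image]
    constructor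
    · rintro ⟨P, _, rfl⟩
      rw [ff_ord_x_pos_iff]
      haveI := hlies P
      exact ff_mem_of_liesOver P.1
    · intro hv
      have hx0 : x ≠ 0 := by
        have := ff_sub_ne_zero (K := K) (x := x) 0
        simpa using this
      have hx : x ∈ v.toValuationSubring := (ff_mem_iff_ord_nonneg v hx0).mpr hv.le
      set w := ff_primeOf v hx with hw
      have hvw : ff_placeOf K x w = v := ff_placeOf_primeOf v hx
      have hxw : ffXB K x ∈ w.asIdeal := by
        rw [← ff_ord_x_pos_iff, hvw]; exact hv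
      have hwS : w.asIdeal ∈ S := by
        rw [hmem]
        exact ⟨w.isPrime, ff_liesOver_of_mem w hxw⟩
      refine ⟨⟨w.asIdeal, hwS⟩, Finset.mem_attach _ _, ?_⟩
      rw [← hvw]
  · intro v hv
    rw [Finset.mem_image] at hv
    obtain ⟨P, _, rfl⟩ := hv
    haveI := hφlies P
    exact s44rk_finite_residue_placeOf (φ P)
  · rw [Finset.sum_image (fun P _ Q _ h => hφinj (ff_placeOf_injective h))]
    have h1 : ∀ P ∈ S.attach, (ff_placeOf K x (φ P)).ord x * ((ff_placeOf K x (φ P)).deg : ℤ) =
        ((Ideal.ramificationIdx' (ffP K x) P.1 * Ideal.inertiaDeg' (ffP K x) P.1 : ℕ) : ℤ) := by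
      intro P _
      haveI := hprime P
      haveI := hφlies P
      rw [s44rk_deg_placeOf (φ P), ← ff_ramificationIdx_eq (φ P)]
      push_cast
      rfl
    rw [Finset.sum_congr rfl h1, ← Nat.cast_sum,
      Finset.sum_attach S (fun P => Ideal.ramificationIdx' (ffP K x) P * Ideal.inertiaDeg' (ffP K x) P)]
    congr 1
    exact Ideal.sum_ramification_inertia (R := ffA K x) (ffB K x) K⟮x⟯ F (p := ffP K x)
      (ffP_ne_bot (K := K) (x := x))

variable (K) (x : F) [FFGen K x] in
/-- **the fundamental identity for the poles of `x`.** -/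
theorem s44rk_fibreSum_poles : ∃ P : Finset (Place K F),
    (∀ v, v ∈ P ↔ v.ord x < 0) ∧ (∀ v ∈ P, Module.Finite K v.ResidueField) ∧
      ∑ v ∈ P, -(v.ord x) * (v.deg : ℤ) = Module.finrank K⟮x⟯ F := by
  obtain ⟨P, h1, hfin, h2⟩ := s44rk_fibreSum K x⁻¹
  refine ⟨P, fun v => ?_, hfin, ?_⟩
  · rw [h1, v.ord_inv]; omega
  · rw [ff_adjoin_inv] at h2
    rw [← h2]
    exact Finset.sum_congr rfl (fun v _ => by rw [v.ord_inv])

end Fermat.Agent.Lib.S44
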