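/-
M-AT-P programme (S44), wall W4′, brick [RIEMANN-K] (helper4, prefix `s44rk_`), part 2: THE CODIMENSION BOUND with
residue degrees (any constant field).

* `s44rk_step`  : `V ≤ L(D + P)` finite-dimensional, `κ(P)` finite over `K` ⇒
                  `dim V ≤ dim (V ⊓ L(D)) + deg P`;
* `s44rk_codim` : `D ≤ D'`, finite residue fields on the support of `D' - D`, `V ≤ L(D')` finite-dimensional ⇒
                  `dim V ≤ dim (V ⊓ L(D)) + deg (D' - D)`.
-/
import Fermat.Agent.Lib.S37.IRiemann

set_option autoImplicit false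
set_option linter.style.haveILetI false
set_option linter.unusedSectionVars false

noncomputable section

open AlgebraicCurve IsLocalRing Fermat.Agent.Lib.FF Fermat.Agent.Lib.S37

namespace Fermat.Agent.Lib.S44

variable {K F : Type*} [Field K] [Field F] [Algebra K F]

/-! ### the one-place step -/

/-- the residue map is `K`-linear. -/
theorem s44rk_residue_smul (P : Place K F) (c : K) (a : P.toValuationSubring) :
    IsLocalRing.residue P.toValuationSubring (c • a) =
      c • IsLocalRing.residue P.toValuationSubring a := by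
  rw [Algebra.smul_def, Algebra.smul_def, map_mul]
  rfl

/-- **the one-place step** with residue degree. -/
theorem s44rk_step (D : Divisor K F) (P : Place K F) [Module.Finite K P.ResidueField]
    (V : Submodule K F) [FiniteDimensional K V]
    (hV : V ≤ riemannRochSpace (D + Finsupp.single P 1)) :
    Module.finrank K V ≤ Module.finrank K ↥(V ⊓ riemannRochSpace D) + P.deg := by
  classical
  obtain ⟨π, hπ0, hπ⟩ := ff_exists_ord_eq_one P
  set m : ℤ := D P + 1 with hm
  have hπm0 : π ^ m ≠ 0 := zpow_ne_zero _ hπ0
  have hordπm : P.ord (π ^ m) = m := by rw [P.ord_zpow, hπ, mul_one]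
  -- `f π ^ m` is regular at `P`
  have hmem : ∀ f : F, f ∈ V → f * π ^ m ∈ P.toValuationSubring := by
    intro f hf
    rcases eq_or_ne f 0 with rfl | hf0
    · rw [zero_mul]; exact P.toValuationSubring.zero_mem
    have h1 := (s37i_mem_L hf0).mp (hV hf) P
    rw [Finsupp.add_apply, Finsupp.single_eq_same] at h1
    rw [ff_mem_iff_ord_nonneg P (mul_ne_zero hf0 hπm0), P.ord_mul hf0 hπm0, hordπm]
    omega
  let ev : ↥V →ₗ[K] P.ResidueField :=
    { toFun := fun f => IsLocalRing.residue P.toValuationSubring ⟨f.1 * π ^ m, hmem f.1 f.2⟩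
      map_add' := fun f g => by
        rw [← map_add]
        congr 1
        apply Subtype.ext
        show (f.1 + g.1) * π ^ m = f.1 * π ^ m + g.1 * π ^ m
        ring
      map_smul' := fun c f => by
        rw [RingHom.id_apply, ← s44rk_residue_smul]
        congr 1
        apply Subtype.ext
        have e1 : ((c • f : ↥V) : F) = algebraMap K F c * (f : F) := by
          rw [Submodule.coe_smul, Algebra.smul_def]
        have e2 : ((c • (⟨f.1 * π ^ m, hmem f.1 f.2⟩ : P.toValuationSubring) :
            P.toValuationSubring) : F) = algebraMap K F c * (f.1 * π ^ m) := by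
          rw [Algebra.smul_def]; rfl
        show ((c • f : ↥V) : F) * π ^ m = _
        rw [e1, e2, mul_assoc] }
  have hker : (LinearMap.ker ev).map V.subtype ≤ V ⊓ riemannRochSpace D := by
    rintro _ ⟨f, hf, rfl⟩
    refine ⟨f.2, ?_⟩
    rcases eq_or_ne (f : F) 0 with h0 | hf0
    · rw [Submodule.subtype_apply, h0]; exact Submodule.zero_mem _
    rw [Submodule.subtype_apply, SetLike.mem_coe, s37i_mem_L hf0]
    have hall := (s37i_mem_L hf0).mp (hV f.2)
    intro v
    have h1 := hall v
    rw [Finsupp.add_apply] at h1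
    by_cases hv : v = P
    · subst hv
      rw [Finsupp.single_eq_same] at h1
      -- `ev f = 0` gives positivity
      have h2 : IsLocalRing.residue v.toValuationSubring ⟨f.1 * π ^ m, hmem f.1 f.2⟩ = 0 := hf
      rw [IsLocalRing.residue_eq_zero_iff, IsLocalRing.mem_maximalIdeal, mem_nonunits_iff] at h2
      have h3 : ¬ (f.1 * π ^ m)⁻¹ ∈ v.toValuationSubring := by
        intro hinv
        apply h2
        refine ⟨⟨⟨f.1 * π ^ m, hmem f.1 f.2⟩, ⟨(f.1 * π ^ m)⁻¹, hinv⟩, ?_, ?_⟩, rfl⟩
        · apply Subtype.ext
          show f.1 * π ^ m * (f.1 * π ^ m)⁻¹ = 1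
          exact mul_inv_cancel₀ (mul_ne_zero hf0 hπm0)
        · apply Subtype.ext
          show (f.1 * π ^ m)⁻¹ * (f.1 * π ^ m) = 1
          exact inv_mul_cancel₀ (mul_ne_zero hf0 hπm0)
      rw [ff_mem_iff_ord_nonneg v (inv_ne_zero (mul_ne_zero hf0 hπm0)), v.ord_inv,
        v.ord_mul hf0 hπm0, hordπm] at h3
      omega
    · rw [Finsupp.single_eq_of_ne hv] at h1
      omega
  have h1 := LinearMap.finrank_range_add_finrank_ker ev
  have h2 : Module.finrank K ↥(LinearMap.range ev) ≤ P.deg := Submodule.finrank_le _
  have h3 : Module.finrank K ↥(LinearMap.ker ev) ≤ Module.finrank K ↥(V ⊓ riemannRochSpace D) := by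
    haveI : FiniteDimensional K ↥(V ⊓ riemannRochSpace D) :=
      Submodule.finiteDimensional_of_le inf_le_left
    rw [(Submodule.equivMapOfInjective V.subtype V.injective_subtype (LinearMap.ker ev)).finrank_eq]
    exact Submodule.finrank_mono hker
  omega

/-! ### the codimension bound -/

/-- the unweighted size of a divisor. -/
def s44rk_sz : Divisor K F →+ ℤ := Finsupp.liftAddHom fun _ => AddMonoidHom.id ℤ

theorem s44rk_sz_single (v : Place K F) (n : ℤ) : s44rk_sz (Finsupp.single v n) = n := by
  simp [s44rk_sz]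

theorem s44rk_sz_eq_sum (D : Divisor K F) : s44rk_sz D = D.sum fun _ n => n := by
  rw [s44rk_sz, Finsupp.liftAddHom_apply]
  rfl

theorem s44rk_sz_nonneg {E : Divisor K F} (hE : 0 ≤ E) : 0 ≤ s44rk_sz E := by
  rw [s44rk_sz_eq_sum]
  exact Finsupp.sum_nonneg fun v _ => Finsupp.le_def.mp hE v

theorem s44rk_eq_zero_of_sz_eq_zero {E : Divisor K F} (hE : 0 ≤ E) (h : s44rk_sz E = 0) :
    E = 0 := by
  rw [s44rk_sz_eq_sum, Finsupp.sum] at h
  have h1 := (Finset.sum_eq_zero_iff_of_nonneg fun v _ => Finsupp.le_def.mp hE v).mp h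
  ext v
  by_cases hv : v ∈ E.support
  · exact h1 v hv
  · exact Finsupp.notMem_support_iff.mp hv

/-- **the codimension bound**, with residue degrees. -/
theorem s44rk_codim (N : ℕ) : ∀ (D D' : Divisor K F), D ≤ D' →
    (∀ v : Place K F, D v < D' v → Module.Finite K v.ResidueField) →
    s44rk_sz (D' - D) = N → ∀ (V : Submodule K F) [FiniteDimensional K V],
    V ≤ riemannRochSpace D' →
    (Module.finrank K V : ℤ) ≤
      Module.finrank K ↥(V ⊓ riemannRochSpace D) + Divisor.degree (D' - D) := by
  classical
  induction N with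
  | zero =>
    intro D D' hle _ hsz V _ hV
    have h1 : D' - D = 0 :=
      s44rk_eq_zero_of_sz_eq_zero (sub_nonneg.mpr hle) (by rw [hsz]; rfl)
    have h2 : D' = D := sub_eq_zero.mp h1
    rw [h2] at hV
    rw [h1, map_zero, add_zero, inf_eq_left.mpr hV]
  | succ N ih =>
    intro D D' hle hfin hsz V _ hV
    have hex : ∃ P, 0 < (D' - D) P := by
      by_contra hno
      have hno' : ∀ P, (D' - D) P = 0 := fun P => by
        have h1 : ¬ 0 < (D' - D) P := fun h => hno ⟨P, h⟩
        have h2 := Finsupp.le_def.mp (sub_nonneg.mpr hle) P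
        simp only [Finsupp.coe_zero, Pi.zero_apply] at h2
        omega
      have h0 : D' - D = 0 := Finsupp.ext hno'
      rw [h0, map_zero] at hsz
      push_cast at hsz
      omega
    obtain ⟨P, hP⟩ := hex
    rw [Finsupp.sub_apply] at hP
    haveI : Module.Finite K P.ResidueField := hfin P (by omega)
    set D'' : Divisor K F := D' - Finsupp.single P 1 with hD''
    have hle'' : D ≤ D'' := by
      rw [Finsupp.le_def]
      intro v
      have h1 := Finsupp.le_def.mp hle v
      rw [hD'', Finsupp.sub_apply]
      by_cases hv : v = P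
      · subst hv
        rw [Finsupp.single_eq_same]
        omega
      · rw [Finsupp.single_eq_of_ne hv]
        omega
    have hD' : D' = D'' + Finsupp.single P 1 := by rw [hD'']; abel
    have hsub : D' - D = (D'' - D) + Finsupp.single P 1 := by rw [hD'']; abel
    have hsz'' : s44rk_sz (D'' - D) = N := by
      have := hsz
      rw [hsub, map_add, s44rk_sz_single] at this
      push_cast at this
      omega
    have hfin'' : ∀ v : Place K F, D v < D'' v → Module.Finite K v.ResidueField := by
      intro v hv
      apply hfin v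
      have h1 : D'' v ≤ D' v := by
        rw [hD'', Finsupp.sub_apply]
        by_cases hvP : v = P
        · subst hvP
          rw [Finsupp.single_eq_same]
          omega
        · rw [Finsupp.single_eq_of_ne hvP]
          omega
      omega
    rw [hD'] at hV
    have h1 := s44rk_step D'' P V hV
    haveI hfd : FiniteDimensional K ↥(V ⊓ riemannRochSpace D'') :=
      Submodule.finiteDimensional_of_le inf_le_left
    have h2 := ih D D'' hle'' hfin'' hsz'' (V ⊓ riemannRochSpace D'') inf_le_right
    have h3 : V ⊓ riemannRochSpace D'' ⊓ riemannRochSpace D = V ⊓ riemannRochSpace D := by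
      rw [inf_assoc, inf_eq_right.mpr (s37i_L_mono hle'')]
    rw [h3] at h2
    have hdeg : Divisor.degree (D' - D) = Divisor.degree (D'' - D) + (P.deg : ℤ) := by
      rw [hsub, map_add, Divisor.degree_single, one_mul]
    rw [hdeg]
    have h1' : (Module.finrank K V : ℤ) ≤
        (Module.finrank K ↥(V ⊓ riemannRochSpace D'') : ℤ) + (P.deg : ℤ) := by exact_mod_cast h1
    omega

end Fermat.Agent.Lib.S44
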