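/-
M-AT-P programme (S44), wall W4′, brick [RIEMANN-K] (helper4, prefix `s44rk_`), part 3: THE POLE DIVISOR OF `x` AND THE
BIG SPACES over an arbitrary constant field of characteristic zero (the `IsAlgClosed`-free version of helper1's
`s37i_exists_poleDivisor`, `s37i_exists_big`, `Lib/S37/IRiemann.lean`).
-/
import Fermat.Agent.Lib.S44.RRiemK1
import Fermat.Agent.Lib.S44.RRiemK2

set_option autoImplicit false
set_option linter.style.haveILetI false
set_option linter.unusedSectionVars false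

noncomputable section

open AlgebraicCurve IntermediateField Polynomial Fermat.Agent.Lib.FF Fermat.Agent.Lib.S37
open scoped IntermediateField.algebraAdjoinAdjoin

namespace Fermat.Agent.Lib.S44

variable {K F : Type*} [Field K] [Field F] [Algebra K F]

theorem s44rk_degree_eq_sum (D : Divisor K F) :
    Divisor.degree D = D.sum fun v n => n * (v.deg : ℤ) := by
  rw [Divisor.degree, Finsupp.liftAddHom_apply]
  rfl

theorem s44rk_x_ne_zero (K : Type*) {F : Type*} [Field K] [Field F] [Algebra K F] (x : F)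
    [FFGen K x] : x ≠ 0 := by
  have := ff_sub_ne_zero (K := K) (x := x) 0
  simpa using this

section Pole

variable (x : F) [FFGen K x] [CharZero K]


/-- The pole divisor `B = (x)_∞`, of degree `n = [F : K(x)]`, with finite residue fields on its support. -/
theorem s44rk_exists_poleDivisor : ∃ B : Divisor K F,
    (∀ v : Place K F, 0 ≤ v.ord x → B v = 0) ∧ (∀ v : Place K F, v.ord x < 0 → B v = -v.ord x) ∧
      (∀ v : Place K F, v.ord x < 0 → Module.Finite K v.ResidueField) ∧
      Divisor.degree B = (Module.finrank K⟮x⟯ F : ℤ) := by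
  classical
  obtain ⟨P, hP, hfin, hsum⟩ := s44rk_fibreSum_poles K x
  let B : Divisor K F := Finsupp.onFinset P (fun v => if v.ord x < 0 then -v.ord x else 0) (by
    intro v hv
    rw [hP]
    by_contra h
    exact hv (if_neg h))
  have hB : ∀ v, B v = if v.ord x < 0 then -v.ord x else 0 := fun v => rfl
  refine ⟨B, fun v hv => ?_, fun v hv => ?_, fun v hv => hfin v ((hP v).mpr hv), ?_⟩
  · rw [hB, if_neg (by omega)]
  · rw [hB, if_pos hv]
  · rw [s44rk_degree_eq_sum, Finsupp.onFinset_sum _ (fun _ => by simp)]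
    have : ∀ v ∈ P, (if v.ord x < 0 then -v.ord x else 0) * (v.deg : ℤ) =
        -v.ord x * (v.deg : ℤ) := fun v hv => by
      rw [if_pos ((hP v).mp hv)]
    rw [Finset.sum_congr rfl this, hsum]

/-- `x^k ∈ L(k B)`. -/
theorem s44rk_pow_mem (B : Divisor K F) (hB0 : ∀ v : Place K F, 0 ≤ v.ord x → B v = 0)
    (hB1 : ∀ v : Place K F, v.ord x < 0 → B v = -v.ord x) (k : ℕ) :
    x ^ k ∈ riemannRochSpace (k • B) := by
  have hx0 : x ≠ 0 := s44rk_x_ne_zero K x
  rw [s37i_mem_L (pow_ne_zero k hx0)]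
  intro v
  have h1 : v.ord (x ^ k) = k * v.ord x := by
    have := v.ord_zpow x k
    simpa using this
  rw [h1, Finsupp.smul_apply, nsmul_eq_mul]
  by_cases hv : v.ord x < 0
  · rw [hB1 v hv]
    have : (k : ℤ) * -v.ord x + k * v.ord x = 0 := by ring
    omega
  · rw [hB0 v (by omega), mul_zero, zero_add]
    exact mul_nonneg (by positivity) (by omega)

/-- An element integral over `K[x]` lies in `L(c B)` for some `c`. -/
theorem s44rk_integral_mem (B : Divisor K F) (hB0 : ∀ v : Place K F, 0 ≤ v.ord x → B v = 0)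
    (hB1 : ∀ v : Place K F, v.ord x < 0 → B v = -v.ord x) (b : F)
    (hb : IsIntegral (ffA K x) b) : ∃ c : ℕ, b ∈ riemannRochSpace (c • B) := by
  classical
  rcases eq_or_ne b 0 with rfl | hb0
  · exact ⟨0, Submodule.zero_mem _⟩
  obtain ⟨P, hP, -, -⟩ := s44rk_fibreSum_poles K x
  have hx0 : x ≠ 0 := s44rk_x_ne_zero K x
  refine ⟨∑ v ∈ P, (-(v.ord b)).toNat, ?_⟩
  rw [s37i_mem_L hb0]
  intro v
  rw [Finsupp.smul_apply, nsmul_eq_mul]
  by_cases hv : v.ord x < 0
  · rw [hB1 v hv]
    have hvP : v ∈ P := (hP v).mpr hv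
    have h1 : (-(v.ord b)).toNat ≤ ∑ w ∈ P, (-(w.ord b)).toNat :=
      Finset.single_le_sum (f := fun w : Place K F => (-(w.ord b)).toNat)
        (fun _ _ => Nat.zero_le _) hvP
    have h2 : -(v.ord b) ≤ ((-(v.ord b)).toNat : ℤ) := Int.self_le_toNat _
    have h3 : ((∑ w ∈ P, (-(w.ord b)).toNat : ℕ) : ℤ) ≤
        ((∑ w ∈ P, (-(w.ord b)).toNat : ℕ) : ℤ) * -v.ord x := by
      have : (1 : ℤ) ≤ -v.ord x := by omega
      nlinarith [Int.natCast_nonneg (∑ w ∈ P, (-(w.ord b)).toNat)]
    have h4 : ((-(v.ord b)).toNat : ℤ) ≤ ((∑ w ∈ P, (-(w.ord b)).toNat : ℕ) : ℤ) := by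
      exact_mod_cast h1
    omega
  · rw [hB0 v (by omega), mul_zero, zero_add]
    have hx : x ∈ v.toValuationSubring := (ff_mem_iff_ord_nonneg v hx0).mpr (by omega)
    have hmem : b ∈ v.toValuationSubring := ff_B_mem_of_mem v hx ⟨b, hb⟩
    exact (ff_mem_iff_ord_nonneg v hb0).mp hmem

omit [FFGen K x] [CharZero K] in
theorem s44rk_linearIndependent_pow {A : Type*} [CommRing A] [Algebra K A] (g : A)
    (hg : Transcendental K g) : LinearIndependent K (fun k : ℕ => g ^ k) := by
  have h1 : LinearIndependent K (fun k : ℕ => (Polynomial.basisMonomials K) k) :=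
    (Polynomial.basisMonomials K).linearIndependent
  have h2 := h1.map' (Polynomial.aeval g).toLinearMap
    (LinearMap.ker_eq_bot.mpr (transcendental_iff_injective.mp hg))
  have h3 : (fun k : ℕ => g ^ k) =
      (⇑(Polynomial.aeval g).toLinearMap ∘ fun k : ℕ => (Polynomial.basisMonomials K) k) := by
    funext k
    simp [Polynomial.coe_basisMonomials]
  rw [h3]
  exact h2

omit [FFGen K x] [CharZero K] in
theorem s44rk_poleDivisor_nonneg (B : Divisor K F) (hB0 : ∀ v : Place K F, 0 ≤ v.ord x → B v = 0)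
    (hB1 : ∀ v : Place K F, v.ord x < 0 → B v = -v.ord x) : 0 ≤ B := by
  rw [Finsupp.le_def]
  intro v
  simp only [Finsupp.coe_zero, Pi.zero_apply]
  by_cases hv : v.ord x < 0
  · rw [hB1 v hv]; omega
  · rw [hB0 v (by omega)]

omit [FFGen K x] [CharZero K] in
theorem s44rk_smul_le_smul {B : Divisor K F} (hB : 0 ≤ B) {a b : ℕ} (h : a ≤ b) :
    a • B ≤ b • B := by
  rw [Finsupp.le_def]
  intro v
  rw [Finsupp.smul_apply, Finsupp.smul_apply, nsmul_eq_mul, nsmul_eq_mul]
  have h1 : (0 : ℤ) ≤ B v := Finsupp.le_def.mp hB v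
  have h2 : (a : ℤ) ≤ b := by exact_mod_cast h
  exact mul_le_mul_of_nonneg_right h2 h1

/-- **The big spaces**: `V_m ≤ L((m + c₀) B)` of dimension `(m + 1) n`. -/
theorem s44rk_exists_big (B : Divisor K F) (hB0 : ∀ v : Place K F, 0 ≤ v.ord x → B v = 0)
    (hB1 : ∀ v : Place K F, v.ord x < 0 → B v = -v.ord x) :
    ∃ c0 : ℕ, ∀ m : ℕ, ∃ V : Submodule K F, FiniteDimensional K V ∧
      V ≤ riemannRochSpace ((m + c0) • B) ∧
      Module.finrank K V = (m + 1) * Module.finrank K⟮x⟯ F := by
  classical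
  have hBnn := s44rk_poleDivisor_nonneg x B hB0 hB1
  obtain ⟨s, b, hb⟩ := FiniteDimensional.exists_is_basis_integral (ffA K x) K⟮x⟯ F
  choose c hc using fun i : s => s44rk_integral_mem x B hB0 hB1 (b i) (hb i)
  refine ⟨∑ i, c i, fun m => ?_⟩
  have htr : Transcendental K (AdjoinSimple.gen K x) := by
    rw [← transcendental_algebraMap_iff (algebraMap K⟮x⟯ F).injective]
    have h0 : Transcendental K x := FFGen.transc
    exact h0
  have hpow := s44rk_linearIndependent_pow (K := K) (AdjoinSimple.gen K x) htr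
  have hpow' : LinearIndependent K (fun k : Fin (m + 1) => (AdjoinSimple.gen K x) ^ (k : ℕ)) :=
    hpow.comp (fun k : Fin (m + 1) => (k : ℕ)) Fin.val_injective
  have hw := linearIndependent_smul hpow' b.linearIndependent
  set w : Fin (m + 1) × s → F := fun p => (AdjoinSimple.gen K x) ^ (p.1 : ℕ) • b p.2 with hwdef
  refine ⟨Submodule.span K (Set.range w), FiniteDimensional.span_of_finite K (Set.finite_range w),
    ?_, ?_⟩
  · rw [Submodule.span_le]
    rintro _ ⟨⟨k, i⟩, rfl⟩
    have h1 : w (k, i) = x ^ (k : ℕ) * b i := by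
      rw [hwdef]
      simp only
      rw [IntermediateField.smul_def, smul_eq_mul]
      congr 1
    rw [SetLike.mem_coe, h1]
    have h2 := s37i_mul_mem_L (s44rk_pow_mem x B hB0 hB1 (k : ℕ)) (hc i)
    rw [← add_smul] at h2
    refine s37i_L_mono (s44rk_smul_le_smul hBnn ?_) h2
    have h3 : c i ≤ ∑ j, c j := Finset.single_le_sum (f := c) (fun _ _ => Nat.zero_le _)
      (Finset.mem_univ i)
    have h4 : (k : ℕ) ≤ m := Nat.lt_succ_iff.mp k.2
    omega
  · rw [finrank_span_eq_card hw, Fintype.card_prod, Fintype.card_fin,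
      Module.finrank_eq_card_basis b]

end Pole

end Fermat.Agent.Lib.S44
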