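/-
M-AT-P programme (S44), wall W4′, brick [RIEMANN-K] (helper4, prefix `s44rk_`), part 4: ALL LARGE POLE ORDERS OCCUR AT
A RATIONAL PLACE, over an arbitrary constant field of characteristic zero.

* `s44rk_eq_zero_of_regular` : a function regular at every place and vanishing at one place is `0`;
* `s44rk_deg_of_res`         : a place all of whose residues are constants has finite residue field, degree `1`;
* `s44rk_lower`              : `dim (V ⊓ L(k ∞)) ≥ k - C` for suitable finite-dimensional `V` (Riemann's inequality for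
                               the multiples of one rational place);
* `s44rk_upper`              : `dim T ≤ #{non-gaps ≤ k}` for `T ≤ L(k ∞)` finite-dimensional;
* **`s44rk_large_orders`**   : `∃ γ, ∀ k ≥ γ, ∃ U` regular off `∞` with `ord_∞ U = -k`.
-/
import Fermat.Agent.Lib.S44.RRiemK3

set_option autoImplicit false
set_option linter.style.haveILetI false
set_option linter.unusedSectionVars false

noncomputable section

open AlgebraicCurve IntermediateField Polynomial Fermat.Agent.Lib.FF Fermat.Agent.Lib.S37
open scoped IntermediateField.algebraAdjoinAdjoin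

namespace Fermat.Agent.Lib.S44

variable {K F : Type*} [Field K] [Field F] [Algebra K F]

/-! ### functions regular everywhere -/

/-- an element algebraic over `K` lies in every valuation ring containing `K`. -/
theorem s44rk_mem_of_isAlgebraic (v : Place K F) {f : F} (hf : IsAlgebraic K f) :
    f ∈ v.toValuationSubring := by
  have h1 : IsIntegral K f := hf.isIntegral
  have h2 : IsIntegral v.toValuationSubring f := h1.tower_top
  obtain ⟨y, hy⟩ :=
    (IsIntegrallyClosed.isIntegral_iff (R := v.toValuationSubring) (K := F)).mp h2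
  rw [← hy]
  exact y.2

section Regular

variable (x : F) [FFGen K x] [CharZero K]

include x in
/-- **a function regular at every place and vanishing at one place is zero.** -/
theorem s44rk_eq_zero_of_regular {f : F} (hreg : ∀ v : Place K F, f ∈ v.toValuationSubring)
    (v₀ : Place K F) (h0 : f ∈ v₀.toValuationSubring.nonunits) : f = 0 := by
  classical
  by_contra hf
  by_cases halg : IsAlgebraic K f
  · have hinv : f⁻¹ ∈ v₀.toValuationSubring := s44rk_mem_of_isAlgebraic v₀ halg.inv
    rcases (ValuationSubring.mem_nonunits_iff_or _).mp h0 with h | h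
    · exact hf h
    · exact h hinv
  · haveI : FFGen K f := ff_gen_of_transcendental (x := x) halg
    obtain ⟨P, hP, -, hsum⟩ := s44rk_fibreSum_poles K f
    have hpos : 0 < Module.finrank K⟮f⟯ F := Module.finrank_pos
    have hne : P.Nonempty := by
      by_contra hemp
      rw [Finset.not_nonempty_iff_eq_empty] at hemp
      rw [hemp, Finset.sum_empty] at hsum
      have : (0 : ℤ) < (Module.finrank K⟮f⟯ F : ℤ) := by exact_mod_cast hpos
      omega
    obtain ⟨v, hv⟩ := hne
    have h1 : v.ord f < 0 := (hP v).mp hv
    have h2 : 0 ≤ v.ord f := (ff_mem_iff_ord_nonneg v hf).mp (hreg v)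
    omega

end Regular

/-! ### rational places -/

/-- a place all of whose residues are constants: finite residue field, of degree one. -/
theorem s44rk_deg_of_res (v : Place K F)
    (hres : ∀ y ∈ v.toValuationSubring, ∃ c : K,
      y - algebraMap K F c ∈ v.toValuationSubring.nonunits) :
    Module.Finite K v.ResidueField ∧ v.deg = 1 := by
  have hsurj : Function.Surjective (algebraMap K v.ResidueField) := by
    intro y
    obtain ⟨f, rfl⟩ := IsLocalRing.residue_surjective y
    obtain ⟨c, hc⟩ := hres f f.2
    refine ⟨c, ?_⟩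
    rw [IsScalarTower.algebraMap_apply K v.toValuationSubring v.ResidueField]
    symm
    rw [← sub_eq_zero]
    show IsLocalRing.residue _ f - IsLocalRing.residue _ (algebraMap K v.toValuationSubring c) = 0
    rw [← map_sub, IsLocalRing.residue_eq_zero_iff]
    exact (ValuationSubring.coe_mem_nonunits_iff (A := v.toValuationSubring)).mp hc
  have hbij : Function.Bijective (algebraMap K v.ResidueField) :=
    ⟨(algebraMap K v.ResidueField).injective, hsurj⟩
  have e : K ≃ₗ[K] v.ResidueField :=
    LinearEquiv.ofBijective (Algebra.linearMap K v.ResidueField) hbij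
  refine ⟨Module.Finite.equiv e, ?_⟩
  rw [Place.deg, ← e.finrank_eq, Module.finrank_self]

/-! ### Riemann's inequality for the multiples of one rational place -/

section Lower

variable (x : F) [FFGen K x] [CharZero K]

/-- **Riemann's inequality for `k ∞`**: finite-dimensional subspaces of `L(k ∞)` of dimension `≥ k - C`. -/
theorem s44rk_lower (vinf : Place K F)
    (hres : ∀ y ∈ vinf.toValuationSubring, ∃ c : K,
      y - algebraMap K F c ∈ vinf.toValuationSubring.nonunits)
    (hx : vinf.ord x < 0) :
    ∃ C : ℕ, ∀ k : ℕ, ∃ T : Submodule K F, FiniteDimensional K T ∧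
      T ≤ riemannRochSpace (Finsupp.single vinf (k : ℤ)) ∧ k ≤ Module.finrank K T + C := by
  classical
  obtain ⟨B, hB0, hB1, hBfin, hBdeg⟩ := s44rk_exists_poleDivisor (K := K) x
  obtain ⟨c0, hbig⟩ := s44rk_exists_big x B hB0 hB1
  obtain ⟨hfinf, hdeginf⟩ := s44rk_deg_of_res vinf hres
  have hBnn := s44rk_poleDivisor_nonneg x B hB0 hB1
  set n := Module.finrank K⟮x⟯ F with hn
  refine ⟨c0 * n + c0, fun k => ?_⟩
  by_cases hk : k < c0
  · exact ⟨⊥, inferInstance, bot_le, by omega⟩
  replace hk : c0 ≤ k := not_lt.mp hk
  obtain ⟨V, hVfd, hVle, hVdim⟩ := hbig (k - c0)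
  have hkk : k - c0 + c0 = k := Nat.sub_add_cancel hk
  rw [hkk] at hVle
  haveI := hVfd
  set D : Divisor K F := Finsupp.single vinf (k : ℤ) with hD
  set D' : Divisor K F := k • B with hD'
  have hBinf : B vinf = -vinf.ord x := hB1 vinf hx
  have hle : D ≤ D' := by
    rw [Finsupp.le_def]
    intro v
    rw [hD', Finsupp.smul_apply, nsmul_eq_mul]
    by_cases hv : v = vinf
    · subst hv
      rw [hD, Finsupp.single_eq_same, hBinf]
      have h1 : (1 : ℤ) ≤ -v.ord x := by omega
      nlinarith [Int.natCast_nonneg k]
    · rw [hD, Finsupp.single_eq_of_ne hv]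
      have h1 : (0 : ℤ) ≤ B v := Finsupp.le_def.mp hBnn v
      positivity
  have hfin : ∀ v : Place K F, D v < D' v → Module.Finite K v.ResidueField := by
    intro v hv
    apply hBfin v
    by_contra hnn
    have h0 : B v = 0 := hB0 v (by omega)
    rw [hD', Finsupp.smul_apply, nsmul_eq_mul, h0, mul_zero] at hv
    have h1 : (0 : ℤ) ≤ D v := by
      rw [hD]
      by_cases hvv : v = vinf
      · subst hvv; rw [Finsupp.single_eq_same]; exact Int.natCast_nonneg k
      · rw [Finsupp.single_eq_of_ne hvv]
    omega
  have hsz0 : 0 ≤ s44rk_sz (D' - D) := s44rk_sz_nonneg (sub_nonneg.mpr hle)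
  obtain ⟨N, hN⟩ := Int.eq_ofNat_of_zero_le hsz0
  have hcod := s44rk_codim N D D' hle hfin hN V hVle
  have hdeg : Divisor.degree (D' - D) = (k : ℤ) * n - k := by
    rw [map_sub, hD', map_nsmul, hBdeg, hD, Divisor.degree_single, hdeginf]
    push_cast
    ring
  refine ⟨V ⊓ riemannRochSpace D, Submodule.finiteDimensional_of_le inf_le_left, inf_le_right, ?_⟩
  rw [hdeg, hVdim] at hcod
  push_cast [Nat.cast_sub hk] at hcod
  have hn0 : (0 : ℤ) ≤ (n : ℤ) := Int.natCast_nonneg n
  have hc0 : (0 : ℤ) ≤ (c0 : ℤ) := Int.natCast_nonneg c0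
  zify
  nlinarith

end Lower

/-! ### counting the non-gaps -/

/-- `j` is a pole order at `∞` of a function regular off `∞`. -/
def s44rk_Ng (vinf : Place K F) (j : ℕ) : Prop :=
  ∃ U : F, (∀ v : Place K F, v ≠ vinf → U ∈ v.toValuationSubring) ∧ vinf.ord U = -(j : ℤ)

/-- a gap: `L(j ∞) = L((j - 1) ∞)`. -/
theorem s44rk_L_eq_of_gap (vinf : Place K F) (j : ℕ) (hgap : ¬ s44rk_Ng vinf (j + 1)) :
    riemannRochSpace (Finsupp.single vinf (((j + 1 : ℕ) : ℤ))) ≤
      riemannRochSpace (Finsupp.single vinf ((j : ℕ) : ℤ)) := by
  classical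
  intro f hf
  rcases eq_or_ne f 0 with rfl | hf0
  · exact Submodule.zero_mem _
  rw [s37i_mem_L hf0] at hf ⊢
  intro v
  have h1 := hf v
  by_cases hv : v = vinf
  · subst hv
    rw [Finsupp.single_eq_same] at h1 ⊢
    by_contra hlt
    apply hgap
    refine ⟨f, fun w hw => ?_, ?_⟩
    · have h2 := hf w
      rw [Finsupp.single_eq_of_ne hw, zero_add] at h2
      exact (ff_mem_iff_ord_nonneg w hf0).mpr h2
    · push_cast at h1 ⊢
      omega
  · rw [Finsupp.single_eq_of_ne hv] at h1 ⊢
    exact h1

section Upper

variable (x : F) [FFGen K x] [CharZero K]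

include x in
/-- `L(-∞) = 0`. -/
theorem s44rk_L_neg_one (vinf : Place K F) :
    riemannRochSpace (Finsupp.single vinf (-1 : ℤ)) = (⊥ : Submodule K F) := by
  classical
  rw [eq_bot_iff]
  intro f hf
  rw [Submodule.mem_bot]
  by_contra hf0
  have h := (s37i_mem_L hf0).mp hf
  have hreg : ∀ v : Place K F, f ∈ v.toValuationSubring := by
    intro v
    rw [ff_mem_iff_ord_nonneg v hf0]
    have h1 := h v
    by_cases hv : v = vinf
    · subst hv
      rw [Finsupp.single_eq_same] at h1
      omega
    · rw [Finsupp.single_eq_of_ne hv] at h1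
      omega
  have hpos : 0 < vinf.ord f := by
    have h1 := h vinf
    rw [Finsupp.single_eq_same] at h1
    omega
  apply hf0
  apply s44rk_eq_zero_of_regular x hreg vinf
  rw [ValuationSubring.mem_nonunits_iff_or]
  right
  exact ((ff_ord_pos_iff vinf hf0).mp hpos).2

open Classical in
include x in
/-- **the upper bound**: a finite-dimensional subspace of `L(k ∞)` has dimension at most the number of non-gaps
`≤ k`. -/
theorem s44rk_upper (vinf : Place K F)
    (hres : ∀ y ∈ vinf.toValuationSubring, ∃ c : K,
      y - algebraMap K F c ∈ vinf.toValuationSubring.nonunits) (k : ℕ) :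
    ∀ (T : Submodule K F) [FiniteDimensional K T],
      T ≤ riemannRochSpace (Finsupp.single vinf (k : ℤ)) →
      Module.finrank K T ≤ ((Finset.range (k + 1)).filter (fun j => s44rk_Ng vinf j)).card := by
  classical
  obtain ⟨hfinf, hdeginf⟩ := s44rk_deg_of_res vinf hres
  haveI := hfinf
  induction k with
  | zero =>
    intro T _ hT
    have hT' : T ≤ riemannRochSpace (Finsupp.single vinf (-1 : ℤ) + Finsupp.single vinf 1) := by
      rw [← Finsupp.single_add]
      simpa using hT
    have h1 := s44rk_step (Finsupp.single vinf (-1 : ℤ)) vinf T hT'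
    rw [s44rk_L_neg_one x vinf, inf_bot_eq, finrank_bot, hdeginf] at h1
    have h0 : s44rk_Ng vinf 0 := by
      refine ⟨1, fun v _ => v.toValuationSubring.one_mem, ?_⟩
      simp
    have hcard : ((Finset.range (0 + 1)).filter (fun j => s44rk_Ng vinf j)).card = 1 := by
      rw [zero_add, Finset.range_one, Finset.filter_singleton, if_pos h0, Finset.card_singleton]
    omega
  | succ k ih =>
    intro T _ hT
    by_cases hng : s44rk_Ng vinf (k + 1)
    · have hT' : T ≤ riemannRochSpace (Finsupp.single vinf ((k : ℕ) : ℤ) + Finsupp.single vinf 1) := by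
        rw [← Finsupp.single_add]
        have : ((k : ℕ) : ℤ) + 1 = ((k + 1 : ℕ) : ℤ) := by push_cast; ring
        rw [this]
        exact hT
      have h1 := s44rk_step (Finsupp.single vinf ((k : ℕ) : ℤ)) vinf T hT'
      haveI : FiniteDimensional K ↥(T ⊓ riemannRochSpace (Finsupp.single vinf ((k : ℕ) : ℤ))) :=
        Submodule.finiteDimensional_of_le inf_le_left
      have h2 := ih (T ⊓ riemannRochSpace (Finsupp.single vinf ((k : ℕ) : ℤ))) inf_le_right
      have hcard : ((Finset.range (k + 1 + 1)).filter (fun j => s44rk_Ng vinf j)).card =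
          ((Finset.range (k + 1)).filter (fun j => s44rk_Ng vinf j)).card + 1 := by
        rw [Finset.range_add_one (n := k + 1), Finset.filter_insert, if_pos hng,
          Finset.card_insert_of_notMem]
        intro hmem
        have := (Finset.mem_filter.mp hmem).1
        rw [Finset.mem_range] at this
        omega
      rw [hdeginf] at h1
      omega
    · have hT' : T ≤ riemannRochSpace (Finsupp.single vinf ((k : ℕ) : ℤ)) :=
        hT.trans (s44rk_L_eq_of_gap vinf k hng)
      have h2 := ih T hT'
      have hcard : ((Finset.range (k + 1)).filter (fun j => s44rk_Ng vinf j)).card ≤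
          ((Finset.range (k + 1 + 1)).filter (fun j => s44rk_Ng vinf j)).card := by
        apply Finset.card_le_card
        apply Finset.filter_subset_filter
        exact Finset.range_subset_range.mpr (by omega)
      omega

end Upper

/-! ### all large pole orders occur -/

section Main

variable (x : F) [FFGen K x] [CharZero K]

include x in
/-- the version with `x` having a pole at `∞`. -/
theorem s44rk_large_orders_of_pole (vinf : Place K F)
    (hres : ∀ y ∈ vinf.toValuationSubring, ∃ c : K,
      y - algebraMap K F c ∈ vinf.toValuationSubring.nonunits)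
    (hx : vinf.ord x < 0) :
    ∃ γ : ℕ, ∀ k : ℕ, γ ≤ k → ∃ U : F,
      (∀ v : Place K F, v ≠ vinf → U ∈ v.toValuationSubring) ∧ vinf.ord U = -(k : ℤ) := by
  classical
  obtain ⟨C, hC⟩ := s44rk_lower x vinf hres hx
  have hcount : ∀ k : ℕ, k ≤ ((Finset.range (k + 1)).filter (fun j => s44rk_Ng vinf j)).card + C := by
    intro k
    obtain ⟨T, hTfd, hTle, hk⟩ := hC k
    haveI := hTfd
    have := s44rk_upper x vinf hres k T hTle
    omega
  have hfinite : {j : ℕ | ¬ s44rk_Ng vinf j}.Finite := by
    by_contra hinf
    have hinf' : {j : ℕ | ¬ s44rk_Ng vinf j}.Infinite := hinf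
    obtain ⟨t, htsub, htcard⟩ := hinf'.exists_subset_card_eq (C + 2)
    set k := t.sup id with hk
    have hsub : t ⊆ (Finset.range (k + 1)).filter (fun j => ¬ s44rk_Ng vinf j) := by
      intro j hj
      rw [Finset.mem_filter, Finset.mem_range]
      refine ⟨?_, htsub hj⟩
      have : id j ≤ t.sup id := Finset.le_sup hj
      simp only [id] at this
      omega
    have h1 := Finset.card_le_card hsub
    have h2 := Finset.card_filter_add_card_filter_not (s := Finset.range (k + 1))
      (fun j => s44rk_Ng vinf j)
    rw [Finset.card_range] at h2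
    have h3 := hcount k
    omega
  obtain ⟨M, hM⟩ := hfinite.bddAbove
  refine ⟨M + 1, fun k hk => ?_⟩
  by_contra hno
  have : k ∈ {j : ℕ | ¬ s44rk_Ng vinf j} := hno
  have := hM this
  omega

include x in
/-- **[RIEMANN-K]: all large pole orders occur at a rational place**, over an arbitrary constant field of
characteristic zero. -/
theorem s44rk_large_orders (vinf : Place K F)
    (hres : ∀ y ∈ vinf.toValuationSubring, ∃ c : K,
      y - algebraMap K F c ∈ vinf.toValuationSubring.nonunits) :
    ∃ γ : ℕ, ∀ k : ℕ, γ ≤ k → ∃ U : F,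
      (∀ v : Place K F, v ≠ vinf → U ∈ v.toValuationSubring) ∧ vinf.ord U = -(k : ℤ) := by
  have hx0 : x ≠ 0 := s44rk_x_ne_zero K x
  by_cases hx : vinf.ord x < 0
  · exact s44rk_large_orders_of_pole x vinf hres hx
  · have hmem : x ∈ vinf.toValuationSubring := (ff_mem_iff_ord_nonneg vinf hx0).mpr (by omega)
    obtain ⟨c, hc⟩ := hres x hmem
    have hne : x - algebraMap K F c ≠ 0 := ff_sub_ne_zero (K := K) (x := x) c
    have hpos : 0 < vinf.ord (x - algebraMap K F c) := by
      rw [ff_ord_pos_iff vinf hne]
      rcases (ValuationSubring.mem_nonunits_iff_or _).mp hc with h | h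
      · exact absurd h hne
      · exact ⟨sub_mem hmem (vinf.algebraMap_mem' c), h⟩
    haveI : FFGen K (x - algebraMap K F c) := ff_gen_sub_const c
    haveI : FFGen K (x - algebraMap K F c)⁻¹ := ff_gen_inv
    refine s44rk_large_orders_of_pole (x - algebraMap K F c)⁻¹ vinf hres ?_
    rw [vinf.ord_inv]
    omega

end Main

end Fermat.Agent.Lib.S44
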