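/-
M-AT-P programme, W4′ (one-place trace duality), brick [DUAL] part 2 (helper1):
**the coordinate change.**  For `x ∈ K((q))` of order `-N`, `N` invertible in `K`, there is a
`K`-algebra automorphism `σ` of `K((q))` (substitution `T ↦ q' = q w`, `q'^(-N) = x / a`) with
`σ (a T^(-N)) = x`, which preserves orders, and with the residue formula
`coeff₀ (σ h * θ x) = - N a h_N` (invariance of the residue, by Serre's lemma).
-/
import Mathlib
import Fermat.Agent.Lib.FF.LaurentDeriv
import Fermat.Agent.Lib.S44.ASerre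

set_option autoImplicit false

namespace Fermat.Agent.Lib.S44

open PowerSeries HahnSeries Fermat.Agent.Lib.FF

noncomputable section

variable {K : Type*} [Field K]


/-- `N`-th roots of `1`-units of `K⟦X⟧` for `N` invertible in `K` (Hensel). -/
theorem s44a_exists_root (N : ℕ) (hN : (N : K) ≠ 0) (u : K⟦X⟧) (hu : constantCoeff u = 1) :
    ∃ w : K⟦X⟧, w ^ N = u ∧ constantCoeff w = 1 := by
  have hN0 : N ≠ 0 := by rintro rfl; simp at hN
  have hmem : ∀ g : K⟦X⟧, g ∈ (Ideal.span {X} : Ideal K⟦X⟧) ↔ constantCoeff g = 0 := by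
    intro g
    rw [Ideal.mem_span_singleton, X_dvd_iff]
  obtain ⟨a, ha, ha1⟩ := HenselianRing.is_henselian (R := K⟦X⟧) (I := Ideal.span {X})
    (Polynomial.X ^ N - Polynomial.C u) (Polynomial.monic_X_pow_sub_C u hN0) 1
    (by
      rw [hmem]
      simp [hu])
    (by
      apply IsUnit.map
      have : (Polynomial.derivative (Polynomial.X ^ N - Polynomial.C u : Polynomial K⟦X⟧)).eval 1
          = (N : K⟦X⟧) := by
        rw [Polynomial.derivative_sub, Polynomial.derivative_C, sub_zero,
          Polynomial.derivative_X_pow, Polynomial.eval_mul, Polynomial.eval_pow,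
          Polynomial.eval_X, one_pow, mul_one, Polynomial.eval_C]
      rw [this, isUnit_iff_constantCoeff]
      have : constantCoeff (N : K⟦X⟧) = (N : K) := by simp
      rw [this]
      exact isUnit_iff_ne_zero.mpr hN)
  refine ⟨a, ?_, ?_⟩
  · have := ha
    rw [Polynomial.IsRoot, Polynomial.eval_sub, Polynomial.eval_pow, Polynomial.eval_X,
      Polynomial.eval_C, sub_eq_zero] at this
    exact this
  · have := (hmem _).mp ha1
    rw [map_sub, map_one, sub_eq_zero] at this
    exact this


theorem s44a_algebraMap_eq_C (c : K) : algebraMap K (LaurentSeries K) c = HahnSeries.C c := by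
  have h1 : algebraMap K (PowerSeries K) c = PowerSeries.C c := rfl
  rw [HahnSeries.algebraMap_apply', h1, HahnSeries.ofPowerSeries_C]

theorem s44a_coe_injective : Function.Injective (fun f : K⟦X⟧ => (f : LaurentSeries K)) :=
  HahnSeries.ofPowerSeries_injective

/-- a Laurent series without negative coefficients is a power series. -/
theorem s44a_eq_coe_of_nonneg (h : LaurentSeries K) (hh : ∀ j : ℤ, j < 0 → h.coeff j = 0) :
    h = ((PowerSeries.mk fun n : ℕ => h.coeff n : K⟦X⟧) : LaurentSeries K) := by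
  ext j
  rw [PowerSeries.coeff_coe]
  split_ifs with hj
  · exact hh j hj
  · rw [PowerSeries.coeff_mk]
    congr 1
    omega

theorem s44a_order_coe (f : K⟦X⟧) (hf : constantCoeff f ≠ 0) : (f : LaurentSeries K).order = 0 := by
  have h0 : (f : LaurentSeries K).coeff 0 ≠ 0 := by
    rw [PowerSeries.coeff_coe]
    simpa using hf
  have hne : (f : LaurentSeries K) ≠ 0 := fun h => h0 (by rw [h]; rfl)
  refine le_antisymm (order_le_of_coeff_ne_zero h0) ?_
  rw [le_order_iff_forall hne]
  intro j hj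
  rw [PowerSeries.coeff_coe, if_pos hj]

/-- `θ` on power series. -/
theorem s44a_theta_coe (f : K⟦X⟧) :
    ffd_theta (f : LaurentSeries K) = ((X * d⁄dX K f : K⟦X⟧) : LaurentSeries K) := by
  ext n
  rw [ffd_theta_coeff, PowerSeries.coeff_coe, PowerSeries.coeff_coe]
  split_ifs with hn
  · rw [mul_zero]
  · obtain ⟨m, rfl⟩ : ∃ m : ℕ, n = m := ⟨n.natAbs, by omega⟩
    rw [Int.natAbs_natCast]
    cases m with
    | zero => simp
    | succ m =>
      rw [coeff_succ_X_mul, coeff_derivative]
      push_cast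
      ring


section Coord

variable (P : K⟦X⟧) (hP : constantCoeff P = 0) (hP1 : IsUnit (coeff 1 P))

include hP in
theorem s44a_hasSubst : HasSubst P := HasSubst.of_constantCoeff_zero' hP

include hP in
theorem s44a_subst_inv_left (f : K⟦X⟧) :
    subst P (subst (P.substInvOfIsUnit hP1) f) = f := by
  rw [subst_comp_subst_apply (HasSubst.substInvOfIsUnit P hP1) (s44a_hasSubst P hP),
    subst_substInvOfIsUnit_left P hP hP1]
  exact X_subst f

include hP in
theorem s44a_subst_inv_right (f : K⟦X⟧) :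
    subst (P.substInvOfIsUnit hP1) (subst P f) = f := by
  rw [subst_comp_subst_apply (s44a_hasSubst P hP) (HasSubst.substInvOfIsUnit P hP1),
    subst_substInvOfIsUnit_right P hP hP1]
  exact X_subst f

/-- the coordinate change `f ↦ f(P)` on power series, `P = u X + ⋯`, as an algebra automorphism. -/
def s44a_psEquiv : K⟦X⟧ ≃ₐ[K] K⟦X⟧ :=
  AlgEquiv.ofAlgHom (substAlgHom (s44a_hasSubst P hP))
    (substAlgHom (HasSubst.substInvOfIsUnit P hP1))
    (by
      ext f : 1
      show substAlgHom (s44a_hasSubst P hP) (substAlgHom (HasSubst.substInvOfIsUnit P hP1) f) = f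
      rw [coe_substAlgHom, coe_substAlgHom]
      exact s44a_subst_inv_left P hP hP1 f)
    (by
      ext f : 1
      show substAlgHom (HasSubst.substInvOfIsUnit P hP1) (substAlgHom (s44a_hasSubst P hP) f) = f
      rw [coe_substAlgHom, coe_substAlgHom]
      exact s44a_subst_inv_right P hP hP1 f)

theorem s44a_psEquiv_apply (f : K⟦X⟧) : s44a_psEquiv P hP hP1 f = f.subst P := by
  show substAlgHom (s44a_hasSubst P hP) f = _
  rw [coe_substAlgHom]

/-- the coordinate change on Laurent series. -/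
def s44a_lsEquiv : LaurentSeries K ≃ₐ[K] LaurentSeries K :=
  AlgEquiv.ofRingEquiv (f := IsFractionRing.ringEquivOfRingEquiv (K := LaurentSeries K)
      (L := LaurentSeries K) (s44a_psEquiv P hP hP1).toRingEquiv)
    (by
      intro a
      have h1 : algebraMap K (LaurentSeries K) a
          = algebraMap K⟦X⟧ (LaurentSeries K) (algebraMap K K⟦X⟧ a) :=
        HahnSeries.algebraMap_apply' (Γ := ℤ) (R := K) (x := a)
      rw [h1, IsFractionRing.ringEquivOfRingEquiv_algebraMap]
      congr 1
      exact (s44a_psEquiv P hP hP1).commutes a)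

theorem s44a_lsEquiv_coe (f : K⟦X⟧) :
    s44a_lsEquiv P hP hP1 (f : LaurentSeries K) = ((f.subst P : K⟦X⟧) : LaurentSeries K) := by
  have := IsFractionRing.ringEquivOfRingEquiv_algebraMap (K := LaurentSeries K)
      (L := LaurentSeries K) (s44a_psEquiv P hP hP1).toRingEquiv f
  rw [← s44a_psEquiv_apply P hP hP1 f]
  exact this

end Coord
section CoordW

variable (W V : K⟦X⟧) (hWV : W * V = 1) (hW : constantCoeff W = 1)

include hW in
theorem s44a_XW_coeff_one : IsUnit (PowerSeries.coeff 1 (X * W)) := by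
  have : PowerSeries.coeff 1 (X * W) = 1 := by
    rw [show (1 : ℕ) = 0 + 1 from rfl, coeff_succ_X_mul, coeff_zero_eq_constantCoeff_apply, hW]
  rw [this]
  exact isUnit_one

theorem s44a_XW_const : constantCoeff (X * W) = 0 := by
  rw [map_mul, constantCoeff_X, zero_mul]

/-- the substitution `T ↦ X W` on Laurent series. -/
def s44a_sig : LaurentSeries K ≃ₐ[K] LaurentSeries K :=
  s44a_lsEquiv (X * W) (s44a_XW_const W) (s44a_XW_coeff_one W hW)

theorem s44a_sig_coe (f : K⟦X⟧) :
    s44a_sig W hW (f : LaurentSeries K) = ((f.subst (X * W) : K⟦X⟧) : LaurentSeries K) :=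
  s44a_lsEquiv_coe _ _ _ f

theorem s44a_sig_C (c : K) : s44a_sig W hW (HahnSeries.C c) = HahnSeries.C c := by
  rw [← s44a_algebraMap_eq_C, AlgEquiv.commutes]

theorem s44a_sig_T : s44a_sig W hW (single 1 1) = ((X * W : K⟦X⟧) : LaurentSeries K) := by
  rw [← HahnSeries.ofPowerSeries_X]
  have := s44a_sig_coe W hW X
  rw [subst_X (s44a_hasSubst _ (s44a_XW_const W))] at this
  exact this

theorem s44a_sig_single (n : ℤ) (c : K) :
    s44a_sig W hW (single n c) = HahnSeries.C c * ((X * W : K⟦X⟧) : LaurentSeries K) ^ n := by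
  have h1 : (single n c : LaurentSeries K) = HahnSeries.C c * (single 1 1) ^ n := by
    rw [← RatFunc.single_zpow, HahnSeries.C_apply, single_mul_single, zero_add, mul_one]
  rw [h1, map_mul, map_zpow₀, s44a_sig_C, s44a_sig_T]

include hWV in
theorem s44a_coe_inv : ((W : K⟦X⟧) : LaurentSeries K)⁻¹ = ((V : K⟦X⟧) : LaurentSeries K) := by
  apply inv_eq_of_mul_eq_one_right
  have : ((W * V : K⟦X⟧) : LaurentSeries K) = 1 := by
    rw [hWV]; exact map_one _
  rw [← this]
  exact (map_mul (ofPowerSeries ℤ K) W V).symm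

include hWV in
theorem s44a_XW_zpow_neg (n : ℕ) :
    ((X * W : K⟦X⟧) : LaurentSeries K) ^ (-(n : ℤ)) =
      single (-(n : ℤ)) 1 * ((V ^ n : K⟦X⟧) : LaurentSeries K) := by
  have e1 : ((X * W : K⟦X⟧) : LaurentSeries K) = single 1 1 * ((W : K⟦X⟧) : LaurentSeries K) := by
    rw [← HahnSeries.ofPowerSeries_X]
    exact map_mul (ofPowerSeries ℤ K) X W
  rw [e1, mul_zpow, ← RatFunc.single_zpow, zpow_neg, zpow_natCast, ← inv_pow, s44a_coe_inv W V hWV]
  congr 1
  exact (map_pow (ofPowerSeries ℤ K) V n).symm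

end CoordW

section CoordW2

variable (W V : K⟦X⟧) (hWV : W * V = 1) (hW : constantCoeff W = 1)

theorem s44a_const_subst (f : K⟦X⟧) : constantCoeff (f.subst (X * W)) = constantCoeff f := by
  have hs := s44a_hasSubst (X * W) (s44a_XW_const W)
  have h1 : f = PowerSeries.C (constantCoeff f) + X * PowerSeries.mk fun p => PowerSeries.coeff (p + 1) f := by
    rw [← sub_const_eq_X_mul_shift]; ring
  conv_lhs => rw [h1]
  rw [subst_add hs, subst_mul hs, subst_X hs, map_add, map_mul, s44a_XW_const, zero_mul, add_zero]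
  have : (PowerSeries.C (constantCoeff f) : K⟦X⟧).subst (X * W) = PowerSeries.C (constantCoeff f) := by
    have := (substAlgHom (R := K) hs).commutes (constantCoeff f)
    rw [coe_substAlgHom] at this
    exact this
  rw [this, constantCoeff_C]

include hW in
theorem s44a_sig_order (h : LaurentSeries K) : (s44a_sig W hW h).order = h.order := by
  by_cases h0 : h = 0
  · rw [h0, map_zero]
  have hd := LaurentSeries.single_order_mul_powerSeriesPart h
  have hc : constantCoeff h.powerSeriesPart ≠ 0 := by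
    rw [← coeff_zero_eq_constantCoeff_apply, LaurentSeries.powerSeriesPart_coeff]
    simpa using (coeff_order_eq_zero.not.mpr h0)
  have hXW : ((X * W : K⟦X⟧) : LaurentSeries K) = single 1 1 * ((W : K⟦X⟧) : LaurentSeries K) := by
    rw [← HahnSeries.ofPowerSeries_X]
    exact map_mul (ofPowerSeries ℤ K) X W
  have hW0 : ((W : K⟦X⟧) : LaurentSeries K) ≠ 0 := by
    intro e
    have := s44a_order_coe W (by rw [hW]; exact one_ne_zero)
    have hc : ((W : K⟦X⟧) : LaurentSeries K).coeff 0 = 1 := by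
      rw [PowerSeries.coeff_coe]; simp [hW]
    rw [e] at hc
    simp at hc
  have hs1 : (single (1 : ℤ) (1 : K) : LaurentSeries K) ≠ 0 := by simp
  have hordP : ((X * W : K⟦X⟧) : LaurentSeries K).order = 1 := by
    rw [hXW, HahnSeries.order_mul hs1 hW0, order_single one_ne_zero,
      s44a_order_coe W (by rw [hW]; exact one_ne_zero), add_zero]
  have hP0 : ((X * W : K⟦X⟧) : LaurentSeries K) ≠ 0 := by
    rw [hXW]; exact mul_ne_zero hs1 hW0
  have hzp : ∀ n : ℤ, (((X * W : K⟦X⟧) : LaurentSeries K) ^ n).order = n := by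
    intro n
    obtain ⟨m, rfl | rfl⟩ := Int.eq_nat_or_neg n
    · rw [zpow_natCast, HahnSeries.order_pow, hordP]; simp
    · have h1 : ((X * W : K⟦X⟧) : LaurentSeries K) ^ (-(m : ℤ)) *
          ((X * W : K⟦X⟧) : LaurentSeries K) ^ (m : ℤ) = 1 := by
        rw [← zpow_add₀ hP0]; simp
      have h2 := congrArg HahnSeries.order h1
      rw [HahnSeries.order_mul (zpow_ne_zero _ hP0) (zpow_ne_zero _ hP0), HahnSeries.order_one, zpow_natCast,
        HahnSeries.order_pow, hordP] at h2
      rw [nsmul_eq_mul, mul_one] at h2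
      omega
  conv_lhs => rw [← hd]
  rw [map_mul, s44a_sig_single, s44a_sig_coe, map_one, one_mul]
  have hne2 : ((h.powerSeriesPart.subst (X * W) : K⟦X⟧) : LaurentSeries K) ≠ 0 := by
    intro e
    have := s44a_order_coe (h.powerSeriesPart.subst (X * W)) (by rwa [s44a_const_subst])
    have hc2 : ((h.powerSeriesPart.subst (X * W) : K⟦X⟧) : LaurentSeries K).coeff 0 ≠ 0 := by
      rw [PowerSeries.coeff_coe]
      simpa [s44a_const_subst] using hc
    rw [e] at hc2
    simp at hc2
  rw [HahnSeries.order_mul (zpow_ne_zero _ hP0) hne2, hzp,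
    s44a_order_coe _ (by rwa [s44a_const_subst]), add_zero]

end CoordW2

section CoordW3

variable (W V : K⟦X⟧) (hWV : W * V = 1) (hW : constantCoeff W = 1)

include hWV hW in
theorem s44a_const_g : constantCoeff (V * d⁄dX K (X * W)) = 1 := by
  have hV : constantCoeff V = 1 := by
    have := congrArg constantCoeff hWV
    rw [map_mul, hW, one_mul, map_one] at this
    exact this
  rw [map_mul, hV, one_mul, ← coeff_zero_eq_constantCoeff_apply, coeff_derivative,
    coeff_succ_X_mul, coeff_zero_eq_constantCoeff_apply, hW]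
  simp

include hWV in
/-- **invariance of the residue**: `res (σ h · dq'/q') = res (h dT/T)`. -/
theorem s44a_sig_residue (h : LaurentSeries K) :
    (s44a_sig W hW h * ((V * d⁄dX K (X * W) : K⟦X⟧) : LaurentSeries K)).coeff 0 = h.coeff 0 := by
  -- induction on a bound for the pole order
  have key : ∀ (d : ℕ) (h : LaurentSeries K), (∀ j : ℤ, j < -(d : ℤ) → h.coeff j = 0) →
      (s44a_sig W hW h * ((V * d⁄dX K (X * W) : K⟦X⟧) : LaurentSeries K)).coeff 0 = h.coeff 0 := by
    intro d
    induction d with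
    | zero =>
      intro h hh
      have e := s44a_eq_coe_of_nonneg h (by simpa using hh)
      set f : K⟦X⟧ := PowerSeries.mk fun n : ℕ => h.coeff n with hf
      rw [e, s44a_sig_coe]
      have : ((f.subst (X * W) : K⟦X⟧) : LaurentSeries K) *
          ((V * d⁄dX K (X * W) : K⟦X⟧) : LaurentSeries K) =
          ((f.subst (X * W) * (V * d⁄dX K (X * W)) : K⟦X⟧) : LaurentSeries K) :=
        (map_mul (ofPowerSeries ℤ K) _ _).symm
      rw [this, PowerSeries.coeff_coe, PowerSeries.coeff_coe]
      simp only [lt_self_iff_false, if_false, Int.natAbs_zero]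
      rw [coeff_zero_eq_constantCoeff_apply, coeff_zero_eq_constantCoeff_apply, map_mul,
        s44a_const_subst, s44a_const_g W V hWV hW, mul_one]
    | succ d ih =>
      intro h hh
      set c := h.coeff (-((d + 1 : ℕ) : ℤ)) with hc
      have h1 : h = single (-((d + 1 : ℕ) : ℤ)) c + (h - single (-((d + 1 : ℕ) : ℤ)) c) := by ring
      have h2 : ∀ j : ℤ, j < -(d : ℤ) → (h - single (-((d + 1 : ℕ) : ℤ)) c).coeff j = 0 := by
        intro j hj
        rw [HahnSeries.coeff_sub]
        by_cases hj2 : j = -((d + 1 : ℕ) : ℤ)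
        · rw [hj2, coeff_single_same, sub_self]
        · rw [coeff_single_of_ne hj2, sub_zero]
          apply hh
          push_cast at hj2 ⊢
          omega
      have h3 := ih _ h2
      rw [HahnSeries.coeff_sub, coeff_single_of_ne (by push_cast; omega), sub_zero] at h3
      conv_lhs => rw [h1]
      rw [map_add, add_mul, HahnSeries.coeff_add, h3, s44a_sig_single,
        s44a_XW_zpow_neg W V hWV (d + 1)]
      have e2 : HahnSeries.C c * (single (-((d + 1 : ℕ) : ℤ)) 1 *
          ((V ^ (d + 1) : K⟦X⟧) : LaurentSeries K)) *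
          ((V * d⁄dX K (X * W) : K⟦X⟧) : LaurentSeries K) =
          single (-((d + 1 : ℕ) : ℤ)) c *
            ((V ^ (d + 1 + 1) * d⁄dX K (X * W) : K⟦X⟧) : LaurentSeries K) := by
        have : ((V ^ (d + 1 + 1) * d⁄dX K (X * W) : K⟦X⟧) : LaurentSeries K) =
            ((V ^ (d + 1) : K⟦X⟧) : LaurentSeries K) *
              ((V * d⁄dX K (X * W) : K⟦X⟧) : LaurentSeries K) := by
          rw [← map_mul (ofPowerSeries ℤ K)]
          congr 1
          ring
        rw [this, HahnSeries.C_apply, ← mul_assoc, ← mul_assoc, single_mul_single, zero_add, mul_one]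
      rw [e2]
      have e3 : (0 : ℤ) = ((d + 1 : ℕ) : ℤ) + -((d + 1 : ℕ) : ℤ) := by ring
      have e4 : (single (-((d + 1 : ℕ) : ℤ)) c *
            ((V ^ (d + 1 + 1) * d⁄dX K (X * W) : K⟦X⟧) : LaurentSeries K)).coeff 0 = 0 := by
        rw [e3, coeff_single_mul_add, PowerSeries.coeff_coe, if_neg (by push_cast; omega),
          Int.natAbs_natCast, s44a_serre W V hWV hW (Nat.succ_ne_zero d), mul_zero]
      rw [e4, zero_add]
  obtain ⟨d, hd⟩ : ∃ d : ℕ, ∀ j : ℤ, j < -(d : ℤ) → h.coeff j = 0 := by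
    refine ⟨(-h.order).toNat, fun j hj => coeff_eq_zero_of_lt_order ?_⟩
    have := Int.self_le_toNat (-h.order)
    omega
  exact key d h hd

end CoordW3

section CoordMain

/-- `θ x` for `x = a (X W)^(-N)`. -/
theorem s44a_theta_x (W V : K⟦X⟧) (hWV : W * V = 1) (N : ℕ) (hN0 : N ≠ 0) (a : K)
    (x : LaurentSeries K)
    (hx : x * ((X * W : K⟦X⟧) : LaurentSeries K) ^ N = HahnSeries.C a)
    (hP0 : ((X * W : K⟦X⟧) : LaurentSeries K) ≠ 0) :
    ffd_theta x = -(HahnSeries.C (N : K) * (x * ((V * d⁄dX K (X * W) : K⟦X⟧) : LaurentSeries K))) := by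
  set Ph : LaurentSeries K := ((X * W : K⟦X⟧) : LaurentSeries K) with hPh
  set g : LaurentSeries K := ((V * d⁄dX K (X * W) : K⟦X⟧) : LaurentSeries K) with hg
  have hDP : ffd_theta Ph = Ph * g := by
    rw [hPh, s44a_theta_coe, hg, ← map_mul (ofPowerSeries ℤ K)]
    congr 1
    calc X * d⁄dX K (X * W) = (W * V) * (X * d⁄dX K (X * W)) := by rw [hWV, one_mul]
      _ = X * W * (V * d⁄dX K (X * W)) := by ring
  have h0 : ffd_thetaDeriv (x * Ph ^ N) = 0 := by
    rw [hx, ← s44a_algebraMap_eq_C]
    exact ffd_theta_algebraMap a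
  rw [Derivation.leibniz, Derivation.leibniz_pow, ffd_thetaDeriv_apply, ffd_thetaDeriv_apply, hDP,
    smul_eq_mul, smul_eq_mul, smul_eq_mul, nsmul_eq_mul] at h0
  obtain ⟨m, rfl⟩ : ∃ m, N = m + 1 := ⟨N - 1, by omega⟩
  have h1 : Ph ^ (m + 1) * (ffd_theta x + HahnSeries.C ((m + 1 : ℕ) : K) * (x * g)) = 0 := by
    have hc : (HahnSeries.C ((m + 1 : ℕ) : K) : LaurentSeries K) = ((m + 1 : ℕ) : LaurentSeries K) :=
      map_natCast (HahnSeries.C : K →+* LaurentSeries K) (m + 1)
    rw [hc]
    rw [Nat.add_sub_cancel] at h0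
    rw [← h0]
    ring
  rcases mul_eq_zero.mp h1 with h2 | h2
  · exact absurd h2 (pow_ne_zero _ hP0)
  · exact eq_neg_of_add_eq_zero_left h2

/-- **the coordinate change.** -/
theorem s44a_coord (N : ℕ) (hN : (N : K) ≠ 0) (x : LaurentSeries K) (hx0 : x ≠ 0)
    (hx : x.order = -(N : ℤ)) :
    ∃ (σ : LaurentSeries K ≃ₐ[K] LaurentSeries K) (a : K), a ≠ 0 ∧
      σ (single (-(N : ℤ)) a) = x ∧ (∀ h, (σ h).order = h.order) ∧
      ∀ h, (σ h * ffd_theta x).coeff 0 = -((N : K) * (a * h.coeff N)) := by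
  have hN0 : N ≠ 0 := by rintro rfl; simp at hN
  set a : K := x.coeff x.order with ha
  have ha0 : a ≠ 0 := coeff_order_eq_zero.not.mpr hx0
  -- the normalised power series part
  set v₁ : K⟦X⟧ := PowerSeries.C a⁻¹ * x.powerSeriesPart with hv₁
  have hv₁c : constantCoeff v₁ = 1 := by
    rw [hv₁, map_mul, constantCoeff_C, ← coeff_zero_eq_constantCoeff_apply,
      LaurentSeries.powerSeriesPart_coeff]
    simp only [Nat.cast_zero, add_zero]
    exact inv_mul_cancel₀ ha0
  set u₁ : K⟦X⟧ := invOfUnit v₁ 1 with hu₁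
  have hvu : v₁ * u₁ = 1 := mul_invOfUnit v₁ 1 (by rw [hv₁c]; rfl)
  have hu₁c : constantCoeff u₁ = 1 := by
    have := congrArg constantCoeff hvu
    rw [map_mul, hv₁c, one_mul, map_one] at this
    exact this
  obtain ⟨W, hWN, hW⟩ := s44a_exists_root N hN u₁ hu₁c
  set V : K⟦X⟧ := invOfUnit W 1 with hV
  have hWV : W * V = 1 := mul_invOfUnit W 1 (by rw [hW]; rfl)
  have hVN : V ^ N = v₁ := by
    calc V ^ N = V ^ N * (v₁ * u₁) := by rw [hvu, mul_one]
      _ = (W * V) ^ N * v₁ := by rw [← hWN]; ring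
      _ = v₁ := by rw [hWV, one_pow, one_mul]
  have hxdec : x = HahnSeries.C a * (single (-(N : ℤ)) 1 * ((V ^ N : K⟦X⟧) : LaurentSeries K)) := by
    have h1 := LaurentSeries.single_order_mul_powerSeriesPart x
    rw [hx] at h1
    have h2 : ((V ^ N : K⟦X⟧) : LaurentSeries K) =
        HahnSeries.C a⁻¹ * ((x.powerSeriesPart : K⟦X⟧) : LaurentSeries K) := by
      rw [hVN, hv₁, map_mul (ofPowerSeries ℤ K), HahnSeries.ofPowerSeries_C]
    rw [h2]
    have h3 : HahnSeries.C a * HahnSeries.C a⁻¹ = (1 : LaurentSeries K) := by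
      rw [← map_mul, mul_inv_cancel₀ ha0, map_one]
    calc x = single (-(N : ℤ)) 1 * ((x.powerSeriesPart : K⟦X⟧) : LaurentSeries K) := h1.symm
      _ = (HahnSeries.C a * HahnSeries.C a⁻¹) *
          (single (-(N : ℤ)) 1 * ((x.powerSeriesPart : K⟦X⟧) : LaurentSeries K)) := by
        rw [h3, one_mul]
      _ = _ := by ring
  have hxsig : s44a_sig W hW (single (-(N : ℤ)) a) = x := by
    rw [s44a_sig_single, s44a_XW_zpow_neg W V hWV N, ← hxdec]
  have hP0 : ((X * W : K⟦X⟧) : LaurentSeries K) ≠ 0 := by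
    intro e
    have h1 := s44a_sig_T W hW
    rw [e] at h1
    have := (s44a_sig W hW).injective (h1.trans (map_zero _).symm)
    simp at this
  have hxP : x * ((X * W : K⟦X⟧) : LaurentSeries K) ^ N = HahnSeries.C a := by
    rw [← hxsig, s44a_sig_single, mul_assoc, ← zpow_natCast, ← zpow_add₀ hP0]
    simp
  refine ⟨s44a_sig W hW, a, ha0, hxsig, s44a_sig_order W hW, fun h => ?_⟩
  rw [s44a_theta_x W V hWV N hN0 a x hxP hP0]
  have e1 : s44a_sig W hW h *
      -(HahnSeries.C (N : K) * (x * ((V * d⁄dX K (X * W) : K⟦X⟧) : LaurentSeries K))) =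
      -(HahnSeries.C (N : K) * (s44a_sig W hW (h * single (-(N : ℤ)) a) *
        ((V * d⁄dX K (X * W) : K⟦X⟧) : LaurentSeries K))) := by
    rw [map_mul (s44a_sig W hW), hxsig]; ring
  rw [e1, HahnSeries.coeff_neg, HahnSeries.C_mul_eq_smul, HahnSeries.coeff_smul, smul_eq_mul,
    s44a_sig_residue W V hWV hW]
  have e2 : (0 : ℤ) = (N : ℤ) + -(N : ℤ) := by ring
  rw [e2, coeff_mul_single_add, mul_comm (h.coeff N) a]

end CoordMain

end

end Fermat.Agent.Lib.S44
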