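/-
M-AT-P programme, W4′ (one-place trace duality), brick [DUAL] part 3 (helper1):
**`K((T)) = ⊕_{i<N} K((T^N)) T^i`**, with `K((T^N)) = qExpand K N '' K((S))` (Prelude `qExpand`):
the component maps `s44a_comp N i`, the decomposition, its uniqueness, and `K((S))`-linearity.
-/
import Mathlib
import Fermat.Prelude.Def_ModularCurve_X0

set_option autoImplicit false

namespace Fermat.Agent.Lib.S44

open HahnSeries ModularCurve

noncomputable section

variable {K : Type*} [Field K] (N : ℕ) [NeZero N]

/-- the `i`-th component of `h ∈ K((T))` with respect to `K((T^N))`: `k ↦ h_{N k + i}`. -/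
def s44a_comp (i : ℕ) (h : LaurentSeries K) : LaurentSeries K :=
  HahnSeries.ofSuppBddBelow (fun k : ℤ => h.coeff ((N : ℤ) * k + i)) (by
    refine ⟨min 0 (h.order - i), ?_⟩
    intro k hk
    rw [Function.mem_support] at hk
    have h1 : ¬ ((N : ℤ) * k + i < h.order) := fun hlt => hk (coeff_eq_zero_of_lt_order hlt)
    have hN : (1 : ℤ) ≤ N := by exact_mod_cast Nat.one_le_iff_ne_zero.mpr (NeZero.ne N)
    rcases le_or_gt 0 k with h2 | h2
    · exact le_trans (min_le_left _ _) h2
    · refine le_trans (min_le_right _ _) ?_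
      have : (N : ℤ) * k ≤ k := by nlinarith
      omega)

@[simp]
theorem s44a_comp_coeff (i : ℕ) (h : LaurentSeries K) (k : ℤ) :
    (s44a_comp N i h).coeff k = h.coeff ((N : ℤ) * k + i) := rfl

theorem s44a_comp_add (i : ℕ) (h h' : LaurentSeries K) :
    s44a_comp N i (h + h') = s44a_comp N i h + s44a_comp N i h' := by
  ext k
  simp

theorem s44a_comp_zero (i : ℕ) : s44a_comp N i (0 : LaurentSeries K) = 0 := by
  ext k
  simp

/-- coefficients of `T^j g(T^N)`. -/
theorem s44a_coeff_single_mul_qExpand (j : ℕ) (g : LaurentSeries K) (n : ℤ) :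
    (single (j : ℤ) (1 : K) * qExpand K N g).coeff n =
      if (N : ℤ) ∣ n - j then g.coeff ((n - j) / N) else 0 := by
  have e : n = (n - j) + j := by ring
  conv_lhs => rw [e, coeff_single_mul_add, one_mul]
  split_ifs with hd
  · obtain ⟨k, hk⟩ := hd
    have hN : (N : ℤ) ≠ 0 := by exact_mod_cast NeZero.ne N
    rw [hk, qExpand_coeff_mul, Int.mul_ediv_cancel_left _ hN]
  · exact qExpand_coeff_of_not_dvd N g hd

/-- **the decomposition** `h = ∑_{i<N} T^i (comp_i h)(T^N)`. -/
theorem s44a_decomp (h : LaurentSeries K) :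
    h = ∑ i ∈ Finset.range N, single (i : ℤ) (1 : K) * qExpand K N (s44a_comp N i h) := by
  ext n
  rw [coeff_sum]
  have hN : (0 : ℤ) < N := by exact_mod_cast Nat.pos_of_ne_zero (NeZero.ne N)
  set i₀ : ℕ := (n % (N : ℤ)).toNat with hi₀
  have hi₀' : (i₀ : ℤ) = n % N := Int.toNat_of_nonneg (Int.emod_nonneg _ hN.ne')
  have hlt : i₀ < N := by
    have := Int.emod_lt_of_pos n hN
    omega
  rw [Finset.sum_eq_single i₀]
  · rw [s44a_coeff_single_mul_qExpand, if_pos, s44a_comp_coeff]
    · congr 1
      rw [hi₀']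
      have := Int.emod_add_mul_ediv n N
      have h2 : (n - n % (N : ℤ)) / N = n / N := by
        have : n - n % (N : ℤ) = N * (n / N) := by linarith
        rw [this, Int.mul_ediv_cancel_left _ hN.ne']
      rw [h2]
      linarith
    · rw [hi₀']
      exact Int.dvd_self_sub_emod
  · intro i hi hne
    rw [s44a_coeff_single_mul_qExpand, if_neg]
    intro hd
    apply hne
    have hiN : i < N := Finset.mem_range.mp hi
    have h1 : n % (N : ℤ) = (i : ℤ) % N := by
      have := Int.emod_emod_of_dvd n (dvd_refl (N : ℤ))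
      exact (Int.emod_eq_emod_iff_emod_sub_eq_zero.mpr (Int.emod_eq_zero_of_dvd hd))
    have h2 : (i : ℤ) % N = i := Int.emod_eq_of_lt (by positivity) (by exact_mod_cast hiN)
    omega
  · intro hni
    exact absurd (Finset.mem_range.mpr hlt) hni

/-- **uniqueness of the decomposition.** -/
theorem s44a_comp_of_decomp (g : ℕ → LaurentSeries K) {i : ℕ} (hi : i < N) :
    s44a_comp N i (∑ j ∈ Finset.range N, single (j : ℤ) (1 : K) * qExpand K N (g j)) = g i := by
  ext k
  rw [s44a_comp_coeff, coeff_sum]
  have hN : (0 : ℤ) < N := by exact_mod_cast Nat.pos_of_ne_zero (NeZero.ne N)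
  rw [Finset.sum_eq_single i]
  · rw [s44a_coeff_single_mul_qExpand, if_pos]
    · congr 1
      rw [add_sub_cancel_right, Int.mul_ediv_cancel_left _ hN.ne']
    · rw [add_sub_cancel_right]
      exact dvd_mul_right _ _
  · intro j hj hne
    rw [s44a_coeff_single_mul_qExpand, if_neg]
    intro hd
    apply hne
    have hjN : j < N := Finset.mem_range.mp hj
    have h1 : (N : ℤ) ∣ (i : ℤ) - j := by
      have : (N : ℤ) * k + i - j = N * k + ((i : ℤ) - j) := by ring
      rw [this] at hd
      exact (Int.dvd_add_right (dvd_mul_right _ _)).mp hd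
    obtain ⟨c, hc⟩ := h1
    have hc0 : c = 0 := by
      by_contra hc0
      have : (N : ℤ) ≤ |(i : ℤ) - j| := by
        rw [hc, abs_mul, abs_of_pos hN]
        have : 1 ≤ |c| := Int.one_le_abs hc0
        nlinarith
      have h3 : |(i : ℤ) - j| < N := by
        rw [abs_lt]
        constructor <;> omega
      omega
    rw [hc0, mul_zero] at hc
    omega
  · intro hni
    exact absurd (Finset.mem_range.mpr hi) hni

/-- **`K((S))`-linearity of the components.** -/
theorem s44a_comp_qExpand_mul (w h : LaurentSeries K) {i : ℕ} (hi : i < N) :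
    s44a_comp N i (qExpand K N w * h) = w * s44a_comp N i h := by
  have h1 : qExpand K N w * h =
      ∑ j ∈ Finset.range N, single (j : ℤ) (1 : K) * qExpand K N (w * s44a_comp N j h) := by
    conv_lhs => rw [s44a_decomp N h, Finset.mul_sum]
    refine Finset.sum_congr rfl fun j _ => ?_
    rw [map_mul]
    ring
  rw [h1, s44a_comp_of_decomp N (fun j => w * s44a_comp N j h) hi]

/-- the components of `T^j g(T^N)`. -/
theorem s44a_comp_single_mul_qExpand (g : LaurentSeries K) {i j : ℕ} (hi : i < N) (hj : j < N) :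
    s44a_comp N i (single (j : ℤ) (1 : K) * qExpand K N g) = if i = j then g else 0 := by
  have h1 : single (j : ℤ) (1 : K) * qExpand K N g =
      ∑ l ∈ Finset.range N, single (l : ℤ) (1 : K) * qExpand K N (if l = j then g else 0) := by
    rw [Finset.sum_eq_single j]
    · rw [if_pos rfl]
    · intro l _ hl
      rw [if_neg hl, map_zero, mul_zero]
    · intro hnj
      exact absurd (Finset.mem_range.mpr hj) hnj
  rw [h1, s44a_comp_of_decomp N (fun l => if l = j then g else 0) hi]

theorem s44a_comp_qExpand (g : LaurentSeries K) :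
    s44a_comp N 0 (qExpand K N g) = g := by
  have h0 : 0 < N := Nat.pos_of_ne_zero (NeZero.ne N)
  have e : qExpand K N g = single ((0 : ℕ) : ℤ) (1 : K) * qExpand K N g := by
    have : (single ((0 : ℕ) : ℤ) (1 : K) : LaurentSeries K) = 1 := by
      rw [Nat.cast_zero]; rfl
    rw [this, one_mul]
  rw [e, s44a_comp_single_mul_qExpand N g h0 h0, if_pos rfl]

/-- shifting by `T^j` moves the `0`-th component to the `j`-th one. -/
theorem s44a_comp_mul_single (j : ℕ) (h : LaurentSeries K) :
    s44a_comp N j (h * single (j : ℤ) (1 : K)) = s44a_comp N 0 h := by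
  ext k
  rw [s44a_comp_coeff, s44a_comp_coeff, coeff_mul_single_add, mul_one, Nat.cast_zero, add_zero]

end

end Fermat.Agent.Lib.S44
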