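/-
M-AT-P programme, W4′ (one-place trace duality), brick [DUAL] part 4 (helper1):
for a `K`-algebra automorphism `σ` of `L = K((q))` (the coordinate change of `ACoord`), the subfield
`E = σ (K((T^N)))`, the explicit `E`-basis `σ (T^i)`, `i < N`, of `L`, and the trace
`Tr_{L/E} y = N · P₀ y`, `P₀ y := τ (comp₀ (σ⁻¹ y))`, `τ = σ ∘ (S ↦ T^N)`.
-/
import Mathlib
import Fermat.Agent.Lib.S44.ASplit
import Fermat.Prelude.Def_ModularCurve_X0ModL

set_option autoImplicit false

namespace Fermat.Agent.Lib.S44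

open HahnSeries ModularCurve

noncomputable section

variable {K : Type*} [Field K] (N : ℕ) [NeZero N]
  (σ : LaurentSeries K ≃ₐ[K] LaurentSeries K)

/-- `τ = σ ∘ (S ↦ T^N) : K((S)) → K((q))`. -/
def s44a_tau : LaurentSeries K →ₐ[K] LaurentSeries K :=
  (σ : LaurentSeries K →ₐ[K] LaurentSeries K).comp (qExpandAlgHomC K N)

theorem s44a_tau_apply (w : LaurentSeries K) : s44a_tau N σ w = σ (qExpand K N w) := rfl

/-- `E = τ (K((S)))`, the closure of `K(x)` in `K((q))`. -/
def s44a_E : IntermediateField K (LaurentSeries K) := (s44a_tau N σ).fieldRange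

/-- `τ` with values in `E`. -/
def s44a_toE (w : LaurentSeries K) : s44a_E N σ := ⟨s44a_tau N σ w, AlgHom.mem_fieldRange.mpr ⟨w, rfl⟩⟩

theorem s44a_toE_coe (w : LaurentSeries K) :
    ((s44a_toE N σ w : s44a_E N σ) : LaurentSeries K) = σ (qExpand K N w) := rfl

theorem s44a_exists_toE (e : s44a_E N σ) : ∃ w, s44a_toE N σ w = e := by
  obtain ⟨w, hw⟩ := AlgHom.mem_fieldRange.mp e.2
  exact ⟨w, Subtype.ext hw⟩

theorem s44a_toE_mul (w w' : LaurentSeries K) :
    s44a_toE N σ (w * w') = s44a_toE N σ w * s44a_toE N σ w' :=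
  Subtype.ext (map_mul (s44a_tau N σ) w w')

theorem s44a_toE_add (w w' : LaurentSeries K) :
    s44a_toE N σ (w + w') = s44a_toE N σ w + s44a_toE N σ w' :=
  Subtype.ext (map_add (s44a_tau N σ) w w')

theorem s44a_toE_injective : Function.Injective (s44a_toE N σ) := by
  intro w w' h
  have := congrArg (fun e : s44a_E N σ => (e : LaurentSeries K)) h
  exact (s44a_tau N σ).toRingHom.injective this

theorem s44a_smul_def (e : s44a_E N σ) (y : LaurentSeries K) :
    e • y = (e : LaurentSeries K) * y := by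
  rw [Algebra.smul_def, IntermediateField.algebraMap_apply]

/-- the `i`-th `E`-coordinate of `y ∈ L`. -/
def s44a_P (i : ℕ) (y : LaurentSeries K) : s44a_E N σ :=
  s44a_toE N σ (s44a_comp N i (σ.symm y))

theorem s44a_P_add (i : ℕ) (y y' : LaurentSeries K) :
    s44a_P N σ i (y + y') = s44a_P N σ i y + s44a_P N σ i y' := by
  rw [s44a_P, map_add, s44a_comp_add, s44a_toE_add]
  rfl

theorem s44a_P_smul {i : ℕ} (hi : i < N) (e : s44a_E N σ) (y : LaurentSeries K) :
    s44a_P N σ i (e • y) = e * s44a_P N σ i y := by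
  obtain ⟨w, rfl⟩ := s44a_exists_toE N σ e
  rw [s44a_smul_def, s44a_P, map_mul, s44a_toE_coe, AlgEquiv.symm_apply_apply,
    s44a_comp_qExpand_mul N w _ hi, s44a_toE_mul]
  rfl

/-- the decomposition of `y ∈ L` in `q`-coordinates. -/
theorem s44a_sum_P (y : LaurentSeries K) :
    ∑ i : Fin N, σ (single ((i : ℕ) : ℤ) (1 : K)) * ((s44a_P N σ i y : s44a_E N σ) : LaurentSeries K) = y := by
  have h1 := s44a_decomp N (σ.symm y)
  have h2 := congrArg σ h1
  rw [AlgEquiv.apply_symm_apply, map_sum] at h2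
  rw [Fin.sum_univ_eq_sum_range
    (fun i => σ (single (i : ℤ) (1 : K)) * ((s44a_P N σ i y : s44a_E N σ) : LaurentSeries K)) N]
  conv_rhs => rw [h2]
  refine Finset.sum_congr rfl fun i _ => ?_
  rw [map_mul]
  rfl

theorem s44a_P_sum (c : Fin N → s44a_E N σ) (i : Fin N) :
    s44a_P N σ i (∑ j : Fin N, σ (single ((j : ℕ) : ℤ) (1 : K)) * ((c j : s44a_E N σ) : LaurentSeries K)) = c i := by
  choose w hw using fun j => s44a_exists_toE N σ (c j)
  set g : ℕ → LaurentSeries K := fun j => if h : j < N then w ⟨j, h⟩ else 0 with hg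
  have h1 : ∑ j : Fin N, σ (single ((j : ℕ) : ℤ) (1 : K)) * ((c j : s44a_E N σ) : LaurentSeries K) =
      σ (∑ j ∈ Finset.range N, single (j : ℤ) (1 : K) * qExpand K N (g j)) := by
    rw [map_sum, ← Fin.sum_univ_eq_sum_range
      (fun j => σ (single (j : ℤ) (1 : K) * qExpand K N (g j))) N]
    refine Finset.sum_congr rfl fun j _ => ?_
    rw [map_mul, ← hw j, s44a_toE_coe]
    congr 3
    simp [hg]
  rw [s44a_P, h1, AlgEquiv.symm_apply_apply, s44a_comp_of_decomp N g i.2, ← hw i]
  congr 1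
  simp [hg]

/-- `L ≃ E^N`. -/
def s44a_equivFun : LaurentSeries K ≃ₗ[s44a_E N σ] (Fin N → s44a_E N σ) where
  toFun y i := s44a_P N σ i y
  map_add' y y' := by
    funext i
    exact s44a_P_add N σ i y y'
  map_smul' e y := by
    funext i
    exact s44a_P_smul N σ i.2 e y
  invFun c := ∑ j : Fin N, σ (single ((j : ℕ) : ℤ) (1 : K)) * ((c j : s44a_E N σ) : LaurentSeries K)
  left_inv y := s44a_sum_P N σ y
  right_inv c := by
    funext i
    exact s44a_P_sum N σ c i

/-- the `E`-basis `σ (T^i)`, `i < N`, of `L`. -/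
def s44a_basis : Module.Basis (Fin N) (s44a_E N σ) (LaurentSeries K) :=
  Module.Basis.ofEquivFun (s44a_equivFun N σ)

theorem s44a_basis_repr (y : LaurentSeries K) (i : Fin N) :
    (s44a_basis N σ).repr y i = s44a_P N σ i y :=
  Module.Basis.ofEquivFun_repr_apply _ _ _

theorem s44a_basis_apply (j : Fin N) :
    s44a_basis N σ j = σ (single ((j : ℕ) : ℤ) (1 : K)) := by
  rw [s44a_basis, Module.Basis.coe_ofEquivFun]
  show ∑ l : Fin N, σ (single ((l : ℕ) : ℤ) (1 : K)) *
    (((Pi.single j 1 : Fin N → s44a_E N σ) l : s44a_E N σ) : LaurentSeries K) = _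
  rw [Finset.sum_eq_single j]
  · rw [Pi.single_eq_same]
    simp
  · intro l _ hl
    rw [Pi.single_eq_of_ne hl]
    simp
  · intro h
    exact absurd (Finset.mem_univ j) h

theorem s44a_finrank : Module.finrank (s44a_E N σ) (LaurentSeries K) = N := by
  rw [Module.finrank_eq_card_basis (s44a_basis N σ), Fintype.card_fin]

instance s44a_finiteDimensional : FiniteDimensional (s44a_E N σ) (LaurentSeries K) :=
  Module.Basis.finiteDimensional_of_finite (s44a_basis N σ)

/-- **the trace of `L / E`**: `Tr y = N · P₀ y`. -/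
theorem s44a_trace (y : LaurentSeries K) :
    Algebra.trace (s44a_E N σ) (LaurentSeries K) y = (N : s44a_E N σ) * s44a_P N σ 0 y := by
  classical
  rw [Algebra.trace_eq_matrix_trace (s44a_basis N σ), Matrix.trace]
  have h1 : ∀ j : Fin N, Matrix.diag (Algebra.leftMulMatrix (s44a_basis N σ) y) j =
      s44a_P N σ 0 y := by
    intro j
    rw [Matrix.diag_apply, Algebra.leftMulMatrix_eq_repr_mul, s44a_basis_repr, s44a_basis_apply,
      s44a_P, map_mul, AlgEquiv.symm_apply_apply, s44a_comp_mul_single]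
    rfl
  rw [Finset.sum_congr rfl fun j _ => h1 j, Finset.sum_const, Finset.card_univ, Fintype.card_fin,
    nsmul_eq_mul]

end

end Fermat.Agent.Lib.S44
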