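/-
M-AT-P programme, W4′ (one-place trace duality), brick [DUAL] part 5 (helper1):
**the link** between the local trace `Tr_{L/E}` (`L = K((q))`, `E` the closure of `K(x)`) and the
global trace `Tr_{F/K(x)}` of a subfield `F ⊂ L` with `[F : K(x)] = N = -ord_q x` which contains an
element of order `1`: every `K(x)`-basis of `F` is an `E`-basis of `L` (total ramification), hence
`Tr_{L/E} (ι y) = ι (Tr_{F/K(x)} y)`.
-/
import Mathlib
import Fermat.Agent.Lib.S44.ATrace

set_option autoImplicit false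

namespace Fermat.Agent.Lib.S44

open HahnSeries ModularCurve IntermediateField

noncomputable section

variable {K : Type*} [Field K] (N : ℕ) [NeZero N]
  (σ : LaurentSeries K ≃ₐ[K] LaurentSeries K)

theorem s44a_order_qExpand (w : LaurentSeries K) :
    (qExpand K N w).order = (N : ℤ) * w.order := by
  by_cases hw : w = 0
  · rw [hw, map_zero, order_zero, mul_zero]
  have hN : (0 : ℤ) < N := by exact_mod_cast Nat.pos_of_ne_zero (NeZero.ne N)
  have h1 : (qExpand K N w).coeff ((N : ℤ) * w.order) ≠ 0 := by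
    rw [qExpand_coeff_mul]
    exact coeff_order_eq_zero.not.mpr hw
  have hne : qExpand K N w ≠ 0 := fun h => h1 (by rw [h]; rfl)
  refine le_antisymm (order_le_of_coeff_ne_zero h1) ?_
  rw [le_order_iff_forall hne]
  intro j hj
  by_cases hd : (N : ℤ) ∣ j
  · obtain ⟨k, rfl⟩ := hd
    rw [qExpand_coeff_mul]
    exact coeff_eq_zero_of_lt_order (lt_of_mul_lt_mul_left hj hN.le)
  · exact qExpand_coeff_of_not_dvd N w hd

/-- a finite sum whose non-zero terms have pairwise distinct orders is non-zero. -/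
theorem s44a_sum_ne_zero {n : ℕ} (c : Fin n → LaurentSeries K) (hc : ∃ i, c i ≠ 0)
    (hord : ∀ i j, c i ≠ 0 → c j ≠ 0 → (c i).order = (c j).order → i = j) :
    ∑ i, c i ≠ 0 := by
  classical
  set S : Finset (Fin n) := Finset.univ.filter fun i => c i ≠ 0 with hS
  have hSne : S.Nonempty := by
    obtain ⟨i, hi⟩ := hc
    exact ⟨i, by simp [hS, hi]⟩
  obtain ⟨i₀, hi₀, hmin⟩ := Finset.exists_min_image S (fun i => (c i).order) hSne
  have hi₀' : c i₀ ≠ 0 := by simpa [hS] using hi₀
  intro h0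
  have h1 := congrArg (fun y : LaurentSeries K => y.coeff (c i₀).order) h0
  simp only [coeff_sum, coeff_zero] at h1
  rw [Finset.sum_eq_single i₀] at h1
  · exact coeff_order_eq_zero.not.mpr hi₀' h1
  · intro i _ hi
    by_cases hci : c i = 0
    · rw [hci]; rfl
    · apply coeff_eq_zero_of_lt_order
      have h2 : (c i₀).order ≤ (c i).order := hmin i (by simp [hS, hci])
      refine lt_of_le_of_ne h2 fun he => hi ?_
      exact (hord i₀ i hi₀' hci he).symm
  · intro h
    exact absurd (Finset.mem_univ i₀) h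


theorem s44a_order_E (hσ : ∀ h, (σ h).order = h.order) (e : s44a_E N σ) :
    (N : ℤ) ∣ ((e : s44a_E N σ) : LaurentSeries K).order := by
  obtain ⟨w, rfl⟩ := s44a_exists_toE N σ e
  rw [s44a_toE_coe, hσ, s44a_order_qExpand]
  exact dvd_mul_right _ _

/-- powers of an element of order `1` are `E`-linearly independent. -/
theorem s44a_linearIndependent_pow (hσ : ∀ h, (σ h).order = h.order) (t : LaurentSeries K)
    (ht : t.order = 1) :
    LinearIndependent (s44a_E N σ) (fun i : Fin N => t ^ (i : ℕ)) := by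
  rw [Fintype.linearIndependent_iff]
  intro g hg
  by_contra hne
  rw [not_forall] at hne
  have ht0 : t ≠ 0 := by
    rintro rfl
    rw [order_zero] at ht
    exact zero_ne_one ht
  have hN : (0 : ℤ) < N := by exact_mod_cast Nat.pos_of_ne_zero (NeZero.ne N)
  set c : Fin N → LaurentSeries K := fun i => ((g i : s44a_E N σ) : LaurentSeries K) * t ^ (i : ℕ) with hc
  have hc0 : ∀ i, c i ≠ 0 ↔ g i ≠ 0 := by
    intro i
    simp only [hc, ne_eq, mul_eq_zero, pow_eq_zero_iff', ht0, false_and, or_false]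
    exact (ZeroMemClass.coe_eq_zero).not
  have hco : ∀ i, c i ≠ 0 → (c i).order % (N : ℤ) = (i : ℕ) := by
    intro i hi
    have hgi : ((g i : s44a_E N σ) : LaurentSeries K) ≠ 0 := by
      intro h
      exact (hc0 i).mp hi (ZeroMemClass.coe_eq_zero.mp h)
    obtain ⟨k, hk⟩ := s44a_order_E N σ hσ (g i)
    simp only [hc]
    rw [HahnSeries.order_mul hgi (pow_ne_zero _ ht0), HahnSeries.order_pow, ht, hk, nsmul_eq_mul,
      mul_one, Int.mul_add_emod_self_left]  
    exact Int.emod_eq_of_lt (by positivity) (by exact_mod_cast i.2)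
  refine s44a_sum_ne_zero c ?_ ?_ ?_
  · obtain ⟨i, hi⟩ := hne
    exact ⟨i, (hc0 i).mpr hi⟩
  · intro i j hi hj he
    have h1 := hco i hi
    have h2 := hco j hj
    rw [he, h2] at h1
    exact Fin.ext (by exact_mod_cast h1.symm)
  · rw [← hg]
    refine Finset.sum_congr rfl fun i _ => ?_
    rw [s44a_smul_def]


section Link

variable {F : Type*} [Field F] [Algebra K F] (ι : F →ₐ[K] LaurentSeries K) (x : F)
  (hxE : ι x ∈ s44a_E N σ)

include hxE in
theorem s44a_iota_mem_E (c : K⟮x⟯) : ι (c : F) ∈ s44a_E N σ := by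
  have h1 : ι (c : F) ∈ (K⟮x⟯).map ι := ⟨c, c.2, rfl⟩
  rw [adjoin_map] at h1
  refine (adjoin_le_iff.mpr ?_) h1
  rintro _ ⟨y, hy, rfl⟩
  rw [Set.mem_singleton_iff] at hy
  rw [hy]
  exact hxE

/-- `K(x) → E`. -/
def s44a_jE (c : K⟮x⟯) : s44a_E N σ := ⟨ι (c : F), s44a_iota_mem_E N σ ι x hxE c⟩

theorem s44a_smul_F (c : K⟮x⟯) (v : F) : c • v = (c : F) * v := by
  rw [Algebra.smul_def, IntermediateField.algebraMap_apply]

include hxE in
/-- `ι y` lies in the `E`-span of the image of any `K(x)`-basis of `F`. -/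
theorem s44a_iota_mem_span (b : Module.Basis (Fin N) K⟮x⟯ F) (y : F) :
    ι y ∈ Submodule.span (s44a_E N σ) (Set.range fun i => ι (b i)) := by
  have h1 := b.sum_repr y
  rw [← h1, map_sum]
  refine Submodule.sum_mem _ fun k _ => ?_
  rw [s44a_smul_F, map_mul]
  have : ι ((b.repr y k : K⟮x⟯) : F) * ι (b k) = s44a_jE N σ ι x hxE (b.repr y k) • ι (b k) := by
    rw [s44a_smul_def]; rfl
  rw [this]
  exact Submodule.smul_mem _ _ (Submodule.subset_span ⟨k, rfl⟩)

include hxE in
/-- the image of any `K(x)`-basis of `F` spans `L` over `E` (`[F : K(x)] = N = e`, total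
ramification). -/
theorem s44a_span_top (hσ : ∀ h, (σ h).order = h.order) (t : F) (ht : (ι t).order = 1)
    (b : Module.Basis (Fin N) K⟮x⟯ F) :
    ⊤ ≤ Submodule.span (s44a_E N σ) (Set.range fun i => ι (b i)) := by
  have hli := s44a_linearIndependent_pow N σ hσ (ι t) ht
  have h1 : Submodule.span (s44a_E N σ) (Set.range fun i : Fin N => ι t ^ (i : ℕ)) = ⊤ := by
    apply Submodule.eq_top_of_finrank_eq
    rw [finrank_span_eq_card hli, Fintype.card_fin, s44a_finrank]
  rw [← h1]
  refine Submodule.span_le.mpr ?_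
  rintro _ ⟨i, rfl⟩
  have : ι t ^ (i : ℕ) = ι (t ^ (i : ℕ)) := (map_pow ι t i).symm
  rw [SetLike.mem_coe]
  simp only [this]
  exact s44a_iota_mem_span N σ ι x hxE b _

/-- the image of a `K(x)`-basis of `F`, as an `E`-basis of `L`. -/
def s44a_basisL (hσ : ∀ h, (σ h).order = h.order) (t : F) (ht : (ι t).order = 1)
    (b : Module.Basis (Fin N) K⟮x⟯ F) : Module.Basis (Fin N) (s44a_E N σ) (LaurentSeries K) :=
  basisOfTopLeSpanOfCardEqFinrank (fun i => ι (b i)) (s44a_span_top N σ ι x hxE hσ t ht b)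
    (by rw [Fintype.card_fin, s44a_finrank])

theorem s44a_basisL_apply (hσ : ∀ h, (σ h).order = h.order) (t : F) (ht : (ι t).order = 1)
    (b : Module.Basis (Fin N) K⟮x⟯ F) (i : Fin N) :
    s44a_basisL N σ ι x hxE hσ t ht b i = ι (b i) := by
  rw [s44a_basisL, coe_basisOfTopLeSpanOfCardEqFinrank]

include hxE in
/-- **the link**: `Tr_{L/E}` restricted to `F` is `Tr_{F/K(x)}`. -/
theorem s44a_trace_link (hσ : ∀ h, (σ h).order = h.order) (t : F) (ht : (ι t).order = 1)
    (hdeg : Module.finrank K⟮x⟯ F = N) (y : F) :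
    ((Algebra.trace (s44a_E N σ) (LaurentSeries K) (ι y) : s44a_E N σ) : LaurentSeries K) =
      ι (algebraMap K⟮x⟯ F (Algebra.trace K⟮x⟯ F y)) := by
  classical
  have hfin : FiniteDimensional K⟮x⟯ F := by
    apply Module.finite_of_finrank_pos
    rw [hdeg]
    exact Nat.pos_of_ne_zero (NeZero.ne N)
  let b : Module.Basis (Fin N) K⟮x⟯ F := Module.finBasisOfFinrankEq K⟮x⟯ F hdeg
  set b' := s44a_basisL N σ ι x hxE hσ t ht b with hb'
  rw [Algebra.trace_eq_matrix_trace b', Algebra.trace_eq_matrix_trace b, Matrix.trace, Matrix.trace]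
  have h1 : ∀ j : Fin N, Matrix.diag (Algebra.leftMulMatrix b' (ι y)) j =
      s44a_jE N σ ι x hxE (Matrix.diag (Algebra.leftMulMatrix b y) j) := by
    intro j
    rw [Matrix.diag_apply, Matrix.diag_apply, Algebra.leftMulMatrix_eq_repr_mul,
      Algebra.leftMulMatrix_eq_repr_mul]
    have h2 : ι y * b' j = ∑ k, s44a_jE N σ ι x hxE (b.repr (y * b j) k) • b' k := by
      rw [hb', s44a_basisL_apply, ← map_mul]
      conv_lhs => rw [← b.sum_repr (y * b j), map_sum]
      refine Finset.sum_congr rfl fun k _ => ?_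
      rw [s44a_smul_F, map_mul, s44a_smul_def, s44a_basisL_apply]
      rfl
    rw [h2, b'.repr_sum_self]
  rw [Finset.sum_congr rfl fun j _ => h1 j]
  rw [IntermediateField.coe_sum, map_sum, map_sum]
  rfl

end Link

end

end Fermat.Agent.Lib.S44
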