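/-
M-AT-P programme, W4′ (one-place trace duality), brick [DUAL] part 6 (helper1): **THE DUALITY.**

`K` a field, `F` a field with `ι : F →ₐ[K] K((q))`, `x ∈ F` with `ord_q x = -N`, `N` invertible in `K`,
`[F : K(x)] = N`, and some `t ∈ F` of order `1` (the place `q = 0` of `F` is totally ramified over
`x = ∞`).  With `θ = q d/dq`:

* `s44a_res_trace` (E1): `N · coeff₀ (y θx) = coeff₀ (Tr_{F/K(x)} (y) θx)` for `y ∈ F`;
* `s44a_res_zpow`  (E2): `coeff₀ (x^k θx) = -N δ_{k,-1}`;
* `s44a_dual`      (E3): if `B ⊆ F` is a `K[x]`-submodule containing a `K(x)`-basis of `F` and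
  `φ ∈ K((q))` satisfies `coeff₀ (U φ) = 0` for all `U ∈ B`, then `φ = z θx` with `z ∈ F` and
  `Tr_{F/K(x)} (z U) ∈ K[x]` for all `U ∈ B` (`z` lies in the trace dual of `B`).
-/
import Mathlib
import Fermat.Agent.Lib.S44.ALink
import Fermat.Agent.Lib.S44.ACoord

set_option autoImplicit false
set_option linter.unusedSectionVars false

namespace Fermat.Agent.Lib.S44

open HahnSeries ModularCurve IntermediateField Fermat.Agent.Lib.FF

noncomputable section

section Aux

variable {K : Type*} [Field K] (N : ℕ) [NeZero N]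
  (σ : LaurentSeries K ≃ₐ[K] LaurentSeries K)

theorem s44a_single_zpow (n : ℤ) (a : K) (k : ℤ) :
    (single n a : LaurentSeries K) ^ k = single (n * k) (a ^ k) := by
  obtain ⟨m, rfl | rfl⟩ := Int.eq_nat_or_neg k
  · rw [zpow_natCast, zpow_natCast, single_pow, nsmul_eq_mul, mul_comm]
  · rw [zpow_neg, zpow_neg, zpow_natCast, zpow_natCast, single_pow, inv_single, nsmul_eq_mul]
    congr 1
    ring_nf

section Lam

variable (a : K) {F : Type*} [Field F] [Algebra K F] (ι : F →ₐ[K] LaurentSeries K) (x : F)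
  (hx : ι x = σ (single (-(N : ℤ)) a))
  (hres : ∀ h : LaurentSeries K,
    (σ h * ffd_theta (ι x)).coeff 0 = -((N : K) * (a * h.coeff N)))

include hx in
theorem s44a_x_eq_tau : ι x = s44a_tau N σ (single (-1 : ℤ) a) := by
  rw [hx, s44a_tau_apply, qExpand_single, mul_neg_one]

include hx in
theorem s44a_x_mem_E : ι x ∈ s44a_E N σ :=
  AlgHom.mem_fieldRange.mpr ⟨_, (s44a_x_eq_tau N σ a ι x hx).symm⟩

include hres in
theorem s44a_lam_eq (y : LaurentSeries K) :
    (y * ffd_theta (ι x)).coeff 0 = -((N : K) * (a * (σ.symm y).coeff N)) := by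
  have := hres (σ.symm y)
  rwa [AlgEquiv.apply_symm_apply] at this

include hres in
theorem s44a_lam_toE (w : LaurentSeries K) :
    (((s44a_toE N σ w : s44a_E N σ) : LaurentSeries K) * ffd_theta (ι x)).coeff 0 =
      -((N : K) * (a * w.coeff 1)) := by
  rw [s44a_lam_eq N σ a ι x hres, s44a_toE_coe, AlgEquiv.symm_apply_apply]
  have : ((N : ℕ) : ℤ) = (N : ℤ) * 1 := by ring
  rw [this, qExpand_coeff_mul]

include hres in
/-- the residue only depends on the `0`-th component (`= Tr / N`). -/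
theorem s44a_lam_P (y : LaurentSeries K) :
    (y * ffd_theta (ι x)).coeff 0 =
      (((s44a_P N σ 0 y : s44a_E N σ) : LaurentSeries K) * ffd_theta (ι x)).coeff 0 := by
  rw [s44a_P, s44a_lam_toE N σ a ι x hres, s44a_lam_eq N σ a ι x hres, s44a_comp_coeff]
  congr 4
  push_cast
  ring_nf

include hx hres in
/-- **(E2)** `res (x^k dx) = -N δ_{k,-1}` at the pole of order `N`. -/
theorem s44a_res_zpow_aux (ha : a ≠ 0) (k : ℤ) :
    ((ι x) ^ k * ffd_theta (ι x)).coeff 0 = if k = -1 then -(N : K) else 0 := by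
  rw [s44a_lam_eq N σ a ι x hres, map_zpow₀, hx, AlgEquiv.symm_apply_apply, s44a_single_zpow,
    coeff_single]
  have hN : (N : ℤ) ≠ 0 := by exact_mod_cast NeZero.ne N
  by_cases hk : k = -1
  · rw [if_pos hk, hk, if_pos (by ring), zpow_neg_one, mul_inv_cancel₀ ha, mul_one]
  · rw [if_neg hk, if_neg, mul_zero, mul_zero, neg_zero]
    intro h
    apply hk
    have : (N : ℤ) * (k + 1) = 0 := by linarith
    rcases mul_eq_zero.mp this with h1 | h1
    · exact absurd h1 hN
    · linarith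

include hx hres in
/-- **(E1)**, the global-local trace formula. -/
theorem s44a_res_trace_aux (hσ : ∀ h, (σ h).order = h.order) (t : F) (ht : (ι t).order = 1)
    (hdeg : Module.finrank K⟮x⟯ F = N) (y : F) :
    (N : K) * (ι y * ffd_theta (ι x)).coeff 0 =
      (ι (algebraMap K⟮x⟯ F (Algebra.trace K⟮x⟯ F y)) * ffd_theta (ι x)).coeff 0 := by
  rw [← s44a_trace_link N σ ι x (s44a_x_mem_E N σ a ι x hx) hσ t ht hdeg y, s44a_trace,
    s44a_lam_P N σ a ι x hres (ι y)]
  have h1 : (((N : s44a_E N σ) * s44a_P N σ 0 (ι y) : s44a_E N σ) : LaurentSeries K) =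
      HahnSeries.C (N : K) * ((s44a_P N σ 0 (ι y) : s44a_E N σ) : LaurentSeries K) := by
    rw [MulMemClass.coe_mul]
    congr 1
  rw [h1, mul_assoc, HahnSeries.C_mul_eq_smul, HahnSeries.coeff_smul, smul_eq_mul]

include hx in
/-- `τ` of a Laurent polynomial in `S⁻¹` is a polynomial in `x`. -/
theorem s44a_tau_poly (ha : a ≠ 0) (d : ℕ) : ∀ w : LaurentSeries K, (∀ j : ℤ, 0 < j → w.coeff j = 0) →
    (∀ j : ℤ, j < -(d : ℤ) → w.coeff j = 0) →
    ∃ p : Polynomial K, s44a_tau N σ w = Polynomial.aeval (ι x) p := by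
  induction d with
  | zero =>
    intro w h1 h2
    obtain ⟨c₀, hw⟩ : ∃ c₀ : K, w = HahnSeries.C c₀ := by
      refine ⟨w.coeff 0, ?_⟩
      ext j
      rw [HahnSeries.C_apply, coeff_single]
      rcases lt_trichotomy j 0 with hj | hj | hj
      · rw [if_neg hj.ne, h2 j (by simpa using hj)]
      · rw [if_pos hj, hj]
      · rw [if_neg hj.ne', h1 j hj]
    refine ⟨Polynomial.C c₀, ?_⟩
    rw [hw, Polynomial.aeval_C, ← s44a_algebraMap_eq_C, AlgHom.commutes]
  | succ d ih =>
    intro w h1 h2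
    set c := w.coeff (-((d + 1 : ℕ) : ℤ)) with hc
    obtain ⟨p, hp⟩ := ih (w - single (-((d + 1 : ℕ) : ℤ)) c)
      (by
        intro j hj
        rw [HahnSeries.coeff_sub, h1 j hj, coeff_single_of_ne (by push_cast; omega), sub_zero])
      (by
        intro j hj
        rw [HahnSeries.coeff_sub]
        by_cases hj2 : j = -((d + 1 : ℕ) : ℤ)
        · rw [hj2, coeff_single_same, sub_self]
        · rw [coeff_single_of_ne hj2, sub_zero]
          apply h2
          push_cast at hj2 ⊢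
          omega)
    refine ⟨p + Polynomial.C (c / a ^ (d + 1)) * Polynomial.X ^ (d + 1), ?_⟩
    have e1 : (single (-((d + 1 : ℕ) : ℤ)) c : LaurentSeries K) =
        HahnSeries.C (c / a ^ (d + 1)) * (single (-1 : ℤ) a) ^ (d + 1) := by
      rw [single_pow, HahnSeries.C_apply, single_mul_single, zero_add, nsmul_eq_mul, mul_neg_one,
        div_mul_cancel₀ _ (pow_ne_zero _ ha)]
    have e2 : w = (w - single (-((d + 1 : ℕ) : ℤ)) c) + single (-((d + 1 : ℕ) : ℤ)) c := by ring
    conv_lhs => rw [e2]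
    rw [map_add, hp, e1, map_mul, map_pow, ← s44a_x_eq_tau N σ a ι x hx, ← s44a_algebraMap_eq_C,
      AlgHom.commutes, map_add, map_mul, Polynomial.aeval_C, map_pow, Polynomial.aeval_X]

include hx hres in
/-- **(P1)** `K[x]^⊥ = K[x]` inside `E`. -/
theorem s44a_mem_poly (ha : a ≠ 0) (hN : (N : K) ≠ 0) (e : s44a_E N σ)
    (h : ∀ k : ℕ, ((ι x) ^ k * (e : LaurentSeries K) * ffd_theta (ι x)).coeff 0 = 0) :
    ∃ p : Polynomial K, (e : LaurentSeries K) = Polynomial.aeval (ι x) p := by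
  obtain ⟨w, rfl⟩ := s44a_exists_toE N σ e
  have h1 : ∀ j : ℤ, 0 < j → w.coeff j = 0 := by
    intro j hj
    obtain ⟨k, rfl⟩ : ∃ k : ℕ, j = (k : ℤ) + 1 := ⟨(j - 1).toNat, by omega⟩
    have h2 := h k
    have e1 : (ι x) ^ k * ((s44a_toE N σ w : s44a_E N σ) : LaurentSeries K) =
        ((s44a_toE N σ (single (-(k : ℤ)) (a ^ k) * w) : s44a_E N σ) : LaurentSeries K) := by
      rw [s44a_toE_coe, s44a_toE_coe, map_mul, map_mul, s44a_x_eq_tau N σ a ι x hx, s44a_tau_apply,
        ← map_pow, ← map_pow, single_pow]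
      congr 4
      simp
    rw [e1, s44a_lam_toE N σ a ι x hres] at h2
    have e2 : (1 : ℤ) = ((k : ℤ) + 1) + -(k : ℤ) := by ring
    rw [e2, coeff_single_mul_add] at h2
    have h3 : (N : K) * (a * (a ^ k * w.coeff ((k : ℤ) + 1))) = 0 := neg_eq_zero.mp h2
    rcases mul_eq_zero.mp h3 with h4 | h4
    · exact absurd h4 hN
    rcases mul_eq_zero.mp h4 with h5 | h5
    · exact absurd h5 ha
    rcases mul_eq_zero.mp h5 with h6 | h6
    · exact absurd h6 (pow_ne_zero _ ha)
    · exact h6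
  obtain ⟨d, hd⟩ : ∃ d : ℕ, ∀ j : ℤ, j < -(d : ℤ) → w.coeff j = 0 := by
    refine ⟨(-w.order).toNat, fun j hj => coeff_eq_zero_of_lt_order ?_⟩
    have := Int.self_le_toNat (-w.order)
    omega
  exact s44a_tau_poly N σ a ι x hx ha d w h1 hd

include hx in
/-- `N · P₀ (ι y) = Tr_{F/K(x)} y`. -/
theorem s44a_NP_eq (hσ : ∀ h, (σ h).order = h.order) (t : F) (ht : (ι t).order = 1)
    (hdeg : Module.finrank K⟮x⟯ F = N) (y : F) :
    (N : s44a_E N σ) * s44a_P N σ 0 (ι y) =
      s44a_jE N σ ι x (s44a_x_mem_E N σ a ι x hx) (Algebra.trace K⟮x⟯ F y) := by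
  apply Subtype.ext
  rw [← s44a_trace]
  exact s44a_trace_link N σ ι x (s44a_x_mem_E N σ a ι x hx) hσ t ht hdeg y

theorem s44a_lam_NE (θ : LaurentSeries K) (e' : s44a_E N σ) :
    ((((N : s44a_E N σ) * e' : s44a_E N σ) : LaurentSeries K) * θ).coeff 0 =
      (N : K) * (((e' : s44a_E N σ) : LaurentSeries K) * θ).coeff 0 := by
  have h1 : (((N : s44a_E N σ) * e' : s44a_E N σ) : LaurentSeries K) =
      HahnSeries.C (N : K) * ((e' : s44a_E N σ) : LaurentSeries K) := by
    rw [MulMemClass.coe_mul]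
    congr 1
  rw [h1, mul_assoc, HahnSeries.C_mul_eq_smul, HahnSeries.coeff_smul, smul_eq_mul]

theorem s44a_pow_mul_mem (B : Submodule K F) (hBx : ∀ U ∈ B, x * U ∈ B) (k : ℕ) :
    ∀ U ∈ B, x ^ k * U ∈ B := by
  induction k with
  | zero => intro U hU; simpa using hU
  | succ k ih =>
    intro U hU
    rw [pow_succ', mul_assoc]
    exact hBx _ (ih U hU)

include hx hres in
/-- **(E3), the one-place trace duality**, with the coordinate change as data. -/
theorem s44a_dual_aux (ha : a ≠ 0) (hN : (N : K) ≠ 0) (hσ : ∀ h, (σ h).order = h.order)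
    (t : F) (ht : (ι t).order = 1) (hdeg : Module.finrank K⟮x⟯ F = N)
    (B : Submodule K F) (hBx : ∀ U ∈ B, x * U ∈ B)
    (b : Module.Basis (Fin N) K⟮x⟯ F) (hb : ∀ i, b i ∈ B)
    (φ : LaurentSeries K) (hφ : ∀ U ∈ B, (ι U * φ).coeff 0 = 0) :
    ∃ z : F, φ = ι z * ffd_theta (ι x) ∧
      ∀ U ∈ B, ∃ p : Polynomial K,
        algebraMap K⟮x⟯ F (Algebra.trace K⟮x⟯ F (z * U)) = Polynomial.aeval x p := by
  classical
  have hxE := s44a_x_mem_E N σ a ι x hx
  -- θ x ≠ 0
  have hθ : ffd_theta (ι x) ≠ 0 := by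
    intro h0
    have := s44a_res_zpow_aux N σ a ι x hx hres ha (-1)
    rw [h0, mul_zero, if_pos rfl] at this
    exact hN (neg_eq_zero.mp this.symm)
  set θ := ffd_theta (ι x) with hθdef
  set z₀ : LaurentSeries K := φ * θ⁻¹ with hz₀
  have hφz : φ = z₀ * θ := by rw [hz₀, mul_assoc, inv_mul_cancel₀ hθ, mul_one]
  -- separability
  have hfin : FiniteDimensional K⟮x⟯ F := by
    apply Module.finite_of_finrank_pos
    rw [hdeg]
    exact Nat.pos_of_ne_zero (NeZero.ne N)
  have hNx : ((N : ℕ) : K⟮x⟯) ≠ 0 := by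
    have : ((N : ℕ) : K⟮x⟯) = algebraMap K K⟮x⟯ (N : K) := (map_natCast _ N).symm
    rw [this]
    exact (map_ne_zero _).mpr hN
  have hsep : Algebra.IsSeparable K⟮x⟯ F := by
    refine ((traceForm_nondegenerate_tfae K⟮x⟯ F).out 0 1).mpr ?_
    intro h0
    have h1 := Algebra.trace_algebraMap (R := K⟮x⟯) (S := F) (1 : K⟮x⟯)
    rw [h0, LinearMap.zero_apply, hdeg, nsmul_eq_mul, mul_one] at h1
    exact hNx h1.symm
  -- the dual basis and the coordinates of `z₀`
  set bd := b.traceDual with hbd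
  set bd' := s44a_basisL N σ ι x hxE hσ t ht bd with hbd'
  set e : Fin N → s44a_E N σ := fun j => bd'.repr z₀ j with he
  have hz₀sum : z₀ = ∑ j, e j • ι (bd j) := by
    conv_lhs => rw [← bd'.sum_repr z₀]
    refine Finset.sum_congr rfl fun j _ => ?_
    rw [hbd', s44a_basisL_apply]
  set xE : s44a_E N σ := ⟨ι x, hxE⟩ with hxEdef
  -- the coordinates are polynomials in `x`
  have hpoly : ∀ i : Fin N, ∃ p : Polynomial K,
      ((e i : s44a_E N σ) : LaurentSeries K) = Polynomial.aeval (ι x) p := by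
    intro i
    apply s44a_mem_poly N σ a ι x hx hres ha hN (e i)
    intro k
    have hU : x ^ k * b i ∈ B := s44a_pow_mul_mem x B hBx k _ (hb i)
    have h1 := hφ _ hU
    rw [hφz, ← mul_assoc, s44a_lam_P N σ a ι x hres] at h1
    have h2 : (N : s44a_E N σ) * s44a_P N σ 0 (ι (x ^ k * b i) * z₀) = xE ^ k * e i := by
      have h3 : ι (x ^ k * b i) * z₀ = ∑ j, (xE ^ k * e j) • ι (b i * bd j) := by
        rw [hz₀sum, Finset.mul_sum]
        refine Finset.sum_congr rfl fun j _ => ?_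
        rw [s44a_smul_def, s44a_smul_def, map_mul, map_mul, map_pow]
        show _ = (ι x ^ k * ((e j : s44a_E N σ) : LaurentSeries K)) * _
        ring
      have hPsum : ∀ (s : Finset (Fin N)) (f : Fin N → LaurentSeries K),
          s44a_P N σ 0 (∑ j ∈ s, f j) = ∑ j ∈ s, s44a_P N σ 0 (f j) := by
        intro s f
        induction s using Finset.induction_on with
        | empty =>
          simp only [Finset.sum_empty]
          rw [s44a_P, map_zero, s44a_comp_zero]
          exact Subtype.ext (map_zero _)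
        | insert j s hj ih => rw [Finset.sum_insert hj, Finset.sum_insert hj, s44a_P_add, ih]
      rw [h3, hPsum, Finset.mul_sum]
      have h4 : ∀ j, (N : s44a_E N σ) * s44a_P N σ 0 ((xE ^ k * e j) • ι (b i * bd j)) =
          (xE ^ k * e j) * (if i = j then 1 else 0) := by
        intro j
        rw [s44a_P_smul N σ (Nat.pos_of_ne_zero (NeZero.ne N)), mul_left_comm,
          s44a_NP_eq N σ a ι x hx hσ t ht hdeg, Module.Basis.trace_mul_traceDual]
        congr 1
        split_ifs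
        · exact Subtype.ext (by simp [s44a_jE])
        · exact Subtype.ext (by simp [s44a_jE])
      rw [Finset.sum_congr rfl fun j _ => h4 j]
      simp
    have h5 := s44a_lam_NE N σ θ (s44a_P N σ 0 (ι (x ^ k * b i) * z₀))
    rw [h1, mul_zero, h2] at h5
    rw [← h5]
    rfl
  choose p hp using hpoly
  refine ⟨∑ j, Polynomial.aeval x (p j) * bd j, ?_, ?_⟩
  · have : ι (∑ j, Polynomial.aeval x (p j) * bd j) = z₀ := by
      rw [hz₀sum, map_sum]
      refine Finset.sum_congr rfl fun j _ => ?_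
      rw [map_mul, s44a_smul_def, hp j, Polynomial.aeval_algHom_apply]
    rw [this, hφz]
  · intro U hU
    set z := ∑ j, Polynomial.aeval x (p j) * bd j with hz
    have hιz : ι z = z₀ := by
      rw [hz, hz₀sum, map_sum]
      refine Finset.sum_congr rfl fun j _ => ?_
      rw [map_mul, s44a_smul_def, hp j, Polynomial.aeval_algHom_apply]
    set r := Algebra.trace K⟮x⟯ F (z * U) with hr
    have key : ∃ q : Polynomial K,
        ((s44a_jE N σ ι x hxE r : s44a_E N σ) : LaurentSeries K) = Polynomial.aeval (ι x) q := by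
      apply s44a_mem_poly N σ a ι x hx hres ha hN
      intro k
      have hU' : x ^ k * U ∈ B := s44a_pow_mul_mem x B hBx k U hU
      have h1 := hφ _ hU'
      rw [hφz, ← hιz, ← mul_assoc, ← map_mul] at h1
      have h2 := s44a_res_trace_aux N σ a ι x hx hres hσ t ht hdeg (x ^ k * U * z)
      rw [h1, mul_zero] at h2
      have h3 : x ^ k * U * z = (AdjoinSimple.gen K x) ^ k • (z * U) := by
        rw [s44a_smul_F]
        simp only [SubmonoidClass.coe_pow, AdjoinSimple.coe_gen]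
        ring
      rw [h3, map_smul, smul_eq_mul, map_mul, map_pow, AdjoinSimple.algebraMap_gen, map_mul,
        map_pow] at h2
      exact h2.symm
    obtain ⟨q, hq⟩ := key
    refine ⟨q, ι.toRingHom.injective ?_⟩
    show ι _ = ι _
    rw [← Polynomial.aeval_algHom_apply, ← hq]
    rfl


end Lam

end Aux

section Final

variable {K : Type*} [Field K] {F : Type*} [Field F] [Algebra K F]
  (ι : F →ₐ[K] LaurentSeries K) (x t : F) (N : ℕ) (hN : (N : K) ≠ 0)
  (hx : (ι x).order = -(N : ℤ)) (ht : (ι t).order = 1)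
  (hdeg : Module.finrank K⟮x⟯ F = N)

include hN hx in
theorem s44a_coord_data : ∃ (_ : NeZero N) (σ : LaurentSeries K ≃ₐ[K] LaurentSeries K) (a : K),
    a ≠ 0 ∧ ι x = σ (single (-(N : ℤ)) a) ∧ (∀ h, (σ h).order = h.order) ∧
      ∀ h : LaurentSeries K, (σ h * ffd_theta (ι x)).coeff 0 = -((N : K) * (a * h.coeff N)) := by
  have hN0 : N ≠ 0 := by rintro rfl; simp at hN
  have hx0 : ι x ≠ 0 := by
    intro h0
    rw [h0, order_zero] at hx
    have : (N : ℤ) = 0 := by linarith
    exact hN0 (by exact_mod_cast this)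
  obtain ⟨σ, a, ha, h1, h2, h3⟩ := s44a_coord N hN (ι x) hx0 hx
  exact ⟨⟨hN0⟩, σ, a, ha, h1.symm, h2, h3⟩

include hN hx ht hdeg in
/-- **(E1)** the global = local trace formula at a totally ramified place. -/
theorem s44a_res_trace (y : F) :
    (N : K) * (ι y * ffd_theta (ι x)).coeff 0 =
      (ι (algebraMap K⟮x⟯ F (Algebra.trace K⟮x⟯ F y)) * ffd_theta (ι x)).coeff 0 := by
  obtain ⟨_, σ, a, _, h1, h2, h3⟩ := s44a_coord_data ι x N hN hx
  exact s44a_res_trace_aux N σ a ι x h1 h3 h2 t ht hdeg y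

include hN hx in
/-- **(E2)** `res (x^k dx) = -N δ_{k,-1}`. -/
theorem s44a_res_zpow (k : ℤ) :
    ((ι x) ^ k * ffd_theta (ι x)).coeff 0 = if k = -1 then -(N : K) else 0 := by
  obtain ⟨_, σ, a, ha, h1, _, h3⟩ := s44a_coord_data ι x N hN hx
  exact s44a_res_zpow_aux N σ a ι x h1 h3 ha k

include hN hx ht hdeg in
/-- **(E3) ONE-PLACE TRACE DUALITY.** -/
theorem s44a_dual (B : Submodule K F) (hBx : ∀ U ∈ B, x * U ∈ B)
    (b : Module.Basis (Fin N) K⟮x⟯ F) (hb : ∀ i, b i ∈ B)
    (φ : LaurentSeries K) (hφ : ∀ U ∈ B, (ι U * φ).coeff 0 = 0) :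
    ∃ z : F, φ = ι z * ffd_theta (ι x) ∧
      ∀ U ∈ B, ∃ p : Polynomial K,
        algebraMap K⟮x⟯ F (Algebra.trace K⟮x⟯ F (z * U)) = Polynomial.aeval x p := by
  obtain ⟨_, σ, a, ha, h1, h2, h3⟩ := s44a_coord_data ι x N hN hx
  exact s44a_dual_aux N σ a ι x h1 h3 ha hN h2 t ht hdeg B hBx b hb φ hφ

end Final

end

end Fermat.Agent.Lib.S44
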