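/-
M-AT-P programme, W4′ (one-place trace duality), brick [DUAL] part 1 (helper1):
**Serre's residue lemma** in power-series form, over an arbitrary commutative ring:
for `W` with constant coefficient `1`, inverse `V`, `f = X * W` and `n ≥ 1`,
the coefficient of `X ^ n` in `f' * V ^ (n + 1)` vanishes (`res (df / f ^ (n + 1)) = 0`).
Proved for `ℤ`-torsion-free rings by `n * V ^ (n+1) * f' = n * V ^ n - X * (V ^ n)'`, and in
general by specialisation from the universal case `ℤ[c₁, c₂, …]`.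
-/
import Mathlib

set_option autoImplicit false

namespace Fermat.Agent.Lib.S44

open PowerSeries

noncomputable section

/-- the key identity `n V^(n+1) (X W)' = n V^n - X (V^n)'`. -/
theorem s44a_serre_identity {R : Type*} [CommRing R] (W V : R⟦X⟧) (hWV : W * V = 1) (n : ℕ) :
    (n : R⟦X⟧) * (V ^ (n + 1) * d⁄dX R (X * W)) = (n : R⟦X⟧) * V ^ n - X * d⁄dX R (V ^ n) := by
  have hV : d⁄dX R V = -(V ^ 2 * d⁄dX R W) := by
    have h0 : d⁄dX R (W * V) = 0 := by rw [hWV]; exact derivative_one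
    rw [Derivation.leibniz, smul_eq_mul, smul_eq_mul] at h0
    have h1 : V * (W * d⁄dX R V + V * d⁄dX R W) = 0 := by rw [h0, mul_zero]
    have h2 : V * (W * d⁄dX R V + V * d⁄dX R W) = (W * V) * d⁄dX R V + V ^ 2 * d⁄dX R W := by ring
    rw [h2, hWV, one_mul] at h1
    exact eq_neg_of_add_eq_zero_left h1
  have hX : d⁄dX R (X * W) = W + X * d⁄dX R W := by
    rw [Derivation.leibniz, smul_eq_mul, smul_eq_mul, derivative_X, mul_one, add_comm]
  rw [hX, derivative_pow, hV]
  rcases Nat.eq_zero_or_pos n with h | h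
  · subst h; simp
  · obtain ⟨m, rfl⟩ : ∃ m, n = m + 1 := ⟨n - 1, by omega⟩
    have e1 : V ^ (m + 1 + 1) * W = V ^ (m + 1) := by
      rw [pow_succ, mul_assoc, mul_comm V W, hWV, mul_one]
    have : V ^ (m + 1 + 1) * (W + X * d⁄dX R W) = V ^ (m + 1) + X * (V ^ (m + 1 + 1) * d⁄dX R W) := by
      rw [mul_add, e1]; ring
    rw [this, Nat.add_sub_cancel]
    ring

/-- Serre's lemma over a `ℤ`-torsion-free domain. -/
theorem s44a_serre_torsionFree {R : Type*} [CommRing R] [NoZeroDivisors R] [CharZero R]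
    (W V : R⟦X⟧) (hWV : W * V = 1) {n : ℕ} (hn : n ≠ 0) :
    coeff n (V ^ (n + 1) * d⁄dX R (X * W)) = 0 := by
  have h := congrArg (coeff n) (s44a_serre_identity W V hWV n)
  obtain ⟨m, rfl⟩ : ∃ m, n = m + 1 := ⟨n - 1, by omega⟩
  have c1 : ∀ g : R⟦X⟧, coeff (m + 1) (((m + 1 : ℕ) : R⟦X⟧) * g) = ((m + 1 : ℕ) : R) * coeff (m + 1) g := by
    intro g
    have : ((m + 1 : ℕ) : R⟦X⟧) = C ((m + 1 : ℕ) : R) := by simp
    rw [this, coeff_C_mul]
  rw [c1, map_sub, c1, coeff_succ_X_mul, coeff_derivative] at h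
  have h2 : ((m + 1 : ℕ) : R) * coeff (m + 1) (V ^ (m + 1 + 1) * d⁄dX R (X * W)) = 0 := by
    rw [h]; push_cast; ring
  rcases mul_eq_zero.mp h2 with h3 | h3
  · exact absurd h3 (Nat.cast_ne_zero.mpr hn)
  · exact h3

/-- the universal `1`-unit `1 + c₁ X + c₂ X² + ⋯` over `ℤ[c₁, c₂, …]`. -/
def s44a_univW : (MvPolynomial ℕ ℤ)⟦X⟧ :=
  PowerSeries.mk fun i => if i = 0 then 1 else MvPolynomial.X i

theorem s44a_univW_const : constantCoeff s44a_univW = 1 := by
  rw [← coeff_zero_eq_constantCoeff_apply, s44a_univW, coeff_mk, if_pos rfl]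

/-- **Serre's residue lemma**, power-series form, over any commutative ring. -/
theorem s44a_serre {R : Type*} [CommRing R] (W V : R⟦X⟧) (hWV : W * V = 1)
    (hW : constantCoeff W = 1) {n : ℕ} (hn : n ≠ 0) :
    coeff n (V ^ (n + 1) * d⁄dX R (X * W)) = 0 := by
  -- the universal inverse
  let W₀ := s44a_univW
  let V₀ : (MvPolynomial ℕ ℤ)⟦X⟧ := invOfUnit W₀ 1
  have hWV₀ : W₀ * V₀ = 1 := by
    apply mul_invOfUnit
    rw [s44a_univW_const]; rfl
  let ψ : MvPolynomial ℕ ℤ →+* R := MvPolynomial.eval₂Hom (Int.castRingHom R) (fun i => coeff i W)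
  have hmW : PowerSeries.map ψ W₀ = W := by
    ext i
    rw [coeff_map]
    show ψ (coeff i s44a_univW) = _
    rw [s44a_univW, coeff_mk]
    split_ifs with h
    · subst h
      rw [map_one, coeff_zero_eq_constantCoeff_apply, hW]
    · show MvPolynomial.eval₂Hom _ _ _ = _
      rw [MvPolynomial.eval₂Hom_X']
  have hmV : PowerSeries.map ψ V₀ = V := by
    have h1 : W * PowerSeries.map ψ V₀ = 1 := by
      rw [← hmW, ← map_mul, hWV₀, map_one]
    calc PowerSeries.map ψ V₀ = (V * W) * PowerSeries.map ψ V₀ := by rw [mul_comm V W, hWV, one_mul]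
      _ = V * (W * PowerSeries.map ψ V₀) := by ring
      _ = V := by rw [h1, mul_one]
  have hd : ∀ g : (MvPolynomial ℕ ℤ)⟦X⟧,
      PowerSeries.map ψ (d⁄dX _ g) = d⁄dX R (PowerSeries.map ψ g) := by
    intro g
    ext i
    rw [coeff_map, coeff_derivative, coeff_derivative, coeff_map, map_mul]
    congr 1
    simp
  have h0 := s44a_serre_torsionFree W₀ V₀ hWV₀ hn
  have key : PowerSeries.map ψ (V₀ ^ (n + 1) * d⁄dX _ (X * W₀)) =
      V ^ (n + 1) * d⁄dX R (X * W) := by
    rw [map_mul (PowerSeries.map ψ), map_pow (PowerSeries.map ψ), hd,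
      map_mul (PowerSeries.map ψ), map_X, hmW, hmV]
  rw [← key, coeff_map, h0, map_zero]

end

end Fermat.Agent.Lib.S44
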