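/-
M-AT-P programme (S44), W4′ = [L4b], brick [SQ] part 1 (helper1): **the abstract squeeze.**

`A` a discrete valuation ring with fraction field `K` and residue map `π : A →+* k` (onto).  The
sequence space `ℕ → F` is the full dual of the space `ℕ →₀ F` of finitely supported vectors
(`s44a_sq_pair`).  For a subspace `P ≤ (ℕ →₀ K)` ("polar parts of the functions regular off ∞") with
finite-dimensional orthogonal `W = P^⊥ ≤ (ℕ → K)` ("the differentials"), all of whose members have
bounded denominators, EVERY sequence over `k` orthogonal to the reductions of the integral vectors of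
`P` is the reduction of an integral member of `W` (`s44a_sq_abs`).

Proof: `dim W = codim P` (duality); the codimension does not grow under reduction (`s44a_sq_codim`:
scale a `K`-relation to an integral one with a unit coefficient — valid in any valuation ring); the
reductions of the integral members of `W` have dimension `≥ dim W` (`s44a_sq_elim`: coordinate
elimination, uses discreteness); squeeze.
-/
import Mathlib

set_option autoImplicit false
set_option linter.unusedSectionVars false
set_option linter.style.haveILetI false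

namespace Fermat.Agent.Lib.S44

noncomputable section

open Module

section Scale

variable {A K : Type*} [CommRing A] [IsDomain A] [ValuationRing A] [Field K] [Algebra A K]
  [IsFractionRing A K]

/-- in a valuation ring, a finite family of elements of the fraction field, not all zero, has a
member dividing all the others. -/
theorem s44a_sq_scale {ι : Type*} (s : Finset ι) (c : ι → K) (h : ∃ i ∈ s, c i ≠ 0) :
    ∃ i₀ ∈ s, c i₀ ≠ 0 ∧ ∀ i ∈ s, ∃ a : A, algebraMap A K a = c i / c i₀ := by
  classical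
  induction s using Finset.induction_on with
  | empty => obtain ⟨i, hi, _⟩ := h; simp at hi
  | insert j s hj ih =>
    by_cases hs : ∃ i ∈ s, c i ≠ 0
    · obtain ⟨i₁, hi₁, hc₁, hall⟩ := ih hs
      rcases ValuationRing.isInteger_or_isInteger A (c j / c i₁) with ⟨a, ha⟩ | ⟨a, ha⟩
      · refine ⟨i₁, Finset.mem_insert_of_mem hi₁, hc₁, fun i hi => ?_⟩
        rcases Finset.mem_insert.mp hi with rfl | hi
        · exact ⟨a, ha⟩
        · exact hall i hi
      · by_cases hcj : c j = 0
        · refine ⟨i₁, Finset.mem_insert_of_mem hi₁, hc₁, fun i hi => ?_⟩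
          rcases Finset.mem_insert.mp hi with rfl | hi
          · exact ⟨0, by rw [map_zero, hcj, zero_div]⟩
          · exact hall i hi
        · refine ⟨j, Finset.mem_insert_self j s, hcj, fun i hi => ?_⟩
          rcases Finset.mem_insert.mp hi with rfl | hi
          · exact ⟨1, by rw [map_one, div_self hcj]⟩
          · obtain ⟨b, hb⟩ := hall i hi
            refine ⟨b * a, ?_⟩
            rw [map_mul, hb, ha, inv_div]
            field_simp
    · push Not at hs
      obtain ⟨i, hi, hci⟩ := h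
      rcases Finset.mem_insert.mp hi with rfl | hi
      · refine ⟨i, Finset.mem_insert_self i s, hci, fun i' hi' => ?_⟩
        rcases Finset.mem_insert.mp hi' with rfl | hi'
        · exact ⟨1, by rw [map_one, div_self hci]⟩
        · exact ⟨0, by rw [map_zero, hs i' hi', zero_div]⟩
      · exact absurd (hs i hi) hci

end Scale

section Prim

variable {A : Type*} [CommRing A] [IsDomain A] [IsDiscreteValuationRing A]

/-- a non-zero vector over a discrete valuation ring is a power of the uniformiser times a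
vector with a unit coordinate. -/
theorem s44a_sq_prim {I : Type*} (ϖ : A) (hϖ : Irreducible ϖ) (v : I → A) (hv : ∃ j, v j ≠ 0) :
    ∃ (n : ℕ) (w : I → A), (∀ j, v j = ϖ ^ n * w j) ∧ ∃ j, IsUnit (w j) := by
  classical
  obtain ⟨j₀, hj₀⟩ := hv
  have hfin : FiniteMultiplicity ϖ (v j₀) :=
    FiniteMultiplicity.of_not_isUnit hϖ.not_isUnit hj₀
  have hex : ∃ n, ¬ ∀ j, ϖ ^ (n + 1) ∣ v j := by
    obtain ⟨n, hn⟩ := hfin
    exact ⟨n, fun h => hn (h j₀)⟩
  set n := Nat.find hex with hn
  have hn1 : ¬ ∀ j, ϖ ^ (n + 1) ∣ v j := Nat.find_spec hex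
  have hn0 : ∀ j, ϖ ^ n ∣ v j := by
    intro j
    rcases Nat.eq_zero_or_pos n with h0 | hpos
    · rw [h0, pow_zero]; exact one_dvd _
    · have := Nat.find_min hex (m := n - 1) (by omega)
      rw [not_not] at this
      have h := this j
      rwa [Nat.sub_add_cancel hpos] at h
  choose w hw using hn0
  refine ⟨n, w, hw, ?_⟩
  by_contra hnu
  push Not at hnu
  apply hn1
  intro j
  have hmem : w j ∈ IsLocalRing.maximalIdeal A := (IsLocalRing.mem_maximalIdeal _).mpr (hnu j)
  rw [hϖ.maximalIdeal_eq, Ideal.mem_span_singleton] at hmem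
  obtain ⟨z, hz⟩ := hmem
  exact ⟨z, by rw [hw j, hz, pow_succ]; ring⟩

end Prim

section Perp

variable {F : Type*} [Field F]

/-- the sequence space `ℕ → F` as the full dual of the space `ℕ →₀ F` of finitely supported vectors. -/
def s44a_sq_pair (F : Type*) [Field F] : (ℕ → F) ≃ₗ[F] Module.Dual F (ℕ →₀ F) :=
  Finsupp.llift F F F ℕ

theorem s44a_sq_pair_apply (φ : ℕ → F) (u : ℕ →₀ F) :
    s44a_sq_pair F φ u = u.sum fun j a => a * φ j := rfl

/-- the orthogonal of a space of finitely supported vectors. -/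
def s44a_sq_perp (P : Submodule F (ℕ →₀ F)) : Submodule F (ℕ → F) :=
  P.dualAnnihilator.comap (s44a_sq_pair F).toLinearMap

theorem s44a_sq_mem_perp (P : Submodule F (ℕ →₀ F)) (φ : ℕ → F) :
    φ ∈ s44a_sq_perp P ↔ ∀ u ∈ P, (u.sum fun j a => a * φ j) = 0 := by
  rw [s44a_sq_perp, Submodule.mem_comap, Submodule.mem_dualAnnihilator]
  rfl

/-- `P^⊥ ≃ (V / P)^*`. -/
def s44a_sq_perpEquiv (P : Submodule F (ℕ →₀ F)) :
    s44a_sq_perp P ≃ₗ[F] Module.Dual F ((ℕ →₀ F) ⧸ P) :=
  (LinearEquiv.ofSubmodule' (s44a_sq_pair F) P.dualAnnihilator).trans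
    (Submodule.dualQuotEquivDualAnnihilator P).symm

theorem s44a_sq_finrank_perp (P : Submodule F (ℕ →₀ F)) :
    finrank F (s44a_sq_perp P) = finrank F ((ℕ →₀ F) ⧸ P) := by
  rw [(s44a_sq_perpEquiv P).finrank_eq, Subspace.dual_finrank_eq]

theorem s44a_sq_finite_quot (P : Submodule F (ℕ →₀ F)) [FiniteDimensional F (s44a_sq_perp P)] :
    FiniteDimensional F ((ℕ →₀ F) ⧸ P) := by
  have h : Module.Finite F (Module.Dual F ((ℕ →₀ F) ⧸ P)) :=
    Module.Finite.equiv (s44a_sq_perpEquiv P)
  exact (Module.finite_dual_iff F).mp h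

theorem s44a_sq_finite_perp (P : Submodule F (ℕ →₀ F)) [FiniteDimensional F ((ℕ →₀ F) ⧸ P)] :
    FiniteDimensional F (s44a_sq_perp P) :=
  Module.Finite.equiv (s44a_sq_perpEquiv P).symm

end Perp

section Lat

variable {A K k : Type*} [CommRing A] [Field K] [Algebra A K] [Field k] (π : A →+* k)

/-- coefficientwise map on finitely supported vectors. -/
abbrev s44a_sq_mr {R S : Type*} [CommRing R] [CommRing S] (f : R →+* S) : (ℕ →₀ R) →+ (ℕ →₀ S) :=
  Finsupp.mapRange.addMonoidHom f.toAddMonoidHom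

theorem s44a_sq_mr_apply {R S : Type*} [CommRing R] [CommRing S] (f : R →+* S) (t : ℕ →₀ R) (j : ℕ) :
    s44a_sq_mr f t j = f (t j) := rfl

theorem s44a_sq_mr_smul {R S : Type*} [CommRing R] [CommRing S] (f : R →+* S) (a : R) (t : ℕ →₀ R) :
    s44a_sq_mr f (a • t) = f a • s44a_sq_mr f t := by
  ext j
  rw [s44a_sq_mr_apply, Finsupp.smul_apply, Finsupp.smul_apply, s44a_sq_mr_apply, smul_eq_mul,
    smul_eq_mul, map_mul]

theorem s44a_sq_mr_sum {R S : Type*} [CommRing R] [CommRing S] (f : R →+* S) (t : ℕ →₀ R)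
    (φ : ℕ → R) :
    ((s44a_sq_mr f t).sum fun j a => a * f (φ j)) = f (t.sum fun j a => a * φ j) := by
  rw [show s44a_sq_mr f t = Finsupp.mapRange f (map_zero f) t from rfl,
    Finsupp.sum_mapRange_index (fun j => by rw [zero_mul])]
  rw [Finsupp.sum, Finsupp.sum, map_sum]
  exact Finset.sum_congr rfl fun j _ => (map_mul f _ _).symm

/-- the integral vectors of `P`. -/
def s44a_sq_lat (P : Submodule K (ℕ →₀ K)) : Set (ℕ →₀ A) :=
  {t | s44a_sq_mr (algebraMap A K) t ∈ P}

/-- the reduction of (the integral vectors of) `P`. -/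
def s44a_sq_Pk (P : Submodule K (ℕ →₀ K)) : Submodule k (ℕ →₀ k) :=
  Submodule.span k (s44a_sq_mr π '' s44a_sq_lat (A := A) P)

end Lat

section Codim

variable {A K k : Type*} [CommRing A] [IsDomain A] [ValuationRing A] [Field K] [Algebra A K]
  [IsFractionRing A K] [Field k] (π : A →+* k) (hπ : Function.Surjective π)

include hπ in
/-- **the codimension does not grow under reduction.** -/
theorem s44a_sq_codim (P : Submodule K (ℕ →₀ K)) [FiniteDimensional K ((ℕ →₀ K) ⧸ P)] :
    Module.rank k ((ℕ →₀ k) ⧸ s44a_sq_Pk (A := A) π P) ≤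
      (finrank K ((ℕ →₀ K) ⧸ P) : Cardinal) := by
  classical
  apply rank_le
  intro s hli
  by_contra hlt
  push Not at hlt
  -- a section of `π`
  have hsec : ∃ σ : k → A, σ 0 = 0 ∧ ∀ c, π (σ c) = c := by
    choose σ₀ hσ₀ using hπ
    refine ⟨fun c => if c = 0 then 0 else σ₀ c, if_pos rfl, fun c => ?_⟩
    show π (if c = 0 then 0 else σ₀ c) = c
    by_cases hc : c = 0
    · rw [if_pos hc, map_zero, hc]
    · rw [if_neg hc, hσ₀]
  obtain ⟨σ, hσ0, hσ⟩ := hsec
  -- representatives
  choose rep hrep using fun x : (ℕ →₀ k) ⧸ s44a_sq_Pk (A := A) π P =>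
    Submodule.Quotient.mk_surjective _ x
  set v : s → (ℕ →₀ A) := fun x => Finsupp.mapRange σ hσ0 (rep x) with hv
  have hπv : ∀ x : s, s44a_sq_mr π (v x) = rep x := by
    intro x
    ext j
    rw [s44a_sq_mr_apply, hv, Finsupp.mapRange_apply, hσ]
  set w : s → (ℕ →₀ K) ⧸ P := fun x => P.mkQ (s44a_sq_mr (algebraMap A K) (v x))
    with hw
  have hnli : ¬ LinearIndependent K w := by
    intro h
    have := h.fintype_card_le_finrank
    rw [Fintype.card_coe] at this
    omega
  rw [Fintype.not_linearIndependent_iff] at hnli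
  obtain ⟨c, hc0, i₁, hi₁⟩ := hnli
  obtain ⟨i₀, -, hci₀, hall⟩ := s44a_sq_scale (A := A) Finset.univ c ⟨i₁, Finset.mem_univ _, hi₁⟩
  choose a ha using fun i => hall i (Finset.mem_univ i)
  set T : ℕ →₀ A := ∑ x : s, a x • v x with hT
  have hTP : T ∈ s44a_sq_lat (A := A) P := by
    show s44a_sq_mr (algebraMap A K) T ∈ P
    rw [hT, map_sum]
    have h1 : ∀ x : s, s44a_sq_mr (algebraMap A K) (a x • v x) =
        (c i₀)⁻¹ • (c x • s44a_sq_mr (algebraMap A K) (v x)) := by
      intro x
      rw [s44a_sq_mr_smul, ha x, smul_smul]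
      congr 1
      rw [div_eq_mul_inv, mul_comm]
    rw [Finset.sum_congr rfl fun x _ => h1 x, ← Finset.smul_sum]
    apply P.smul_mem
    rw [← Submodule.Quotient.mk_eq_zero, ← Submodule.mkQ_apply, map_sum]
    simpa only [map_smul] using hc0
  have hTk : s44a_sq_mr π T ∈ s44a_sq_Pk (A := A) π P :=
    Submodule.subset_span ⟨T, hTP, rfl⟩
  rw [← Submodule.Quotient.mk_eq_zero, ← Submodule.mkQ_apply, hT, map_sum, map_sum] at hTk
  have h2 : ∀ x : s, (s44a_sq_Pk (A := A) π P).mkQ
      (s44a_sq_mr π (a x • v x)) = π (a x) • (x : (ℕ →₀ k) ⧸ s44a_sq_Pk (A := A) π P) := by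
    intro x
    rw [s44a_sq_mr_smul, map_smul, hπv, Submodule.mkQ_apply, hrep]
  rw [Finset.sum_congr rfl fun x _ => h2 x] at hTk
  have h3 := Fintype.linearIndependent_iff.mp hli (fun x => π (a x)) hTk i₀
  have h4 : a i₀ = 1 := by
    apply IsFractionRing.injective A K
    rw [ha i₀, div_self hci₀, map_one]
  rw [h4, map_one] at h3
  exact one_ne_zero h3

end Codim

section Elim

variable {A K k : Type*} [CommRing A] [IsDomain A] [IsDiscreteValuationRing A] [Field K]
  [Algebra A K] [IsFractionRing A K] [Field k] (π : A →+* k) (hπ : Function.Surjective π)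

/-- the reductions of the integral vectors of a space `V` of sequences. -/
def s44a_sq_redSub (hπ : Function.Surjective π) (V : Submodule K (ℕ → K)) : Submodule k (ℕ → k) where
  carrier := {ψ | ∃ φ : ℕ → A, (fun j => algebraMap A K (φ j)) ∈ V ∧ ∀ j, π (φ j) = ψ j}
  add_mem' := by
    rintro ψ₁ ψ₂ ⟨φ₁, h₁, e₁⟩ ⟨φ₂, h₂, e₂⟩
    refine ⟨φ₁ + φ₂, ?_, fun j => ?_⟩
    · have : (fun j => algebraMap A K ((φ₁ + φ₂) j)) =
          (fun j => algebraMap A K (φ₁ j)) + fun j => algebraMap A K (φ₂ j) := by
        funext j; simp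
      rw [this]; exact V.add_mem h₁ h₂
    · rw [Pi.add_apply, map_add, e₁, e₂, Pi.add_apply]
  zero_mem' := ⟨0, by
    have : (fun j => algebraMap A K ((0 : ℕ → A) j)) = 0 := by funext j; simp
    rw [this]; exact V.zero_mem, fun j => by simp⟩
  smul_mem' := by
    rintro c ψ ⟨φ, h, e⟩
    obtain ⟨a, rfl⟩ := hπ c
    refine ⟨a • φ, ?_, fun j => ?_⟩
    · have : (fun j => algebraMap A K ((a • φ) j)) =
          algebraMap A K a • fun j => algebraMap A K (φ j) := by
        funext j; simp
      rw [this]; exact V.smul_mem _ h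
    · rw [Pi.smul_apply, smul_eq_mul, map_mul, e, Pi.smul_apply, smul_eq_mul]

theorem s44a_sq_redSub_mono (V V' : Submodule K (ℕ → K)) (h : V' ≤ V) :
    s44a_sq_redSub π hπ V' ≤ s44a_sq_redSub π hπ V := by
  rintro ψ ⟨φ, hφ, e⟩
  exact ⟨φ, h hφ, e⟩

/-- **coordinate elimination**: a finite-dimensional space of sequences with bounded denominators
has at least as many independent reductions as its dimension. -/
theorem s44a_sq_elim (ϖ : A) (hϖ : Irreducible ϖ) (Wk : Submodule k (ℕ → k))
    [FiniteDimensional k Wk] :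
    ∀ (n : ℕ) (V : Submodule K (ℕ → K)), FiniteDimensional K V → finrank K V ≤ n →
      (∀ φ ∈ V, ∃ c : A, c ≠ 0 ∧ ∀ j, ∃ a : A, algebraMap A K a = algebraMap A K c * φ j) →
      s44a_sq_redSub π hπ V ≤ Wk → finrank K V ≤ finrank k (s44a_sq_redSub π hπ V) := by
  intro n
  induction n with
  | zero =>
    intro V _ hV _ _
    exact hV.trans (Nat.zero_le _)
  | succ n ih =>
    intro V hfin hV hBD hle
    by_cases hne : V = ⊥
    · rw [hne, finrank_bot]; exact Nat.zero_le _
    obtain ⟨φ, hφV, hφ0⟩ := Submodule.exists_mem_ne_zero_of_ne_bot hne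
    obtain ⟨c, hc0, hc⟩ := hBD φ hφV
    choose v hv using hc
    have hcK : algebraMap A K c ≠ 0 := by
      rwa [Ne, map_eq_zero_iff _ (IsFractionRing.injective A K)]
    have hvne : ∃ j, v j ≠ 0 := by
      by_contra hall
      push Not at hall
      apply hφ0
      funext j
      have := hv j
      rw [hall j, map_zero] at this
      exact (mul_eq_zero.mp this.symm).resolve_left hcK
    obtain ⟨m, w, hw, j₀, hj₀⟩ := s44a_sq_prim ϖ hϖ v hvne
    have hϖK : algebraMap A K (ϖ ^ m) ≠ 0 := by
      rw [Ne, map_eq_zero_iff _ (IsFractionRing.injective A K)]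
      exact pow_ne_zero _ hϖ.ne_zero
    set wK : ℕ → K := fun j => algebraMap A K (w j) with hwKdef
    have hwV : wK ∈ V := by
      have : wK = ((algebraMap A K (ϖ ^ m))⁻¹ * algebraMap A K c) • φ := by
        funext j
        rw [Pi.smul_apply, smul_eq_mul, mul_assoc, ← hv j, hw j, map_mul, ← mul_assoc,
          inv_mul_cancel₀ hϖK, one_mul]
      rw [this]
      exact V.smul_mem _ hφV
    set V' : Submodule K (ℕ → K) :=
      V ⊓ LinearMap.ker (LinearMap.proj (R := K) (φ := fun _ : ℕ => K) j₀) with hV'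
    have hV'le : V' ≤ V := inf_le_left
    have hwK : wK j₀ ≠ 0 := by
      rw [hwKdef, Ne, map_eq_zero_iff _ (IsFractionRing.injective A K)]
      exact hj₀.ne_zero
    have hwV' : wK ∉ V' := by
      intro h
      have := (Submodule.mem_inf.mp h).2
      rw [LinearMap.mem_ker, LinearMap.proj_apply] at this
      exact hwK this
    have hsup : V ≤ V' ⊔ Submodule.span K {wK} := by
      intro x hx
      set t : K := x j₀ / wK j₀ with ht
      have hx' : x - t • wK ∈ V' := by
        refine Submodule.mem_inf.mpr ⟨V.sub_mem hx (V.smul_mem _ hwV), LinearMap.mem_ker.mpr ?_⟩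
        rw [LinearMap.proj_apply, Pi.sub_apply, Pi.smul_apply, smul_eq_mul, ht,
          div_mul_cancel₀ _ hwK, sub_self]
      have : x = (x - t • wK) + t • wK := by rw [sub_add_cancel]
      rw [this]
      exact Submodule.add_mem _ (Submodule.mem_sup_left hx')
        (Submodule.mem_sup_right (Submodule.smul_mem _ _ (Submodule.subset_span rfl)))
    have hfin' : FiniteDimensional K V' := Submodule.finiteDimensional_of_le hV'le
    have hlt : V' < V := lt_of_le_of_ne hV'le fun h => hwV' (h ▸ hwV)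
    have hdim' : finrank K V' < finrank K V := Submodule.finrank_lt_finrank_of_lt hlt
    have hdim : finrank K V ≤ finrank K V' + 1 := by
      have h1 : finrank K V ≤ finrank K ↥(V' ⊔ Submodule.span K {wK}) :=
        Submodule.finrank_mono hsup
      have h2 := Submodule.finrank_add_le_finrank_add_finrank V' (Submodule.span K {wK})
      have h3 : finrank K ↥(Submodule.span K {wK}) ≤ 1 := by
        have := finrank_span_le_card (R := K) ({wK} : Set (ℕ → K))
        simpa using this
      omega
    have hle' : s44a_sq_redSub π hπ V' ≤ Wk := (s44a_sq_redSub_mono π hπ V V' hV'le).trans hle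
    have hih := ih V' hfin' (by omega) (fun φ hφ => hBD φ (hV'le hφ)) hle'
    -- the reduction of `w` is not in the reduction of `V'`
    have hfinR : FiniteDimensional k (s44a_sq_redSub π hπ V) :=
      Submodule.finiteDimensional_of_le hle
    have hwred : (fun j => π (w j)) ∈ s44a_sq_redSub π hπ V := ⟨w, hwV, fun _ => rfl⟩
    have hwred' : (fun j => π (w j)) ∉ s44a_sq_redSub π hπ V' := by
      rintro ⟨φ', hφ', e⟩
      have h0 := (Submodule.mem_inf.mp hφ').2
      rw [LinearMap.mem_ker, LinearMap.proj_apply,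
        map_eq_zero_iff _ (IsFractionRing.injective A K)] at h0
      have h1 := e j₀
      rw [h0, map_zero] at h1
      exact (hj₀.map π).ne_zero h1.symm
    have hltR : s44a_sq_redSub π hπ V' < s44a_sq_redSub π hπ V :=
      lt_of_le_of_ne (s44a_sq_redSub_mono π hπ V V' hV'le) fun h => hwred' (h ▸ hwred)
    have := Submodule.finrank_lt_finrank_of_lt hltR
    omega

end Elim

section Main

variable {A K k : Type*} [CommRing A] [IsDomain A] [IsDiscreteValuationRing A] [Field K]
  [Algebra A K] [IsFractionRing A K] [Field k] (π : A →+* k) (hπ : Function.Surjective π)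

include hπ in
/-- **[SQ], abstract form.** -/
theorem s44a_sq_abs (ϖ : A) (hϖ : Irreducible ϖ) (P : Submodule K (ℕ →₀ K))
    [FiniteDimensional K (s44a_sq_perp P)]
    (hBD : ∀ φ ∈ s44a_sq_perp P, ∃ c : A, c ≠ 0 ∧
      ∀ j, ∃ a : A, algebraMap A K a = algebraMap A K c * φ j)
    (ψ : ℕ → k)
    (hψ : ∀ t ∈ s44a_sq_lat (A := A) P, ((s44a_sq_mr π t).sum fun j a => a * ψ j) = 0) :
    ∃ φ : ℕ → A, (fun j => algebraMap A K (φ j)) ∈ s44a_sq_perp P ∧ ∀ j, π (φ j) = ψ j := by
  haveI hQ : FiniteDimensional K ((ℕ →₀ K) ⧸ P) := s44a_sq_finite_quot P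
  have hrank := s44a_sq_codim (A := A) π hπ P
  haveI hQk : FiniteDimensional k ((ℕ →₀ k) ⧸ s44a_sq_Pk (A := A) π P) := by
    rw [FiniteDimensional, ← Module.rank_lt_aleph0_iff]
    exact lt_of_le_of_lt hrank Cardinal.natCast_lt_aleph0
  have hfr : finrank k ((ℕ →₀ k) ⧸ s44a_sq_Pk (A := A) π P) ≤ finrank K ((ℕ →₀ K) ⧸ P) :=
    finrank_le_of_rank_le hrank
  set Wk : Submodule k (ℕ → k) := s44a_sq_perp (s44a_sq_Pk (A := A) π P) with hWk
  haveI hWkfin : FiniteDimensional k Wk := s44a_sq_finite_perp _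
  have hWkdim : finrank k Wk ≤ finrank K (s44a_sq_perp P) := by
    rw [hWk, s44a_sq_finrank_perp, s44a_sq_finrank_perp]
    exact hfr
  -- membership in `Wk` can be tested on the generators
  have hgen : ∀ χ : ℕ → k,
      (∀ t ∈ s44a_sq_lat (A := A) P, ((s44a_sq_mr π t).sum fun j a => a * χ j) = 0) → χ ∈ Wk := by
    intro χ hχ
    rw [hWk, s44a_sq_perp, Submodule.mem_comap, Submodule.mem_dualAnnihilator]
    intro u hu
    have hle : s44a_sq_Pk (A := A) π P ≤ LinearMap.ker ((s44a_sq_pair k) χ) := by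
      rw [s44a_sq_Pk, Submodule.span_le]
      rintro _ ⟨t, ht, rfl⟩
      exact hχ t ht
    exact hle hu
  have hψW : ψ ∈ Wk := hgen ψ hψ
  have hred : s44a_sq_redSub π hπ (s44a_sq_perp P) ≤ Wk := by
    rintro χ ⟨φ, hφ, e⟩
    apply hgen
    intro t ht
    have h1 : (fun j => π (φ j)) = χ := funext e
    rw [← h1, s44a_sq_mr_sum]
    have h2 := (s44a_sq_mem_perp P _).mp hφ _ ht
    rw [s44a_sq_mr_sum, map_eq_zero_iff _ (IsFractionRing.injective A K)] at h2
    rw [h2, map_zero]
  have helim := s44a_sq_elim π hπ ϖ hϖ Wk (finrank K (s44a_sq_perp P)) (s44a_sq_perp P)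
    inferInstance le_rfl hBD hred
  have heq : s44a_sq_redSub π hπ (s44a_sq_perp P) = Wk :=
    Submodule.eq_of_le_of_finrank_le hred (hWkdim.trans helim)
  rw [← heq] at hψW
  obtain ⟨φ, hφ, e⟩ := hψW
  exact ⟨φ, hφ, e⟩

end Main

end

end Fermat.Agent.Lib.S44
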