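/-
M-AT-P programme (S44), W4′ = [L4b], brick [SQ] part 2 (helper1): **the squeeze for Laurent series.**

`A` a discrete valuation ring, `K = Frac A`, `π : A →+* k` onto the residue field.  `B` a `K`-subspace
of `K((q))` containing `1` ("functions regular off ∞"), every member of which has bounded denominators
(`hBD`, from [GR]) and such that an integral member of `B` whose reduction has no pole reduces to a
constant (`hB3`, "regular everywhere ⇒ constant" on the special fibre).  `W = s44a_sq_W B` = the series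
`φ ∈ q K[[q]]` with `coeff₀ (U φ) = 0` for all `U ∈ B` ("differentials regular everywhere"), assumed
finite-dimensional with bounded denominators (from [AN] + S23).

**`s44a_sq_laurent`**: every `ψ ∈ q k[[q]]` with `coeff₀ (red y · ψ) = 0` for all integral `y` of `B` is
the coefficientwise reduction of an integral member of `W`.
-/
import Fermat.Agent.Lib.S44.ASqueeze
import Fermat.Prelude.Def_ModularCurve_LaurentCoeff

set_option autoImplicit false
set_option linter.unusedSectionVars false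
set_option linter.style.haveILetI false

namespace Fermat.Agent.Lib.S44

noncomputable section

open Module ModularCurve

section Pair

variable {R : Type*} [CommRing R]

/-- **the residue pairing in coordinates**: if `u` is the polar part of `U` and `φ` has no terms of
degree `≤ 0`, the constant coefficient of `U φ` is `Σ_j u_j φ_{j+1}`. -/
theorem s44a_sq_pairing (U φ : LaurentSeries R) (u : ℕ →₀ R)
    (hu : ∀ j : ℕ, u j = U.coeff (-((j : ℤ) + 1))) (hφ : ∀ i : ℤ, i ≤ 0 → φ.coeff i = 0) :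
    (U * φ).coeff 0 = u.sum fun j a => a * φ.coeff ((j : ℤ) + 1) := by
  classical
  rw [HahnSeries.coeff_mul, Finsupp.sum]
  symm
  refine Finset.sum_bij_ne_zero (fun j _ _ => ((-((j : ℤ) + 1), (j : ℤ) + 1) : ℤ × ℤ)) ?_ ?_ ?_ ?_
  · intro j hj hne
    rw [Finset.mem_antidiagonal]
    refine ⟨?_, ?_, by simp⟩
    · show U.coeff _ ≠ 0
      rw [← hu j]
      exact Finsupp.mem_support_iff.mp hj
    · show φ.coeff _ ≠ 0
      exact right_ne_zero_of_mul hne
  · intro j₁ _ _ j₂ _ _ h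
    have := congrArg Prod.snd h
    simpa using this
  · rintro ⟨i, j⟩ hij hne
    rw [Finset.mem_antidiagonal] at hij
    obtain ⟨-, -, hsum⟩ := hij
    simp only at hsum hne
    have hφj : φ.coeff j ≠ 0 := right_ne_zero_of_mul hne
    have hj : 0 < j := by
      by_contra h
      exact hφj (hφ j (not_lt.mp h))
    obtain ⟨n, hn⟩ : ∃ n : ℕ, j = (n : ℤ) + 1 := ⟨(j - 1).toNat, by omega⟩
    have hi : i = -((n : ℤ) + 1) := by omega
    refine ⟨n, ?_, ?_, ?_⟩
    · rw [Finsupp.mem_support_iff, hu n, ← hi]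
      exact left_ne_zero_of_mul hne
    · rw [hu n, ← hi, ← hn]; exact hne
    · rw [hi, hn]
  · intro j _ _
    rw [hu j]

/-- the Laurent series `Σ_j a_j q^{j+1}`. -/
def s44a_sq_ser (a : ℕ → R) : LaurentSeries R :=
  ((PowerSeries.mk fun n => if n = 0 then 0 else a (n - 1) : PowerSeries R) : LaurentSeries R)

theorem s44a_sq_ser_coeff_nonpos (a : ℕ → R) (i : ℤ) (hi : i ≤ 0) : (s44a_sq_ser a).coeff i = 0 := by
  rw [s44a_sq_ser, PowerSeries.coeff_coe]
  split_ifs with h
  · rfl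
  · have : i = 0 := by omega
    rw [this, Int.natAbs_zero, PowerSeries.coeff_mk, if_pos rfl]

theorem s44a_sq_ser_coeff_succ (a : ℕ → R) (j : ℕ) : (s44a_sq_ser a).coeff ((j : ℤ) + 1) = a j := by
  rw [s44a_sq_ser, PowerSeries.coeff_coe, if_neg (by omega), PowerSeries.coeff_mk]
  have : ((j : ℤ) + 1).natAbs = j + 1 := by omega
  rw [this, if_neg (Nat.succ_ne_zero j), Nat.add_sub_cancel]

theorem s44a_sq_ser_cof (φ : LaurentSeries R) (hφ : ∀ i : ℤ, i ≤ 0 → φ.coeff i = 0) :
    s44a_sq_ser (fun j => φ.coeff ((j : ℤ) + 1)) = φ := by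
  ext i
  by_cases hi : i ≤ 0
  · rw [s44a_sq_ser_coeff_nonpos _ i hi, hφ i hi]
  · obtain ⟨n, hn⟩ : ∃ n : ℕ, i = (n : ℤ) + 1 := ⟨(i - 1).toNat, by omega⟩
    rw [hn, s44a_sq_ser_coeff_succ]

theorem s44a_sq_coeffMap_ser {S : Type*} [CommRing S] (f : R →+* S) (a : ℕ → R) :
    coeffMap f (s44a_sq_ser a) = s44a_sq_ser fun j => f (a j) := by
  ext i
  rw [coeffMap_coeff]
  by_cases hi : i ≤ 0
  · rw [s44a_sq_ser_coeff_nonpos _ i hi, s44a_sq_ser_coeff_nonpos _ i hi, map_zero]
  · obtain ⟨n, hn⟩ : ∃ n : ℕ, i = (n : ℤ) + 1 := ⟨(i - 1).toNat, by omega⟩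
    rw [hn, s44a_sq_ser_coeff_succ, s44a_sq_ser_coeff_succ]

/-- the polar part of a Laurent series, as a finitely supported vector. -/
def s44a_sq_pol (U : LaurentSeries R) : ℕ →₀ R :=
  Finsupp.onFinset (Finset.range (-U.order).toNat) (fun j => U.coeff (-((j : ℤ) + 1)))
    (fun j hj => by
      rw [Finset.mem_range]
      by_contra h
      apply hj
      apply HahnSeries.coeff_eq_zero_of_lt_order
      omega)

theorem s44a_sq_pol_apply (U : LaurentSeries R) (j : ℕ) :
    s44a_sq_pol U j = U.coeff (-((j : ℤ) + 1)) := rfl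

end Pair

section Laurent

variable {F : Type*} [Field F]

/-- the polar parts of a space of Laurent series. -/
def s44a_sq_P (B : Submodule F (LaurentSeries F)) : Submodule F (ℕ →₀ F) where
  carrier := {u | ∃ U ∈ B, ∀ j : ℕ, u j = U.coeff (-((j : ℤ) + 1))}
  add_mem' := by
    rintro u₁ u₂ ⟨U₁, h₁, e₁⟩ ⟨U₂, h₂, e₂⟩
    exact ⟨U₁ + U₂, B.add_mem h₁ h₂, fun j => by
      rw [Finsupp.add_apply, e₁, e₂, HahnSeries.coeff_add]⟩
  zero_mem' := ⟨0, B.zero_mem, fun j => by simp⟩
  smul_mem' := by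
    rintro c u ⟨U, h, e⟩
    exact ⟨c • U, B.smul_mem c h, fun j => by
      rw [Finsupp.smul_apply, e, HahnSeries.coeff_smul]⟩

/-- the differentials: series without terms of degree `≤ 0`, orthogonal to `B` for the residue
pairing. -/
def s44a_sq_W (B : Submodule F (LaurentSeries F)) : Submodule F (LaurentSeries F) where
  carrier := {φ | (∀ i : ℤ, i ≤ 0 → φ.coeff i = 0) ∧ ∀ U ∈ B, (U * φ).coeff 0 = 0}
  add_mem' := by
    rintro φ₁ φ₂ ⟨h₁, o₁⟩ ⟨h₂, o₂⟩
    refine ⟨fun i hi => by rw [HahnSeries.coeff_add, h₁ i hi, h₂ i hi, add_zero], fun U hU => ?_⟩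
    rw [mul_add, HahnSeries.coeff_add, o₁ U hU, o₂ U hU, add_zero]
  zero_mem' := ⟨fun i _ => rfl, fun U _ => by rw [mul_zero]; rfl⟩
  smul_mem' := by
    rintro c φ ⟨h, o⟩
    refine ⟨fun i hi => by rw [HahnSeries.coeff_smul, h i hi, smul_zero], fun U hU => ?_⟩
    rw [← HahnSeries.C_mul_eq_smul, mul_left_comm, HahnSeries.C_mul_eq_smul, HahnSeries.coeff_smul, o U hU,
      smul_zero]

theorem s44a_sq_mem_W_iff (B : Submodule F (LaurentSeries F)) (φ : LaurentSeries F)
    (hφ : ∀ i : ℤ, i ≤ 0 → φ.coeff i = 0) :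
    φ ∈ s44a_sq_W B ↔ (fun j : ℕ => φ.coeff ((j : ℤ) + 1)) ∈ s44a_sq_perp (s44a_sq_P B) := by
  rw [s44a_sq_mem_perp]
  constructor
  · rintro ⟨-, o⟩ u ⟨U, hU, e⟩
    rw [← s44a_sq_pairing U φ u e hφ]
    exact o U hU
  · intro h
    refine ⟨hφ, fun U hU => ?_⟩
    rw [s44a_sq_pairing U φ (s44a_sq_pol U) (s44a_sq_pol_apply U) hφ]
    exact h _ ⟨U, hU, s44a_sq_pol_apply U⟩

theorem s44a_sq_ser_mem_W_iff (B : Submodule F (LaurentSeries F)) (a : ℕ → F) :
    s44a_sq_ser a ∈ s44a_sq_W B ↔ a ∈ s44a_sq_perp (s44a_sq_P B) := by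
  rw [s44a_sq_mem_W_iff B _ (s44a_sq_ser_coeff_nonpos a)]
  have : (fun j : ℕ => (s44a_sq_ser a).coeff ((j : ℤ) + 1)) = a :=
    funext fun j => s44a_sq_ser_coeff_succ a j
  rw [this]

/-- `ser` as a linear map. -/
def s44a_sq_serL (F : Type*) [Field F] : (ℕ → F) →ₗ[F] LaurentSeries F where
  toFun := s44a_sq_ser
  map_add' a b := by
    ext i
    rw [HahnSeries.coeff_add]
    by_cases hi : i ≤ 0
    · rw [s44a_sq_ser_coeff_nonpos _ i hi, s44a_sq_ser_coeff_nonpos _ i hi,
        s44a_sq_ser_coeff_nonpos _ i hi, add_zero]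
    · obtain ⟨n, hn⟩ : ∃ n : ℕ, i = (n : ℤ) + 1 := ⟨(i - 1).toNat, by omega⟩
      rw [hn, s44a_sq_ser_coeff_succ, s44a_sq_ser_coeff_succ, s44a_sq_ser_coeff_succ, Pi.add_apply]
  map_smul' c a := by
    ext i
    rw [RingHom.id_apply, HahnSeries.coeff_smul]
    by_cases hi : i ≤ 0
    · rw [s44a_sq_ser_coeff_nonpos _ i hi, s44a_sq_ser_coeff_nonpos _ i hi, smul_zero]
    · obtain ⟨n, hn⟩ : ∃ n : ℕ, i = (n : ℤ) + 1 := ⟨(i - 1).toNat, by omega⟩
      rw [hn, s44a_sq_ser_coeff_succ, s44a_sq_ser_coeff_succ, Pi.smul_apply]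

theorem s44a_sq_serL_injective : Function.Injective (s44a_sq_serL F) := by
  intro a b h
  funext j
  have := congrArg (fun x : LaurentSeries F => x.coeff ((j : ℤ) + 1)) h
  simpa [s44a_sq_serL, s44a_sq_ser_coeff_succ] using this

theorem s44a_sq_finite_perp_of_W (B : Submodule F (LaurentSeries F))
    [FiniteDimensional F (s44a_sq_W B)] : FiniteDimensional F (s44a_sq_perp (s44a_sq_P B)) := by
  let f : s44a_sq_perp (s44a_sq_P B) →ₗ[F] s44a_sq_W B :=
    LinearMap.codRestrict _ ((s44a_sq_serL F).comp (Submodule.subtype _)) fun a =>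
      (s44a_sq_ser_mem_W_iff B a.1).mpr a.2
  have hf : Function.Injective f := by
    intro a b h
    apply Subtype.ext
    apply s44a_sq_serL_injective
    exact congrArg Subtype.val h
  exact Module.Finite.of_injective f hf

end Laurent

section Div

variable {A : Type*} [CommRing A] [IsDomain A]

/-- coefficientwise division by `ϖ`. -/
theorem s44a_sq_div (ϖ : A) (hϖ0 : ϖ ≠ 0) (z : LaurentSeries A) (hz : ∀ i, ϖ ∣ z.coeff i) :
    ∃ z₁ : LaurentSeries A, ∀ i, ϖ * z₁.coeff i = z.coeff i := by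
  classical
  let d : ZeroHom A A :=
    { toFun := fun a => if h : ϖ ∣ a then h.choose else 0
      map_zero' := by
        have h : ϖ ∣ (0 : A) := dvd_zero ϖ
        show (if h : ϖ ∣ (0 : A) then h.choose else 0) = 0
        rw [dif_pos h]
        have := h.choose_spec
        exact (mul_eq_zero.mp this.symm).resolve_left hϖ0 }
  refine ⟨z.map d, fun i => ?_⟩
  show ϖ * (if h : ϖ ∣ z.coeff i then h.choose else 0) = z.coeff i
  rw [dif_pos (hz i)]
  exact (hz i).choose_spec.symm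

end Div

section Alpha

variable {A K k : Type*} [CommRing A] [IsDomain A] [IsDiscreteValuationRing A] [Field K]
  [Algebra A K] [IsFractionRing A K] [Field k] (π : A →+* k) (hπ : Function.Surjective π)

theorem s44a_sq_dvd_of_map_eq_zero (ϖ : A) (hϖ : Irreducible ϖ) (a : A) (ha : π a = 0) : ϖ ∣ a := by
  have hnu : ¬ IsUnit a := fun h => (h.map π).ne_zero ha
  have hmem : a ∈ IsLocalRing.maximalIdeal A := (IsLocalRing.mem_maximalIdeal _).mpr hnu
  rwa [hϖ.maximalIdeal_eq, Ideal.mem_span_singleton] at hmem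

include hπ in
theorem s44a_sq_map_unif (ϖ : A) (hϖ : Irreducible ϖ) : π ϖ = 0 := by
  have hmax : (RingHom.ker π).IsMaximal := RingHom.ker_isMaximal_of_surjective π hπ
  have heq : RingHom.ker π = IsLocalRing.maximalIdeal A := IsLocalRing.eq_maximalIdeal hmax
  have hmem : ϖ ∈ IsLocalRing.maximalIdeal A := (IsLocalRing.mem_maximalIdeal _).mpr hϖ.not_isUnit
  rw [← heq] at hmem
  exact hmem

include hπ in
/-- **(α)**: a sequence orthogonal to the reductions of the integral members of `B` is orthogonal to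
the reductions of the integral polar parts. -/
theorem s44a_sq_alpha (ϖ : A) (hϖ : Irreducible ϖ) (B : Submodule K (LaurentSeries K))
    (h1 : (1 : LaurentSeries K) ∈ B)
    (hB3 : ∀ y : LaurentSeries A, coeffMap (algebraMap A K) y ∈ B →
      (∀ i : ℤ, i < 0 → π (y.coeff i) = 0) → ∀ i : ℤ, 0 < i → π (y.coeff i) = 0)
    (ψ : LaurentSeries k) (hψ0 : ∀ i : ℤ, i ≤ 0 → ψ.coeff i = 0)
    (hψ : ∀ y : LaurentSeries A, coeffMap (algebraMap A K) y ∈ B →
      (coeffMap π y * ψ).coeff 0 = 0)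
    (t : ℕ →₀ A) :
    ∀ (m : ℕ) (u : A), IsUnit u → ∀ y : LaurentSeries A, coeffMap (algebraMap A K) y ∈ B →
      (∀ j : ℕ, y.coeff (-((j : ℤ) + 1)) = u * ϖ ^ m * t j) →
      ((s44a_sq_mr π t).sum fun j a => a * ψ.coeff ((j : ℤ) + 1)) = 0 := by
  intro m
  induction m with
  | zero =>
    intro u hu y hyB hy
    have h0 := hψ y hyB
    rw [s44a_sq_pairing (coeffMap π y) ψ (s44a_sq_mr π (u • t)) (fun j => by
      rw [s44a_sq_mr_apply, Finsupp.smul_apply, smul_eq_mul, coeffMap_coeff, hy j, pow_zero,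
        mul_one]) hψ0, s44a_sq_mr_smul,
      Finsupp.sum_smul_index (fun i => by rw [zero_mul])] at h0
    have h2 : ((s44a_sq_mr π t).sum fun j a => π u * a * ψ.coeff ((j : ℤ) + 1)) =
        π u * ((s44a_sq_mr π t).sum fun j a => a * ψ.coeff ((j : ℤ) + 1)) := by
      rw [Finsupp.mul_sum]
      exact Finsupp.sum_congr fun j _ => mul_assoc _ _ _
    rw [h2] at h0
    exact (mul_eq_zero.mp h0).resolve_left (hu.map π).ne_zero
  | succ m ih =>
    intro u hu y hyB hy
    -- the polar part of `y` reduces to zero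
    have hpol : ∀ i : ℤ, i < 0 → π (y.coeff i) = 0 := by
      intro i hi
      obtain ⟨j, hj⟩ : ∃ j : ℕ, i = -((j : ℤ) + 1) := ⟨(-i - 1).toNat, by omega⟩
      rw [hj, hy j, pow_succ, map_mul, map_mul, map_mul]
      have : π ϖ = 0 := s44a_sq_map_unif π hπ ϖ hϖ
      rw [this]; ring
    have hpos := hB3 y hyB hpol
    -- divide `y - y₀` by `ϖ`
    set z : LaurentSeries A := y - HahnSeries.C (y.coeff 0) with hz
    have hzc : ∀ i, z.coeff i = if i = 0 then 0 else y.coeff i := by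
      intro i
      rw [hz, HahnSeries.coeff_sub, HahnSeries.C_apply, HahnSeries.coeff_single]
      by_cases hi : i = 0
      · rw [if_pos hi, if_pos hi, hi, sub_self]
      · rw [if_neg hi, if_neg hi, sub_zero]
    have hzdvd : ∀ i, ϖ ∣ z.coeff i := by
      intro i
      rw [hzc]
      by_cases hi : i = 0
      · rw [if_pos hi]; exact dvd_zero _
      · rw [if_neg hi]
        apply s44a_sq_dvd_of_map_eq_zero π ϖ hϖ
        rcases lt_or_gt_of_ne hi with h | h
        · exact hpol i h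
        · exact hpos i h
    obtain ⟨y₁, hy₁⟩ := s44a_sq_div ϖ hϖ.ne_zero z hzdvd
    have hϖK : algebraMap A K ϖ ≠ 0 := by
      rw [Ne, map_eq_zero_iff _ (IsFractionRing.injective A K)]
      exact hϖ.ne_zero
    have hy₁B : coeffMap (algebraMap A K) y₁ ∈ B := by
      have hzB : coeffMap (algebraMap A K) z ∈ B := by
        rw [hz, map_sub]
        refine B.sub_mem hyB ?_
        have : coeffMap (algebraMap A K) (HahnSeries.C (y.coeff 0)) =
            algebraMap A K (y.coeff 0) • (1 : LaurentSeries K) := by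
          ext i
          rw [coeffMap_coeff, HahnSeries.C_apply, HahnSeries.coeff_single, HahnSeries.coeff_smul,
            HahnSeries.coeff_one]
          by_cases hi : i = 0
          · rw [if_pos hi, if_pos hi, smul_eq_mul, mul_one]
          · rw [if_neg hi, if_neg hi, map_zero, smul_zero]
        rw [this]
        exact B.smul_mem _ h1
      have : coeffMap (algebraMap A K) y₁ =
          (algebraMap A K ϖ)⁻¹ • coeffMap (algebraMap A K) z := by
        ext i
        rw [HahnSeries.coeff_smul, coeffMap_coeff, coeffMap_coeff, ← hy₁ i, map_mul, smul_eq_mul,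
          ← mul_assoc, inv_mul_cancel₀ hϖK, one_mul]
      rw [this]
      exact B.smul_mem _ hzB
    refine ih u hu y₁ hy₁B fun j => ?_
    have hne : (-((j : ℤ) + 1)) ≠ 0 := by omega
    have h3 := hy₁ (-((j : ℤ) + 1))
    rw [hzc, if_neg hne, hy j, pow_succ] at h3
    have h4 : ϖ * y₁.coeff (-((j : ℤ) + 1)) = ϖ * (u * ϖ ^ m * t j) := by rw [h3]; ring
    exact mul_left_cancel₀ hϖ.ne_zero h4


include hπ in
/-- **[SQ] for Laurent series.** -/
theorem s44a_sq_laurent (ϖ : A) (hϖ : Irreducible ϖ) (B : Submodule K (LaurentSeries K))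
    (h1 : (1 : LaurentSeries K) ∈ B)
    (hBD : ∀ U ∈ B, ∃ c : A, c ≠ 0 ∧ ∃ y : LaurentSeries A,
      coeffMap (algebraMap A K) y = algebraMap A K c • U)
    (hB3 : ∀ y : LaurentSeries A, coeffMap (algebraMap A K) y ∈ B →
      (∀ i : ℤ, i < 0 → π (y.coeff i) = 0) → ∀ i : ℤ, 0 < i → π (y.coeff i) = 0)
    [FiniteDimensional K (s44a_sq_W B)]
    (hWBD : ∀ φ ∈ s44a_sq_W B, ∃ c : A, c ≠ 0 ∧ ∃ φ' : LaurentSeries A,
      coeffMap (algebraMap A K) φ' = algebraMap A K c • φ)
    (ψ : LaurentSeries k) (hψ0 : ∀ i : ℤ, i ≤ 0 → ψ.coeff i = 0)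
    (hψ : ∀ y : LaurentSeries A, coeffMap (algebraMap A K) y ∈ B →
      (coeffMap π y * ψ).coeff 0 = 0) :
    ∃ φ' : LaurentSeries A, coeffMap (algebraMap A K) φ' ∈ s44a_sq_W B ∧ coeffMap π φ' = ψ := by
  haveI := s44a_sq_finite_perp_of_W B
  have hBD' : ∀ a ∈ s44a_sq_perp (s44a_sq_P B), ∃ c : A, c ≠ 0 ∧
      ∀ j, ∃ x : A, algebraMap A K x = algebraMap A K c * a j := by
    intro a ha
    obtain ⟨c, hc0, φ', hφ'⟩ := hWBD _ ((s44a_sq_ser_mem_W_iff B a).mpr ha)
    refine ⟨c, hc0, fun j => ⟨φ'.coeff ((j : ℤ) + 1), ?_⟩⟩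
    have := congrArg (fun x : LaurentSeries K => x.coeff ((j : ℤ) + 1)) hφ'
    simp only [coeffMap_coeff, HahnSeries.coeff_smul, s44a_sq_ser_coeff_succ, smul_eq_mul] at this
    exact this
  have hψ' : ∀ t ∈ s44a_sq_lat (A := A) (s44a_sq_P B),
      ((s44a_sq_mr π t).sum fun j a => a * (fun j : ℕ => ψ.coeff ((j : ℤ) + 1)) j) = 0 := by
    rintro t ⟨U, hU, hUt⟩
    obtain ⟨c, hc0, y, hy⟩ := hBD U hU
    obtain ⟨m, u, hcu⟩ := IsDiscreteValuationRing.eq_unit_mul_pow_irreducible hc0 hϖ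
    have hyB : coeffMap (algebraMap A K) y ∈ B := by rw [hy]; exact B.smul_mem _ hU
    refine s44a_sq_alpha π hπ ϖ hϖ B h1 hB3 ψ hψ0 hψ t m (u : A) u.isUnit y hyB fun j => ?_
    apply IsFractionRing.injective A K
    have := congrArg (fun x : LaurentSeries K => x.coeff (-((j : ℤ) + 1))) hy
    simp only [coeffMap_coeff, HahnSeries.coeff_smul, smul_eq_mul] at this
    rw [this, ← hUt j, s44a_sq_mr_apply, ← map_mul, hcu]
  obtain ⟨φs, hφs, e⟩ := s44a_sq_abs π hπ ϖ hϖ (s44a_sq_P B) hBD'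
    (fun j : ℕ => ψ.coeff ((j : ℤ) + 1)) hψ'
  refine ⟨s44a_sq_ser φs, ?_, ?_⟩
  · rw [s44a_sq_coeffMap_ser, s44a_sq_ser_mem_W_iff]
    exact hφs
  · rw [s44a_sq_coeffMap_ser]
    have : (fun j => π (φs j)) = fun j : ℕ => ψ.coeff ((j : ℤ) + 1) := funext e
    rw [this]
    exact s44a_sq_ser_cof ψ hψ0

end Alpha

end

end Fermat.Agent.Lib.S44
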