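/-
M-AT-P programme (S44), wall W2 (helper8, prefix `s44e_`), part 9: **BASE CHANGE FROM THE SMALL FIELD `L` TO
THE HUGE FIELD `L₀ ⊇ L`** (`s44i_Finite` quantifies over all large `L₀`, (★) lives over the small
sub-critically ramified `L`).

`ι : 𝓕_L → 𝓕_{L₀}` coefficientwise.  `ι V_∞(L) ⊆ V_∞(L₀)`, `ι V_0(L) ⊆ V_0(L₀)` (`w_p` commutes with `ι`),
places of `𝓕_{L₀}` restrict to places of `𝓕_L` with the same `ord`, node places restrict to node places.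
-/
import Fermat.Agent.Lib.S33.TPFinal
import Fermat.Agent.Lib.S34.CChart

set_option autoImplicit false
set_option linter.unusedSectionVars false
set_option linter.style.haveILetI false
set_option synthInstance.maxHeartbeats 400000

noncomputable section

namespace Fermat.Agent.Lib.S44

open ModularCurve HahnSeries AlgebraicCurve Fermat.Agent.Lib.S18 Fermat.Agent.Lib.S28
  Fermat.Agent.Lib.S29 Fermat.Agent.Lib.S37 Fermat.Agent.Lib.FF Fermat.Agent.Lib.S34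
  Fermat.Agent.Lib.S35 Fermat.Agent.Lib.S33

local notation "Kb" => AlgebraicClosure ℚ

theorem s44e_field_aux5 {F : Type*} [Field F] (Gi c hi : F) (p : ℕ) (hG : Gi ≠ 0) (hc : c ≠ 0) :
    hi = c⁻¹ * Gi⁻¹ ^ p * (Gi ^ p * (c * hi)) := by
  rw [inv_pow]
  have := pow_ne_zero p hG
  field_simp

section Base

variable (P : ValuationSubring Kb) {L L₀ : IntermediateField ℚ Kb} (hLL : L ≤ L₀)

/-- the coefficientwise inclusion `𝓕_L → 𝓕_{L₀}`. -/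
def s44e_up (N : ℕ) [NeZero N] : s34m_F ↥L N →+* s34m_F ↥L₀ N :=
  s18q_map ((IntermediateField.inclusion hLL : ↥L →ₐ[ℚ] ↥L₀) : ↥L →+* ↥L₀)
    (modularFunctionFieldFull N)

theorem s44e_incl_up (N : ℕ) [NeZero N] (x : s34m_F ↥L N) :
    s18q_incl N L₀ (s44e_up hLL N x) = s18q_incl N L x := by
  unfold s44e_up s18q_incl
  rw [s18q_map_comp]
  rfl

theorem s44e_up_injective (N : ℕ) [NeZero N] : Function.Injective (s44e_up hLL N) :=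
  (s44e_up hLL N).injective

variable [IsDiscreteValuationRing ↥(s18q_A0 P L)] [IsDiscreteValuationRing ↥(s18q_A0 P L₀)]
  (ϖL : ↥(s18q_A0 P L)) (hϖL : Irreducible ϖL) (ϖ : ↥(s18q_A0 P L₀)) (hϖ : Irreducible ϖ)

/-- `ι V_∞(L) ⊆ V_∞(L₀)`. -/
theorem s44e_up_mem_Vinf (N : ℕ) [NeZero N] {x : s34m_F ↥L N}
    (hx : x ∈ s34m_Vinf (s37r_G P L ϖL hϖL) N) :
    s44e_up hLL N x ∈ s34m_Vinf (s37r_G P L₀ ϖ hϖ) N := by
  have h1 := s37r_level_mem_O P L ϖL hϖL ((s34m_mem_Vinf _ N x).mp hx)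
  refine s37r_level_mem_V_of_mem_O P L₀ ϖ hϖ N (s44e_up hLL N x) ?_
  have e : coeffMap (algebraMap ↥L₀ Kb) ((s44e_up hLL N x : s34m_F ↥L₀ N) : LaurentSeries ↥L₀) =
      coeffMap (algebraMap ↥L Kb) (x : LaurentSeries ↥L) := by
    have := congrArg (fun y : ↥(laurentBaseChange Kb (modularFunctionFieldFull N)) =>
      (y : LaurentSeries Kb)) (s44e_incl_up hLL N x)
    exact this
  rw [e]
  exact h1

/-- `w_p` commutes with `ι`. -/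
theorem s44e_up_al (M p : ℕ) [NeZero M] [NeZero p] (hp : p.Prime) (hpM : ¬ p ∣ M)
    (x : s34m_F ↥L (M * p)) :
    s44e_up hLL (M * p) (s34m_al (algebraMap ↥L Kb) M p hp hpM x) =
      s34m_al (algebraMap ↥L₀ Kb) M p hp hpM (s44e_up hLL (M * p) x) := by
  apply s34m_iota_injective (algebraMap ↥L₀ Kb) (M * p)
  have h1 : ∀ y : s34m_F ↥L (M * p), s34m_iota (algebraMap ↥L₀ Kb) (M * p) (s44e_up hLL (M * p) y) =
      s34m_iota (algebraMap ↥L Kb) (M * p) y := fun y => s44e_incl_up hLL (M * p) y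
  rw [h1, s34m_iota_al, s34m_iota_al, h1]

/-- `ι V_0(L) ⊆ V_0(L₀)`. -/
theorem s44e_up_mem_Vzero (M p : ℕ) [NeZero M] [NeZero p] (hp : p.Prime) (hpM : ¬ p ∣ M)
    {x : s34m_F ↥L (M * p)}
    (hx : x ∈ s34m_Vzero (s37r_G P L ϖL hϖL) (algebraMap ↥L Kb) M p hp hpM) :
    s44e_up hLL (M * p) x ∈ s34m_Vzero (s37r_G P L₀ ϖ hϖ) (algebraMap ↥L₀ Kb) M p hp hpM := by
  rw [s34m_mem_Vzero, ← s44e_up_al]
  exact s44e_up_mem_Vinf P hLL ϖL hϖL ϖ hϖ (M * p) ((s34m_mem_Vzero _ _ M p hp hpM x).mp hx)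

/-- `ι VV_i(L) ⊆ VV_i(L₀)`. -/
theorem s44e_up_mem_VV (M p : ℕ) [NeZero M] [NeZero p] (hp : p.Prime) (hpM : ¬ p ∣ M) (i : Bool)
    {x : s34m_F ↥L (M * p)}
    (hx : x ∈ s34m_VV (s37r_G P L ϖL hϖL) (algebraMap ↥L Kb) M p hp hpM i) :
    s44e_up hLL (M * p) x ∈ s34m_VV (s37r_G P L₀ ϖ hϖ) (algebraMap ↥L₀ Kb) M p hp hpM i := by
  cases i
  · exact s44e_up_mem_Vzero P hLL ϖL hϖL ϖ hϖ M p hp hpM hx
  · exact s44e_up_mem_Vinf P hLL ϖL hϖL ϖ hϖ (M * p) hx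

/-- `ι y ∈ V_∞(L₀) → y ∈ V_∞(L)`. -/
theorem s44e_mem_Vinf_of_up (N : ℕ) [NeZero N] {x : s34m_F ↥L N}
    (hx : s44e_up hLL N x ∈ s34m_Vinf (s37r_G P L₀ ϖ hϖ) N) :
    x ∈ s34m_Vinf (s37r_G P L ϖL hϖL) N := by
  have h1 := s37r_level_mem_O P L₀ ϖ hϖ ((s34m_mem_Vinf _ N _).mp hx)
  refine s37r_level_mem_V_of_mem_O P L ϖL hϖL N x ?_
  have e : coeffMap (algebraMap ↥L₀ Kb) ((s44e_up hLL N x : s34m_F ↥L₀ N) : LaurentSeries ↥L₀) =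
      coeffMap (algebraMap ↥L Kb) (x : LaurentSeries ↥L) := by
    have := congrArg (fun y : ↥(laurentBaseChange Kb (modularFunctionFieldFull N)) =>
      (y : LaurentSeries Kb)) (s44e_incl_up hLL N x)
    exact this
  rw [← e]
  exact h1

/-- **(E-a), `V_∞`.** -/
theorem s44e_up_mem_Vinf_iff (N : ℕ) [NeZero N] (x : s34m_F ↥L N) :
    s44e_up hLL N x ∈ s34m_Vinf (s37r_G P L₀ ϖ hϖ) N ↔ x ∈ s34m_Vinf (s37r_G P L ϖL hϖL) N :=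
  ⟨s44e_mem_Vinf_of_up P hLL ϖL hϖL ϖ hϖ N, s44e_up_mem_Vinf P hLL ϖL hϖL ϖ hϖ N⟩

/-- **(E-a), `V_0`.** -/
theorem s44e_up_mem_Vzero_iff (M p : ℕ) [NeZero M] [NeZero p] (hp : p.Prime) (hpM : ¬ p ∣ M)
    (x : s34m_F ↥L (M * p)) :
    s44e_up hLL (M * p) x ∈ s34m_Vzero (s37r_G P L₀ ϖ hϖ) (algebraMap ↥L₀ Kb) M p hp hpM ↔
      x ∈ s34m_Vzero (s37r_G P L ϖL hϖL) (algebraMap ↥L Kb) M p hp hpM := by
  rw [s34m_mem_Vzero, s34m_mem_Vzero, ← s44e_up_al, s44e_up_mem_Vinf_iff]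

/-- **(E-a)**: `ι y ∈ VV_i(L₀) ↔ y ∈ VV_i(L)`. -/
theorem s44e_up_mem_VV_iff (M p : ℕ) [NeZero M] [NeZero p] (hp : p.Prime) (hpM : ¬ p ∣ M) (i : Bool)
    (x : s34m_F ↥L (M * p)) :
    s44e_up hLL (M * p) x ∈ s34m_VV (s37r_G P L₀ ϖ hϖ) (algebraMap ↥L₀ Kb) M p hp hpM i ↔
      x ∈ s34m_VV (s37r_G P L ϖL hϖL) (algebraMap ↥L Kb) M p hp hpM i := by
  cases i
  · exact s44e_up_mem_Vzero_iff P hLL ϖL hϖL ϖ hϖ M p hp hpM x
  · exact s44e_up_mem_Vinf_iff P hLL ϖL hϖL ϖ hϖ (M * p) x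

end Base

section Places

variable {L L₀ : IntermediateField ℚ Kb} (hLL : L ≤ L₀)

/-- **restriction of places** along `ι : 𝓕_L → 𝓕_{L₀}` (helper9's `s18q_restrictGen`): same `ord`. -/
theorem s44e_exists_restrict (N : ℕ) [NeZero N] (Q : Place ↥L₀ (s34m_F ↥L₀ N)) :
    ∃ Q' : Place ↥L (s34m_F ↥L N), (∀ f : s34m_F ↥L N, Q.ord (s44e_up hLL N f) = Q'.ord f) ∧
      ∀ f : s34m_F ↥L N, f ∈ Q'.toValuationSubring ↔ s44e_up hLL N f ∈ Q.toValuationSubring := by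
  letI : Algebra ↥L ↥L₀ :=
    ((IntermediateField.inclusion hLL : ↥L →ₐ[ℚ] ↥L₀) : ↥L →+* ↥L₀).toAlgebra
  haveI : IsScalarTower ℚ ↥L ↥L₀ := IsScalarTower.of_algebraMap_eq (fun x =>
    ((IntermediateField.inclusion hLL : ↥L →ₐ[ℚ] ↥L₀).commutes x).symm)
  haveI : Algebra.IsAlgebraic ℚ ↥L₀ := Algebra.IsAlgebraic.of_injective
    (IsScalarTower.toAlgHom ℚ ↥L₀ Kb) (algebraMap ↥L₀ Kb).injective
  haveI : Algebra.IsAlgebraic ↥L ↥L₀ := Algebra.IsAlgebraic.tower_top (K := ℚ) ↥L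
  exact ⟨s18q_restrictGen ↥L (modularFunctionFieldFull N) Q,
    fun f => s18q_ord_restrictGen ↥L (modularFunctionFieldFull N) Q f, fun f => Iff.rfl⟩

/-- **every place of `𝓕_L` is a restriction** (helper9's `s18q_restrictGen_surjective`). -/
theorem s44e_exists_extend (N : ℕ) [NeZero N] (Q' : Place ↥L (s34m_F ↥L N)) :
    ∃ Q : Place ↥L₀ (s34m_F ↥L₀ N), (∀ f : s34m_F ↥L N, Q.ord (s44e_up hLL N f) = Q'.ord f) ∧
      ∀ f : s34m_F ↥L N, f ∈ Q'.toValuationSubring ↔ s44e_up hLL N f ∈ Q.toValuationSubring := by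
  letI : Algebra ↥L ↥L₀ :=
    ((IntermediateField.inclusion hLL : ↥L →ₐ[ℚ] ↥L₀) : ↥L →+* ↥L₀).toAlgebra
  haveI : IsScalarTower ℚ ↥L ↥L₀ := IsScalarTower.of_algebraMap_eq (fun x =>
    ((IntermediateField.inclusion hLL : ↥L →ₐ[ℚ] ↥L₀).commutes x).symm)
  haveI : Algebra.IsAlgebraic ℚ ↥L₀ := Algebra.IsAlgebraic.of_injective
    (IsScalarTower.toAlgHom ℚ ↥L₀ Kb) (algebraMap ↥L₀ Kb).injective
  haveI : Algebra.IsAlgebraic ↥L ↥L₀ := Algebra.IsAlgebraic.tower_top (K := ℚ) ↥L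
  obtain ⟨Q, rfl⟩ := s18q_restrictGen_surjective ↥L (K := ↥L₀) (modularFunctionFieldFull N) Q'
  exact ⟨Q, fun f => s18q_ord_restrictGen ↥L (modularFunctionFieldFull N) Q f, fun f => Iff.rfl⟩

theorem s44e_up_jF (N : ℕ) [NeZero N] :
    s44e_up hLL N (s18g_jF (K := ↥L) N) = s18g_jF (K := ↥L₀) N := by
  apply Subtype.ext
  unfold s44e_up
  rw [s18q_map_coe, s18g_coe_jF, s18g_coe_jF, coeffMap_jqModC]

theorem s44e_up_const (N : ℕ) [NeZero N] (c : ↥L) :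
    s44e_up hLL N (algebraMap ↥L (s34m_F ↥L N) c) =
      algebraMap ↥L₀ (s34m_F ↥L₀ N) (IntermediateField.inclusion hLL c) :=
  s18q_map_algebraMap _ _ c

variable (P : ValuationSubring Kb)
  [IsDiscreteValuationRing ↥(s18q_A0 P L)] [IsDiscreteValuationRing ↥(s18q_A0 P L₀)]
  (ϖL : ↥(s18q_A0 P L)) (hϖL : Irreducible ϖL) (ϖ : ↥(s18q_A0 P L₀)) (hϖ : Irreducible ϖ)

include hϖL hϖ in
/-- the uniformiser of `L` is divisible by the uniformiser of `L₀`. -/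
theorem s44e_unif_dvd : ∃ c : ↥(s18q_A0 P L₀),
    IntermediateField.inclusion hLL (ϖL : ↥L) = ((ϖ : ↥(s18q_A0 P L₀)) : ↥L₀) * (c : ↥L₀) := by
  have hmem : IntermediateField.inclusion hLL (ϖL : ↥L) ∈ s18q_A0 P L₀ := by
    rw [s18q_mem_A0]
    exact (s18q_mem_A0 P L).mp ϖL.2
  have hnu : ¬ IsUnit (⟨_, hmem⟩ : ↥(s18q_A0 P L₀)) := by
    intro hu
    obtain ⟨v, hv⟩ := hu.exists_right_inv
    apply hϖL.not_isUnit
    have h1 : IntermediateField.inclusion hLL (ϖL : ↥L) * (v : ↥L₀) = 1 :=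
      congrArg Subtype.val hv
    have hϖL0 : (ϖL : ↥L) ≠ 0 := fun h => hϖL.ne_zero (Subtype.ext h)
    have hinv : ((ϖL : ↥L)⁻¹ : ↥L) ∈ s18q_A0 P L := by
      rw [s18q_mem_A0]
      have h2 : (((ϖL : ↥L)⁻¹ : ↥L) : Kb) = ((v : ↥L₀) : Kb) := by
        have h3 := congrArg (fun z : ↥L₀ => (z : Kb)) h1
        simp only [MulMemClass.coe_mul, IntermediateField.coe_inclusion, OneMemClass.coe_one] at h3
        have h4 : ((ϖL : ↥L) : Kb) ≠ 0 := by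
          intro h0
          apply hϖL0
          exact Subtype.ext h0
        rw [IntermediateField.coe_inv]
        exact inv_eq_of_mul_eq_one_right h3
      rw [h2]
      exact (s18q_mem_A0 P L₀).mp v.2
    exact isUnit_iff_exists_inv.mpr ⟨⟨_, hinv⟩, Subtype.ext (mul_inv_cancel₀ hϖL0)⟩
  have hdvd : ϖ ∣ (⟨_, hmem⟩ : ↥(s18q_A0 P L₀)) := by
    have hmax : (⟨_, hmem⟩ : ↥(s18q_A0 P L₀)) ∈ IsLocalRing.maximalIdeal ↥(s18q_A0 P L₀) := hnu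
    rw [hϖ.maximalIdeal_eq, Ideal.mem_span_singleton] at hmax
    exact hmax
  obtain ⟨c, hc⟩ := hdvd
  exact ⟨c, congrArg Subtype.val hc⟩

include hϖL hϖ in
/-- **(E-c)**: `ϖ_L = u · ϖ_{L₀} ^ e` with `u` a unit of `A₀(L₀)` and `1 ≤ e`. -/
theorem s44e_unif_eq : ∃ (e : ℕ) (u : ↥(s18q_A0 P L₀)), 1 ≤ e ∧ IsUnit u ∧
    IntermediateField.inclusion hLL (ϖL : ↥L) =
      (u : ↥L₀) * ((ϖ : ↥(s18q_A0 P L₀)) : ↥L₀) ^ e := by
  obtain ⟨c, hc⟩ := s44e_unif_dvd hLL P ϖL hϖL ϖ hϖ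
  have hϖL0 : (ϖL : ↥L) ≠ 0 := fun h => hϖL.ne_zero (Subtype.ext h)
  have hc0 : c ≠ 0 := by
    rintro rfl
    rw [ZeroMemClass.coe_zero, mul_zero] at hc
    exact hϖL0 ((map_eq_zero _).mp hc)
  obtain ⟨n, u, hu⟩ := IsDiscreteValuationRing.eq_unit_mul_pow_irreducible hc0 hϖ
  refine ⟨n + 1, u, by omega, u.isUnit, ?_⟩
  rw [hc, hu]
  push_cast
  ring

include hϖL hϖ in
/-- **(E-c)** in the function field. -/
theorem s44e_up_unif (N : ℕ) [NeZero N] : ∃ (e : ℕ) (u : ↥(s18q_A0 P L₀)), 1 ≤ e ∧ IsUnit u ∧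
    s44e_up hLL N (s34m_unif (s37r_G P L ϖL hϖL) N) =
      algebraMap ↥L₀ (s34m_F ↥L₀ N) (u : ↥L₀) * s34m_unif (s37r_G P L₀ ϖ hϖ) N ^ e := by
  obtain ⟨e, u, he, hu, h⟩ := s44e_unif_eq hLL P ϖL hϖL ϖ hϖ
  refine ⟨e, u, he, hu, ?_⟩
  unfold s34m_unif
  rw [s44e_up_const, ← map_pow, ← map_mul]
  exact congrArg _ h

end Places

section Nodes

variable (M p : ℕ) [NeZero M] [hp : Fact p.Prime] (hpM : ¬ p ∣ M) (P : ValuationSubring Kb)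
  {L L₀ : IntermediateField ℚ Kb} (hLL : L ≤ L₀)
  [IsDiscreteValuationRing ↥(s18q_A0 P L)] [IsDiscreteValuationRing ↥(s18q_A0 P L₀)]
  (ϖL : ↥(s18q_A0 P L)) (hϖL : Irreducible ϖL) (ϖ : ↥(s18q_A0 P L₀)) (hϖ : Irreducible ϖ)

set_option quotPrecheck false

local notation "VVL" => s34m_VV (s37r_G P L ϖL hϖL) (algebraMap ↥L Kb) M p hp.out hpM
local notation "VV₀" => s34m_VV (s37r_G P L₀ ϖ hϖ) (algebraMap ↥L₀ Kb) M p hp.out hpM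
local notation "SL" => s18_chart1 (L₀ := ↥L) (s18g_jF (K := ↥L) (M * p))
local notation "S₀" => s18_chart1 (L₀ := ↥L₀) (s18g_jF (K := ↥L₀) (M * p))

/-- the restriction of a place of the chart `{j regular}` is in the chart. -/
theorem s44e_restrict_chart (Q : Place ↥L₀ (s34m_F ↥L₀ (M * p))) (Q' : Place ↥L (s34m_F ↥L (M * p)))
    (hmem : ∀ f : s34m_F ↥L (M * p),
      f ∈ Q'.toValuationSubring ↔ s44e_up hLL (M * p) f ∈ Q.toValuationSubring)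
    (hQ : Q ∈ S₀) : Q' ∈ SL := by
  show s18g_jF (K := ↥L) (M * p) ∈ Q'.toValuationSubring
  rw [hmem, s44e_up_jF]
  exact hQ

/-- `ι` maps the chart ring of `L` into the chart ring of `L₀`. -/
theorem s44e_up_mem_ring (b : s34m_F ↥L (M * p)) (hb : b ∈ s34x_ring (s34x_infRing VVL) SL) :
    s44e_up hLL (M * p) b ∈ s34x_ring (s34x_infRing VV₀) S₀ := by
  refine ⟨(s34x_mem_infRing _ _).mpr (fun i =>
    s44e_up_mem_VV P hLL ϖL hϖL ϖ hϖ M p hp.out hpM i ((s34x_mem_infRing _ _).mp hb.1 i)),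
    fun Q hQ => ?_⟩
  obtain ⟨Q', -, hmem⟩ := s44e_exists_restrict hLL (M * p) Q
  exact (hmem b).mp (hb.2 Q' (s44e_restrict_chart M p hLL Q Q' hmem hQ))

/-- **(E-b), chart 1**: `ι y ∈ B₂ ↔ y ∈ B₁`. -/
theorem s44e_up_mem_ring_iff (b : s34m_F ↥L (M * p)) :
    s44e_up hLL (M * p) b ∈ s34x_ring (s34x_infRing VV₀) S₀ ↔
      b ∈ s34x_ring (s34x_infRing VVL) SL := by
  refine ⟨fun hb => ⟨(s34x_mem_infRing _ _).mpr (fun i =>
    (s44e_up_mem_VV_iff P hLL ϖL hϖL ϖ hϖ M p hp.out hpM i b).mp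
      ((s34x_mem_infRing _ _).mp hb.1 i)), fun Q' hQ' => ?_⟩,
    s44e_up_mem_ring M p hpM P hLL ϖL hϖL ϖ hϖ b⟩
  obtain ⟨Q, -, hmem⟩ := s44e_exists_extend hLL (M * p) Q'
  have hQ : Q ∈ S₀ := by
    show s18g_jF (K := ↥L₀) (M * p) ∈ Q.toValuationSubring
    rw [← s44e_up_jF hLL, ← hmem]
    exact hQ'
  exact (hmem b).mpr (hb.2 Q hQ)

/-- **(E-b), chart 2** (`j⁻¹` regular): `ι y ∈ B₂ ↔ y ∈ B₁`. -/
theorem s44e_up_mem_ring_chart2_iff (b : s34m_F ↥L (M * p)) :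
    s44e_up hLL (M * p) b ∈ s34x_ring (s34x_infRing VV₀)
        (s18_chart2 (L₀ := ↥L₀) (s18g_jF (K := ↥L₀) (M * p))) ↔
      b ∈ s34x_ring (s34x_infRing VVL) (s18_chart2 (L₀ := ↥L) (s18g_jF (K := ↥L) (M * p))) := by
  have hj : s44e_up hLL (M * p) (s18g_jF (K := ↥L) (M * p))⁻¹ = (s18g_jF (K := ↥L₀) (M * p))⁻¹ := by
    rw [map_inv₀, s44e_up_jF]
  constructor
  · intro hb
    refine ⟨(s34x_mem_infRing _ _).mpr (fun i =>
      (s44e_up_mem_VV_iff P hLL ϖL hϖL ϖ hϖ M p hp.out hpM i b).mp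
        ((s34x_mem_infRing _ _).mp hb.1 i)), fun Q' hQ' => ?_⟩
    obtain ⟨Q, -, hmem⟩ := s44e_exists_extend hLL (M * p) Q'
    have hQ : Q ∈ s18_chart2 (L₀ := ↥L₀) (s18g_jF (K := ↥L₀) (M * p)) := by
      show (s18g_jF (K := ↥L₀) (M * p))⁻¹ ∈ Q.toValuationSubring
      rw [← hj, ← hmem]
      exact hQ'
    exact (hmem b).mpr (hb.2 Q hQ)
  · intro hb
    refine ⟨(s34x_mem_infRing _ _).mpr (fun i =>
      s44e_up_mem_VV P hLL ϖL hϖL ϖ hϖ M p hp.out hpM i ((s34x_mem_infRing _ _).mp hb.1 i)),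
      fun Q hQ => ?_⟩
    obtain ⟨Q', -, hmem⟩ := s44e_exists_restrict hLL (M * p) Q
    have hQ' : Q' ∈ s18_chart2 (L₀ := ↥L) (s18g_jF (K := ↥L) (M * p)) := by
      show (s18g_jF (K := ↥L) (M * p))⁻¹ ∈ Q'.toValuationSubring
      rw [hmem, hj]
      exact hQ
    exact (hmem b).mp (hb.2 Q' hQ')

/-- `ι` on the chart rings. -/
def s44e_upB : s34x_ring (s34x_infRing VVL) SL →+* s34x_ring (s34x_infRing VV₀) S₀ :=
  (s44e_up hLL (M * p)).restrict _ _ (s44e_up_mem_ring M p hpM P hLL ϖL hϖL ϖ hϖ)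

theorem s44e_coe_upB (b : s34x_ring (s34x_infRing VVL) SL) :
    ((s44e_upB M p hpM P hLL ϖL hϖL ϖ hϖ b : s34x_ring (s34x_infRing VV₀) S₀) :
      s34m_F ↥L₀ (M * p)) = s44e_up hLL (M * p) (b : s34m_F ↥L (M * p)) := rfl

set_option maxHeartbeats 1600000 in
/-- **node places restrict to node places.** -/
theorem s44e_nodePlaces_restrict (Q : Place ↥L₀ (s34m_F ↥L₀ (M * p)))
    (Q' : Place ↥L (s34m_F ↥L (M * p)))
    (hord : ∀ f : s34m_F ↥L (M * p), Q.ord (s44e_up hLL (M * p) f) = Q'.ord f)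
    (hmem : ∀ f : s34m_F ↥L (M * p),
      f ∈ Q'.toValuationSubring ↔ s44e_up hLL (M * p) f ∈ Q.toValuationSubring)
    (hQ : Q ∈ s33s_nodePlaces VV₀ (s34m_unif (s37r_G P L₀ ϖ hϖ) (M * p)) S₀) :
    Q' ∈ s33s_nodePlaces VVL (s34m_unif (s37r_G P L ϖL hϖL) (M * p)) SL := by
  obtain ⟨hQS, 𝔫, h𝔫, hth⟩ := hQ
  have hQ'S := s44e_restrict_chart M p hLL Q Q' hmem hQS
  refine ⟨hQ'S, ?_⟩
  set I : Ideal (s34x_ring (s34x_infRing VVL) SL) :=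
    Ideal.comap (s44e_upB M p hpM P hLL ϖL hϖL ϖ hϖ) 𝔫 with hI
  have hI1 : I ≠ ⊤ := by
    intro htop
    have h1 : (1 : s34x_ring (s34x_infRing VVL) SL) ∈ I := by rw [htop]; trivial
    rw [hI, Ideal.mem_comap, map_one] at h1
    exact h𝔫.1.ne_top ((Ideal.eq_top_iff_one _).mpr h1)
  obtain ⟨𝔪, h𝔪, hle⟩ := Ideal.exists_le_maximal I hI1
  obtain ⟨c, hc⟩ := s44e_unif_dvd hLL P ϖL hϖL ϖ hϖ
  have hcomp : ∀ i, s33s_comp VVL (s34m_unif (s37r_G P L ϖL hϖL) (M * p)) SL i ≤ 𝔪 := by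
    intro i b hb
    apply hle
    rw [hI, Ideal.mem_comap]
    obtain ⟨z, hz, e⟩ := (s33s_mem_comp _ _ _ i b).mp hb
    have hmem' : s44e_upB M p hpM P hLL ϖL hϖL ϖ hϖ b ∈
        s33s_comp VV₀ (s34m_unif (s37r_G P L₀ ϖ hϖ) (M * p)) S₀ i := by
      rw [s33s_mem_comp]
      refine ⟨algebraMap ↥L₀ (s34m_F ↥L₀ (M * p)) (c : ↥L₀) * s44e_up hLL (M * p) z,
        (VV₀ i).mul_mem _ _ (s34c_const_mem_VV (s37r_G P L₀ ϖ hϖ) (algebraMap ↥L₀ Kb) M p hp.out hpM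
          i c) (s44e_up_mem_VV P hLL ϖL hϖL ϖ hϖ M p hp.out hpM i hz), ?_⟩
      rw [s44e_coe_upB, e, map_mul]
      have h2 : s44e_up hLL (M * p) (s34m_unif (s37r_G P L ϖL hϖL) (M * p)) =
          s34m_unif (s37r_G P L₀ ϖ hϖ) (M * p) * algebraMap ↥L₀ (s34m_F ↥L₀ (M * p)) (c : ↥L₀) := by
        unfold s34m_unif
        rw [s44e_up_const, ← map_mul]
        exact congrArg _ hc
      rw [h2]
      ring
    cases i
    · exact h𝔫.2.2 hmem'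
    · exact h𝔫.2.1 hmem'
  refine ⟨𝔪, ⟨h𝔪, hcomp true, hcomp false⟩, fun b hb0 hbpos => ?_⟩
  apply hle
  rw [hI, Ideal.mem_comap]
  refine hth _ ?_ ?_
  · rw [s44e_coe_upB]
    exact (map_ne_zero _).mpr hb0
  · rw [s44e_coe_upB, hord]
    exact hbpos

include hLL in
set_option maxHeartbeats 800000 in
/-- **BASE CHANGE, one level.**  A Kummer generator over `L` which is a unit of `V_∞(L)`, of `V_0(L)` and
node-avoiding over `L` gives over `L₀ ⊇ L` a Kummer generator with the same properties. -/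
theorem s44e_finite_up_small (x : JZero (M * p))
    (h : s34m_F ↥L (M * p)) (hK : s33d_IsKumGen p x (s18q_incl (M * p) L h))
    (h1 : h ∈ s34m_Vinf (s37r_G P L ϖL hϖL) (M * p))
    (h1' : h⁻¹ ∈ s34m_Vinf (s37r_G P L ϖL hϖL) (M * p))
    (h2 : h ∈ s34m_Vzero (s37r_G P L ϖL hϖL) (algebraMap ↥L Kb) M p hp.out hpM)
    (h2' : h⁻¹ ∈ s34m_Vzero (s37r_G P L ϖL hϖL) (algebraMap ↥L Kb) M p hp.out hpM)
    (hN : ∀ Q ∈ s33t_nodeN M p hpM P L ϖL hϖL, Q.ord h = 0) :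
    ∃ h : s34m_F ↥L₀ (M * p),
      s33d_IsKumGen p x (s18q_incl (M * p) L₀ h) ∧
      h ∈ s34m_Vinf (s37r_G P L₀ ϖ hϖ) (M * p) ∧ h⁻¹ ∈ s34m_Vinf (s37r_G P L₀ ϖ hϖ) (M * p) ∧
      h ∈ s34m_Vzero (s37r_G P L₀ ϖ hϖ) (algebraMap ↥L₀ Kb) M p hp.out hpM ∧
      h⁻¹ ∈ s34m_Vzero (s37r_G P L₀ ϖ hϖ) (algebraMap ↥L₀ Kb) M p hp.out hpM ∧
      ∀ Q ∈ s33t_nodeN M p hpM P L₀ ϖ hϖ, Q.ord h = 0 := by
  refine ⟨s44e_up hLL (M * p) h, ?_, ?_, ?_, ?_, ?_, ?_⟩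
  · rw [s44e_incl_up]
    exact hK
  · exact s44e_up_mem_Vinf P hLL ϖL hϖL ϖ hϖ (M * p) h1
  · rw [← map_inv₀]
    exact s44e_up_mem_Vinf P hLL ϖL hϖL ϖ hϖ (M * p) h1'
  · exact s44e_up_mem_Vzero P hLL ϖL hϖL ϖ hϖ M p hp.out hpM h2
  · rw [← map_inv₀]
    exact s44e_up_mem_Vzero P hLL ϖL hϖL ϖ hϖ M p hp.out hpM h2'
  · intro Q hQ
    obtain ⟨Q', hord, hmem⟩ := s44e_exists_restrict hLL (M * p) Q
    rw [hord]
    exact hN Q' (s44e_nodePlaces_restrict M p hpM P hLL ϖL hϖL ϖ hϖ Q Q' hord hmem hQ)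

set_option maxHeartbeats 800000 in
/-- a Kummer generator `f = G ^ p · ϖ ^ a · h` over `L`: `h` is again a Kummer generator. -/
theorem s44e_kumGen_of_glob (x : JZero (M * p))
    (f G h : s34m_F ↥L (M * p)) (a : ℤ)
    (hK : s33d_IsKumGen p x (s18q_incl (M * p) L f)) (hG : G ≠ 0)
    (e : f = G ^ p * (s34m_unif (s37r_G P L ϖL hϖL) (M * p) ^ a * h)) :
    s33d_IsKumGen p x (s18q_incl (M * p) L h) := by
  have hϖ0 : ((ϖL : ↥(s18q_A0 P L)) : ↥L) ≠ 0 := fun h0 => hϖL.ne_zero (Subtype.ext h0)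
  have hc : ((((ϖL : ↥(s18q_A0 P L)) : ↥L) ^ (-a) : ↥L) : Kb) ≠ 0 := by
    intro h0
    exact zpow_ne_zero (-a) hϖ0 (Subtype.ext h0)
  have hw : (s18q_incl (M * p) L G)⁻¹ ≠ 0 := by
    rw [Ne, inv_eq_zero, map_eq_zero]
    exact hG
  have hK' := s33d_kumGen_mul hK hc hw
  have hh : s18q_incl (M * p) L h =
      algebraMap Kb _ ((((ϖL : ↥(s18q_A0 P L)) : ↥L) ^ (-a) : ↥L) : Kb) *
        (s18q_incl (M * p) L G)⁻¹ ^ p * s18q_incl (M * p) L f := by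
    have hu : s34m_unif (s37r_G P L ϖL hϖL) (M * p) ^ a =
        algebraMap ↥L (s34m_F ↥L (M * p)) (((ϖL : ↥(s18q_A0 P L)) : ↥L) ^ a) := by
      unfold s34m_unif
      rw [map_zpow₀]
      rfl
    have hGi : s18q_incl (M * p) L G ≠ 0 := (map_ne_zero _).mpr hG
    have ha0 : algebraMap ↥L (s34m_F ↥L (M * p)) (((ϖL : ↥(s18q_A0 P L)) : ↥L) ^ a) ≠ 0 :=
      (map_ne_zero _).mpr (zpow_ne_zero a hϖ0)
    have hci := (map_ne_zero (s18q_incl (M * p) L)).mpr ha0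
    rw [← s18q_incl_algebraMap, e, hu, zpow_neg, map_inv₀, map_mul, map_mul, map_pow, map_inv₀]
    exact s44e_field_aux5 _ _ _ p hGi hci
  rw [← hh] at hK'
  exact hK'

include hLL in
set_option maxHeartbeats 800000 in
/-- **(G6) output over `L` ⇒ the `L₀`-instance of the body of `s44i_Finite`**, for ONE `L₀ ⊇ L` (the field `L`
may depend on `L₀`: in (★) it is the inertia field of `L₀` over the sub-critical field). -/
theorem s44e_finite_up_glob (x : JZero (M * p))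
    (f G h : s34m_F ↥L (M * p)) (a : ℤ)
    (hK : s33d_IsKumGen p x (s18q_incl (M * p) L f)) (hG : G ≠ 0)
    (e : f = G ^ p * (s34m_unif (s37r_G P L ϖL hϖL) (M * p) ^ a * h))
    (hO : ∀ i, h ∈ VVL i ∧ h⁻¹ ∈ VVL i)
    (hN : ∀ Q ∈ s33s_nodePlaces VVL (s34m_unif (s37r_G P L ϖL hϖL) (M * p)) SL, Q.ord h = 0) :
    ∃ h : s34m_F ↥L₀ (M * p),
      s33d_IsKumGen p x (s18q_incl (M * p) L₀ h) ∧
      h ∈ s34m_Vinf (s37r_G P L₀ ϖ hϖ) (M * p) ∧ h⁻¹ ∈ s34m_Vinf (s37r_G P L₀ ϖ hϖ) (M * p) ∧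
      h ∈ s34m_Vzero (s37r_G P L₀ ϖ hϖ) (algebraMap ↥L₀ Kb) M p hp.out hpM ∧
      h⁻¹ ∈ s34m_Vzero (s37r_G P L₀ ϖ hϖ) (algebraMap ↥L₀ Kb) M p hp.out hpM ∧
      ∀ Q ∈ s33t_nodeN M p hpM P L₀ ϖ hϖ, Q.ord h = 0 :=
  s44e_finite_up_small M p hpM P hLL ϖL hϖL ϖ hϖ x h
    (s44e_kumGen_of_glob M p P ϖL hϖL x f G h a hK hG e) (hO true).1 (hO true).2 (hO false).1
    (hO false).2 hN

set_option maxHeartbeats 800000 in
/-- **BASE CHANGE.**  A Kummer generator over the small field `L` which is a unit of `V_∞(L)`, of `V_0(L)` and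
node-avoiding over `L` gives, over every `L₀ ⊇ L`, a Kummer generator with the same properties: the body of
`s44i_Finite` (with `Lx := L`). -/
theorem s44e_finite_of_small [FiniteDimensional ℚ ↥L] (x : JZero (M * p))
    (h : s34m_F ↥L (M * p)) (hK : s33d_IsKumGen p x (s18q_incl (M * p) L h))
    (h1 : h ∈ s34m_Vinf (s37r_G P L ϖL hϖL) (M * p))
    (h1' : h⁻¹ ∈ s34m_Vinf (s37r_G P L ϖL hϖL) (M * p))
    (h2 : h ∈ s34m_Vzero (s37r_G P L ϖL hϖL) (algebraMap ↥L Kb) M p hp.out hpM)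
    (h2' : h⁻¹ ∈ s34m_Vzero (s37r_G P L ϖL hϖL) (algebraMap ↥L Kb) M p hp.out hpM)
    (hN : ∀ Q ∈ s33t_nodeN M p hpM P L ϖL hϖL, Q.ord h = 0) :
    ∃ Lx : IntermediateField ℚ Kb, FiniteDimensional ℚ ↥Lx ∧
      ∀ (L₀ : IntermediateField ℚ Kb) [FiniteDimensional ℚ ↥L₀] [Normal ℚ ↥L₀]
        [IsDiscreteValuationRing ↥(s18q_A0 P L₀)] (ϖ : ↥(s18q_A0 P L₀)) (hϖ : Irreducible ϖ),
        Lx ≤ L₀ →
        ∃ h : s34m_F ↥L₀ (M * p),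
          s33d_IsKumGen p x (s18q_incl (M * p) L₀ h) ∧
          h ∈ s34m_Vinf (s37r_G P L₀ ϖ hϖ) (M * p) ∧ h⁻¹ ∈ s34m_Vinf (s37r_G P L₀ ϖ hϖ) (M * p) ∧
          h ∈ s34m_Vzero (s37r_G P L₀ ϖ hϖ) (algebraMap ↥L₀ Kb) M p hp.out hpM ∧
          h⁻¹ ∈ s34m_Vzero (s37r_G P L₀ ϖ hϖ) (algebraMap ↥L₀ Kb) M p hp.out hpM ∧
          ∀ Q ∈ s33t_nodeN M p hpM P L₀ ϖ hϖ, Q.ord h = 0 :=
  ⟨L, inferInstance, fun L₀ _ _ _ ϖ hϖ hLL =>
    s44e_finite_up_small M p hpM P hLL ϖL hϖL ϖ hϖ x h hK h1 h1' h2 h2' hN⟩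

set_option maxHeartbeats 800000 in
/-- **(G6) output ⇒ `s44i_Finite`-body**: a Kummer generator `f` over the small field `L` of the shape
`f = G ^ p · ϖ ^ a · h`, `h` a unit of `V_∞(L)`, `V_0(L)`, node-avoiding over `L`. -/
theorem s44e_finite_of_glob [FiniteDimensional ℚ ↥L] (x : JZero (M * p))
    (f G h : s34m_F ↥L (M * p)) (a : ℤ)
    (hK : s33d_IsKumGen p x (s18q_incl (M * p) L f)) (hG : G ≠ 0)
    (e : f = G ^ p * (s34m_unif (s37r_G P L ϖL hϖL) (M * p) ^ a * h))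
    (hO : ∀ i, h ∈ VVL i ∧ h⁻¹ ∈ VVL i)
    (hN : ∀ Q ∈ s33s_nodePlaces VVL (s34m_unif (s37r_G P L ϖL hϖL) (M * p)) SL, Q.ord h = 0) :
    ∃ Lx : IntermediateField ℚ Kb, FiniteDimensional ℚ ↥Lx ∧
      ∀ (L₀ : IntermediateField ℚ Kb) [FiniteDimensional ℚ ↥L₀] [Normal ℚ ↥L₀]
        [IsDiscreteValuationRing ↥(s18q_A0 P L₀)] (ϖ : ↥(s18q_A0 P L₀)) (hϖ : Irreducible ϖ),
        Lx ≤ L₀ →
        ∃ h : s34m_F ↥L₀ (M * p),
          s33d_IsKumGen p x (s18q_incl (M * p) L₀ h) ∧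
          h ∈ s34m_Vinf (s37r_G P L₀ ϖ hϖ) (M * p) ∧ h⁻¹ ∈ s34m_Vinf (s37r_G P L₀ ϖ hϖ) (M * p) ∧
          h ∈ s34m_Vzero (s37r_G P L₀ ϖ hϖ) (algebraMap ↥L₀ Kb) M p hp.out hpM ∧
          h⁻¹ ∈ s34m_Vzero (s37r_G P L₀ ϖ hϖ) (algebraMap ↥L₀ Kb) M p hp.out hpM ∧
          ∀ Q ∈ s33t_nodeN M p hpM P L₀ ϖ hϖ, Q.ord h = 0 :=
  ⟨L, inferInstance, fun L₀ _ _ _ ϖ hϖ hLL =>
    s44e_finite_up_glob M p hpM P hLL ϖL hϖL ϖ hϖ x f G h a hK hG e hO hN⟩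

end Nodes

end Fermat.Agent.Lib.S44
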