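/-
M-AT-P programme (S44), brick [Q-DIV] (helper8, prefix `s44e_`): **A RATIONAL TORSION POINT HAS A RATIONAL
KUMMER GENERATOR.**  `x ∈ J₀(N)(ℚ̄)`, `p • x = 0`, `σ x = x` for every `σ ∈ Gal(ℚ̄ / L)` (`L` ANY intermediate
field) ⇒ there is `f ∈ 𝓕_L(N)` with `s33d_IsKumGen p x (ι f)`.

Proof: helper1's Kummer descent `s33d_kummer_descent` ([DESC-H90], Hilbert 90 on a finite level) with
`H = Gal(ℚ̄ / L)`: a Kummer generator `f₁` lives over a finite normal `K`; for `σ ∈ H` the function `σ f₁` is a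
Kummer generator of `σ x = x`, hence `= c · w ^ p · f₁` (`s33d_kumGen_fixed`); descent gives
`c · u ^ p · f₁ ∈ 𝓕_{K ⊓ ℚ̄^H}`, and `ℚ̄^H = L` (infinite Galois theory).
-/
import Fermat.Agent.Lib.S33.DescKummer
import Fermat.Agent.Lib.S33.DescDict
import Fermat.Agent.Lib.S33.DescGen
import Fermat.Agent.Lib.CFT.RamBridge

set_option autoImplicit false
set_option linter.style.haveILetI false
set_option linter.unusedSectionVars false
set_option synthInstance.maxHeartbeats 400000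

noncomputable section

namespace Fermat.Agent.Lib.S44

open ModularCurve HahnSeries AlgebraicCurve Fermat.Agent.Lib.S18 Fermat.Agent.Lib.S37
  Fermat.Agent.Lib.FF Fermat.Agent.Lib.S33

local notation "Kb" => AlgebraicClosure ℚ
local notation "Γℚ" => (AlgebraicClosure ℚ ≃ₐ[ℚ] AlgebraicClosure ℚ)

/-- **[Q-DIV]**: a `p`-torsion point of `J₀(N)` fixed by `Gal(ℚ̄ / L)` has a Kummer generator in `𝓕_L(N)`. -/
theorem s44e_qdiv (N : ℕ) [NeZero N] (p : ℕ) [NeZero p] (L : IntermediateField ℚ Kb)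
    (x : JZero N) (hpx : p • x = 0)
    (hfix : ∀ σ : Γℚ, (∀ a ∈ L, σ a = a) → σ • x = x) :
    ∃ f : ↥(laurentBaseChange ↥L (modularFunctionFieldFull N)),
      s33d_IsKumGen p x (s18q_incl N L f) := by
  classical
  obtain ⟨ζ, hζ⟩ := HasEnoughRootsOfUnity.exists_primitiveRoot Kb p
  obtain ⟨f, hf⟩ := s33d_exists_kumGen p x hpx
  obtain ⟨L₁, hL₁fd, hL₁⟩ := s18q_exists_field N {f}
  haveI := hL₁fd
  haveI : Normal ℚ Kb := Fermat.Agent.Lib.CFT.cfg_isGalois_QBar.to_normal
  set K : IntermediateField ℚ Kb := IntermediateField.normalClosure ℚ ↥L₁ Kb with hK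
  haveI hKfd : FiniteDimensional ℚ ↥K := normalClosure.is_finiteDimensional ℚ ↥L₁ Kb
  haveI hKn : Normal ℚ ↥K := normalClosure.normal ℚ ↥L₁ Kb
  have hL₁K : L₁ ≤ K := IntermediateField.le_normalClosure L₁
  have hfK : f ∈ Set.range (s33d_incl (modularFunctionFieldFull N) K) :=
    s18q_incl_range_mono N hL₁K (hL₁ f (Finset.mem_singleton_self f))
  have hH : ∀ σ ∈ L.fixingSubgroup, ∃ (c : Kb)
      (h : ↥(laurentBaseChange Kb (modularFunctionFieldFull N))),
      arithmeticGalois (modularFunctionFieldFull N) σ • f =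
        algebraMap Kb ↥(laurentBaseChange Kb (modularFunctionFieldFull N)) c * h ^ p * f := by
    intro σ hσ
    have hσx : arithmeticGalois (modularFunctionFieldFull N) σ • x = x :=
      hfix σ (fun a ha => (IntermediateField.mem_fixingSubgroup_iff L σ).mp hσ a ha)
    obtain ⟨c, w, -, -, e⟩ := s33d_kumGen_fixed (s33d_constOfOrdZero_bar N)
      (arithmeticGalois (modularFunctionFieldFull N) σ) hf hσx
    exact ⟨c, w, e⟩
  obtain ⟨c, u, hc, hu, hcu⟩ := s33d_kummer_descent (modularFunctionFieldFull N) p ζ hζ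
    L.fixingSubgroup K f hf.1 hfK hH
  haveI : IsGalois ℚ Kb := Fermat.Agent.Lib.CFT.cfg_isGalois_QBar
  have hfixed : IntermediateField.fixedField L.fixingSubgroup = L :=
    InfiniteGalois.fixedField_fixingSubgroup L
  rw [hfixed] at hcu
  have hle : K ⊓ L ≤ L := inf_le_right
  obtain ⟨f₀, hf₀⟩ := s18q_incl_range_mono N hle hcu
  refine ⟨f₀, ?_⟩
  rw [hf₀]
  exact s33d_kumGen_mul hf hc hu

end Fermat.Agent.Lib.S44
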