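/-
S44 programme M-AT-P, wall W3 = (★)-core, family K (helper7), part (ii): THE FIRST-ORDER WILD CONGRUENCE.

Setting of `Lib/S33/UnipInst.lean`: level `M q`, `q ∤ M`, `K₀` a number field with a Gauss datum
`G` (discrete valuation ring `A`, uniformiser `ϖ`), `σ₀ : K₀ ≃ₐ[ℚ] K₀` with `σ₀ A = A`, acting
coefficientwise on `𝓕 = 𝓕_{K₀}(M q)` (`τ = arithmeticRingAut σ₀`).  NEW hypothesis: `σ₀` lies in the
`(m-1)`-st lower ramification group,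

  `hσm : ∀ a ∈ A, σ₀ a - a ∈ ϖ ^ m A`   (`1 ≤ m`).

Results (prefix `s44k_`):
* `s44k_first_diff` (abstract): `σ (ϖ ^ n u) / (ϖ ^ n u) ≡ (σϖ/ϖ) ^ n mod ϖ ^ m V`, `u ∈ V^×`;
* `s44k_zpow_first` (abstract): `ζ = 1 + ϖ ^ (b+1) c` ⇒ `ζ ^ n ≡ 1 + n c ϖ ^ (b+1) mod ϖ ^ (b+2) V`
  for every `n : ℤ`;
* `s44k_sigma_sub_mem`: `coeffMap σ₀ f - f ∈ ϖ ^ m O` for `f` in the Gauss ring `O ⊂ K((q))`;
* `s44k_galois_sub_mem_VV`: `τ y - y ∈ ϖ ^ m V_i` for `y ∈ V_i`, `i ∈ {∞, 0}`;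
* `s44k_fd_VV_of_decomp`: `τU/U ≡ ζ ^ n mod ϖ ^ m V_i` for `U = ϖ ^ n u`, `u ∈ V_i^×`,
  `ζ = σ₀ϖ/ϖ ∈ A^×`;
* **`s44k_fd_VV_first`**: if moreover `ζ = 1 + c ϖ ^ (b+1)`, `c ∈ A`, and `m = b + 2` (i.e. `σ₀` has
  lower break `≥ b + 1`), then `τU/U ≡ 1 + n c ϖ ^ (b+1) mod ϖ ^ (b+2) V_i`, `n = V_i(U)`:
  the first-order term of `τU/U` on the component `i` is `c · V_i(U)`.
-/
import Fermat.Agent.Lib.S33.UnipInst

set_option autoImplicit false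
set_option linter.style.haveILetI false
set_option synthInstance.maxHeartbeats 400000

noncomputable section

namespace Fermat.Agent.Lib.S44

open AlgebraicCurve ModularCurve Polynomial HahnSeries Fermat.Agent.Lib.FF Fermat.Agent.Lib.S18
  Fermat.Agent.Lib.S33 Fermat.Agent.Lib.S34 Fermat.Agent.Lib.S35 Fermat.Agent.Lib.S37

local notation "Qbar" => AlgebraicClosure ℚ

/-! ### Abstract: first differences to depth `m` -/

section Abstract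

variable {F : Type*} [Field F]

/-- Depth `m ≥ 1` implies depth `1`. -/
theorem s44k_hres_one (V : ValuationSubring F) (ϖ : F) (hϖV : ϖ ∈ V) (σ : F ≃+* F) (m : ℕ)
    (hm : 1 ≤ m) (hres : ∀ y ∈ V, ∃ z ∈ V, σ y - y = ϖ ^ m * z) :
    ∀ y ∈ V, ∃ z ∈ V, σ y - y = ϖ * z := by
  intro y hy
  obtain ⟨z, hz, e⟩ := hres y hy
  obtain ⟨k, rfl⟩ := Nat.exists_eq_add_of_le hm
  refine ⟨ϖ ^ k * z, V.mul_mem _ _ (V.pow_mem hϖV k) hz, ?_⟩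
  rw [e]; ring

/-- **First differences to depth `m`.**  For `U = ϖ ^ n * u`, `u` a unit of `V`:
`σU / U ≡ (σϖ/ϖ) ^ n mod ϖ ^ m V`. -/
theorem s44k_first_diff (V : ValuationSubring F) (ϖ : F) (hϖ0 : ϖ ≠ 0) (hϖV : ϖ ∈ V)
    (σ : F ≃+* F) (hσ : ∀ y ∈ V, σ y ∈ V) (hσ' : ∀ y ∈ V, σ.symm y ∈ V) (m : ℕ) (hm : 1 ≤ m)
    (hres : ∀ y ∈ V, ∃ z ∈ V, σ y - y = ϖ ^ m * z)
    (n : ℤ) (u : F) (hu : u ∈ V) (hu' : u⁻¹ ∈ V) (hu0 : u ≠ 0) :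
    ∃ z ∈ V, σ (ϖ ^ n * u) / (ϖ ^ n * u) - (σ ϖ / ϖ) ^ n = ϖ ^ m * z := by
  obtain ⟨h1, h2⟩ := s33u_unit_ratio V ϖ hϖ0 hϖV σ hσ hσ' (s44k_hres_one V ϖ hϖV σ m hm hres)
  have hσϖ0 : σ ϖ ≠ 0 := (map_ne_zero σ).mpr hϖ0
  have hpowV : (σ ϖ / ϖ) ^ n ∈ V := by
    rcases n with n | n
    · rw [Int.ofNat_eq_natCast, zpow_natCast]; exact V.pow_mem h1 n
    · rw [zpow_negSucc, ← inv_pow, inv_div]; exact V.pow_mem h2 _
  obtain ⟨z, hz, e⟩ := hres u hu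
  refine ⟨(σ ϖ / ϖ) ^ n * (z * u⁻¹), V.mul_mem _ _ hpowV (V.mul_mem _ _ hz hu'), ?_⟩
  have e' : σ u = u + ϖ ^ m * z := by linear_combination e
  have hpow0 : ϖ ^ n ≠ 0 := zpow_ne_zero _ hϖ0
  rw [map_mul, map_zpow₀, e', div_zpow]
  field_simp
  ring

/-- **Integer powers of `1 + c ϖ ^ (b+1)` to first order.** -/
theorem s44k_zpow_first (V : ValuationSubring F) (ϖ : F) (hϖV : ϖ ∈ V) (b : ℕ) (ζ c : F)
    (hc : c ∈ V) (hζ : ζ - 1 = ϖ ^ (b + 1) * c) (hζ0 : ζ ≠ 0) (hζ' : ζ⁻¹ ∈ V) (n : ℤ) :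
    ∃ z ∈ V, ζ ^ n - (1 + (n : F) * (c * ϖ ^ (b + 1))) = ϖ ^ (b + 2) * z := by
  have hζe : ζ = 1 + ϖ ^ (b + 1) * c := by linear_combination hζ
  -- the inverse to first order
  have hinv : ζ⁻¹ = 1 - ϖ ^ (b + 1) * c + ϖ ^ (b + 2) * (ϖ ^ b * c ^ 2 * ζ⁻¹) := by
    have h1 : ζ * ζ⁻¹ = 1 := mul_inv_cancel₀ hζ0
    have h2 : (1 - ϖ ^ (b + 1) * c) * ζ + ϖ ^ (b + 2) * (ϖ ^ b * c ^ 2) = 1 := by
      rw [hζe]; ring
    calc ζ⁻¹ = ((1 - ϖ ^ (b + 1) * c) * ζ + ϖ ^ (b + 2) * (ϖ ^ b * c ^ 2)) * ζ⁻¹ := by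
          rw [h2, one_mul]
      _ = (1 - ϖ ^ (b + 1) * c) * (ζ * ζ⁻¹) + ϖ ^ (b + 2) * (ϖ ^ b * c ^ 2 * ζ⁻¹) := by ring
      _ = _ := by rw [h1, mul_one]
  induction n using Int.induction_on with
  | zero => exact ⟨0, V.zero_mem, by simp⟩
  | succ k ih =>
    obtain ⟨z, hz, e⟩ := ih
    have e' : ζ ^ (k : ℤ) = 1 + ((k : ℤ) : F) * (c * ϖ ^ (b + 1)) + ϖ ^ (b + 2) * z := by
      linear_combination e
    refine ⟨(k : F) * (c ^ 2 * ϖ ^ b) + z * ζ, V.add_mem _ _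
      (V.mul_mem _ _ (natCast_mem V k) (V.mul_mem _ _ (V.pow_mem hc 2) (V.pow_mem hϖV b)))
      (V.mul_mem _ _ hz ?_), ?_⟩
    · rw [hζe]
      exact V.add_mem _ _ V.one_mem (V.mul_mem _ _ (V.pow_mem hϖV _) hc)
    · rw [zpow_add_one₀ hζ0, e']
      push_cast
      linear_combination (1 + (k : F) * (c * ϖ ^ (b + 1))) * hζ
  | pred k ih =>
    obtain ⟨z, hz, e⟩ := ih
    have e' : ζ ^ (-(k : ℤ)) = 1 + ((-(k : ℤ) : ℤ) : F) * (c * ϖ ^ (b + 1)) + ϖ ^ (b + 2) * z := by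
      linear_combination e
    set w : F := ϖ ^ b * c ^ 2 * ζ⁻¹ with hw
    have hwV : w ∈ V :=
      V.mul_mem _ _ (V.mul_mem _ _ (V.pow_mem hϖV b) (V.pow_mem hc 2)) hζ'
    refine ⟨(k : F) * (c ^ 2 * ϖ ^ b) + z * ζ⁻¹ +
      (1 + ((-(k : ℤ) : ℤ) : F) * (c * ϖ ^ (b + 1))) * w, ?_, ?_⟩
    · refine V.add_mem _ _ (V.add_mem _ _ ?_ (V.mul_mem _ _ hz hζ')) (V.mul_mem _ _ ?_ hwV)
      · exact V.mul_mem _ _ (natCast_mem V k)
          (V.mul_mem _ _ (V.pow_mem hc 2) (V.pow_mem hϖV b))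
      · exact V.add_mem _ _ V.one_mem (V.mul_mem _ _ (intCast_mem V _)
          (V.mul_mem _ _ hc (V.pow_mem hϖV _)))
    · rw [zpow_sub_one₀ hζ0, e']
      push_cast
      linear_combination (1 + (-(k : F)) * (c * ϖ ^ (b + 1))) * hinv

end Abstract

/-! ### Coefficientwise: the Gauss ring -/

section Gauss

variable {K : Type*} [Field K] {κ : Type*} [Field κ] (G : s18g_GaussData K κ)
variable (σ₀ : K ≃+* K) (hσA : ∀ a : K, a ∈ G.A → σ₀ a ∈ G.A) (m : ℕ)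
  (hσm : ∀ a : K, a ∈ G.A → ∃ z ∈ G.A, σ₀ a - a = ((G.ϖ : G.A) : K) ^ m * z)

include hσm in
/-- Depth `m ≥ 1` implies "inertia". -/
theorem s44k_res_of_depth (hm : 1 ≤ m) (a : G.A) :
    G.π (s34m_sigmaA G σ₀ hσA a) = G.π a := by
  obtain ⟨z, hz, e⟩ := hσm a a.2
  obtain ⟨k, rfl⟩ := Nat.exists_eq_add_of_le hm
  have h : s34m_sigmaA G σ₀ hσA a - a = G.ϖ * (G.ϖ ^ k * ⟨z, hz⟩) := by
    apply Subtype.ext
    show σ₀ (a : K) - (a : K) = ((G.ϖ : G.A) : K) * (((G.ϖ : G.A) : K) ^ k * z)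
    rw [e]; ring
  have h0 : G.π (s34m_sigmaA G σ₀ hσA a - a) = 0 := by
    rw [h, map_mul, s18g_pi_unif, zero_mul]
  rw [map_sub] at h0
  exact sub_eq_zero.mp h0

include hσm in
/-- Coefficientwise: `σ P - P = ϖ ^ m P'` for integral series. -/
theorem s44k_sigma_sub_series (P : LaurentSeries G.A) :
    ∃ P' : LaurentSeries G.A, coeffMap (σ₀ : K →+* K) (s18g_iota G P) - s18g_iota G P =
      HahnSeries.C (((G.ϖ : G.A) : K) ^ m) * s18g_iota G P' := by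
  have hϖ0 : ((G.ϖ : G.A) : K) ^ m ≠ 0 := pow_ne_zero _ (s18g_unifK_ne_zero G)
  have hmem : ∀ n, ((HahnSeries.C ((((G.ϖ : G.A) : K) ^ m)⁻¹) : LaurentSeries K) *
      (coeffMap (σ₀ : K →+* K) (s18g_iota G P) - s18g_iota G P)).coeff n ∈ G.A := by
    intro n
    obtain ⟨z, hz, e⟩ := hσm (P.coeff n) (P.coeff n).2
    rw [HahnSeries.C_mul_eq_smul, HahnSeries.coeff_smul, HahnSeries.coeff_sub, coeffMap_coeff,
      s18g_iota_coeff]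
    have : ((((G.ϖ : G.A) : K) ^ m)⁻¹) • ((σ₀ : K →+* K) ((P.coeff n : G.A) : K) -
        ((P.coeff n : G.A) : K)) = z := by
      rw [smul_eq_mul, RingHom.coe_coe, e, ← mul_assoc, inv_mul_cancel₀ hϖ0, one_mul]
    rw [this]
    exact hz
  obtain ⟨P', hP'⟩ := s18g_exists_iota_eq G _ hmem
  refine ⟨P', ?_⟩
  rw [hP', ← mul_assoc, ← map_mul, mul_inv_cancel₀ hϖ0, map_one, one_mul]

include hσA hσm in
/-- **`σ₀` in the `(m-1)`-st ramification group acts trivially modulo `ϖ ^ m` on the Gauss ring.** -/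
theorem s44k_sigma_sub_mem (hm : 1 ≤ m) {f : LaurentSeries K} (hf : f ∈ s18g_O G) :
    ∃ g ∈ s18g_O G, coeffMap (σ₀ : K →+* K) f - f =
      HahnSeries.C ((G.ϖ : G.A) : K) ^ m * g := by
  have hσπ := s44k_res_of_depth G σ₀ hσA m hσm hm
  obtain ⟨P, Q, hQ, h⟩ := hf
  obtain ⟨P', hP'⟩ := s44k_sigma_sub_series G σ₀ m hσm P
  obtain ⟨Q', hQ'⟩ := s44k_sigma_sub_series G σ₀ m hσm Q
  have hϖ0 : ((G.ϖ : G.A) : K) ^ m ≠ 0 := pow_ne_zero _ (s18g_unifK_ne_zero G)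
  have hC : (HahnSeries.C (((G.ϖ : G.A) : K) ^ m) : LaurentSeries K) *
      HahnSeries.C ((((G.ϖ : G.A) : K) ^ m)⁻¹) = 1 := by
    rw [← map_mul, mul_inv_cancel₀ hϖ0, map_one]
  set τ := coeffMap (σ₀ : K →+* K) with hτ
  have hτf : τ (s18g_iota G Q) * τ f = τ (s18g_iota G P) := by rw [← map_mul, h]
  set g : LaurentSeries K := HahnSeries.C ((((G.ϖ : G.A) : K) ^ m)⁻¹) * (τ f - f) with hg
  have hgeq : τ f - f = HahnSeries.C ((G.ϖ : G.A) : K) ^ m * g := by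
    rw [hg, ← map_pow, ← mul_assoc, hC, one_mul]
  refine ⟨g, ⟨Q * P' - Q' * P, Q * coeffMap (s34m_sigmaA G σ₀ hσA) Q, ?_, ?_⟩, hgeq⟩
  · rw [map_mul, s34m_rho_sigmaA G σ₀ hσA hσπ]
    exact mul_ne_zero hQ hQ
  · rw [map_mul, s34m_iota_sigmaA, map_sub, map_mul, map_mul]
    have e1 : τ (s18g_iota G P) = s18g_iota G P +
        HahnSeries.C (((G.ϖ : G.A) : K) ^ m) * s18g_iota G P' := by
      linear_combination hP'
    have e2 : τ (s18g_iota G Q) = s18g_iota G Q +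
        HahnSeries.C (((G.ϖ : G.A) : K) ^ m) * s18g_iota G Q' := by
      linear_combination hQ'
    -- multiply out: `ιQ · τ(ιQ) · (τf - f) = ϖ ^ m (ιQ ιP' - ιQ' ιP)`
    have key : s18g_iota G Q * τ (s18g_iota G Q) * (τ f - f) =
        HahnSeries.C (((G.ϖ : G.A) : K) ^ m) *
          (s18g_iota G Q * s18g_iota G P' - s18g_iota G Q' * s18g_iota G P) := by
      have : s18g_iota G Q * τ (s18g_iota G Q) * (τ f - f) =
          s18g_iota G Q * (τ (s18g_iota G Q) * τ f) - τ (s18g_iota G Q) * (s18g_iota G Q * f) := by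
        ring
      rw [this, hτf, h, e1, e2]
      ring
    calc s18g_iota G Q * τ (s18g_iota G Q) * g
        = HahnSeries.C ((((G.ϖ : G.A) : K) ^ m)⁻¹) *
            (s18g_iota G Q * τ (s18g_iota G Q) * (τ f - f)) := by rw [hg]; ring
      _ = (HahnSeries.C (((G.ϖ : G.A) : K) ^ m) * HahnSeries.C ((((G.ϖ : G.A) : K) ^ m)⁻¹)) *
            (s18g_iota G Q * s18g_iota G P' - s18g_iota G Q' * s18g_iota G P) := by
          rw [key]; ring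
      _ = _ := by rw [hC, one_mul]

end Gauss

/-! ### The modular instance -/

section Inst

variable {K₀ : Type*} [Field K₀] [Algebra ℚ K₀] {κ : Type*} [Field κ] (G : s18g_GaussData K₀ κ)
  (φ : K₀ →+* Qbar) (M q : ℕ) [NeZero M] [NeZero q] (hq : q.Prime) (hqM : ¬ q ∣ M)
variable (σ₀ : K₀ ≃ₐ[ℚ] K₀)
  (hσA : ∀ a : K₀, a ∈ G.A → (σ₀ : K₀ ≃+* K₀) a ∈ G.A)
  (hσA' : ∀ a : K₀, a ∈ G.A → (σ₀.symm : K₀ ≃+* K₀) a ∈ G.A)
  (m : ℕ) (hm : 1 ≤ m)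
  (hσm : ∀ a : K₀, a ∈ G.A → ∃ z ∈ G.A, (σ₀ : K₀ ≃+* K₀) a - a = ((G.ϖ : G.A) : K₀) ^ m * z)

include hσA hm hσm in
theorem s44k_galois_sub_mem_Vinf (N : ℕ) [NeZero N] {y : s34m_F K₀ N}
    (hy : y ∈ s34m_Vinf G N) :
    ∃ z ∈ s34m_Vinf G N,
      arithmeticRingAut (modularFunctionFieldFull N) σ₀ y - y = s34m_unif G N ^ m * z := by
  obtain ⟨g, hg, e⟩ := s44k_sigma_sub_mem G (σ₀ : K₀ ≃+* K₀) hσA m hσm hm hy
  have hϖ0 : s34m_unif G N ^ m ≠ 0 := pow_ne_zero _ (s34m_unif_ne_zero G N)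
  refine ⟨(s34m_unif G N ^ m)⁻¹ * (arithmeticRingAut (modularFunctionFieldFull N) σ₀ y - y),
    ?_, ?_⟩
  · rw [s34m_mem_Vinf]
    have : (((s34m_unif G N ^ m)⁻¹ * (arithmeticRingAut (modularFunctionFieldFull N) σ₀ y - y) :
        s34m_F K₀ N) : LaurentSeries K₀) = g := by
      have hC : (HahnSeries.C ((G.ϖ : G.A) : K₀) : LaurentSeries K₀) ^ m ≠ 0 :=
        pow_ne_zero _ (s18g_C_unifK_ne_zero G)
      rw [MulMemClass.coe_mul, IntermediateField.coe_inv, SubmonoidClass.coe_pow,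
        AddSubgroupClass.coe_sub, coe_arithmeticRingAut_apply, s34m_coe_unif]
      have e' : coeffMap (σ₀ : K₀ →+* K₀) (y : LaurentSeries K₀) - (y : LaurentSeries K₀) =
          HahnSeries.C ((G.ϖ : G.A) : K₀) ^ m * g := e
      rw [e', ← mul_assoc, inv_mul_cancel₀ hC, one_mul]
    rw [this]; exact hg
  · rw [← mul_assoc, mul_inv_cancel₀ hϖ0, one_mul]

include hσA hm hσm in
theorem s44k_galois_sub_mem_Vzero {y : s34m_F K₀ (M * q)}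
    (hy : y ∈ s34m_Vzero G φ M q hq hqM) :
    ∃ z ∈ s34m_Vzero G φ M q hq hqM,
      arithmeticRingAut (modularFunctionFieldFull (M * q)) σ₀ y - y =
        s34m_unif G (M * q) ^ m * z := by
  set w := s34m_al φ M q hq hqM with hw
  obtain ⟨z', hz', e⟩ := s44k_galois_sub_mem_Vinf G σ₀ hσA m hm hσm (M * q)
    ((s34m_mem_Vzero G φ M q hq hqM y).mp hy)
  refine ⟨w z', ?_, ?_⟩
  · rw [hw, s34m_al_mem_Vinf_iff]; exact hz'
  · have h1 : w (arithmeticRingAut (modularFunctionFieldFull (M * q)) σ₀ y - y) =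
        s34m_unif G (M * q) ^ m * z' := by
      rw [map_sub, hw, s34m_al_galois]; exact e
    have h2 := congrArg w h1
    rw [hw, s34m_al_al, map_mul, map_pow, s34m_al_unif] at h2
    exact h2

include hσA hm hσm in
/-- **`τ y - y ∈ ϖ ^ m V_i`** for `y ∈ V_i`. -/
theorem s44k_galois_sub_mem_VV (i : Bool)
    {y : s34m_F K₀ (M * q)} (hy : y ∈ s34m_VV G φ M q hq hqM i) :
    ∃ z ∈ s34m_VV G φ M q hq hqM i,
      arithmeticRingAut (modularFunctionFieldFull (M * q)) σ₀ y - y =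
        s34m_unif G (M * q) ^ m * z := by
  cases i
  · exact s44k_galois_sub_mem_Vzero G φ M q hq hqM σ₀ hσA m hm hσm hy
  · exact s44k_galois_sub_mem_Vinf G σ₀ hσA m hm hσm (M * q) hy

include hσA hσA' hm hσm in
/-- **First differences on `V_i` to depth `m`**: `τU/U ≡ ζ ^ n mod ϖ ^ m V_i`. -/
theorem s44k_fd_VV_of_decomp (i : Bool) (ζ : (↥G.A)ˣ)
    (hζ : ((ζ : G.A) : K₀) = σ₀ ((G.ϖ : G.A) : K₀) / ((G.ϖ : G.A) : K₀))
    (n : ℤ) (u : s34m_F K₀ (M * q)) (hu : u ∈ s34m_VV G φ M q hq hqM i)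
    (hu' : u⁻¹ ∈ s34m_VV G φ M q hq hqM i) (hu0 : u ≠ 0) :
    ∃ z ∈ s34m_VV G φ M q hq hqM i,
      s33u_fd (arithmeticGalois (modularFunctionFieldFull (M * q)) σ₀)
          (s34m_unif G (M * q) ^ n * u) -
        s33u_cst G.A ((ζ ^ n : (↥G.A)ˣ) : G.A) = s34m_unif G (M * q) ^ m * z := by
  have hσπ := s44k_res_of_depth G (σ₀ : K₀ ≃+* K₀) hσA m hσm hm
  obtain ⟨z, hz, e⟩ := s44k_first_diff (s34m_VV G φ M q hq hqM i) (s34m_unif G (M * q))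
    (s34m_unif_ne_zero G (M * q)) (s34m_unif_mem_VV G φ M q hq hqM i)
    (arithmeticRingAut (modularFunctionFieldFull (M * q)) σ₀)
    (fun _ hy => s34m_galois_mem_VV G φ M q σ₀ hσA hσπ hq hqM i hy)
    (fun _ hy => s34m_galois_mem_VV G φ M q σ₀.symm hσA'
      (s34m_symm_res G σ₀ hσA hσA' hσπ) hq hqM i hy) m hm
    (fun _ hy => s44k_galois_sub_mem_VV G φ M q hq hqM σ₀ hσA m hm hσm i hy) n u hu hu' hu0
  refine ⟨z, hz, ?_⟩
  have h1 : arithmeticRingAut (modularFunctionFieldFull (M * q)) σ₀ (s34m_unif G (M * q)) /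
      s34m_unif G (M * q) = s33u_cst G.A (ζ : G.A) := by
    rw [s34m_unif, arithmeticRingAut_algebraMap, ← map_div₀, s33u_cst, hζ]
  rw [h1] at e
  rw [s33u_cst_unit_zpow]
  exact e

include hσA hσA' in
/-- **THE FIRST-ORDER WILD CONGRUENCE (ii).**  `σ₀` of lower break `≥ b + 1` (trivial modulo
`ϖ ^ (b+2)` on `A`) with `σ₀ϖ/ϖ = ζ = 1 + c ϖ ^ (b+1)`: for `U = ϖ ^ n u`, `u ∈ V_i^×`,
`τU/U ≡ 1 + n c ϖ ^ (b+1) mod ϖ ^ (b+2) V_i`. -/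
theorem s44k_fd_VV_first (b : ℕ)
    (hσb : ∀ a : K₀, a ∈ G.A →
      ∃ z ∈ G.A, (σ₀ : K₀ ≃+* K₀) a - a = ((G.ϖ : G.A) : K₀) ^ (b + 2) * z)
    (i : Bool) (ζ : (↥G.A)ˣ)
    (hζ : ((ζ : G.A) : K₀) = σ₀ ((G.ϖ : G.A) : K₀) / ((G.ϖ : G.A) : K₀))
    (c : G.A) (hc : (ζ : G.A) - 1 = G.ϖ ^ (b + 1) * c)
    (n : ℤ) (u : s34m_F K₀ (M * q)) (hu : u ∈ s34m_VV G φ M q hq hqM i)
    (hu' : u⁻¹ ∈ s34m_VV G φ M q hq hqM i) (hu0 : u ≠ 0) :
    ∃ z ∈ s34m_VV G φ M q hq hqM i,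
      s33u_fd (arithmeticGalois (modularFunctionFieldFull (M * q)) σ₀)
          (s34m_unif G (M * q) ^ n * u) -
        (1 + (n : s34m_F K₀ (M * q)) * (s33u_cst G.A c * s34m_unif G (M * q) ^ (b + 1))) =
        s34m_unif G (M * q) ^ (b + 2) * z := by
  obtain ⟨z₁, hz₁, e₁⟩ := s44k_fd_VV_of_decomp G φ M q hq hqM σ₀ hσA hσA' (b + 2) (by omega) hσb
    i ζ hζ n u hu hu' hu0
  have hcst : ∀ a : G.A, (s33u_cst G.A a : s34m_F K₀ (M * q)) ∈ s34m_VV G φ M q hq hqM i :=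
    fun a => s34c_const_mem_VV G φ M q hq hqM i a
  have hζF : (s33u_cst G.A (ζ : G.A) : s34m_F K₀ (M * q)) - 1 =
      s34m_unif G (M * q) ^ (b + 1) * s33u_cst G.A c := by
    have h := congrArg (fun a : G.A => (s33u_cst G.A a : s34m_F K₀ (M * q))) hc
    simp only [s33u_cst_sub, s33u_cst_mul, s33u_cst_pow, s33u_cst_one] at h
    exact h
  obtain ⟨z₂, hz₂, e₂⟩ := s44k_zpow_first (s34m_VV G φ M q hq hqM i) (s34m_unif G (M * q))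
    (s34m_unif_mem_VV G φ M q hq hqM i) b (s33u_cst G.A (ζ : G.A)) (s33u_cst G.A c) (hcst c) hζF
    (s33u_cst_unit_ne_zero G.A ζ)
    (by rw [← s33u_cst_unit_inv]; exact hcst _) n
  refine ⟨z₁ + z₂, (s34m_VV G φ M q hq hqM i).add_mem _ _ hz₁ hz₂, ?_⟩
  rw [s33u_cst_unit_zpow] at e₁
  linear_combination e₁ + e₂

end Inst

end Fermat.Agent.Lib.S44
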