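/-
S44 programme M-AT-P, wall W3 = (★)-core, family K (helper7): THE BREAK OF A WILD AUTOMORPHISM OF ORDER `p`
AND SUB-CRITICALITY FROM THE WITNESS OF `s44i_SubCrit` — the number-field input of `s44k_slope`.

Part A (abstract, `s18g_GaussData`).  `σ` an automorphism of `K` preserving `A` (both ways) such that every `a ∈ A`
is congruent modulo `ϖ` to a `σ`-INVARIANT element of `A` (helper9's (D2): the residue field is generated by
inertia-invariants), `σ ^ p ϖ = ϖ`, `σ ϖ ≠ ϖ`.  Then (`s44k_break`) there are `B ≥ 1` and a unit `cτ` with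

  `σ ϖ - ϖ = ϖ ^ (B+1) cτ`     and     `σ a - a ∈ ϖ ^ (B+1) A` for all `a ∈ A`

— exactly the hypotheses `hσB`, `hcτ`, `hcτ0` of `s44k_slope`.

Part B.  For such a `σ` and `g = ϖ ^ n u` (`u` a unit, `p ∤ n`): `σ g / g - 1 = ϖ ^ B · unit` (`s44k_witness`).

Part C (`ford_vQ`).  Over `A = s18q_A0 P Z` with `p = ε ϖ ^ e`: `v (ϖ ^ B · unit) = B / e` (`s44k_vQ_pow_unit`), hence
`v (σ g / g - 1) < 1 / (p - 1) ⇒ (p - 1) B < e` (`s44k_subcrit_of_lt`): the witness of `s44i_SubCrit` gives the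
sub-criticality hypothesis `hsub` of `s44k_slope`.
-/
import Fermat.Agent.Lib.S44.KFirst
import Fermat.Agent.Lib.Frey.Ord

set_option autoImplicit false
set_option linter.style.haveILetI false
set_option linter.unusedSectionVars false

noncomputable section

namespace Fermat.Agent.Lib.S44

open Fermat.Agent.Lib.S18 Fermat.Agent.Lib.S33 Fermat.Agent.Lib.S34 Fermat.Agent.Lib.Frey

section Break

variable {K : Type*} [Field K] {κ : Type*} [Field κ] (G : s18g_GaussData K κ)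

/-- an element of `A` with non-zero residue is a unit of `A`. -/
theorem s44k_inv_mem_of_pi_ne_zero (y : G.A) (h : G.π y ≠ 0) : ((y : G.A) : K)⁻¹ ∈ G.A := by
  have hϖ0 : ((G.ϖ : G.A) : K) ≠ 0 := s18g_unifK_ne_zero G
  have hy0 : ((y : G.A) : K) ≠ 0 := by
    intro h0
    apply h
    have : y = 0 := Subtype.ext h0
    rw [this, map_zero]
  rcases G.A.mem_or_inv_mem (((y : G.A) : K) / ((G.ϖ : G.A) : K)) with h1 | h1
  · exfalso
    apply h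
    rw [G.π_eq_zero_iff]
    refine ⟨⟨_, h1⟩, Subtype.ext ?_⟩
    show ((y : G.A) : K) = ((G.ϖ : G.A) : K) * (((y : G.A) : K) / ((G.ϖ : G.A) : K))
    field_simp
  · rw [inv_div] at h1
    have e : G.ϖ = y * ⟨_, h1⟩ := Subtype.ext (by
      show ((G.ϖ : G.A) : K) = ((y : G.A) : K) * (((G.ϖ : G.A) : K) / ((y : G.A) : K))
      field_simp)
    have h2 : G.π ⟨_, h1⟩ = 0 := by
      have h3 := s18g_pi_unif G
      rw [e, map_mul] at h3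
      exact (mul_eq_zero.mp h3).resolve_left h
    obtain ⟨s, hs⟩ := (G.π_eq_zero_iff _).mp h2
    have hs' : ((G.ϖ : G.A) : K) / ((y : G.A) : K) = ((G.ϖ : G.A) : K) * ((s : G.A) : K) :=
      congrArg Subtype.val hs
    have : ((y : G.A) : K)⁻¹ = ((s : G.A) : K) := by
      field_simp at hs' ⊢
      linear_combination hs'
    rw [this]
    exact s.2

variable (p : ℕ) [hp : Fact p.Prime] [CharP κ p]
variable (σ : K ≃+* K) (hσ : ∀ a : K, a ∈ G.A → σ a ∈ G.A)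
  (hσ' : ∀ a : K, a ∈ G.A → σ.symm a ∈ G.A)

include hσ hσ' in
/-- `σ ϖ = ϖ w` with `w` a unit of `A`. -/
theorem s44k_sigma_unif :
    ∃ w : G.A, G.π w ≠ 0 ∧ σ ((G.ϖ : G.A) : K) = ((G.ϖ : G.A) : K) * ((w : G.A) : K) := by
  have hϖ0 : ((G.ϖ : G.A) : K) ≠ 0 := s18g_unifK_ne_zero G
  -- a ring automorphism of `K` preserving `A` both ways maps `ϖ A` into `ϖ A`
  have key : ∀ (τ : K ≃+* K), (∀ a : K, a ∈ G.A → τ a ∈ G.A) →
      (∀ a : K, a ∈ G.A → τ.symm a ∈ G.A) →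
      ∃ w : G.A, τ ((G.ϖ : G.A) : K) = ((G.ϖ : G.A) : K) * ((w : G.A) : K) := by
    intro τ hτ hτ'
    by_cases hd : G.π ⟨τ ((G.ϖ : G.A) : K), hτ _ G.ϖ.2⟩ = 0
    · obtain ⟨w, hw⟩ := (G.π_eq_zero_iff _).mp hd
      exact ⟨w, congrArg Subtype.val hw⟩
    · exfalso
      have hinv := s44k_inv_mem_of_pi_ne_zero G _ hd
      have h1 : (τ ((G.ϖ : G.A) : K))⁻¹ ∈ G.A := hinv
      have h2 := hτ' _ h1
      rw [map_inv₀, RingEquiv.symm_apply_apply] at h2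
      -- `ϖ⁻¹ ∈ A`: then `1 = ϖ ϖ⁻¹` has residue `0`
      have h3 : (1 : G.A) = G.ϖ * ⟨_, h2⟩ := Subtype.ext (by
        show (1 : K) = ((G.ϖ : G.A) : K) * (((G.ϖ : G.A) : K))⁻¹
        rw [mul_inv_cancel₀ hϖ0])
      have h4 := congrArg G.π h3
      rw [map_one, map_mul, s18g_pi_unif, zero_mul] at h4
      exact one_ne_zero h4
  obtain ⟨w, hw⟩ := key σ hσ hσ'
  obtain ⟨w', hw'⟩ := key σ.symm hσ' (by simpa using hσ)
  refine ⟨w, fun h0 => ?_, hw⟩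
  obtain ⟨w₁, hw₁⟩ := (G.π_eq_zero_iff _).mp h0
  -- `σ ϖ = ϖ ^ 2 w₁`, so `ϖ = σ⁻¹(ϖ) ^ 2 σ⁻¹(w₁) = ϖ ^ 2 (w' ^ 2 σ⁻¹ w₁)`
  have e1 : σ ((G.ϖ : G.A) : K) = ((G.ϖ : G.A) : K) ^ 2 * ((w₁ : G.A) : K) := by
    rw [hw, hw₁]
    show _ * (((G.ϖ : G.A) : K) * ((w₁ : G.A) : K)) = _
    ring
  have e2 := congrArg σ.symm e1
  rw [RingEquiv.symm_apply_apply, map_mul, map_pow, hw'] at e2
  have h5 : (1 : K) = ((G.ϖ : G.A) : K) * (((w' : G.A) : K) ^ 2 * σ.symm ((w₁ : G.A) : K)) := by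
    have : ((G.ϖ : G.A) : K) * 1 = ((G.ϖ : G.A) : K) *
        (((G.ϖ : G.A) : K) * (((w' : G.A) : K) ^ 2 * σ.symm ((w₁ : G.A) : K))) := by
      rw [mul_one]
      conv_lhs => rw [e2]
      ring
    exact mul_left_cancel₀ hϖ0 this
  have hmem : ((w' : G.A) : K) ^ 2 * σ.symm ((w₁ : G.A) : K) ∈ G.A :=
    G.A.mul_mem _ _ (G.A.pow_mem w'.2 2) (hσ' _ w₁.2)
  have h6 : (1 : G.A) = G.ϖ * ⟨_, hmem⟩ := Subtype.ext h5
  have h7 := congrArg G.π h6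
  rw [map_one, map_mul, s18g_pi_unif, zero_mul] at h7
  exact one_ne_zero h7

include hσ hσ' in
/-- **The break of a wild automorphism of order `p`** (see the header). -/
theorem s44k_break
    (hD2 : ∀ a : K, a ∈ G.A → ∃ u ∈ G.A, σ u = u ∧ ∃ z ∈ G.A, a - u = ((G.ϖ : G.A) : K) * z)
    (hord : (σ^[p]) ((G.ϖ : G.A) : K) = ((G.ϖ : G.A) : K))
    (hne : σ ((G.ϖ : G.A) : K) ≠ ((G.ϖ : G.A) : K)) :
    ∃ (B : ℕ) (cτ : G.A), 1 ≤ B ∧ G.π cτ ≠ 0 ∧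
      σ ((G.ϖ : G.A) : K) - ((G.ϖ : G.A) : K) =
        ((G.ϖ : G.A) : K) ^ (B + 1) * ((cτ : G.A) : K) ∧
      ∀ a : K, a ∈ G.A → ∃ z ∈ G.A, σ a - a = ((G.ϖ : G.A) : K) ^ (B + 1) * z := by
  obtain ⟨w, hw0, hw⟩ := s44k_sigma_unif G σ hσ hσ'
  have hϖ0 : ((G.ϖ : G.A) : K) ≠ 0 := s18g_unifK_ne_zero G
  have hϖA : ((G.ϖ : G.A) : K) ∈ G.A := G.ϖ.2
  -- inertia
  have hin : ∀ a : K, a ∈ G.A → ∃ z ∈ G.A, σ a - a = ((G.ϖ : G.A) : K) * z := by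
    intro a ha
    obtain ⟨u, hu, hσu, z, hz, e⟩ := hD2 a ha
    refine ⟨((w : G.A) : K) * σ z - z, G.A.sub_mem (G.A.mul_mem _ _ w.2 (hσ z hz)) hz, ?_⟩
    have ea : a = u + ((G.ϖ : G.A) : K) * z := by linear_combination e
    rw [ea, map_add, map_mul, hσu, hw]
    ring
  -- residues of iterates
  have hiterA : ∀ (i : ℕ) (a : K), a ∈ G.A → (σ^[i]) a ∈ G.A := by
    intro i
    induction i with
    | zero => intro a ha; exact ha
    | succ i ih => intro a ha; rw [Function.iterate_succ_apply]; exact ih _ (hσ a ha)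
  have hπσ : ∀ (a : K) (ha : a ∈ G.A), G.π ⟨σ a, hσ a ha⟩ = G.π ⟨a, ha⟩ := by
    intro a ha
    obtain ⟨z, hz, e⟩ := hin a ha
    have : (⟨σ a, hσ a ha⟩ : G.A) = ⟨a, ha⟩ + G.ϖ * ⟨z, hz⟩ := Subtype.ext (by
      show σ a = a + ((G.ϖ : G.A) : K) * z
      linear_combination e)
    rw [this, map_add, map_mul, s18g_pi_unif, zero_mul, add_zero]
  have hπiter : ∀ (i : ℕ) (a : K) (ha : a ∈ G.A),
      G.π ⟨(σ^[i]) a, hiterA i a ha⟩ = G.π ⟨a, ha⟩ := by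
    intro i
    induction i with
    | zero => intro a ha; rfl
    | succ i ih =>
      intro a ha
      have h1 := ih (σ a) (hσ a ha)
      rw [hπσ a ha] at h1
      rw [← h1]
      congr 1
  -- `σ^[n] ϖ = ϖ ∏_{i<n} σ^[i] w`
  have hprod : ∀ n : ℕ, (σ^[n]) ((G.ϖ : G.A) : K) =
      ((G.ϖ : G.A) : K) * ∏ i ∈ Finset.range n, (σ^[i]) ((w : G.A) : K) := by
    intro n
    induction n with
    | zero => simp
    | succ n ih =>
      rw [Function.iterate_succ_apply, hw, iterate_map_mul, ih, Finset.prod_range_succ]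
      ring
  have hone : ∏ i ∈ Finset.range p, (σ^[i]) ((w : G.A) : K) = 1 := by
    have h1 := hprod p
    rw [hord] at h1
    have h2 : ((G.ϖ : G.A) : K) * 1 =
        ((G.ϖ : G.A) : K) * ∏ i ∈ Finset.range p, (σ^[i]) ((w : G.A) : K) := by
      rw [mul_one]; exact h1
    exact (mul_left_cancel₀ hϖ0 h2).symm
  -- in `A`
  have honeA : ∏ i ∈ Finset.range p, (⟨(σ^[i]) ((w : G.A) : K), hiterA i _ w.2⟩ : G.A) = 1 := by
    apply Subtype.ext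
    rw [SubmonoidClass.coe_finsetProd, OneMemClass.coe_one]
    exact hone
  have hwp : G.π w ^ p = 1 := by
    have h1 := congrArg G.π honeA
    rw [map_prod, map_one] at h1
    rw [← h1, Finset.prod_congr rfl (fun i _ => hπiter i _ w.2), Finset.prod_const,
      Finset.card_range]
  have hw1 : G.π w = 1 := by
    have h1 : (G.π w - 1) ^ p = 0 := by
      rw [sub_pow_char, hwp, one_pow, sub_self]
    exact sub_eq_zero.mp (pow_eq_zero_iff hp.out.ne_zero |>.mp h1)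
  -- `w - 1 = ϖ w₁`, `w₁ ≠ 0`
  obtain ⟨w₁, hw₁⟩ := (G.π_eq_zero_iff (w - 1)).mp (by rw [map_sub, hw1, map_one, sub_self])
  have hw₁K : ((w : G.A) : K) - 1 = ((G.ϖ : G.A) : K) * ((w₁ : G.A) : K) :=
    congrArg Subtype.val hw₁
  have hw₁0 : w₁ ≠ 0 := by
    rintro rfl
    apply hne
    rw [hw]
    have : ((w : G.A) : K) = 1 := by
      have := hw₁K
      rw [ZeroMemClass.coe_zero, mul_zero] at this
      exact sub_eq_zero.mp this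
    rw [this, mul_one]
  obtain ⟨n, cτ, hcτ, hnd⟩ := G.exists_pow_mul w₁ hw₁0
  have hcτK : ((w₁ : G.A) : K) = ((G.ϖ : G.A) : K) ^ n * ((cτ : G.A) : K) :=
    congrArg Subtype.val hcτ
  have hdiff : σ ((G.ϖ : G.A) : K) - ((G.ϖ : G.A) : K) =
      ((G.ϖ : G.A) : K) ^ (n + 1 + 1) * ((cτ : G.A) : K) := by
    rw [hw]
    have : ((w : G.A) : K) = 1 + ((G.ϖ : G.A) : K) * (((G.ϖ : G.A) : K) ^ n * ((cτ : G.A) : K)) := by
      rw [← hcτK]; linear_combination hw₁K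
    rw [this]
    ring
  refine ⟨n + 1, cτ, Nat.le_add_left 1 n, fun h => hnd ((G.π_eq_zero_iff _).mp h), hdiff, ?_⟩
  -- all `a`
  have key : ∀ k : ℕ, k ≤ n + 1 + 1 → ∀ a : K, a ∈ G.A →
      ∃ z ∈ G.A, σ a - a = ((G.ϖ : G.A) : K) ^ k * z := by
    intro k
    induction k with
    | zero =>
      intro _ a ha
      exact ⟨σ a - a, G.A.sub_mem (hσ a ha) ha, by rw [pow_zero, one_mul]⟩
    | succ k ih =>
      intro hk a ha
      obtain ⟨u, hu, hσu, z, hz, e⟩ := hD2 a ha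
      obtain ⟨z₁, hz₁, e₁⟩ := ih (by omega) z hz
      obtain ⟨j, hj⟩ := Nat.exists_eq_add_of_le hk
      refine ⟨((G.ϖ : G.A) : K) ^ j * ((cτ : G.A) : K) * σ z + z₁,
        G.A.add_mem _ _ (G.A.mul_mem _ _ (G.A.mul_mem _ _ (G.A.pow_mem hϖA j) cτ.2) (hσ z hz))
          hz₁, ?_⟩
      have ea : a = u + ((G.ϖ : G.A) : K) * z := by linear_combination e
      have e2 : σ a - a = (σ ((G.ϖ : G.A) : K) - ((G.ϖ : G.A) : K)) * σ z +
          ((G.ϖ : G.A) : K) * (σ z - z) := by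
        rw [ea, map_add, map_mul, hσu]; ring
      rw [e2, hdiff, e₁, hj]
      ring
  exact key (n + 1 + 1) le_rfl

include hσ hσ' in
/-- **Part B: the first difference of `g = ϖ ^ n u`** for a wild `σ` of break `B`:
`σ g / g - 1 = ϖ ^ B (n cτ + ϖ z)`. -/
theorem s44k_witness (B : ℕ) (hB : 1 ≤ B) (cτ : G.A)
    (hcτ : σ ((G.ϖ : G.A) : K) - ((G.ϖ : G.A) : K) =
      ((G.ϖ : G.A) : K) ^ (B + 1) * ((cτ : G.A) : K))
    (hσB : ∀ a : K, a ∈ G.A → ∃ z ∈ G.A, σ a - a = ((G.ϖ : G.A) : K) ^ (B + 1) * z)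
    (n : ℤ) (u : K) (hu : u ∈ G.A) (hu' : u⁻¹ ∈ G.A) (hu0 : u ≠ 0) :
    ∃ z ∈ G.A, σ (((G.ϖ : G.A) : K) ^ n * u) / (((G.ϖ : G.A) : K) ^ n * u) - 1 =
      ((G.ϖ : G.A) : K) ^ B * ((n : K) * ((cτ : G.A) : K) + ((G.ϖ : G.A) : K) * z) := by
  obtain ⟨b, rfl⟩ : ∃ b, B = b + 1 := ⟨B - 1, by omega⟩
  have hϖ0 : ((G.ϖ : G.A) : K) ≠ 0 := s18g_unifK_ne_zero G
  have hϖA : ((G.ϖ : G.A) : K) ∈ G.A := G.ϖ.2
  obtain ⟨z₁, hz₁, e₁⟩ := s44k_first_diff G.A _ hϖ0 hϖA σ hσ hσ' (b + 1 + 1) (by omega) hσB n u hu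
    hu' hu0
  obtain ⟨-, hr2⟩ := s33u_unit_ratio G.A _ hϖ0 hϖA σ hσ hσ'
    (s44k_hres_one G.A _ hϖA σ (b + 1 + 1) (by omega) hσB)
  have hσϖ0 : σ ((G.ϖ : G.A) : K) ≠ 0 := (map_ne_zero σ).mpr hϖ0
  have hζ : σ ((G.ϖ : G.A) : K) / ((G.ϖ : G.A) : K) - 1 =
      ((G.ϖ : G.A) : K) ^ (b + 1) * ((cτ : G.A) : K) := by
    field_simp
    linear_combination hcτ
  obtain ⟨z₂, hz₂, e₂⟩ := s44k_zpow_first G.A _ hϖA b _ _ cτ.2 hζ (div_ne_zero hσϖ0 hϖ0)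
    (by rw [inv_div]; exact hr2) n
  refine ⟨z₁ + z₂, G.A.add_mem _ _ hz₁ hz₂, ?_⟩
  linear_combination e₁ + e₂

/-- every non-zero element of `K` is `ϖ ^ n u`, `u` a unit of `A`. -/
theorem s44k_exists_zpow_unit (g : K) (hg : g ≠ 0) :
    ∃ (n : ℤ) (u : K), u ∈ G.A ∧ u⁻¹ ∈ G.A ∧ u ≠ 0 ∧ g = ((G.ϖ : G.A) : K) ^ n * u := by
  have hϖ0 : ((G.ϖ : G.A) : K) ≠ 0 := s18g_unifK_ne_zero G
  have key : ∀ x : K, x ∈ G.A → x ≠ 0 →
      ∃ (n : ℕ) (u : K), u ∈ G.A ∧ u⁻¹ ∈ G.A ∧ u ≠ 0 ∧ x = ((G.ϖ : G.A) : K) ^ n * u := by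
    intro x hx hx0
    obtain ⟨n, y, hy, hnd⟩ := G.exists_pow_mul ⟨x, hx⟩ (fun h => hx0 (congrArg Subtype.val h))
    have hπy : G.π y ≠ 0 := fun h => hnd ((G.π_eq_zero_iff _).mp h)
    have hy0 : ((y : G.A) : K) ≠ 0 := by
      intro h0
      apply hπy
      have : y = 0 := Subtype.ext h0
      rw [this, map_zero]
    exact ⟨n, y, y.2, s44k_inv_mem_of_pi_ne_zero G y hπy, hy0, congrArg Subtype.val hy⟩
  rcases G.A.mem_or_inv_mem g with h | h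
  · obtain ⟨n, u, hu, hu', hu0, e⟩ := key g h hg
    exact ⟨n, u, hu, hu', hu0, by rw [zpow_natCast]; exact e⟩
  · obtain ⟨n, u, hu, hu', hu0, e⟩ := key g⁻¹ h (inv_ne_zero hg)
    refine ⟨-(n : ℤ), u⁻¹, hu', by rwa [inv_inv], inv_ne_zero hu0, ?_⟩
    rw [zpow_neg, zpow_natCast, ← mul_inv, ← e, inv_inv]

end Break

/-! ### Part C: the normalised valuation -/

section VQ

variable {K : Type*} [Field K] [CharZero K] [Algebra ℚ K] [Algebra.IsAlgebraic ℚ K]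
  (A : ValuationSubring K) {q : ℕ} (hq : q.Prime) (hA : (q : K) ∈ A.nonunits)

/-- a unit of `A` has valuation one. -/
theorem s44k_val_eq_one {u : K} (h0 : u ≠ 0) (hu : u ∈ A) (hu' : u⁻¹ ∈ A) : A.valuation u = 1 := by
  have h1 : A.valuation u ≤ 1 := (A.valuation_le_one_iff u).mpr hu
  have h2 : A.valuation u⁻¹ ≤ 1 := (A.valuation_le_one_iff _).mpr hu'
  rw [map_inv₀] at h2
  have hpos : 0 < A.valuation u := zero_lt_iff.mpr ((Valuation.ne_zero_iff _).mpr h0)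
  exact le_antisymm h1 ((inv_le_one₀ hpos).mp h2)

/-- **`v (ϖ ^ n · unit) = n / e`** when `q = ε ϖ ^ e`. -/
theorem s44k_vQ_zpow_unit (ϖ ε : K) (e : ℕ) (he : 0 < e) (hε : ε ∈ A) (hε' : ε⁻¹ ∈ A) (hε0 : ε ≠ 0)
    (hqe : (q : K) = ε * ϖ ^ e) (n : ℤ) {y : K} (hy : y ∈ A) (hy' : y⁻¹ ∈ A) (hy0 : y ≠ 0) :
    ford_vQ A hq hA (ϖ ^ n * y) = ((((n : ℚ) / (e : ℚ) : ℚ)) : WithTop ℚ) := by
  have hq0 : (q : K) ≠ 0 := by exact_mod_cast hq.ne_zero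
  have hϖ0 : ϖ ≠ 0 := by
    rintro rfl
    rw [zero_pow he.ne', mul_zero] at hqe
    exact hq0 hqe
  have h : A.valuation (ϖ ^ n * y) ^ e = A.valuation (q : K) ^ n := by
    rw [map_mul, map_zpow₀, s44k_val_eq_one A hy0 hy hy', mul_one, hqe, map_mul, map_pow,
      s44k_val_eq_one A hε0 hε hε', one_mul, ← zpow_natCast, ← zpow_natCast, ← zpow_mul, ← zpow_mul,
      mul_comm]
  rw [ford_vQ, ford_v_eq_of_valuation_pow _ _ _ he h]

end VQ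

/-! ### Sub-criticality from the witness -/

section SubCrit

local notation "Kb" => AlgebraicClosure ℚ

variable {K₀ : Type*} [Field K₀] {κ : Type*} [Field κ] (G : s18g_GaussData K₀ κ)
variable (p : ℕ) [hp : Fact p.Prime] [CharP κ p]
variable (P : ValuationSubring Kb) (hP : (p : Kb) ∈ P.nonunits) (φ : K₀ →+* Kb)
  (hAP : ∀ x : K₀, x ∈ G.A ↔ φ x ∈ P)
variable (e : ℕ) (ε : K₀) (he : 0 < e) (hε : ε ∈ G.A) (hεinv : ε⁻¹ ∈ G.A) (hε0 : ε ≠ 0)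
  (hpe : (p : K₀) = ε * ((G.ϖ : G.A) : K₀) ^ e)
variable (σ : K₀ ≃+* K₀) (hσ : ∀ a : K₀, a ∈ G.A → σ a ∈ G.A)
  (hσ' : ∀ a : K₀, a ∈ G.A → σ.symm a ∈ G.A)

include hAP he hε hεinv hε0 hpe in
/-- `v (φ (ϖ ^ n u)) = n / e`. -/
theorem s44k_vQ_phi (n : ℤ) {u : K₀} (hu : u ∈ G.A) (hu' : u⁻¹ ∈ G.A) (hu0 : u ≠ 0) :
    ford_vQ P hp.out hP (φ (((G.ϖ : G.A) : K₀) ^ n * u)) =
      ((((n : ℚ) / (e : ℚ) : ℚ)) : WithTop ℚ) := by
  have hqe : ((p : ℕ) : Kb) = φ ε * φ ((G.ϖ : G.A) : K₀) ^ e := by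
    have := congrArg φ hpe
    rwa [map_natCast, map_mul, map_pow] at this
  rw [map_mul, map_zpow₀]
  exact s44k_vQ_zpow_unit P hp.out hP (φ ((G.ϖ : G.A) : K₀)) (φ ε) e he ((hAP _).mp hε)
    (by rw [← map_inv₀]; exact (hAP _).mp hεinv) ((map_ne_zero φ).mpr hε0) hqe n
    ((hAP _).mp hu) (by rw [← map_inv₀]; exact (hAP _).mp hu') ((map_ne_zero φ).mpr hu0)

include hAP he hε hεinv hε0 hpe hσ hσ' in
/-- **Sub-criticality from the witness of `s44i_SubCrit`.**  `σ` wild of break `B` (Part A), `g ≠ 0` with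
`v(g) = r ∉ p · v(ϖ ^ ℤ)` and `v(σ g / g - 1) < 1 / (p - 1)` ⇒ `(p - 1) B < e`. -/
theorem s44k_subcrit_of_witness (B : ℕ) (hB : 1 ≤ B) (cτ : G.A) (hcτ0 : G.π cτ ≠ 0)
    (hcτ : σ ((G.ϖ : G.A) : K₀) - ((G.ϖ : G.A) : K₀) =
      ((G.ϖ : G.A) : K₀) ^ (B + 1) * ((cτ : G.A) : K₀))
    (hσB : ∀ a : K₀, a ∈ G.A → ∃ z ∈ G.A, σ a - a = ((G.ϖ : G.A) : K₀) ^ (B + 1) * z)
    (g : K₀) (hg0 : g ≠ 0) (r : ℚ) (hr : ford_vQ P hp.out hP (φ g) = (r : WithTop ℚ))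
    (hnd : ∀ (m : ℤ) (s : ℚ),
      ford_vQ P hp.out hP (φ (((G.ϖ : G.A) : K₀) ^ m)) = (s : WithTop ℚ) → r ≠ (p : ℚ) * s)
    (hlt : ford_vQ P hp.out hP (φ (σ g / g - 1)) <
      (((1 : ℚ) / ((p : ℚ) - 1) : ℚ) : WithTop ℚ)) :
    (p - 1) * B < e := by
  have hϖ0 : ((G.ϖ : G.A) : K₀) ≠ 0 := s18g_unifK_ne_zero G
  have hone : (1 : K₀) ∈ G.A := G.A.one_mem
  have hone' : (1 : K₀)⁻¹ ∈ G.A := by rw [inv_one]; exact G.A.one_mem
  obtain ⟨n, u, hu, hu', hu0, rfl⟩ := s44k_exists_zpow_unit G g hg0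
  -- `r = n / e`
  have hrn : r = (n : ℚ) / (e : ℚ) := by
    have h1 := s44k_vQ_phi G p P hP φ hAP e ε he hε hεinv hε0 hpe n hu hu' hu0
    rw [hr] at h1
    exact WithTop.coe_injective h1
  -- `p ∤ n`
  have hpn : ¬ (p : ℤ) ∣ n := by
    rintro ⟨m, rfl⟩
    have h1 := s44k_vQ_phi G p P hP φ hAP e ε he hε hεinv hε0 hpe m hone hone' one_ne_zero
    rw [mul_one] at h1
    refine hnd m _ h1 ?_
    rw [hrn]
    push_cast
    ring
  -- the first difference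
  obtain ⟨z, hz, ez⟩ := s44k_witness G σ hσ hσ' B hB cτ hcτ hσB n u hu hu' hu0
  set y : G.A := (n : G.A) * cτ + G.ϖ * ⟨z, hz⟩ with hy
  have hπy : G.π y ≠ 0 := by
    rw [hy, map_add, map_mul, map_mul, s18g_pi_unif, zero_mul, add_zero, map_intCast]
    refine mul_ne_zero ?_ hcτ0
    rwa [Ne, CharP.intCast_eq_zero_iff κ p]
  have hy0 : ((y : G.A) : K₀) ≠ 0 := by
    intro h0
    apply hπy
    have : y = 0 := Subtype.ext h0
    rw [this, map_zero]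
  have hyinv := s44k_inv_mem_of_pi_ne_zero G y hπy
  have hyK : ((y : G.A) : K₀) = (n : K₀) * ((cτ : G.A) : K₀) + ((G.ϖ : G.A) : K₀) * z := by
    rw [hy]
    push_cast
    rfl
  have h2 := s44k_vQ_phi G p P hP φ hAP e ε he hε hεinv hε0 hpe (B : ℤ) y.2 hyinv hy0
  rw [zpow_natCast, hyK, ← ez] at h2
  rw [h2, WithTop.coe_lt_coe] at hlt
  -- arithmetic
  have hp2 : (2 : ℚ) ≤ (p : ℚ) := by exact_mod_cast hp.out.two_le
  have hp1 : (0 : ℚ) < (p : ℚ) - 1 := by linarith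
  have he0 : (0 : ℚ) < (e : ℚ) := by exact_mod_cast he
  have h3 : ((B : ℤ) : ℚ) * ((p : ℚ) - 1) < (e : ℚ) := by
    rw [div_lt_div_iff₀ he0 hp1] at hlt
    linarith
  have h4 : (((p - 1) * B : ℕ) : ℚ) < (e : ℚ) := by
    have hp1' : 1 ≤ p := hp.out.one_le
    push_cast [Nat.cast_sub hp1']
    push_cast at h3
    linarith
  exact_mod_cast h4

end SubCrit

end Fermat.Agent.Lib.S44
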