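/-
S44 programme M-AT-P, leaf [L3] = (★), family E (helper8): AUXILIARY LEMMAS FOR THE WIRING OF `s44i_Star`.

* `s44e_unif_moved`   : an automorphism `σ` of `K` preserving `A`, every element of `A` being congruent
                         modulo `ϖ` to a `σ`-invariant element of `A` (helper2's (D2)), which is not the identity
                         on `A`, moves the uniformiser (`hne` of `s44k_break`).
* `s44e_root_mem_Z`   : `ζ ^ ℓ = 1`, `ℓ ≠ p` prime, `ζ ∈ L₀` ⇒ `ζ ∈ s44s_Z P L L₀` (inertia at `p` fixes `μ_ℓ`).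
* `s44e_mem_of_fixed` : `L` finite, `ζ` fixed by every `σ` fixing `L` pointwise ⇒ `ζ ∈ L`.
* `s44e_not_sq_dvd`   : the first clause of `s44i_SubCrit` gives `¬ p ^ 2 ∣ e`.
-/
import Fermat.Agent.Lib.S44.SoftDec
import Fermat.Agent.Lib.S44.KBreak
import Fermat.Agent.Lib.S29.Cyclo
import Fermat.Agent.Lib.S33.TPSetup

set_option autoImplicit false
set_option linter.style.haveILetI false
set_option linter.unusedSectionVars false

noncomputable section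

namespace Fermat.Agent.Lib.S44

open Fermat.Agent.Lib.S18 Fermat.Agent.Lib.S33 Fermat.Agent.Lib.S34 Fermat.Agent.Lib.Frey
  Fermat.Agent.Lib.S29

local notation "Kb" => AlgebraicClosure ℚ

section Moved

variable {K : Type*} [Field K] {κ : Type*} [Field κ] (G : s18g_GaussData K κ)

/-- an automorphism as in `s44k_break` fixing the uniformiser is the identity on `A`. -/
theorem s44e_unif_moved (σ : K ≃+* K) (hσ : ∀ a : K, a ∈ G.A → σ a ∈ G.A)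
    (hD2 : ∀ a : K, a ∈ G.A → ∃ u ∈ G.A, σ u = u ∧ ∃ z ∈ G.A, a - u = ((G.ϖ : G.A) : K) * z)
    (a : K) (ha : a ∈ G.A) (hne : σ a ≠ a) : σ ((G.ϖ : G.A) : K) ≠ ((G.ϖ : G.A) : K) := by
  intro hfix
  have hϖ0 : ((G.ϖ : G.A) : K) ≠ 0 := s18g_unifK_ne_zero G
  have key : ∀ n : ℕ, ∀ a : K, a ∈ G.A → ∃ z ∈ G.A, σ a - a = ((G.ϖ : G.A) : K) ^ n * z := by
    intro n
    induction n with
    | zero =>
      intro a ha
      exact ⟨σ a - a, G.A.sub_mem (hσ a ha) ha, by rw [pow_zero, one_mul]⟩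
    | succ n ih =>
      intro a ha
      obtain ⟨u, hu, hσu, z, hz, e⟩ := hD2 a ha
      obtain ⟨z₁, hz₁, e₁⟩ := ih z hz
      refine ⟨z₁, hz₁, ?_⟩
      have ea : a = u + ((G.ϖ : G.A) : K) * z := by linear_combination e
      have e2 : σ a - a = ((G.ϖ : G.A) : K) * (σ z - z) := by
        rw [ea, map_add, map_mul, hσu, hfix]; ring
      rw [e2, e₁]
      ring
  have hd : (⟨σ a - a, G.A.sub_mem (hσ a ha) ha⟩ : G.A) ≠ 0 := by
    intro h0
    apply hne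
    have := congrArg Subtype.val h0
    exact sub_eq_zero.mp this
  obtain ⟨m, y, hy, hnd⟩ := G.exists_pow_mul _ hd
  obtain ⟨z, hz, e⟩ := key (m + 1) a ha
  apply hnd
  refine ⟨⟨z, hz⟩, Subtype.ext ?_⟩
  have h1 : σ a - a = ((G.ϖ : G.A) : K) ^ m * ((y : G.A) : K) := congrArg Subtype.val hy
  have h2 : ((G.ϖ : G.A) : K) ^ m * ((y : G.A) : K) =
      ((G.ϖ : G.A) : K) ^ m * (((G.ϖ : G.A) : K) * z) := by
    rw [← h1, e]; ring
  exact mul_left_cancel₀ (pow_ne_zero m hϖ0) h2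

end Moved

/-- **inertia at `p` fixes the `ℓ`-th roots of unity, `ℓ ≠ p`.** -/
theorem s44e_inertia_root {p ℓ : ℕ} (hp : p.Prime) (hℓ : ℓ.Prime) (hℓp : ℓ ≠ p)
    (P : ValuationSubring Kb) (hP : P.LiesOverPrime p) (σ : Kb ≃ₐ[ℚ] Kb)
    (hσ : σ ∈ P.inertiaSubgroupIn ℚ) {ζ : Kb} (hζ : ζ ^ ℓ = 1) : σ ζ = ζ := by
  obtain ⟨g, hg, rfl⟩ := Subgroup.mem_map.mp hσ
  have hg' : ∀ x : IsLocalRing.ResidueField P, g • x = x ^ 1 := by
    intro x
    have h1 : MulSemiringAction.toRingAut (P.decompositionSubgroup ℚ)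
        (IsLocalRing.ResidueField P) g = 1 := hg
    have h2 := congrArg (fun f : RingAut (IsLocalRing.ResidueField P) => f x) h1
    simpa using h2
  have h := s29y_apply_root_of_residue P hℓ.ne_zero
    (s29y_natCast_residue_ne_zero P hp hℓ hℓp.symm hP) g 1 hg' hζ
  rw [pow_one] at h
  exact h

/-- `ζ_ℓ ∈ Z` as soon as `ζ_ℓ ∈ L₀` (`ℓ ≠ p`). -/
theorem s44e_root_mem_Z {p ℓ : ℕ} (hp : p.Prime) (hℓ : ℓ.Prime) (hℓp : ℓ ≠ p)
    (P : ValuationSubring Kb) (hP : P.LiesOverPrime p) (L L₀ : IntermediateField ℚ Kb)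
    {ζ : Kb} (hζ : ζ ^ ℓ = 1) (hζL₀ : ζ ∈ L₀) : ζ ∈ s44s_Z P L L₀ := by
  rw [s44s_mem_Z]
  exact ⟨fun σ hσ => s44e_inertia_root hp hℓ hℓp P hP σ (s44s_mem_IΓ.mp hσ).1 hζ, hζL₀⟩

/-- an element fixed by every automorphism fixing `L` pointwise is in `L`. -/
theorem s44e_mem_of_fixed (L : IntermediateField ℚ Kb) (ζ : Kb)
    (h : ∀ σ : Kb ≃ₐ[ℚ] Kb, (∀ a ∈ L, σ a = a) → σ ζ = ζ) : ζ ∈ L := by
  haveI : IsGalois ℚ Kb := Fermat.Agent.Lib.CFT.cfg_isGalois_QBar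
  rw [← InfiniteGalois.fixedField_fixingSubgroup L, IntermediateField.mem_fixedField_iff]
  intro σ hσ
  exact h σ ((IntermediateField.mem_fixingSubgroup_iff L σ).mp hσ)

section NotSq

variable (p : ℕ) [hp : Fact p.Prime] (P : ValuationSubring Kb) (hP : P.LiesOverPrime p)
  (L : IntermediateField ℚ Kb) [IsDiscreteValuationRing ↥(s18q_A0 P L)]
  (ϖ : ↥(s18q_A0 P L)) (hϖ : Irreducible ϖ)
  (e : ℕ) (ε : ↥L) (he : 0 < e) (hε : ε ∈ s18q_A0 P L) (hεinv : ε⁻¹ ∈ s18q_A0 P L) (hε0 : ε ≠ 0)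
  (hpe : (p : ↥L) = ε * ((ϖ : ↥(s18q_A0 P L)) : ↥L) ^ e)

include he hε hεinv hε0 hpe in
/-- `v (ϖ_L ^ n) = n / e`. -/
theorem s44e_vQ_unif_zpow (n : ℤ) :
    ford_vQ P hp.out hP ((((ϖ : ↥(s18q_A0 P L)) : ↥L) : Kb) ^ n) =
      ((((n : ℚ) / (e : ℚ) : ℚ)) : WithTop ℚ) := by
  have hqe : ((p : ℕ) : Kb) = ((ε : ↥L) : Kb) * (((ϖ : ↥(s18q_A0 P L)) : ↥L) : Kb) ^ e := by
    have := congrArg (fun z : ↥L => (z : Kb)) hpe
    simpa using this
  have h1 := s44k_vQ_zpow_unit P hp.out hP ((((ϖ : ↥(s18q_A0 P L)) : ↥L) : Kb)) ((ε : ↥L) : Kb) e he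
    hε (by
      have : (((ε⁻¹ : ↥L)) : Kb) ∈ P := hεinv
      simpa using this) (by
      intro h0
      exact hε0 (Subtype.ext h0)) hqe n (y := 1) P.one_mem (by rw [inv_one]; exact P.one_mem)
    one_ne_zero
  rwa [mul_one] at h1

include he hε hεinv hε0 hpe in
/-- **the first clause of `s44i_SubCrit` gives `¬ p ^ 2 ∣ e`.** -/
theorem s44e_not_sq_dvd
    (h1 : ∀ a ∈ L, ford_vQ P hp.out hP a ≠ (((1 : ℚ) / (p : ℚ) ^ 2 : ℚ) : WithTop ℚ)) :
    ¬ p ^ 2 ∣ e := by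
  rintro ⟨m, rfl⟩
  have hm : 0 < m := by
    rcases Nat.eq_zero_or_pos m with h | h
    · rw [h, mul_zero] at he; exact absurd he (lt_irrefl _)
    · exact h
  refine h1 ((((ϖ : ↥(s18q_A0 P L)) : ↥L) : Kb) ^ (m : ℤ)) ?_ ?_
  · exact zpow_mem (ϖ : ↥L).2 (m : ℤ)
  · rw [s44e_vQ_unif_zpow p P hP L ϖ (p ^ 2 * m) ε he hε hεinv hε0 hpe (m : ℤ)]
    congr 1
    have hp0 : (p : ℚ) ≠ 0 := by exact_mod_cast hp.out.ne_zero
    have hm0 : (m : ℚ) ≠ 0 := by exact_mod_cast hm.ne'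
    push_cast
    field_simp

end NotSq

end Fermat.Agent.Lib.S44
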