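/-
M-AT-P programme (S44: Mazur's principle at `p` for the Frey curve, `p ∣ abc`), programme lead helper1.
**INTERFACE.**  STATEMENTS ONLY (`def … : Prop`); nothing here is proved.

Data: a Frey package `P` (`p = P.p ≥ 5`), a conductor level `N = M * p` (`M` squarefree, `p ∤ M`), an
integral model `W` of the Frey curve, `a ℓ := a_ℓ(W)`, `B` a finite set of primes containing the primes
dividing `N` and the bad primes of `W`; `𝔓` (`P` in the code of `Lib/S33`) a valuation subring of `ℚ̄`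
over `p`.

* `s44i_Eig N p a B x`      : `x ∈ J₀(N)(ℚ̄)` is killed by `p` and `T_ℓ x = a_ℓ • x` for all primes `ℓ ∉ B`.
* `s44i_LevelOcc M p a B`   : the conclusion shape: a normalised eigenform of level `M` with
                              `a_ℓ(g) ≡ a ℓ` modulo a maximal ideal over `p`, for all primes `ℓ ∉ B`.
* `s44i_Finite M p hpM 𝔓 x` : `x ∈ J₀(M p)[p]` is FINITE at `𝔓`: over every sufficiently large finite normal
                              `L₀` it has a Kummer generator which is a unit of `V_∞` and of `V_0` and has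
                              neither zero nor pole at the node places `s33t_nodeN`.
* `s44i_Toric M p hpM 𝔓 x`  : `x` is TORIC: the body of `s33t_UnipJ` (`h ≡ 1 mod ϖ (V_∞ ⊓ V_0)`, node-avoiding).
* `s44i_SubCrit p hp 𝔓 h𝔓 L`: the finite normal `L ≤ ℚ̄` is sub-critically (peu) ramified at `𝔓`.

Leaves (v4): `s44i_EigExists` [L1], `s44i_Old` [L2], `s44i_Star` [L3 = (★)], `s44i_Lift` [L4]
(`⇐ s44i_LiftTor` [L4a] `+ s44i_LiftOcc` [L4b = W4], `s44i_lift_of`), `s44i_MFin` [L5], `s44i_WSide` [L6],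
`s44i_WNotTop` [L6b], `s44i_FixedNe` [L7a], `s44i_Endgame` [L7b].
-/
import Fermat.Agent.Lib.S33.TPFinal
import Fermat.Agent.Lib.Frey.Ord
import Fermat.Agent.Lib.S13.Iface
import Fermat.Agent.Lib.S13.LocD
import Fermat.Prelude.Def_FLTPrelim_ModularRep
import Fermat.Prelude.Def_FreyPackage_IsConductorLevel

set_option autoImplicit false
set_option linter.style.haveILetI false
set_option linter.unusedSectionVars false
set_option synthInstance.maxHeartbeats 400000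

namespace Fermat.Agent.Lib.S44

open ModularCurve HahnSeries AlgebraicCurve Fermat.Agent.Lib.S18 Fermat.Agent.Lib.S28
  Fermat.Agent.Lib.S29 Fermat.Agent.Lib.S37 Fermat.Agent.Lib.FF Fermat.Agent.Lib.S34
  Fermat.Agent.Lib.S35 Fermat.Agent.Lib.S33 Fermat.Agent.Lib.Frey Fermat.Agent.Lib.S13

noncomputable section

local notation "Kb" => AlgebraicClosure ℚ
local notation "Γℚ" => (AlgebraicClosure ℚ ≃ₐ[ℚ] AlgebraicClosure ℚ)

/-! ### Eigen-torsion points and the conclusion shape -/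

/-- `x ∈ J₀(N)(ℚ̄)[p]` with `T_ℓ x = a ℓ • x` for every prime `ℓ ∉ B`. -/
def s44i_Eig (N : ℕ) [NeZero N] (p : ℕ) (a : ℕ → ℤ) (B : Finset ℕ) (x : JZero N) : Prop :=
  p • x = 0 ∧ ∀ ℓ : Nat.Primes, (ℓ : ℕ) ∉ B → heckeOperatorBar N ℓ x = a ℓ • x

/-- the eigensystem `a` occurs modulo `p` at level `M` (away from `B`). -/
def s44i_LevelOcc (M p : ℕ) (a : ℕ → ℤ) (B : Finset ℕ) : Prop :=
  ∃ (g : CuspForm (CongruenceSubgroup.Gamma0 M) 2) (𝔪 : Ideal (integralClosure ℤ ℂ)),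
    g.IsNormalizedEigenform ∧ 𝔪.IsMaximal ∧ (p : integralClosure ℤ ℂ) ∈ 𝔪 ∧
    ∀ ℓ : ℕ, ℓ.Prime → ℓ ∉ B →
      ∃ α : integralClosure ℤ ℂ, (α : ℂ) = ModularFormClass.qCoeff g ℓ ∧
        α - ((a ℓ : ℤ) : integralClosure ℤ ℂ) ∈ 𝔪

/-! ### Finite and toric `p`-torsion points of `J₀(M p)` at `𝔓` -/

section Local

variable (M p : ℕ) [NeZero M] [hp : Fact p.Prime] (hpM : ¬ p ∣ M) (P : ValuationSubring Kb)

/-- **`x` is finite at `P`.** -/
def s44i_Finite (x : JZero (M * p)) : Prop :=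
  ∃ Lx : IntermediateField ℚ Kb, FiniteDimensional ℚ ↥Lx ∧
    ∀ (L₀ : IntermediateField ℚ Kb) [FiniteDimensional ℚ ↥L₀] [Normal ℚ ↥L₀]
      [IsDiscreteValuationRing ↥(s18q_A0 P L₀)] (ϖ : ↥(s18q_A0 P L₀)) (hϖ : Irreducible ϖ),
      Lx ≤ L₀ →
      ∃ h : s34m_F ↥L₀ (M * p),
        s33d_IsKumGen p x (s18q_incl (M * p) L₀ h) ∧
        h ∈ s34m_Vinf (s37r_G P L₀ ϖ hϖ) (M * p) ∧ h⁻¹ ∈ s34m_Vinf (s37r_G P L₀ ϖ hϖ) (M * p) ∧
        h ∈ s34m_Vzero (s37r_G P L₀ ϖ hϖ) (algebraMap ↥L₀ Kb) M p hp.out hpM ∧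
        h⁻¹ ∈ s34m_Vzero (s37r_G P L₀ ϖ hϖ) (algebraMap ↥L₀ Kb) M p hp.out hpM ∧
        ∀ Q ∈ s33t_nodeN M p hpM P L₀ ϖ hϖ, Q.ord h = 0

/-- **`x` is toric at `P`** (the body of `s33t_UnipJ` for `x`). -/
def s44i_Toric (x : JZero (M * p)) : Prop :=
  ∃ Lx : IntermediateField ℚ Kb, FiniteDimensional ℚ ↥Lx ∧
    ∀ (L₀ : IntermediateField ℚ Kb) [FiniteDimensional ℚ ↥L₀] [Normal ℚ ↥L₀]
      [IsDiscreteValuationRing ↥(s18q_A0 P L₀)] (ϖ : ↥(s18q_A0 P L₀)) (hϖ : Irreducible ϖ),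
      Lx ≤ L₀ →
      ∃ h : s34m_F ↥L₀ (M * p),
        s33d_IsKumGen p x (s18q_incl (M * p) L₀ h) ∧
        (∃ y : s34m_F ↥L₀ (M * p), y ∈ s34m_Vinf (s37r_G P L₀ ϖ hϖ) (M * p) ∧
          y ∈ s34m_Vzero (s37r_G P L₀ ϖ hϖ) (algebraMap ↥L₀ Kb) M p hp.out hpM ∧
          h - 1 = s34m_unif (s37r_G P L₀ ϖ hϖ) (M * p) * y) ∧
        ∀ Q ∈ s33t_nodeN M p hpM P L₀ ϖ hϖ, Q.ord h = 0


end Local

/-! ### Sub-critical (peu ramifié) ramification of a number field at `𝔓` -/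

/-- `L` is at most `p`-wildly, sub-critically ramified at `P`: `p² ∤ e`, and every inertia element `τ`
whose restriction to `L` has order `p` has a witness `g ∈ L^×`, `v(g) ∉ p · v(L^×)`, with
`v(τ g / g - 1) < v(p) / (p - 1)` (`v = ford_vQ`, normalised by `v(p) = 1`). -/
def s44i_SubCrit (p : ℕ) (hp : p.Prime) (P : ValuationSubring Kb) (hP : P.LiesOverPrime p)
    (L : IntermediateField ℚ Kb) : Prop :=
  (∀ a ∈ L, ford_vQ P hp hP a ≠ (((1 : ℚ) / (p : ℚ) ^ 2 : ℚ) : WithTop ℚ)) ∧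
  ∀ τ ∈ P.inertiaSubgroupIn ℚ, (∀ a ∈ L, (τ ^ p) a = a) → (∃ a ∈ L, τ a ≠ a) →
    ∃ g ∈ L, ∃ r : ℚ, ford_vQ P hp hP g = (r : WithTop ℚ) ∧
      (∀ a ∈ L, ∀ s : ℚ, ford_vQ P hp hP a = (s : WithTop ℚ) → r ≠ (p : ℚ) * s) ∧
      ford_vQ P hp hP (τ g / g - 1) < (((1 : ℚ) / ((p : ℚ) - 1) : ℚ) : WithTop ℚ)

/-! ### The leaves -/

/-- **[L1]** an eigenform of level `N` congruent to `a` gives a non-zero eigen-`p`-torsion point. -/
def s44i_EigExists : Prop :=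
  ∀ (N : ℕ) [NeZero N] (f : CuspForm (CongruenceSubgroup.Gamma0 N) 2), f.IsNormalizedEigenform →
    ∀ (p : ℕ), p.Prime → ∀ (𝔪 : Ideal (integralClosure ℤ ℂ)), 𝔪.IsMaximal →
      (p : integralClosure ℤ ℂ) ∈ 𝔪 →
    ∀ (a : ℕ → ℤ) (B : Finset ℕ), (∀ q : ℕ, q.Prime → q ∣ N * p → q ∈ B) →
      (∀ ℓ : ℕ, ℓ.Prime → ℓ ∉ B →
        ∃ α : integralClosure ℤ ℂ, (α : ℂ) = ModularFormClass.qCoeff f ℓ ∧
          α - ((a ℓ : ℤ) : integralClosure ℤ ℂ) ∈ 𝔪) →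
      ∃ x : JZero N, x ≠ 0 ∧ s44i_Eig N p a B x

/-- **[L2]** a non-zero eigen-`p`-torsion point at level `M` gives an eigenform of level `M`. -/
def s44i_Old : Prop :=
  ∀ (M : ℕ) [NeZero M] (p : ℕ), p.Prime → 5 ≤ p → ¬ p ∣ M →
    ∀ (a : ℕ → ℤ) (B : Finset ℕ), (∀ q : ℕ, q.Prime → q ∣ M * p → q ∈ B) →
      ∀ y : JZero M, y ≠ 0 → s44i_Eig M p a B y → s44i_LevelOcc M p a B

/-- **[L3] = (★), the slope lemma**: a `p`-new `p`-torsion point which is rational over a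
sub-critically ramified field containing `μ_p` and non-Eisenstein at one prime `ℓ₀` is finite.
(v4: the hypothesis `μ_p ⊆ L` added, as requested by the [L3] wiring; it is free in `Top`.) -/
def s44i_Star : Prop :=
  ∀ (M : ℕ) [NeZero M] (p : ℕ) [hp : Fact p.Prime], 5 ≤ p → ∀ (hpM : ¬ p ∣ M), Squarefree M →
    ∀ (P : ValuationSubring Kb) (hP : P.LiesOverPrime p)
      (L : IntermediateField ℚ Kb) [FiniteDimensional ℚ ↥L] [Normal ℚ ↥L],
      s44i_SubCrit p hp.out P hP L → (∀ ζ : Kb, ζ ^ p = 1 → ζ ∈ L) →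
    ∀ x : JZero (M * p), p • x = 0 →
      s35c_alphaPush M p hp.out hpM x = 0 → s35c_betaPush M p hp.out hpM x = 0 →
      (∀ σ : Γℚ, (∀ a ∈ L, σ a = a) → σ • x = x) →
      (∃ (ℓ₀ : Nat.Primes) (a₀ : ℤ), ¬ (ℓ₀ : ℕ) ∣ M * p ∧
        heckeOperatorBar (M * p) ℓ₀ x = a₀ • x ∧ ¬ (p : ℤ) ∣ a₀ - ((ℓ₀ : ℕ) + 1)) →
      s44i_Finite M p hpM P x

section Local2

variable (M p : ℕ) [NeZero M] [hp : Fact p.Prime] (hpM : ¬ p ∣ M) (P : ValuationSubring Kb)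

/-- the reduction of `x` on the component `C_∞` (`i = false`; resp. `C_0`, `i = true`) is trivial: over
every large `L₀` some Kummer generator `h` of `x`, unit of `V_∞` and of `V_0` and node-avoiding, is
congruent modulo `ϖ V_i` to a constant times a `p`-th power of a unit of `V_i`
(`red_i h ∈ κ₀^× · (κ(V_i)^×)^p`; `b_∞(x) = 0`, resp. `b_0(x) = 0`).  (v3: congruence form.) -/
def s44i_RedTriv (i : Bool) (x : JZero (M * p)) : Prop :=
  ∃ Lx : IntermediateField ℚ Kb, FiniteDimensional ℚ ↥Lx ∧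
    ∀ (L₀ : IntermediateField ℚ Kb) [FiniteDimensional ℚ ↥L₀] [Normal ℚ ↥L₀]
      [IsDiscreteValuationRing ↥(s18q_A0 P L₀)] (ϖ : ↥(s18q_A0 P L₀)) (hϖ : Irreducible ϖ),
      Lx ≤ L₀ →
      ∃ h : s34m_F ↥L₀ (M * p),
        s33d_IsKumGen p x (s18q_incl (M * p) L₀ h) ∧
        h ∈ s34m_Vinf (s37r_G P L₀ ϖ hϖ) (M * p) ∧ h⁻¹ ∈ s34m_Vinf (s37r_G P L₀ ϖ hϖ) (M * p) ∧
        h ∈ s34m_Vzero (s37r_G P L₀ ϖ hϖ) (algebraMap ↥L₀ Kb) M p hp.out hpM ∧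
        h⁻¹ ∈ s34m_Vzero (s37r_G P L₀ ϖ hϖ) (algebraMap ↥L₀ Kb) M p hp.out hpM ∧
        (∀ Q ∈ s33t_nodeN M p hpM P L₀ ϖ hϖ, Q.ord h = 0) ∧
        ∃ (c : ↥L₀) (a y : s34m_F ↥L₀ (M * p)), c ≠ 0 ∧
          (if i then
            a ∈ s34m_Vzero (s37r_G P L₀ ϖ hϖ) (algebraMap ↥L₀ Kb) M p hp.out hpM ∧
            a⁻¹ ∈ s34m_Vzero (s37r_G P L₀ ϖ hϖ) (algebraMap ↥L₀ Kb) M p hp.out hpM ∧
            y ∈ s34m_Vzero (s37r_G P L₀ ϖ hϖ) (algebraMap ↥L₀ Kb) M p hp.out hpM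
          else
            a ∈ s34m_Vinf (s37r_G P L₀ ϖ hϖ) (M * p) ∧ a⁻¹ ∈ s34m_Vinf (s37r_G P L₀ ϖ hϖ) (M * p) ∧
            y ∈ s34m_Vinf (s37r_G P L₀ ϖ hϖ) (M * p)) ∧
          h - algebraMap ↥L₀ (s34m_F ↥L₀ (M * p)) c * a ^ p =
            s34m_unif (s37r_G P L₀ ϖ hϖ) (M * p) * y

end Local2

/-- **[L4a] = [GLUE-p]**: a finite point whose two reductions are trivial is toric. -/
def s44i_LiftTor : Prop :=
  ∀ (M : ℕ) [NeZero M] (p : ℕ) [hp : Fact p.Prime], 5 ≤ p → ∀ (hpM : ¬ p ∣ M), Squarefree M →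
    ∀ (P : ValuationSubring Kb), P.LiesOverPrime p →
    ∀ x : JZero (M * p), p • x = 0 → s44i_Finite M p hpM P x →
      s44i_RedTriv M p hpM P false x → s44i_RedTriv M p hpM P true x → s44i_Toric M p hpM P x

/-- **[L4b] = W4 = [LIFT]**: a finite `p`-new eigen-point one of whose two reductions is non-trivial
lifts its eigensystem to level `M` (the Hecke eigensystems of `Pic⁰(X̃₀(M))[p]` come from `S₂(Γ₀(M))`). -/
def s44i_LiftOcc : Prop :=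
  ∀ (M : ℕ) [NeZero M] (p : ℕ) [hp : Fact p.Prime], 5 ≤ p → ∀ (hpM : ¬ p ∣ M), Squarefree M →
    ∀ (P : ValuationSubring Kb), P.LiesOverPrime p →
    ∀ (a : ℕ → ℤ) (B : Finset ℕ), (∀ q : ℕ, q.Prime → q ∣ M * p → q ∈ B) →
    ∀ x : JZero (M * p), s44i_Eig (M * p) p a B x →
      s35c_alphaPush M p hp.out hpM x = 0 → s35c_betaPush M p hp.out hpM x = 0 →
      s44i_Finite M p hpM P x →
      (¬ s44i_RedTriv M p hpM P false x ∨ ¬ s44i_RedTriv M p hpM P true x) → s44i_LevelOcc M p a B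

/-- **[L4] = [LIFT]**: a finite `p`-new eigen-point is toric, unless the eigensystem occurs at level `M`. -/
def s44i_Lift : Prop :=
  ∀ (M : ℕ) [NeZero M] (p : ℕ) [hp : Fact p.Prime], 5 ≤ p → ∀ (hpM : ¬ p ∣ M), Squarefree M →
    ∀ (P : ValuationSubring Kb), P.LiesOverPrime p →
    ∀ (a : ℕ → ℤ) (B : Finset ℕ), (∀ q : ℕ, q.Prime → q ∣ M * p → q ∈ B) →
    ∀ x : JZero (M * p), s44i_Eig (M * p) p a B x →
      s35c_alphaPush M p hp.out hpM x = 0 → s35c_betaPush M p hp.out hpM x = 0 →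
      s44i_Finite M p hpM P x → s44i_Toric M p hpM P x ∨ s44i_LevelOcc M p a B

/-- `[L4] ⇐ [L4a] + [L4b]`. -/
theorem s44i_lift_of (ha : s44i_LiftTor) (hb : s44i_LiftOcc) : s44i_Lift := by
  intro M _ p hp hp5 hpM hsq P hP a B hB x hE hα hβ hfin
  by_cases h1 : s44i_RedTriv M p hpM P false x
  · by_cases h2 : s44i_RedTriv M p hpM P true x
    · exact Or.inl (ha M p hp5 hpM hsq P hP x hE.1 hfin h1 h2)
    · exact Or.inr (hb M p hp5 hpM hsq P hP a B hB x hE hα hβ hfin (Or.inr h2))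
  · exact Or.inr (hb M p hp5 hpM hsq P hP a B hB x hE hα hβ hfin (Or.inl h1))

/-- **[L5] = (M°) for toric points**: a toric `p`-new `p`-torsion point is of `μ_p`-type. -/
def s44i_MFin : Prop :=
  ∀ (M : ℕ) [NeZero M] (p : ℕ) [hp : Fact p.Prime], 5 ≤ p → ∀ (hpM : ¬ p ∣ M),
    ∀ (P : ValuationSubring Kb), P.LiesOverPrime p →
    ∀ x : JZero (M * p), p • x = 0 →
      s35c_alphaPush M p hp.out hpM x = 0 → s35c_betaPush M p hp.out hpM x = 0 →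
      s44i_Toric M p hpM P x → s33_IsMuType (M * p) p P x

/-- the fixing condition: `σ` fixes `L` pointwise ⇒ `σ` fixes the `p`-torsion of the Frey curve and `μ_p`. -/
def s44i_Splits (P : FreyPackage) (L : IntermediateField ℚ Kb) : Prop :=
  ∀ σ : Γℚ, (∀ a ∈ L, σ a = a) →
    (∀ v : s13_V P, σ • v = v) ∧ ∀ ζ : Kb, ζ ^ P.p = 1 → σ ζ = ζ

/-- **[L6] the W-side**: for a Frey package with `p ∣ abc` and a place `𝔓 ∣ p` there is a finite normal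
splitting field of `E[p]` and `μ_p` which is sub-critically ramified at `𝔓`. -/
def s44i_WSide : Prop :=
  ∀ (P : FreyPackage), (P.p : ℤ) ∣ P.a * P.b * P.c →
    ∀ (A : ValuationSubring Kb) (hA : A.LiesOverPrime P.p),
      ∃ L : IntermediateField ℚ Kb, FiniteDimensional ℚ ↥L ∧ Normal ℚ ↥L ∧ s44i_Splits P L ∧
        s44i_SubCrit P.p P.pp A hA L

/-- **[L6b]** for `p ∣ abc` the kernel of reduction at `𝔓` is not all of `E[p]` (multiplicative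
reduction: `E₀[p] = E₁[p]` has order `p < p²`). -/
def s44i_WNotTop : Prop :=
  ∀ (P : FreyPackage), (P.p : ℤ) ∣ P.a * P.b * P.c →
    ∀ (A : ValuationSubring Kb) (hA : A.LiesOverPrime P.p), cfh_T₀ P A hA ≠ ⊤

/-- **[L7a]** the points of the eigen-module which are rational over a splitting field `L`:
non-zero as soon as the eigen-module is. -/
def s44i_FixedNe : Prop :=
  ∀ (P : FreyPackage) (W : WeierstrassCurve ℤ), W.IsIntegralModelOf P.freyCurve →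
    ∀ (N : ℕ) [NeZero N] (B : Finset ℕ), (∀ q : ℕ, q.Prime → q ∣ N * P.p → q ∈ B) →
      (∀ q : ℕ, q.Prime → ¬ W.IsGoodPrimeFor q → q ∈ B) →
    ∀ L : IntermediateField ℚ Kb, FiniteDimensional ℚ ↥L → Normal ℚ ↥L → s44i_Splits P L →
      (∃ x : JZero N, x ≠ 0 ∧ s44i_Eig N P.p (fun ℓ => W.apOfModel ℓ) B x) →
      ∃ x : JZero N, x ≠ 0 ∧ s44i_Eig N P.p (fun ℓ => W.apOfModel ℓ) B x ∧
        ∀ σ : Γℚ, (∀ a ∈ L, σ a = a) → σ • x = x

/-- **[L7b] the endgame**: the `L`-rational points of the eigen-module cannot all be of `μ_p`-type. -/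
def s44i_Endgame : Prop :=
  ∀ (P : FreyPackage) (W : WeierstrassCurve ℤ), W.IsIntegralModelOf P.freyCurve →
    (P.p : ℤ) ∣ P.a * P.b * P.c →
    WeierstrassCurve.Affine.Point.GaloisRepIsIrreducible (K := AlgebraicClosure ℚ) ℚ P.freyCurve P.p →
    ∀ (N : ℕ) [NeZero N] (B : Finset ℕ), (∀ q : ℕ, q.Prime → q ∣ N * P.p → q ∈ B) →
      (∀ q : ℕ, q.Prime → ¬ W.IsGoodPrimeFor q → q ∈ B) →
    ∀ L : IntermediateField ℚ Kb, FiniteDimensional ℚ ↥L → Normal ℚ ↥L → s44i_Splits P L →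
    ∀ (A : ValuationSubring Kb) (hA : A.LiesOverPrime P.p), cfh_T₀ P A hA ≠ ⊤ →
      (∃ x : JZero N, x ≠ 0 ∧ s44i_Eig N P.p (fun ℓ => W.apOfModel ℓ) B x ∧
        ∀ σ : Γℚ, (∀ a ∈ L, σ a = a) → σ • x = x) →
      (∀ x : JZero N, s44i_Eig N P.p (fun ℓ => W.apOfModel ℓ) B x →
        (∀ σ : Γℚ, (∀ a ∈ L, σ a = a) → σ • x = x) → s33_IsMuType N P.p A x) →
      False

end

end Fermat.Agent.Lib.S44
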