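/-
S44 programme M-AT-P, leaf [L3] = (★), family E (helper8): **THE WIRING OF `s44i_Star`.**

`s44e_star : s44e_FieldWild → s44e_FieldTame → s44e_StarMu`

where `s44e_StarMu` is `s44i_Star` with the extra hypothesis `μ_p ⊆ L` (free in `Top.lean`: `L` comes from
`s44i_WSide` with `s44i_Splits P L`, see `s44e_mu_mem_of_splits`), and the two hypotheses are "(★) over a FIXED
field `Z`" in the wild and in the tame case (helper7's `s44k_star_field` and its tame twin).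

Route.  (1) [Q-DIV] (`s44e_qdiv`): a Kummer generator `f_L ∈ 𝓕_L(M p)` of `x`.  (2) helper9's `s44q_Q4_Z`: a number
field `L₂` such that exact (Q4) holds for `f_L` over the inertia field `Z = s44s_Z P L L₀` of every finite normal
`L₀ ⊇ L, L₂`.  (3) `Lx := L ⊔ L₂ ⊔ ℚ(ζ_ℓ₀)`.  (4) per `L₀`: `ϖ_Z := ϖ_L` (helper2's (D1)), the same `e`, `ε`;
`ζ_p ∈ L ≤ Z`, `ζ_ℓ₀ ∈ Z` (inertia at `p` fixes `μ_ℓ₀`).  (5) `p ∣ e`: helper9's `s44q_exists_wild` gives `τ` of order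
`p` on `L` in inertia, `s44i_SubCrit` its witness, helper2's `s44s_resZ` the automorphism `σ₀` of `Z`, helper7's
`s44k_break` / `s44k_subcrit_of_witness` the break `B` with `(p - 1) B < e` ⇒ wild field statement;
`p ∤ e`: tame field statement.  (6) `s44e_finite_up_glob` (EBase): `Z → L₀`.
-/
import Fermat.Agent.Lib.S44.EStarAux
import Fermat.Agent.Lib.S44.EBase
import Fermat.Agent.Lib.S44.EDiv
import Fermat.Agent.Lib.S44.QTopZ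
import Fermat.Agent.Lib.S44.QWild
import Fermat.Agent.Lib.S44.Iface

set_option autoImplicit false
set_option linter.style.haveILetI false
set_option linter.unusedSectionVars false
set_option synthInstance.maxHeartbeats 400000

noncomputable section

namespace Fermat.Agent.Lib.S44

open ModularCurve HahnSeries AlgebraicCurve Fermat.Agent.Lib.S18 Fermat.Agent.Lib.S28
  Fermat.Agent.Lib.S29 Fermat.Agent.Lib.S37 Fermat.Agent.Lib.FF Fermat.Agent.Lib.S34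
  Fermat.Agent.Lib.S35 Fermat.Agent.Lib.S33 Fermat.Agent.Lib.Frey Fermat.Agent.Lib.S13

local notation "Kb" => AlgebraicClosure ℚ
local notation "Γℚ" => (AlgebraicClosure ℚ ≃ₐ[ℚ] AlgebraicClosure ℚ)

/-! ### The vocabulary of the field statements -/

section Vocab

variable (M p : ℕ) [NeZero M] [hp : Fact p.Prime] (hpM : ¬ p ∣ M) (P : ValuationSubring Kb)
  (Z : IntermediateField ℚ Kb) [IsDiscreteValuationRing ↥(s18q_A0 P Z)]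
  (ϖ : ↥(s18q_A0 P Z)) (hϖ : Irreducible ϖ)

/-- helper9's exact (Q4) for `f` on the chart `S`, over `(Z, ϖ)` (verbatim helper7's `hQ4`). -/
def s44e_Q4 (S : Set (Place ↥Z (s34m_F ↥Z (M * p)))) (f : s34m_F ↥Z (M * p)) : Prop :=
  ∀ 𝔫 : Ideal (s34x_ring (s34x_infRing
      (s34m_VV (s37r_G P Z ϖ hϖ) (algebraMap ↥Z Kb) M p hp.out hpM)) S),
    𝔫.IsMaximal →
    s34x_const (s34x_infRing (s34m_VV (s37r_G P Z ϖ hϖ) (algebraMap ↥Z Kb) M p hp.out hpM)) S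
      (((s37r_G P Z ϖ hϖ).ϖ : (s37r_G P Z ϖ hϖ).A) : ↥Z)
      (s34x_inf_const_mem (s34m_VV (s37r_G P Z ϖ hϖ) (algebraMap ↥Z Kb) M p hp.out hpM)
        (s37r_G P Z ϖ hϖ).A
        (s34c_const_mem_VV (s37r_G P Z ϖ hϖ) (algebraMap ↥Z Kb) M p hp.out hpM)
        (s37r_G P Z ϖ hϖ).ϖ) ∈ 𝔫 →
    ∃ Φ : s34m_F ↥Z (M * p), Φ ≠ 0 ∧
      ∀ Q ∈ S, s34f_through (s34x_infRing
          (s34m_VV (s37r_G P Z ϖ hϖ) (algebraMap ↥Z Kb) M p hp.out hpM)) S 𝔫 Q →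
        Q.ord f = ((p : ℕ) : ℤ) * Q.ord Φ

/-- the output of (G6) for `f` over `(Z, ϖ)`: `f = Gg ^ p · ϖ ^ a · h`, `h` a unit of `V_∞` and of `V_0` of order
`0` at all node places (= the input of `s44e_finite_up_glob`). -/
def s44e_GlobConcl (f : s34m_F ↥Z (M * p)) : Prop :=
  ∃ (Gg h : s34m_F ↥Z (M * p)) (a : ℤ), Gg ≠ 0 ∧
    f = Gg ^ p * (s34m_unif (s37r_G P Z ϖ hϖ) (M * p) ^ a * h) ∧
    (∀ i, h ∈ s34m_VV (s37r_G P Z ϖ hϖ) (algebraMap ↥Z Kb) M p hp.out hpM i ∧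
      h⁻¹ ∈ s34m_VV (s37r_G P Z ϖ hϖ) (algebraMap ↥Z Kb) M p hp.out hpM i) ∧
    ∀ Q ∈ s33s_nodePlaces (s34m_VV (s37r_G P Z ϖ hϖ) (algebraMap ↥Z Kb) M p hp.out hpM)
      (s34m_unif (s37r_G P Z ϖ hϖ) (M * p))
      (s18_chart1 (L₀ := ↥Z) (s18g_jF (K := ↥Z) (M * p))), Q.ord h = 0

end Vocab

/-- **(★) over a fixed field, WILD case** (helper7's `s44k_star_field`). -/
def s44e_FieldWild : Prop :=
  ∀ (M : ℕ) [NeZero M] (p : ℕ) [hp : Fact p.Prime], 5 ≤ p → ∀ (hpM : ¬ p ∣ M), Squarefree M →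
    ∀ (P : ValuationSubring Kb), P.LiesOverPrime p →
    ∀ (Z : IntermediateField ℚ Kb) [FiniteDimensional ℚ ↥Z]
      [IsDiscreteValuationRing ↥(s18q_A0 P Z)] (ϖ : ↥(s18q_A0 P Z)) (hϖ : Irreducible ϖ)
      (e : ℕ) (ε : ↥Z), 0 < e → ε ∈ s18q_A0 P Z → ε⁻¹ ∈ s18q_A0 P Z → ε ≠ 0 →
      (p : ↥Z) = ε * ((ϖ : ↥(s18q_A0 P Z)) : ↥Z) ^ e → ¬ p ^ 2 ∣ e →
    ∀ (ζp : (↥Z)ˣ), IsPrimitiveRoot (ζp : ↥Z) p →
    ∀ (ℓ : Nat.Primes), ¬ (ℓ : ℕ) ∣ M * p →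
    ∀ (ζℓ : (↥Z)ˣ), IsPrimitiveRoot (ζℓ : ↥Z) (ℓ : ℕ) →
    ∀ (x : JZero (M * p)), p • x = 0 →
      s35c_alphaPush M p hp.out hpM x = 0 → s35c_betaPush M p hp.out hpM x = 0 →
    ∀ (a₀ : ℤ), heckeOperatorBar (M * p) ℓ x = a₀ • x → ¬ (p : ℤ) ∣ a₀ - ((ℓ : ℕ) + 1) →
    ∀ (f : s34m_F ↥Z (M * p)), s33d_IsKumGen p x (s18q_incl (M * p) Z f) →
      s44e_Q4 M p hpM P Z ϖ hϖ (s18_chart1 (L₀ := ↥Z) (s18g_jF (K := ↥Z) (M * p))) f →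
      s44e_Q4 M p hpM P Z ϖ hϖ (s18_chart2 (L₀ := ↥Z) (s18g_jF (K := ↥Z) (M * p))) f →
    ∀ (σ₀ : ↥Z ≃ₐ[ℚ] ↥Z),
      (∀ a : ↥Z, a ∈ (s37r_G P Z ϖ hϖ).A → (σ₀ : ↥Z ≃+* ↥Z) a ∈ (s37r_G P Z ϖ hϖ).A) →
      (∀ a : ↥Z, a ∈ (s37r_G P Z ϖ hϖ).A → (σ₀.symm : ↥Z ≃+* ↥Z) a ∈ (s37r_G P Z ϖ hϖ).A) →
    ∀ (B : ℕ), 1 ≤ B → (p - 1) * B < e →
      (∀ a : ↥Z, a ∈ (s37r_G P Z ϖ hϖ).A → ∃ z ∈ (s37r_G P Z ϖ hϖ).A,
        (σ₀ : ↥Z ≃+* ↥Z) a - a =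
          (((s37r_G P Z ϖ hϖ).ϖ : (s37r_G P Z ϖ hϖ).A) : ↥Z) ^ (B + 1) * z) →
    ∀ (cτ : (s37r_G P Z ϖ hϖ).A),
      (σ₀ : ↥Z ≃+* ↥Z) (((s37r_G P Z ϖ hϖ).ϖ : (s37r_G P Z ϖ hϖ).A) : ↥Z) -
          (((s37r_G P Z ϖ hϖ).ϖ : (s37r_G P Z ϖ hϖ).A) : ↥Z) =
        (((s37r_G P Z ϖ hϖ).ϖ : (s37r_G P Z ϖ hϖ).A) : ↥Z) ^ (B + 1) * (cτ : ↥Z) →
      (s37r_G P Z ϖ hϖ).π cτ ≠ 0 →
    s44e_GlobConcl M p hpM P Z ϖ hϖ f

/-- **(★) over a fixed field, TAME case** (`p ∤ e`). -/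
def s44e_FieldTame : Prop :=
  ∀ (M : ℕ) [NeZero M] (p : ℕ) [hp : Fact p.Prime], 5 ≤ p → ∀ (hpM : ¬ p ∣ M), Squarefree M →
    ∀ (P : ValuationSubring Kb), P.LiesOverPrime p →
    ∀ (Z : IntermediateField ℚ Kb) [FiniteDimensional ℚ ↥Z]
      [IsDiscreteValuationRing ↥(s18q_A0 P Z)] (ϖ : ↥(s18q_A0 P Z)) (hϖ : Irreducible ϖ)
      (e : ℕ) (ε : ↥Z), 0 < e → ε ∈ s18q_A0 P Z → ε⁻¹ ∈ s18q_A0 P Z → ε ≠ 0 →
      (p : ↥Z) = ε * ((ϖ : ↥(s18q_A0 P Z)) : ↥Z) ^ e → ¬ p ∣ e →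
    ∀ (ζp : (↥Z)ˣ), IsPrimitiveRoot (ζp : ↥Z) p →
    ∀ (ℓ : Nat.Primes), ¬ (ℓ : ℕ) ∣ M * p →
    ∀ (ζℓ : (↥Z)ˣ), IsPrimitiveRoot (ζℓ : ↥Z) (ℓ : ℕ) →
    ∀ (x : JZero (M * p)), p • x = 0 →
      s35c_alphaPush M p hp.out hpM x = 0 → s35c_betaPush M p hp.out hpM x = 0 →
    ∀ (a₀ : ℤ), heckeOperatorBar (M * p) ℓ x = a₀ • x → ¬ (p : ℤ) ∣ a₀ - ((ℓ : ℕ) + 1) →
    ∀ (f : s34m_F ↥Z (M * p)), s33d_IsKumGen p x (s18q_incl (M * p) Z f) →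
      s44e_Q4 M p hpM P Z ϖ hϖ (s18_chart1 (L₀ := ↥Z) (s18g_jF (K := ↥Z) (M * p))) f →
      s44e_Q4 M p hpM P Z ϖ hϖ (s18_chart2 (L₀ := ↥Z) (s18g_jF (K := ↥Z) (M * p))) f →
    s44e_GlobConcl M p hpM P Z ϖ hϖ f

/-- **[L3] with `μ_p ⊆ L`** (= `s44i_Star` + the hypothesis `∀ ζ, ζ ^ p = 1 → ζ ∈ L`). -/
def s44e_StarMu : Prop :=
  ∀ (M : ℕ) [NeZero M] (p : ℕ) [hp : Fact p.Prime], 5 ≤ p → ∀ (hpM : ¬ p ∣ M), Squarefree M →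
    ∀ (P : ValuationSubring Kb) (hP : P.LiesOverPrime p)
      (L : IntermediateField ℚ Kb) [FiniteDimensional ℚ ↥L] [Normal ℚ ↥L],
      s44i_SubCrit p hp.out P hP L → (∀ ζ : Kb, ζ ^ p = 1 → ζ ∈ L) →
    ∀ x : JZero (M * p), p • x = 0 →
      s35c_alphaPush M p hp.out hpM x = 0 → s35c_betaPush M p hp.out hpM x = 0 →
      (∀ σ : Γℚ, (∀ a ∈ L, σ a = a) → σ • x = x) →
      (∃ (ℓ₀ : Nat.Primes) (a₀ : ℤ), ¬ (ℓ₀ : ℕ) ∣ M * p ∧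
        heckeOperatorBar (M * p) ℓ₀ x = a₀ • x ∧ ¬ (p : ℤ) ∣ a₀ - ((ℓ₀ : ℕ) + 1)) →
      s44i_Finite M p hpM P x

/-- `μ_p ⊆ L` from `s44i_Splits P L`. -/
theorem s44e_mu_mem_of_splits (P : FreyPackage) (L : IntermediateField ℚ Kb)
    (h : s44i_Splits P L) (ζ : Kb) (hζ : ζ ^ P.p = 1) : ζ ∈ L :=
  s44e_mem_of_fixed L ζ (fun σ hσ => (h σ hσ).2 ζ hζ)

/-! ### Iterates of the restriction of an inertia element to `Z` -/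

theorem s44e_resZ_iterate (P : ValuationSubring Kb) (L L₀ : IntermediateField ℚ Kb) [Normal ℚ ↥L]
    [Normal ℚ ↥L₀] (τ : Γℚ) (hτ : τ ∈ P.inertiaSubgroupIn ℚ) (n : ℕ) (z : ↥(s44s_Z P L L₀)) :
    ((((((s44s_resZ P L L₀ τ hτ : ↥(s44s_Z P L L₀) ≃ₐ[ℚ] ↥(s44s_Z P L L₀)) :
      ↥(s44s_Z P L L₀) ≃+* ↥(s44s_Z P L L₀)))^[n]) z : ↥(s44s_Z P L L₀)) : Kb) =
      (τ ^ n) (z : Kb) := by
  induction n with
  | zero => rfl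
  | succ n ih =>
    rw [Function.iterate_succ_apply', pow_succ', AlgEquiv.mul_apply, ← ih]
    rfl

/-! ### The wiring -/

set_option maxHeartbeats 4000000 in
/-- **[L3] = (★) from the two field statements.** -/
theorem s44e_star (hW : s44e_FieldWild) (hT : s44e_FieldTame) : s44e_StarMu := by
  intro M _ p hp h5 hpM hsq P hP L _ _ hSC hμ x hpx hα hβ hfix ⟨ℓ₀, a₀, hℓ₀, hTx, ha₀⟩
  classical
  haveI : NeZero p := ⟨hp.out.ne_zero⟩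
  have hℓp : (ℓ₀ : ℕ) ≠ p := by
    rintro h
    exact hℓ₀ (h ▸ Dvd.intro_left M rfl)
  -- the level `L`
  haveI hdvrL : IsDiscreteValuationRing ↥(s18q_A0 P L) := s18q_A0_dvr P L hP
  obtain ⟨ϖL, hϖL⟩ := IsDiscreteValuationRing.exists_irreducible ↥(s18q_A0 P L)
  obtain ⟨e, ε, he, hε, hεinv, hε0, hpe⟩ := s33t_exists_e P L hp.out hP ϖL hϖL
  -- [Q-DIV]
  obtain ⟨fL, hfL⟩ := s44e_qdiv (M * p) p L x hpx hfix
  obtain ⟨hfL0, hdivL⟩ := s33d_kum_of_gen (M * p) p L hfL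
  -- [RAT]
  obtain ⟨L₂, hL₂fd, hQ4⟩ := s44q_Q4_Z M p hp.out hpM h5 P hP L fL hfL0 hdivL
  -- roots of unity
  haveI : NeZero (ℓ₀ : ℕ) := ⟨ℓ₀.2.ne_zero⟩
  obtain ⟨ζℓ, hζℓ⟩ := HasEnoughRootsOfUnity.exists_primitiveRoot Kb (ℓ₀ : ℕ)
  obtain ⟨ζp, hζp⟩ := HasEnoughRootsOfUnity.exists_primitiveRoot Kb p
  haveI := hL₂fd
  haveI : FiniteDimensional ℚ ↥(IntermediateField.adjoin ℚ {ζℓ}) :=
    IntermediateField.adjoin.finiteDimensional ((hζℓ.isIntegral ℓ₀.2.pos).tower_top (A := ℚ))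
  haveI : FiniteDimensional ℚ ↥(L ⊔ L₂) := IntermediateField.finiteDimensional_sup _ _
  haveI : FiniteDimensional ℚ ↥(L ⊔ L₂ ⊔ IntermediateField.adjoin ℚ {ζℓ}) :=
    IntermediateField.finiteDimensional_sup _ _
  refine ⟨L ⊔ L₂ ⊔ IntermediateField.adjoin ℚ {ζℓ}, inferInstance, ?_⟩
  intro L₀ _ _ _ ϖ hϖ hLx
  have hLL : L ≤ L₀ := (le_sup_left.trans le_sup_left).trans hLx
  have hL₂L₀ : L₂ ≤ L₀ := (le_sup_right.trans le_sup_left).trans hLx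
  have hζℓL₀ : ζℓ ∈ L₀ :=
    hLx (le_sup_right (a := L ⊔ L₂) (IntermediateField.subset_adjoin ℚ {ζℓ} (Set.mem_singleton ζℓ)))
  -- the inertia field `Z`
  haveI hZfd : FiniteDimensional ℚ ↥(s44s_Z P L L₀) := s44s_Z_finiteDimensional P L L₀
  haveI hdvrZ : IsDiscreteValuationRing ↥(s18q_A0 P (s44s_Z P L L₀)) := s18q_A0_dvr P _ hP
  have hLZ : L ≤ s44s_Z P L L₀ := s44s_le_Z hLL
  have hZL₀ : s44s_Z P L L₀ ≤ L₀ := s44s_Z_le P L L₀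
  -- the uniformiser, `e`, `ε` over `Z`
  have hϖLP : (((ϖL : ↥(s18q_A0 P L)) : ↥L) : Kb) ∈ P := ϖL.2
  set ϖZ : ↥(s18q_A0 P (s44s_Z P L L₀)) :=
    ⟨⟨(((ϖL : ↥(s18q_A0 P L)) : ↥L) : Kb), hLZ (ϖL : ↥L).2⟩, hϖLP⟩ with hϖZdef
  have hϖZ : Irreducible ϖZ := s44s_irreducible_Z p hp.out P hP L L₀ hLL ϖL hϖL ϖZ rfl
  set εZ : ↥(s44s_Z P L L₀) := ⟨(ε : Kb), hLZ ε.2⟩ with hεZdef
  have hεZ : εZ ∈ s18q_A0 P (s44s_Z P L L₀) := hε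
  have hεZinv : εZ⁻¹ ∈ s18q_A0 P (s44s_Z P L L₀) := by
    have h1 : ((ε⁻¹ : ↥L) : Kb) ∈ P := hεinv
    show ((εZ⁻¹ : ↥(s44s_Z P L L₀)) : Kb) ∈ P
    simpa using h1
  have hεZ0 : εZ ≠ 0 := by
    intro h0
    apply hε0
    have := congrArg (fun z : ↥(s44s_Z P L L₀) => (z : Kb)) h0
    exact Subtype.ext this
  have hpeZ : (p : ↥(s44s_Z P L L₀)) =
      εZ * ((ϖZ : ↥(s18q_A0 P (s44s_Z P L L₀))) : ↥(s44s_Z P L L₀)) ^ e := by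
    apply Subtype.ext
    have := congrArg (fun z : ↥L => (z : Kb)) hpe
    simpa using this
  -- the function over `Z`
  set f : s34m_F ↥(s44s_Z P L L₀) (M * p) := s44q_up (M * p) hLZ fL with hfdef
  have hf : s33d_IsKumGen p x (s18q_incl (M * p) (s44s_Z P L L₀) f) := by
    rw [hfdef, s44q_incl_up]
    exact hfL
  obtain ⟨hQ4₁, hQ4₂⟩ := hQ4 L₀ hLL hL₂L₀ ϖZ hϖZ
  -- the roots of unity in `Z`
  have hζpZ : ζp ∈ s44s_Z P L L₀ := hLZ (hμ ζp hζp.pow_eq_one)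
  have hζℓZ : ζℓ ∈ s44s_Z P L L₀ :=
    s44e_root_mem_Z hp.out ℓ₀.2 hℓp P hP L L₀ hζℓ.pow_eq_one hζℓL₀
  obtain ⟨ζp₀, hζp₀, -⟩ := s33t_exists_zeta (s44s_Z P L L₀) hp.out ζp hζp hζpZ
  obtain ⟨ζℓ₀, hζℓ₀, -⟩ := s33t_exists_zeta (s44s_Z P L L₀) ℓ₀.2 ζℓ hζℓ hζℓZ
  -- (G6) over `Z`
  have hglob : s44e_GlobConcl M p hpM P (s44s_Z P L L₀) ϖZ hϖZ f := by
    by_cases hd : p ∣ e
    · -- the WILD case
      obtain ⟨τ, hτ, hτp, b, hbL, hτb⟩ := s44q_exists_wild p P hP L ϖL hϖL e ε hε hεinv hpe hd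
      obtain ⟨g, hgL, r, hr, hnd, hlt⟩ := hSC.2 τ hτ hτp ⟨b, hbL, hτb⟩
      haveI hcharZ : CharP (IsLocalRing.ResidueField ↥(s18q_A0 P (s44s_Z P L L₀))) p :=
        s37rl_charP P hP _
      set σ₀ : ↥(s44s_Z P L L₀) ≃ₐ[ℚ] ↥(s44s_Z P L L₀) := s44s_resZ P L L₀ τ hτ with hσ₀
      have hσA : ∀ a : ↥(s44s_Z P L L₀), a ∈ (s37r_G P (s44s_Z P L L₀) ϖZ hϖZ).A →
          (σ₀ : ↥(s44s_Z P L L₀) ≃+* ↥(s44s_Z P L L₀)) a ∈ (s37r_G P (s44s_Z P L L₀) ϖZ hϖZ).A :=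
        fun a ha => (s44s_resZ_mem P L L₀ τ hτ a ha).1
      have hσA' : ∀ a : ↥(s44s_Z P L L₀), a ∈ (s37r_G P (s44s_Z P L L₀) ϖZ hϖZ).A →
          (σ₀.symm : ↥(s44s_Z P L L₀) ≃+* ↥(s44s_Z P L L₀)) a ∈
            (s37r_G P (s44s_Z P L L₀) ϖZ hϖZ).A :=
        fun a ha => (s44s_resZ_mem P L L₀ τ hτ a ha).2.1
      have hD2 : ∀ a : ↥(s44s_Z P L L₀), a ∈ (s37r_G P (s44s_Z P L L₀) ϖZ hϖZ).A →
          ∃ u ∈ (s37r_G P (s44s_Z P L L₀) ϖZ hϖZ).A,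
            (σ₀ : ↥(s44s_Z P L L₀) ≃+* ↥(s44s_Z P L L₀)) u = u ∧
            ∃ z ∈ (s37r_G P (s44s_Z P L L₀) ϖZ hϖZ).A,
              a - u = (((s37r_G P (s44s_Z P L L₀) ϖZ hϖZ).ϖ :
                (s37r_G P (s44s_Z P L L₀) ϖZ hϖZ).A) : ↥(s44s_Z P L L₀)) * z := by
        intro a ha
        obtain ⟨u, hu, hufix, z, hz, e1⟩ :=
          s44s_exists_inertia_fixed_Z p hp.out P hP L L₀ ϖZ hϖZ a ha
        exact ⟨u, hu, hufix τ hτ, z, hz, e1⟩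
      -- `σ₀ ^ p` fixes the uniformiser
      have hord : ((σ₀ : ↥(s44s_Z P L L₀) ≃+* ↥(s44s_Z P L L₀))^[p])
          (((s37r_G P (s44s_Z P L L₀) ϖZ hϖZ).ϖ : (s37r_G P (s44s_Z P L L₀) ϖZ hϖZ).A) :
            ↥(s44s_Z P L L₀)) =
          (((s37r_G P (s44s_Z P L L₀) ϖZ hϖZ).ϖ : (s37r_G P (s44s_Z P L L₀) ϖZ hϖZ).A) :
            ↥(s44s_Z P L L₀)) := by
        apply Subtype.ext
        rw [hσ₀, s44e_resZ_iterate P L L₀ τ hτ p]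
        exact hτp _ (ϖL : ↥L).2
      -- `σ₀` moves the uniformiser
      have hne : (σ₀ : ↥(s44s_Z P L L₀) ≃+* ↥(s44s_Z P L L₀))
          (((s37r_G P (s44s_Z P L L₀) ϖZ hϖZ).ϖ : (s37r_G P (s44s_Z P L L₀) ϖZ hϖZ).A) :
            ↥(s44s_Z P L L₀)) ≠
          (((s37r_G P (s44s_Z P L L₀) ϖZ hϖZ).ϖ : (s37r_G P (s44s_Z P L L₀) ϖZ hϖZ).A) :
            ↥(s44s_Z P L L₀)) := by
        have hb0 : b ≠ 0 := by
          rintro rfl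
          exact hτb (map_zero τ)
        rcases P.mem_or_inv_mem b with hbP | hbP
        · refine s44e_unif_moved (s37r_G P (s44s_Z P L L₀) ϖZ hϖZ) _ hσA hD2 ⟨b, hLZ hbL⟩ hbP ?_
          intro h0
          exact hτb (congrArg Subtype.val h0)
        · refine s44e_unif_moved (s37r_G P (s44s_Z P L L₀) ϖZ hϖZ) _ hσA hD2
            ⟨b⁻¹, hLZ (L.inv_mem hbL)⟩ hbP ?_
          intro h0
          have h1 : τ b⁻¹ = b⁻¹ := congrArg Subtype.val h0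
          rw [map_inv₀, inv_inj] at h1
          exact hτb h1
      obtain ⟨B, cτ, hB, hcτ0, hcτ, hσB⟩ := s44k_break (s37r_G P (s44s_Z P L L₀) ϖZ hϖZ) p
        (σ₀ : ↥(s44s_Z P L L₀) ≃+* ↥(s44s_Z P L L₀)) hσA hσA' hD2 hord hne
      -- sub-criticality from the witness
      have hg0 : g ≠ 0 := by
        rintro rfl
        rw [AddValuation.map_zero] at hr
        exact WithTop.top_ne_coe hr
      have hsub : (p - 1) * B < e := by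
        refine s44k_subcrit_of_witness (s37r_G P (s44s_Z P L L₀) ϖZ hϖZ) p P hP
          (algebraMap ↥(s44s_Z P L L₀) Kb) (fun _ => Iff.rfl) e εZ he hεZ hεZinv hεZ0 hpeZ
          (σ₀ : ↥(s44s_Z P L L₀) ≃+* ↥(s44s_Z P L L₀)) hσA hσA' B hB cτ hcτ0 hcτ hσB
          ⟨g, hLZ hgL⟩ (fun h0 => hg0 (congrArg Subtype.val h0)) r hr ?_ ?_
        · intro m s hs
          refine hnd _ ?_ s hs
          show algebraMap ↥(s44s_Z P L L₀) Kb (_ ^ m) ∈ L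
          rw [map_zpow₀]
          exact zpow_mem (ϖL : ↥L).2 m
        · have e1 : algebraMap ↥(s44s_Z P L L₀) Kb
              ((σ₀ : ↥(s44s_Z P L L₀) ≃+* ↥(s44s_Z P L L₀)) ⟨g, hLZ hgL⟩ / ⟨g, hLZ hgL⟩ - 1) =
              τ g / g - 1 := by
            rw [map_sub, map_div₀, map_one]
            rfl
          rw [e1]
          exact hlt
      have hnsq : ¬ p ^ 2 ∣ e := s44e_not_sq_dvd p P hP L ϖL e ε he hε hεinv hε0 hpe hSC.1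
      exact hW M p h5 hpM hsq P hP (s44s_Z P L L₀) ϖZ hϖZ e εZ he hεZ hεZinv hεZ0 hpeZ hnsq
        ζp₀ hζp₀ ℓ₀ hℓ₀ ζℓ₀ hζℓ₀ x hpx hα hβ a₀ hTx ha₀ f hf hQ4₁ hQ4₂ σ₀ hσA hσA' B hB hsub hσB
        cτ hcτ hcτ0
    · -- the TAME case
      exact hT M p h5 hpM hsq P hP (s44s_Z P L L₀) ϖZ hϖZ e εZ he hεZ hεZinv hεZ0 hpeZ hd
        ζp₀ hζp₀ ℓ₀ hℓ₀ ζℓ₀ hζℓ₀ x hpx hα hβ a₀ hTx ha₀ f hf hQ4₁ hQ4₂
  obtain ⟨Gg, h, a, hGg, efh, hO, hN⟩ := hglob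
  exact s44e_finite_up_glob M p hpM P hZL₀ ϖZ hϖZ ϖ hϖ x f Gg h a hf hGg efh hO hN

/-- **[L3] in the Iface (v4) spelling.** -/
theorem s44e_star_iface (hW : s44e_FieldWild) (hT : s44e_FieldTame) : s44i_Star :=
  s44e_star hW hT

end Fermat.Agent.Lib.S44
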