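/-
M-AT-P programme (S44), wall W3 = (★)-core (owner: helper4), part 2: FROM LOCAL FACTORISATIONS TO THE
DECOMPOSITIONS OF THE GLOBAL `p`-TH ROOT.  ABSTRACT (Σ-datum of `Lib/S33/CritSs`), no modular curve.

* `s44c_Val D n x`       : `x = ϖ ^ n · (unit of O)` — the Gauss valuation of `x` in the component `D` is `n`;
                           multiplicativity, uniqueness, existence;
* `s44c_Wild G b cτ`     : the automorphism of inertia type `G` is WILD OF BREAK `b` on the component: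
                           `G x ≡ x mod ϖ ^ (b + 1) O` for `x ∈ O`, and `G ϖ / ϖ ≡ 1 + cτ ϖ ^ b mod ϖ ^ (b + 1)`;
* `s44c_first_order`     : **(ii), first-order wild congruence**: `s44c_Val D n φ ⇒
                           G φ / φ ≡ 1 mod ϖ ^ b` with leading term the CONSTANT `n̄ · c̄τ`;
* `s44c_FirstOrder G b c̄` : (ii) AS A HYPOTHESIS (the shape of helper7's `s44k_fd_cong_lead`); everything
                           below only uses this predicate (`s44c_Wild.firstOrder` provides it);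
* `s44c_NodeFact`, `s44c_SmoothFact` : the local factorisations `f = φ ^ p · E` ([RAT]'s output: at a node `s`,
                           `G E / E` a unit at the places through `s` and `(ni s, nz s)` the Gauss valuations of
                           `φ` in the two components; at another closed point `z` of the component `C`,
                           `V_C φ = 0` and `G F / F` a unit at the places through `z`);
* `s44c_nodeDec_of_fact`, `s44c_smoothDec_of_fact` : for `a ^ p · h = c · (G f / f)`, `h` node-avoiding and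
                           `h ≡ 1 mod ϖ ^ (p b + 1)`: the predicates `s44c_NodeDec`, `s44c_SmoothDec` of `CoreRoot`;
* `s44c_normalise`       : some constant multiple of `a` is `≡ 1 mod ϖ` in both components;
* **`s44c_slope_core`**  : THE SLOPE LEMMA, first-order core: `p ∣ (nz s - ni s) - (nz s' - ni s')` for all
                           nodes `s, s'` (`d_s = V_0 φ_s - V_∞ φ_s` is constant modulo `p`).
-/
import Fermat.Agent.Lib.S44.CoreRoot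

set_option autoImplicit false
set_option linter.style.haveILetI false

noncomputable section

namespace Fermat.Agent.Lib.S44

open AlgebraicCurve Fermat.Agent.Lib.FF Fermat.Agent.Lib.S33

/-! ### The Gauss valuation of one component, as a predicate -/

section Val

variable {L₀ 𝓕 κ Fb : Type*} [Field L₀] [Field 𝓕] [Algebra L₀ 𝓕] [Field κ] [Field Fb] [Algebra κ Fb]
variable (D : s33f_Datum L₀ 𝓕 κ Fb)

/-- `x = ϖ ^ n · u`, `u` a unit of the Gauss valuation ring. -/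
def s44c_Val (n : ℤ) (x : 𝓕) : Prop :=
  ∃ u : 𝓕, u ≠ 0 ∧ u ∈ D.O ∧ u⁻¹ ∈ D.O ∧ x = s33f_pi D ^ n * u

variable {D}

theorem s44c_Val.ne_zero {n : ℤ} {x : 𝓕} (h : s44c_Val D n x) : x ≠ 0 := by
  obtain ⟨u, hu0, -, -, rfl⟩ := h
  exact mul_ne_zero (zpow_ne_zero _ (s33f_pi_ne_zero D)) hu0

theorem s44c_val_one : s44c_Val D 0 (1 : 𝓕) :=
  ⟨1, one_ne_zero, D.O.one_mem, by rw [inv_one]; exact D.O.one_mem, by rw [zpow_zero, one_mul]⟩

theorem s44c_val_of_unit {u : 𝓕} (hu0 : u ≠ 0) (hu : u ∈ D.O) (hu' : u⁻¹ ∈ D.O) : s44c_Val D 0 u :=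
  ⟨u, hu0, hu, hu', by rw [zpow_zero, one_mul]⟩

theorem s44c_Val.mul {n m : ℤ} {x y : 𝓕} (hx : s44c_Val D n x) (hy : s44c_Val D m y) :
    s44c_Val D (n + m) (x * y) := by
  obtain ⟨u, hu0, hu, hu', rfl⟩ := hx
  obtain ⟨v, hv0, hv, hv', rfl⟩ := hy
  refine ⟨u * v, mul_ne_zero hu0 hv0, D.O.mul_mem _ _ hu hv, ?_, ?_⟩
  · rw [mul_inv]
    exact D.O.mul_mem _ _ hu' hv'
  · rw [zpow_add₀ (s33f_pi_ne_zero D)]
    ring

theorem s44c_Val.inv {n : ℤ} {x : 𝓕} (hx : s44c_Val D n x) : s44c_Val D (-n) x⁻¹ := by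
  obtain ⟨u, hu0, hu, hu', rfl⟩ := hx
  refine ⟨u⁻¹, inv_ne_zero hu0, hu', by rw [inv_inv]; exact hu, ?_⟩
  rw [mul_inv, zpow_neg]

theorem s44c_Val.pow {n : ℤ} {x : 𝓕} (hx : s44c_Val D n x) (j : ℕ) :
    s44c_Val D ((j : ℤ) * n) (x ^ j) := by
  induction j with
  | zero => rw [pow_zero, Nat.cast_zero, zero_mul]; exact s44c_val_one
  | succ j ih =>
    rw [pow_succ]
    have := ih.mul hx
    have e : ((j + 1 : ℕ) : ℤ) * n = (j : ℤ) * n + n := by push_cast; ring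
    rw [e]
    exact this

/-- a positive power of `ϖ` is not a unit of `O`. -/
theorem s44c_pi_zpow_not_unit {j : ℤ} (hj : 0 < j) : (s33f_pi D ^ j)⁻¹ ∉ D.O := by
  intro h
  obtain ⟨i, rfl⟩ : ∃ i : ℕ, j = (i : ℤ) + 1 := ⟨(j - 1).toNat, by omega⟩
  apply D.ϖ_not_unit
  have e : (algebraMap L₀ 𝓕 D.ϖ)⁻¹ = (s33f_pi D ^ ((i : ℤ) + 1))⁻¹ * s33f_pi D ^ i := by
    have h0 := s33f_pi_ne_zero D
    rw [zpow_add₀ h0, zpow_one, zpow_natCast]
    unfold s33f_pi at h0 ⊢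
    field_simp
  rw [e]
  exact D.O.mul_mem _ _ h (s33f_pi_pow_mem D i)

theorem s44c_Val.le_of {n m : ℤ} {x : 𝓕} (hx : s44c_Val D n x) (hy : s44c_Val D m x) : n ≤ m := by
  by_contra hlt
  rw [not_le] at hlt
  obtain ⟨u, hu0, hu, hu', rfl⟩ := hx
  obtain ⟨v, hv0, hv, hv', e⟩ := hy
  -- `ϖ ^ (n - m) = v / u` is a unit
  apply s44c_pi_zpow_not_unit (D := D) (j := n - m) (by omega)
  have h0 := s33f_pi_ne_zero D
  have e' : (s33f_pi D ^ (n - m))⁻¹ = u * v⁻¹ := by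
    rw [zpow_sub₀ h0]
    have hm : s33f_pi D ^ m ≠ 0 := zpow_ne_zero _ h0
    have hn : s33f_pi D ^ n ≠ 0 := zpow_ne_zero _ h0
    field_simp
    rw [e]
  rw [e']
  exact D.O.mul_mem _ _ hu hv'

theorem s44c_Val.unique {n m : ℤ} {x : 𝓕} (hx : s44c_Val D n x) (hy : s44c_Val D m x) : n = m :=
  le_antisymm (hx.le_of hy) (hy.le_of hx)

/-- every non-zero function has a Gauss valuation. -/
theorem s44c_exists_val {x : 𝓕} (hx : x ≠ 0) : ∃ n : ℤ, s44c_Val D n x := by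
  have key : ∀ y : 𝓕, y ∈ D.O → y ≠ 0 → ∃ n : ℤ, s44c_Val D n y := by
    intro y hy hy0
    obtain ⟨j, v, hv, hv', e⟩ := D.unif y hy hy0
    have hv0 : v ≠ 0 := by
      rintro rfl
      rw [mul_zero] at e
      exact hy0 e
    exact ⟨(j : ℤ), v, hv0, hv, hv', by rw [zpow_natCast]; exact e⟩
  rcases D.O.mem_or_inv_mem x with h | h
  · exact key x h hx
  · obtain ⟨n, hn⟩ := key x⁻¹ h (inv_ne_zero hx)
    refine ⟨-n, ?_⟩
    have := hn.inv
    rwa [inv_inv] at this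

/-- the Gauss valuation of a constant does not depend on the component: it is the valuation of `A₀`. -/
theorem s44c_val_const_iff {c : L₀} {n : ℤ} :
    s44c_Val D n (algebraMap L₀ 𝓕 c) ↔ c ≠ 0 ∧ c * (D.ϖ ^ n)⁻¹ ∈ D.A₀ ∧ (c * (D.ϖ ^ n)⁻¹)⁻¹ ∈ D.A₀ := by
  have h0 := s33f_pi_ne_zero D
  have hpi : s33f_pi D ^ n = algebraMap L₀ 𝓕 (D.ϖ ^ n) := by
    unfold s33f_pi
    rw [map_zpow₀]
  constructor
  · rintro ⟨u, hu0, hu, hu', e⟩
    have hc : c ≠ 0 := by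
      rintro rfl
      rw [map_zero] at e
      exact (mul_ne_zero (zpow_ne_zero _ h0) hu0) e.symm
    have hu_eq : u = algebraMap L₀ 𝓕 (c * (D.ϖ ^ n)⁻¹) := by
      rw [map_mul, map_inv₀, ← hpi, e]
      field_simp
    refine ⟨hc, ?_, ?_⟩
    · rw [← D.const_mem_iff, ← hu_eq]
      exact hu
    · rw [← D.const_mem_iff, map_inv₀, ← hu_eq]
      exact hu'
  · rintro ⟨hc, h1, h2⟩
    refine ⟨algebraMap L₀ 𝓕 (c * (D.ϖ ^ n)⁻¹), ?_, (D.const_mem_iff _).mpr h1, ?_, ?_⟩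
    · rw [Ne, map_eq_zero_iff _ (algebraMap L₀ 𝓕).injective]
      exact mul_ne_zero hc (inv_ne_zero (zpow_ne_zero _ D.ϖ_ne_zero))
    · rw [← map_inv₀]
      exact (D.const_mem_iff _).mpr h2
    · rw [hpi, ← map_mul]
      congr 1
      have : D.ϖ ^ n ≠ 0 := zpow_ne_zero _ D.ϖ_ne_zero
      field_simp

end Val

/-! ### (ii): the first-order wild congruence -/

section Wild

variable {L₀ 𝓕 κ Fb : Type*} [Field L₀] [Field 𝓕] [Algebra L₀ 𝓕] [Field κ] [Field Fb] [Algebra κ Fb]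
variable {D : s33f_Datum L₀ 𝓕 κ Fb}

/-- **`G` is wild of (lower) break `b` on the component `D`, with first-order constant `cτ`**:
`G x ≡ x mod ϖ ^ (b + 1) O` on `O`, and `G ϖ / ϖ = 1 + ϖ ^ b (cτ + ϖ r)`. -/
structure s44c_Wild (G : s33f_GalAut D) (b : ℕ) (cτ : D.A₀) : Prop where
  res : ∀ x ∈ D.O, s33f_Cong D (b + 1) (G.s x) x
  unif : ∃ r ∈ D.A₀, G.w = 1 + D.ϖ ^ b * ((cτ : L₀) + D.ϖ * r)

/-- leading term of an integral power. -/
theorem s44c_lead_zpow {a : ℕ} (ha : 1 ≤ a) {f : 𝓕} (h : s33f_Cong D a f 1) (n : ℤ) :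
    s33f_Cong D a (f ^ n) 1 ∧ s33f_lead D a (f ^ n) = (n : Fb) * s33f_lead D a f := by
  cases n with
  | ofNat n =>
    rw [Int.ofNat_eq_natCast, zpow_natCast, Int.cast_natCast]
    exact ⟨h.pow₁ n, s33f_lead_npow ha h n⟩
  | negSucc n =>
    rw [zpow_negSucc]
    refine ⟨(h.pow₁ (n + 1)).inv₁ ha, ?_⟩
    rw [s33f_lead_inv ha (h.pow₁ (n + 1)), s33f_lead_npow ha h (n + 1), Int.cast_negSucc]
    push_cast
    ring

/-- the first difference of a unit of `O` is `≡ 1 mod ϖ ^ (b + 1)`. -/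
theorem s44c_fd_unit {G : s33f_GalAut D} {b : ℕ} {cτ : D.A₀} (hW : s44c_Wild G b cτ) {u : 𝓕}
    (hu0 : u ≠ 0) (hu : u ∈ D.O) (hu' : u⁻¹ ∈ D.O) : s33f_Cong D (b + 1) (G.s u / u) 1 := by
  obtain ⟨z, hz, e⟩ := hW.res u hu
  refine ⟨z * u⁻¹, D.O.mul_mem _ _ hz hu', ?_⟩
  have : G.s u / u - 1 = (G.s u - u) * u⁻¹ := by field_simp
  rw [this, e]
  ring

/-- **(ii), the first-order wild congruence**: if `φ` has Gauss valuation `n` in the component then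
`G φ / φ ≡ 1 mod ϖ ^ b` with leading term the constant `n̄ · c̄τ`. -/
theorem s44c_first_order {G : s33f_GalAut D} {b : ℕ} {cτ : D.A₀} (hb : 1 ≤ b)
    (hW : s44c_Wild G b cτ) {n : ℤ} {φ : 𝓕} (hφ : s44c_Val D n φ) :
    s33f_Cong D b (G.s φ / φ) 1 ∧
      s33f_lead D b (G.s φ / φ) = algebraMap κ Fb ((n : κ) * D.resA cτ) := by
  obtain ⟨u, hu0, hu, hu', rfl⟩ := hφ
  obtain ⟨r, hr, ew⟩ := hW.unif
  have h0 := s33f_pi_ne_zero D
  -- the constant `w = G ϖ / ϖ`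
  let γ : D.A₀ := ⟨(cτ : L₀) + D.ϖ * r, D.A₀.add_mem _ _ cτ.2 (D.A₀.mul_mem _ _ D.ϖ_mem hr)⟩
  have hγ : D.resA γ = D.resA cτ := by
    have : γ = cτ + ⟨D.ϖ, D.ϖ_mem⟩ * ⟨r, hr⟩ := Subtype.ext rfl
    rw [this, map_add, map_mul, s33f_resA_unif, zero_mul, add_zero]
  have hwγ : G.w = 1 + D.ϖ ^ b * (γ : L₀) := ew
  obtain ⟨hwc, hwl, -⟩ := s33z_const_corr D hb γ
  rw [← hwγ] at hwc hwl
  obtain ⟨hzc, hzl⟩ := s44c_lead_zpow hb hwc n
  -- the unit part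
  have huc1 : s33f_Cong D (b + 1) (G.s u / u) 1 := s44c_fd_unit hW hu0 hu hu'
  have huc : s33f_Cong D b (G.s u / u) 1 := huc1.mono (Nat.le_succ b)
  have hul : s33f_lead D b (G.s u / u) = 0 := s33f_lead_of_cong_succ huc1
  -- the decomposition
  have e : G.s (s33f_pi D ^ n * u) / (s33f_pi D ^ n * u) =
      algebraMap L₀ 𝓕 G.w ^ n * (G.s u / u) := by
    rw [map_mul, map_zpow₀, s33f_gal_pi, mul_zpow]
    have hn : s33f_pi D ^ n ≠ 0 := zpow_ne_zero _ h0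
    field_simp
  rw [e]
  refine ⟨hzc.mul₁ huc, ?_⟩
  rw [s33f_lead_mul hb hzc huc, hzl, hul, hwl, hγ, add_zero, map_mul, map_intCast]

/-- **(ii) as a hypothesis**: the first-order congruence of `G` at depth `b` with constant `c̄ ∈ κ`
(this is the shape of helper7's `s44k_fd_cong_lead`). -/
def s44c_FirstOrder (G : s33f_GalAut D) (b : ℕ) (cbar : κ) : Prop :=
  ∀ (n : ℤ) (φ : 𝓕), s44c_Val D n φ →
    s33f_Cong D b (G.s φ / φ) 1 ∧ s33f_lead D b (G.s φ / φ) = algebraMap κ Fb ((n : κ) * cbar)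

theorem s44c_Wild.firstOrder {G : s33f_GalAut D} {b : ℕ} {cτ : D.A₀} (hW : s44c_Wild G b cτ)
    (hb : 1 ≤ b) : s44c_FirstOrder G b (D.resA cτ) :=
  fun _ _ hφ => s44c_first_order hb hW hφ

/-- for a function of Gauss valuation `0` the first difference is `≡ 1 mod ϖ ^ (b + 1)`. -/
theorem s44c_FirstOrder.cong_succ {G : s33f_GalAut D} {b : ℕ} {cbar : κ}
    (h : s44c_FirstOrder G b cbar) {φ : 𝓕} (hφ : s44c_Val D 0 φ) :
    s33f_Cong D (b + 1) (G.s φ / φ) 1 := by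
  obtain ⟨hc, hl⟩ := h 0 φ hφ
  rw [Int.cast_zero, zero_mul, map_zero] at hl
  exact (s33f_lead_eq_zero_iff hc).mp hl

end Wild

/-! ### From local factorisations to the decompositions of the global `p`-th root -/

section Dec

variable {L₀ 𝓕' κ Fb : Type*} [Field L₀] [Field 𝓕'] [Algebra L₀ 𝓕'] [Field κ] [Field Fb] [Algebra κ Fb]
variable {D' : s33f_Datum L₀ 𝓕' κ Fb} {𝓕 : Type*} [Field 𝓕] [Algebra L₀ 𝓕]

/-- **the factorisation at the closed points of a component outside the nodes**: `f = φ ^ p · F` with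
`V_C φ = 0` and `σ F / F` a unit at the places through the point. -/
def s44c_SmoothFact (C : s33z_Comp D' 𝓕) {P : Type*} (X : s44c_Pts C P) (σ : 𝓕 ≃+* 𝓕) (f : 𝓕) :
    Prop :=
  ∀ z : P, ∃ φ F : 𝓕, f = φ ^ D'.p * F ∧ s44c_Val C.datum 0 φ ∧ s44c_Unit (X.N z) (σ F / F)

/-- sub-critical arithmetic: `(p - 1) b < e ⇒ p b + 1 ≤ e + (b + 1)`. -/
theorem s44c_pb_le {p b e : ℕ} (hp : 1 ≤ p) (hsub : (p - 1) * b < e) : p * b + 1 ≤ e + (b + 1) := by
  have h : p * b = (p - 1) * b + b := by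
    obtain ⟨q, rfl⟩ : ∃ q, p = q + 1 := ⟨p - 1, by omega⟩
    rw [Nat.add_sub_cancel]
    ring
  omega

/-- **`SmoothDec` from the factorisations**. -/
theorem s44c_smoothDec_of_fact (C : s33z_Comp D' 𝓕) {P : Type*} (X : s44c_Pts C P)
    (G : s33f_GalAut C.datum) {b : ℕ} {cbar : κ} (hsub : (D'.p - 1) * b < D'.e)
    (hW : s44c_FirstOrder G b cbar) {f h a : 𝓕} {c : L₀} (hc : c ≠ 0)
    (hh : s33f_Cong C.datum (D'.p * b + 1) h 1)
    (heq : a ^ D'.p * h = algebraMap L₀ 𝓕 c * (G.s f / f))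
    (hfact : s44c_SmoothFact C X G.s f) : s44c_SmoothDec C X b a := by
  intro z
  obtain ⟨φ, F, ef, hφ, hF⟩ := hfact z
  have hp := D'.p_prime
  have hpb1 : 1 ≤ D'.p * b + 1 := Nat.le_add_left _ _
  have hh0 : h ≠ 0 := s33f_ne_zero_of_cong_one hpb1 hh
  have hφ0 : φ ≠ 0 := hφ.ne_zero
  have hsφ0 : G.s φ ≠ 0 := (map_ne_zero_iff _ G.s.injective).mpr hφ0
  -- `G φ / φ ≡ 1 mod ϖ ^ (b + 1)`
  obtain ⟨x, hx, ex⟩ := hW.cong_succ hφ
  have ex' : G.s φ / φ = 1 + s33f_pi C.datum ^ (b + 1) * x := by rw [← ex]; ring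
  have hpow : s33f_Cong C.datum (D'.p * b + 1) ((G.s φ / φ) ^ D'.p) 1 := by
    rw [ex']
    refine s33f_cong_pow_one (D := C.datum) (b + 1) hx ?_ ?_
    · change D'.p * b + 1 ≤ D'.p * (b + 1)
      have := hp.one_le
      rw [Nat.mul_succ]
      omega
    · exact s44c_pb_le hp.one_le hsub
  refine ⟨(G.s φ / φ) ^ D'.p * h⁻¹, algebraMap L₀ 𝓕 c * (G.s F / F), ?_,
    (s44c_unit_const hc).mul hF, hpow.mul₁ (hh.inv₁ hpb1)⟩
  have hF0 : F ≠ 0 := by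
    intro h0
    exact hF.1 (by rw [h0, map_zero, zero_div])
  have e1 : a ^ D'.p = algebraMap L₀ 𝓕 c * (G.s f / f) * h⁻¹ := by
    rw [← heq]
    field_simp
  rw [e1, ef, map_mul, map_pow, div_pow]
  field_simp

variable {ι : Type*} {k : ι → Type*} [∀ s, Field (k s)] [∀ s, Algebra κ (k s)]
variable (Z : s33z_Datum D' 𝓕 ι k)

/-- **the factorisation at the nodes**: `f = φ ^ p · E`, `(ni s, nz s)` the Gauss valuations of `φ` in the
two components, `σ E / E` a unit at the places through `s`. -/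
def s44c_NodeFact (Ns : ι → Set (Place L₀ 𝓕)) (σ : 𝓕 ≃+* 𝓕) (f : 𝓕) (ni nz : ι → ℤ) : Prop :=
  ∀ s : ι, ∃ φ E : 𝓕, f = φ ^ D'.p * E ∧ s44c_Val Z.Di (ni s) φ ∧ s44c_Val Z.Dz (nz s) φ ∧
    s44c_Unit (Ns s) (σ E / E)

variable {Z}

/-- **`NodeDec` from the factorisations**. -/
theorem s44c_nodeDec_of_fact {Ns : ι → Set (Place L₀ 𝓕)} (G : s33z_GalAut Z) {b : ℕ}
    {cbar : κ} (hWi : s44c_FirstOrder G.Gi b cbar) (hWz : s44c_FirstOrder G.Gz b cbar)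
    {f h a : 𝓕} {c : L₀} (hc : c ≠ 0) (ha : a ≠ 0) (hh : ∀ s, s44c_Unit (Ns s) h)
    (heq : a ^ D'.p * h = algebraMap L₀ 𝓕 c * (G.s f / f)) {ni nz : ι → ℤ}
    (hfact : s44c_NodeFact Z Ns G.s f ni nz) :
    s44c_NodeDec Z Ns b (fun s => (ni s : κ) * cbar) (fun s => (nz s : κ) * cbar) a := by
  intro s
  obtain ⟨φ, E, ef, hφi, hφz, hE⟩ := hfact s
  have hp := D'.p_prime
  have hφ0 : φ ≠ 0 := hφi.ne_zero
  have hsφ0 : G.s φ ≠ 0 := (map_ne_zero_iff _ G.s.injective).mpr hφ0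
  have hg0 : G.s φ / φ ≠ 0 := div_ne_zero hsφ0 hφ0
  obtain ⟨c1, l1⟩ := hWi _ _ hφi
  obtain ⟨c2, l2⟩ := hWz _ _ hφz
  have hh0 : h ≠ 0 := (hh s).1
  have hE0 : E ≠ 0 := by
    intro h0
    exact hE.1 (by rw [h0, map_zero, zero_div])
  refine ⟨G.s φ / φ, a * (G.s φ / φ)⁻¹, by field_simp, ⟨mul_ne_zero ha (inv_ne_zero hg0), ?_⟩,
    ⟨c1, c2⟩, l1, l2⟩
  -- the `p`-th power of `w` is a unit at the places through `s`
  have hwp : (a * (G.s φ / φ)⁻¹) ^ D'.p = algebraMap L₀ 𝓕 c * (G.s E / E) * h⁻¹ := by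
    have e1 : a ^ D'.p = algebraMap L₀ 𝓕 c * (G.s f / f) * h⁻¹ := by
      rw [← heq]
      field_simp
    rw [mul_pow, e1, ef, map_mul, map_pow, inv_pow, div_pow]
    field_simp
  have hU : s44c_Unit (Ns s) ((a * (G.s φ / φ)⁻¹) ^ D'.p) := by
    rw [hwp]
    exact ((s44c_unit_const hc).mul hE).mul (hh s).inv
  intro Q hQ
  have h1 := hU.2 Q hQ
  rw [← zpow_natCast, Q.ord_zpow] at h1
  rcases mul_eq_zero.mp h1 with h2 | h2
  · exact absurd (by exact_mod_cast h2) hp.ne_zero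
  · exact h2

end Dec

/-! ### Normalisation of the global `p`-th root, and the slope lemma -/

section Norm

variable {L₀ 𝓕 κ Fb : Type*} [Field L₀] [Field 𝓕] [Algebra L₀ 𝓕] [Field κ] [Field Fb] [Algebra κ Fb]
variable {D : s33f_Datum L₀ 𝓕 κ Fb}

/-- one component: if `u ^ p = c₁ ε` with `ε ≡ 1 mod ϖ` and `c₁ ∈ A₀`, the reduction of `u` is the constant
`d`, `d ^ p = c̄₁`. -/
theorem s44c_red_root {u ε : 𝓕} {c₁ : D.A₀} {d : κ} (hu : u ∈ D.O) (hε : s33f_Cong D 1 ε 1)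
    (e : u ^ D.p = algebraMap L₀ 𝓕 (c₁ : L₀) * ε) (hd : d ^ D.p = D.resA c₁) :
    s33f_redX D u = algebraMap κ Fb d := by
  haveI : Fact D.p.Prime := ⟨D.p_prime⟩
  haveI : CharP Fb D.p := s33f_charP_Fb D
  apply frobenius_inj Fb D.p
  change s33f_redX D u ^ D.p = algebraMap κ Fb d ^ D.p
  rw [← s33f_redX_pow hu, e, s33f_redX_mul (s33f_const_mem D c₁) hε.mem_one, s33f_redX_const,
    s33f_redX_cong_one le_rfl hε, mul_one, ← map_pow, hd]

/-- one component: `Val n a`, `a ^ p = c ε`, `ε ≡ 1`: the constant `c` has valuation `p n`. -/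
theorem s44c_val_const_of_pow {a ε : 𝓕} {c : L₀} {n : ℤ} (ha : s44c_Val D n a)
    (hε : s33f_Cong D 1 ε 1) (e : a ^ D.p = algebraMap L₀ 𝓕 c * ε) :
    s44c_Val D ((D.p : ℤ) * n) (algebraMap L₀ 𝓕 c) := by
  have hε0 : ε ≠ 0 := s33f_ne_zero_of_cong_one le_rfl hε
  have hεv : s44c_Val D 0 ε := s44c_val_of_unit hε0 hε.mem_one (s33f_inv_mem_of_cong_one le_rfl hε)
  have h1 := (ha.pow D.p).mul hεv.inv
  have e' : a ^ D.p * ε⁻¹ = algebraMap L₀ 𝓕 c := by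
    rw [e]
    field_simp
  rw [e', neg_zero, add_zero] at h1
  exact h1

end Norm

section Slope

variable {L₀ 𝓕' κ Fb : Type*} [Field L₀] [Field 𝓕'] [Algebra L₀ 𝓕'] [Field κ] [Field Fb] [Algebra κ Fb]
variable {D' : s33f_Datum L₀ 𝓕' κ Fb} {𝓕 : Type*} [Field 𝓕] [Algebra L₀ 𝓕]
variable {ι : Type*} {k : ι → Type*} [∀ s, Field (k s)] [∀ s, Algebra κ (k s)]
variable {Z : s33z_Datum D' 𝓕 ι k}

/-- **normalisation**: if `a ^ p = c ε` with `ε ≡ 1 mod ϖ` in both components, some constant multiple of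
`a` is `≡ 1 mod ϖ` in both components. -/
theorem s44c_normalise_aux {a ε : 𝓕} {c : L₀} (ha : a ≠ 0) (hε : s33z_Cong Z 1 ε)
    (e : a ^ D'.p = algebraMap L₀ 𝓕 c * ε) :
    ∃ c' : L₀, c' ≠ 0 ∧ s33z_Cong Z 1 (algebraMap L₀ 𝓕 c' * a) := by
  have hp := D'.p_prime
  obtain ⟨vi, hvi⟩ := s44c_exists_val (D := Z.Di) ha
  obtain ⟨vz, hvz⟩ := s44c_exists_val (D := Z.Dz) ha
  have hci := s44c_val_const_of_pow (D := Z.Di) hvi hε.1 e
  have hcz := s44c_val_const_of_pow (D := Z.Dz) hvz hε.2 e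
  -- the valuation of the constant `c` does not depend on the component
  have hci' : s44c_Val Z.Dz ((D'.p : ℤ) * vi) (algebraMap L₀ 𝓕 c) :=
    (s44c_val_const_iff (D := Z.Dz)).mpr ((s44c_val_const_iff (D := Z.Di)).mp hci)
  have hv : vi = vz := by
    have h1 := hci'.unique hcz
    have hp0 : (D'.p : ℤ) ≠ 0 := by exact_mod_cast hp.ne_zero
    exact mul_left_cancel₀ hp0 h1
  subst hv
  obtain ⟨hc0, hc1, hc1'⟩ := (s44c_val_const_iff (D := Z.Di)).mp hci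
  -- the common unit part
  obtain ⟨u, hu0, hui, hui', eu⟩ := hvi
  obtain ⟨u', -, huz, huz', eu'⟩ := hvz
  have hπ0 : s33z_pi Z ≠ 0 := s33z_pi_ne_zero
  have huu : u = u' := by
    have h1 : s33f_pi Z.Di ^ vi * u = s33f_pi Z.Dz ^ vi * u' := eu.symm.trans eu'
    rw [s33z_pi_i, s33z_pi_z] at h1
    exact mul_left_cancel₀ (zpow_ne_zero _ hπ0) h1
  subst huu
  rw [s33z_pi_i] at eu
  -- `u ^ p = c₁ ε`
  let c₁ : D'.A₀ := ⟨c * (D'.ϖ ^ ((D'.p : ℤ) * vi))⁻¹, hc1⟩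
  have hpi : s33z_pi Z ^ ((D'.p : ℤ) * vi) = algebraMap L₀ 𝓕 (D'.ϖ ^ ((D'.p : ℤ) * vi)) := by
    unfold s33z_pi
    rw [map_zpow₀]
  have eup : u ^ D'.p = algebraMap L₀ 𝓕 (c₁ : L₀) * ε := by
    have h1 : a ^ D'.p = s33z_pi Z ^ ((D'.p : ℤ) * vi) * u ^ D'.p := by
      rw [eu, mul_pow, ← zpow_natCast, ← zpow_mul, mul_comm vi]
    have h2 : s33z_pi Z ^ ((D'.p : ℤ) * vi) ≠ 0 := zpow_ne_zero _ hπ0
    have h3 : u ^ D'.p = (s33z_pi Z ^ ((D'.p : ℤ) * vi))⁻¹ * (algebraMap L₀ 𝓕 c * ε) := by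
      rw [← e, h1, ← mul_assoc, inv_mul_cancel₀ h2, one_mul]
    rw [h3, hpi, ← map_inv₀, ← mul_assoc, ← map_mul]
    congr 2
    exact mul_comm _ _
  -- the residue constant and its `p`-th root
  obtain ⟨d, hd⟩ := D'.κ_perfect (D'.resA c₁)
  have hd0 : d ≠ 0 := by
    rintro rfl
    rw [zero_pow hp.ne_zero] at hd
    have hunit : D'.resA c₁ * D'.resA ⟨(c * (D'.ϖ ^ ((D'.p : ℤ) * vi))⁻¹)⁻¹, hc1'⟩ = 1 := by
      rw [← map_mul]
      have : c₁ * ⟨(c * (D'.ϖ ^ ((D'.p : ℤ) * vi))⁻¹)⁻¹, hc1'⟩ = (1 : D'.A₀) := Subtype.ext (by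
        change c * (D'.ϖ ^ ((D'.p : ℤ) * vi))⁻¹ * (c * (D'.ϖ ^ ((D'.p : ℤ) * vi))⁻¹)⁻¹ = 1
        have : c * (D'.ϖ ^ ((D'.p : ℤ) * vi))⁻¹ ≠ 0 :=
          mul_ne_zero hc0 (inv_ne_zero (zpow_ne_zero _ D'.ϖ_ne_zero))
        exact mul_inv_cancel₀ this)
      rw [this, map_one]
    rw [← hd, zero_mul] at hunit
    exact zero_ne_one hunit
  have ri : s33f_redX Z.Di u = algebraMap κ Fb d := s44c_red_root (D := Z.Di) hui hε.1 eup hd
  have rz : s33f_redX Z.Dz u = algebraMap κ Fb d := s44c_red_root (D := Z.Dz) huz hε.2 eup hd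
  obtain ⟨d', hd'⟩ := D'.resA_surjective d⁻¹
  have hd'0 : (d' : L₀) ≠ 0 := by
    intro h0
    have : d' = 0 := Subtype.ext h0
    rw [this, map_zero] at hd'
    exact inv_ne_zero hd0 hd'.symm
  refine ⟨(d' : L₀) * (D'.ϖ ^ vi)⁻¹, mul_ne_zero hd'0 (inv_ne_zero (zpow_ne_zero _ D'.ϖ_ne_zero)), ?_⟩
  have ea : algebraMap L₀ 𝓕 ((d' : L₀) * (D'.ϖ ^ vi)⁻¹) * a = algebraMap L₀ 𝓕 (d' : L₀) * u := by
    have hpi' : s33z_pi Z ^ vi = algebraMap L₀ 𝓕 (D'.ϖ ^ vi) := by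
      unfold s33z_pi
      rw [map_zpow₀]
    rw [eu, hpi', map_mul, map_inv₀]
    have : algebraMap L₀ 𝓕 (D'.ϖ ^ vi) ≠ 0 := by
      rw [← hpi']
      exact zpow_ne_zero _ hπ0
    field_simp
  rw [ea]
  have key : ∀ (D : s33f_Datum L₀ 𝓕 κ Fb) (d'' : D.A₀), D.resA d'' = d⁻¹ → u ∈ D.O →
      s33f_redX D u = algebraMap κ Fb d → s33f_Cong D 1 (algebraMap L₀ 𝓕 (d'' : L₀) * u) 1 := by
    intro D d'' h1 hu hr
    have hm : algebraMap L₀ 𝓕 (d'' : L₀) * u ∈ D.O := D.O.mul_mem _ _ (s33f_const_mem D d'') hu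
    rw [← s33f_redX_eq_iff hm D.O.one_mem, s33f_redX_one, s33f_redX_mul (s33f_const_mem D d'') hu,
      s33f_redX_const, hr, h1, ← map_mul, inv_mul_cancel₀ hd0, map_one]
  exact ⟨key Z.Di d' hd' hui ri, key Z.Dz d' hd' huz rz⟩

/-- **normalisation of the global `p`-th root**. -/
theorem s44c_normalise (G : s33z_GalAut Z) {b : ℕ} {cbar : κ} (hb : 1 ≤ b)
    (hWi : s44c_FirstOrder G.Gi b cbar) (hWz : s44c_FirstOrder G.Gz b cbar) {f h a : 𝓕} {c : L₀}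
    (hf : f ≠ 0)
    (ha : a ≠ 0) (hh : s33z_Cong Z 1 h)
    (heq : a ^ D'.p * h = algebraMap L₀ 𝓕 c * (G.s f / f)) :
    ∃ c' : L₀, c' ≠ 0 ∧ s33z_Cong Z 1 (algebraMap L₀ 𝓕 c' * a) := by
  obtain ⟨ni, hni⟩ := s44c_exists_val (D := Z.Di) hf
  obtain ⟨nz, hnz⟩ := s44c_exists_val (D := Z.Dz) hf
  obtain ⟨c1, -⟩ := hWi _ _ hni
  obtain ⟨c2, -⟩ := hWz _ _ hnz
  have hfd : s33z_Cong Z 1 (G.s f / f) := ⟨c1.mono hb, c2.mono hb⟩
  have hh0 : h ≠ 0 := s33f_ne_zero_of_cong_one le_rfl hh.1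
  refine s44c_normalise_aux (c := c) ha (hfd.mul (hh.inv le_rfl)) ?_
  rw [← mul_assoc, ← heq]
  field_simp

variable {Pi Pz : Type*} {Ns : ι → Set (Place L₀ 𝓕)}

/-- **THE SLOPE LEMMA, first-order core**: let `G` be wild of SUB-critical break `b` with `c̄τ ≠ 0`,
`a ^ p · h = c · (G f / f)` with `h` a unit at the nodes and `h ≡ 1 mod ϖ ^ (p b + 1)` in both
components, and let `f` have the local factorisations `f = φ_s ^ p E_s` at the nodes
(`(ni s, nz s)` the Gauss valuations of `φ_s`) and `f = φ_z ^ p F_z` at the other closed points.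
Then `d_s = nz s - ni s` is constant modulo `p`. -/
theorem s44c_slope_core (hglue : s44c_GlueAt Z Ns) (Xi : s44c_Pts Z.Ci Pi) (Xz : s44c_Pts Z.Cz Pz)
    (hci : s44c_ConstI Z Xi) (hcz : s44c_ConstZ Z Xz) (G : s33z_GalAut Z) {b : ℕ} {cbar : κ}
    (hb : 1 ≤ b) (hsub : (D'.p - 1) * b < D'.e) (hWi : s44c_FirstOrder G.Gi b cbar)
    (hWz : s44c_FirstOrder G.Gz b cbar) (hcτ : cbar ≠ 0) {f h a : 𝓕} {c : L₀} (hc : c ≠ 0)
    (hf : f ≠ 0) (ha : a ≠ 0) (hhN : ∀ s, s44c_Unit (Ns s) h)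
    (hh : s33z_Cong Z (D'.p * b + 1) h)
    (heq : a ^ D'.p * h = algebraMap L₀ 𝓕 c * (G.s f / f)) {ni nz : ι → ℤ}
    (hnode : s44c_NodeFact Z Ns G.s f ni nz) (hsi : s44c_SmoothFact Z.Ci Xi G.s f)
    (hsz : s44c_SmoothFact Z.Cz Xz G.s f) (s s' : ι) :
    (D'.p : ℤ) ∣ (nz s - ni s) - (nz s' - ni s') := by
  haveI : CharP κ D'.p := s33f_charP_κ D'
  have hpb1 : 1 ≤ D'.p * b + 1 := Nat.le_add_left _ _
  obtain ⟨c', hc', ha1⟩ := s44c_normalise G hb hWi hWz hf ha (hh.mono hpb1) heq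
  have hnd := (s44c_nodeDec_of_fact G hWi hWz hc ha hhN heq hnode).const_mul hc'
  have hsdi := (s44c_smoothDec_of_fact Z.Ci Xi G.Gi hsub hWi hc hh.1 heq hsi).const_mul hc'
  have hsdz := (s44c_smoothDec_of_fact Z.Cz Xz G.Gz hsub hWz hc hh.2 heq hsz).const_mul hc'
  obtain ⟨Δ, hΔ⟩ := s44c_slope_const hglue Xi Xz hci hcz hb hsub ha1 hnd hsdi hsdz
  have h1 := hΔ s
  have h2 := hΔ s'
  have h3 : (((nz s - ni s) - (nz s' - ni s') : ℤ) : κ) * cbar = 0 := by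
    push_cast
    linear_combination h1 - h2
  rcases mul_eq_zero.mp h3 with h4 | h4
  · exact (CharP.intCast_eq_zero_iff κ D'.p _).mp h4
  · exact absurd h4 hcτ

end Slope

end Fermat.Agent.Lib.S44
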