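/-
M-AT-P programme (S44), wall W3 = (★)-core, INSTANCE SIDE, the chart of a coordinate `w` of level `M`
(owner: helper4).  Hypotheses = those of helper8's `s33s_datumW` (`Lib/S33/SSFive.lean`) WITHOUT the existence
of a node; `D = integralClosure κ[w̄] F̄_M`, chart `S = {α w regular}`.

* `s44c_ptsIW`, `s44c_ptsZW` : the closed points of the chart outside the nodes, on the two components,
                              with **[REG]** (`s44c_Pts`);
* `s44c_WnW i s`            : the branch of the node `s` on the component `i`;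
* `s44c_W_integral`         : `ψ` regular at all branches and at all other closed points of the chart on the
                              component `i` ⇒ `ψ` integral over `κ[w̄]`;
* `s44c_W_integral_of_inv`  : the same when the nodes avoid `v` (`r_i v = w̄ ^ n`) and `ψ` is integral over
                              `κ[w̄⁻¹]` (the chart `{1 / j regular}`: no node at infinity);
* `s44c_glueAt_datumW`      : per-node [GLUE] for `s33s_datumW`.
-/
import Fermat.Agent.Lib.S44.CoreInst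
import Fermat.Agent.Lib.S33.SSFive

set_option autoImplicit false
set_option linter.unusedSectionVars false
set_option linter.style.haveILetI false

noncomputable section

namespace Fermat.Agent.Lib.S44

open ModularCurve AlgebraicCurve HahnSeries Polynomial Fermat.Agent.Lib.FF Fermat.Agent.Lib.S18
  Fermat.Agent.Lib.S34 Fermat.Agent.Lib.S37 Fermat.Agent.Lib.S33

local notation "Kb" => AlgebraicClosure ℚ

section Wrap

variable {K₀ : Type} [Field K₀] [CharZero K₀] [Algebra ℚ K₀] {κ : Type} [Field κ]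
  (G : s18g_GaussData K₀ κ) (φ : K₀ →+* Kb) (M p : ℕ) [NeZero M] [hp : Fact p.Prime]
  (hpM : ¬ p ∣ M) [CharP κ p] [PerfectField κ]

local notation "𝓕M" => laurentBaseChange K₀ (modularFunctionFieldFull M)
local notation "𝓕N" => laurentBaseChange K₀ (modularFunctionFieldFull (M * p))
local notation "hFM" => (fun (f : LaurentSeries K₀)
  (hf : f ∈ laurentBaseChange K₀ (modularFunctionFieldFull M)) => s18g_baseChange_mem_Frac G M hf)
local notation "FbM" => modularFunctionFieldFullC κ M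
local notation "OO" => s34m_VV G φ M p hp.out hpM
local notation "ϖF" => s34m_unif G (M * p)

variable (hdeg : s34m_HDeg K₀ M p) (hT : s18g_HT κ M) (hdegM : s18g_HDeg K₀ M)
  (hπ : Function.Surjective G.π)
  (e : ℕ) (ε : K₀) (he : 0 < e) (hε : ε ∈ G.A) (hεinv : ε⁻¹ ∈ G.A) (hε0 : ε ≠ 0)
  (hpe : (p : K₀) = ε * ((G.ϖ : G.A) : K₀) ^ e) (hperf : ∀ c : κ, ∃ d : κ, d ^ p = c)

variable [IsDiscreteValuationRing G.A] (w : ↥(laurentBaseChange K₀ (modularFunctionFieldFull M))) (hwV : w ∈ s18g_V G (laurentBaseChange K₀ (modularFunctionFieldFull M)) (fun (f : LaurentSeries K₀) (hf : f ∈ laurentBaseChange K₀ (modularFunctionFieldFull M)) => s18g_baseChange_mem_Frac G M hf))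
    (hcoord : s37b_Coord κ p
      ((s18g_redF G M (fun (f : LaurentSeries K₀) (hf : f ∈ laurentBaseChange K₀ (modularFunctionFieldFull M)) => s18g_baseChange_mem_Frac G M hf) hT hdegM ⟨w, hwV⟩ : ↥(modularFunctionFieldFullC κ M)) : LaurentSeries κ))
    (hwtw : ∀ τ : κ ≃+* κ, ModularCurve.coeffMap (τ : κ →+* κ)
      ((s18g_redF G M (fun (f : LaurentSeries K₀) (hf : f ∈ laurentBaseChange K₀ (modularFunctionFieldFull M)) => s18g_baseChange_mem_Frac G M hf) hT hdegM ⟨w, hwV⟩ : ↥(modularFunctionFieldFullC κ M)) : LaurentSeries κ) =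
      ((s18g_redF G M (fun (f : LaurentSeries K₀) (hf : f ∈ laurentBaseChange K₀ (modularFunctionFieldFull M)) => s18g_baseChange_mem_Frac G M hf) hT hdegM ⟨w, hwV⟩ : ↥(modularFunctionFieldFullC κ M)) : LaurentSeries κ))
    (hmain : letI := s18f_algF G M hT hdegM w hwV
      ∀ z : ↥(modularFunctionFieldFullC κ M), IsIntegral κ[X] z →
        ∃ (b : ↥(laurentBaseChange K₀ (modularFunctionFieldFull M))) (hb : b ∈ s18_ring (L₀ := K₀) (s18g_V G (laurentBaseChange K₀ (modularFunctionFieldFull M)) (fun (f : LaurentSeries K₀) (hf : f ∈ laurentBaseChange K₀ (modularFunctionFieldFull M)) => s18g_baseChange_mem_Frac G M hf)) (s18_chart1 w)),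
          s18g_redF G M (fun (f : LaurentSeries K₀) (hf : f ∈ laurentBaseChange K₀ (modularFunctionFieldFull M)) => s18g_baseChange_mem_Frac G M hf) hT hdegM ⟨b, hb.1⟩ = z)
    (wN : ↥(laurentBaseChange K₀ (modularFunctionFieldFull (M * p)))) (hwN : heckeAlphaBar K₀ M p w = wN) [FFGen K₀ wN]
    (hαN : ∀ y ∈ s34x_infRing (s34m_VV G φ M p hp.out hpM), ∃ s : G.A[X], s.map G.π ≠ 0 ∧
      (s18b_ev G (laurentBaseChange K₀ (modularFunctionFieldFull (M * p))) wN).IsIntegralElem (s18b_ev G (laurentBaseChange K₀ (modularFunctionFieldFull (M * p))) wN s * y))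
    (hαB : ∀ g ∈ (s18_ring (L₀ := K₀) (s34m_Vinf G M) (s18_chart1 w) : Set (s34m_F K₀ M)),
      heckeAlphaBar K₀ M p g ∈ s34x_ring (s34x_infRing (s34m_VV G φ M p hp.out hpM))
        (s18_chart1 (L₀ := K₀) wN))
    (hβB : ∀ g ∈ (s18_ring (L₀ := K₀) (s34m_Vinf G M) (s18_chart1 w) : Set (s34m_F K₀ M)),
      ∃ b' ∈ s34x_ring (s34x_infRing (s34m_VV G φ M p hp.out hpM)) (s18_chart1 (L₀ := K₀) wN),
      ∃ z, z ∈ s34m_Vinf G (M * p) ∧ z ∈ s34m_Vzero G φ M p hp.out hpM ∧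
        b' - heckeBetaBar K₀ M p g = s34m_unif G (M * p) * z)

/-- **the closed points of the chart `{α w regular}` on the `∞`-component outside the nodes.** -/
def s44c_ptsIW :
    s44c_Pts (s33y_Ci G φ M p hpM hdeg hT hdegM hπ e ε he hε hεinv hε0 hpe hperf)
      (s44c_Pt OO ϖF (s18_chart1 (L₀ := K₀) wN) true) :=
  letI := s18f_algF G M hT hdegM w hwV
  haveI := (s37b_dedekind_of_coord κ p M (s18g_redF G M hFM hT hdegM ⟨w, hwV⟩) hcoord
    (s18f_algF_apply G M hT hdegM w hwV)).1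
  haveI := (s37b_dedekind_of_coord κ p M (s18g_redF G M hFM hT hdegM ⟨w, hwV⟩) hcoord
    (s18f_algF_apply G M hT hdegM w hwV)).2
  s44c_ptsI G φ M p hpM hdeg hT hdegM hπ (s18_chart1 (L₀ := K₀) wN)
    (D := ↥(integralClosure κ[X] ↥(modularFunctionFieldFullC κ M)))
    (s33s_w_hD G M p hT hdegM w hwV hcoord)
    (s33s_w_hF G φ M p hpM hdeg hT hdegM)
    (s33s_w_hint G φ M p hpM hdeg hT hdegM w hwV hwtw wN hwN hαN)
    (s18_ring (L₀ := K₀) (s34m_Vinf G M) (s18_chart1 w) : Set (s34m_F K₀ M))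
    (fun _ hg => hg.1) hαB hβB
    (s33s_w_hlift G M hT hdegM w hwV hmain)
    (s33s_w_htw G M p hT hdegM w hwV hwtw)
    e ε he hε hεinv hε0 hpe hperf

/-- **the closed points of the chart `{α w regular}` on the `0`-component outside the nodes.** -/
def s44c_ptsZW :
    s44c_Pts (s33y_Cz G φ M p hpM hdeg hT hdegM hπ e ε he hε hεinv hε0 hpe hperf)
      (s44c_Pt OO ϖF (s18_chart1 (L₀ := K₀) wN) false) :=
  letI := s18f_algF G M hT hdegM w hwV
  haveI := (s37b_dedekind_of_coord κ p M (s18g_redF G M hFM hT hdegM ⟨w, hwV⟩) hcoord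
    (s18f_algF_apply G M hT hdegM w hwV)).1
  haveI := (s37b_dedekind_of_coord κ p M (s18g_redF G M hFM hT hdegM ⟨w, hwV⟩) hcoord
    (s18f_algF_apply G M hT hdegM w hwV)).2
  s44c_ptsZ G φ M p hpM hdeg hT hdegM hπ (s18_chart1 (L₀ := K₀) wN)
    (D := ↥(integralClosure κ[X] ↥(modularFunctionFieldFullC κ M)))
    (s33s_w_hD G M p hT hdegM w hwV hcoord)
    (s33s_w_hF G φ M p hpM hdeg hT hdegM)
    (s33s_w_hint G φ M p hpM hdeg hT hdegM w hwV hwtw wN hwN hαN)
    (s18_ring (L₀ := K₀) (s34m_Vinf G M) (s18_chart1 w) : Set (s34m_F K₀ M))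
    (fun _ hg => hg.1) hαB hβB
    (s33s_w_hlift G M hT hdegM w hwV hmain)
    (s33s_w_htw G M p hT hdegM w hwV hwtw)
    e ε he hε hεinv hε0 hpe hperf

/-- **the branch of the node `s` of the chart `{α w regular}` on the component `i`.** -/
def s44c_WnW (i : Bool) (s : s33s_Node OO ϖF (s18_chart1 (L₀ := K₀) wN)) :
    ValuationSubring ↥FbM :=
  letI := s18f_algF G M hT hdegM w hwV
  haveI := (s37b_dedekind_of_coord κ p M (s18g_redF G M hFM hT hdegM ⟨w, hwV⟩) hcoord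
    (s18f_algF_apply G M hT hdegM w hwV)).1
  haveI := (s37b_dedekind_of_coord κ p M (s18g_redF G M hFM hT hdegM ⟨w, hwV⟩) hcoord
    (s18f_algF_apply G M hT hdegM w hwV)).2
  s33s_Wn G φ M p hpM (s18_chart1 (L₀ := K₀) wN)
    (D := ↥(integralClosure κ[X] ↥(modularFunctionFieldFullC κ M)))
    (s33s_w_hD G M p hT hdegM w hwV hcoord)
    (s33s_w_hF G φ M p hpM hdeg hT hdegM)
    (s33s_w_hint G φ M p hpM hdeg hT hdegM w hwV hwtw wN hwN hαN)
    (s18_ring (L₀ := K₀) (s34m_Vinf G M) (s18_chart1 w) : Set (s34m_F K₀ M))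
    (fun _ hg => hg.1) hαB hβB
    (s33s_w_hlift G M hT hdegM w hwV hmain)
    (s33s_w_htw G M p hT hdegM w hwV hwtw) i s

/-- **the valuation ring of a closed point outside the nodes** (generic component). -/
def s44c_ptWW (i : Bool) (z : s44c_Pt OO ϖF (s18_chart1 (L₀ := K₀) wN) i) :
    ValuationSubring ↥FbM :=
  letI := s18f_algF G M hT hdegM w hwV
  haveI := (s37b_dedekind_of_coord κ p M (s18g_redF G M hFM hT hdegM ⟨w, hwV⟩) hcoord
    (s18f_algF_apply G M hT hdegM w hwV)).1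
  haveI := (s37b_dedekind_of_coord κ p M (s18g_redF G M hFM hT hdegM ⟨w, hwV⟩) hcoord
    (s18f_algF_apply G M hT hdegM w hwV)).2
  s44c_ptW G φ M p hpM (s18_chart1 (L₀ := K₀) wN)
    (D := ↥(integralClosure κ[X] ↥(modularFunctionFieldFullC κ M)))
    (s33s_w_hD G M p hT hdegM w hwV hcoord)
    (s33s_w_hF G φ M p hpM hdeg hT hdegM)
    (s33s_w_hint G φ M p hpM hdeg hT hdegM w hwV hwtw wN hwN hαN)
    (s18_ring (L₀ := K₀) (s34m_Vinf G M) (s18_chart1 w) : Set (s34m_F K₀ M))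
    (fun _ hg => hg.1) hαB hβB
    (s33s_w_hlift G M hT hdegM w hwV hmain)
    (s33s_w_htw G M p hT hdegM w hwV hwtw) i z

theorem s44c_ptsIW_V :
    (s44c_ptsIW G φ M p hpM hdeg hT hdegM hπ e ε he hε hεinv hε0 hpe hperf w hwV hcoord hwtw hmain wN
      hwN hαN hαB hβB).V =
      s44c_ptWW G φ M p hpM hdeg hT hdegM w hwV hcoord hwtw hmain wN hwN hαN hαB hβB true := rfl

theorem s44c_ptsZW_V :
    (s44c_ptsZW G φ M p hpM hdeg hT hdegM hπ e ε he hε hεinv hε0 hpe hperf w hwV hcoord hwtw hmain wN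
      hwN hαN hαB hβB).V =
      s44c_ptWW G φ M p hpM hdeg hT hdegM w hwV hcoord hwtw hmain wN hwN hαN hαB hβB false := rfl

theorem s44c_ptsIW_N (z : s44c_Pt OO ϖF (s18_chart1 (L₀ := K₀) wN) true) :
    (s44c_ptsIW G φ M p hpM hdeg hT hdegM hπ e ε he hε hεinv hε0 hpe hperf w hwV hcoord hwtw hmain wN
      hwN hαN hαB hβB).N z = s44c_thr OO (s18_chart1 (L₀ := K₀) wN) z.1 := rfl

theorem s44c_ptsZW_N (z : s44c_Pt OO ϖF (s18_chart1 (L₀ := K₀) wN) false) :
    (s44c_ptsZW G φ M p hpM hdeg hT hdegM hπ e ε he hε hεinv hε0 hpe hperf w hwV hcoord hwtw hmain wN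
      hwN hαN hαB hβB).N z = s44c_thr OO (s18_chart1 (L₀ := K₀) wN) z.1 := rfl

/-- **regular at all closed points of the chart on the component `i` ⇒ integral over `κ[w̄]`.** -/
theorem s44c_W_integral (i : Bool) (ψ : ↥FbM)
    (hnode : ∀ s, ψ ∈ s44c_WnW G φ M p hpM hdeg hT hdegM w hwV hcoord hwtw hmain wN hwN hαN hαB hβB
      i s)
    (hpt : ∀ z, ψ ∈ s44c_ptWW G φ M p hpM hdeg hT hdegM w hwV hcoord hwtw hmain wN hwN hαN hαB hβB
      i z) :
    IsIntegral (Algebra.adjoin κ {s18g_redF G M hFM hT hdegM ⟨w, hwV⟩}) ψ := by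
  letI := s18f_algF G M hT hdegM w hwV
  haveI := (s37b_dedekind_of_coord κ p M (s18g_redF G M hFM hT hdegM ⟨w, hwV⟩) hcoord
    (s18f_algF_apply G M hT hdegM w hwV)).1
  haveI := (s37b_dedekind_of_coord κ p M (s18g_redF G M hFM hT hdegM ⟨w, hwV⟩) hcoord
    (s18f_algF_apply G M hT hdegM w hwV)).2
  obtain ⟨d, hd⟩ := s44c_chart_mem_range G φ M p hpM (s18_chart1 (L₀ := K₀) wN)
    (D := ↥(integralClosure κ[X] ↥(modularFunctionFieldFullC κ M)))
    (s33s_w_hD G M p hT hdegM w hwV hcoord)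
    (s33s_w_hF G φ M p hpM hdeg hT hdegM)
    (s33s_w_hint G φ M p hpM hdeg hT hdegM w hwV hwtw wN hwN hαN)
    (s18_ring (L₀ := K₀) (s34m_Vinf G M) (s18_chart1 w) : Set (s34m_F K₀ M))
    (fun _ hg => hg.1) hαB hβB
    (s33s_w_hlift G M hT hdegM w hwV hmain)
    (s33s_w_htw G M p hT hdegM w hwV hwtw) i ψ hnode hpt
  have h1 : IsIntegral κ[X] ψ := by
    rw [← hd]
    exact d.2
  exact s33i_isIntegral_adjoin_of_poly _ (s18f_algF_apply G M hT hdegM w hwV) h1

include hπ in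
/-- **the same when the nodes avoid `v`, `r_i v = w̄ ^ n`, and `ψ` is integral over `κ[w̄⁻¹]`.** -/
theorem s44c_W_integral_of_inv (i : Bool) (ψ : ↥FbM)
    (hint1 : IsIntegral (Algebra.adjoin κ {(s18g_redF G M hFM hT hdegM ⟨w, hwV⟩)⁻¹}) ψ)
    (v : s34x_ring (s34x_infRing OO) (s18_chart1 (L₀ := K₀) wN))
    (hv : ∀ s : s33s_Node OO ϖF (s18_chart1 (L₀ := K₀) wN), v ∉ s.1) (n : ℕ) (hn : 1 ≤ n)
    (hrv : s33s_redO G φ M p hp.out hpM (modularFunctionFieldFullC κ M)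
      (s33s_w_hF G φ M p hpM hdeg hT hdegM) i ⟨(v : s34m_F K₀ (M * p)), v.2.1⟩ =
        s18g_redF G M hFM hT hdegM ⟨w, hwV⟩ ^ n)
    (hpt : ∀ z, ψ ∈ s44c_ptWW G φ M p hpM hdeg hT hdegM w hwV hcoord hwtw hmain wN hwN hαN hαB hβB
      i z) :
    IsIntegral (Algebra.adjoin κ {s18g_redF G M hFM hT hdegM ⟨w, hwV⟩}) ψ := by
  refine s44c_W_integral G φ M p hpM hdeg hT hdegM w hwV hcoord hwtw hmain wN hwN hαN hαB hβB i ψ
    ?_ hpt
  intro s
  letI := s18f_algF G M hT hdegM w hwV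
  haveI := (s37b_dedekind_of_coord κ p M (s18g_redF G M hFM hT hdegM ⟨w, hwV⟩) hcoord
    (s18f_algF_apply G M hT hdegM w hwV)).1
  haveI := (s37b_dedekind_of_coord κ p M (s18g_redF G M hFM hT hdegM ⟨w, hwV⟩) hcoord
    (s18f_algF_apply G M hT hdegM w hwV)).2
  show ψ ∈ s33s_Wn G φ M p hpM (s18_chart1 (L₀ := K₀) wN)
    (D := ↥(integralClosure κ[X] ↥(modularFunctionFieldFullC κ M)))
    (s33s_w_hD G M p hT hdegM w hwV hcoord)
    (s33s_w_hF G φ M p hpM hdeg hT hdegM)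
    (s33s_w_hint G φ M p hpM hdeg hT hdegM w hwV hwtw wN hwN hαN)
    (s18_ring (L₀ := K₀) (s34m_Vinf G M) (s18_chart1 w) : Set (s34m_F K₀ M))
    (fun _ hg => hg.1) hαB hβB
    (s33s_w_hlift G M hT hdegM w hwV hmain)
    (s33s_w_htw G M p hT hdegM w hwV hwtw) i s
  refine s33i_mem_of_isIntegral_adjoin _
    (fun c => s33s_Wn_const G φ M p hpM hπ (s18_chart1 (L₀ := K₀) wN)
      (s33s_w_hD G M p hT hdegM w hwV hcoord)
      (s33s_w_hF G φ M p hpM hdeg hT hdegM)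
      (s33s_w_hint G φ M p hpM hdeg hT hdegM w hwV hwtw wN hwN hαN)
      (s18_ring (L₀ := K₀) (s34m_Vinf G M) (s18_chart1 w) : Set (s34m_F K₀ M))
      (fun _ hg => hg.1) hαB hβB
      (s33s_w_hlift G M hT hdegM w hwV hmain)
      (s33s_w_htw G M p hT hdegM w hwV hwtw) i s c) ?_ hint1
  -- `w̄⁻¹` lies in the branch
  apply s33z_mem_of_pow_mem _ hn
  rw [s33s_Wn, s33s_mem_W_iff]
  refine ⟨v, 1, hv s, ?_⟩
  have hr : s33s_r (Fb := ↥(modularFunctionFieldFullC κ M))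
      (s33s_rhoD G φ M p hp.out hpM (modularFunctionFieldFullC κ M) (s18_chart1 (L₀ := K₀) wN)
        (s33s_w_hF G φ M p hpM hdeg hT hdegM)
        (s33s_w_hint G φ M p hpM hdeg hT hdegM w hwV hwtw wN hwN hαN) i) v =
      s18g_redF G M hFM hT hdegM ⟨w, hwV⟩ ^ n := by
    rw [s33s_r_apply, s33s_rhoD_spec]
    exact hrv
  have hne : s18g_redF G M hFM hT hdegM ⟨w, hwV⟩ ^ n ≠ 0 := by
    rw [← hr]
    intro h0
    apply hv s
    apply s33s_inst_ker_le G φ M p hpM (s18_chart1 (L₀ := K₀) wN)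
      (s33s_w_hF G φ M p hpM hdeg hT hdegM)
      (s33s_w_hint G φ M p hpM hdeg hT hdegM w hwV hwtw wN hwN hαN) s i
    rw [RingHom.mem_ker]
    exact (s33s_r_eq_zero_iff _ v).mp h0
  rw [hr, map_one, inv_pow, mul_inv_cancel₀ hne]

/-- the branches of `s33s_datumW` are the `s44c_WnW`. -/
theorem s44c_datumW_Wi
    (hnode : ∃ 𝔫, s33s_IsNode (s34m_VV G φ M p hp.out hpM) (s34m_unif G (M * p))
      (s18_chart1 (L₀ := K₀) wN) 𝔫) (s : s33s_Node OO ϖF (s18_chart1 (L₀ := K₀) wN)) :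
    (s33s_datumW G φ M p hpM hdeg hT hdegM hπ e ε he hε hεinv hε0 hpe hperf w hwV hcoord hwtw hmain
      wN hwN hαN hαB hβB hnode).Wi s =
      s44c_WnW G φ M p hpM hdeg hT hdegM w hwV hcoord hwtw hmain wN hwN hαN hαB hβB true s := rfl

theorem s44c_datumW_Wz
    (hnode : ∃ 𝔫, s33s_IsNode (s34m_VV G φ M p hp.out hpM) (s34m_unif G (M * p))
      (s18_chart1 (L₀ := K₀) wN) 𝔫) (s : s33s_Node OO ϖF (s18_chart1 (L₀ := K₀) wN)) :
    (s33s_datumW G φ M p hpM hdeg hT hdegM hπ e ε he hε hεinv hε0 hpe hperf w hwV hcoord hwtw hmain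
      wN hwN hαN hαB hβB hnode).Wz s =
      s44c_WnW G φ M p hpM hdeg hT hdegM w hwV hcoord hwtw hmain wN hwN hαN hαB hβB false s := rfl

/-- **per-node [GLUE]** for `s33s_datumW`. -/
theorem s44c_glueAt_datumW
    (hnode : ∃ 𝔫, s33s_IsNode (s34m_VV G φ M p hp.out hpM) (s34m_unif G (M * p))
      (s18_chart1 (L₀ := K₀) wN) 𝔫) :
    s44c_GlueAt (s33s_datumW G φ M p hpM hdeg hT hdegM hπ e ε he hε hεinv hε0 hpe hperf w hwV hcoord
      hwtw hmain wN hwN hαN hαB hβB hnode)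
      (fun s => s44c_thr OO (s18_chart1 (L₀ := K₀) wN) s.1) := by
  letI := s18f_algF G M hT hdegM w hwV
  haveI := (s37b_dedekind_of_coord κ p M (s18g_redF G M hFM hT hdegM ⟨w, hwV⟩) hcoord
    (s18f_algF_apply G M hT hdegM w hwV)).1
  haveI := (s37b_dedekind_of_coord κ p M (s18g_redF G M hFM hT hdegM ⟨w, hwV⟩) hcoord
    (s18f_algF_apply G M hT hdegM w hwV)).2
  exact s44c_glueAt_datumD G φ M p hpM hdeg hT hdegM hπ (s18_chart1 (L₀ := K₀) wN)
    (D := ↥(integralClosure κ[X] ↥(modularFunctionFieldFullC κ M)))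
    (s33s_w_hD G M p hT hdegM w hwV hcoord)
    (s33s_w_hF G φ M p hpM hdeg hT hdegM)
    (s33s_w_hint G φ M p hpM hdeg hT hdegM w hwV hwtw wN hwN hαN)
    (s18_ring (L₀ := K₀) (s34m_Vinf G M) (s18_chart1 w) : Set (s34m_F K₀ M))
    (fun _ hg => hg.1) hαB hβB
    (s33s_w_hlift G M hT hdegM w hwV hmain)
    (s33s_w_htw G M p hT hdegM w hwV hwtw)
    e ε he hε hεinv hε0 hpe hperf hnode

end Wrap

end Fermat.Agent.Lib.S44
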