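/-
M-AT-P programme (S44), wall W3 = (★)-core, INSTANCE SIDE, `p ≥ 5` (owner: helper4): the hypotheses
`s44c_GlueAt`, `s44c_Pts` (×2), `s44c_ConstI`, `s44c_ConstZ` of `s44c_slope_const` / `s44c_slope_core`
(`CoreRoot.lean`, `CoreDec.lean`) for helper8's LANDED Σ-datum `s33s_datum_five` of `X_0(M p)`.

* `s44c_five_Ns s`   : the places of the chart `{j regular}` through the node `s`;
* `s44c_five_Xi`, `s44c_five_Xz` : the closed points of the two components outside the nodes: the non-node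
                       maximal ideals `𝔪 ⊇ 𝔭_i` of the chart rings of `{j regular}` (`Sum.inl`) and of
                       `{1 / j regular}` (`Sum.inr`), `N z` = the places of the chart through `𝔪`, with [REG];
* `s44c_five_glueAt` : per-node [GLUE];
* `s44c_five_constI`, `s44c_five_constZ` : "regular everywhere on the complete component ⇒ constant".
-/
import Fermat.Agent.Lib.S44.CoreInstW
import Fermat.Agent.Lib.S33.SSNoInf

set_option autoImplicit false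
set_option linter.unusedSectionVars false
set_option linter.style.haveILetI false

noncomputable section

namespace Fermat.Agent.Lib.S44

open ModularCurve AlgebraicCurve HahnSeries Polynomial Fermat.Agent.Lib.FF Fermat.Agent.Lib.S18
  Fermat.Agent.Lib.S34 Fermat.Agent.Lib.S37 Fermat.Agent.Lib.S33

local notation "Kb" => AlgebraicClosure ℚ

/-- the disjoint union of two families of closed points of a component. -/
def s44c_Pts.sum {L₀ 𝓕' κ Fb : Type*} [Field L₀] [Field 𝓕'] [Algebra L₀ 𝓕'] [Field κ] [Field Fb]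
    [Algebra κ Fb] {D' : s33f_Datum L₀ 𝓕' κ Fb} {𝓕 : Type*} [Field 𝓕] [Algebra L₀ 𝓕]
    {C : s33z_Comp D' 𝓕} {P P' : Type*} (X : s44c_Pts C P) (Y : s44c_Pts C P') :
    s44c_Pts C (P ⊕ P') where
  V := Sum.elim X.V Y.V
  N := Sum.elim X.N Y.N
  reg := fun z y hy h => by
    cases z with
    | inl z => exact X.reg z y hy h
    | inr z => exact Y.reg z y hy h

section Five

variable (M p : ℕ) [NeZero M] [hp : Fact p.Prime] (hpM : ¬ p ∣ M) (h5 : 5 ≤ p)
  (K₀ : Type) [Field K₀] [NumberField K₀] (φ : K₀ →+* Kb)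
  (κ : Type) [Field κ] [CharP κ p] [PerfectField κ]
  (G : s18g_GaussData K₀ κ) [IsDiscreteValuationRing G.A]
  (hdeg : s34m_HDeg K₀ M p) (hT : s18g_HT κ M) (hdegM : s18g_HDeg K₀ M)
  (hπ : Function.Surjective G.π)
  (e : ℕ) (ε : K₀) (he : 0 < e) (hε : ε ∈ G.A) (hεinv : ε⁻¹ ∈ G.A) (hε0 : ε ≠ 0)
  (hpe : (p : K₀) = ε * ((G.ϖ : G.A) : K₀) ^ e) (hperf : ∀ c : κ, ∃ d : κ, d ^ p = c)

local notation "hFM" => (fun (f : LaurentSeries K₀)
  (hf : f ∈ laurentBaseChange K₀ (modularFunctionFieldFull M)) => s18g_baseChange_mem_Frac G M hf)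
local notation "FbM" => modularFunctionFieldFullC κ M
local notation "OO" => s34m_VV G φ M p hp.out hpM
local notation "ϖF" => s34m_unif G (M * p)
local notation "jM" => s18g_jF (K := K₀) M
local notation "jN" => s18g_jF (K := K₀) (M * p)
local notation "S₁" => s18_chart1 (L₀ := K₀) (s18g_jF (K := K₀) (M * p))
local notation "S₂" => s18_chart1 (L₀ := K₀) (s18g_jF (K := K₀) (M * p))⁻¹

/-- the reduction of `j`. -/
theorem s44c_hred1 :
    ((s18g_redF G M hFM hT hdegM ⟨jM, s18g_jF_mem_V G M hFM⟩ : ↥FbM) : LaurentSeries κ) =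
      jqModC κ := by
  rw [s18g_coe_redF]
  exact s18g_red_jq G

/-- the reduction of `1 / j`. -/
theorem s44c_hred2 :
    ((s18g_redF G M hFM hT hdegM ⟨jM⁻¹, s18g_jF_inv_mem_V G M hFM⟩ : ↥FbM) : LaurentSeries κ) =
      (jqModC κ)⁻¹ := by
  rw [s18f_redF_inv G M hT hdegM _ (s18g_jF_ne_zero M) (s18g_jF_mem_V G M hFM),
    IntermediateField.coe_inv, s44c_hred1]

include φ in
theorem s44c_ffGen1 : FFGen K₀ jN :=
  s18b_ffGen_jF (M * p) (fun _ b hb hn => s18g_exists_relation (M * p) φ hn b hb)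

include φ in
theorem s44c_ffGen2 : FFGen K₀ jN⁻¹ :=
  s18b_ffGen_jF_inv (M * p) (fun _ b hb hn => s18g_exists_relation (M * p) φ hn b hb)

/-- **the closed points outside the nodes, `∞`-component, chart `{j regular}`.** -/
def s44c_five_ptsI1 :
    s44c_Pts (s33y_Ci G φ M p hpM hdeg hT hdegM hπ e ε he hε hεinv hε0 hpe hperf)
      (s44c_Pt OO ϖF S₁ true) :=
  haveI := s44c_ffGen1 M p K₀ φ
  s44c_ptsIW G φ M p hpM hdeg hT hdegM hπ e ε he hε hεinv hε0 hpe hperf jM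
    (s18g_jF_mem_V G M hFM)
    (by rw [s44c_hred1]; exact s37b_coord_jq κ p)
    (by intro τ; rw [s44c_hred1]; exact coeffMap_jqModC _)
    (s34df_hmain_five M p h5 K₀ φ κ G hπ hT hdegM).1
    jN (s34m_alpha_jF M p)
    (s34f_alpha_j G φ M p hp.out hpM)
    (fun g hg => s34d_alpha_liftJ₁ G φ M p hp.out hpM g hg)
    (fun g hg => s34d_beta_liftJ₁ G φ M p hp.out hpM g hg)

/-- **the closed points outside the nodes, `0`-component, chart `{j regular}`.** -/
def s44c_five_ptsZ1 :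
    s44c_Pts (s33y_Cz G φ M p hpM hdeg hT hdegM hπ e ε he hε hεinv hε0 hpe hperf)
      (s44c_Pt OO ϖF S₁ false) :=
  haveI := s44c_ffGen1 M p K₀ φ
  s44c_ptsZW G φ M p hpM hdeg hT hdegM hπ e ε he hε hεinv hε0 hpe hperf jM
    (s18g_jF_mem_V G M hFM)
    (by rw [s44c_hred1]; exact s37b_coord_jq κ p)
    (by intro τ; rw [s44c_hred1]; exact coeffMap_jqModC _)
    (s34df_hmain_five M p h5 K₀ φ κ G hπ hT hdegM).1
    jN (s34m_alpha_jF M p)
    (s34f_alpha_j G φ M p hp.out hpM)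
    (fun g hg => s34d_alpha_liftJ₁ G φ M p hp.out hpM g hg)
    (fun g hg => s34d_beta_liftJ₁ G φ M p hp.out hpM g hg)

/-- **the closed points outside the nodes, `∞`-component, chart `{1 / j regular}`.** -/
def s44c_five_ptsI2 :
    s44c_Pts (s33y_Ci G φ M p hpM hdeg hT hdegM hπ e ε he hε hεinv hε0 hpe hperf)
      (s44c_Pt OO ϖF S₂ true) :=
  haveI := s44c_ffGen1 M p K₀ φ
  haveI := s44c_ffGen2 M p K₀ φ
  s44c_ptsIW G φ M p hpM hdeg hT hdegM hπ e ε he hε hεinv hε0 hpe hperf jM⁻¹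
    (s18g_jF_inv_mem_V G M hFM)
    (by rw [s44c_hred2]; exact s37b_coord_inv (s37b_coord_jq κ p))
    (by intro τ; rw [s44c_hred2, map_inv₀, coeffMap_jqModC])
    (s34df_hmain_five M p h5 K₀ φ κ G hπ hT hdegM).2
    jN⁻¹ (by rw [map_inv₀, s34m_alpha_jF])
    (s34f_alpha_inv G φ M p hp.out hpM)
    (fun g hg => s34d_alpha_liftJ₂ G φ M p hp.out hpM g hg)
    (fun g hg => s34d_beta_liftJ₂ G φ M p hp.out hpM g hg)

/-- **the closed points outside the nodes, `0`-component, chart `{1 / j regular}`.** -/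
def s44c_five_ptsZ2 :
    s44c_Pts (s33y_Cz G φ M p hpM hdeg hT hdegM hπ e ε he hε hεinv hε0 hpe hperf)
      (s44c_Pt OO ϖF S₂ false) :=
  haveI := s44c_ffGen1 M p K₀ φ
  haveI := s44c_ffGen2 M p K₀ φ
  s44c_ptsZW G φ M p hpM hdeg hT hdegM hπ e ε he hε hεinv hε0 hpe hperf jM⁻¹
    (s18g_jF_inv_mem_V G M hFM)
    (by rw [s44c_hred2]; exact s37b_coord_inv (s37b_coord_jq κ p))
    (by intro τ; rw [s44c_hred2, map_inv₀, coeffMap_jqModC])
    (s34df_hmain_five M p h5 K₀ φ κ G hπ hT hdegM).2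
    jN⁻¹ (by rw [map_inv₀, s34m_alpha_jF])
    (s34f_alpha_inv G φ M p hp.out hpM)
    (fun g hg => s34d_alpha_liftJ₂ G φ M p hp.out hpM g hg)
    (fun g hg => s34d_beta_liftJ₂ G φ M p hp.out hpM g hg)

/-- **the closed points of the `∞`-component outside the nodes** (both charts). -/
def s44c_five_Xi :
    s44c_Pts (s33y_Ci G φ M p hpM hdeg hT hdegM hπ e ε he hε hεinv hε0 hpe hperf)
      (s44c_Pt OO ϖF S₁ true ⊕ s44c_Pt OO ϖF S₂ true) :=
  (s44c_five_ptsI1 M p hpM h5 K₀ φ κ G hdeg hT hdegM hπ e ε he hε hεinv hε0 hpe hperf).sum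
    (s44c_five_ptsI2 M p hpM h5 K₀ φ κ G hdeg hT hdegM hπ e ε he hε hεinv hε0 hpe hperf)

/-- **the closed points of the `0`-component outside the nodes** (both charts). -/
def s44c_five_Xz :
    s44c_Pts (s33y_Cz G φ M p hpM hdeg hT hdegM hπ e ε he hε hεinv hε0 hpe hperf)
      (s44c_Pt OO ϖF S₁ false ⊕ s44c_Pt OO ϖF S₂ false) :=
  (s44c_five_ptsZ1 M p hpM h5 K₀ φ κ G hdeg hT hdegM hπ e ε he hε hεinv hε0 hpe hperf).sum
    (s44c_five_ptsZ2 M p hpM h5 K₀ φ κ G hdeg hT hdegM hπ e ε he hε hεinv hε0 hpe hperf)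

/-- **the places through a node.** -/
def s44c_five_Ns (s : s33s_Node OO ϖF S₁) : Set (Place K₀ (s34m_F K₀ (M * p))) :=
  s44c_thr OO S₁ s.1

/-- **per-node [GLUE] for `s33s_datum_five`.** -/
theorem s44c_five_glueAt :
    s44c_GlueAt
      (s33s_datum_five M p hpM h5 K₀ φ κ G hdeg hT hdegM hπ e ε he hε hεinv hε0 hpe hperf)
      (s44c_five_Ns M p hpM K₀ φ κ G) :=
  haveI := s44c_ffGen1 M p K₀ φ
  s44c_glueAt_datumW G φ M p hpM hdeg hT hdegM hπ e ε he hε hεinv hε0 hpe hperf jM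
    (s18g_jF_mem_V G M hFM) _ _ _ jN (s34m_alpha_jF M p) _ _ _ _

/-- `red_∞ (1 / j) = 1 / j̄`. -/
theorem s44c_redO_jinv_true :
    s33s_redO G φ M p hp.out hpM (modularFunctionFieldFullC κ M)
      (s33s_w_hF G φ M p hpM hdeg hT hdegM) true
      ⟨jN⁻¹, s34d2_j_inv_mem_O G φ M p hp.out hpM⟩ =
      s18g_redF G M hFM hT hdegM ⟨jM⁻¹, s18g_jF_inv_mem_V G M hFM⟩ ^ 1 := by
  rw [pow_one]
  apply Subtype.ext
  rw [s33s_coe_redO, s33s_redL_true, s44c_hred2]
  have h := s34m_redInf_alpha G M p ⟨jM⁻¹, s18g_jF_inv_mem_V G M hFM⟩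
  have h2 : s34m_redInf G M ⟨jM⁻¹, s18g_jF_inv_mem_V G M hFM⟩ = (jqModC κ)⁻¹ :=
    s44c_hred2 (G := G) (hT := hT) (hdegM := hdegM)
  rw [h2] at h
  rw [← h]
  refine congrArg (s34m_redInf G (M * p)) (Subtype.ext ?_)
  show jN⁻¹ = heckeAlphaBar K₀ M p jM⁻¹
  rw [map_inv₀, s34m_alpha_jF]

/-- `red_0 (1 / j) = (1 / j̄) ^ p`. -/
theorem s44c_redO_jinv_false :
    s33s_redO G φ M p hp.out hpM (modularFunctionFieldFullC κ M)
      (s33s_w_hF G φ M p hpM hdeg hT hdegM) false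
      ⟨jN⁻¹, s34d2_j_inv_mem_O G φ M p hp.out hpM⟩ =
      s18g_redF G M hFM hT hdegM ⟨jM⁻¹, s18g_jF_inv_mem_V G M hFM⟩ ^ p := by
  apply Subtype.ext
  rw [s33s_coe_redO, s33s_redL_false, SubmonoidClass.coe_pow, s44c_hred2]
  have h := s34m_redZero_alpha G φ M p hp.out hpM ⟨jM⁻¹, s18g_jF_inv_mem_V G M hFM⟩
  have h2 : s34m_redInf G M ⟨jM⁻¹, s18g_jF_inv_mem_V G M hFM⟩ = (jqModC κ)⁻¹ :=
    s44c_hred2 (G := G) (hT := hT) (hdegM := hdegM)
  have e1 : qExpand κ p ((jqModC κ)⁻¹) = ((jqModC κ)⁻¹) ^ p := by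
    rw [inv_pow, ← s34df_qExpand_jqModC p hp.out]
    exact map_inv₀ (qExpand κ p) (jqModC κ)
  rw [h2, e1] at h
  rw [← h]
  refine congrArg (s34m_redZero G φ M p hp.out hpM) (Subtype.ext ?_)
  show jN⁻¹ = heckeAlphaBar K₀ M p jM⁻¹
  rw [map_inv₀, s34m_alpha_jF]

/-- the element `1 / j` of the chart ring of `{1 / j regular}`. -/
def s44c_vInf : s34x_ring (s34x_infRing OO) S₂ :=
  ⟨jN⁻¹, s33n_jinv_mem_ring G φ M p hp.out hpM⟩

/-- no node of the chart `{1 / j regular}` contains `1 / j` (helper6's (NI)). -/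
theorem s44c_vInf_not_mem (s : s33s_Node OO ϖF S₂) : s44c_vInf M p hpM K₀ φ κ G ∉ s.1 := by
  exact @s33n_no_node_at_infty _ _ _ _ _ G φ M p _ _ _ hp.out hpM s.1 s.2.1.isPrime s.2.2.1 s.2.2.2

include h5 in
/-- **a function on a component which is regular at all branches of the nodes and at all other closed points
is a constant** (generic component). -/
theorem s44c_five_const_aux (i : Bool) (n : ℕ) (hn : 1 ≤ n)
    (hrv : s33s_redO G φ M p hp.out hpM (modularFunctionFieldFullC κ M)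
      (s33s_w_hF G φ M p hpM hdeg hT hdegM) i
      ⟨jN⁻¹, s34d2_j_inv_mem_O G φ M p hp.out hpM⟩ =
      s18g_redF G M hFM hT hdegM ⟨jM⁻¹, s18g_jF_inv_mem_V G M hFM⟩ ^ n)
    (ψ : ↥FbM)
    (h1 : haveI := s44c_ffGen1 M p K₀ φ
      ∀ s, ψ ∈ s44c_WnW G φ M p hpM hdeg hT hdegM jM (s18g_jF_mem_V G M hFM)
        (by rw [s44c_hred1]; exact s37b_coord_jq κ p)
        (by intro τ; rw [s44c_hred1]; exact coeffMap_jqModC _)
        (s34df_hmain_five M p h5 K₀ φ κ G hπ hT hdegM).1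
        jN (s34m_alpha_jF M p)
        (s34f_alpha_j G φ M p hp.out hpM)
        (fun g hg => s34d_alpha_liftJ₁ G φ M p hp.out hpM g hg)
        (fun g hg => s34d_beta_liftJ₁ G φ M p hp.out hpM g hg) i s)
    (h2 : haveI := s44c_ffGen1 M p K₀ φ
      ∀ z, ψ ∈ s44c_ptWW G φ M p hpM hdeg hT hdegM jM (s18g_jF_mem_V G M hFM)
        (by rw [s44c_hred1]; exact s37b_coord_jq κ p)
        (by intro τ; rw [s44c_hred1]; exact coeffMap_jqModC _)
        (s34df_hmain_five M p h5 K₀ φ κ G hπ hT hdegM).1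
        jN (s34m_alpha_jF M p)
        (s34f_alpha_j G φ M p hp.out hpM)
        (fun g hg => s34d_alpha_liftJ₁ G φ M p hp.out hpM g hg)
        (fun g hg => s34d_beta_liftJ₁ G φ M p hp.out hpM g hg) i z)
    (h3 : haveI := s44c_ffGen1 M p K₀ φ
      haveI := s44c_ffGen2 M p K₀ φ
      ∀ z, ψ ∈ s44c_ptWW G φ M p hpM hdeg hT hdegM jM⁻¹ (s18g_jF_inv_mem_V G M hFM)
        (by rw [s44c_hred2]; exact s37b_coord_inv (s37b_coord_jq κ p))
        (by intro τ; rw [s44c_hred2, map_inv₀, coeffMap_jqModC])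
        (s34df_hmain_five M p h5 K₀ φ κ G hπ hT hdegM).2
        jN⁻¹ (by rw [map_inv₀, s34m_alpha_jF])
        (s34f_alpha_inv G φ M p hp.out hpM)
        (fun g hg => s34d_alpha_liftJ₂ G φ M p hp.out hpM g hg)
        (fun g hg => s34d_beta_liftJ₂ G φ M p hp.out hpM g hg) i z) :
    ∃ c : κ, ψ = algebraMap κ ↥FbM c := by
  haveI := s44c_ffGen1 M p K₀ φ
  haveI := s44c_ffGen2 M p K₀ φ
  have hint1 := s44c_W_integral G φ M p hpM hdeg hT hdegM jM (s18g_jF_mem_V G M hFM)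
    (by rw [s44c_hred1]; exact s37b_coord_jq κ p)
    (by intro τ; rw [s44c_hred1]; exact coeffMap_jqModC _)
    (s34df_hmain_five M p h5 K₀ φ κ G hπ hT hdegM).1
    jN (s34m_alpha_jF M p)
    (s34f_alpha_j G φ M p hp.out hpM)
    (fun g hg => s34d_alpha_liftJ₁ G φ M p hp.out hpM g hg)
    (fun g hg => s34d_beta_liftJ₁ G φ M p hp.out hpM g hg) i ψ h1 h2
  have hinv : s18g_redF G M hFM hT hdegM ⟨jM⁻¹, s18g_jF_inv_mem_V G M hFM⟩ =
      (s18g_redF G M hFM hT hdegM ⟨jM, s18g_jF_mem_V G M hFM⟩)⁻¹ :=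
    s18f_redF_inv G M hT hdegM _ (s18g_jF_ne_zero M) (s18g_jF_mem_V G M hFM) _
  have hint2 := s44c_W_integral_of_inv G φ M p hpM hdeg hT hdegM hπ jM⁻¹
    (s18g_jF_inv_mem_V G M hFM)
    (by rw [s44c_hred2]; exact s37b_coord_inv (s37b_coord_jq κ p))
    (by intro τ; rw [s44c_hred2, map_inv₀, coeffMap_jqModC])
    (s34df_hmain_five M p h5 K₀ φ κ G hπ hT hdegM).2
    jN⁻¹ (by rw [map_inv₀, s34m_alpha_jF])
    (s34f_alpha_inv G φ M p hp.out hpM)
    (fun g hg => s34d_alpha_liftJ₂ G φ M p hp.out hpM g hg)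
    (fun g hg => s34d_beta_liftJ₂ G φ M p hp.out hpM g hg) i ψ
    (by rw [hinv, inv_inv]; exact hint1)
    (s44c_vInf M p hpM K₀ φ κ G) (s44c_vInf_not_mem M p hpM K₀ φ κ G) n hn hrv h3
  rw [hinv] at hint2
  have hz : IsIntegral κ ψ := s18n_isIntegral_of_adjoin_of_adjoin_inv _ _ hint1 hint2
  have hz' : IsIntegral κ ((ψ : ↥FbM) : LaurentSeries κ) :=
    (isIntegral_algHom_iff (modularFunctionFieldFullC κ M).val Subtype.val_injective).mpr hz
  obtain ⟨c, hc⟩ := s33i_laurent_const_of_isIntegral _ hz'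
  exact ⟨c, Subtype.ext hc⟩

/-- **"regular everywhere on the complete `∞`-component ⇒ constant"** for `s33s_datum_five`. -/
theorem s44c_five_constI :
    s44c_ConstI
      (s33s_datum_five M p hpM h5 K₀ φ κ G hdeg hT hdegM hπ e ε he hε hεinv hε0 hpe hperf)
      (s44c_five_Xi M p hpM h5 K₀ φ κ G hdeg hT hdegM hπ e ε he hε hεinv hε0 hpe hperf) := by
  intro ψ hW hV
  exact s44c_five_const_aux M p hpM h5 K₀ φ κ G hdeg hT hdegM hπ true 1 le_rfl
    (s44c_redO_jinv_true M p hpM K₀ φ κ G hdeg hT hdegM) ψ (fun s => hW s)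
    (fun z => hV (Sum.inl z)) (fun z => hV (Sum.inr z))

/-- **"regular everywhere on the complete `0`-component ⇒ constant"** for `s33s_datum_five`. -/
theorem s44c_five_constZ :
    s44c_ConstZ
      (s33s_datum_five M p hpM h5 K₀ φ κ G hdeg hT hdegM hπ e ε he hε hεinv hε0 hpe hperf)
      (s44c_five_Xz M p hpM h5 K₀ φ κ G hdeg hT hdegM hπ e ε he hε hεinv hε0 hpe hperf) := by
  intro ψ hW hV
  exact s44c_five_const_aux M p hpM h5 K₀ φ κ G hdeg hT hdegM hπ false p hp.out.one_le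
    (s44c_redO_jinv_false M p hpM K₀ φ κ G hdeg hT hdegM) ψ (fun s => hW s)
    (fun z => hV (Sum.inl z)) (fun z => hV (Sum.inr z))

end Five

end Fermat.Agent.Lib.S44
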