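/-
M-AT-P programme (S44), (★): FROM THE FIRST-ORDER CORE TO FINITENESS AT A NODE — the thickness-free
arithmetic (owner: helper4).  ABSTRACT (Σ-datum of `Lib/S33/CritSs`), no modular curve.

* `s44c_vi`, `s44c_vz`, `s44c_delta Z F = V_0 F - V_∞ F` : the two Gauss valuations as FUNCTIONS, and their
  difference `δ`; `δ` is a homomorphism `𝓕ˣ → ℤ` killing the constants;
* `s44c_Unit.zpow`;
* **`s44c_local_pth`** (G5): if `E, η` are units at the places `T` through a node, `p ^ 2 ∣ δ E` and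
  `¬ p ^ 2 ∣ δ η`, then `δ E = p · δ g` for some unit `g` at `T` (`g` a monomial in `E`, `η`).  Hence
  `f = φ ^ p E = (φ g) ^ p υ` with `υ = E / g ^ p` a unit at `T` with `V_0 υ = V_∞ υ`
  (`s44c_local_fin`): NO slope, NO thickness.
-/
import Fermat.Agent.Lib.S44.CoreDec

set_option autoImplicit false
set_option linter.style.haveILetI false

noncomputable section

namespace Fermat.Agent.Lib.S44

open AlgebraicCurve Fermat.Agent.Lib.FF Fermat.Agent.Lib.S33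

section ValFun

variable {L₀ 𝓕 κ Fb : Type*} [Field L₀] [Field 𝓕] [Algebra L₀ 𝓕] [Field κ] [Field Fb] [Algebra κ Fb]
variable (D : s33f_Datum L₀ 𝓕 κ Fb)

open Classical in
/-- the Gauss valuation of the component as a function (`0` at `0`). -/
def s44c_v (x : 𝓕) : ℤ := if h : x ≠ 0 then (s44c_exists_val (D := D) h).choose else 0

variable {D}

theorem s44c_v_spec {x : 𝓕} (hx : x ≠ 0) : s44c_Val D (s44c_v D x) x := by
  unfold s44c_v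
  rw [dif_pos hx]
  exact (s44c_exists_val (D := D) hx).choose_spec

theorem s44c_Val.v_eq {n : ℤ} {x : 𝓕} (h : s44c_Val D n x) : s44c_v D x = n :=
  (s44c_v_spec h.ne_zero).unique h

theorem s44c_v_mul {x y : 𝓕} (hx : x ≠ 0) (hy : y ≠ 0) :
    s44c_v D (x * y) = s44c_v D x + s44c_v D y :=
  ((s44c_v_spec hx).mul (s44c_v_spec hy)).v_eq

theorem s44c_v_inv {x : 𝓕} (hx : x ≠ 0) : s44c_v D x⁻¹ = - s44c_v D x :=
  (s44c_v_spec hx).inv.v_eq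

theorem s44c_v_one : s44c_v D (1 : 𝓕) = 0 := s44c_val_one.v_eq

theorem s44c_v_zpow {x : 𝓕} (hx : x ≠ 0) (n : ℤ) : s44c_v D (x ^ n) = n * s44c_v D x := by
  induction n using Int.induction_on with
  | zero => rw [zpow_zero, s44c_v_one, zero_mul]
  | succ n ih =>
    rw [zpow_add_one₀ hx, s44c_v_mul (zpow_ne_zero _ hx) hx, ih]
    ring
  | pred n ih =>
    rw [zpow_sub_one₀ hx, s44c_v_mul (zpow_ne_zero _ hx) (inv_ne_zero hx), ih, s44c_v_inv hx]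
    ring

theorem s44c_v_pow {x : 𝓕} (hx : x ≠ 0) (n : ℕ) : s44c_v D (x ^ n) = n * s44c_v D x := by
  rw [← zpow_natCast, s44c_v_zpow hx]

end ValFun

section Delta

variable {L₀ 𝓕' κ Fb : Type*} [Field L₀] [Field 𝓕'] [Algebra L₀ 𝓕'] [Field κ] [Field Fb] [Algebra κ Fb]
variable {D' : s33f_Datum L₀ 𝓕' κ Fb} {𝓕 : Type*} [Field 𝓕] [Algebra L₀ 𝓕]
variable {ι : Type*} {k : ι → Type*} [∀ s, Field (k s)] [∀ s, Algebra κ (k s)]
variable (Z : s33z_Datum D' 𝓕 ι k)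

/-- `δ F = V_0 F - V_∞ F`. -/
def s44c_delta (F : 𝓕) : ℤ := s44c_v Z.Dz F - s44c_v Z.Di F

variable {Z}

theorem s44c_delta_mul {x y : 𝓕} (hx : x ≠ 0) (hy : y ≠ 0) :
    s44c_delta Z (x * y) = s44c_delta Z x + s44c_delta Z y := by
  unfold s44c_delta
  rw [s44c_v_mul hx hy, s44c_v_mul hx hy]
  ring

theorem s44c_delta_inv {x : 𝓕} (hx : x ≠ 0) : s44c_delta Z x⁻¹ = - s44c_delta Z x := by
  unfold s44c_delta
  rw [s44c_v_inv hx, s44c_v_inv hx]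
  ring

theorem s44c_delta_zpow {x : 𝓕} (hx : x ≠ 0) (n : ℤ) :
    s44c_delta Z (x ^ n) = n * s44c_delta Z x := by
  unfold s44c_delta
  rw [s44c_v_zpow hx, s44c_v_zpow hx]
  ring

theorem s44c_delta_pow {x : 𝓕} (hx : x ≠ 0) (n : ℕ) :
    s44c_delta Z (x ^ n) = n * s44c_delta Z x := by
  rw [← zpow_natCast, s44c_delta_zpow hx]

/-- `δ` in terms of the predicate `s44c_Val`. -/
theorem s44c_delta_eq {x : 𝓕} {ni nz : ℤ} (hi : s44c_Val Z.Di ni x) (hz : s44c_Val Z.Dz nz x) :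
    s44c_delta Z x = nz - ni := by
  unfold s44c_delta
  rw [hi.v_eq, hz.v_eq]

/-- `δ` kills the constants. -/
theorem s44c_delta_const {c : L₀} (hc : c ≠ 0) : s44c_delta Z (algebraMap L₀ 𝓕 c) = 0 := by
  have h0 : algebraMap L₀ 𝓕 c ≠ 0 := (map_ne_zero_iff _ (algebraMap L₀ 𝓕).injective).mpr hc
  have hi := s44c_v_spec (D := Z.Di) h0
  have hz : s44c_Val Z.Dz (s44c_v Z.Di (algebraMap L₀ 𝓕 c)) (algebraMap L₀ 𝓕 c) :=
    (s44c_val_const_iff (D := Z.Dz)).mpr ((s44c_val_const_iff (D := Z.Di)).mp hi)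
  rw [s44c_delta_eq hi hz, sub_self]

end Delta

section Local

variable {L₀ 𝓕' κ Fb : Type*} [Field L₀] [Field 𝓕'] [Algebra L₀ 𝓕'] [Field κ] [Field Fb] [Algebra κ Fb]
variable {D' : s33f_Datum L₀ 𝓕' κ Fb} {𝓕 : Type*} [Field 𝓕] [Algebra L₀ 𝓕]
variable {ι : Type*} {k : ι → Type*} [∀ s, Field (k s)] [∀ s, Algebra κ (k s)]
variable {Z : s33z_Datum D' 𝓕 ι k}

theorem s44c_Unit.zpow {T : Set (Place L₀ 𝓕)} {f : 𝓕} (hf : s44c_Unit T f) (n : ℤ) :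
    s44c_Unit T (f ^ n) :=
  ⟨zpow_ne_zero _ hf.1, fun Q hQ => by rw [Q.ord_zpow, hf.2 Q hQ, mul_zero]⟩

/-- arithmetic: `p ^ 2 ∣ l k`, `¬ p ^ 2 ∣ l` ⇒ `p ∣ k`. -/
theorem s44c_dvd_of_sq_dvd_mul {p : ℕ} (hp : p.Prime) {l k : ℤ} (h1 : (p : ℤ) ^ 2 ∣ l * k)
    (h2 : ¬ (p : ℤ) ^ 2 ∣ l) : (p : ℤ) ∣ k := by
  have hpp : Prime (p : ℤ) := Nat.prime_iff_prime_int.mp hp
  by_cases hl : (p : ℤ) ∣ l
  · obtain ⟨l', rfl⟩ := hl
    have hl' : ¬ (p : ℤ) ∣ l' := by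
      rintro ⟨m, rfl⟩
      exact h2 ⟨m, by ring⟩
    have h3 : (p : ℤ) ∣ l' * k := by
      have : (p : ℤ) * (p : ℤ) ∣ (p : ℤ) * (l' * k) := by
        have e : (p : ℤ) * l' * k = (p : ℤ) * (l' * k) := by ring
        rw [← e, ← sq]
        exact h1
      exact (mul_dvd_mul_iff_left hpp.ne_zero).mp this
    rcases hpp.dvd_or_dvd h3 with h | h
    · exact absurd h hl'
    · exact h
  · have h3 : (p : ℤ) ∣ l * k := dvd_trans (dvd_pow_self _ two_ne_zero) h1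
    rcases hpp.dvd_or_dvd h3 with h | h
    · exact absurd h hl
    · exact h

/-- **(G5), the local conclusion**: `E, η` units at `T`, `p ^ 2 ∣ δ E`, `¬ p ^ 2 ∣ δ η` ⇒ there is a unit
`g` at `T` (a monomial in `E` and `η`) with `δ E = p · δ g`. -/
theorem s44c_local_pth {T : Set (Place L₀ 𝓕)} {p : ℕ} (hp : p.Prime) {E η : 𝓕}
    (hE : s44c_Unit T E) (hη : s44c_Unit T η) (h1 : (p : ℤ) ^ 2 ∣ s44c_delta Z E)
    (h2 : ¬ (p : ℤ) ^ 2 ∣ s44c_delta Z η) :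
    ∃ g : 𝓕, s44c_Unit T g ∧ s44c_delta Z E = p * s44c_delta Z g := by
  set x := s44c_delta Z E with hx
  set y := s44c_delta Z η with hy
  -- `l = gcd x y = a x + b y = δ (E ^ a η ^ b)`
  have hbez := Int.gcd_eq_gcd_ab x y
  set l : ℤ := (Int.gcd x y : ℤ) with hl
  have hF0 : s44c_Unit T (E ^ (Int.gcdA x y) * η ^ (Int.gcdB x y)) :=
    (hE.zpow _).mul (hη.zpow _)
  have hδF0 : s44c_delta Z (E ^ (Int.gcdA x y) * η ^ (Int.gcdB x y)) = l := by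
    rw [s44c_delta_mul (zpow_ne_zero _ hE.1) (zpow_ne_zero _ hη.1), s44c_delta_zpow hE.1,
      s44c_delta_zpow hη.1, hbez]
    ring
  have hly : l ∣ y := Int.gcd_dvd_right x y
  obtain ⟨k, hk⟩ : l ∣ x := Int.gcd_dvd_left x y
  have hl2 : ¬ (p : ℤ) ^ 2 ∣ l := fun h => h2 (dvd_trans h hly)
  have hpk : (p : ℤ) ∣ k := s44c_dvd_of_sq_dvd_mul hp (by rw [← hk]; exact h1) hl2
  obtain ⟨k', rfl⟩ := hpk
  refine ⟨(E ^ (Int.gcdA x y) * η ^ (Int.gcdB x y)) ^ k', hF0.zpow _, ?_⟩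
  rw [s44c_delta_zpow hF0.1, hδF0, hk]
  ring

/-- **finiteness at a node**: `f = φ ^ p E`, `E, η` units at `T`, `p ^ 2 ∣ δ E`, `¬ p ^ 2 ∣ δ η` ⇒
`f = G ^ p υ` with `υ` a unit at `T` and `δ υ = 0`. -/
theorem s44c_local_fin {T : Set (Place L₀ 𝓕)} {p : ℕ} (hp : p.Prime) {f φ E η : 𝓕}
    (hf : f = φ ^ p * E) (hE : s44c_Unit T E) (hη : s44c_Unit T η)
    (h1 : (p : ℤ) ^ 2 ∣ s44c_delta Z E) (h2 : ¬ (p : ℤ) ^ 2 ∣ s44c_delta Z η) :
    ∃ G υ : 𝓕, f = G ^ p * υ ∧ s44c_Unit T υ ∧ s44c_delta Z υ = 0 := by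
  obtain ⟨g, hg, e⟩ := s44c_local_pth (Z := Z) hp hE hη h1 h2
  refine ⟨φ * g, E * (g ^ p)⁻¹, ?_, hE.mul (hg.pow p).inv, ?_⟩
  · rw [hf, mul_pow]
    have := hg.1
    field_simp
  · rw [s44c_delta_mul hE.1 (inv_ne_zero (pow_ne_zero _ hg.1)), s44c_delta_inv (pow_ne_zero _ hg.1),
      s44c_delta_pow hg.1, e]
    ring

end Local

end Fermat.Agent.Lib.S44
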