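/-
M-AT-P programme (S44), (★): THE HECKE ARGUMENT (G3) + (G4) — from "the slope defect is constant" to
"`p ^ 2 ∣ δ (E_s)` at every node" (owner: helper4).  ABSTRACT (Σ-datum of `Lib/S33/CritSs`), no modular curve.

`T : 𝓕 →* 𝓕` is the Hecke correspondence on functions (`τ_ℓ = N_α ∘ β^*`, helper3's `s33t_tau`), of which only
the following is used:
* (T2) `T c = c ^ (ℓ + 1)` on constants;
* (T3) `T (1 + ϖ ^ n O_i) ⊆ 1 + ϖ ^ n O_i` for both components (helper3's `s44h_tau_cong_Vinf/_Vzero`);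
* (T4) `V_i (T x) = (ℓ + 1) V_i (x)` (helper3's `s44h_tau_val_Vinf/_Vzero`);
* (T5) `T` commutes with the Galois automorphism `G.s`.

Data: `a ^ p · h = c₁ · (G f / f)` with `a ≡ 1 mod ϖ ^ b`, leading pair of `a` at depth `b` a pair of CONSTANTS
`(Ai, Az)` (`s44c_slope_at_b`), `h ≡ 1 mod ϖ ^ (p b + 1)`; the Hecke relation `T f = c · g ^ p · f ^ m`
(`T_ℓ x = m x` on the Jacobian) with `p ∤ ℓ + 1 - m`.

**`s44c_hecke_defect`** : `δ f = p q` and `q̄ · c̄τ = Az - Ai`.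

Proof: (G3) `(ℓ + 1) δ f = δ (T f) = p δ g + m δ f`, so `p ∣ δ f` and `δ g = (ℓ + 1 - m) q`.  (G4) apply `G / id` to the
Hecke relation: `k := T a / ((G g / g) a ^ m)` has `k ^ p = c₂ · h ^ m / T h ≡ c₂ mod ϖ ^ (p b + 1)` and `k ≡ 1 mod ϖ ^ b`;
hence (sub-critical `p`-th power) `lead_b k` is the SAME constant in both components; but
`lead_b^i k = (ℓ + 1) A_i - c̄τ V_i (g) - m A_i`; subtract.  NO node, NO place enters.

**`s44c_star_local`** : the slope lemma + the Hecke argument + (G5): at every node `f = G ^ p υ`, `υ` a unit at the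
node with `V_∞ υ = V_0 υ`.
-/
import Fermat.Agent.Lib.S44.CoreFin

set_option autoImplicit false
set_option linter.style.haveILetI false

noncomputable section

namespace Fermat.Agent.Lib.S44

open AlgebraicCurve Fermat.Agent.Lib.FF Fermat.Agent.Lib.S33

/-! ### multiplicative maps of a field -/

section Mul

variable {𝓕 : Type*} [Field 𝓕] (T : 𝓕 →* 𝓕)

theorem s44c_T_ne_zero {x : 𝓕} (hx : x ≠ 0) : T x ≠ 0 := by
  intro h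
  have : T x * T x⁻¹ = 1 := by rw [← map_mul, mul_inv_cancel₀ hx, map_one]
  rw [h, zero_mul] at this
  exact zero_ne_one this

theorem s44c_T_inv {x : 𝓕} (hx : x ≠ 0) : T x⁻¹ = (T x)⁻¹ := by
  have : T x * T x⁻¹ = 1 := by rw [← map_mul, mul_inv_cancel₀ hx, map_one]
  exact eq_inv_of_mul_eq_one_right this

theorem s44c_T_div {x y : 𝓕} (hy : y ≠ 0) : T (x / y) = T x / T y := by
  rw [div_eq_mul_inv, map_mul, s44c_T_inv T hy, div_eq_mul_inv]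

theorem s44c_T_zpow {x : 𝓕} (hx : x ≠ 0) (n : ℤ) : T (x ^ n) = T x ^ n := by
  cases n with
  | ofNat n => rw [Int.ofNat_eq_natCast, zpow_natCast, zpow_natCast, map_pow]
  | negSucc n =>
    rw [zpow_negSucc, zpow_negSucc, s44c_T_inv T (pow_ne_zero _ hx), map_pow]

end Mul

/-! ### one component -/

section One

variable {L₀ 𝓕 κ Fb : Type*} [Field L₀] [Field 𝓕] [Algebra L₀ 𝓕] [Field κ] [Field Fb] [Algebra κ Fb]
variable {D : s33f_Datum L₀ 𝓕 κ Fb}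

/-- **(α)**: if `a ≡ 1 mod ϖ ^ b` has the CONSTANT leading term `A`, then `T a` has the leading term
`(ℓ + 1) A`. -/
theorem s44c_lead_T (T : 𝓕 →* 𝓕) (ℓ : ℕ)
    (hTc : ∀ c : L₀, T (algebraMap L₀ 𝓕 c) = algebraMap L₀ 𝓕 (c ^ (ℓ + 1)))
    (hTcong : ∀ (n : ℕ) (y : 𝓕), s33f_Cong D n y 1 → s33f_Cong D n (T y) 1) {b : ℕ} (hb : 1 ≤ b)
    {a : 𝓕} (ha : s33f_Cong D b a 1) {A : κ} (hA : s33f_lead D b a = algebraMap κ Fb A) :
    s33f_lead D b (T a) = ((ℓ + 1 : ℕ) : Fb) * algebraMap κ Fb A := by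
  obtain ⟨c₀, rfl⟩ := D.resA_surjective A
  obtain ⟨hCcong, hClead, hC0⟩ := s33z_const_corr D hb c₀
  obtain ⟨-, hdeep⟩ := s33z_deepen_comp_const D hb c₀ ha hA
  set C : L₀ := 1 + D.ϖ ^ b * (c₀ : L₀) with hC
  have hC0' : algebraMap L₀ 𝓕 C ≠ 0 := (map_ne_zero_iff _ (algebraMap L₀ 𝓕).injective).mpr hC0
  set a' : 𝓕 := (algebraMap L₀ 𝓕 C)⁻¹ * a with ha'
  have e : a = algebraMap L₀ 𝓕 C * a' := by
    rw [ha', ← mul_assoc, mul_inv_cancel₀ hC0', one_mul]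
  have hTa' : s33f_Cong D (b + 1) (T a') 1 := hTcong _ _ hdeep
  have hTa'b : s33f_Cong D b (T a') 1 := hTa'.mono (Nat.le_succ b)
  have hl0 : s33f_lead D b (T a') = 0 := (s33f_lead_eq_zero_iff hTa'b).mpr hTa'
  have hpow : s33f_Cong D b (algebraMap L₀ 𝓕 C ^ (ℓ + 1)) 1 := hCcong.pow₁ _
  rw [e, map_mul, hTc, map_pow, s33f_lead_mul hb hpow hTa'b, hl0, add_zero,
    s33f_lead_npow hb hCcong, hClead]

/-- a constant `≡ 1 mod ϖ ^ n` is `1 + ϖ ^ n c₃`, `c₃ ∈ A₀`. -/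
theorem s44c_const_of_cong {n : ℕ} {c : L₀} (h : s33f_Cong D n (algebraMap L₀ 𝓕 c) 1) :
    ∃ c₃ : D.A₀, c = 1 + D.ϖ ^ n * (c₃ : L₀) := by
  obtain ⟨z, hz, e⟩ := h
  have hϖn : D.ϖ ^ n ≠ 0 := pow_ne_zero _ D.ϖ_ne_zero
  have hz' : z = algebraMap L₀ 𝓕 ((c - 1) / D.ϖ ^ n) := by
    have h1 : s33f_pi D ^ n = algebraMap L₀ 𝓕 (D.ϖ ^ n) := by
      unfold s33f_pi
      rw [map_pow]
    have h2 : algebraMap L₀ 𝓕 (D.ϖ ^ n) ≠ 0 :=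
      (map_ne_zero_iff _ (algebraMap L₀ 𝓕).injective).mpr hϖn
    rw [map_div₀, map_sub, map_one, e, h1, mul_div_cancel_left₀ _ h2]
  rw [hz'] at hz
  refine ⟨⟨_, (D.const_mem_iff _).mp hz⟩, ?_⟩
  show c = 1 + D.ϖ ^ n * ((c - 1) / D.ϖ ^ n)
  rw [mul_div_cancel₀ _ hϖn]
  ring

/-- **(β), one component**: `k ≡ 1 mod ϖ ^ b`, `k ^ p = (1 + ϖ ^ (p b) c₃) · ε`, `ε ≡ 1 mod ϖ ^ (p b + 1)`, `p b`
sub-critical, `d ^ p = c̄₃` ⇒ the leading term of `k` at depth `b` is the constant `d`. -/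
theorem s44c_root_lead {b : ℕ} (hb : 1 ≤ b) (hsub : (D.p - 1) * b < D.e) {k ε : 𝓕} {c₃ : D.A₀}
    {d : κ} (hk : s33f_Cong D b k 1) (hε : s33f_Cong D (D.p * b + 1) ε 1)
    (e : k ^ D.p = algebraMap L₀ 𝓕 (1 + D.ϖ ^ (D.p * b) * (c₃ : L₀)) * ε)
    (hd : d ^ D.p = D.resA c₃) : s33f_lead D b k = algebraMap κ Fb d := by
  have hp := D.p_prime
  haveI : Fact D.p.Prime := ⟨hp⟩
  haveI : CharP Fb D.p := s33f_charP_Fb D
  have hsc : s33f_SubCrit D (D.p * b) := s44c_subCrit_mul D le_rfl hsub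
  have hns := s33z_not_superCrit_of_subCrit hsc
  have hnc := s33z_not_crit_of_subCrit hsc
  have hpb1 : 1 ≤ D.p * b := Nat.mul_pos hp.pos hb
  obtain ⟨x, hx, rfl, elead⟩ := hk.exists_eq
  obtain ⟨hc0, hl0⟩ := s33f_lead_pow (D := D) (m := b) (a := D.p * b) hb rfl hns hx
  have hphi : s33f_phi D (D.p * b) (s33f_redX D x) = s33f_redX D x ^ D.p := by
    unfold s33f_phi
    rw [if_neg hnc]
  obtain ⟨hCcong, hClead, -⟩ := s33z_const_corr D hpb1 c₃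
  have hε0 : s33f_Cong D (D.p * b) ε 1 := hε.mono (Nat.le_succ _)
  have hεl : s33f_lead D (D.p * b) ε = 0 := (s33f_lead_eq_zero_iff hε0).mpr hε
  have h1 : s33f_lead D (D.p * b) ((1 + s33f_pi D ^ b * x) ^ D.p) =
      algebraMap κ Fb (D.resA c₃) := by
    rw [e, s33f_lead_mul hpb1 hCcong hε0, hεl, add_zero, hClead]
  rw [hl0, hphi, ← hd, map_pow] at h1
  rw [elead]
  exact frobenius_inj Fb D.p h1

end One

/-! ### the Hecke argument -/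

section Two

variable {L₀ 𝓕' κ Fb : Type*} [Field L₀] [Field 𝓕'] [Algebra L₀ 𝓕'] [Field κ] [Field Fb] [Algebra κ Fb]
variable {D' : s33f_Datum L₀ 𝓕' κ Fb} {𝓕 : Type*} [Field 𝓕] [Algebra L₀ 𝓕]
variable {ι : Type*} {k : ι → Type*} [∀ s, Field (k s)] [∀ s, Algebra κ (k s)]
variable {Z : s33z_Datum D' 𝓕 ι k}

/-- **(G3)**: `p ∣ δ f`, and `δ g = (ℓ + 1 - m) · δ f / p`. -/
theorem s44c_hecke_delta (T : 𝓕 →* 𝓕) (ℓ : ℕ)
    (hTvi : ∀ (n : ℤ) (x : 𝓕), s44c_Val Z.Di n x → s44c_Val Z.Di (n * ((ℓ : ℤ) + 1)) (T x))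
    (hTvz : ∀ (n : ℤ) (x : 𝓕), s44c_Val Z.Dz n x → s44c_Val Z.Dz (n * ((ℓ : ℤ) + 1)) (T x))
    {f g : 𝓕} {c : L₀} (hc : c ≠ 0) (hf : f ≠ 0) (hg : g ≠ 0) (m : ℤ)
    (hT : T f = algebraMap L₀ 𝓕 c * g ^ D'.p * f ^ m) (hm : ¬ (D'.p : ℤ) ∣ (ℓ : ℤ) + 1 - m) :
    ∃ q : ℤ, s44c_delta Z f = D'.p * q ∧ s44c_delta Z g = ((ℓ : ℤ) + 1 - m) * q := by
  have hp := D'.p_prime
  have hc0 : algebraMap L₀ 𝓕 c ≠ 0 := (map_ne_zero_iff _ (algebraMap L₀ 𝓕).injective).mpr hc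
  have hδT : s44c_delta Z (T f) = ((ℓ : ℤ) + 1) * s44c_delta Z f := by
    have hi := hTvi _ _ (s44c_v_spec (D := Z.Di) hf)
    have hz := hTvz _ _ (s44c_v_spec (D := Z.Dz) hf)
    rw [s44c_delta_eq hi hz]
    unfold s44c_delta
    ring
  have hδT' : s44c_delta Z (T f) = D'.p * s44c_delta Z g + m * s44c_delta Z f := by
    rw [hT, s44c_delta_mul (mul_ne_zero hc0 (pow_ne_zero _ hg)) (zpow_ne_zero _ hf),
      s44c_delta_mul hc0 (pow_ne_zero _ hg), s44c_delta_const hc, s44c_delta_pow hg,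
      s44c_delta_zpow hf]
    ring
  have hrel : ((ℓ : ℤ) + 1 - m) * s44c_delta Z f = D'.p * s44c_delta Z g := by
    rw [hδT] at hδT'
    linear_combination hδT'
  have hdvd : (D'.p : ℤ) ∣ s44c_delta Z f := by
    have h1 : (D'.p : ℤ) ∣ ((ℓ : ℤ) + 1 - m) * s44c_delta Z f := ⟨_, hrel⟩
    exact ((Nat.prime_iff_prime_int.mp hp).dvd_or_dvd h1).resolve_left hm
  obtain ⟨q, hq⟩ := hdvd
  refine ⟨q, hq, ?_⟩
  have hp0 : (D'.p : ℤ) ≠ 0 := by exact_mod_cast hp.ne_zero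
  apply mul_left_cancel₀ hp0
  rw [← hrel, hq]
  ring

/-- **(G3) + (G4), THE HECKE ARGUMENT** (see the header). -/
theorem s44c_hecke_defect (G : s33z_GalAut Z) {b : ℕ} {cbar : κ} (hb : 1 ≤ b)
    (hsub : (D'.p - 1) * b < D'.e)
    (hWi : s44c_FirstOrder G.Gi b cbar) (hWz : s44c_FirstOrder G.Gz b cbar)
    (T : 𝓕 →* 𝓕) (ℓ : ℕ)
    (hTc : ∀ c : L₀, T (algebraMap L₀ 𝓕 c) = algebraMap L₀ 𝓕 (c ^ (ℓ + 1)))
    (hTi : ∀ (n : ℕ) (y : 𝓕), s33f_Cong Z.Di n y 1 → s33f_Cong Z.Di n (T y) 1)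
    (hTz : ∀ (n : ℕ) (y : 𝓕), s33f_Cong Z.Dz n y 1 → s33f_Cong Z.Dz n (T y) 1)
    (hTvi : ∀ (n : ℤ) (x : 𝓕), s44c_Val Z.Di n x → s44c_Val Z.Di (n * ((ℓ : ℤ) + 1)) (T x))
    (hTvz : ∀ (n : ℤ) (x : 𝓕), s44c_Val Z.Dz n x → s44c_Val Z.Dz (n * ((ℓ : ℤ) + 1)) (T x))
    (hTG : ∀ x : 𝓕, T (G.s x) = G.s (T x))
    {f h a g : 𝓕} {c₁ c : L₀} (hc₁ : c₁ ≠ 0) (hc : c ≠ 0) (hf : f ≠ 0) (hg : g ≠ 0)
    (ha : s33z_Cong Z b a) {Ai Az : κ}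
    (hAi : s33f_lead Z.Di b a = algebraMap κ Fb Ai) (hAz : s33f_lead Z.Dz b a = algebraMap κ Fb Az)
    (hh : s33z_Cong Z (D'.p * b + 1) h)
    (heq : a ^ D'.p * h = algebraMap L₀ 𝓕 c₁ * (G.s f / f))
    (m : ℤ) (hT : T f = algebraMap L₀ 𝓕 c * g ^ D'.p * f ^ m)
    (hm : ¬ (D'.p : ℤ) ∣ (ℓ : ℤ) + 1 - m) :
    ∃ q : ℤ, s44c_delta Z f = D'.p * q ∧ (q : κ) * cbar = Az - Ai := by
  have hp := D'.p_prime
  haveI : CharP κ D'.p := s33f_charP_κ D'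
  obtain ⟨q, hq, hδg⟩ := s44c_hecke_delta (Z := Z) T ℓ hTvi hTvz hc hf hg m hT hm
  refine ⟨q, hq, ?_⟩
  have hpb1 : 1 ≤ D'.p * b + 1 := Nat.le_add_left _ _
  have hpb : 1 ≤ D'.p * b := Nat.mul_pos hp.pos hb
  -- non-vanishing
  have ha0 : a ≠ 0 := s33f_ne_zero_of_cong_one hb ha.1
  have hh0 : h ≠ 0 := s33f_ne_zero_of_cong_one hpb1 hh.1
  have hsf0 : G.s f ≠ 0 := (map_ne_zero_iff _ G.s.injective).mpr hf
  have hsg0 : G.s g ≠ 0 := (map_ne_zero_iff _ G.s.injective).mpr hg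
  have hc0 : algebraMap L₀ 𝓕 c ≠ 0 := (map_ne_zero_iff _ (algebraMap L₀ 𝓕).injective).mpr hc
  have hc₁0 : algebraMap L₀ 𝓕 c₁ ≠ 0 := (map_ne_zero_iff _ (algebraMap L₀ 𝓕).injective).mpr hc₁
  have hTa0 : T a ≠ 0 := s44c_T_ne_zero T ha0
  have hTh0 : T h ≠ 0 := s44c_T_ne_zero T hh0
  have hTf0 : T f ≠ 0 := s44c_T_ne_zero T hf
  have hs₀c : G.s₀ c ≠ 0 := (map_ne_zero_iff _ G.s₀.injective).mpr hc
  -- the first differences
  set r : 𝓕 := G.s g / g with hr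
  have hr0 : r ≠ 0 := div_ne_zero hsg0 hg
  obtain ⟨hri, hrli⟩ := hWi _ _ (s44c_v_spec (D := Z.Di) hg)
  obtain ⟨hrz, hrlz⟩ := hWz _ _ (s44c_v_spec (D := Z.Dz) hg)
  have hri' : s33f_Cong Z.Di b r 1 := hri
  have hrz' : s33f_Cong Z.Dz b r 1 := hrz
  have hrli' : s33f_lead Z.Di b r = algebraMap κ Fb ((s44c_v Z.Di g : κ) * cbar) := hrli
  have hrlz' : s33f_lead Z.Dz b r = algebraMap κ Fb ((s44c_v Z.Dz g : κ) * cbar) := hrlz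
  -- `k`
  set kk : 𝓕 := T a * (r * a ^ m)⁻¹ with hkk
  have hTai := hTi b a ha.1
  have hTaz := hTz b a ha.2
  obtain ⟨hami, hamli⟩ := s44c_lead_zpow hb ha.1 m
  obtain ⟨hamz, hamlz⟩ := s44c_lead_zpow hb ha.2 m
  have hki : s33f_Cong Z.Di b kk 1 := hTai.mul₁ ((hri'.mul₁ hami).inv₁ hb)
  have hkz : s33f_Cong Z.Dz b kk 1 := hTaz.mul₁ ((hrz'.mul₁ hamz).inv₁ hb)
  have hlki : s33f_lead Z.Di b kk = ((ℓ + 1 : ℕ) : Fb) * algebraMap κ Fb Ai -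
      (algebraMap κ Fb ((s44c_v Z.Di g : κ) * cbar) + (m : Fb) * algebraMap κ Fb Ai) := by
    rw [hkk, s33f_lead_mul hb hTai ((hri'.mul₁ hami).inv₁ hb), s33f_lead_inv hb (hri'.mul₁ hami),
      s33f_lead_mul hb hri' hami, s44c_lead_T T ℓ hTc hTi hb ha.1 hAi, hrli', hamli, hAi]
    ring
  have hlkz : s33f_lead Z.Dz b kk = ((ℓ + 1 : ℕ) : Fb) * algebraMap κ Fb Az -
      (algebraMap κ Fb ((s44c_v Z.Dz g : κ) * cbar) + (m : Fb) * algebraMap κ Fb Az) := by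
    rw [hkk, s33f_lead_mul hb hTaz ((hrz'.mul₁ hamz).inv₁ hb), s33f_lead_inv hb (hrz'.mul₁ hamz),
      s33f_lead_mul hb hrz' hamz, s44c_lead_T T ℓ hTc hTz hb ha.2 hAz, hrlz', hamlz, hAz]
    ring
  -- `ε`
  set ε : 𝓕 := h ^ m * (T h)⁻¹ with hε
  have hεi : s33f_Cong Z.Di (D'.p * b + 1) ε 1 :=
    (s44c_lead_zpow hpb1 hh.1 m).1.mul₁ ((hTi _ _ hh.1).inv₁ hpb1)
  have hεz : s33f_Cong Z.Dz (D'.p * b + 1) ε 1 :=
    (s44c_lead_zpow hpb1 hh.2 m).1.mul₁ ((hTz _ _ hh.2).inv₁ hpb1)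
  have hε0 : ε ≠ 0 := s33f_ne_zero_of_cong_one hpb1 hεi
  -- the constant
  set c₂ : L₀ := G.s₀ c / c * c₁ ^ (ℓ + 1) * (c₁ ^ m)⁻¹ with hc₂
  -- the key identity `k ^ p = c₂ ε`
  have E1 : G.s f / f = a ^ D'.p * h * (algebraMap L₀ 𝓕 c₁)⁻¹ := by
    rw [heq]
    field_simp
  have E2 : T (G.s f / f) = T a ^ D'.p * T h * (algebraMap L₀ 𝓕 (c₁ ^ (ℓ + 1)))⁻¹ := by
    rw [E1, map_mul, map_mul, map_pow, s44c_T_inv T hc₁0, hTc]
  have E3 : T (G.s f / f) = algebraMap L₀ 𝓕 (G.s₀ c / c) * r ^ D'.p * (G.s f / f) ^ m := by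
    rw [s44c_T_div T hf, hTG, hT, map_mul, map_mul, map_pow, map_zpow₀, G.s_const, hr, map_div₀,
      div_pow, div_zpow]
    field_simp
  have hkey : kk ^ D'.p = algebraMap L₀ 𝓕 c₂ * ε := by
    have h1 : T a ^ D'.p * T h * (algebraMap L₀ 𝓕 (c₁ ^ (ℓ + 1)))⁻¹ =
        algebraMap L₀ 𝓕 (G.s₀ c / c) * r ^ D'.p *
          (a ^ D'.p * h * (algebraMap L₀ 𝓕 c₁)⁻¹) ^ m := by
      rw [← E2, E3, E1]
    have h2 : T a ^ D'.p = algebraMap L₀ 𝓕 (G.s₀ c / c) * r ^ D'.p *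
          (a ^ D'.p * h * (algebraMap L₀ 𝓕 c₁)⁻¹) ^ m * algebraMap L₀ 𝓕 (c₁ ^ (ℓ + 1)) *
          (T h)⁻¹ := by
      rw [← h1]
      have : algebraMap L₀ 𝓕 (c₁ ^ (ℓ + 1)) ≠ 0 := by
        rw [map_pow]
        exact pow_ne_zero _ hc₁0
      field_simp
    rw [hkk, mul_pow, h2, hc₂, hε, map_mul, map_mul, map_inv₀, map_zpow₀, mul_zpow, mul_zpow,
      inv_pow, mul_pow, inv_zpow, ← zpow_natCast (a ^ m), ← zpow_mul, ← zpow_natCast a,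
      ← zpow_mul, mul_comm m (D'.p : ℤ)]
    have ham0 : a ^ ((D'.p : ℤ) * m) ≠ 0 := zpow_ne_zero _ ha0
    have hrp0 : r ^ D'.p ≠ 0 := pow_ne_zero _ hr0
    have hc₁m : algebraMap L₀ 𝓕 c₁ ^ m ≠ 0 := zpow_ne_zero _ hc₁0
    field_simp
  -- `c₂ ≡ 1 mod ϖ ^ (p b)`
  have hsc : s33f_SubCrit Z.Di (D'.p * b) := s44c_subCrit_mul Z.Di le_rfl hsub
  have hns := s33z_not_superCrit_of_subCrit hsc
  have hkp : s33f_Cong Z.Di (D'.p * b) (kk ^ D'.p) 1 := by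
    obtain ⟨x, hx, ex, -⟩ := hki.exists_eq
    rw [ex]
    exact (s33f_lead_pow (D := Z.Di) (m := b) (a := D'.p * b) hb rfl hns hx).1
  have hc₂c : s33f_Cong Z.Di (D'.p * b) (algebraMap L₀ 𝓕 c₂) 1 := by
    have : algebraMap L₀ 𝓕 c₂ = kk ^ D'.p * ε⁻¹ := by
      rw [hkey, mul_assoc, mul_inv_cancel₀ hε0, mul_one]
    rw [this]
    exact hkp.mul₁ ((hεi.mono (Nat.le_succ _)).inv₁ hpb)
  obtain ⟨c₃, hc₃⟩ := s44c_const_of_cong (D := Z.Di) hc₂c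
  obtain ⟨d, hd⟩ := D'.κ_perfect (D'.resA c₃)
  rw [hc₃] at hkey
  have hdi := s44c_root_lead (D := Z.Di) hb hsub hki hεi hkey hd
  have hdz := s44c_root_lead (D := Z.Dz) hb hsub hkz hεz hkey hd
  -- compare
  rw [hlki] at hdi
  rw [hlkz] at hdz
  have hinj := (algebraMap κ Fb).injective
  have hfin : (((ℓ : ℤ) + 1 - m : ℤ) : κ) * (Az - Ai) =
      (((ℓ : ℤ) + 1 - m : ℤ) : κ) * ((q : κ) * cbar) := by
    apply hinj
    have hδ' : ((s44c_v Z.Dz g : ℤ) : κ) - ((s44c_v Z.Di g : ℤ) : κ) =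
        (((ℓ : ℤ) + 1 - m : ℤ) : κ) * (q : κ) := by
      have := congrArg (fun z : ℤ => (z : κ)) hδg
      simp only [s44c_delta] at this
      push_cast at this ⊢
      exact this
    have e1 : algebraMap κ Fb ((((ℓ : ℤ) + 1 - m : ℤ) : κ) * (Az - Ai)) =
        ((ℓ + 1 : ℕ) : Fb) * algebraMap κ Fb Az - (m : Fb) * algebraMap κ Fb Az -
          (((ℓ + 1 : ℕ) : Fb) * algebraMap κ Fb Ai - (m : Fb) * algebraMap κ Fb Ai) := by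
      push_cast
      simp only [map_intCast]
      ring
    have e2 : algebraMap κ Fb ((((ℓ : ℤ) + 1 - m : ℤ) : κ) * ((q : κ) * cbar)) =
        algebraMap κ Fb ((s44c_v Z.Dz g : κ) * cbar) -
          algebraMap κ Fb ((s44c_v Z.Di g : κ) * cbar) := by
      rw [← map_sub, ← sub_mul, hδ']
      congr 1
      ring
    rw [e1, e2]
    linear_combination hdz - hdi
  have hne : (((ℓ : ℤ) + 1 - m : ℤ) : κ) ≠ 0 := by
    intro h0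
    exact hm ((CharP.intCast_eq_zero_iff κ D'.p _).mp h0)
  exact (mul_left_cancel₀ hne hfin).symm

end Two

/-! ### the slope lemma with its constants, and finiteness at the nodes -/

section Star

variable {L₀ 𝓕' κ Fb : Type*} [Field L₀] [Field 𝓕'] [Algebra L₀ 𝓕'] [Field κ] [Field Fb] [Algebra κ Fb]
variable {D' : s33f_Datum L₀ 𝓕' κ Fb} {𝓕 : Type*} [Field 𝓕] [Algebra L₀ 𝓕]
variable {ι : Type*} {k : ι → Type*} [∀ s, Field (k s)] [∀ s, Algebra κ (k s)]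
variable {Z : s33z_Datum D' 𝓕 ι k} {Pi Pz : Type*} {Ns : ι → Set (Place L₀ 𝓕)}

/-- **the slope lemma, fine form**: the normalising constant `c'`, the constants `(Ai, Az)` (the leading pair
of `c' a` at depth `b`) and the slope relation `(nz s - ni s) c̄τ = Az - Ai` at EVERY node. -/
theorem s44c_slope_fine (hglue : s44c_GlueAt Z Ns) (Xi : s44c_Pts Z.Ci Pi) (Xz : s44c_Pts Z.Cz Pz)
    (hci : s44c_ConstI Z Xi) (hcz : s44c_ConstZ Z Xz) (G : s33z_GalAut Z) {b : ℕ} {cbar : κ}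
    (hb : 1 ≤ b) (hsub : (D'.p - 1) * b < D'.e) (hWi : s44c_FirstOrder G.Gi b cbar)
    (hWz : s44c_FirstOrder G.Gz b cbar) {f h a : 𝓕} {c : L₀} (hc : c ≠ 0)
    (hf : f ≠ 0) (ha : a ≠ 0) (hhN : ∀ s, s44c_Unit (Ns s) h)
    (hh : s33z_Cong Z (D'.p * b + 1) h)
    (heq : a ^ D'.p * h = algebraMap L₀ 𝓕 c * (G.s f / f)) {ni nz : ι → ℤ}
    (hnode : s44c_NodeFact Z Ns G.s f ni nz) (hsi : s44c_SmoothFact Z.Ci Xi G.s f)
    (hsz : s44c_SmoothFact Z.Cz Xz G.s f) :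
    ∃ (c' : L₀) (Ai Az : κ), c' ≠ 0 ∧ s33z_Cong Z b (algebraMap L₀ 𝓕 c' * a) ∧
      s33f_lead Z.Di b (algebraMap L₀ 𝓕 c' * a) = algebraMap κ Fb Ai ∧
      s33f_lead Z.Dz b (algebraMap L₀ 𝓕 c' * a) = algebraMap κ Fb Az ∧
      ∀ s, (nz s : κ) * cbar - (ni s : κ) * cbar = Az - Ai := by
  have hpb1 : 1 ≤ D'.p * b + 1 := Nat.le_add_left _ _
  obtain ⟨c', hc', ha1⟩ := s44c_normalise G hb hWi hWz hf ha (hh.mono hpb1) heq
  have hnd := (s44c_nodeDec_of_fact G hWi hWz hc ha hhN heq hnode).const_mul hc'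
  have hsdi := (s44c_smoothDec_of_fact Z.Ci Xi G.Gi hsub hWi hc hh.1 heq hsi).const_mul hc'
  have hsdz := (s44c_smoothDec_of_fact Z.Cz Xz G.Gz hsub hWz hc hh.2 heq hsz).const_mul hc'
  obtain ⟨c'', hc'', hab⟩ := s44c_deepen_to_b hglue Xi Xz hci hcz hb hsub ha1 hnd hsdi hsdz
  obtain ⟨Ai, Az, e1, e2, hΔ⟩ := s44c_slope_at_b hglue Xi Xz hci hcz hb hsub hab
    (hnd.const_mul hc'') (hsdi.const_mul hc'') (hsdz.const_mul hc'')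
  refine ⟨c'' * c', Ai, Az, mul_ne_zero hc'' hc', ?_, ?_, ?_, hΔ⟩
  · rw [map_mul, mul_assoc]; exact hab
  · rw [map_mul, mul_assoc]; exact e1
  · rw [map_mul, mul_assoc]; exact e2

/-- **(★), LOCAL FORM: FINITENESS AT EVERY NODE.**  Hypotheses of the slope lemma (with the node factorisations
`f = φ_s ^ p E_s`, `E_s` a unit at the places through `s`), the Hecke relation `T f = c' g ^ p f ^ m` with
`p ∤ ℓ + 1 - m`, and a function `η` which is a unit at all nodes with `p ^ 2 ∤ δ η` (helper8's modular unit).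
Then at every node `f = Γ ^ p υ` with `υ` a unit at the places through the node and `V_∞ υ = V_0 υ`. -/
theorem s44c_star_local (hglue : s44c_GlueAt Z Ns) (Xi : s44c_Pts Z.Ci Pi) (Xz : s44c_Pts Z.Cz Pz)
    (hci : s44c_ConstI Z Xi) (hcz : s44c_ConstZ Z Xz) (G : s33z_GalAut Z) {b : ℕ} {cbar : κ}
    (hb : 1 ≤ b) (hsub : (D'.p - 1) * b < D'.e) (hWi : s44c_FirstOrder G.Gi b cbar)
    (hWz : s44c_FirstOrder G.Gz b cbar) (hcτ : cbar ≠ 0) {f h a : 𝓕} {c : L₀} (hc : c ≠ 0)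
    (hf : f ≠ 0) (ha : a ≠ 0) (hhN : ∀ s, s44c_Unit (Ns s) h)
    (hh : s33z_Cong Z (D'.p * b + 1) h)
    (heq : a ^ D'.p * h = algebraMap L₀ 𝓕 c * (G.s f / f)) {ni nz : ι → ℤ}
    (hnode : ∀ s : ι, ∃ φ E : 𝓕, f = φ ^ D'.p * E ∧ s44c_Val Z.Di (ni s) φ ∧
      s44c_Val Z.Dz (nz s) φ ∧ s44c_Unit (Ns s) E ∧ s44c_Unit (Ns s) (G.s E / E))
    (hsi : s44c_SmoothFact Z.Ci Xi G.s f) (hsz : s44c_SmoothFact Z.Cz Xz G.s f)
    (T : 𝓕 →* 𝓕) (ℓ : ℕ)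
    (hTc : ∀ c : L₀, T (algebraMap L₀ 𝓕 c) = algebraMap L₀ 𝓕 (c ^ (ℓ + 1)))
    (hTi : ∀ (n : ℕ) (y : 𝓕), s33f_Cong Z.Di n y 1 → s33f_Cong Z.Di n (T y) 1)
    (hTz : ∀ (n : ℕ) (y : 𝓕), s33f_Cong Z.Dz n y 1 → s33f_Cong Z.Dz n (T y) 1)
    (hTvi : ∀ (n : ℤ) (x : 𝓕), s44c_Val Z.Di n x → s44c_Val Z.Di (n * ((ℓ : ℤ) + 1)) (T x))
    (hTvz : ∀ (n : ℤ) (x : 𝓕), s44c_Val Z.Dz n x → s44c_Val Z.Dz (n * ((ℓ : ℤ) + 1)) (T x))
    (hTG : ∀ x : 𝓕, T (G.s x) = G.s (T x))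
    {g : 𝓕} {cg : L₀} (hcg : cg ≠ 0) (hg : g ≠ 0) (m : ℤ)
    (hT : T f = algebraMap L₀ 𝓕 cg * g ^ D'.p * f ^ m)
    (hm : ¬ (D'.p : ℤ) ∣ (ℓ : ℤ) + 1 - m)
    {η : 𝓕} (hη : ∀ s, s44c_Unit (Ns s) η) (hη2 : ¬ (D'.p : ℤ) ^ 2 ∣ s44c_delta Z η) (s : ι) :
    ∃ Γ υ : 𝓕, f = Γ ^ D'.p * υ ∧ s44c_Unit (Ns s) υ ∧ s44c_delta Z υ = 0 := by
  have hp := D'.p_prime
  haveI : CharP κ D'.p := s33f_charP_κ D'
  have hnode' : s44c_NodeFact Z Ns G.s f ni nz := by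
    intro s
    obtain ⟨φ, E, ef, h1, h2, -, h3⟩ := hnode s
    exact ⟨φ, E, ef, h1, h2, h3⟩
  obtain ⟨c', Ai, Az, hc', hab, e1, e2, hΔ⟩ := s44c_slope_fine hglue Xi Xz hci hcz G hb hsub hWi hWz
    hc hf ha hhN hh heq hnode' hsi hsz
  have heq' : (algebraMap L₀ 𝓕 c' * a) ^ D'.p * h =
      algebraMap L₀ 𝓕 (c' ^ D'.p * c) * (G.s f / f) := by
    rw [mul_pow, map_mul, map_pow, mul_assoc, heq]
    ring
  obtain ⟨q, hq, hqΔ⟩ := s44c_hecke_defect G hb hsub hWi hWz T ℓ hTc hTi hTz hTvi hTvz hTG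
    (mul_ne_zero (pow_ne_zero _ hc') hc) hcg hf hg hab e1 e2 hh heq' m hT hm
  obtain ⟨φ, E, ef, hφi, hφz, hE, -⟩ := hnode s
  have hφ0 : φ ≠ 0 := hφi.ne_zero
  -- `p ∣ q - (nz s - ni s)`
  have h1 : ((q - (nz s - ni s) : ℤ) : κ) * cbar = 0 := by
    push_cast
    linear_combination hqΔ - hΔ s
  have h2 : (D'.p : ℤ) ∣ q - (nz s - ni s) := by
    rcases mul_eq_zero.mp h1 with h | h
    · exact (CharP.intCast_eq_zero_iff κ D'.p _).mp h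
    · exact absurd h hcτ
  obtain ⟨t, ht⟩ := h2
  -- `δ E = p ^ 2 t`
  have hδ : s44c_delta Z E = (D'.p : ℤ) ^ 2 * t := by
    have := congrArg (s44c_delta Z) ef
    rw [s44c_delta_mul (pow_ne_zero _ hφ0) hE.1, s44c_delta_pow hφ0, s44c_delta_eq hφi hφz, hq]
      at this
    linear_combination (D'.p : ℤ) * ht - this
  exact s44c_local_fin (Z := Z) hp ef hE (hη s) ⟨t, hδ⟩ hη2

end Star

end Fermat.Agent.Lib.S44
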