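/-
S44 programme M-AT-P, wall W2 (G3)/(G4), family `s44c_` (helper4): THE HECKE RELATION OVER A NUMBER FIELD.

Level `N` (`= M p` in the application), Hecke prime `ℓ ∤ N`, Kummer exponent `n` (`= p`), `L₀ ≤ ℚ̄` ANY
intermediate field containing a primitive `ℓ`-th root of unity `ζ₀`; `τ = s33t_tau N ℓ hℓN L₀ ζ₀ hζ₀`
(helper3's Kummer-side Hecke operator `Nm_α ∘ β`).

* `s44c_isKumGen_hecke` : `g` Kummer generator (exponent `n`) of `z` ⇒ `Nm_α (β g)` Kummer generator of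
  `T_ℓ z` (the two-prime version of `s33t_isKumGen_hecke`);
* `s44c_isKumGen_tau`   : the same for `incl (τ f₀)`;
* `s44c_isKumGen_zpow`  : `g ^ m` generates `m • z` (`m : ℤ`);
* **`s44c_hecke_rel`**  : `T_ℓ z = a₀ • z` and `f₀` a Kummer generator of `z` over `L₀` ⇒
  `τ f₀ = c₀ · g ^ p · f₀ ^ a₀` with `c₀ ∈ L₀^×`, `g ∈ 𝓕_{L₀}^×` (= the hypothesis `hT` of
  `s44c_hecke_defect` / `s44c_star_local`);
* `s44c_tau_indep`      : `τ` does not depend on the primitive root `ζ₀`;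
* **`s44c_tau_galois`** : `τ (σ₀ f) = σ₀ (τ f)` for the coefficientwise action of `σ₀ : L₀ ≃ₐ[ℚ] L₀`
  (= the hypothesis `hTG`).
-/
import Fermat.Agent.Lib.S33.DescDict

set_option autoImplicit false
set_option linter.style.haveILetI false
set_option linter.unusedSectionVars false
set_option synthInstance.maxHeartbeats 400000

noncomputable section

namespace Fermat.Agent.Lib.S44

open ModularCurve HahnSeries AlgebraicCurve Fermat.Agent.Lib.S18 Fermat.Agent.Lib.S28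
  Fermat.Agent.Lib.S29 Fermat.Agent.Lib.S37 Fermat.Agent.Lib.FF Fermat.Agent.Lib.S33

local notation "Kb" => AlgebraicClosure ℚ

section Bar

variable (N : ℕ) [NeZero N] (ℓ : ℕ) [hℓ : Fact ℓ.Prime] (hℓN : ¬ ℓ ∣ N) (n : ℕ)

include hℓN in
/-- **`T_ℓ` on Kummer generators of exponent `n`**: `Nm_α (β g)` generates `T_ℓ z`. -/
theorem s44c_isKumGen_hecke (z : JZero N) (g : ffi_F N) (h : s33d_IsKumGen n z g) :
    s33d_IsKumGen n (heckeOperatorBar N ⟨ℓ, hℓ.out⟩ z)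
      (s37e_normAlpha N ℓ (heckeBetaBar Kb N ℓ g)) := by
  obtain ⟨hg, D, rfl, hD⟩ := h
  haveI : NeZero ℓ := ⟨hℓ.out.ne_zero⟩
  refine ⟨?_, ?_⟩
  · intro h0
    have hβ : heckeBetaBar Kb N ℓ g ≠ 0 := fun h1 =>
      hg ((heckeBetaBar Kb N ℓ).toRingHom.injective (by
        rw [AlgHom.toRingHom_eq_coe, RingHom.coe_coe, h1, map_zero]))
    unfold s37e_normAlpha at h0
    letI := algebraAlong (heckeAlphaBar Kb N ℓ)
    haveI : Module.Finite ↥(laurentBaseChange Kb (modularFunctionFieldFull N))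
        ↥(laurentBaseChange Kb (modularFunctionFieldFull (N * ℓ))) :=
      s37w_finite_alpha N ℓ hℓ.out hℓN
    exact hβ (Algebra.norm_eq_zero_iff.mp h0)
  · refine ⟨_, (s37h_heckeOperatorBar_mk N ℓ hℓ.out hℓN D).symm, ?_⟩
    intro P
    rw [s37h_coe_degZeroCorrespondence N ℓ hℓ.out hℓN D]
    have hD' : ∀ v : Place Kb (ffi_F N),
        ((n : ℤ) • (D : Divisor Kb (ffi_F N))) v = v.ord g := by
      intro v
      rw [Finsupp.smul_apply, smul_eq_mul, hD v]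
    have key := s37h_heckeDivBar_principal N ℓ hℓ.out hℓN hg hD' P
    rw [map_zsmul, Finsupp.smul_apply, smul_eq_mul] at key
    rw [key]
    rfl

/-- integer powers of Kummer generators. -/
theorem s44c_isKumGen_zpow {z : JZero N} {g : ffi_F N} (h : s33d_IsKumGen n z g) (m : ℤ) :
    s33d_IsKumGen n (m • z) (g ^ m) := by
  obtain ⟨hg, D, rfl, hD⟩ := h
  refine ⟨zpow_ne_zero m hg, m • D, ?_, fun v => ?_⟩
  · show (QuotientAddGroup.mk (m • D) : JZero N) = m • QuotientAddGroup.mk D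
    rfl
  · rw [v.ord_zpow, hD v, AddSubgroup.coe_zsmul, Finsupp.smul_apply, smul_eq_mul]
    ring

end Bar

section Tau

variable (N : ℕ) [NeZero N] (ℓ : ℕ) [hℓ : Fact ℓ.Prime] (hℓN : ¬ ℓ ∣ N)
variable (L₀ : IntermediateField ℚ Kb) (ζ₀ : (↥L₀)ˣ) (hζ₀ : IsPrimitiveRoot (ζ₀ : ↥L₀) ℓ)

/-- `incl (τ f₀)` is a Kummer generator (exponent `n`) of `T_ℓ z`. -/
theorem s44c_isKumGen_tau (n : ℕ) {z : JZero N}
    {f₀ : ↥(laurentBaseChange ↥L₀ (modularFunctionFieldFull N))}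
    (h : s33d_IsKumGen n z (s18q_incl N L₀ f₀)) :
    s33d_IsKumGen n (heckeOperatorBar N ⟨ℓ, hℓ.out⟩ z)
      (s18q_incl N L₀ (s33t_tau N ℓ hℓN L₀ ζ₀ hζ₀ f₀)) := by
  rw [s33t_incl_tau]
  exact s44c_isKumGen_hecke N ℓ hℓN n z _ h

/-- **THE HECKE RELATION over `L₀`.** -/
theorem s44c_hecke_rel (p : ℕ) [hp : Fact p.Prime] {z : JZero N}
    {f₀ : ↥(laurentBaseChange ↥L₀ (modularFunctionFieldFull N))}
    (h : s33d_IsKumGen p z (s18q_incl N L₀ f₀)) (a₀ : ℤ)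
    (hz : heckeOperatorBar N ⟨ℓ, hℓ.out⟩ z = a₀ • z) :
    ∃ (c₀ : ↥L₀) (g : ↥(laurentBaseChange ↥L₀ (modularFunctionFieldFull N))), c₀ ≠ 0 ∧ g ≠ 0 ∧
      s33t_tau N ℓ hℓN L₀ ζ₀ hζ₀ f₀ =
        algebraMap ↥L₀ ↥(laurentBaseChange ↥L₀ (modularFunctionFieldFull N)) c₀ * g ^ p * f₀ ^ a₀ := by
  have h1 : s33d_IsKumGen p (a₀ • z) (s18q_incl N L₀ (f₀ ^ a₀)) := by
    rw [map_zpow₀]
    exact s44c_isKumGen_zpow N p h a₀
  have h2 : s33d_IsKumGen p (a₀ • z) (s18q_incl N L₀ (s33t_tau N ℓ hℓN L₀ ζ₀ hζ₀ f₀)) := by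
    rw [← hz]
    exact s44c_isKumGen_tau N ℓ hℓN L₀ ζ₀ hζ₀ p h
  exact s33d_kum0_of_same_class N p L₀ h1 h2

/-- `τ` does not depend on the primitive `ℓ`-th root of unity. -/
theorem s44c_tau_indep (ζ₁ : (↥L₀)ˣ) (hζ₁ : IsPrimitiveRoot (ζ₁ : ↥L₀) ℓ)
    (f : ↥(laurentBaseChange ↥L₀ (modularFunctionFieldFull N))) :
    s33t_tau N ℓ hℓN L₀ ζ₁ hζ₁ f = s33t_tau N ℓ hℓN L₀ ζ₀ hζ₀ f := by
  apply s18q_incl_injective N L₀
  rw [s33t_incl_tau, s33t_incl_tau]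

/-- **`τ` commutes with the coefficientwise Galois action.** -/
theorem s44c_tau_galois (σ₀ : ↥L₀ ≃ₐ[ℚ] ↥L₀)
    (f : ↥(laurentBaseChange ↥L₀ (modularFunctionFieldFull N))) :
    s33t_tau N ℓ hℓN L₀ ζ₀ hζ₀ (arithmeticRingAut (modularFunctionFieldFull N) σ₀ f) =
      arithmeticRingAut (modularFunctionFieldFull N) σ₀ (s33t_tau N ℓ hℓN L₀ ζ₀ hζ₀ f) := by
  haveI : NeZero ℓ := ⟨hℓ.out.ne_zero⟩
  set ζ₁ : (↥L₀)ˣ := Units.map (((σ₀ : ↥L₀ →+* ↥L₀)) : ↥L₀ →* ↥L₀) ζ₀ with hζ₁def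
  have hζ₁ : IsPrimitiveRoot (ζ₁ : ↥L₀) ℓ := by
    have : (ζ₁ : ↥L₀) = σ₀ (ζ₀ : ↥L₀) := rfl
    rw [this]
    exact hζ₀.map_of_injective σ₀.injective
  rw [← s44c_tau_indep N ℓ hℓN L₀ ζ₀ hζ₀ ζ₁ hζ₁]
  apply Subtype.ext
  rw [s33t_coe_tau]
  show s33t_N ℓ ζ₁ (coeffMap (σ₀ : ↥L₀ →+* ↥L₀) (f : LaurentSeries ↥L₀)) =
    coeffMap (σ₀ : ↥L₀ →+* ↥L₀) (s33t_N ℓ ζ₀ (f : LaurentSeries ↥L₀))
  rw [s33t_coeffMap_N']

end Tau

end Fermat.Agent.Lib.S44
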