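/-
M-AT-P programme (S44), brick [T_ℓ] (helper3, prefix s44h_), part 1: the Kummer-side Hecke operator
`τ_ℓ = Nm_{α_ℓ} ∘ β_ℓ` of `𝓕(M p)` (`ℓ` a prime, `ℓ ∤ M p`) COMMUTES with the Atkin–Lehner involution
`w_p` of `𝓕(M p)` (`p ∤ M`).

Over `ℚ̄`: `w_p` lifts to the involution `w' = s44h_alUp` of `F̄(M p ℓ)` (the Atkin–Lehner involution at `p`
of level `(M ℓ) p`, transported along `M p ℓ = M ℓ p`), `w' ∘ α_ℓ = α_ℓ ∘ w_p`, `w' ∘ β_ℓ = β_ℓ ∘ w_p`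
(check on the generators `j(q^d)`), and norms are equivariant.  Then descend along `ι`.

* `s44h_tauBar_al`  : `Nm_α (β (w y)) = w (Nm_α (β y))` over `ℚ̄`;
* `s44h_tau_al`     : `w (τ_ℓ y) = τ_ℓ (w y)` over a subfield `L₀ ⊆ ℚ̄` containing `ζ_ℓ`.
-/
import Fermat.Agent.Lib.S33.TPTau
import Fermat.Agent.Lib.S34.MValAL

set_option autoImplicit false
set_option linter.style.haveILetI false
set_option linter.unusedSectionVars false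

namespace Fermat.Agent.Lib.S44

open ModularCurve AlgebraicCurve Fermat.Agent.Lib.FF Fermat.Agent.Lib.S18 Fermat.Agent.Lib.S28
  Fermat.Agent.Lib.S37 Fermat.Agent.Lib.S34 Fermat.Agent.Lib.S33

noncomputable section

local notation "Kb" => AlgebraicClosure ℚ

/-! ### Transport along an equality of levels -/

/-- transport of `F̄(n)` along an equality of levels. -/
def s44h_castF {n n' : ℕ} (h : n = n') : ffi_F n ≃ₐ[Kb] ffi_F n' := by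
  subst h
  exact AlgEquiv.refl

theorem s44h_castF_coe {n n' : ℕ} (h : n = n') (x : ffi_F n) :
    ((s44h_castF h x : ffi_F n') : LaurentSeries Kb) = (x : LaurentSeries Kb) := by
  subst h
  rfl

theorem s44h_castF_symm_coe {n n' : ℕ} (h : n = n') (x : ffi_F n') :
    (((s44h_castF h).symm x : ffi_F n) : LaurentSeries Kb) = (x : LaurentSeries Kb) := by
  subst h
  rfl

/-! ### The lift of `w_p` to level `M p ℓ` -/

variable (M p ℓ : ℕ) [NeZero M] [NeZero p] [NeZero ℓ]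

/-- the Atkin–Lehner involution at `p` of `F̄(M p ℓ)`. -/
def s44h_alUp (hp : p.Prime) (hpMℓ : ¬ p ∣ M * ℓ) : ffi_F (M * p * ℓ) ≃ₐ[Kb] ffi_F (M * p * ℓ) :=
  ((s44h_castF (Nat.mul_right_comm M p ℓ)).trans (s37w_al (M * ℓ) p hp hpMℓ)).trans
    (s44h_castF (Nat.mul_right_comm M p ℓ)).symm

theorem s44h_alUp_gen (hp : p.Prime) (hpMℓ : ¬ p ∣ M * ℓ) (D : s28w_Idx (M * ℓ * p))
    (x : ffi_F (M * p * ℓ)) (hx : (x : LaurentSeries Kb) = s37w_gen (M * ℓ * p) D) :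
    ((s44h_alUp M p ℓ hp hpMℓ x : ffi_F (M * p * ℓ)) : LaurentSeries Kb) =
      s37w_gen (M * ℓ * p) (s37w_alCo (M * ℓ) p hp D) := by
  unfold s44h_alUp
  rw [AlgEquiv.trans_apply, AlgEquiv.trans_apply, s44h_castF_symm_coe]
  exact s37w_al_gen (M * ℓ) p hp hpMℓ D _ (by rw [s44h_castF_coe, hx])

/-- **`w' ∘ α_ℓ = α_ℓ ∘ w_p`.** -/
theorem s44h_alUp_alpha (hp : p.Prime) (hpM : ¬ p ∣ M) (hpMℓ : ¬ p ∣ M * ℓ) (y : ffi_F (M * p)) :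
    s44h_alUp M p ℓ hp hpMℓ (heckeAlphaBar Kb (M * p) ℓ y) =
      heckeAlphaBar Kb (M * p) ℓ (s37w_al M p hp hpM y) := by
  have key : ((s44h_alUp M p ℓ hp hpMℓ : ffi_F (M * p * ℓ) →ₐ[Kb] ffi_F (M * p * ℓ)).comp
      (heckeAlphaBar Kb (M * p) ℓ)) =
      (heckeAlphaBar Kb (M * p) ℓ).comp
        (s37w_al M p hp hpM : ffi_F (M * p) →ₐ[Kb] ffi_F (M * p)) := by
    refine s37w_algHom_ext (M * p) _ _ fun d x hx => ?_
    apply Subtype.ext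
    rw [AlgHom.comp_apply, AlgHom.comp_apply]
    let D : s28w_Idx (M * ℓ * p) :=
      ⟨d.1, d.2.trans ⟨ℓ, Nat.mul_right_comm M ℓ p⟩⟩
    have h1 : ((heckeAlphaBar Kb (M * p) ℓ x : ffi_F (M * p * ℓ)) : LaurentSeries Kb) =
        s37w_gen (M * ℓ * p) D := by
      rw [coe_heckeAlphaBar, hx]; rfl
    show ((s44h_alUp M p ℓ hp hpMℓ (heckeAlphaBar Kb (M * p) ℓ x) : ffi_F (M * p * ℓ)) :
        LaurentSeries Kb) =
      ((heckeAlphaBar Kb (M * p) ℓ (s37w_al M p hp hpM x) : ffi_F (M * p * ℓ)) : LaurentSeries Kb)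
    rw [s44h_alUp_gen M p ℓ hp hpMℓ D _ h1, coe_heckeAlphaBar, s37w_al_gen M p hp hpM d x hx]
    unfold s37w_gen
    refine congrArg _ (qExpand_congr ?_ jq)
    by_cases h : p ∣ d.1
    · rw [s37w_alCo_of_dvd _ _ hp D h, s37w_alCo_of_dvd _ _ hp d h]
    · rw [s37w_alCo_of_not_dvd _ _ hp D h, s37w_alCo_of_not_dvd _ _ hp d h]
  exact AlgHom.congr_fun key y

/-- **`w' ∘ β_ℓ = β_ℓ ∘ w_p`.** -/
theorem s44h_alUp_beta (hp : p.Prime) (hpM : ¬ p ∣ M) (hpMℓ : ¬ p ∣ M * ℓ) (y : ffi_F (M * p)) :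
    s44h_alUp M p ℓ hp hpMℓ (heckeBetaBar Kb (M * p) ℓ y) =
      heckeBetaBar Kb (M * p) ℓ (s37w_al M p hp hpM y) := by
  have hpℓ : ¬ p ∣ ℓ := fun h => hpMℓ (h.trans (dvd_mul_left ℓ M))
  have key : ((s44h_alUp M p ℓ hp hpMℓ : ffi_F (M * p * ℓ) →ₐ[Kb] ffi_F (M * p * ℓ)).comp
      (heckeBetaBar Kb (M * p) ℓ)) =
      (heckeBetaBar Kb (M * p) ℓ).comp
        (s37w_al M p hp hpM : ffi_F (M * p) →ₐ[Kb] ffi_F (M * p)) := by
    refine s37w_algHom_ext (M * p) _ _ fun d x hx => ?_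
    apply Subtype.ext
    rw [AlgHom.comp_apply, AlgHom.comp_apply]
    let D : s28w_Idx (M * ℓ * p) :=
      ⟨d.1 * ℓ, by
        have := Nat.mul_dvd_mul_right d.2 ℓ
        rwa [Nat.mul_right_comm M p ℓ] at this⟩
    have h1 : ((heckeBetaBar Kb (M * p) ℓ x : ffi_F (M * p * ℓ)) : LaurentSeries Kb) =
        s37w_gen (M * ℓ * p) D := by
      rw [coe_heckeBetaBar, hx, s37w_gen_qExpand]; rfl
    show ((s44h_alUp M p ℓ hp hpMℓ (heckeBetaBar Kb (M * p) ℓ x) : ffi_F (M * p * ℓ)) :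
        LaurentSeries Kb) =
      ((heckeBetaBar Kb (M * p) ℓ (s37w_al M p hp hpM x) : ffi_F (M * p * ℓ)) : LaurentSeries Kb)
    rw [s44h_alUp_gen M p ℓ hp hpMℓ D _ h1, coe_heckeBetaBar, s37w_al_gen M p hp hpM d x hx,
      s37w_gen_qExpand]
    unfold s37w_gen
    refine congrArg _ (qExpand_congr ?_ jq)
    by_cases h : p ∣ d.1
    · have h' : p ∣ D.1 := h.trans (dvd_mul_right d.1 ℓ)
      rw [s37w_alCo_of_dvd _ _ hp D h', s37w_alCo_of_dvd _ _ hp d h]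
      show d.1 * ℓ / p = d.1 / p * ℓ
      exact (Nat.div_mul_right_comm h ℓ).symm
    · have h' : ¬ p ∣ D.1 := by
        intro h2
        rcases (Nat.Prime.dvd_mul hp).mp h2 with h3 | h3
        · exact h h3
        · exact hpℓ h3
      rw [s37w_alCo_of_not_dvd _ _ hp D h', s37w_alCo_of_not_dvd _ _ hp d h]
      show d.1 * ℓ * p = d.1 * p * ℓ
      exact Nat.mul_right_comm d.1 ℓ p
  exact AlgHom.congr_fun key y

/-- norms along `α_ℓ` are equivariant for `(w_p, w')`. -/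
theorem s44h_normAlpha_alUp (hp : p.Prime) (hpM : ¬ p ∣ M) (hpMℓ : ¬ p ∣ M * ℓ)
    (z : ffi_F (M * p * ℓ)) :
    s37e_normAlpha (M * p) ℓ (s44h_alUp M p ℓ hp hpMℓ z) =
      s37w_al M p hp hpM (s37e_normAlpha (M * p) ℓ z) := by
  unfold s37e_normAlpha
  letI := algebraAlong (heckeAlphaBar Kb (M * p) ℓ)
  have he : (algebraMap (ffi_F (M * p)) (ffi_F (M * p * ℓ))).comp
      (((s37w_al M p hp hpM : ffi_F (M * p) ≃ₐ[Kb] ffi_F (M * p)) : ffi_F (M * p) ≃+* ffi_F (M * p)) :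
        ffi_F (M * p) →+* ffi_F (M * p)) =
      RingHom.comp (((s44h_alUp M p ℓ hp hpMℓ : ffi_F (M * p * ℓ) ≃ₐ[Kb] ffi_F (M * p * ℓ)) :
        ffi_F (M * p * ℓ) ≃+* ffi_F (M * p * ℓ)) : ffi_F (M * p * ℓ) →+* ffi_F (M * p * ℓ))
        (algebraMap (ffi_F (M * p)) (ffi_F (M * p * ℓ))) := by
    refine RingHom.ext fun y => ?_
    exact (s44h_alUp_alpha M p ℓ hp hpM hpMℓ y).symm
  have h := Algebra.norm_eq_of_equiv_equiv
    ((s37w_al M p hp hpM : ffi_F (M * p) ≃ₐ[Kb] ffi_F (M * p)) : ffi_F (M * p) ≃+* ffi_F (M * p))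
    ((s44h_alUp M p ℓ hp hpMℓ : ffi_F (M * p * ℓ) ≃ₐ[Kb] ffi_F (M * p * ℓ)) :
      ffi_F (M * p * ℓ) ≃+* ffi_F (M * p * ℓ)) he z
  have h2 := congrArg (((s37w_al M p hp hpM : ffi_F (M * p) ≃ₐ[Kb] ffi_F (M * p)) :
    ffi_F (M * p) ≃+* ffi_F (M * p))) h
  rw [RingEquiv.apply_symm_apply] at h2
  exact h2.symm

/-- **`τ̄_ℓ ∘ w_p = w_p ∘ τ̄_ℓ` over `ℚ̄`.** -/
theorem s44h_tauBar_al (hp : p.Prime) (hpM : ¬ p ∣ M) (hpMℓ : ¬ p ∣ M * ℓ) (y : ffi_F (M * p)) :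
    s37e_normAlpha (M * p) ℓ (heckeBetaBar Kb (M * p) ℓ (s37w_al M p hp hpM y)) =
      s37w_al M p hp hpM (s37e_normAlpha (M * p) ℓ (heckeBetaBar Kb (M * p) ℓ y)) := by
  rw [← s44h_alUp_beta M p ℓ hp hpM hpMℓ y, s44h_normAlpha_alUp M p ℓ hp hpM hpMℓ]

/-! ### Descent to a subfield `L₀ ⊆ ℚ̄` -/

section Descent

variable (M : ℕ) [NeZero M] (p : ℕ) [hp : Fact p.Prime] (hpM : ¬ p ∣ M)
variable (ℓ : ℕ) [hℓ : Fact ℓ.Prime] (hℓN : ¬ ℓ ∣ M * p)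
variable (L₀ : IntermediateField ℚ Kb) (ζ₀ : (↥L₀)ˣ) (hζ₀ : IsPrimitiveRoot (ζ₀ : ↥L₀) ℓ)

include hpM hℓN in
theorem s44h_not_dvd_mul : ¬ p ∣ M * ℓ := by
  intro h
  rcases (Nat.Prime.dvd_mul hp.out).mp h with h1 | h1
  · exact hpM h1
  · have : p = ℓ := (Nat.prime_dvd_prime_iff_eq hp.out hℓ.out).mp h1
    exact hℓN (this ▸ dvd_mul_left p M)

/-- **`w_p ∘ τ_ℓ = τ_ℓ ∘ w_p` on `𝓕_{L₀}(M p)`.** -/
theorem s44h_tau_al (y : s34m_F ↥L₀ (M * p)) :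
    s34m_al (algebraMap ↥L₀ Kb) M p hp.out hpM (s33t_tau (M * p) ℓ hℓN L₀ ζ₀ hζ₀ y) =
      s33t_tau (M * p) ℓ hℓN L₀ ζ₀ hζ₀ (s34m_al (algebraMap ↥L₀ Kb) M p hp.out hpM y) := by
  apply s18q_incl_injective (M * p) L₀
  have e1 : s18q_incl (M * p) L₀
      (s34m_al (algebraMap ↥L₀ Kb) M p hp.out hpM (s33t_tau (M * p) ℓ hℓN L₀ ζ₀ hζ₀ y)) =
      s37w_al M p hp.out hpM (s18q_incl (M * p) L₀ (s33t_tau (M * p) ℓ hℓN L₀ ζ₀ hζ₀ y)) :=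
    s34m_iota_al (algebraMap ↥L₀ Kb) M p hp.out hpM _
  have e2 : s18q_incl (M * p) L₀ (s34m_al (algebraMap ↥L₀ Kb) M p hp.out hpM y) =
      s37w_al M p hp.out hpM (s18q_incl (M * p) L₀ y) :=
    s34m_iota_al (algebraMap ↥L₀ Kb) M p hp.out hpM y
  rw [e1, s33t_incl_tau, s33t_incl_tau, e2,
    s44h_tauBar_al M p ℓ hp.out hpM (s44h_not_dvd_mul M p hpM ℓ hℓN)]

end Descent

end

end Fermat.Agent.Lib.S44
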