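/-
M-AT-P programme (S44), brick [T_ℓ] (helper3, prefix s44h_), part 2: the Kummer-side Hecke operator
`τ_ℓ` and the two Gauss valuations `V_∞`, `V_0` of `𝓕_{L₀}(M p)` — integrality and the CONGRUENCE form
of (E-∞)/(E-0).

Series level (`N(Y)(q) = Y(q^ℓ) ∏_b Y(ζ^b q^{1/ℓ})`, `ζ` a primitive `ℓ`-th root of unity):
* `s44h_P_eq_qExpand_N`, `s44h_N_mul` : `N` is multiplicative over a domain;
* `s44h_N_mem_O`   : `N` preserves the Gauss ring `O` of a Gauss datum;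
* `s44h_N_cong`    : `Y ∈ 1 + ϖⁿ O ⇒ N(Y) ∈ 1 + ϖⁿ O`.
Function field level (`τ = s33t_tau N ℓ …`, any Gauss datum `G` on `L₀`):
* `s44h_tau_mem_Vinf`, `s44h_tau_cong_Vinf`;
* `s44h_tau_mem_Vzero`, `s44h_tau_cong_Vzero` (through `w_p τ_ℓ = τ_ℓ w_p`, `s44h_tau_al`);
* `s44h_tau_unif` : `τ ϖ = ϖ^{ℓ+1}`;
* `s44h_tau_val_Vinf`, `s44h_tau_val_Vzero` : `f = ϖⁿ·unit ⇒ τ f = ϖ^{n(ℓ+1)}·unit`, i.e.
  `V_i(τ_ℓ f) = (ℓ+1) V_i(f)`.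
-/
import Fermat.Agent.Lib.S44.HComm
import Fermat.Agent.Lib.S34.MVal

set_option autoImplicit false
set_option linter.style.haveILetI false
set_option linter.unusedSectionVars false

namespace Fermat.Agent.Lib.S44

open ModularCurve HahnSeries AlgebraicCurve Fermat.Agent.Lib.FF Fermat.Agent.Lib.S18
  Fermat.Agent.Lib.S28 Fermat.Agent.Lib.S37 Fermat.Agent.Lib.S34 Fermat.Agent.Lib.S33

noncomputable section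

local notation "Kb" => AlgebraicClosure ℚ

/-! ### Series level: multiplicativity of `N` -/

section Series

variable {R : Type*} [CommRing R] [IsDomain R] (ℓ : ℕ) [NeZero ℓ] (ζ : Rˣ)

theorem s44h_P_eq_qExpand_N (hζ : IsPrimitiveRoot (ζ : R) ℓ) (Y : LaurentSeries R) :
    s33t_P ℓ ζ Y = qExpand R ℓ (s33t_N ℓ ζ Y) := by
  obtain ⟨z, hz⟩ := s37e_exists_qExpand_eq_prodTw ℓ ζ hζ Y
  have h : s33t_P ℓ ζ Y = qExpand R ℓ (qExpand R ℓ Y * z) := by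
    unfold s33t_P
    rw [map_mul, hz, qExpand_qExpand]
  unfold s33t_N
  rw [h, s33t_U_qExpand]

theorem s44h_N_mul (hζ : IsPrimitiveRoot (ζ : R) ℓ) (Y Y' : LaurentSeries R) :
    s33t_N ℓ ζ (Y * Y') = s33t_N ℓ ζ Y * s33t_N ℓ ζ Y' := by
  apply s33t_N_eq_of_qExpand_eq
  rw [map_mul, ← s44h_P_eq_qExpand_N ℓ ζ hζ, ← s44h_P_eq_qExpand_N ℓ ζ hζ, s33t_P_mul]

end Series

section SeriesField

variable {k : Type*} [Field k] (ℓ : ℕ) [NeZero ℓ] (ζ : kˣ)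

theorem s44h_P_ne_zero {Y : LaurentSeries k} (hY : Y ≠ 0) : s33t_P ℓ ζ Y ≠ 0 := by
  unfold s33t_P s37e_prodTw
  refine mul_ne_zero ?_ (Finset.prod_ne_zero_iff.mpr fun b _ => ?_)
  · intro h
    exact hY (qExpand_injective (ℓ * ℓ) (by rw [h, map_zero]))
  · intro h
    exact hY (s28m_tw_injective (ζ ^ b) (by rw [h, map_zero]))

end SeriesField

/-! ### Series level: the Gauss ring -/

section Gauss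

variable {K : Type*} [Field K] {κ : Type*} [Field κ] (G : s18g_GaussData K κ)
variable (ℓ : ℕ) [NeZero ℓ] (ζ₀ : Kˣ)

/-- a root of unity lies in every valuation subring. -/
theorem s44h_mem_of_pow_eq_one (A : ValuationSubring K) {x : K} {n : ℕ} (hn : n ≠ 0)
    (hx : x ^ n = 1) : x ∈ A := by
  rcases A.mem_or_inv_mem x with h | h
  · exact h
  · obtain ⟨m, rfl⟩ : ∃ m, n = m + 1 := ⟨n - 1, by omega⟩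
    have h1 : x ^ m * x = 1 := by rw [← pow_succ]; exact hx
    have h2 : x = (x ^ m)⁻¹ := eq_inv_of_mul_eq_one_right h1
    rw [h2, ← inv_pow]
    exact pow_mem h m

/-- the primitive root `ζ₀ ∈ K` as a unit of the valuation ring `A`. -/
def s44h_zetaA (hζ₀ : IsPrimitiveRoot (ζ₀ : K) ℓ) : (G.A)ˣ :=
  Units.mkOfMulEqOne
    (⟨(ζ₀ : K), s44h_mem_of_pow_eq_one G.A (NeZero.ne ℓ) hζ₀.pow_eq_one⟩ : G.A)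
    ((⟨(ζ₀ : K), s44h_mem_of_pow_eq_one G.A (NeZero.ne ℓ) hζ₀.pow_eq_one⟩ : G.A) ^ (ℓ - 1))
    (by
      rw [← pow_succ', Nat.sub_add_cancel (Nat.one_le_iff_ne_zero.mpr (NeZero.ne ℓ))]
      exact Subtype.ext hζ₀.pow_eq_one)

theorem s44h_zetaA_map (hζ₀ : IsPrimitiveRoot (ζ₀ : K) ℓ) :
    Units.map ((G.A.subtype : G.A →+* K) : G.A →* K) (s44h_zetaA G ℓ ζ₀ hζ₀) = ζ₀ :=
  Units.ext rfl

theorem s44h_zetaA_prim (hζ₀ : IsPrimitiveRoot (ζ₀ : K) ℓ) :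
    IsPrimitiveRoot ((s44h_zetaA G ℓ ζ₀ hζ₀ : (G.A)ˣ) : G.A) ℓ :=
  IsPrimitiveRoot.of_map_of_injective (f := G.A.subtype) (by exact hζ₀) Subtype.val_injective

theorem s44h_iota_N (hζ₀ : IsPrimitiveRoot (ζ₀ : K) ℓ) (Q : LaurentSeries G.A) :
    s18g_iota G (s33t_N ℓ (s44h_zetaA G ℓ ζ₀ hζ₀) Q) = s33t_N ℓ ζ₀ (s18g_iota G Q) := by
  unfold s18g_iota
  rw [s33t_coeffMap_N', s44h_zetaA_map]

/-- the reduction of `N_A(Q)` is non-zero when the reduction of `Q` is. -/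
theorem s44h_rho_N_ne_zero (hζ₀ : IsPrimitiveRoot (ζ₀ : K) ℓ) {Q : LaurentSeries G.A}
    (hQ : s18g_rho G Q ≠ 0) : s18g_rho G (s33t_N ℓ (s44h_zetaA G ℓ ζ₀ hζ₀) Q) ≠ 0 := by
  intro h0
  have h1 := s44h_P_eq_qExpand_N ℓ (s44h_zetaA G ℓ ζ₀ hζ₀) (s44h_zetaA_prim G ℓ ζ₀ hζ₀) Q
  have h2 := congrArg (coeffMap G.π) h1
  rw [s33t_coeffMap_P', coeffMap_qExpand] at h2
  have h3 : coeffMap G.π (s33t_N ℓ (s44h_zetaA G ℓ ζ₀ hζ₀) Q) = 0 := h0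
  rw [h3, map_zero] at h2
  exact s44h_P_ne_zero ℓ _ hQ h2

/-- **`N` preserves the Gauss ring.** -/
theorem s44h_N_mem_O (hζ₀ : IsPrimitiveRoot (ζ₀ : K) ℓ) {Y : LaurentSeries K}
    (hY : Y ∈ s18g_O G) : s33t_N ℓ ζ₀ Y ∈ s18g_O G := by
  obtain ⟨P, Q, hQ, h⟩ := hY
  refine ⟨s33t_N ℓ (s44h_zetaA G ℓ ζ₀ hζ₀) P, s33t_N ℓ (s44h_zetaA G ℓ ζ₀ hζ₀) Q,
    s44h_rho_N_ne_zero G ℓ ζ₀ hζ₀ hQ, ?_⟩
  rw [s44h_iota_N, s44h_iota_N, ← s44h_N_mul ℓ ζ₀ hζ₀, h]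

/-- **congruence form**: `Y ∈ 1 + ϖⁿ O ⇒ N(Y) ∈ 1 + ϖⁿ O`. -/
theorem s44h_N_cong (hζ₀ : IsPrimitiveRoot (ζ₀ : K) ℓ) (n : ℕ) {Y Z : LaurentSeries K}
    (hZ : Z ∈ s18g_O G) (hY : Y = 1 + HahnSeries.C (((G.ϖ : G.A) : K) ^ n) * Z) :
    ∃ Z' ∈ s18g_O G, s33t_N ℓ ζ₀ Y = 1 + HahnSeries.C (((G.ϖ : G.A) : K) ^ n) * Z' := by
  obtain ⟨P, Q, hQ, h⟩ := hZ
  set ζA := s44h_zetaA G ℓ ζ₀ hζ₀ with hζA
  -- `ι Q * Y = ι (Q + C ϖⁿ * P)`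
  have hC : (HahnSeries.C (((G.ϖ : G.A) : K) ^ n) : LaurentSeries K) =
      s18g_iota G (HahnSeries.C (G.ϖ ^ n)) := by
    rw [s18g_iota_C]
    push_cast
    rfl
  have h1 : s18g_iota G Q * Y = s18g_iota G (Q + HahnSeries.C (G.ϖ ^ n) * P) := by
    rw [hY, map_add, map_mul, ← hC, ← h]
    ring
  obtain ⟨S, hS⟩ := s33t_N_add ℓ ζA (G.ϖ ^ n) Q P
  set T : LaurentSeries G.A := s33t_N1 ℓ ζA Q P + HahnSeries.C (G.ϖ ^ n) * S with hT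
  have hS' : s33t_N ℓ ζA (Q + HahnSeries.C (G.ϖ ^ n) * P) =
      s33t_N ℓ ζA Q + HahnSeries.C (G.ϖ ^ n) * T := by
    rw [hS, hT, pow_two, map_mul]
    ring
  have hNQ : s18g_rho G (s33t_N ℓ ζA Q) ≠ 0 := s44h_rho_N_ne_zero G ℓ ζ₀ hζ₀ hQ
  have hNQ0 : s18g_iota G (s33t_N ℓ ζA Q) ≠ 0 :=
    s18g_iota_ne_zero G (fun h0 => hNQ (by rw [h0, map_zero]))
  -- `ι N(Q) * N(Y) = ι N(Q) + C ϖⁿ * ι T`
  have e1 : s33t_N ℓ ζ₀ (s18g_iota G Q) * s33t_N ℓ ζ₀ Y =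
      s18g_iota G (s33t_N ℓ ζA (Q + HahnSeries.C (G.ϖ ^ n) * P)) := by
    rw [← s44h_N_mul ℓ ζ₀ hζ₀, h1, s44h_iota_N]
  have h2 : s18g_iota G (s33t_N ℓ ζA Q) * s33t_N ℓ ζ₀ Y =
      s18g_iota G (s33t_N ℓ ζA Q) + HahnSeries.C (((G.ϖ : G.A) : K) ^ n) * s18g_iota G T := by
    conv_lhs => rw [s44h_iota_N]
    rw [e1, hS', map_add, map_mul, ← hC]
  refine ⟨(s18g_iota G (s33t_N ℓ ζA Q))⁻¹ * s18g_iota G T,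
    ⟨T, s33t_N ℓ ζA Q, hNQ, by rw [← mul_assoc, mul_inv_cancel₀ hNQ0, one_mul]⟩, ?_⟩
  have h3 : s33t_N ℓ ζ₀ Y = (s18g_iota G (s33t_N ℓ ζA Q))⁻¹ *
      (s18g_iota G (s33t_N ℓ ζA Q) * s33t_N ℓ ζ₀ Y) := by
    rw [← mul_assoc, inv_mul_cancel₀ hNQ0, one_mul]
  rw [h3, h2, mul_add, inv_mul_cancel₀ hNQ0]
  ring

end Gauss

/-! ### Function field level -/

section FF

variable (N : ℕ) [NeZero N] (ℓ : ℕ) [hℓ : Fact ℓ.Prime] (hℓN : ¬ ℓ ∣ N)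
variable (L₀ : IntermediateField ℚ Kb) (ζ₀ : (↥L₀)ˣ) (hζ₀ : IsPrimitiveRoot (ζ₀ : ↥L₀) ℓ)
variable {κ : Type*} [Field κ] (G : s18g_GaussData ↥L₀ κ)

/-- **`τ_ℓ V_∞ ⊆ V_∞`.** -/
theorem s44h_tau_mem_Vinf {y : s34m_F ↥L₀ N} (hy : y ∈ s34m_Vinf G N) :
    s33t_tau N ℓ hℓN L₀ ζ₀ hζ₀ y ∈ s34m_Vinf G N := by
  rw [s34m_mem_Vinf] at hy ⊢
  rw [s33t_coe_tau]
  exact s44h_N_mem_O G ℓ ζ₀ hζ₀ hy

/-- **(E-∞), congruence form: `τ_ℓ (1 + ϖⁿ V_∞) ⊆ 1 + ϖⁿ V_∞`.** -/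
theorem s44h_tau_cong_Vinf (n : ℕ) {y z : s34m_F ↥L₀ N} (hz : z ∈ s34m_Vinf G N)
    (hy : y - 1 = s34m_unif G N ^ n * z) :
    ∃ z' ∈ s34m_Vinf G N, s33t_tau N ℓ hℓN L₀ ζ₀ hζ₀ y - 1 = s34m_unif G N ^ n * z' := by
  have hu0 : s34m_unif G N ^ n ≠ 0 := pow_ne_zero n (s34m_unif_ne_zero G N)
  have hcu : ((s34m_unif G N ^ n : s34m_F ↥L₀ N) : LaurentSeries ↥L₀) =
      HahnSeries.C ((((G.ϖ : G.A) : ↥L₀)) ^ n) := by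
    rw [SubmonoidClass.coe_pow, s34m_coe_unif, ← map_pow]
  have hY : (y : LaurentSeries ↥L₀) =
      1 + HahnSeries.C ((((G.ϖ : G.A) : ↥L₀)) ^ n) * (z : LaurentSeries ↥L₀) := by
    have h1 : y = 1 + s34m_unif G N ^ n * z := by rw [← hy]; ring
    rw [h1, AddMemClass.coe_add, OneMemClass.coe_one, MulMemClass.coe_mul, hcu]
  obtain ⟨Z', hZ', hN⟩ := s44h_N_cong G ℓ ζ₀ hζ₀ n ((s34m_mem_Vinf G N z).mp hz) hY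
  refine ⟨(s34m_unif G N ^ n)⁻¹ * (s33t_tau N ℓ hℓN L₀ ζ₀ hζ₀ y - 1), ?_, ?_⟩
  · rw [s34m_mem_Vinf]
    have hZeq : (((s34m_unif G N ^ n)⁻¹ * (s33t_tau N ℓ hℓN L₀ ζ₀ hζ₀ y - 1) :
        s34m_F ↥L₀ N) : LaurentSeries ↥L₀) = Z' := by
      have hc0 : (HahnSeries.C ((((G.ϖ : G.A) : ↥L₀)) ^ n) : LaurentSeries ↥L₀) ≠ 0 := by
        rw [← hcu]
        exact fun h => hu0 (Subtype.ext h)
      have h2 : ((s34m_unif G N ^ n : s34m_F ↥L₀ N) : LaurentSeries ↥L₀) *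
          (((s34m_unif G N ^ n)⁻¹ * (s33t_tau N ℓ hℓN L₀ ζ₀ hζ₀ y - 1) :
            s34m_F ↥L₀ N) : LaurentSeries ↥L₀) =
          HahnSeries.C ((((G.ϖ : G.A) : ↥L₀)) ^ n) * Z' := by
        rw [← MulMemClass.coe_mul, ← mul_assoc, mul_inv_cancel₀ hu0, one_mul,
          AddSubgroupClass.coe_sub, OneMemClass.coe_one, s33t_coe_tau, hN]
        ring
      rw [hcu] at h2
      exact mul_left_cancel₀ hc0 h2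
    rw [hZeq]
    exact hZ'
  · rw [← mul_assoc, mul_inv_cancel₀ hu0, one_mul]

theorem s44h_tau_inv {y : s34m_F ↥L₀ N} (hy : y ≠ 0) :
    s33t_tau N ℓ hℓN L₀ ζ₀ hζ₀ y⁻¹ = (s33t_tau N ℓ hℓN L₀ ζ₀ hζ₀ y)⁻¹ := by
  apply eq_inv_of_mul_eq_one_right
  rw [← map_mul, mul_inv_cancel₀ hy, map_one]

theorem s44h_tau_zpow {y : s34m_F ↥L₀ N} (hy : y ≠ 0) (n : ℤ) :
    s33t_tau N ℓ hℓN L₀ ζ₀ hζ₀ (y ^ n) = (s33t_tau N ℓ hℓN L₀ ζ₀ hζ₀ y) ^ n := by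
  cases n with
  | ofNat m => simp only [Int.ofNat_eq_natCast, zpow_natCast, map_pow]
  | negSucc m =>
    rw [zpow_negSucc, zpow_negSucc, s44h_tau_inv N ℓ hℓN L₀ ζ₀ hζ₀ (pow_ne_zero _ hy), map_pow]

/-- `τ_ℓ ϖ = ϖ^{ℓ+1}`. -/
theorem s44h_tau_unif :
    s33t_tau N ℓ hℓN L₀ ζ₀ hζ₀ (s34m_unif G N) = s34m_unif G N ^ (ℓ + 1) := by
  unfold s34m_unif
  rw [s33t_tau_algebraMap, map_pow]

/-- **(E-∞)**: `f = ϖⁿ u`, `u` a unit of `V_∞` ⇒ `τ_ℓ f = ϖ^{n(ℓ+1)} u'`, `u'` a unit of `V_∞`. -/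
theorem s44h_tau_val_Vinf (n : ℤ) {f u : s34m_F ↥L₀ N} (hu0 : u ≠ 0) (hu : u ∈ s34m_Vinf G N)
    (hu' : u⁻¹ ∈ s34m_Vinf G N) (hf : f = s34m_unif G N ^ n * u) :
    ∃ u₁ : s34m_F ↥L₀ N, u₁ ∈ s34m_Vinf G N ∧ u₁⁻¹ ∈ s34m_Vinf G N ∧
      s33t_tau N ℓ hℓN L₀ ζ₀ hζ₀ f = s34m_unif G N ^ (n * ((ℓ : ℤ) + 1)) * u₁ := by
  refine ⟨s33t_tau N ℓ hℓN L₀ ζ₀ hζ₀ u, s44h_tau_mem_Vinf N ℓ hℓN L₀ ζ₀ hζ₀ G hu, ?_, ?_⟩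
  · rw [← s44h_tau_inv N ℓ hℓN L₀ ζ₀ hζ₀ hu0]
    exact s44h_tau_mem_Vinf N ℓ hℓN L₀ ζ₀ hζ₀ G hu'
  · rw [hf, map_mul, s44h_tau_zpow N ℓ hℓN L₀ ζ₀ hζ₀ (s34m_unif_ne_zero G N), s44h_tau_unif,
      ← zpow_natCast, ← zpow_mul]
    congr 2
    push_cast
    ring

end FF

/-! ### The `V_0` versions, through `w_p` -/

section Zero

variable (M p : ℕ) [NeZero M] [hp : Fact p.Prime] (hpM : ¬ p ∣ M)
variable (ℓ : ℕ) [hℓ : Fact ℓ.Prime] (hℓN : ¬ ℓ ∣ M * p)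
variable (L₀ : IntermediateField ℚ Kb) (ζ₀ : (↥L₀)ˣ) (hζ₀ : IsPrimitiveRoot (ζ₀ : ↥L₀) ℓ)
variable {κ : Type*} [Field κ] (G : s18g_GaussData ↥L₀ κ)

/-- **`τ_ℓ V_0 ⊆ V_0`.** -/
theorem s44h_tau_mem_Vzero {y : s34m_F ↥L₀ (M * p)}
    (hy : y ∈ s34m_Vzero G (algebraMap ↥L₀ Kb) M p hp.out hpM) :
    s33t_tau (M * p) ℓ hℓN L₀ ζ₀ hζ₀ y ∈ s34m_Vzero G (algebraMap ↥L₀ Kb) M p hp.out hpM := by
  rw [s34m_mem_Vzero] at hy ⊢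
  rw [s44h_tau_al]
  exact s44h_tau_mem_Vinf (M * p) ℓ hℓN L₀ ζ₀ hζ₀ G hy

/-- **(E-0), congruence form: `τ_ℓ (1 + ϖⁿ V_0) ⊆ 1 + ϖⁿ V_0`.** -/
theorem s44h_tau_cong_Vzero (n : ℕ) {y z : s34m_F ↥L₀ (M * p)}
    (hz : z ∈ s34m_Vzero G (algebraMap ↥L₀ Kb) M p hp.out hpM)
    (hy : y - 1 = s34m_unif G (M * p) ^ n * z) :
    ∃ z' ∈ s34m_Vzero G (algebraMap ↥L₀ Kb) M p hp.out hpM,
      s33t_tau (M * p) ℓ hℓN L₀ ζ₀ hζ₀ y - 1 = s34m_unif G (M * p) ^ n * z' := by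
  set w := s34m_al (algebraMap ↥L₀ Kb) M p hp.out hpM with hw
  have hwy : w y - 1 = s34m_unif G (M * p) ^ n * w z := by
    have := congrArg w hy
    rwa [map_sub, map_one, map_mul, map_pow, s34m_al_unif] at this
  obtain ⟨z', hz', h⟩ := s44h_tau_cong_Vinf (M * p) ℓ hℓN L₀ ζ₀ hζ₀ G n
    ((s34m_mem_Vzero G (algebraMap ↥L₀ Kb) M p hp.out hpM z).mp hz) hwy
  refine ⟨w z', ?_, ?_⟩
  · rw [s34m_mem_Vzero, ← hw, s34m_al_al]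
    exact hz'
  · have h' := congrArg w h
    rw [map_sub, map_one, map_mul, map_pow, s34m_al_unif, ← s44h_tau_al, ← hw, s34m_al_al] at h'
    exact h'

/-- **(E-0)**: `f = ϖⁿ u`, `u` a unit of `V_0` ⇒ `τ_ℓ f = ϖ^{n(ℓ+1)} u'`, `u'` a unit of `V_0`. -/
theorem s44h_tau_val_Vzero (n : ℤ) {f u : s34m_F ↥L₀ (M * p)} (hu0 : u ≠ 0)
    (hu : u ∈ s34m_Vzero G (algebraMap ↥L₀ Kb) M p hp.out hpM)
    (hu' : u⁻¹ ∈ s34m_Vzero G (algebraMap ↥L₀ Kb) M p hp.out hpM)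
    (hf : f = s34m_unif G (M * p) ^ n * u) :
    ∃ u₁ : s34m_F ↥L₀ (M * p), u₁ ∈ s34m_Vzero G (algebraMap ↥L₀ Kb) M p hp.out hpM ∧
      u₁⁻¹ ∈ s34m_Vzero G (algebraMap ↥L₀ Kb) M p hp.out hpM ∧
      s33t_tau (M * p) ℓ hℓN L₀ ζ₀ hζ₀ f = s34m_unif G (M * p) ^ (n * ((ℓ : ℤ) + 1)) * u₁ := by
  refine ⟨s33t_tau (M * p) ℓ hℓN L₀ ζ₀ hζ₀ u,
    s44h_tau_mem_Vzero M p hpM ℓ hℓN L₀ ζ₀ hζ₀ G hu, ?_, ?_⟩
  · rw [← s44h_tau_inv (M * p) ℓ hℓN L₀ ζ₀ hζ₀ hu0]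
    exact s44h_tau_mem_Vzero M p hpM ℓ hℓN L₀ ζ₀ hζ₀ G hu'
  · rw [hf, map_mul, s44h_tau_zpow (M * p) ℓ hℓN L₀ ζ₀ hζ₀ (s34m_unif_ne_zero G (M * p)),
      s44h_tau_unif, ← zpow_natCast, ← zpow_mul]
    congr 2
    push_cast
    ring

end Zero

end

end Fermat.Agent.Lib.S44
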