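/-
M-AT-P programme (S44), walls W2/W3 (helper4): **(★), LOCAL FORM, for `s33s_datum_five` over an intermediate
field `L₀ ≤ ℚ̄` with `T := τ_ℓ`** (helper3's Kummer-side Hecke operator `s33t_tau (M p) ℓ …`): all the
`T`-hypotheses of `s44c_five_star_local` are DISCHARGED here:
* (T2) `τ c = c ^ (ℓ+1)`                      : `s33t_tau_algebraMap`;
* (T3) congruence form on `V_∞`, `V_0`         : helper3's `s44h_tau_cong_Vinf/_Vzero` (`HTauCong.lean`);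
* (T4) `V_i (τ x) = (ℓ+1) V_i (x)`             : helper3's `s44h_tau_val_Vinf/_Vzero`;
* (T5) `τ ∘ σ₀ = σ₀ ∘ τ` (coefficientwise `σ₀`) : `s44c_tau_galois` (`CoreHRel.lean`);
* the Hecke relation `τ f = c g ^ p f ^ a₀`    : `s44c_hecke_rel` from `T_ℓ x = a₀ • x` and `f` a Kummer generator
  of `x` over `L₀`.
Also `s44c_five_eta`: helper8's modular unit `g₀` (`s44e_exists_unit`, conclusion shape taken as hypotheses) is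
a unit at every node and `p² ∤ δ(g₀) = -12 e`.

Export: **`s44c_five_star_tau`** — conclusion verbatim the `hloc` of helper8's `s44e_glob_five`.
-/
import Fermat.Agent.Lib.S44.CoreFiveTop
import Fermat.Agent.Lib.S44.CoreHRel
import Fermat.Agent.Lib.S44.HTauCong

set_option autoImplicit false
set_option linter.unusedSectionVars false
set_option linter.style.haveILetI false

noncomputable section

namespace Fermat.Agent.Lib.S44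

open ModularCurve AlgebraicCurve HahnSeries Polynomial Fermat.Agent.Lib.FF Fermat.Agent.Lib.S18
  Fermat.Agent.Lib.S34 Fermat.Agent.Lib.S37 Fermat.Agent.Lib.S33

local notation "Kb" => AlgebraicClosure ℚ

section FiveTau

variable (M p : ℕ) [NeZero M] [hp : Fact p.Prime] (hpM : ¬ p ∣ M) (h5 : 5 ≤ p)
  (L₀ : IntermediateField ℚ Kb) [NumberField ↥L₀]
  (κ : Type) [Field κ] [CharP κ p] [PerfectField κ]
  (G : s18g_GaussData ↥L₀ κ) [IsDiscreteValuationRing G.A]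
  (hdeg : s34m_HDeg ↥L₀ M p) (hT : s18g_HT κ M) (hdegM : s18g_HDeg ↥L₀ M)
  (hπ : Function.Surjective G.π)
  (e : ℕ) (ε : ↥L₀) (he : 0 < e) (hε : ε ∈ G.A) (hεinv : ε⁻¹ ∈ G.A) (hε0 : ε ≠ 0)
  (hpe : (p : ↥L₀) = ε * ((G.ϖ : G.A) : ↥L₀) ^ e) (hperf : ∀ c : κ, ∃ d : κ, d ^ p = c)
  (ℓ : ℕ) [hℓ : Fact ℓ.Prime] (hℓN : ¬ ℓ ∣ M * p)
  (ζ₀ : (↥L₀)ˣ) (hζ₀ : IsPrimitiveRoot (ζ₀ : ↥L₀) ℓ)

/-- (T3) on `V_∞`. -/
theorem s44c_five_tau_cong_i (n : ℕ) (y : s34m_F ↥L₀ (M * p))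
    (h : s33f_Cong (s33s_datum_five M p hpM h5 ↥L₀ (algebraMap ↥L₀ Kb) κ G hdeg hT hdegM hπ e ε he hε
      hεinv hε0 hpe hperf).Di n y 1) :
    s33f_Cong (s33s_datum_five M p hpM h5 ↥L₀ (algebraMap ↥L₀ Kb) κ G hdeg hT hdegM hπ e ε he hε
      hεinv hε0 hpe hperf).Di n (s33t_tau (M * p) ℓ hℓN L₀ ζ₀ hζ₀ y) 1 := by
  obtain ⟨z, hz, e1⟩ := h
  obtain ⟨z', hz', e'⟩ := s44h_tau_cong_Vinf (M * p) ℓ hℓN L₀ ζ₀ hζ₀ G n hz e1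
  exact ⟨z', hz', e'⟩

/-- (T3) on `V_0`. -/
theorem s44c_five_tau_cong_z (n : ℕ) (y : s34m_F ↥L₀ (M * p))
    (h : s33f_Cong (s33s_datum_five M p hpM h5 ↥L₀ (algebraMap ↥L₀ Kb) κ G hdeg hT hdegM hπ e ε he hε
      hεinv hε0 hpe hperf).Dz n y 1) :
    s33f_Cong (s33s_datum_five M p hpM h5 ↥L₀ (algebraMap ↥L₀ Kb) κ G hdeg hT hdegM hπ e ε he hε
      hεinv hε0 hpe hperf).Dz n (s33t_tau (M * p) ℓ hℓN L₀ ζ₀ hζ₀ y) 1 := by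
  obtain ⟨z, hz, e1⟩ := h
  obtain ⟨z', hz', e'⟩ := s44h_tau_cong_Vzero M p hpM ℓ hℓN L₀ ζ₀ hζ₀ G n hz e1
  exact ⟨z', hz', e'⟩

/-- (T4) on `V_∞`. -/
theorem s44c_five_tau_val_i (n : ℤ) (x : s34m_F ↥L₀ (M * p))
    (h : s44c_Val (s33s_datum_five M p hpM h5 ↥L₀ (algebraMap ↥L₀ Kb) κ G hdeg hT hdegM hπ e ε he hε
      hεinv hε0 hpe hperf).Di n x) :
    s44c_Val (s33s_datum_five M p hpM h5 ↥L₀ (algebraMap ↥L₀ Kb) κ G hdeg hT hdegM hπ e ε he hε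
      hεinv hε0 hpe hperf).Di (n * ((ℓ : ℤ) + 1)) (s33t_tau (M * p) ℓ hℓN L₀ ζ₀ hζ₀ x) := by
  have hx0 : x ≠ 0 := h.ne_zero
  obtain ⟨u, hu0, hu, hu', e1⟩ := h
  obtain ⟨u₁, hu₁, hu₁', e₁⟩ := s44h_tau_val_Vinf (M * p) ℓ hℓN L₀ ζ₀ hζ₀ G n hu0 hu hu' e1
  refine ⟨u₁, ?_, hu₁, hu₁', e₁⟩
  rintro rfl
  rw [mul_zero] at e₁
  exact s33t_tau_ne_zero (M * p) ℓ hℓN L₀ ζ₀ hζ₀ x hx0 e₁

/-- (T4) on `V_0`. -/
theorem s44c_five_tau_val_z (n : ℤ) (x : s34m_F ↥L₀ (M * p))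
    (h : s44c_Val (s33s_datum_five M p hpM h5 ↥L₀ (algebraMap ↥L₀ Kb) κ G hdeg hT hdegM hπ e ε he hε
      hεinv hε0 hpe hperf).Dz n x) :
    s44c_Val (s33s_datum_five M p hpM h5 ↥L₀ (algebraMap ↥L₀ Kb) κ G hdeg hT hdegM hπ e ε he hε
      hεinv hε0 hpe hperf).Dz (n * ((ℓ : ℤ) + 1)) (s33t_tau (M * p) ℓ hℓN L₀ ζ₀ hζ₀ x) := by
  have hx0 : x ≠ 0 := h.ne_zero
  obtain ⟨u, hu0, hu, hu', e1⟩ := h
  obtain ⟨u₁, hu₁, hu₁', e₁⟩ := s44h_tau_val_Vzero M p hpM ℓ hℓN L₀ ζ₀ hζ₀ G n hu0 hu hu' e1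
  refine ⟨u₁, ?_, hu₁, hu₁', e₁⟩
  rintro rfl
  rw [mul_zero] at e₁
  exact s33t_tau_ne_zero (M * p) ℓ hℓN L₀ ζ₀ hζ₀ x hx0 e₁

/-- **the Hecke relation for the Kummer generator `f` of an eigen-class.** -/
theorem s44c_five_tau_rel {x : JZero (M * p)} {f : s34m_F ↥L₀ (M * p)}
    (hf : s33d_IsKumGen p x (s18q_incl (M * p) L₀ f)) (a₀ : ℤ)
    (hx : heckeOperatorBar (M * p) ⟨ℓ, hℓ.out⟩ x = a₀ • x) :
    ∃ (c₀ : ↥L₀) (g : s34m_F ↥L₀ (M * p)), c₀ ≠ 0 ∧ g ≠ 0 ∧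
      s33t_tau (M * p) ℓ hℓN L₀ ζ₀ hζ₀ f =
        algebraMap ↥L₀ (s34m_F ↥L₀ (M * p)) c₀ * g ^ p * f ^ a₀ :=
  s44c_hecke_rel (M * p) ℓ hℓN L₀ ζ₀ hζ₀ p hf a₀ hx

include hℓN hζ₀ in
/-- **(★), LOCAL FORM, for `s33s_datum_five` over `L₀ ≤ ℚ̄`, `T = τ_ℓ`, `Γ.s` the coefficientwise action of
`σ₀ : L₀ ≃ₐ[ℚ] L₀`, `f` a Kummer generator of an `T_ℓ`-eigenclass `x` with `a₀ ≢ ℓ + 1 mod p`.** -/
theorem s44c_five_star_tau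
    (Γ : s33z_GalAut
      (s33s_datum_five M p hpM h5 ↥L₀ (algebraMap ↥L₀ Kb) κ G hdeg hT hdegM hπ e ε he hε hεinv hε0 hpe
        hperf))
    (σ₀ : ↥L₀ ≃ₐ[ℚ] ↥L₀)
    (hΓs : ∀ y, Γ.s y = arithmeticRingAut (modularFunctionFieldFull (M * p)) σ₀ y)
    {b : ℕ} {cbar : κ} (hb : 1 ≤ b) (hsub : (p - 1) * b < e)
    (hWi : s44c_FirstOrder Γ.Gi b cbar) (hWz : s44c_FirstOrder Γ.Gz b cbar) (hcτ : cbar ≠ 0)
    {f h a : s34m_F ↥L₀ (M * p)} {c : ↥L₀} (hc : c ≠ 0) (ha : a ≠ 0)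
    (hhN : ∀ s, s44c_Unit (s44c_five_Ns M p hpM ↥L₀ (algebraMap ↥L₀ Kb) κ G s) h)
    (hh : s33z_Cong
      (s33s_datum_five M p hpM h5 ↥L₀ (algebraMap ↥L₀ Kb) κ G hdeg hT hdegM hπ e ε he hε hεinv hε0 hpe
        hperf) (p * b + 1) h)
    (heq : a ^ p * h = algebraMap ↥L₀ (s34m_F ↥L₀ (M * p)) c * (Γ.s f / f))
    {ni nz : s33s_Node (s34m_VV G (algebraMap ↥L₀ Kb) M p hp.out hpM) (s34m_unif G (M * p))
      (s18_chart1 (L₀ := ↥L₀) (s18g_jF (K := ↥L₀) (M * p))) → ℤ}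
    (hnode : ∀ s, ∃ φ' E : s34m_F ↥L₀ (M * p), f = φ' ^ p * E ∧
      s44c_Val (s33s_datum_five M p hpM h5 ↥L₀ (algebraMap ↥L₀ Kb) κ G hdeg hT hdegM hπ e ε he hε
        hεinv hε0 hpe hperf).Di (ni s) φ' ∧
      s44c_Val (s33s_datum_five M p hpM h5 ↥L₀ (algebraMap ↥L₀ Kb) κ G hdeg hT hdegM hπ e ε he hε
        hεinv hε0 hpe hperf).Dz (nz s) φ' ∧
      s44c_Unit (s44c_five_Ns M p hpM ↥L₀ (algebraMap ↥L₀ Kb) κ G s) E ∧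
      s44c_Unit (s44c_five_Ns M p hpM ↥L₀ (algebraMap ↥L₀ Kb) κ G s) (Γ.s E / E))
    (hsi : s44c_SmoothFact
      (s33s_datum_five M p hpM h5 ↥L₀ (algebraMap ↥L₀ Kb) κ G hdeg hT hdegM hπ e ε he hε hεinv hε0 hpe
        hperf).Ci
      (s44c_five_Xi M p hpM h5 ↥L₀ (algebraMap ↥L₀ Kb) κ G hdeg hT hdegM hπ e ε he hε hεinv hε0 hpe
        hperf) Γ.s f)
    (hsz : s44c_SmoothFact
      (s33s_datum_five M p hpM h5 ↥L₀ (algebraMap ↥L₀ Kb) κ G hdeg hT hdegM hπ e ε he hε hεinv hε0 hpe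
        hperf).Cz
      (s44c_five_Xz M p hpM h5 ↥L₀ (algebraMap ↥L₀ Kb) κ G hdeg hT hdegM hπ e ε he hε hεinv hε0 hpe
        hperf) Γ.s f)
    {x : JZero (M * p)} (hf : s33d_IsKumGen p x (s18q_incl (M * p) L₀ f)) (a₀ : ℤ)
    (hx : heckeOperatorBar (M * p) ⟨ℓ, hℓ.out⟩ x = a₀ • x)
    (ha₀ : ¬ (p : ℤ) ∣ a₀ - ((ℓ : ℤ) + 1))
    {η : s34m_F ↥L₀ (M * p)}
    (hη : ∀ s, s44c_Unit (s44c_five_Ns M p hpM ↥L₀ (algebraMap ↥L₀ Kb) κ G s) η)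
    (hη2 : ¬ (p : ℤ) ^ 2 ∣ s44c_delta
      (s33s_datum_five M p hpM h5 ↥L₀ (algebraMap ↥L₀ Kb) κ G hdeg hT hdegM hπ e ε he hε hεinv hε0 hpe
        hperf) η)
    (s : s33s_Node (s34m_VV G (algebraMap ↥L₀ Kb) M p hp.out hpM) (s34m_unif G (M * p))
      (s18_chart1 (L₀ := ↥L₀) (s18g_jF (K := ↥L₀) (M * p)))) :
    ∃ (g' υ : s34m_F ↥L₀ (M * p)) (a' : ℤ), f = g' ^ p * υ ∧
      (∀ i, υ * s34m_unif G (M * p) ^ (-a') ∈ s34m_VV G (algebraMap ↥L₀ Kb) M p hp.out hpM i ∧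
        (υ * s34m_unif G (M * p) ^ (-a'))⁻¹ ∈ s34m_VV G (algebraMap ↥L₀ Kb) M p hp.out hpM i) ∧
      ∀ Q ∈ s18_chart1 (L₀ := ↥L₀) (s18g_jF (K := ↥L₀) (M * p)),
        s34f_through (s34x_infRing (s34m_VV G (algebraMap ↥L₀ Kb) M p hp.out hpM))
          (s18_chart1 (L₀ := ↥L₀) (s18g_jF (K := ↥L₀) (M * p))) s.1 Q → Q.ord υ = 0 := by
  have hf0 : f ≠ 0 := fun h0 => hf.1 (by rw [h0, map_zero])
  obtain ⟨c₀, g, hc₀, hg, hrel⟩ := s44c_five_tau_rel M p L₀ ℓ hℓN ζ₀ hζ₀ hf a₀ hx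
  have hm : ¬ (p : ℤ) ∣ (ℓ : ℤ) + 1 - a₀ := fun hd => ha₀ (by
    have := dvd_neg.mpr hd
    rwa [neg_sub] at this)
  exact s44c_five_star_local M p hpM h5 ↥L₀ (algebraMap ↥L₀ Kb) κ G hdeg hT hdegM hπ e ε he hε hεinv
    hε0 hpe hperf Γ hb hsub hWi hWz hcτ hc hf0 ha hhN hh heq hnode hsi hsz
    (s33t_tau (M * p) ℓ hℓN L₀ ζ₀ hζ₀) ℓ
    (s33t_tau_algebraMap (M * p) ℓ hℓN L₀ ζ₀ hζ₀)
    (s44c_five_tau_cong_i M p hpM h5 L₀ κ G hdeg hT hdegM hπ e ε he hε hεinv hε0 hpe hperf ℓ hℓN ζ₀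
      hζ₀)
    (s44c_five_tau_cong_z M p hpM h5 L₀ κ G hdeg hT hdegM hπ e ε he hε hεinv hε0 hpe hperf ℓ hℓN ζ₀
      hζ₀)
    (s44c_five_tau_val_i M p hpM h5 L₀ κ G hdeg hT hdegM hπ e ε he hε hεinv hε0 hpe hperf ℓ hℓN ζ₀
      hζ₀)
    (s44c_five_tau_val_z M p hpM h5 L₀ κ G hdeg hT hdegM hπ e ε he hε hεinv hε0 hpe hperf ℓ hℓN ζ₀
      hζ₀)
    (fun y => by rw [hΓs, hΓs, s44c_tau_galois])
    hc₀ hg a₀ hrel hm hη hη2 s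

end FiveTau

section FiveEta

variable (M p : ℕ) [NeZero M] [hp : Fact p.Prime] (hpM : ¬ p ∣ M) (h5 : 5 ≤ p)
  (K₀ : Type) [Field K₀] [NumberField K₀] (φ : K₀ →+* Kb)
  (κ : Type) [Field κ] [CharP κ p] [PerfectField κ]
  (G : s18g_GaussData K₀ κ) [IsDiscreteValuationRing G.A]
  (hdeg : s34m_HDeg K₀ M p) (hT : s18g_HT κ M) (hdegM : s18g_HDeg K₀ M)
  (hπ : Function.Surjective G.π)
  (e : ℕ) (ε : K₀) (he : 0 < e) (hε : ε ∈ G.A) (hεinv : ε⁻¹ ∈ G.A) (hε0 : ε ≠ 0)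
  (hpe : (p : K₀) = ε * ((G.ϖ : G.A) : K₀) ^ e) (hperf : ∀ c : κ, ∃ d : κ, d ^ p = c)

include h5 in
/-- `p ≥ 5` prime: `p² ∣ 12 e ⇒ p² ∣ e`. -/
theorem s44c_sq_dvd_of_twelve (e' : ℕ) (h : (p : ℤ) ^ 2 ∣ -(6 * (e' : ℤ)) - 6 * (e' : ℤ)) :
    p ^ 2 ∣ e' := by
  have h1 : ((p ^ 2 : ℕ) : ℤ) ∣ ((12 * e' : ℕ) : ℤ) := by
    push_cast
    have : (-(6 * (e' : ℤ)) - 6 * (e' : ℤ)) = -(12 * (e' : ℤ)) := by ring
    rw [this] at h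
    exact (dvd_neg.mp h)
  have h2 : p ^ 2 ∣ 12 * e' := Int.natCast_dvd_natCast.mp h1
  have hcop : Nat.Coprime p 12 := by
    rw [Nat.Prime.coprime_iff_not_dvd hp.out]
    intro hd
    have hle : p ≤ 12 := Nat.le_of_dvd (by norm_num) hd
    have hpp := hp.out
    interval_cases p <;> first | omega | (norm_num at hpp)
  exact (Nat.Coprime.pow_left 2 hcop).dvd_of_dvd_mul_left h2

/-- **helper8's modular unit** (`s44e_exists_unit`, conclusion shape as hypotheses) **is an admissible `η`** for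
`s44c_five_star_local` / `s44c_five_star_tau`: a unit at every node, `p² ∤ δ(g₀) = -12 e` as soon as `p² ∤ e`. -/
theorem s44c_five_eta {g₀ : s34m_F K₀ (M * p)} (hg₀ : g₀ ≠ 0)
    (hord : ∀ Q : Place K₀ (s34m_F K₀ (M * p)), 0 ≤ Q.ord (s18g_jF (K := K₀) (M * p)) →
      Q.ord g₀ = 0)
    (hinf : g₀ * (s34m_unif G (M * p) ^ (6 * e))⁻¹ ∈ s34m_Vinf G (M * p) ∧
      (g₀ * (s34m_unif G (M * p) ^ (6 * e))⁻¹)⁻¹ ∈ s34m_Vinf G (M * p))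
    (hzero : g₀ * s34m_unif G (M * p) ^ (6 * e) ∈ s34m_Vzero G φ M p hp.out hpM ∧
      (g₀ * s34m_unif G (M * p) ^ (6 * e))⁻¹ ∈ s34m_Vzero G φ M p hp.out hpM)
    (hp2 : ¬ p ^ 2 ∣ e) :
    (∀ s, s44c_Unit (s44c_five_Ns M p hpM K₀ φ κ G s) g₀) ∧
      ¬ (p : ℤ) ^ 2 ∣ s44c_delta
        (s33s_datum_five M p hpM h5 K₀ φ κ G hdeg hT hdegM hπ e ε he hε hεinv hε0 hpe hperf) g₀ := by
  set Z := s33s_datum_five M p hpM h5 K₀ φ κ G hdeg hT hdegM hπ e ε he hε hεinv hε0 hpe hperf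
    with hZ
  have hϖ0 : s34m_unif G (M * p) ≠ 0 := s34m_unif_ne_zero G (M * p)
  have hj0 : s18g_jF (K := K₀) (M * p) ≠ 0 := s18g_jF_ne_zero (M * p)
  refine ⟨fun s => ⟨hg₀, fun Q hQ => hord Q ?_⟩, ?_⟩
  · have hQ1 : Q ∈ s18_chart1 (L₀ := K₀) (s18g_jF (K := K₀) (M * p)) := hQ.1
    exact (ff_mem_iff_ord_nonneg Q hj0).mp hQ1
  · have hi : s44c_Val Z.Di ((6 * e : ℕ) : ℤ) g₀ := by
      refine ⟨g₀ * (s34m_unif G (M * p) ^ (6 * e))⁻¹,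
        mul_ne_zero hg₀ (inv_ne_zero (pow_ne_zero _ hϖ0)), hinf.1, hinf.2, ?_⟩
      show g₀ = s34m_unif G (M * p) ^ ((6 * e : ℕ) : ℤ) * _
      rw [zpow_natCast]
      field_simp
    have hz : s44c_Val Z.Dz (-((6 * e : ℕ) : ℤ)) g₀ := by
      refine ⟨g₀ * s34m_unif G (M * p) ^ (6 * e),
        mul_ne_zero hg₀ (pow_ne_zero _ hϖ0), hzero.1, hzero.2, ?_⟩
      show g₀ = s34m_unif G (M * p) ^ (-((6 * e : ℕ) : ℤ)) * _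
      rw [zpow_neg, zpow_natCast]
      field_simp
    rw [s44c_delta_eq hi hz]
    intro hd
    apply hp2
    apply s44c_sq_dvd_of_twelve p h5 e
    push_cast at hd
    exact hd

end FiveEta

end Fermat.Agent.Lib.S44
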