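/-
M-AT-P programme (S44), (★) in the TAME case `p ∤ e` (owner: helper4): NO wild inertia element, NO root `a`,
NO slope lemma.  Only
* (G3) from the Hecke relation `T f = c g ^ p f ^ m`, `p ∤ ℓ + 1 - m`, and (T4): `p ∣ δ f`;
* exact (Q4) at the nodes: `f = φ_s ^ p E_s`, `E_s` a unit at the places through `s` ⇒ `p ∣ δ E_s`;
* a function `η`, unit at all nodes, with `p ∤ δ η` (helper8's modular unit: `δ η = -12 e`, `p ≥ 5`, `p ∤ e`);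
* (G5), tame form: `δ E_s = p · δ g_s` with `g_s` a monomial in `E_s`, `η`.
Then at every node `f = Γ ^ p υ` with `υ` a unit at the places through the node and `V_∞ υ = V_0 υ`.

* `s44c_local_pth_tame`, `s44c_local_fin_tame` : abstract (G5), tame form;
* `s44c_star_local_tame`                       : abstract Σ-datum;
* `s44c_five_star_tame`                        : `s33s_datum_five`, conclusion verbatim the `hloc` of helper8's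
  `s44e_glob_five`;
* `s44c_five_star_tame_tau`                    : the same with `T := τ_ℓ` over `L₀ ≤ ℚ̄`, `f` a Kummer generator of
  a `T_ℓ`-eigenclass;
* `s44c_five_eta_tame`                         : helper8's `g₀` has `p ∤ δ g₀` when `p ∤ e`.
-/
import Fermat.Agent.Lib.S44.CoreFiveTau

set_option autoImplicit false
set_option linter.unusedSectionVars false
set_option linter.style.haveILetI false

noncomputable section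

namespace Fermat.Agent.Lib.S44

open ModularCurve AlgebraicCurve HahnSeries Polynomial Fermat.Agent.Lib.FF Fermat.Agent.Lib.S18
  Fermat.Agent.Lib.S34 Fermat.Agent.Lib.S37 Fermat.Agent.Lib.S33

local notation "Kb" => AlgebraicClosure ℚ

section Abstract

variable {L₀ 𝓕' κ Fb : Type*} [Field L₀] [Field 𝓕'] [Algebra L₀ 𝓕'] [Field κ] [Field Fb] [Algebra κ Fb]
variable {D' : s33f_Datum L₀ 𝓕' κ Fb} {𝓕 : Type*} [Field 𝓕] [Algebra L₀ 𝓕]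
variable {ι : Type*} {k : ι → Type*} [∀ s, Field (k s)] [∀ s, Algebra κ (k s)]
variable {Z : s33z_Datum D' 𝓕 ι k} {Ns : ι → Set (Place L₀ 𝓕)}

/-- **(G5), tame form**: `E, η` units at `T`, `p ∣ δ E`, `p ∤ δ η` ⇒ there is a unit `g` at `T` (a monomial in
`E` and `η`) with `δ E = p · δ g`. -/
theorem s44c_local_pth_tame {T : Set (Place L₀ 𝓕)} {p : ℕ} (hp : p.Prime) {E η : 𝓕}
    (hE : s44c_Unit T E) (hη : s44c_Unit T η) (h1 : (p : ℤ) ∣ s44c_delta Z E)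
    (h2 : ¬ (p : ℤ) ∣ s44c_delta Z η) :
    ∃ g : 𝓕, s44c_Unit T g ∧ s44c_delta Z E = p * s44c_delta Z g := by
  have hpp : Prime (p : ℤ) := Nat.prime_iff_prime_int.mp hp
  set x := s44c_delta Z E with hx
  set y := s44c_delta Z η with hy
  have hbez := Int.gcd_eq_gcd_ab x y
  set l : ℤ := (Int.gcd x y : ℤ) with hl
  have hF0 : s44c_Unit T (E ^ (Int.gcdA x y) * η ^ (Int.gcdB x y)) :=
    (hE.zpow _).mul (hη.zpow _)
  have hδF0 : s44c_delta Z (E ^ (Int.gcdA x y) * η ^ (Int.gcdB x y)) = l := by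
    rw [s44c_delta_mul (zpow_ne_zero _ hE.1) (zpow_ne_zero _ hη.1), s44c_delta_zpow hE.1,
      s44c_delta_zpow hη.1, hbez]
    ring
  have hly : l ∣ y := Int.gcd_dvd_right x y
  obtain ⟨k, hk⟩ : l ∣ x := Int.gcd_dvd_left x y
  have hl2 : ¬ (p : ℤ) ∣ l := fun h => h2 (dvd_trans h hly)
  have hpk : (p : ℤ) ∣ k := by
    have h3 : (p : ℤ) ∣ l * k := by rw [← hk]; exact h1
    exact (hpp.dvd_or_dvd h3).resolve_left hl2
  obtain ⟨k', rfl⟩ := hpk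
  refine ⟨(E ^ (Int.gcdA x y) * η ^ (Int.gcdB x y)) ^ k', hF0.zpow _, ?_⟩
  rw [s44c_delta_zpow hF0.1, hδF0, hk]
  ring

/-- **finiteness at a node, tame form.** -/
theorem s44c_local_fin_tame {T : Set (Place L₀ 𝓕)} {p : ℕ} (hp : p.Prime) {f φ E η : 𝓕}
    (hf : f = φ ^ p * E) (hE : s44c_Unit T E) (hη : s44c_Unit T η)
    (h1 : (p : ℤ) ∣ s44c_delta Z E) (h2 : ¬ (p : ℤ) ∣ s44c_delta Z η) :
    ∃ G υ : 𝓕, f = G ^ p * υ ∧ s44c_Unit T υ ∧ s44c_delta Z υ = 0 := by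
  obtain ⟨g, hg, e⟩ := s44c_local_pth_tame (Z := Z) hp hE hη h1 h2
  refine ⟨φ * g, E * (g ^ p)⁻¹, ?_, hE.mul (hg.pow p).inv, ?_⟩
  · rw [hf, mul_pow]
    have := hg.1
    field_simp
  · rw [s44c_delta_mul hE.1 (inv_ne_zero (pow_ne_zero _ hg.1)), s44c_delta_inv (pow_ne_zero _ hg.1),
      s44c_delta_pow hg.1, e]
    ring

/-- **(★), LOCAL FORM, TAME CASE.** -/
theorem s44c_star_local_tame {f : 𝓕} (hf : f ≠ 0)
    (hnode : ∀ s : ι, ∃ φ E : 𝓕, f = φ ^ D'.p * E ∧ s44c_Unit (Ns s) E)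
    (T : 𝓕 →* 𝓕) (ℓ : ℕ)
    (hTvi : ∀ (n : ℤ) (x : 𝓕), s44c_Val Z.Di n x → s44c_Val Z.Di (n * ((ℓ : ℤ) + 1)) (T x))
    (hTvz : ∀ (n : ℤ) (x : 𝓕), s44c_Val Z.Dz n x → s44c_Val Z.Dz (n * ((ℓ : ℤ) + 1)) (T x))
    {g : 𝓕} {cg : L₀} (hcg : cg ≠ 0) (hg : g ≠ 0) (m : ℤ)
    (hT : T f = algebraMap L₀ 𝓕 cg * g ^ D'.p * f ^ m)
    (hm : ¬ (D'.p : ℤ) ∣ (ℓ : ℤ) + 1 - m)
    {η : 𝓕} (hη : ∀ s, s44c_Unit (Ns s) η) (hη2 : ¬ (D'.p : ℤ) ∣ s44c_delta Z η) (s : ι) :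
    ∃ Γ υ : 𝓕, f = Γ ^ D'.p * υ ∧ s44c_Unit (Ns s) υ ∧ s44c_delta Z υ = 0 := by
  have hp := D'.p_prime
  obtain ⟨q, hq, -⟩ := s44c_hecke_delta (Z := Z) T ℓ hTvi hTvz hcg hf hg m hT hm
  obtain ⟨φ, E, ef, hE⟩ := hnode s
  have hφ0 : φ ≠ 0 := by
    rintro rfl
    rw [zero_pow hp.ne_zero, zero_mul] at ef
    exact hf ef
  have hδ : (D'.p : ℤ) ∣ s44c_delta Z E := by
    have := congrArg (s44c_delta Z) ef
    rw [s44c_delta_mul (pow_ne_zero _ hφ0) hE.1, s44c_delta_pow hφ0, hq] at this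
    exact ⟨q - s44c_delta Z φ, by linear_combination -this⟩
  exact s44c_local_fin_tame (Z := Z) hp ef hE (hη s) hδ hη2

end Abstract

section Five

variable (M p : ℕ) [NeZero M] [hp : Fact p.Prime] (hpM : ¬ p ∣ M) (h5 : 5 ≤ p)
  (K₀ : Type) [Field K₀] [NumberField K₀] (φ : K₀ →+* Kb)
  (κ : Type) [Field κ] [CharP κ p] [PerfectField κ]
  (G : s18g_GaussData K₀ κ) [IsDiscreteValuationRing G.A]
  (hdeg : s34m_HDeg K₀ M p) (hT : s18g_HT κ M) (hdegM : s18g_HDeg K₀ M)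
  (hπ : Function.Surjective G.π)
  (e : ℕ) (ε : K₀) (he : 0 < e) (hε : ε ∈ G.A) (hεinv : ε⁻¹ ∈ G.A) (hε0 : ε ≠ 0)
  (hpe : (p : K₀) = ε * ((G.ϖ : G.A) : K₀) ^ e) (hperf : ∀ c : κ, ∃ d : κ, d ^ p = c)

/-- **(★), LOCAL FORM, TAME CASE, for `s33s_datum_five`**: the output is verbatim the hypothesis `hloc` of
helper8's `s44e_glob_five`. -/
theorem s44c_five_star_tame {f : s34m_F K₀ (M * p)} (hf : f ≠ 0)
    (hnode : ∀ s, ∃ φ' E : s34m_F K₀ (M * p), f = φ' ^ p * E ∧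
      s44c_Unit (s44c_five_Ns M p hpM K₀ φ κ G s) E)
    (T : s34m_F K₀ (M * p) →* s34m_F K₀ (M * p)) (ℓ : ℕ)
    (hTvi : ∀ (n : ℤ) (x : s34m_F K₀ (M * p)),
      s44c_Val (s33s_datum_five M p hpM h5 K₀ φ κ G hdeg hT hdegM hπ e ε he hε hεinv hε0 hpe
        hperf).Di n x →
      s44c_Val (s33s_datum_five M p hpM h5 K₀ φ κ G hdeg hT hdegM hπ e ε he hε hεinv hε0 hpe
        hperf).Di (n * ((ℓ : ℤ) + 1)) (T x))
    (hTvz : ∀ (n : ℤ) (x : s34m_F K₀ (M * p)),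
      s44c_Val (s33s_datum_five M p hpM h5 K₀ φ κ G hdeg hT hdegM hπ e ε he hε hεinv hε0 hpe
        hperf).Dz n x →
      s44c_Val (s33s_datum_five M p hpM h5 K₀ φ κ G hdeg hT hdegM hπ e ε he hε hεinv hε0 hpe
        hperf).Dz (n * ((ℓ : ℤ) + 1)) (T x))
    {g : s34m_F K₀ (M * p)} {cg : K₀} (hcg : cg ≠ 0) (hg : g ≠ 0) (m : ℤ)
    (hTf : T f = algebraMap K₀ (s34m_F K₀ (M * p)) cg * g ^ p * f ^ m)
    (hm : ¬ (p : ℤ) ∣ (ℓ : ℤ) + 1 - m)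
    {η : s34m_F K₀ (M * p)} (hη : ∀ s, s44c_Unit (s44c_five_Ns M p hpM K₀ φ κ G s) η)
    (hη2 : ¬ (p : ℤ) ∣ s44c_delta
      (s33s_datum_five M p hpM h5 K₀ φ κ G hdeg hT hdegM hπ e ε he hε hεinv hε0 hpe hperf) η)
    (s : s33s_Node (s34m_VV G φ M p hp.out hpM) (s34m_unif G (M * p))
      (s18_chart1 (L₀ := K₀) (s18g_jF (K := K₀) (M * p)))) :
    ∃ (g' υ : s34m_F K₀ (M * p)) (a' : ℤ), f = g' ^ p * υ ∧
      (∀ i, υ * s34m_unif G (M * p) ^ (-a') ∈ s34m_VV G φ M p hp.out hpM i ∧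
        (υ * s34m_unif G (M * p) ^ (-a'))⁻¹ ∈ s34m_VV G φ M p hp.out hpM i) ∧
      ∀ Q ∈ s18_chart1 (L₀ := K₀) (s18g_jF (K := K₀) (M * p)),
        s34f_through (s34x_infRing (s34m_VV G φ M p hp.out hpM))
          (s18_chart1 (L₀ := K₀) (s18g_jF (K := K₀) (M * p))) s.1 Q → Q.ord υ = 0 := by
  obtain ⟨g', υ, e1, hU, hδ⟩ := s44c_star_local_tame
    (Z := s33s_datum_five M p hpM h5 K₀ φ κ G hdeg hT hdegM hπ e ε he hε hεinv hε0 hpe hperf)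
    (Ns := s44c_five_Ns M p hpM K₀ φ κ G) hf hnode T ℓ hTvi hTvz hcg hg m hTf hm hη hη2 s
  obtain ⟨a', ha'⟩ := s44c_five_unit_of_delta M p hpM h5 K₀ φ κ G hdeg hT hdegM hπ e ε he hε hεinv
    hε0 hpe hperf hU.1 hδ
  exact ⟨g', υ, a', e1, ha', fun Q hQ hth => hU.2 Q ⟨hQ, hth⟩⟩

include h5 in
/-- `p ≥ 5` prime: `p ∣ 12 e ⇒ p ∣ e`. -/
theorem s44c_dvd_of_twelve (e' : ℕ) (h : (p : ℤ) ∣ -(6 * (e' : ℤ)) - 6 * (e' : ℤ)) : p ∣ e' := by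
  have h1 : ((p : ℕ) : ℤ) ∣ ((12 * e' : ℕ) : ℤ) := by
    push_cast
    have : (-(6 * (e' : ℤ)) - 6 * (e' : ℤ)) = -(12 * (e' : ℤ)) := by ring
    rw [this] at h
    exact (dvd_neg.mp h)
  have h2 : p ∣ 12 * e' := Int.natCast_dvd_natCast.mp h1
  have hcop : Nat.Coprime p 12 := by
    rw [Nat.Prime.coprime_iff_not_dvd hp.out]
    intro hd
    have hle : p ≤ 12 := Nat.le_of_dvd (by norm_num) hd
    have hpp := hp.out
    interval_cases p <;> first | omega | (norm_num at hpp)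
  exact hcop.dvd_of_dvd_mul_left h2

/-- **helper8's modular unit is an admissible `η` in the tame case**: a unit at every node, `p ∤ δ(g₀) = -12 e`
as soon as `p ∤ e`. -/
theorem s44c_five_eta_tame {g₀ : s34m_F K₀ (M * p)} (hg₀ : g₀ ≠ 0)
    (hord : ∀ Q : Place K₀ (s34m_F K₀ (M * p)), 0 ≤ Q.ord (s18g_jF (K := K₀) (M * p)) →
      Q.ord g₀ = 0)
    (hinf : g₀ * (s34m_unif G (M * p) ^ (6 * e))⁻¹ ∈ s34m_Vinf G (M * p) ∧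
      (g₀ * (s34m_unif G (M * p) ^ (6 * e))⁻¹)⁻¹ ∈ s34m_Vinf G (M * p))
    (hzero : g₀ * s34m_unif G (M * p) ^ (6 * e) ∈ s34m_Vzero G φ M p hp.out hpM ∧
      (g₀ * s34m_unif G (M * p) ^ (6 * e))⁻¹ ∈ s34m_Vzero G φ M p hp.out hpM)
    (hp1 : ¬ p ∣ e) :
    (∀ s, s44c_Unit (s44c_five_Ns M p hpM K₀ φ κ G s) g₀) ∧
      ¬ (p : ℤ) ∣ s44c_delta
        (s33s_datum_five M p hpM h5 K₀ φ κ G hdeg hT hdegM hπ e ε he hε hεinv hε0 hpe hperf) g₀ := by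
  set Z := s33s_datum_five M p hpM h5 K₀ φ κ G hdeg hT hdegM hπ e ε he hε hεinv hε0 hpe hperf
    with hZ
  have hϖ0 : s34m_unif G (M * p) ≠ 0 := s34m_unif_ne_zero G (M * p)
  have hj0 : s18g_jF (K := K₀) (M * p) ≠ 0 := s18g_jF_ne_zero (M * p)
  refine ⟨fun s => ⟨hg₀, fun Q hQ => hord Q ?_⟩, ?_⟩
  · have hQ1 : Q ∈ s18_chart1 (L₀ := K₀) (s18g_jF (K := K₀) (M * p)) := hQ.1
    exact (ff_mem_iff_ord_nonneg Q hj0).mp hQ1
  · have hi : s44c_Val Z.Di ((6 * e : ℕ) : ℤ) g₀ := by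
      refine ⟨g₀ * (s34m_unif G (M * p) ^ (6 * e))⁻¹,
        mul_ne_zero hg₀ (inv_ne_zero (pow_ne_zero _ hϖ0)), hinf.1, hinf.2, ?_⟩
      show g₀ = s34m_unif G (M * p) ^ ((6 * e : ℕ) : ℤ) * _
      rw [zpow_natCast]
      field_simp
    have hz : s44c_Val Z.Dz (-((6 * e : ℕ) : ℤ)) g₀ := by
      refine ⟨g₀ * s34m_unif G (M * p) ^ (6 * e),
        mul_ne_zero hg₀ (pow_ne_zero _ hϖ0), hzero.1, hzero.2, ?_⟩
      show g₀ = s34m_unif G (M * p) ^ (-((6 * e : ℕ) : ℤ)) * _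
      rw [zpow_neg, zpow_natCast]
      field_simp
    rw [s44c_delta_eq hi hz]
    intro hd
    apply hp1
    apply s44c_dvd_of_twelve p h5 e
    push_cast at hd
    exact hd

end Five

section FiveTau

variable (M p : ℕ) [NeZero M] [hp : Fact p.Prime] (hpM : ¬ p ∣ M) (h5 : 5 ≤ p)
  (L₀ : IntermediateField ℚ Kb) [NumberField ↥L₀]
  (κ : Type) [Field κ] [CharP κ p] [PerfectField κ]
  (G : s18g_GaussData ↥L₀ κ) [IsDiscreteValuationRing G.A]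
  (hdeg : s34m_HDeg ↥L₀ M p) (hT : s18g_HT κ M) (hdegM : s18g_HDeg ↥L₀ M)
  (hπ : Function.Surjective G.π)
  (e : ℕ) (ε : ↥L₀) (he : 0 < e) (hε : ε ∈ G.A) (hεinv : ε⁻¹ ∈ G.A) (hε0 : ε ≠ 0)
  (hpe : (p : ↥L₀) = ε * ((G.ϖ : G.A) : ↥L₀) ^ e) (hperf : ∀ c : κ, ∃ d : κ, d ^ p = c)
  (ℓ : ℕ) [hℓ : Fact ℓ.Prime] (hℓN : ¬ ℓ ∣ M * p)
  (ζ₀ : (↥L₀)ˣ) (hζ₀ : IsPrimitiveRoot (ζ₀ : ↥L₀) ℓ)

include hℓN hζ₀ in
/-- **(★), LOCAL FORM, TAME CASE, for `s33s_datum_five` over `L₀ ≤ ℚ̄` with `T = τ_ℓ`**, `f` a Kummer generator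
of a `T_ℓ`-eigenclass `x` with `a₀ ≢ ℓ + 1 mod p`. -/
theorem s44c_five_star_tame_tau {f : s34m_F ↥L₀ (M * p)}
    (hnode : ∀ s, ∃ φ' E : s34m_F ↥L₀ (M * p), f = φ' ^ p * E ∧
      s44c_Unit (s44c_five_Ns M p hpM ↥L₀ (algebraMap ↥L₀ Kb) κ G s) E)
    {x : JZero (M * p)} (hf : s33d_IsKumGen p x (s18q_incl (M * p) L₀ f)) (a₀ : ℤ)
    (hx : heckeOperatorBar (M * p) ⟨ℓ, hℓ.out⟩ x = a₀ • x)
    (ha₀ : ¬ (p : ℤ) ∣ a₀ - ((ℓ : ℤ) + 1))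
    {η : s34m_F ↥L₀ (M * p)}
    (hη : ∀ s, s44c_Unit (s44c_five_Ns M p hpM ↥L₀ (algebraMap ↥L₀ Kb) κ G s) η)
    (hη2 : ¬ (p : ℤ) ∣ s44c_delta
      (s33s_datum_five M p hpM h5 ↥L₀ (algebraMap ↥L₀ Kb) κ G hdeg hT hdegM hπ e ε he hε hεinv hε0 hpe
        hperf) η)
    (s : s33s_Node (s34m_VV G (algebraMap ↥L₀ Kb) M p hp.out hpM) (s34m_unif G (M * p))
      (s18_chart1 (L₀ := ↥L₀) (s18g_jF (K := ↥L₀) (M * p)))) :
    ∃ (g' υ : s34m_F ↥L₀ (M * p)) (a' : ℤ), f = g' ^ p * υ ∧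
      (∀ i, υ * s34m_unif G (M * p) ^ (-a') ∈ s34m_VV G (algebraMap ↥L₀ Kb) M p hp.out hpM i ∧
        (υ * s34m_unif G (M * p) ^ (-a'))⁻¹ ∈ s34m_VV G (algebraMap ↥L₀ Kb) M p hp.out hpM i) ∧
      ∀ Q ∈ s18_chart1 (L₀ := ↥L₀) (s18g_jF (K := ↥L₀) (M * p)),
        s34f_through (s34x_infRing (s34m_VV G (algebraMap ↥L₀ Kb) M p hp.out hpM))
          (s18_chart1 (L₀ := ↥L₀) (s18g_jF (K := ↥L₀) (M * p))) s.1 Q → Q.ord υ = 0 := by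
  have hf0 : f ≠ 0 := fun h0 => hf.1 (by rw [h0, map_zero])
  obtain ⟨c₀, g, hc₀, hg, hrel⟩ := s44c_five_tau_rel M p L₀ ℓ hℓN ζ₀ hζ₀ hf a₀ hx
  have hm : ¬ (p : ℤ) ∣ (ℓ : ℤ) + 1 - a₀ := fun hd => ha₀ (by
    have := dvd_neg.mpr hd
    rwa [neg_sub] at this)
  exact s44c_five_star_tame M p hpM h5 ↥L₀ (algebraMap ↥L₀ Kb) κ G hdeg hT hdegM hπ e ε he hε hεinv
    hε0 hpe hperf hf0 hnode (s33t_tau (M * p) ℓ hℓN L₀ ζ₀ hζ₀) ℓ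
    (s44c_five_tau_val_i M p hpM h5 L₀ κ G hdeg hT hdegM hπ e ε he hε hεinv hε0 hpe hperf ℓ hℓN ζ₀
      hζ₀)
    (s44c_five_tau_val_z M p hpM h5 L₀ κ G hdeg hT hdegM hπ e ε he hε hεinv hε0 hpe hperf ℓ hℓN ζ₀
      hζ₀)
    hc₀ hg a₀ hrel hm hη hη2 s

end FiveTau

end Fermat.Agent.Lib.S44
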