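/-
M-AT-P programme (S44), wall W2 [EIS/THICK] (helper8, prefix `s44e_`), part 3:
THE MODULAR UNIT OVER AN ARBITRARY FIELD `K₀ ⊆ Q̄` (descent of `s44e_unit_ord_bar_gen` along the
restriction of places `Q̄ → K₀`, `s18r_exists_restrict`).

`𝓕 = s34m_F K₀ (M p)`, `j = s18g_jF (M p)`, `j_p = β j`, `h` with `d j_p = h • d j`:

* `s44e_theta_jF_ne_zero`, `s44e_theta_beta_jF` : `θ j ≠ 0`, `θ j_p = p • (θ j)(T^p) ≠ 0`;
* `s44e_exists_h` : the function `h` exists and is `≠ 0`;
* **`s44e_unit_ord_K`** : `6 ord h + 4 ord j + 3 ord (j - 1728) - 4 ord j_p - 3 ord (j_p - 1728) = 0`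
  at every place of `𝓕 / K₀` at which `j` is regular.
-/
import Fermat.Agent.Lib.S44.EUnitLevel
import Fermat.Agent.Lib.S36.REisUnit
import Fermat.Agent.Lib.S36.RTheta

set_option autoImplicit false
set_option linter.unusedSectionVars false
set_option linter.style.haveILetI false
set_option synthInstance.maxHeartbeats 200000

noncomputable section

namespace Fermat.Agent.Lib.S44

open AlgebraicCurve ModularCurve KaehlerDifferential HahnSeries
open Fermat.Agent.Lib.FF Fermat.Agent.Lib.S18 Fermat.Agent.Lib.S37 Fermat.Agent.Lib.S36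
  Fermat.Agent.Lib.S34

local notation "Kb" => AlgebraicClosure ℚ

section Places

variable {K₀ : Type*} [Field K₀] [Algebra ℚ K₀] (φ : K₀ →+* Kb) (M p : ℕ) [NeZero M] [NeZero p]

include φ in
/-- **The modular unit has neither zero nor pole where `j` is regular**, over `K₀`. -/
theorem s44e_unit_ord_K (hp : p.Prime) (hpM : ¬ p ∣ M) (hp5 : 5 ≤ p)
    (h : s34m_F K₀ (M * p)) (hh : h ≠ 0)
    (hrel : D K₀ (s34m_F K₀ (M * p)) (heckeBetaBar K₀ M p (s18g_jF (K := K₀) M)) =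
      h • D K₀ (s34m_F K₀ (M * p)) (s18g_jF (K := K₀) (M * p)))
    (Q : Place K₀ (s34m_F K₀ (M * p))) (hreg : 0 ≤ Q.ord (s18g_jF (K := K₀) (M * p))) :
    6 * Q.ord h + 4 * Q.ord (s18g_jF (K := K₀) (M * p)) +
        3 * Q.ord (s18g_jF (K := K₀) (M * p) - algebraMap K₀ (s34m_F K₀ (M * p)) 1728) -
        4 * Q.ord (heckeBetaBar K₀ M p (s18g_jF (K := K₀) M)) -
        3 * Q.ord (heckeBetaBar K₀ M p (s18g_jF (K := K₀) M) -
          algebraMap K₀ (s34m_F K₀ (M * p)) 1728) = 0 := by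
  obtain ⟨ρ, hsurj, hord⟩ := s18r_exists_restrict φ (M * p)
  obtain ⟨P, rfl⟩ := hsurj Q
  set ι := s34m_iota φ (M * p) with hι
  have hιA : ι (s18g_jF (K := K₀) (M * p)) = ffd_jBar (M * p) := s18r_map_jF φ (M * p)
  have hιB : ι (heckeBetaBar K₀ M p (s18g_jF (K := K₀) M)) =
      heckeBetaBar Kb M p (ffd_jBar M) := by
    rw [hι, s34m_iota_beta]
    congr 1
    exact s18r_map_jF φ M
  have hι1728 : ι (algebraMap K₀ (s34m_F K₀ (M * p)) 1728) =
      algebraMap Kb (ffi_F (M * p)) 1728 := by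
    rw [hι, s18q_map_algebraMap, map_ofNat]
  have hrel' := s36r_D_map φ (ι : s34m_F K₀ (M * p) →+* ffi_F (M * p))
    (fun a => s18q_map_algebraMap φ (modularFunctionFieldFull (M * p)) a) hrel
  rw [hιA, hιB] at hrel'
  have hh' : ι h ≠ 0 := (map_ne_zero _).mpr hh
  have hreg' : 0 ≤ P.ord (ffd_jBar (M * p)) := by
    rw [← hιA, hord]; exact hreg
  have key := s44e_unit_ord_bar_gen M p hp hpM hp5 (ι h) hh' hrel' P hreg'
  rw [← hιA, ← hιB, ← hι1728, ← map_sub, ← map_sub, hord, hord, hord, hord, hord] at key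
  exact key

end Places

end Fermat.Agent.Lib.S44
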