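/-
M-AT-P programme (S44), wall W2 [EIS/THICK] (helper8, prefix `s44e_`), part 4:
THE TWO GAUSS VALUATIONS OF THE MODULAR UNIT.

`𝓕 = s34m_F K₀ (M p)`, `jA = α j = j`, `jB = β j = j(T^p)`, `w` the Atkin–Lehner involution,
`h` with `d jB = h • d jA`.

* `s44e_theta_jq_ne_zero`   : `θ j ≠ 0` over any field;
* `s44e_D_jA_ne_zero`       : `d jA ≠ 0`;
* `s44e_al_h`               : `w h * h = 1`;
* `s44e_h_unit`             : `h / p` and its inverse lie in `V_∞`  (`h / p = (θ j)(T^p) / θ j`);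
* `s44e_j_unit`             : `jA, jA - 1728, jB, jB - 1728` and their inverses lie in `V_∞`.
-/
import Fermat.Agent.Lib.S44.EUnitK

set_option autoImplicit false
set_option linter.unusedSectionVars false
set_option linter.style.haveILetI false
set_option synthInstance.maxHeartbeats 200000

noncomputable section

namespace Fermat.Agent.Lib.S44

open AlgebraicCurve ModularCurve KaehlerDifferential HahnSeries
open Fermat.Agent.Lib.FF Fermat.Agent.Lib.S18 Fermat.Agent.Lib.S37 Fermat.Agent.Lib.S36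
  Fermat.Agent.Lib.S34

local notation "Kb" => AlgebraicClosure ℚ

/-- `θ j ≠ 0` over any field. -/
theorem s44e_theta_jq_ne_zero (K : Type*) [Field K] : ffd_theta (jqModC K) ≠ 0 := by
  intro h0
  have := congrArg (fun s => HahnSeries.coeff s (-1)) h0
  simp only [ffd_theta_coeff, HahnSeries.coeff_zero, coeff_jqModC_neg_one, mul_one] at this
  norm_num at this

/-- `θ (j - c) ≠ 0` -/
theorem s44e_jq_sub_ne_zero (K : Type*) [Field K] (c : K) :
    jqModC K - HahnSeries.C c ≠ 0 := by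
  intro h0
  have := congrArg (fun s => HahnSeries.coeff s (-1)) h0
  have hC : (HahnSeries.C c : LaurentSeries K).coeff (-1) = 0 := by
    rw [HahnSeries.C_apply, HahnSeries.coeff_single_of_ne (by norm_num)]
  simp only [HahnSeries.coeff_sub, HahnSeries.coeff_zero, coeff_jqModC_neg_one, hC] at this
  norm_num at this

section Level

variable {K₀ : Type*} [Field K₀] [CharZero K₀] [Algebra ℚ K₀] {κ : Type*} [Field κ]
  (G : s18g_GaussData K₀ κ) (φ : K₀ →+* Kb) (M p : ℕ) [NeZero M] [NeZero p]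
  (hp : p.Prime) (hpM : ¬ p ∣ M)

local notation "𝓕" => s34m_F K₀ (M * p)
local notation "jA" => heckeAlphaBar K₀ M p (s18g_jF (K := K₀) M)
local notation "jB" => heckeBetaBar K₀ M p (s18g_jF (K := K₀) M)

theorem s44e_coe_jA : ((jA : 𝓕) : LaurentSeries K₀) = jqModC K₀ := by
  rw [coe_heckeAlphaBar, s18g_coe_jF]

theorem s44e_coe_jB : ((jB : 𝓕) : LaurentSeries K₀) = qExpand K₀ p (jqModC K₀) := by
  rw [coe_heckeBetaBar, s18g_coe_jF]

theorem s44e_theta_jA_ne_zero : ffd_theta ((jA : 𝓕) : LaurentSeries K₀) ≠ 0 := by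
  rw [s44e_coe_jA]
  exact s44e_theta_jq_ne_zero K₀

theorem s44e_theta_jB :
    ffd_theta ((jB : 𝓕) : LaurentSeries K₀) =
      algebraMap K₀ (LaurentSeries K₀) ((p : ℕ) : K₀) *
        qExpand K₀ p (ffd_theta (jqModC K₀)) := by
  rw [s44e_coe_jB, s36r_theta_qExpand, ffd_smul_eq_algebraMap_mul]

/-- `d jA ≠ 0`. -/
theorem s44e_D_jA_ne_zero : D K₀ 𝓕 (jA : 𝓕) ≠ 0 := by
  intro h0
  have hrel : D K₀ 𝓕 (jA : 𝓕) = (0 : 𝓕) • D K₀ 𝓕 (jA : 𝓕) := by rw [zero_smul]; exact h0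
  have := s36r_theta_of_D (laurentBaseChange K₀ (modularFunctionFieldFull (M * p))) hrel
  rw [ZeroMemClass.coe_zero, zero_mul] at this
  exact s44e_theta_jA_ne_zero M p this

include hp hpM in
/-- **`w h = h⁻¹`**, in the form `w h * h = 1`. -/
theorem s44e_al_h (h : 𝓕) (hrel : D K₀ 𝓕 (jB : 𝓕) = h • D K₀ 𝓕 (jA : 𝓕)) :
    s34m_al φ M p hp hpM h * h = 1 := by
  have hc' := s36r_D_map (RingHom.id K₀)
    ((s34m_al φ M p hp hpM : 𝓕 ≃ₐ[K₀] 𝓕) : 𝓕 →+* 𝓕)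
    (fun a => (s34m_al φ M p hp hpM).commutes a) hrel
  simp only [RingHom.coe_coe] at hc'
  rw [s34m_al_alpha, s34m_al_beta, hrel, smul_smul] at hc'
  have h1 : (s34m_al φ M p hp hpM h * h - 1) • D K₀ 𝓕 (jA : 𝓕) = 0 := by
    rw [sub_smul, one_smul, ← hc', sub_self]
  rcases smul_eq_zero.mp h1 with h2 | h2
  · exact sub_eq_zero.mp h2
  · exact absurd h2 (s44e_D_jA_ne_zero M p)

/-! ### Units of `V_∞` -/

/-- A function whose `q`-expansion lies in the Gauss ring with nonzero reduction is a unit of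
`V_∞`. -/
theorem s44e_unit_of_red (N : ℕ) [NeZero N] (x : s34m_F K₀ N)
    (hx : (x : LaurentSeries K₀) ∈ s18g_O G) (hred : s18g_red G ⟨_, hx⟩ ≠ 0) :
    x ∈ s34m_Vinf G N ∧ x⁻¹ ∈ s34m_Vinf G N := by
  refine ⟨hx, ?_⟩
  obtain ⟨b', hb'⟩ := ((s18g_isUnit_iff G ⟨_, hx⟩).mpr hred).exists_right_inv
  have h1 : (x : LaurentSeries K₀) * (b' : LaurentSeries K₀) = 1 := by
    have := congrArg (fun z : s18g_O G => (z : LaurentSeries K₀)) hb'
    simpa using this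
  rw [s34m_mem_Vinf]
  have h2 : ((x⁻¹ : s34m_F K₀ N) : LaurentSeries K₀) = (b' : LaurentSeries K₀) := by
    have e : ((x⁻¹ : s34m_F K₀ N) : LaurentSeries K₀) = (x : LaurentSeries K₀)⁻¹ := rfl
    rw [e]
    exact inv_eq_of_mul_eq_one_right h1
  rw [h2]
  exact b'.2

/-- `j` is a unit of `V_∞` (level `N`). -/
theorem s44e_j_unit (N : ℕ) [NeZero N] :
    s18g_jF (K := K₀) N ∈ s34m_Vinf G N ∧ (s18g_jF (K := K₀) N)⁻¹ ∈ s34m_Vinf G N := by
  refine s44e_unit_of_red G N _ (by rw [s18g_coe_jF]; exact s18g_jq_mem_O G) ?_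
  have e : (⟨((s18g_jF (K := K₀) N : s34m_F K₀ N) : LaurentSeries K₀),
      (by rw [s18g_coe_jF]; exact s18g_jq_mem_O G)⟩ : s18g_O G) =
      ⟨jqModC K₀, s18g_jq_mem_O G⟩ := Subtype.ext (s18g_coe_jF (K := K₀) (N := N))
  rw [e, s18g_red_jq]
  exact jqModC_ne_zero_of_nontrivial κ

/-- `j - c` (`c ∈ A`) is a unit of `V_∞` (level `N`). -/
theorem s44e_j_sub_unit (N : ℕ) [NeZero N] (a : G.A) :
    (s18g_jF (K := K₀) N - algebraMap K₀ (s34m_F K₀ N) ((a : G.A) : K₀)) ∈ s34m_Vinf G N ∧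
      (s18g_jF (K := K₀) N - algebraMap K₀ (s34m_F K₀ N) ((a : G.A) : K₀))⁻¹ ∈
        s34m_Vinf G N := by
  have hcoe : ((s18g_jF (K := K₀) N - algebraMap K₀ (s34m_F K₀ N) ((a : G.A) : K₀) :
      s34m_F K₀ N) : LaurentSeries K₀) = jqModC K₀ - HahnSeries.C ((a : G.A) : K₀) := by
    push_cast
    rw [s18g_coe_jF, algebraMap_laurentSeries_eq_single]
    rfl
  have hmem : jqModC K₀ - HahnSeries.C ((a : G.A) : K₀) ∈ s18g_O G :=
    (s18g_O G).sub_mem (s18g_jq_mem_O G) (s18g_C_mem_O G a)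
  refine s44e_unit_of_red G N _ (by rw [hcoe]; exact hmem) ?_
  have e : (⟨((s18g_jF (K := K₀) N - algebraMap K₀ (s34m_F K₀ N) ((a : G.A) : K₀) :
      s34m_F K₀ N) : LaurentSeries K₀), (by rw [hcoe]; exact hmem)⟩ : s18g_O G) =
      ⟨jqModC K₀, s18g_jq_mem_O G⟩ - ⟨HahnSeries.C ((a : G.A) : K₀), s18g_C_mem_O G a⟩ :=
    Subtype.ext hcoe
  rw [e, map_sub, s18g_red_jq, s18g_red_C]
  exact s44e_jq_sub_ne_zero κ (G.π a)

/-- **`h / p` is a unit of `V_∞`** (`h / p = (θ j)(T^p) / θ j`). -/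
theorem s44e_h_unit (h : 𝓕) (hrel : D K₀ 𝓕 (jB : 𝓕) = h • D K₀ 𝓕 (jA : 𝓕)) :
    h * (algebraMap K₀ 𝓕 ((p : ℕ) : K₀))⁻¹ ∈ s34m_Vinf G (M * p) ∧
      (h * (algebraMap K₀ 𝓕 ((p : ℕ) : K₀))⁻¹)⁻¹ ∈ s34m_Vinf G (M * p) := by
  have hθ := s36r_theta_of_D (laurentBaseChange K₀ (modularFunctionFieldFull (M * p))) hrel
  rw [s44e_theta_jB, s44e_coe_jA] at hθ
  have hpK : ((p : ℕ) : K₀) ≠ 0 := by exact_mod_cast NeZero.ne p
  have hpL : algebraMap K₀ (LaurentSeries K₀) ((p : ℕ) : K₀) ≠ 0 :=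
    (map_ne_zero _).mpr hpK
  set u : 𝓕 := h * (algebraMap K₀ 𝓕 ((p : ℕ) : K₀))⁻¹ with hu
  have hucoe : ((u : 𝓕) : LaurentSeries K₀) =
      (h : LaurentSeries K₀) * (algebraMap K₀ (LaurentSeries K₀) ((p : ℕ) : K₀))⁻¹ := rfl
  have hjO : jqModC K₀ ∈ s18g_O G := s18g_jq_mem_O G
  have hbO : ffd_theta (jqModC K₀) ∈ s18g_O G := s36r_theta_mem_O G hjO
  have haO : qExpand K₀ p (ffd_theta (jqModC K₀)) ∈ s18g_O G := s34m_qExpand_mem_O G p hbO
  have hy : (u : LaurentSeries K₀) * ffd_theta (jqModC K₀) =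
      qExpand K₀ p (ffd_theta (jqModC K₀)) := by
    rw [hucoe, mul_assoc, mul_comm _ (ffd_theta (jqModC K₀)), ← mul_assoc, ← hθ]
    field_simp
  have hredb : s18g_red G ⟨_, hbO⟩ = ffd_theta (jqModC κ) := by
    rw [s36r_red_theta G ⟨jqModC K₀, hjO⟩, s18g_red_jq]
  have hb : s18g_red G ⟨_, hbO⟩ ≠ 0 := by
    rw [hredb]; exact s44e_theta_jq_ne_zero κ
  have hreda : s18g_red G ⟨_, haO⟩ ≠ 0 := by
    rw [s34m_red_qExpand G p ⟨_, hbO⟩]
    exact fun h0 => hb (s34m_qExpand_injective κ p (by rw [h0, map_zero]))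
  obtain ⟨hy', e⟩ := s36r_div_mem_O G ⟨_, haO⟩ ⟨_, hbO⟩ hb _ hy
  refine s44e_unit_of_red G (M * p) u hy' ?_
  intro h0
  rw [h0, zero_mul] at e
  exact hreda e.symm

end Level

end Fermat.Agent.Lib.S44
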