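/-
M-AT-P programme (S44), wall W2 [EIS/THICK] (helper8, prefix `s44e_`), part 5:
**THE MODULAR UNIT `g₀ = h⁶ · α(X) / β(X)`, `X = j⁴ (j - 1728)³`** (`= p⁶ Δ(p z)/Δ(z)`) of the function
field `𝓕 = s34m_F K₀ (M p)` of `X₀(M p)` over `K₀`, `p ≥ 5` prime, `p ∤ M`:

* `s44e_g0_ne_zero`;
* `s44e_g0_ord`   : `ord_Q g₀ = 0` at EVERY place `Q` of `𝓕 / K₀` at which `j` is regular
  (no hypothesis on `M`: elliptic points are dodged by raising the level to `36 M`);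
* `s44e_g0_Vinf`  : `g₀ / p⁶` is a unit of `V_∞`;
* `s44e_g0_Vzero` : `g₀ · p⁶` is a unit of `V_0`.

Hence `(V_0 - V_∞)(g₀) = -12 v(p)`: THE THICKNESS OF THE SUPERSINGULAR ANNULI DIVIDES `12 v(p)`.
* **`s44e_exists_unit`** : the packaged existence statement (the only export).
-/
import Fermat.Agent.Lib.S44.EUnitVal

set_option autoImplicit false
set_option linter.unusedSectionVars false
set_option linter.style.haveILetI false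
set_option synthInstance.maxHeartbeats 200000

noncomputable section

namespace Fermat.Agent.Lib.S44

open AlgebraicCurve ModularCurve KaehlerDifferential HahnSeries
open Fermat.Agent.Lib.FF Fermat.Agent.Lib.S18 Fermat.Agent.Lib.S37 Fermat.Agent.Lib.S36
  Fermat.Agent.Lib.S34

local notation "Kb" => AlgebraicClosure ℚ

section Ord

variable {K F : Type*} [Field K] [Field F] [Algebra K F]

theorem s44e_ord_pow (v : Place K F) (x : F) (n : ℕ) : v.ord (x ^ n) = (n : ℤ) * v.ord x := by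
  rw [← zpow_natCast, v.ord_zpow]

theorem s44e_field_aux1 {F : Type*} [Field F] (g P E w : F) (e : ℕ) (hP : P = E * w ^ e)
    (hE : E ≠ 0) (hw : w ≠ 0) :
    g * (w ^ (6 * e))⁻¹ = g * (P ^ 6)⁻¹ * E ^ 6 := by
  rw [hP, mul_pow, ← pow_mul, mul_comm e 6]
  field_simp

theorem s44e_field_aux2 {F : Type*} [Field F] (g P E w : F) (e : ℕ) (hP : P = E * w ^ e)
    (hE : E ≠ 0) (hw : w ≠ 0) :
    g * w ^ (6 * e) = g * P ^ 6 * E⁻¹ ^ 6 := by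
  rw [hP, mul_pow, ← pow_mul, mul_comm e 6]
  field_simp

theorem s44e_field_aux3 {F : Type*} [Field F] (a E : F) :
    (a * E ^ 6)⁻¹ = a⁻¹ * E⁻¹ ^ 6 := by
  rw [mul_inv, inv_pow]

theorem s44e_field_aux4 {F : Type*} [Field F] (a E : F) :
    (a * E⁻¹ ^ 6)⁻¹ = a⁻¹ * E ^ 6 := by
  rw [mul_inv, inv_pow, inv_inv]

end Ord

section Level

variable {K₀ : Type*} [Field K₀] [CharZero K₀] [Algebra ℚ K₀] {κ : Type*} [Field κ]
  (G : s18g_GaussData K₀ κ) (φ : K₀ →+* Kb) (M p : ℕ) [NeZero M] [NeZero p]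
  (hp : p.Prime) (hpM : ¬ p ∣ M)

local notation "𝓕" => s34m_F K₀ (M * p)
local notation "jA" => heckeAlphaBar K₀ M p (s18g_jF (K := K₀) M)
local notation "jB" => heckeBetaBar K₀ M p (s18g_jF (K := K₀) M)

/-- `X = j⁴ (j - 1728)³` at level `N`. -/
def s44e_X (K₀ : Type*) [Field K₀] [Algebra ℚ K₀] (N : ℕ) [NeZero N] : s34m_F K₀ N :=
  s18g_jF (K := K₀) N ^ 4 * (s18g_jF (K := K₀) N - algebraMap K₀ (s34m_F K₀ N) 1728) ^ 3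

theorem s44e_coe_1728 : (((1728 : G.A) : G.A) : K₀) = 1728 := by
  norm_cast

/-- `X` is a unit of `V_∞`. -/
theorem s44e_X_unit (N : ℕ) [NeZero N] :
    s44e_X K₀ N ∈ s34m_Vinf G N ∧ (s44e_X K₀ N)⁻¹ ∈ s34m_Vinf G N := by
  obtain ⟨h1, h1'⟩ := s44e_j_unit G N
  obtain ⟨h2, h2'⟩ := s44e_j_sub_unit G N (1728 : G.A)
  rw [s44e_coe_1728] at h2 h2'
  refine ⟨mul_mem (pow_mem h1 4) (pow_mem h2 3), ?_⟩
  rw [s44e_X, mul_inv, ← inv_pow, ← inv_pow]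
  exact mul_mem (pow_mem h1' 4) (pow_mem h2' 3)

theorem s44e_X_ne_zero (N : ℕ) [NeZero N] : s44e_X K₀ N ≠ 0 := by
  have hj : s18g_jF (K := K₀) N ≠ 0 := s18g_jF_ne_zero N
  have hj' : s18g_jF (K := K₀) N - algebraMap K₀ (s34m_F K₀ N) 1728 ≠ 0 := by
    intro h0
    have h1 := congrArg (fun x : s34m_F K₀ N => (x : LaurentSeries K₀)) h0
    simp only [AddSubgroupClass.coe_sub, s18g_coe_jF, ZeroMemClass.coe_zero] at h1
    have h2 := congrArg (fun s => HahnSeries.coeff s (-1)) h1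
    have hC : ((algebraMap K₀ (s34m_F K₀ N) 1728 : s34m_F K₀ N) : LaurentSeries K₀).coeff (-1)
        = 0 := by
      rw [s18g_coe_algebraMap, HahnSeries.C_apply, HahnSeries.coeff_single_of_ne (by norm_num)]
    simp only [HahnSeries.coeff_sub, coeff_jqModC_neg_one, hC, HahnSeries.coeff_zero] at h2
    norm_num at h2
  exact mul_ne_zero (pow_ne_zero 4 hj) (pow_ne_zero 3 hj')

/-- **The modular unit.** -/
def s44e_g0 (h : 𝓕) : 𝓕 :=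
  h ^ 6 * (heckeAlphaBar K₀ M p (s44e_X K₀ M) * (heckeBetaBar K₀ M p (s44e_X K₀ M))⁻¹)

include hp hpM φ in
theorem s44e_h_ne_zero (h : 𝓕) (hrel : D K₀ 𝓕 (jB : 𝓕) = h • D K₀ 𝓕 (jA : 𝓕)) : h ≠ 0 := by
  intro h0
  have := s44e_al_h φ M p hp hpM h hrel
  rw [h0, mul_zero] at this
  exact zero_ne_one this

include hp hpM φ in
theorem s44e_g0_ne_zero (h : 𝓕) (hrel : D K₀ 𝓕 (jB : 𝓕) = h • D K₀ 𝓕 (jA : 𝓕)) :
    s44e_g0 M p h ≠ 0 := by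
  have hh := s44e_h_ne_zero φ M p hp hpM h hrel
  have hX := s44e_X_ne_zero (K₀ := K₀) M
  refine mul_ne_zero (pow_ne_zero 6 hh) (mul_ne_zero ?_ (inv_ne_zero ?_))
  · exact (map_ne_zero _).mpr hX
  · exact (map_ne_zero _).mpr hX

theorem s44e_alpha_X :
    heckeAlphaBar K₀ M p (s44e_X K₀ M) =
      (jA : 𝓕) ^ 4 * ((jA : 𝓕) - algebraMap K₀ 𝓕 1728) ^ 3 := by
  rw [s44e_X, map_mul, map_pow, map_pow, map_sub, AlgHom.commutes]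

theorem s44e_beta_X :
    heckeBetaBar K₀ M p (s44e_X K₀ M) =
      (jB : 𝓕) ^ 4 * ((jB : 𝓕) - algebraMap K₀ 𝓕 1728) ^ 3 := by
  rw [s44e_X, map_mul, map_pow, map_pow, map_sub, AlgHom.commutes]

include hp hpM φ in
/-- **`ord_Q g₀ = 0` wherever `j` is regular.** -/
theorem s44e_g0_ord (hp5 : 5 ≤ p) (h : 𝓕)
    (hrel : D K₀ 𝓕 (jB : 𝓕) = h • D K₀ 𝓕 (jA : 𝓕))
    (Q : Place K₀ 𝓕) (hreg : 0 ≤ Q.ord (s18g_jF (K := K₀) (M * p))) :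
    Q.ord (s44e_g0 M p h) = 0 := by
  have hh := s44e_h_ne_zero φ M p hp hpM h hrel
  have hX := s44e_X_ne_zero (K₀ := K₀) M
  have hαX : heckeAlphaBar K₀ M p (s44e_X K₀ M) ≠ 0 := (map_ne_zero _).mpr hX
  have hβX : heckeBetaBar K₀ M p (s44e_X K₀ M) ≠ 0 := (map_ne_zero _).mpr hX
  have hjA : (jA : 𝓕) = s18g_jF (K := K₀) (M * p) := Subtype.ext rfl
  have hrel' : D K₀ 𝓕 (jB : 𝓕) = h • D K₀ 𝓕 (s18g_jF (K := K₀) (M * p)) := by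
    rw [← hjA]; exact hrel
  have key := s44e_unit_ord_K φ M p hp hpM hp5 h hh hrel' Q hreg
  -- the factors
  have hαX' := hαX
  have hβX' := hβX
  rw [s44e_alpha_X] at hαX'
  rw [s44e_beta_X] at hβX'
  have hA4 : (jA : 𝓕) ^ 4 ≠ 0 := left_ne_zero_of_mul hαX'
  have hA3 : ((jA : 𝓕) - algebraMap K₀ 𝓕 1728) ^ 3 ≠ 0 := right_ne_zero_of_mul hαX'
  have hB4 : (jB : 𝓕) ^ 4 ≠ 0 := left_ne_zero_of_mul hβX'
  have hB3 : ((jB : 𝓕) - algebraMap K₀ 𝓕 1728) ^ 3 ≠ 0 := right_ne_zero_of_mul hβX'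
  rw [s44e_g0, Q.ord_mul (pow_ne_zero 6 hh) (mul_ne_zero hαX (inv_ne_zero hβX)),
    Q.ord_mul hαX (inv_ne_zero hβX), Q.ord_inv, s44e_alpha_X, s44e_beta_X,
    Q.ord_mul hA4 hA3, Q.ord_mul hB4 hB3, s44e_ord_pow, s44e_ord_pow, s44e_ord_pow,
    s44e_ord_pow, s44e_ord_pow, hjA]
  push_cast
  linarith

include hp hpM φ in
/-- **`g₀ / p⁶` is a unit of `V_∞`.** -/
theorem s44e_g0_Vinf (h : 𝓕) (hrel : D K₀ 𝓕 (jB : 𝓕) = h • D K₀ 𝓕 (jA : 𝓕)) :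
    s44e_g0 M p h * (algebraMap K₀ 𝓕 ((p : ℕ) : K₀) ^ 6)⁻¹ ∈ s34m_Vinf G (M * p) ∧
      (s44e_g0 M p h * (algebraMap K₀ 𝓕 ((p : ℕ) : K₀) ^ 6)⁻¹)⁻¹ ∈ s34m_Vinf G (M * p) := by
  obtain ⟨hu, hu'⟩ := s44e_h_unit G M p h hrel
  obtain ⟨hX, hX'⟩ := s44e_X_unit G M
  have hαX := s34m_alpha_mem_Vinf G M p hX
  have hαX' := s34m_alpha_mem_Vinf G M p hX'
  have hβX := s34m_beta_mem_Vinf G M p hX
  have hβX' := s34m_beta_mem_Vinf G M p hX'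
  rw [map_inv₀] at hαX' hβX'
  have e : s44e_g0 M p h * (algebraMap K₀ 𝓕 ((p : ℕ) : K₀) ^ 6)⁻¹ =
      (h * (algebraMap K₀ 𝓕 ((p : ℕ) : K₀))⁻¹) ^ 6 *
        (heckeAlphaBar K₀ M p (s44e_X K₀ M) * (heckeBetaBar K₀ M p (s44e_X K₀ M))⁻¹) := by
    rw [s44e_g0, mul_pow, inv_pow]; ring
  rw [e]
  refine ⟨mul_mem (pow_mem hu 6) (mul_mem hαX hβX'), ?_⟩
  rw [mul_inv, mul_inv, inv_inv, ← inv_pow]
  exact mul_mem (pow_mem hu' 6) (mul_mem hαX' hβX)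

include hp hpM in
/-- **`g₀ · p⁶` is a unit of `V_0`.** -/
theorem s44e_g0_Vzero (h : 𝓕) (hrel : D K₀ 𝓕 (jB : 𝓕) = h • D K₀ 𝓕 (jA : 𝓕)) :
    s44e_g0 M p h * algebraMap K₀ 𝓕 ((p : ℕ) : K₀) ^ 6 ∈ s34m_Vzero G φ M p hp hpM ∧
      (s44e_g0 M p h * algebraMap K₀ 𝓕 ((p : ℕ) : K₀) ^ 6)⁻¹ ∈
        s34m_Vzero G φ M p hp hpM := by
  obtain ⟨h1, h2⟩ := s44e_g0_Vinf G φ M p hp hpM h hrel
  have hwh := s44e_al_h φ M p hp hpM h hrel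
  have hh := s44e_h_ne_zero φ M p hp hpM h hrel
  have hwh' : s34m_al φ M p hp hpM h = h⁻¹ := eq_inv_of_mul_eq_one_left hwh
  have hX := s44e_X_ne_zero (K₀ := K₀) M
  have hαX : heckeAlphaBar K₀ M p (s44e_X K₀ M) ≠ 0 := (map_ne_zero _).mpr hX
  have hβX : heckeBetaBar K₀ M p (s44e_X K₀ M) ≠ 0 := (map_ne_zero _).mpr hX
  have hP : algebraMap K₀ 𝓕 ((p : ℕ) : K₀) ≠ 0 :=
    (map_ne_zero _).mpr (by exact_mod_cast NeZero.ne p)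
  -- `w (g₀ p⁶) = (g₀ / p⁶)⁻¹`
  have key : s34m_al φ M p hp hpM (s44e_g0 M p h * algebraMap K₀ 𝓕 ((p : ℕ) : K₀) ^ 6) =
      (s44e_g0 M p h * (algebraMap K₀ 𝓕 ((p : ℕ) : K₀) ^ 6)⁻¹)⁻¹ := by
    rw [s44e_g0, map_mul, map_mul, map_pow, map_pow, map_mul, map_inv₀, s34m_al_alpha,
      s34m_al_beta, hwh', AlgEquiv.commutes]
    field_simp
  refine ⟨?_, ?_⟩
  · rw [s34m_mem_Vzero, key]; exact h2
  · rw [s34m_mem_Vzero, map_inv₀, key, inv_inv]; exact h1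

include hp hpM in
/-- **THE MODULAR UNIT, packaged.**  `(p) = ε ϖ^e`.  There is `g₀ ∈ 𝓕ˣ` with neither zero nor
pole at the places at which `j` is regular, `g₀ = ϖ^(6e) · (unit of V_∞) = ϖ^(-6e) · (unit of V_0)`. -/
theorem s44e_exists_unit (hp5 : 5 ≤ p) (e : ℕ) (ε : K₀) (hε : ε ∈ G.A) (hεinv : ε⁻¹ ∈ G.A)
    (hpe : ((p : ℕ) : K₀) = ε * ((G.ϖ : G.A) : K₀) ^ e) :
    ∃ g₀ : 𝓕, g₀ ≠ 0 ∧
      (∀ Q : Place K₀ 𝓕, 0 ≤ Q.ord (s18g_jF (K := K₀) (M * p)) → Q.ord g₀ = 0) ∧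
      (g₀ * (s34m_unif G (M * p) ^ (6 * e))⁻¹ ∈ s34m_Vinf G (M * p) ∧
        (g₀ * (s34m_unif G (M * p) ^ (6 * e))⁻¹)⁻¹ ∈ s34m_Vinf G (M * p)) ∧
      (g₀ * s34m_unif G (M * p) ^ (6 * e) ∈ s34m_Vzero G φ M p hp hpM ∧
        (g₀ * s34m_unif G (M * p) ^ (6 * e))⁻¹ ∈ s34m_Vzero G φ M p hp hpM) := by
  haveI : FFGen K₀ (s18g_jF (K := K₀) (M * p)) :=
    s18b_ffGen_jF (M * p) (fun n b hb hn => s18g_exists_relation (M * p) φ hn b hb)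
  obtain ⟨h, hrel⟩ := s36r_exists_D_eq (laurentBaseChange K₀ (modularFunctionFieldFull (M * p)))
    (s18g_jF (K := K₀) (M * p)) (jB : 𝓕) (jA : 𝓕) (s44e_theta_jA_ne_zero M p)
  refine ⟨s44e_g0 M p h, s44e_g0_ne_zero φ M p hp hpM h hrel,
    fun Q hQ => s44e_g0_ord φ M p hp hpM hp5 h hrel Q hQ, ?_, ?_⟩
  · obtain ⟨h1, h2⟩ := s44e_g0_Vinf G φ M p hp hpM h hrel
    have hεV : algebraMap K₀ 𝓕 ε ∈ s34m_Vinf G (M * p) :=
      s34c_const_mem_VV G φ M p hp hpM true ⟨ε, hε⟩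
    have hεV' : algebraMap K₀ 𝓕 ε⁻¹ ∈ s34m_Vinf G (M * p) :=
      s34c_const_mem_VV G φ M p hp hpM true ⟨ε⁻¹, hεinv⟩
    have hP : algebraMap K₀ 𝓕 ((p : ℕ) : K₀) =
        algebraMap K₀ 𝓕 ε * s34m_unif G (M * p) ^ e := by
      rw [hpe, map_mul, map_pow]; rfl
    have hε0 : algebraMap K₀ 𝓕 ε ≠ 0 := by
      intro h0
      have hp0 : algebraMap K₀ 𝓕 ((p : ℕ) : K₀) ≠ 0 :=
        (map_ne_zero _).mpr (by exact_mod_cast NeZero.ne p)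
      rw [hP, h0, zero_mul] at hp0
      exact hp0 rfl
    have hϖ0 := s34m_unif_ne_zero G (M * p)
    rw [s44e_field_aux1 (s44e_g0 M p h) _ _ _ e hP hε0 hϖ0]
    refine ⟨mul_mem h1 (pow_mem hεV 6), ?_⟩
    rw [s44e_field_aux3, ← map_inv₀]
    exact mul_mem h2 (pow_mem hεV' 6)
  · obtain ⟨h1, h2⟩ := s44e_g0_Vzero G φ M p hp hpM h hrel
    have hεV : algebraMap K₀ 𝓕 ε ∈ s34m_Vzero G φ M p hp hpM :=
      s34c_const_mem_VV G φ M p hp hpM false ⟨ε, hε⟩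
    have hεV' : algebraMap K₀ 𝓕 ε⁻¹ ∈ s34m_Vzero G φ M p hp hpM :=
      s34c_const_mem_VV G φ M p hp hpM false ⟨ε⁻¹, hεinv⟩
    have hP : algebraMap K₀ 𝓕 ((p : ℕ) : K₀) =
        algebraMap K₀ 𝓕 ε * s34m_unif G (M * p) ^ e := by
      rw [hpe, map_mul, map_pow]; rfl
    have hε0 : algebraMap K₀ 𝓕 ε ≠ 0 := by
      intro h0
      have hp0 : algebraMap K₀ 𝓕 ((p : ℕ) : K₀) ≠ 0 :=
        (map_ne_zero _).mpr (by exact_mod_cast NeZero.ne p)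
      rw [hP, h0, zero_mul] at hp0
      exact hp0 rfl
    have hϖ0 := s34m_unif_ne_zero G (M * p)
    rw [s44e_field_aux2 (s44e_g0 M p h) _ _ _ e hP hε0 hϖ0]
    rw [map_inv₀] at hεV'
    refine ⟨mul_mem h1 (pow_mem hεV' 6), ?_⟩
    rw [s44e_field_aux4]
    exact mul_mem h2 (pow_mem hεV 6)

end Level

end Fermat.Agent.Lib.S44
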