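/-
S44 programme M-AT-P, wall W3 = (★)-core, family K (helper7): THE `J`-LEVEL INPUT OF `s44k_root` / `s44k_slope`.

`x ∈ J_0(M p)(ℚ̄)` with a Kummer generator `ι f`, `f ∈ 𝓕_{L₀}(M p)` (`L₀` ANY intermediate field `∋ ζ_p`, e.g. helper9's
inertia field `Z`).  Then `ν_α f` (resp. `ν_β f`) is a Kummer generator over `L₀` of `α_* x` (resp. `β_* x`)
(`s33t_isKumGen_nuAlpha`), hence

  `α_* x = 0 ⇒ ν_α f ∈ 𝒢⁰ = L₀ˣ · (𝓕_{L₀}(M)ˣ) ^ p`   (`s44k_isKum0_nuAlpha`),   likewise for `β` (`s44k_isKum0_nuBeta`)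

(the descent `c h ^ p` over `ℚ̄ ⇒` over `L₀` is `s33d_kum0_of_zero`, Hilbert 90).  These are the hypotheses `hα`, `hβ` of
`s44k_root` and `s44k_slope`.
-/
import Fermat.Agent.Lib.S33.TPDict
import Fermat.Agent.Lib.S33.DescDict
import Fermat.Agent.Lib.S33.FOInstD

set_option autoImplicit false
set_option linter.style.haveILetI false
set_option linter.unusedSectionVars false
set_option synthInstance.maxHeartbeats 400000

noncomputable section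

namespace Fermat.Agent.Lib.S44

open AlgebraicCurve ModularCurve HahnSeries Fermat.Agent.Lib.FF Fermat.Agent.Lib.S18
  Fermat.Agent.Lib.S33 Fermat.Agent.Lib.S34 Fermat.Agent.Lib.S35 Fermat.Agent.Lib.S37

local notation "Kb" => AlgebraicClosure ℚ

variable (M p : ℕ) [NeZero M] [hp : Fact p.Prime] (hpM : ¬ p ∣ M)
variable (L₀ : IntermediateField ℚ Kb) (ζ₀ : (↥L₀)ˣ) (hζ₀ : IsPrimitiveRoot (ζ₀ : ↥L₀) p)
variable {κ : Type} [Field κ] (G : s18g_GaussData ↥L₀ κ) [IsDiscreteValuationRing G.A]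
variable [CharP κ p]
variable (hT : s18g_HT κ M) (hdegM : s18g_HDeg ↥L₀ M) (hπ : Function.Surjective G.π)
variable (e : ℕ) (ε : ↥L₀) (he : 0 < e) (hε : ε ∈ G.A) (hεinv : ε⁻¹ ∈ G.A) (hε0 : ε ≠ 0)
variable (hpe : (p : ↥L₀) = ε * ((G.ϖ : G.A) : ↥L₀) ^ e) (hperf : ∀ c : κ, ∃ d : κ, d ^ p = c)

local notation "D'M" => s33i_datum G M hT hdegM hπ p e ε hp.out he hε hεinv hε0 hpe hperf

/-- **`α_* x = 0 ⇒ ν_α f ∈ 𝒢⁰` over `L₀`.** -/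
theorem s44k_isKum0_nuAlpha (x : JZero (M * p)) (f : s34m_F ↥L₀ (M * p))
    (hgen : s33d_IsKumGen p x (s18q_incl (M * p) L₀ f))
    (hα : s35c_alphaPush M p hp.out hpM x = 0) :
    s33f_IsKum0 D'M (s33t_nuAlpha (algebraMap ↥L₀ Kb) M p hpM ζ₀ hζ₀ f) := by
  have hgen' : s33t_IsKumGen (M * p) p x (s18q_incl (M * p) L₀ f) :=
    (s33t_isKumGen_iff_desc (M * p) p x _).mpr hgen
  have hgα : s33d_IsKumGen p (s35c_alphaPush M p hp.out hpM x)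
      (s18q_incl M L₀ (s33t_nuAlpha (algebraMap ↥L₀ Kb) M p hpM ζ₀ hζ₀ f)) :=
    (s33t_isKumGen_iff_desc M p _ _).mp
      (s33t_isKumGen_nuAlpha M p hpM (algebraMap ↥L₀ Kb) ζ₀ hζ₀ x f hgen')
  rw [hα] at hgα
  obtain ⟨c₀, h₀, hc₀, hh₀, e'⟩ := s33d_kum0_of_zero M p L₀ hgα
  exact ⟨c₀, h₀, hc₀, hh₀, e'⟩

/-- **`β_* x = 0 ⇒ ν_β f ∈ 𝒢⁰` over `L₀`.** -/
theorem s44k_isKum0_nuBeta (x : JZero (M * p)) (f : s34m_F ↥L₀ (M * p))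
    (hgen : s33d_IsKumGen p x (s18q_incl (M * p) L₀ f))
    (hβ : s35c_betaPush M p hp.out hpM x = 0) :
    s33f_IsKum0 D'M (s33t_nuBeta (algebraMap ↥L₀ Kb) M p hpM ζ₀ hζ₀ f) := by
  have hgen' : s33t_IsKumGen (M * p) p x (s18q_incl (M * p) L₀ f) :=
    (s33t_isKumGen_iff_desc (M * p) p x _).mpr hgen
  have hgβ : s33d_IsKumGen p (s35c_betaPush M p hp.out hpM x)
      (s18q_incl M L₀ (s33t_nuBeta (algebraMap ↥L₀ Kb) M p hpM ζ₀ hζ₀ f)) :=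
    (s33t_isKumGen_iff_desc M p _ _).mp
      (s33t_isKumGen_nuBeta M p hpM (algebraMap ↥L₀ Kb) ζ₀ hζ₀ x f hgen')
  rw [hβ] at hgβ
  obtain ⟨c₀, h₀, hc₀, hh₀, e'⟩ := s33d_kum0_of_zero M p L₀ hgβ
  exact ⟨c₀, h₀, hc₀, hh₀, e'⟩

end Fermat.Agent.Lib.S44
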