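/-
S44 programme M-AT-P, wall W3 = (★)-core, family K (helper7), item (H7-b): THE LOCAL FACTORISATIONS
`s44c_NodeFact`, `s44c_SmoothFact` (helper4, CoreDec) FROM helper9's (Q4).

(Q4) at a set `T` of places (the places of a chart through a closed point of the special fibre):
`∃ Φ ≠ 0, ∀ Q ∈ T, ord_Q f = p · ord_Q Φ`.  If the semilinear automorphism `g` permutes `T`
(`∀ Q ∈ T, g⁻¹ • Q ∈ T`), then `E := f / Φ ^ p` and `g • E / E` are units at `T`.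

* `s44k_unit_fd_of_Phi`   : the abstract statement;
* `s44k_nodeFact_of_Phi`  : (Q4) at every node `⇒ ∃ ni nz, s44c_NodeFact Z Ns σ f ni nz` (`ni s`, `nz s` the Gauss
  valuations of `Φ_s` in the two components);
* `s44k_smoothFact_of_Phi`: (Q4) at the other closed points of a component `⇒ s44c_SmoothFact C X σ f`
  (`Φ_z` is normalised by a power of `ϖ` to Gauss valuation `0`);
* `s44k_through_inv_stable` : in a chart `S` stable under `g`, the places through a prime `𝔫 ∋ ϖ` of the chart ring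
  are permuted by `g⁻¹` (from `s34f_stable_of`), for `g` preserving the `O i` and trivial modulo `π`.
-/
import Fermat.Agent.Lib.S44.CoreDec
import Fermat.Agent.Lib.S34.FAssembly

set_option autoImplicit false
set_option linter.style.haveILetI false

noncomputable section

namespace Fermat.Agent.Lib.S44

open AlgebraicCurve Fermat.Agent.Lib.FF Fermat.Agent.Lib.S33 Fermat.Agent.Lib.S34

section Abstract

variable {L₀ 𝓕 : Type*} [Field L₀] [Field 𝓕] [Algebra L₀ 𝓕]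

/-- **(Q4) ⇒ the cofactor and its first difference are units at `T`.** -/
theorem s44k_unit_fd_of_Phi (T : Set (Place L₀ 𝓕)) (g : SemilinearAut L₀ 𝓕)
    (hT : ∀ Q ∈ T, g⁻¹ • Q ∈ T) (p : ℕ) {f Φ : 𝓕} (hf : f ≠ 0) (hΦ0 : Φ ≠ 0)
    (hΦ : ∀ Q ∈ T, Q.ord f = (p : ℤ) * Q.ord Φ) :
    s44c_Unit T (f / Φ ^ p) ∧ s44c_Unit T (g • (f / Φ ^ p) / (f / Φ ^ p)) := by
  have hE0 : f / Φ ^ p ≠ 0 := div_ne_zero hf (pow_ne_zero p hΦ0)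
  have hE : ∀ Q ∈ T, Q.ord (f / Φ ^ p) = 0 := by
    intro Q hQ
    rw [div_eq_mul_inv, Q.ord_mul hf (inv_ne_zero (pow_ne_zero p hΦ0)), Q.ord_inv,
      ← zpow_natCast, Q.ord_zpow, hΦ Q hQ]
    ring
  have hgE0 : g • (f / Φ ^ p) ≠ 0 := s34r_smul_ne_zero g hE0
  refine ⟨⟨hE0, hE⟩, div_ne_zero hgE0 hE0, fun Q hQ => ?_⟩
  rw [div_eq_mul_inv, Q.ord_mul hgE0 (inv_ne_zero hE0), Q.ord_inv, hE Q hQ, s34r_ord_smul,
    hE _ (hT Q hQ)]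
  ring

end Abstract

section Sigma

variable {L₀ 𝓕' κ Fb : Type*} [Field L₀] [Field 𝓕'] [Algebra L₀ 𝓕'] [Field κ] [Field Fb] [Algebra κ Fb]
variable {D' : s33f_Datum L₀ 𝓕' κ Fb} {𝓕 : Type*} [Field 𝓕] [Algebra L₀ 𝓕]

/-- **`s44c_SmoothFact` from (Q4)** at the closed points of a component outside the nodes. -/
theorem s44k_smoothFact_of_Phi (C : s33z_Comp D' 𝓕) {P : Type*} (X : s44c_Pts C P)
    (g : SemilinearAut L₀ 𝓕) (σ : 𝓕 ≃+* 𝓕) (hσ : ∀ x : 𝓕, σ x = g • x)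
    (hT : ∀ z : P, ∀ Q ∈ X.N z, g⁻¹ • Q ∈ X.N z) {f : 𝓕} (hf : f ≠ 0)
    (hΦ : ∀ z : P, ∃ Φ : 𝓕, Φ ≠ 0 ∧ ∀ Q ∈ X.N z, Q.ord f = (D'.p : ℤ) * Q.ord Φ) :
    s44c_SmoothFact C X σ f := by
  intro z
  obtain ⟨Φ, hΦ0, hΦz⟩ := hΦ z
  obtain ⟨n, hn⟩ := s44c_exists_val (D := C.datum) hΦ0
  -- normalise `Φ` by `ϖ ^ n`
  have hπ0 : s33f_pi C.datum ≠ 0 := s33f_pi_ne_zero C.datum
  set φ : 𝓕 := Φ * (s33f_pi C.datum ^ n)⁻¹ with hφ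
  have hφ0 : φ ≠ 0 := mul_ne_zero hΦ0 (inv_ne_zero (zpow_ne_zero _ hπ0))
  have hφv : s44c_Val C.datum 0 φ := by
    obtain ⟨u, hu0, hu, hu', e⟩ := hn
    refine ⟨u, hu0, hu, hu', ?_⟩
    rw [hφ, e, zpow_zero, one_mul, mul_comm, ← mul_assoc, inv_mul_cancel₀ (zpow_ne_zero _ hπ0),
      one_mul]
  have hord : ∀ Q : Place L₀ 𝓕, Q.ord φ = Q.ord Φ := by
    intro Q
    have hc : Q.ord (s33f_pi C.datum ^ n)⁻¹ = 0 := by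
      rw [Q.ord_inv, Q.ord_zpow]
      have : Q.ord (s33f_pi C.datum) = 0 := ff_ord_algebraMap Q _
      rw [this, mul_zero, neg_zero]
    rw [hφ, Q.ord_mul hΦ0 (inv_ne_zero (zpow_ne_zero _ hπ0)), hc, add_zero]
  obtain ⟨-, hU⟩ := s44k_unit_fd_of_Phi (X.N z) g (hT z) D'.p hf hφ0
    (fun Q hQ => by rw [hord]; exact hΦz Q hQ)
  refine ⟨φ, f / φ ^ D'.p, ?_, hφv, ?_⟩
  · rw [mul_div_cancel₀ _ (pow_ne_zero _ hφ0)]
  · rw [hσ]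
    exact hU

variable {ι : Type*} {k : ι → Type*} [∀ s, Field (k s)] [∀ s, Algebra κ (k s)]
variable (Z : s33z_Datum D' 𝓕 ι k)

/-- **`s44c_NodeFact` from (Q4)** at the nodes, for a GIVEN family `Φ s` with Gauss valuations
`ni s`, `nz s` in the two components. -/
theorem s44k_nodeFact_of_family (Ns : ι → Set (Place L₀ 𝓕))
    (g : SemilinearAut L₀ 𝓕) (σ : 𝓕 ≃+* 𝓕) (hσ : ∀ x : 𝓕, σ x = g • x)
    (hT : ∀ s : ι, ∀ Q ∈ Ns s, g⁻¹ • Q ∈ Ns s) {f : 𝓕} (hf : f ≠ 0)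
    (Φ : ι → 𝓕) (hΦs : ∀ s : ι, ∀ Q ∈ Ns s, Q.ord f = (D'.p : ℤ) * Q.ord (Φ s))
    (ni nz : ι → ℤ) (hni : ∀ s, s44c_Val Z.Di (ni s) (Φ s))
    (hnz : ∀ s, s44c_Val Z.Dz (nz s) (Φ s)) :
    s44c_NodeFact Z Ns σ f ni nz := by
  intro s
  have hΦ0 : Φ s ≠ 0 := (hni s).ne_zero
  obtain ⟨-, hU⟩ := s44k_unit_fd_of_Phi (Ns s) g (hT s) D'.p hf hΦ0 (hΦs s)
  refine ⟨Φ s, f / Φ s ^ D'.p, ?_, hni s, hnz s, ?_⟩
  · rw [mul_div_cancel₀ _ (pow_ne_zero _ hΦ0)]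
  · rw [hσ]
    exact hU

/-- **`s44c_NodeFact` from (Q4)** at the nodes; `ni s`, `nz s` are the Gauss valuations of `Φ_s`. -/
theorem s44k_nodeFact_of_Phi (Ns : ι → Set (Place L₀ 𝓕))
    (g : SemilinearAut L₀ 𝓕) (σ : 𝓕 ≃+* 𝓕) (hσ : ∀ x : 𝓕, σ x = g • x)
    (hT : ∀ s : ι, ∀ Q ∈ Ns s, g⁻¹ • Q ∈ Ns s) {f : 𝓕} (hf : f ≠ 0)
    (hΦ : ∀ s : ι, ∃ Φ : 𝓕, Φ ≠ 0 ∧ ∀ Q ∈ Ns s, Q.ord f = (D'.p : ℤ) * Q.ord Φ) :
    ∃ ni nz : ι → ℤ, s44c_NodeFact Z Ns σ f ni nz := by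
  classical
  choose Φ hΦ0 hΦs using hΦ
  have hvi : ∀ s, ∃ n : ℤ, s44c_Val Z.Di n (Φ s) := fun s => s44c_exists_val (D := Z.Di) (hΦ0 s)
  have hvz : ∀ s, ∃ n : ℤ, s44c_Val Z.Dz n (Φ s) := fun s => s44c_exists_val (D := Z.Dz) (hΦ0 s)
  choose ni hni using hvi
  choose nz hnz using hvz
  exact ⟨ni, nz, s44k_nodeFact_of_family Z Ns g σ hσ hT hf Φ hΦs ni nz hni hnz⟩

end Sigma

/-! ### Stability of "through `𝔫`" under `g⁻¹` -/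

section Through

variable {L₀ 𝓕 : Type*} [Field L₀] [Field 𝓕] [Algebra L₀ 𝓕]

/-- In a `g`-stable chart the places through a prime `𝔫 ∋ π` of the chart ring are permuted by `g⁻¹`. -/
theorem s44k_through_inv_stable {ι : Type*} (O : ι → ValuationSubring 𝓕) (S : Set (Place L₀ 𝓕))
    (π : 𝓕) (hπ0 : π ≠ 0) (hπL : ∀ Q : Place L₀ 𝓕, Q.ord π = 0)
    (g : SemilinearAut L₀ 𝓕)
    (hgO : ∀ i, ∀ y : 𝓕, y ∈ O i ↔ g • y ∈ O i)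
    (hgπ : ∀ i, ∀ y ∈ O i, ∃ z ∈ O i, g • y - y = π * z)
    (hgS : ∀ Q : Place L₀ 𝓕, Q ∈ S ↔ g • Q ∈ S)
    (𝔫 : Ideal (s34x_ring (s34x_infRing O) S)) (πB : s34x_ring (s34x_infRing O) S)
    (hπB : (πB : 𝓕) = π) (hπ𝔫 : πB ∈ 𝔫) :
    ∀ Q ∈ {Q : Place L₀ 𝓕 | Q ∈ S ∧ s34f_through (s34x_infRing O) S 𝔫 Q},
      g⁻¹ • Q ∈ {Q : Place L₀ 𝓕 | Q ∈ S ∧ s34f_through (s34x_infRing O) S 𝔫 Q} := by
  have hst := s34f_stable_of O S π hπ0 hπL g hgO hgπ hgS 𝔫 πB hπB hπ𝔫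
  rintro Q ⟨hQS, hth⟩
  exact ⟨(hst.inv.chart Q).mp hQS, hst.inv.through_smul hth⟩

end Through

end Fermat.Agent.Lib.S44
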