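/-
S44 programme M-AT-P, wall W3 = (★)-core, family K (helper7), item (H7-c), part 1: [UNIP-K] ON ONE CHART
WITH THE `Φ`-HYPOTHESIS RESTRICTED TO CLOSED POINTS.

Verbatim re-run of `s33u_unip_chart_of_Phi` / `s33u_unip_chart_F_of_Phi` (Lib/S33/UnipGen.lean) in which the
hypothesis `hΦ` is only asked at MAXIMAL ideals `𝔫 ∋ ϖ` of the chart ring — the shape of helper9's (Q4)
([RAT]): `∀ 𝔫 maximal, ϖ ∈ 𝔫 → ∃ Φ ≠ 0, ∀ Q ∈ S through 𝔫, ord_Q f = m · ord_Q Φ`.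

* `s44k_unip_chart_of_Phi`, `s44k_unip_chart_F_of_Phi`;
* `s44k_hPhi_of_Q4` : (Q4) ⇒ `hΦ`.
-/
import Fermat.Agent.Lib.S33.UnipGen

set_option autoImplicit false

noncomputable section

namespace Fermat.Agent.Lib.S44

open AlgebraicCurve Fermat.Agent.Lib.FF Fermat.Agent.Lib.S18 Fermat.Agent.Lib.S33
  Fermat.Agent.Lib.S34 IsLocalRing

variable {L₀ 𝓕 : Type*} [Field L₀] [Field 𝓕] [Algebra L₀ 𝓕]

/-- **[UNIP-K], generic form on one chart.**  Under the chart contract of S34 (`s34f_ChartContract`)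
for the chart `S`, the stability hypotheses on the semilinear automorphism `g` and the existence of
residue constants of first differences (`hfd`): for every `f ≠ 0` with `m ∣ div f`, rational support
on `S`, normalised so that `σf / f ≡ c₀ mod π (O i)` for all `i` with ONE unit constant `c₀`, there is
`a ≡ 1 mod π O` in the lattice of `E = div (σf/f) / m` on the chart `S` with `ord_Q a = E Q` at every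
place `Q ∈ S` through any closed point `𝔫 ∋ ϖ` of the chart: `(σf/f) / a ^ m` has neither zeros nor
poles through the closed points of the special fibre of the chart (nodes included). -/
theorem s44k_unip_chart_of_Phi {ι : Type*} [Fintype ι] [Nonempty ι] (A₀ : ValuationSubring L₀)
    [IsDiscreteValuationRing A₀]
    (O : ι → ValuationSubring 𝓕) (hAO : ∀ i, ∀ a : A₀, algebraMap L₀ 𝓕 (a : L₀) ∈ O i)
    (ϖ : A₀) (hϖ : Irreducible ϖ)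
    (hϖO : ∀ i, ¬ ∃ y ∈ O i, (1 : 𝓕) = algebraMap L₀ 𝓕 (ϖ : L₀) * y)
    (hU : ∀ i, ∀ y : 𝓕, ∃ k : ℕ, algebraMap L₀ 𝓕 (ϖ : L₀) ^ k * y ∈ O i)
    (g : SemilinearAut L₀ 𝓕)
    (hgO : ∀ i, ∀ y : 𝓕, y ∈ O i ↔ g • y ∈ O i)
    (hgπ : ∀ i, ∀ y ∈ O i, ∃ z ∈ O i, g • y - y = algebraMap L₀ 𝓕 (ϖ : L₀) * z)
    (hfd : ∀ i, ∀ U : 𝓕, U ≠ 0 → ∃ c : (↥A₀)ˣ, ∃ z ∈ O i,
      s33u_fd g U - s33u_cst A₀ (c : A₀) = algebraMap L₀ 𝓕 (ϖ : L₀) * z)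
    (S : Set (Place L₀ 𝓕)) (hC : s34f_ChartContract A₀ O hAO ϖ S g)
    (m : ℕ) (hm0 : m ≠ 0)
    (hroot : ∀ c c' : (↥A₀)ˣ, ¬ IsUnit ((c : A₀) ^ m - (c' : A₀) ^ m) →
      ¬ IsUnit ((c : A₀) - (c' : A₀)))
    (f : 𝓕) (hf0 : f ≠ 0) (hdiv : ∀ Q : Place L₀ 𝓕, (m : ℤ) ∣ Q.ord f)
    (hΦ : ∀ 𝔫 : Ideal (s34x_ring (s34x_infRing O) S), 𝔫.IsMaximal →
      s34x_const (s34x_infRing O) S (ϖ : L₀) (s34x_inf_const_mem O A₀ hAO ϖ) ∈ 𝔫 →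
      s34f_Stable (s34x_infRing O) S (algebraMap L₀ 𝓕 (ϖ : L₀)) 𝔫 g →
      s34f_AlmostAll (s34x_infRing O) S 𝔫 →
      ∃ Φ : 𝓕, Φ ≠ 0 ∧ ∀ Q ∈ S, s34f_through (s34x_infRing O) S 𝔫 Q →
        (g⁻¹ • Q).ord f / (m : ℤ) - (g⁻¹ • Q).ord Φ = Q.ord f / (m : ℤ) - Q.ord Φ)
    (c₀ : (↥A₀)ˣ)
    (hnorm : ∀ i, ∃ z ∈ O i,
      s33u_fd g f - s33u_cst A₀ (c₀ : A₀) = algebraMap L₀ 𝓕 (ϖ : L₀) * z) :
    ∃ a : 𝓕, a ≠ 0 ∧ (∃ y ∈ s34x_infRing O, a - 1 = algebraMap L₀ 𝓕 (ϖ : L₀) * y) ∧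
      a ∈ s34x_latSet (s34x_infRing O) S (s18_E (s33u_fd g f) m) ∧
      ∀ 𝔫 : Ideal (s34x_ring (s34x_infRing O) S), 𝔫.IsMaximal →
        s34x_const (s34x_infRing O) S (ϖ : L₀) (s34x_inf_const_mem O A₀ hAO ϖ) ∈ 𝔫 →
        ∀ Q ∈ S, s34f_through (s34x_infRing O) S 𝔫 Q →
          Q.ord a = s18_E (s33u_fd g f) m Q := by
  classical
  obtain ⟨hnoeth, F1, F2, F3, hgS, hstruct⟩ := hC
  have := hnoeth
  set π : 𝓕 := algebraMap L₀ 𝓕 (ϖ : L₀) with hπdef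
  have hπ0 : π ≠ 0 := s34f_unif_ne_zero (𝓕 := 𝓕) A₀ ϖ hϖ
  have hπO : ∀ i, π ∈ O i := fun i => hAO i ϖ
  have hπL : ∀ Q : Place L₀ 𝓕, Q.ord π = 0 := fun Q => ff_ord_algebraMap Q _
  have hf10 : s33u_fd g f ≠ 0 := s33u_fd_ne_zero g hf0
  set E := s18_E (L₀ := L₀) (s33u_fd g f) m with hE
  -- the local data at every closed point
  have key : ∀ 𝔫 : Ideal (s34x_ring (s34x_infRing O) S), 𝔫.IsMaximal →
      s34x_const (s34x_infRing O) S (ϖ : L₀) (s34x_inf_const_mem O A₀ hAO ϖ) ∈ 𝔫 →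
      s34f_Stable (s34x_infRing O) S π 𝔫 g ∧
      ∃ gx : 𝓕, gx ≠ 0 ∧
        (∀ Q ∈ S, s34f_through (s34x_infRing O) S 𝔫 Q → Q.ord gx = E Q) ∧
        (∀ i, (∀ b : s34x_ring (s34x_infRing O) S, (∃ y ∈ O i, (b : 𝓕) = π * y) → b ∈ 𝔫) →
          ∃ y ∈ O i, gx - 1 = π * y) := by
    intro 𝔫 h𝔫 hπ𝔫
    have := h𝔫
    have : 𝔫.IsPrime := h𝔫.isPrime
    have hπ𝔫' : s34f_constHom A₀ (s34x_infRing O) (s34x_inf_const_mem O A₀ hAO) S ϖ ∈ 𝔫 := hπ𝔫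
    have hst := s34f_stable_of O S π hπ0 hπL g hgO hgπ hgS 𝔫
      (s34f_constHom A₀ (s34x_infRing O) (s34x_inf_const_mem O A₀ hAO) S ϖ) rfl hπ𝔫'
    have hAA : s34f_AlmostAll (s34x_infRing O) S 𝔫 := by
      rcases hstruct 𝔫 hπ𝔫' with ⟨t, hm⟩ | ⟨u, w, h0, hm⟩
      · exact s34f_almostAll_of_smooth A₀ (s34x_infRing O) (s34x_inf_const_mem O A₀ hAO) S ϖ hϖ 𝔫
          hπ𝔫' F1 F2 t hm
      · exact s34f_almostAll_of_node A₀ (s34x_infRing O) (s34x_inf_const_mem O A₀ hAO) S ϖ hϖ 𝔫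
          hπ𝔫' F1 F2 u w hm h0
    exact ⟨hst, s33u_locgen_of_Phi A₀ O hAO ϖ hϖ hϖO S F3 𝔫 g hfd m hm0 hroot f hf0 hdiv
      (hΦ 𝔫 h𝔫 hπ𝔫 hst hAA) c₀ hnorm⟩
  -- (LOC) at every closed point, then local to global
  have hloc : ∀ 𝔫 : Ideal (s34x_ring (s34x_infRing O) S), 𝔫.IsMaximal →
      s34x_const (s34x_infRing O) S (ϖ : L₀) (s34x_inf_const_mem O A₀ hAO ϖ) ∈ 𝔫 →
      ∃ a ∈ s34x_latSet (s34x_infRing O) S E, ∃ s : s34x_ring (s34x_infRing O) S, s ∉ 𝔫 ∧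
        ∃ y ∈ s34x_infRing O, a - (s : 𝓕) = algebraMap L₀ 𝓕 (ϖ : L₀) * y := by
    intro 𝔫 h𝔫 hπ𝔫
    have : 𝔫.IsPrime := h𝔫.isPrime
    obtain ⟨-, gx, hgx0, hgxQ, hgxC⟩ := key 𝔫 h𝔫 hπ𝔫
    refine s34x_loc_of_gen O S E π hπ0 hπO hU 𝔫 gx hgx0
      (fun Q hQ hth => (hgxQ Q hQ hth).ge) hgxC ?_
    refine ((F3 gx hgx0).union (F3 _ hf10)).subset ?_
    rintro Q ⟨hQS, hlt⟩
    by_cases h0 : Q.ord (s33u_fd g f) = 0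
    · left
      refine ⟨hQS, fun h => ?_⟩
      rw [h, hE, s18_E, h0, Int.zero_ediv] at hlt
      exact lt_irrefl _ hlt
    · right
      exact ⟨hQS, h0⟩
  obtain ⟨a, halat, y, hy, e⟩ := s34x_one_of_local (s34x_infRing O) S E (ϖ : L₀)
    (s34x_inf_const_mem O A₀ hAO ϖ) hloc
  have ha0 : a ≠ 0 := by
    rintro rfl
    obtain ⟨i⟩ := ‹Nonempty ι›
    apply hϖO i
    refine ⟨-y, (O i).neg_mem _ ((s34x_mem_infRing O y).mp hy i), ?_⟩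
    rw [mul_neg, ← e]
    ring
  refine ⟨a, ha0, ⟨y, hy, e⟩, halat, ?_⟩
  intro 𝔫 h𝔫 hπ𝔫 Q hQS hth
  have : 𝔫.IsPrime := h𝔫.isPrime
  obtain ⟨hst, gx, hgx0, hgxQ, hgxC⟩ := key 𝔫 h𝔫 hπ𝔫
  have hx0 : a / gx ≠ 0 := div_ne_zero ha0 hgx0
  have hordx : ∀ Q' : Place L₀ 𝓕, Q'.ord (a / gx) = Q'.ord a - Q'.ord gx := by
    intro Q'
    rw [div_eq_mul_inv, Q'.ord_mul ha0 (inv_ne_zero hgx0), Q'.ord_inv]
    ring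
  have h0 := s33u_ord_eq_zero O S π hπ0 hπO hU hπL 𝔫 hst.pi_mul_mem (a / gx) hx0
    (fun Q' hQ' hth' => by
      rw [hordx, hgxQ Q' hQ' hth']
      have := (halat.2 Q' hQ').resolve_left ha0
      omega)
    (fun i hi => by
      have h1 : s33u_One (O i) π a := ⟨y, (s34x_mem_infRing O y).mp hy i, e⟩
      have h2 : s33u_One (O i) π gx := hgxC i hi
      exact h1.div (hπO i) (hϖO i) h2)
    ((F3 _ hx0).subset fun Q' hQ' => ⟨hQ'.1, fun h => by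
      have h1 : Q'.ord (a / gx) < 0 := hQ'.2
      rw [h] at h1
      exact lt_irrefl _ h1⟩)
    Q hQS hth
  rw [hordx, hgxQ Q hQS hth] at h0
  omega


/-- **[UNIP-K], generic form on one chart, in terms of `F = (σf/f) / (c₀ a ^ m)`**: `F ≡ 1 mod π O` and
`F` has neither zeros nor poles at the places of the chart through the closed points of its special
fibre. -/
theorem s44k_unip_chart_F_of_Phi {ι : Type*} [Fintype ι] [Nonempty ι] (A₀ : ValuationSubring L₀)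
    [IsDiscreteValuationRing A₀]
    (O : ι → ValuationSubring 𝓕) (hAO : ∀ i, ∀ a : A₀, algebraMap L₀ 𝓕 (a : L₀) ∈ O i)
    (ϖ : A₀) (hϖ : Irreducible ϖ)
    (hϖO : ∀ i, ¬ ∃ y ∈ O i, (1 : 𝓕) = algebraMap L₀ 𝓕 (ϖ : L₀) * y)
    (hU : ∀ i, ∀ y : 𝓕, ∃ k : ℕ, algebraMap L₀ 𝓕 (ϖ : L₀) ^ k * y ∈ O i)
    (g : SemilinearAut L₀ 𝓕)
    (hgO : ∀ i, ∀ y : 𝓕, y ∈ O i ↔ g • y ∈ O i)
    (hgπ : ∀ i, ∀ y ∈ O i, ∃ z ∈ O i, g • y - y = algebraMap L₀ 𝓕 (ϖ : L₀) * z)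
    (hfd : ∀ i, ∀ U : 𝓕, U ≠ 0 → ∃ c : (↥A₀)ˣ, ∃ z ∈ O i,
      s33u_fd g U - s33u_cst A₀ (c : A₀) = algebraMap L₀ 𝓕 (ϖ : L₀) * z)
    (S : Set (Place L₀ 𝓕)) (hC : s34f_ChartContract A₀ O hAO ϖ S g)
    (m : ℕ) (hm0 : m ≠ 0)
    (hroot : ∀ c c' : (↥A₀)ˣ, ¬ IsUnit ((c : A₀) ^ m - (c' : A₀) ^ m) →
      ¬ IsUnit ((c : A₀) - (c' : A₀)))
    (f : 𝓕) (hf0 : f ≠ 0) (hdiv : ∀ Q : Place L₀ 𝓕, (m : ℤ) ∣ Q.ord f)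
    (hΦ : ∀ 𝔫 : Ideal (s34x_ring (s34x_infRing O) S), 𝔫.IsMaximal →
      s34x_const (s34x_infRing O) S (ϖ : L₀) (s34x_inf_const_mem O A₀ hAO ϖ) ∈ 𝔫 →
      s34f_Stable (s34x_infRing O) S (algebraMap L₀ 𝓕 (ϖ : L₀)) 𝔫 g →
      s34f_AlmostAll (s34x_infRing O) S 𝔫 →
      ∃ Φ : 𝓕, Φ ≠ 0 ∧ ∀ Q ∈ S, s34f_through (s34x_infRing O) S 𝔫 Q →
        (g⁻¹ • Q).ord f / (m : ℤ) - (g⁻¹ • Q).ord Φ = Q.ord f / (m : ℤ) - Q.ord Φ)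
    (c₀ : (↥A₀)ˣ)
    (hnorm : ∀ i, ∃ z ∈ O i,
      s33u_fd g f - s33u_cst A₀ (c₀ : A₀) = algebraMap L₀ 𝓕 (ϖ : L₀) * z) :
    ∃ a : 𝓕, a ≠ 0 ∧ s33u_fd g f / (s33u_cst A₀ (c₀ : A₀) * a ^ m) ≠ 0 ∧
      (∃ y ∈ s34x_infRing O,
        s33u_fd g f / (s33u_cst A₀ (c₀ : A₀) * a ^ m) - 1 = algebraMap L₀ 𝓕 (ϖ : L₀) * y) ∧
      ∀ 𝔫 : Ideal (s34x_ring (s34x_infRing O) S), 𝔫.IsMaximal →
        s34x_const (s34x_infRing O) S (ϖ : L₀) (s34x_inf_const_mem O A₀ hAO ϖ) ∈ 𝔫 →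
        ∀ Q ∈ S, s34f_through (s34x_infRing O) S 𝔫 Q →
          Q.ord (s33u_fd g f / (s33u_cst A₀ (c₀ : A₀) * a ^ m)) = 0 := by
  obtain ⟨a, ha0, ⟨y, hy, e⟩, -, hord⟩ := s44k_unip_chart_of_Phi A₀ O hAO ϖ hϖ hϖO hU g hgO hgπ hfd
    S hC m hm0 hroot f hf0 hdiv hΦ c₀ hnorm
  have hπ0 : algebraMap L₀ 𝓕 (ϖ : L₀) ≠ 0 := s34f_unif_ne_zero (𝓕 := 𝓕) A₀ ϖ hϖ
  have hπO : ∀ i, algebraMap L₀ 𝓕 (ϖ : L₀) ∈ O i := fun i => hAO i ϖ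
  have hAV : ∀ i, ∀ a : A₀, (s33u_cst A₀ a : 𝓕) ∈ O i := fun i a => hAO i a
  have hf10 : s33u_fd g f ≠ 0 := s33u_fd_ne_zero g hf0
  have hc0 := s33u_cst_unit_ne_zero (𝓕 := 𝓕) A₀ c₀
  have hden : s33u_cst A₀ (c₀ : A₀) * a ^ m ≠ 0 := mul_ne_zero hc0 (pow_ne_zero m ha0)
  have hdiv1 : ∀ Q : Place L₀ 𝓕, (m : ℤ) ∣ Q.ord (s33u_fd g f) := by
    intro Q
    rw [s33u_ord_fd g Q hf0]
    exact dvd_sub (hdiv _) (hdiv _)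
  refine ⟨a, ha0, div_ne_zero hf10 hden, ?_, ?_⟩
  · refine (s34x_inf_cong O _ hπ0 _).mpr fun i => ?_
    have h1 : s33u_One (O i) (algebraMap L₀ 𝓕 (ϖ : L₀)) (s33u_fd g f / s33u_cst A₀ (c₀ : A₀)) :=
      s33u_one_of_sub (hAV i) c₀ (hnorm i)
    have h2 : s33u_One (O i) (algebraMap L₀ 𝓕 (ϖ : L₀)) a :=
      ⟨y, (s34x_mem_infRing O y).mp hy i, e⟩
    have h3 := h1.div (hπO i) (hϖO i) (h2.pow (hπO i) m)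
    rw [div_div] at h3
    exact h3
  · intro 𝔫 h𝔫 hπ𝔫 Q hQS hth
    rw [div_eq_mul_inv, Q.ord_mul hf10 (inv_ne_zero hden), Q.ord_inv,
      Q.ord_mul hc0 (pow_ne_zero m ha0), s33u_ord_cst_unit, ← zpow_natCast, Q.ord_zpow,
      hord 𝔫 h𝔫 hπ𝔫 Q hQS hth, s18_E_mul _ m hdiv1 Q]
    ring


/-- **(Q4) ⇒ `hΦ`.**  If `ord_Q f = m · ord_Q Φ` at every place of the chart through `𝔫` and `𝔫` is
`g`-stable, then `Φ` satisfies the `hΦ`-clause of [UNIP-K] at `𝔫` (both sides vanish). -/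
theorem s44k_hPhi_of_Q4 (O : Subring 𝓕) (S : Set (Place L₀ 𝓕)) (π : 𝓕)
    (𝔫 : Ideal (s34x_ring O S)) (g : SemilinearAut L₀ 𝓕) (hst : s34f_Stable O S π 𝔫 g)
    (m : ℕ) (hm0 : m ≠ 0) (f Φ : 𝓕)
    (h : ∀ Q ∈ S, s34f_through O S 𝔫 Q → Q.ord f = (m : ℤ) * Q.ord Φ) :
    ∀ Q ∈ S, s34f_through O S 𝔫 Q →
      (g⁻¹ • Q).ord f / (m : ℤ) - (g⁻¹ • Q).ord Φ = Q.ord f / (m : ℤ) - Q.ord Φ := by
  intro Q hQS hth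
  have hm : (m : ℤ) ≠ 0 := by exact_mod_cast hm0
  have h1 := h Q hQS hth
  have h2 := h (g⁻¹ • Q) ((hst.inv.chart Q).mp hQS) (hst.inv.through_smul hth)
  rw [h1, h2, Int.mul_ediv_cancel_left _ hm, Int.mul_ediv_cancel_left _ hm, sub_self, sub_self]

end Fermat.Agent.Lib.S44
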