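/-
S44 programme M-AT-P, wall W3 = (★)-core, family K (helper7), item (H7-c), part 2: [UNIP-K] FOR A WILD
AUTOMORPHISM, FROM (Q4), ON THE CHART `j ≠ ∞`.

`K₀` a number field with Gauss datum `G` (residue characteristic `q ≥ 5`, `q ∤ M`), `σ₀` wild of lower break
`≥ B ≥ 1` (`σ₀ a ≡ a mod ϖ ^ (B+1)` on `A`), `f ≠ 0` in `𝓕_{K₀}(M q)` with `q ∣ div f`, and helper9's (Q4) on the
chart `S = {j ≠ ∞}`: for every closed point `𝔫 ∋ ϖ` of the chart ring there is `Φ ≠ 0` with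
`ord_Q f = q · ord_Q Φ` at every place `Q ∈ S` through `𝔫`.  NO rationality of the support of `f`.  Then

  `s44k_unip_wild` : `∃ a ≠ 0, s33u_Unip G φ M q hq hqM ((τ f / f) / a ^ q)`,

i.e. `F = (τf/f)/a^q ≡ 1 mod ϖ (V_∞ ⊓ V_0)` and `F` has neither zeros nor poles at the places of the chart
through the closed points of its special fibre (nodes included).  No normalisation is needed: for a wild
`σ₀` all residue constants `ζ ^ n` of first differences are `≡ 1`.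
-/
import Fermat.Agent.Lib.S44.KUnip
import Fermat.Agent.Lib.S44.KFirst
import Fermat.Agent.Lib.S33.UnipIface

set_option autoImplicit false
set_option linter.style.haveILetI false
set_option synthInstance.maxHeartbeats 400000

noncomputable section

namespace Fermat.Agent.Lib.S44

open AlgebraicCurve ModularCurve Polynomial Fermat.Agent.Lib.FF Fermat.Agent.Lib.S18
  Fermat.Agent.Lib.S33 Fermat.Agent.Lib.S34 Fermat.Agent.Lib.S35 IsLocalRing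

local notation "Qbar" => AlgebraicClosure ℚ

section Norm

variable {K₀ : Type*} [Field K₀] [Algebra ℚ K₀] {κ : Type*} [Field κ] (G : s18g_GaussData K₀ κ)
  (φ : K₀ →+* Qbar) (M q : ℕ) [NeZero M] [NeZero q] (hq : q.Prime) (hqM : ¬ q ∣ M)
variable (σ₀ : K₀ ≃ₐ[ℚ] K₀)
  (hσA : ∀ a : K₀, a ∈ G.A → (σ₀ : K₀ ≃+* K₀) a ∈ G.A)
  (hσA' : ∀ a : K₀, a ∈ G.A → (σ₀.symm : K₀ ≃+* K₀) a ∈ G.A)
  (B : ℕ) (hB : 1 ≤ B)
  (hσB : ∀ a : K₀, a ∈ G.A →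
    ∃ z ∈ G.A, (σ₀ : K₀ ≃+* K₀) a - a = ((G.ϖ : G.A) : K₀) ^ (B + 1) * z)

include hσA hσA' hB hσB in
/-- **For a wild `σ₀` every first difference is `≡ 1 mod ϖ V_i`.** -/
theorem s44k_fd_one (i : Bool) (U : s34m_F K₀ (M * q)) (hU : U ≠ 0) :
    ∃ z ∈ s34m_VV G φ M q hq hqM i,
      s33u_fd (arithmeticGalois (modularFunctionFieldFull (M * q)) σ₀) U - 1 =
        algebraMap K₀ (s34m_F K₀ (M * q)) ((G.ϖ : G.A) : K₀) * z := by
  obtain ⟨b, rfl⟩ : ∃ b, B = b + 1 := ⟨B - 1, by omega⟩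
  have hσπ := s44k_res_of_depth G (σ₀ : K₀ ≃+* K₀) hσA (b + 1 + 1) hσB (by omega)
  obtain ⟨ζ, hζ⟩ := s33u_exists_zeta G σ₀ hσA hσA' hσπ
  -- `ζ - 1 = ϖ ^ (b+1) c`
  obtain ⟨c, hc, ec⟩ := hσB _ (G.ϖ : G.A).2
  have hϖ0 : ((G.ϖ : G.A) : K₀) ≠ 0 := s18g_unifK_ne_zero G
  have hζc : (ζ : G.A) - 1 = G.ϖ ^ (b + 1) * ⟨c, hc⟩ := by
    apply Subtype.ext
    show ((ζ : G.A) : K₀) - 1 = ((G.ϖ : G.A) : K₀) ^ (b + 1) * c
    rw [hζ]
    have ec' : σ₀ ((G.ϖ : G.A) : K₀) - ((G.ϖ : G.A) : K₀) =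
        ((G.ϖ : G.A) : K₀) ^ (b + 1 + 1) * c := ec
    field_simp
    linear_combination ec'
  obtain ⟨n, u, hu, hu', rfl⟩ := s34m_exists_zpow_VV G φ M q hq hqM i U hU
  have hu0 : u ≠ 0 := by
    rintro rfl
    exact hU (mul_zero _)
  obtain ⟨z, hz, ez⟩ := s44k_fd_VV_first G φ M q hq hqM σ₀ hσA hσA' b hσB i ζ hζ ⟨c, hc⟩ hζc n u hu
    hu' hu0
  set ϖF := s34m_unif G (M * q) with hϖF
  have hϖV : ϖF ∈ s34m_VV G φ M q hq hqM i := s34m_unif_mem_VV G φ M q hq hqM i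
  have hcV : (s33u_cst G.A ⟨c, hc⟩ : s34m_F K₀ (M * q)) ∈ s34m_VV G φ M q hq hqM i :=
    s34c_const_mem_VV G φ M q hq hqM i ⟨c, hc⟩
  refine ⟨(n : s34m_F K₀ (M * q)) * (s33u_cst G.A ⟨c, hc⟩ * ϖF ^ b) + ϖF ^ (b + 1) * z, ?_, ?_⟩
  · exact (s34m_VV G φ M q hq hqM i).add_mem _ _
      ((s34m_VV G φ M q hq hqM i).mul_mem _ _ (intCast_mem _ n)
        ((s34m_VV G φ M q hq hqM i).mul_mem _ _ hcV ((s34m_VV G φ M q hq hqM i).pow_mem hϖV b)))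
      ((s34m_VV G φ M q hq hqM i).mul_mem _ _ ((s34m_VV G φ M q hq hqM i).pow_mem hϖV _) hz)
  · show _ = ϖF * _
    linear_combination ez

end Norm

set_option maxHeartbeats 1000000 in
/-- **[UNIP-K] for a wild automorphism, from (Q4), on the chart `j ≠ ∞`.** -/
theorem s44k_unip_wild (M q : ℕ) [NeZero M] [NeZero q] (hq : q.Prime) (hqM : ¬ q ∣ M) (h5 : 5 ≤ q)
    (K₀ : Type) [Field K₀] [NumberField K₀] (φ : K₀ →+* Qbar)
    (κ : Type) [Field κ] [CharP κ q] [PerfectField κ]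
    (G : s18g_GaussData K₀ κ) [IsDiscreteValuationRing G.A] (hπ : Function.Surjective G.π)
    (σ₀ : K₀ ≃ₐ[ℚ] K₀)
    (hσA : ∀ a : K₀, a ∈ G.A → (σ₀ : K₀ ≃+* K₀) a ∈ G.A)
    (hσA' : ∀ a : K₀, a ∈ G.A → (σ₀.symm : K₀ ≃+* K₀) a ∈ G.A)
    (B : ℕ) (hB : 1 ≤ B)
    (hσB : ∀ a : K₀, a ∈ G.A →
      ∃ z ∈ G.A, (σ₀ : K₀ ≃+* K₀) a - a = ((G.ϖ : G.A) : K₀) ^ (B + 1) * z)
    (f : s34m_F K₀ (M * q)) (hf : f ≠ 0)
    (hdiv : ∀ Q : Place K₀ (s34m_F K₀ (M * q)), ((q : ℕ) : ℤ) ∣ Q.ord f)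
    (hQ4 : ∀ 𝔫 : Ideal (s34x_ring (s34x_infRing (s34m_VV G φ M q hq hqM))
        (s18_chart1 (L₀ := K₀) (s18g_jF (K := K₀) (M * q)))), 𝔫.IsMaximal →
      s34x_const (s34x_infRing (s34m_VV G φ M q hq hqM))
        (s18_chart1 (L₀ := K₀) (s18g_jF (K := K₀) (M * q))) ((G.ϖ : G.A) : K₀)
        (s34x_inf_const_mem (s34m_VV G φ M q hq hqM) G.A (s34c_const_mem_VV G φ M q hq hqM)
          G.ϖ) ∈ 𝔫 →
      ∃ Φ : s34m_F K₀ (M * q), Φ ≠ 0 ∧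
        ∀ Q ∈ s18_chart1 (L₀ := K₀) (s18g_jF (K := K₀) (M * q)),
          s34f_through (s34x_infRing (s34m_VV G φ M q hq hqM))
            (s18_chart1 (L₀ := K₀) (s18g_jF (K := K₀) (M * q))) 𝔫 Q →
          Q.ord f = ((q : ℕ) : ℤ) * Q.ord Φ) :
    ∃ a : s34m_F K₀ (M * q), a ≠ 0 ∧
      s33u_Unip G φ M q hq hqM
        (s33u_fd (arithmeticGalois (modularFunctionFieldFull (M * q)) σ₀) f / a ^ q) := by
  classical
  haveI : Fact q.Prime := ⟨hq⟩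
  have hσπ := s44k_res_of_depth G (σ₀ : K₀ ≃+* K₀) hσA (B + 1) hσB (by omega)
  have hirr : Irreducible G.ϖ := by
    have hker : RingHom.ker G.π = Ideal.span {G.ϖ} := by
      ext x
      rw [RingHom.mem_ker, G.π_eq_zero_iff, Ideal.mem_span_singleton]
    have hprime : (Ideal.span {G.ϖ}).IsPrime := hker ▸ RingHom.ker_isPrime G.π
    exact ((Ideal.span_singleton_prime G.ϖ_ne_zero).mp hprime).irreducible
  set gσ : SemilinearAut K₀ (s34m_F K₀ (M * q)) :=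
    arithmeticGalois (modularFunctionFieldFull (M * q)) σ₀ with hgσ
  have hsymm : ∀ y : s34m_F K₀ (M * q),
      arithmeticRingAut (modularFunctionFieldFull (M * q)) σ₀.symm (gσ • y) = y := by
    intro y
    have h1 : arithmeticGalois (modularFunctionFieldFull (M * q)) σ₀.symm • (gσ • y) = y := by
      rw [hgσ, ← mul_smul, ← map_mul]
      have : σ₀.symm * σ₀ = 1 := by
        ext a
        exact σ₀.symm_apply_apply a
      rw [this, map_one, one_smul]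
    exact h1
  -- the chart contract
  have hdegN : s18g_HDeg K₀ (M * q) := fun n b hb hn => s18g_exists_relation (M * q) φ hn b hb
  haveI : FFGen K₀ (s18g_jF (K := K₀) (M * q)) := s18b_ffGen_jF (M * q) hdegN
  obtain ⟨h1, -⟩ := s34df_contract_five M q hq hqM h5 K₀ φ κ G hπ
  have hC := s34f_chartContract_j1 G φ M q hq hqM (s34f_alpha_j G φ M q hq hqM) σ₀ h1
  -- `hnorm` with `c₀ = 1`
  have hnorm : ∀ i, ∃ z ∈ s34m_VV G φ M q hq hqM i,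
      s33u_fd gσ f - s33u_cst G.A (((1 : (↥G.A)ˣ) : (↥G.A)ˣ) : G.A) =
        algebraMap K₀ (s34m_F K₀ (M * q)) ((G.ϖ : G.A) : K₀) * z := by
    intro i
    obtain ⟨z, hz, e⟩ := s44k_fd_one G φ M q hq hqM σ₀ hσA hσA' B hB hσB i f hf
    refine ⟨z, hz, ?_⟩
    rw [Units.val_one, s33u_cst_one]
    exact e
  obtain ⟨a, ha0, hF0, hF1, hFQ⟩ := s44k_unip_chart_F_of_Phi (ι := Bool) G.A
    (s34m_VV G φ M q hq hqM) (s34c_const_mem_VV G φ M q hq hqM) G.ϖ hirr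
    (fun i => s34f_unif_not_unit_VV G φ M q hq hqM i)
    (fun i y => s34c_hU_VV G φ M q hq hqM i y) gσ
    (fun i y => ⟨fun hy => s34m_galois_mem_VV G φ M q σ₀ hσA hσπ hq hqM i hy, fun hy => by
      have := s34m_galois_mem_VV G φ M q σ₀.symm hσA'
        (s34m_symm_res G σ₀ hσA hσA' hσπ) hq hqM i hy
      rw [hsymm] at this
      exact this⟩)
    (fun i y hy => s34m_galois_sub_mem_VV G φ M q σ₀ hσA hσπ hq hqM i hy)
    (fun i U hU => s33u_hfd_VV G φ M q hq hqM σ₀ hσA hσA' hσπ i U hU)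
    (s18_chart1 (L₀ := K₀) (s18g_jF (K := K₀) (M * q))) hC q hq.ne_zero
    (fun c c' h => by
      have := s33u_hroot G q 1 c c' (by rwa [pow_one])
      exact this)
    f hf hdiv
    (fun 𝔫 h𝔫 hπ𝔫 hst _ => by
      obtain ⟨Φ, hΦ0, hΦ⟩ := hQ4 𝔫 h𝔫 hπ𝔫
      exact ⟨Φ, hΦ0, s44k_hPhi_of_Q4 _ _ _ 𝔫 gσ hst q hq.ne_zero f Φ hΦ⟩)
    1 hnorm
  rw [Units.val_one, s33u_cst_one, one_mul] at hF0 hF1 hFQ
  exact ⟨a, ha0, hF1, hFQ⟩

end Fermat.Agent.Lib.S44
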