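/-
S44 programme M-AT-P, wall W3 = (★)-core, family K (helper7), item (H7-a): THE WILD AUTOMORPHISM OF THE
MODULAR Σ-DATUM.

`σ₀ : K₀ ≃ₐ[ℚ] K₀` with `σ₀^{±1} A ⊆ A` and `σ₀ a ≡ a mod ϖ ^ (B+1)` on `A` (lower break `≥ B`), and
`cτ := (σ₀ϖ - ϖ)/ϖ ^ (B+1) ∈ A`.  Then
* `s44k_inertiaAut`  : `σ₀` is of inertia type (`s33i_InertiaAut G σ₀`), so `s33y_galAut` (Lib/S33/SsGal) gives
  the `s33z_GalAut Z` of EVERY Σ-datum `Z` over the concrete components `s33y_Ci`, `s33y_Cz`;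
* `s44k_wild_i`, `s44k_wild_z` : helper4's `s44c_Wild (s33y_galAut …).Gi B cτ` and `… .Gz B cτ` (CoreDec).
-/
import Fermat.Agent.Lib.S44.KFirst
import Fermat.Agent.Lib.S44.CoreDec
import Fermat.Agent.Lib.S33.SsGal

set_option autoImplicit false
set_option linter.style.haveILetI false
set_option linter.unusedSectionVars false
set_option synthInstance.maxHeartbeats 400000

noncomputable section

namespace Fermat.Agent.Lib.S44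

open AlgebraicCurve ModularCurve HahnSeries Fermat.Agent.Lib.FF Fermat.Agent.Lib.S18
  Fermat.Agent.Lib.S33 Fermat.Agent.Lib.S34 Fermat.Agent.Lib.S37

local notation "Kb" => AlgebraicClosure ℚ

variable {K₀ : Type} [Field K₀] [CharZero K₀] [Algebra ℚ K₀] {κ : Type} [Field κ]
  (G : s18g_GaussData K₀ κ)
variable (φ : K₀ →+* Kb) (M p : ℕ) [NeZero M] [hp : Fact p.Prime] (hpM : ¬ p ∣ M)
variable (σ₀ : K₀ ≃ₐ[ℚ] K₀)
  (hσA : ∀ a : K₀, a ∈ G.A → (σ₀ : K₀ ≃+* K₀) a ∈ G.A)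
  (B : ℕ)
  (hσB : ∀ a : K₀, a ∈ G.A →
    ∃ z ∈ G.A, (σ₀ : K₀ ≃+* K₀) a - a = ((G.ϖ : G.A) : K₀) ^ (B + 1) * z)

include hσA hσB in
/-- **A wild automorphism is of inertia type.** -/
theorem s44k_inertiaAut : s33i_InertiaAut G σ₀ := by
  refine s33i_inertiaAut_of_dvd G σ₀ hσA fun a ha => ?_
  obtain ⟨z, hz, e⟩ := hσB a ha
  refine ⟨G.ϖ ^ B * ⟨z, hz⟩, Subtype.ext ?_⟩
  show σ₀ a - a = ((G.ϖ : G.A) : K₀) * (((G.ϖ : G.A) : K₀) ^ B * z)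
  have e' : σ₀ a - a = ((G.ϖ : G.A) : K₀) ^ (B + 1) * z := e
  rw [e']
  ring

variable [CharP κ p] [PerfectRing κ p]
variable (hdeg : s34m_HDeg K₀ M p) (hT : s18g_HT κ M) (hdegM : s18g_HDeg K₀ M)
variable (hπ : Function.Surjective G.π)
variable (e : ℕ) (ε : K₀) (he : 0 < e) (hε : ε ∈ G.A) (hεinv : ε⁻¹ ∈ G.A) (hε0 : ε ≠ 0)
variable (hpe : (p : K₀) = ε * ((G.ϖ : G.A) : K₀) ^ e) (hperf : ∀ c : κ, ∃ d : κ, d ^ p = c)

local notation "D'M" => s33i_datum G M hT hdegM hπ p e ε hp.out he hε hεinv hε0 hpe hperf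
local notation "CI" => s33y_Ci G φ M p hpM hdeg hT hdegM hπ e ε he hε hεinv hε0 hpe hperf
local notation "CZ" => s33y_Cz G φ M p hpM hdeg hT hdegM hπ e ε he hε hεinv hε0 hpe hperf

include hσA hσB in
/-- `τ x ≡ x mod ϖ ^ (B+1) O_C` on a component equal to `C_∞`. -/
theorem s44k_res_inf (C : s33z_Comp D'M (s34m_F K₀ (M * p))) (hC : C = CI)
    (x : s34m_F K₀ (M * p)) (hx : x ∈ C.O) :
    s33f_Cong C.datum (B + 1) (arithmeticRingAut (modularFunctionFieldFull (M * p)) σ₀ x) x := by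
  subst hC
  obtain ⟨z, hz, ez⟩ := s44k_galois_sub_mem_Vinf G σ₀ hσA (B + 1) (Nat.le_add_left 1 B) hσB
    (M * p) hx
  exact ⟨z, hz, ez⟩

include hσA hσB in
/-- `τ x ≡ x mod ϖ ^ (B+1) O_C` on a component equal to `C_0`. -/
theorem s44k_res_zero (C : s33z_Comp D'M (s34m_F K₀ (M * p))) (hC : C = CZ)
    (x : s34m_F K₀ (M * p)) (hx : x ∈ C.O) :
    s33f_Cong C.datum (B + 1) (arithmeticRingAut (modularFunctionFieldFull (M * p)) σ₀ x) x := by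
  subst hC
  obtain ⟨z, hz, ez⟩ := s44k_galois_sub_mem_Vzero G φ M p hp.out hpM σ₀ hσA (B + 1)
    (Nat.le_add_left 1 B) hσB hx
  exact ⟨z, hz, ez⟩

variable {ι : Type*} {k : ι → Type*} [∀ s, Field (k s)] [∀ s, Algebra κ (k s)]

/-- **The wild `s33z_GalAut`** of a Σ-datum over `C_∞`, `C_0`. -/
def s44k_galAut (Z : s33z_Datum D'M (s34m_F K₀ (M * p)) ι k) (hCi : Z.Ci = CI) (hCz : Z.Cz = CZ)
    (hN : ∀ f : s34m_F K₀ (M * p), s33z_NF Z f →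
      s33z_NF Z (arithmeticRingAut (modularFunctionFieldFull (M * p)) σ₀ f)) : s33z_GalAut Z :=
  s33y_galAut G φ M p hpM (s44k_inertiaAut G σ₀ hσA B hσB) hdeg hT hdegM hπ e ε he hε hεinv hε0
    hpe hperf Z hCi hCz hN

theorem s44k_galAut_s (Z : s33z_Datum D'M (s34m_F K₀ (M * p)) ι k) (hCi : Z.Ci = CI) (hCz : Z.Cz = CZ)
    (hN : ∀ f : s34m_F K₀ (M * p), s33z_NF Z f →
      s33z_NF Z (arithmeticRingAut (modularFunctionFieldFull (M * p)) σ₀ f))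
    (x : s34m_F K₀ (M * p)) :
    (s44k_galAut G φ M p hpM σ₀ hσA B hσB hdeg hT hdegM hπ e ε he hε hεinv hε0 hpe hperf Z hCi hCz
      hN).s x = arithmeticRingAut (modularFunctionFieldFull (M * p)) σ₀ x := rfl

/-- the constant `w = σ₀ϖ/ϖ` of the wild automorphism. -/
theorem s44k_galAut_w (Z : s33z_Datum D'M (s34m_F K₀ (M * p)) ι k) (hCi : Z.Ci = CI) (hCz : Z.Cz = CZ)
    (hN : ∀ f : s34m_F K₀ (M * p), s33z_NF Z f →
      s33z_NF Z (arithmeticRingAut (modularFunctionFieldFull (M * p)) σ₀ f))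
    (cτ : G.A)
    (hcτ : (σ₀ : K₀ ≃+* K₀) ((G.ϖ : G.A) : K₀) - ((G.ϖ : G.A) : K₀) =
      ((G.ϖ : G.A) : K₀) ^ (B + 1) * (cτ : K₀)) :
    (s44k_galAut G φ M p hpM σ₀ hσA B hσB hdeg hT hdegM hπ e ε he hε hεinv hε0 hpe hperf Z hCi hCz
      hN).w = 1 + ((G.ϖ : G.A) : K₀) ^ B * (cτ : K₀) := by
  show ((G.ϖ : G.A) : K₀)⁻¹ * σ₀ ((G.ϖ : G.A) : K₀) = _
  have h0 : ((G.ϖ : G.A) : K₀) ≠ 0 := s18g_unifK_ne_zero G
  have e1 : σ₀ ((G.ϖ : G.A) : K₀) =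
      ((G.ϖ : G.A) : K₀) + ((G.ϖ : G.A) : K₀) ^ (B + 1) * (cτ : K₀) := by
    have : σ₀ ((G.ϖ : G.A) : K₀) - ((G.ϖ : G.A) : K₀) =
        ((G.ϖ : G.A) : K₀) ^ (B + 1) * (cτ : K₀) := hcτ
    linear_combination this
  rw [e1]
  field_simp
  ring

/-- **`s44c_Wild` on the `∞`-component.** -/
theorem s44k_wild_i (Z : s33z_Datum D'M (s34m_F K₀ (M * p)) ι k) (hCi : Z.Ci = CI) (hCz : Z.Cz = CZ)
    (hN : ∀ f : s34m_F K₀ (M * p), s33z_NF Z f →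
      s33z_NF Z (arithmeticRingAut (modularFunctionFieldFull (M * p)) σ₀ f))
    (cτ : G.A)
    (hcτ : (σ₀ : K₀ ≃+* K₀) ((G.ϖ : G.A) : K₀) - ((G.ϖ : G.A) : K₀) =
      ((G.ϖ : G.A) : K₀) ^ (B + 1) * (cτ : K₀)) :
    s44c_Wild (s44k_galAut G φ M p hpM σ₀ hσA B hσB hdeg hT hdegM hπ e ε he hε hεinv hε0 hpe hperf
      Z hCi hCz hN).Gi B cτ where
  res := fun x hx =>
    s44k_res_inf G φ M p hpM σ₀ hσA B hσB hdeg hT hdegM hπ e ε he hε hεinv hε0 hpe hperf Z.Ci hCi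
      x hx
  unif := by
    refine ⟨0, G.A.zero_mem, ?_⟩
    have h := s44k_galAut_w G φ M p hpM σ₀ hσA B hσB hdeg hT hdegM hπ e ε he hε hεinv hε0 hpe hperf
      Z hCi hCz hN cτ hcτ
    show (s44k_galAut G φ M p hpM σ₀ hσA B hσB hdeg hT hdegM hπ e ε he hε hεinv hε0 hpe hperf
      Z hCi hCz hN).w = 1 + ((G.ϖ : G.A) : K₀) ^ B * ((cτ : K₀) + ((G.ϖ : G.A) : K₀) * 0)
    rw [h, mul_zero, add_zero]

/-- **`s44c_Wild` on the `0`-component.** -/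
theorem s44k_wild_z (Z : s33z_Datum D'M (s34m_F K₀ (M * p)) ι k) (hCi : Z.Ci = CI) (hCz : Z.Cz = CZ)
    (hN : ∀ f : s34m_F K₀ (M * p), s33z_NF Z f →
      s33z_NF Z (arithmeticRingAut (modularFunctionFieldFull (M * p)) σ₀ f))
    (cτ : G.A)
    (hcτ : (σ₀ : K₀ ≃+* K₀) ((G.ϖ : G.A) : K₀) - ((G.ϖ : G.A) : K₀) =
      ((G.ϖ : G.A) : K₀) ^ (B + 1) * (cτ : K₀)) :
    s44c_Wild (s44k_galAut G φ M p hpM σ₀ hσA B hσB hdeg hT hdegM hπ e ε he hε hεinv hε0 hpe hperf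
      Z hCi hCz hN).Gz B cτ where
  res := fun x hx =>
    s44k_res_zero G φ M p hpM σ₀ hσA B hσB hdeg hT hdegM hπ e ε he hε hεinv hε0 hpe hperf Z.Cz hCz
      x hx
  unif := by
    refine ⟨0, G.A.zero_mem, ?_⟩
    have h := s44k_galAut_w G φ M p hpM σ₀ hσA B hσB hdeg hT hdegM hπ e ε he hε hεinv hε0 hpe hperf
      Z hCi hCz hN cτ hcτ
    show (s44k_galAut G φ M p hpM σ₀ hσA B hσB hdeg hT hdegM hπ e ε he hε hεinv hε0 hpe hperf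
      Z hCi hCz hN).w = 1 + ((G.ϖ : G.A) : K₀) ^ B * ((cτ : K₀) + ((G.ϖ : G.A) : K₀) * 0)
    rw [h, mul_zero, add_zero]

end Fermat.Agent.Lib.S44
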