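/-
S44 programme M-AT-P, wall W3 = (★)-core, family K (helper7), item (H7-d): THE SLOPE LEMMA FOR `X_0(M p)` OVER A
NUMBER FIELD — assembly of helper4's abstract `s44c_slope_core` (CoreDec) with the instance bricks
`KWild` (wild `s33z_GalAut`, `s44c_Wild`), `KRoot` (global `p`-th root `a`, generator `h` of depth `p B + 1`) and
`KFact` (factorisations from (Q4)).

Setting: `K₀ ∋ ζ_p` a number field with Gauss datum `G` (residue characteristic `p ≥ 5`, `p ∤ M`, `p = ε ϖ ^ e`),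
`Z` a Σ-datum over the concrete components `s33y_Ci`, `s33y_Cz` whose node places are those of the chart `j ≠ ∞`,
`σ₀` wild of lower break EXACTLY `B` (`σ₀ a ≡ a mod ϖ ^ (B+1)` on `A`, `σ₀ ϖ - ϖ = ϖ ^ (B+1) cτ` with `c̄τ ≠ 0`),
`1 ≤ B`, `(p - 1) B < e` (sub-critical); `f ≠ 0` with `p ∣ div f` and trivial norms `ν_α f, ν_β f ∈ 𝒢⁰`.

Geometry of the closed points, as HYPOTHESES in helper4's vocabulary (to be discharged by `CoreGlue`):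
`Ns s` (places through the node `s`, `⊆ Z.N`), `hglue : s44c_GlueAt Z Ns`, `Xi`, `Xz : s44c_Pts` (the other closed
points of the two components) with `s44c_ConstI`, `s44c_ConstZ`; all these sets of places are permuted by `τ⁻¹`.
[RAT] = (Q4) at the closed points of the chart `j ≠ ∞` (`hQ4`, for [UNIP-K]), at the nodes (a family `Φ s` with
Gauss valuations `ni s`, `nz s`) and at the points of `Xi`, `Xz`.

Conclusion (`s44k_slope`): `p ∣ (nz s - ni s) - (nz s' - ni s')` for all nodes `s`, `s'`: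
**`d_s = V_0(Φ_s) - V_∞(Φ_s)` is constant modulo `p`.**
-/
import Fermat.Agent.Lib.S44.KRoot
import Fermat.Agent.Lib.S44.KWild
import Fermat.Agent.Lib.S44.KFact
import Fermat.Agent.Lib.S33.SsNodeGal

set_option autoImplicit false
set_option linter.style.haveILetI false
set_option linter.unusedSectionVars false
set_option synthInstance.maxHeartbeats 400000

noncomputable section

namespace Fermat.Agent.Lib.S44

open AlgebraicCurve ModularCurve HahnSeries Fermat.Agent.Lib.FF Fermat.Agent.Lib.S18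
  Fermat.Agent.Lib.S33 Fermat.Agent.Lib.S34 Fermat.Agent.Lib.S35 Fermat.Agent.Lib.S36
  Fermat.Agent.Lib.S37

local notation "Kb" => AlgebraicClosure ℚ

variable {K₀ : Type} [Field K₀] [NumberField K₀] {κ : Type} [Field κ]
  (G : s18g_GaussData K₀ κ) [IsDiscreteValuationRing G.A]
variable (φ : K₀ →+* Kb) (M p : ℕ) [NeZero M] [hp : Fact p.Prime] (hpM : ¬ p ∣ M) (h5 : 5 ≤ p)
variable [CharP κ p] [PerfectField κ]
variable (hdeg : s34m_HDeg K₀ M p) (hT : s18g_HT κ M) (hdegM : s18g_HDeg K₀ M)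
variable (hπ : Function.Surjective G.π)
variable (e : ℕ) (ε : K₀) (he : 0 < e) (hε : ε ∈ G.A) (hεinv : ε⁻¹ ∈ G.A) (hε0 : ε ≠ 0)
variable (hpe : (p : K₀) = ε * ((G.ϖ : G.A) : K₀) ^ e) (hperf : ∀ c : κ, ∃ d : κ, d ^ p = c)
variable (ζ₀ : K₀ˣ) (hζ₀ : IsPrimitiveRoot (ζ₀ : K₀) p)

local notation "D'M" => s33i_datum G M hT hdegM hπ p e ε hp.out he hε hεinv hε0 hpe hperf
local notation "CI" => s33y_Ci G φ M p hpM hdeg hT hdegM hπ e ε he hε hεinv hε0 hpe hperf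
local notation "CZ" => s33y_Cz G φ M p hpM hdeg hT hdegM hπ e ε he hε hεinv hε0 hpe hperf

variable {ι : Type*} {k : ι → Type*} [∀ s, Field (k s)] [∀ s, Algebra κ (k s)]

include h5 in
set_option maxHeartbeats 1600000 in
/-- **THE SLOPE LEMMA for `X_0(M p)` over a number field** (see the header). -/
theorem s44k_slope (Z : s33z_Datum D'M (s34m_F K₀ (M * p)) ι k) (hCi : Z.Ci = CI) (hCz : Z.Cz = CZ)
    (hZN : Z.N = s33s_nodePlaces (s34m_VV G φ M p hp.out hpM) (s34m_unif G (M * p))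
      (s18_chart1 (L₀ := K₀) (s18g_jF (K := K₀) (M * p))))
    -- the wild automorphism
    (σ₀ : K₀ ≃ₐ[ℚ] K₀)
    (hσA : ∀ a : K₀, a ∈ G.A → (σ₀ : K₀ ≃+* K₀) a ∈ G.A)
    (hσA' : ∀ a : K₀, a ∈ G.A → (σ₀.symm : K₀ ≃+* K₀) a ∈ G.A)
    (B : ℕ) (hB : 1 ≤ B) (hsub : (p - 1) * B < e)
    (hσB : ∀ a : K₀, a ∈ G.A →
      ∃ z ∈ G.A, (σ₀ : K₀ ≃+* K₀) a - a = ((G.ϖ : G.A) : K₀) ^ (B + 1) * z)
    (cτ : G.A)
    (hcτ : (σ₀ : K₀ ≃+* K₀) ((G.ϖ : G.A) : K₀) - ((G.ϖ : G.A) : K₀) =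
      ((G.ϖ : G.A) : K₀) ^ (B + 1) * (cτ : K₀))
    (hcτ0 : G.π cτ ≠ 0)
    -- the geometry of the closed points (helper4's vocabulary)
    (Ns : ι → Set (Place K₀ (s34m_F K₀ (M * p)))) (hNsN : ∀ s, Ns s ⊆ Z.N)
    (hglue : s44c_GlueAt Z Ns)
    {Pi Pz : Type*} (Xi : s44c_Pts Z.Ci Pi) (Xz : s44c_Pts Z.Cz Pz)
    (hci : s44c_ConstI Z Xi) (hcz : s44c_ConstZ Z Xz)
    (hNsT : ∀ s, ∀ Q ∈ Ns s,
      (arithmeticGalois (modularFunctionFieldFull (M * p)) σ₀)⁻¹ • Q ∈ Ns s)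
    (hXiT : ∀ z, ∀ Q ∈ Xi.N z,
      (arithmeticGalois (modularFunctionFieldFull (M * p)) σ₀)⁻¹ • Q ∈ Xi.N z)
    (hXzT : ∀ z, ∀ Q ∈ Xz.N z,
      (arithmeticGalois (modularFunctionFieldFull (M * p)) σ₀)⁻¹ • Q ∈ Xz.N z)
    -- the function
    (f : s34m_F K₀ (M * p)) (hf : f ≠ 0)
    (hdiv : ∀ Q : Place K₀ (s34m_F K₀ (M * p)), ((p : ℕ) : ℤ) ∣ Q.ord f)
    (hα : s33f_IsKum0 D'M (s33t_nuAlpha φ M p hpM ζ₀ hζ₀ f))
    (hβ : s33f_IsKum0 D'M (s33t_nuBeta φ M p hpM ζ₀ hζ₀ f))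
    -- [RAT] = (Q4)
    (hQ4 : ∀ 𝔫 : Ideal (s34x_ring (s34x_infRing (s34m_VV G φ M p hp.out hpM))
        (s18_chart1 (L₀ := K₀) (s18g_jF (K := K₀) (M * p)))), 𝔫.IsMaximal →
      s34x_const (s34x_infRing (s34m_VV G φ M p hp.out hpM))
        (s18_chart1 (L₀ := K₀) (s18g_jF (K := K₀) (M * p))) ((G.ϖ : G.A) : K₀)
        (s34x_inf_const_mem (s34m_VV G φ M p hp.out hpM) G.A
          (s34c_const_mem_VV G φ M p hp.out hpM) G.ϖ) ∈ 𝔫 →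
      ∃ Φ : s34m_F K₀ (M * p), Φ ≠ 0 ∧
        ∀ Q ∈ s18_chart1 (L₀ := K₀) (s18g_jF (K := K₀) (M * p)),
          s34f_through (s34x_infRing (s34m_VV G φ M p hp.out hpM))
            (s18_chart1 (L₀ := K₀) (s18g_jF (K := K₀) (M * p))) 𝔫 Q →
          Q.ord f = ((p : ℕ) : ℤ) * Q.ord Φ)
    (Φ : ι → s34m_F K₀ (M * p))
    (hΦs : ∀ s : ι, ∀ Q ∈ Ns s, Q.ord f = ((p : ℕ) : ℤ) * Q.ord (Φ s))
    (ni nz : ι → ℤ) (hni : ∀ s, s44c_Val Z.Di (ni s) (Φ s)) (hnz : ∀ s, s44c_Val Z.Dz (nz s) (Φ s))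
    (hΦi : ∀ z : Pi, ∃ Ψ : s34m_F K₀ (M * p), Ψ ≠ 0 ∧
      ∀ Q ∈ Xi.N z, Q.ord f = ((p : ℕ) : ℤ) * Q.ord Ψ)
    (hΦz : ∀ z : Pz, ∃ Ψ : s34m_F K₀ (M * p), Ψ ≠ 0 ∧
      ∀ Q ∈ Xz.N z, Q.ord f = ((p : ℕ) : ℤ) * Q.ord Ψ)
    (s s' : ι) :
    ((p : ℕ) : ℤ) ∣ (nz s - ni s) - (nz s' - ni s') := by
  haveI : PerfectRing κ p := PerfectField.toPerfectRing p
  set gσ : SemilinearAut K₀ (s34m_F K₀ (M * p)) :=
    arithmeticGalois (modularFunctionFieldFull (M * p)) σ₀ with hgσ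
  -- the wild `s33z_GalAut`
  have hs : s33i_InertiaAut G σ₀ := s44k_inertiaAut G σ₀ hσA B hσB
  have hN : ∀ f : s34m_F K₀ (M * p), s33z_NF Z f →
      s33z_NF Z (arithmeticRingAut (modularFunctionFieldFull (M * p)) σ₀ f) := by
    intro f hfN
    have := s33y_hN G φ M p hpM hs (s18g_jF (K := K₀) (M * p)) (s34s_galois_jF (M * p) σ₀) f
      ⟨hfN.1, fun Q hQ => hfN.2 Q (hZN ▸ hQ)⟩
    exact ⟨this.1, fun Q hQ => this.2 Q (hZN ▸ hQ)⟩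
  set GA : s33z_GalAut Z := s44k_galAut G φ M p hpM σ₀ hσA B hσB hdeg hT hdegM hπ e ε he hε hεinv
    hε0 hpe hperf Z hCi hCz hN with hGA
  have hWi := (s44k_wild_i G φ M p hpM σ₀ hσA B hσB hdeg hT hdegM hπ e ε he hε hεinv hε0 hpe hperf
    Z hCi hCz hN cτ hcτ).firstOrder hB
  have hWz := (s44k_wild_z G φ M p hpM σ₀ hσA B hσB hdeg hT hdegM hπ e ε he hε hεinv hε0 hpe hperf
    Z hCi hCz hN cτ hcτ).firstOrder hB
  -- the root
  obtain ⟨a, h, c, hc0, ha0, hnf, hcong, heq⟩ := s44k_root G φ M p hpM h5 hdeg hT hdegM hπ e ε he hε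
    hεinv hε0 hpe hperf ζ₀ hζ₀ Z hCi hCz hZN σ₀ hσA hσA' B hB hsub hσB f hf hdiv hQ4 hα hβ
  have hσ : ∀ x : s34m_F K₀ (M * p), GA.s x = gσ • x := fun _ => rfl
  -- the factorisations
  have hnode : s44c_NodeFact Z Ns GA.s f ni nz :=
    s44k_nodeFact_of_family Z Ns gσ GA.s hσ hNsT hf Φ hΦs ni nz hni hnz
  have hsi : s44c_SmoothFact Z.Ci Xi GA.s f :=
    s44k_smoothFact_of_Phi Z.Ci Xi gσ GA.s hσ hXiT hf hΦi
  have hsz : s44c_SmoothFact Z.Cz Xz GA.s f :=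
    s44k_smoothFact_of_Phi Z.Cz Xz gσ GA.s hσ hXzT hf hΦz
  exact s44c_slope_core hglue Xi Xz hci hcz GA hB hsub hWi hWz hcτ0 hc0 hf ha0
    (fun s => ⟨hnf.1, fun Q hQ => hnf.2 Q (hNsN s hQ)⟩) hcong heq hnode hsi hsz s s'

end Fermat.Agent.Lib.S44
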