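/-
S44 programme M-AT-P, (★) OVER A FIXED FIELD, family K (helper7): assembly of
  W3  : `s44k_root` (global `p`-th root `a`, deep generator `h`), `s44k_galAut` / `s44k_wild_*` (wild `s33z_GalAut`),
        `KFact` (factorisations from (Q4)), helper4's `s44c_five_star_tau` / `s44c_five_star_tame_tau`
        (slope lemma + (G3)/(G4) + (G5), every `τ_ℓ`-hypothesis discharged), with
  W2  : helper8's modular unit `s44e_exists_unit` and globalisation `s44e_glob_five` (G6).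

Setting: `L₀ ≤ ℚ̄` a number field `∋ ζ_p, ζ_ℓ` with Gauss datum `G` (`p ≥ 5`, `p ∤ M`, `p = ε ϖ ^ e`); `x ∈ J_0(M p)` with
`α_* x = β_* x = 0`, `T_ℓ x = a₀ x`, `p ∤ a₀ - (ℓ + 1)`; `f ∈ 𝓕_{L₀}(M p)` a Kummer generator of `x` (exponent `p`);
EXACT (Q4) at the closed points `𝔫 ∋ ϖ` of the `j`-charts (helper9's [RAT]).

* `s44k_star_wild` : `σ₀` wild of break exactly `B ≥ 1`, `(p - 1) B < e`, `p² ∤ e`, (Q4) on BOTH charts;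
* `s44k_star_tame` : `p ∤ e`, (Q4) on the chart `{j regular}` only (in fact only at the nodes).

Conclusion (both): `f = Gg ^ p · (ϖ ^ a · h)`, `h` a unit of `V_∞` and of `V_0` with neither zero nor pole at the node
places — the shape of `s44i_Finite` over the field `L₀`.
-/
import Fermat.Agent.Lib.S44.KSlope
import Fermat.Agent.Lib.S44.KPush
import Fermat.Agent.Lib.S44.KBreak
import Fermat.Agent.Lib.S44.CoreTame
import Fermat.Agent.Lib.S44.EGlobInst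
import Fermat.Agent.Lib.S44.EUnit

set_option autoImplicit false
set_option linter.style.haveILetI false
set_option linter.unusedSectionVars false
set_option synthInstance.maxHeartbeats 400000

noncomputable section

namespace Fermat.Agent.Lib.S44

open AlgebraicCurve ModularCurve HahnSeries Fermat.Agent.Lib.FF Fermat.Agent.Lib.S18
  Fermat.Agent.Lib.S33 Fermat.Agent.Lib.S34 Fermat.Agent.Lib.S35 Fermat.Agent.Lib.S36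
  Fermat.Agent.Lib.S37

local notation "Kb" => AlgebraicClosure ℚ

variable {K₀ : Type} [Field K₀] [NumberField K₀] {κ : Type} [Field κ]
  (G : s18g_GaussData K₀ κ) [IsDiscreteValuationRing G.A]
variable (φ : K₀ →+* Kb) (M p : ℕ) [NeZero M] [hp : Fact p.Prime] (hpM : ¬ p ∣ M) (h5 : 5 ≤ p)
variable [CharP κ p] [PerfectField κ]

local notation "VV" => s34m_VV G φ M p hp.out hpM
local notation "ϖF" => s34m_unif G (M * p)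
local notation "S₁" => s18_chart1 (L₀ := K₀) (s18g_jF (K := K₀) (M * p))
local notation "S₂" => s18_chart1 (L₀ := K₀) (s18g_jF (K := K₀) (M * p))⁻¹

section Stable

variable (σ₀ : K₀ ≃ₐ[ℚ] K₀)
  (hσA : ∀ a : K₀, a ∈ G.A → (σ₀ : K₀ ≃+* K₀) a ∈ G.A)
  (hσA' : ∀ a : K₀, a ∈ G.A → (σ₀.symm : K₀ ≃+* K₀) a ∈ G.A)
  (B : ℕ)
  (hσB : ∀ a : K₀, a ∈ G.A →
    ∃ z ∈ G.A, (σ₀ : K₀ ≃+* K₀) a - a = ((G.ϖ : G.A) : K₀) ^ (B + 1) * z)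

/-- the constant `ϖ` of the chart ring lies in every component prime. -/
theorem s44k_const_mem_comp (S : Set (Place K₀ (s34m_F K₀ (M * p)))) (i : Bool) :
    s34x_const (s34x_infRing VV) S ((G.ϖ : G.A) : K₀)
      (s34x_inf_const_mem VV G.A (s34c_const_mem_VV G φ M p hp.out hpM) G.ϖ) ∈
      s33s_comp VV ϖF S i :=
  ⟨1, (VV i).one_mem, by rw [mul_one]; rfl⟩

include hσA hσA' hσB in
/-- **the places of a `τ`-stable chart through a closed point of the special fibre are permuted by `τ⁻¹`.** -/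
theorem s44k_thr_stable (S : Set (Place K₀ (s34m_F K₀ (M * p))))
    (hgS : ∀ Q : Place K₀ (s34m_F K₀ (M * p)),
      Q ∈ S ↔ arithmeticGalois (modularFunctionFieldFull (M * p)) σ₀ • Q ∈ S)
    (𝔫 : Ideal (s34x_ring (s34x_infRing VV) S)) (i : Bool) (h𝔫 : s33s_comp VV ϖF S i ≤ 𝔫) :
    ∀ Q ∈ s44c_thr VV S 𝔫,
      (arithmeticGalois (modularFunctionFieldFull (M * p)) σ₀)⁻¹ • Q ∈ s44c_thr VV S 𝔫 := by
  have hσπ := s44k_res_of_depth G (σ₀ : K₀ ≃+* K₀) hσA (B + 1) hσB (Nat.le_add_left 1 B)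
  set gσ : SemilinearAut K₀ (s34m_F K₀ (M * p)) :=
    arithmeticGalois (modularFunctionFieldFull (M * p)) σ₀ with hgσ
  have hsymm : ∀ y : s34m_F K₀ (M * p),
      arithmeticRingAut (modularFunctionFieldFull (M * p)) σ₀.symm (gσ • y) = y := by
    intro y
    have h1 : arithmeticGalois (modularFunctionFieldFull (M * p)) σ₀.symm • (gσ • y) = y := by
      rw [hgσ, ← mul_smul, ← map_mul]
      have : σ₀.symm * σ₀ = 1 := by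
        ext a
        exact σ₀.symm_apply_apply a
      rw [this, map_one, one_smul]
    exact h1
  exact s44k_through_inv_stable VV S ϖF (s34m_unif_ne_zero G (M * p))
    (fun Q => ff_ord_algebraMap Q _) gσ
    (fun i y => ⟨fun hy => s34m_galois_mem_VV G φ M p σ₀ hσA hσπ hp.out hpM i hy, fun hy => by
      have := s34m_galois_mem_VV G φ M p σ₀.symm hσA'
        (s34m_symm_res G σ₀ hσA hσA' hσπ) hp.out hpM i hy
      rw [hsymm] at this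
      exact this⟩)
    (fun i y hy => s34m_galois_sub_mem_VV G φ M p σ₀ hσA hσπ hp.out hpM i hy)
    hgS 𝔫 _ rfl (h𝔫 (s44k_const_mem_comp G φ M p hpM S i))

end Stable

end Fermat.Agent.Lib.S44

namespace Fermat.Agent.Lib.S44

open AlgebraicCurve ModularCurve HahnSeries Fermat.Agent.Lib.FF Fermat.Agent.Lib.S18
  Fermat.Agent.Lib.S33 Fermat.Agent.Lib.S34 Fermat.Agent.Lib.S35 Fermat.Agent.Lib.S36
  Fermat.Agent.Lib.S37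

local notation "Kb" => AlgebraicClosure ℚ

section NotSq

open Fermat.Agent.Lib.Frey

variable {K₀ : Type*} [Field K₀] {κ : Type*} [Field κ] (G : s18g_GaussData K₀ κ)
variable (p : ℕ) [hp : Fact p.Prime] [CharP κ p]
variable (P : ValuationSubring Kb) (hP : (p : Kb) ∈ P.nonunits) (φ : K₀ →+* Kb)
  (hAP : ∀ x : K₀, x ∈ G.A ↔ φ x ∈ P)
variable (e : ℕ) (ε : K₀) (he : 0 < e) (hε : ε ∈ G.A) (hεinv : ε⁻¹ ∈ G.A) (hε0 : ε ≠ 0)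
  (hpe : (p : K₀) = ε * ((G.ϖ : G.A) : K₀) ^ e)

include hAP he hε hεinv hε0 hpe in
/-- **the first clause of `s44i_SubCrit` gives `p² ∤ e`**: otherwise `v(ϖ ^ (e / p²)) = 1 / p²`. -/
theorem s44k_not_sq_dvd
    (hcl : ∀ m : ℕ, ford_vQ P hp.out hP (φ (((G.ϖ : G.A) : K₀) ^ m)) ≠
      (((1 : ℚ) / (p : ℚ) ^ 2 : ℚ) : WithTop ℚ)) :
    ¬ p ^ 2 ∣ e := by
  rintro ⟨m, rfl⟩
  have hone : (1 : K₀) ∈ G.A := G.A.one_mem
  have hone' : (1 : K₀)⁻¹ ∈ G.A := by rw [inv_one]; exact G.A.one_mem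
  have h1 := s44k_vQ_phi G p P hP φ hAP (p ^ 2 * m) ε he hε hεinv hε0 hpe (m : ℤ) hone hone'
    one_ne_zero
  rw [mul_one, zpow_natCast] at h1
  apply hcl m
  rw [h1]
  congr 1
  have hm0 : (m : ℚ) ≠ 0 := by
    have : 0 < m := Nat.pos_of_ne_zero (by rintro rfl; simp at he)
    exact_mod_cast this.ne'
  have hp0 : (p : ℚ) ≠ 0 := by exact_mod_cast hp.out.ne_zero
  push_cast
  field_simp

end NotSq

section Field

variable (M p : ℕ) [NeZero M] [hp : Fact p.Prime] (hpM : ¬ p ∣ M) (h5 : 5 ≤ p)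
  (L₀ : IntermediateField ℚ Kb) [NumberField ↥L₀]
  (κ : Type) [Field κ] [CharP κ p] [PerfectField κ]
  (G : s18g_GaussData ↥L₀ κ) [IsDiscreteValuationRing G.A]
  (hdeg : s34m_HDeg ↥L₀ M p) (hT : s18g_HT κ M) (hdegM : s18g_HDeg ↥L₀ M)
  (hπ : Function.Surjective G.π)
  (e : ℕ) (ε : ↥L₀) (he : 0 < e) (hε : ε ∈ G.A) (hεinv : ε⁻¹ ∈ G.A) (hε0 : ε ≠ 0)
  (hpe : (p : ↥L₀) = ε * ((G.ϖ : G.A) : ↥L₀) ^ e) (hperf : ∀ c : κ, ∃ d : κ, d ^ p = c)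
  (ℓ : ℕ) [hℓ : Fact ℓ.Prime] (hℓN : ¬ ℓ ∣ M * p)
  (ζ₀ : (↥L₀)ˣ) (hζ₀ : IsPrimitiveRoot (ζ₀ : ↥L₀) ℓ)
  (ζp : (↥L₀)ˣ) (hζp : IsPrimitiveRoot (ζp : ↥L₀) p)

include h5 hdeg hT hdegM hπ he hε hεinv hε0 hpe hperf hℓN hζ₀ in
set_option maxHeartbeats 3200000 in
/-- **(★) over the field `L₀`, TAME CASE `p ∤ e`.** -/
theorem s44k_star_tame (hp1 : ¬ p ∣ e)
    {x : JZero (M * p)} {f : s34m_F ↥L₀ (M * p)}
    (hf : s33d_IsKumGen p x (s18q_incl (M * p) L₀ f)) (a₀ : ℤ)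
    (hx : heckeOperatorBar (M * p) ⟨ℓ, hℓ.out⟩ x = a₀ • x)
    (ha₀ : ¬ (p : ℤ) ∣ a₀ - ((ℓ : ℤ) + 1))
    (hQ4 : ∀ 𝔫 : Ideal (s34x_ring (s34x_infRing (s34m_VV G (algebraMap ↥L₀ Kb) M p hp.out hpM))
        (s18_chart1 (L₀ := ↥L₀) (s18g_jF (K := ↥L₀) (M * p)))), 𝔫.IsMaximal →
      s34x_const (s34x_infRing (s34m_VV G (algebraMap ↥L₀ Kb) M p hp.out hpM))
        (s18_chart1 (L₀ := ↥L₀) (s18g_jF (K := ↥L₀) (M * p))) ((G.ϖ : G.A) : ↥L₀)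
        (s34x_inf_const_mem (s34m_VV G (algebraMap ↥L₀ Kb) M p hp.out hpM) G.A
          (s34c_const_mem_VV G (algebraMap ↥L₀ Kb) M p hp.out hpM) G.ϖ) ∈ 𝔫 →
      ∃ Φ : s34m_F ↥L₀ (M * p), Φ ≠ 0 ∧
        ∀ Q ∈ s18_chart1 (L₀ := ↥L₀) (s18g_jF (K := ↥L₀) (M * p)),
          s34f_through (s34x_infRing (s34m_VV G (algebraMap ↥L₀ Kb) M p hp.out hpM))
            (s18_chart1 (L₀ := ↥L₀) (s18g_jF (K := ↥L₀) (M * p))) 𝔫 Q →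
          Q.ord f = ((p : ℕ) : ℤ) * Q.ord Φ) :
    ∃ (Gg h : s34m_F ↥L₀ (M * p)) (a : ℤ), Gg ≠ 0 ∧
      f = Gg ^ p * (s34m_unif G (M * p) ^ a * h) ∧
      (∀ i, h ∈ s34m_VV G (algebraMap ↥L₀ Kb) M p hp.out hpM i ∧
        h⁻¹ ∈ s34m_VV G (algebraMap ↥L₀ Kb) M p hp.out hpM i) ∧
      ∀ Q ∈ s33s_nodePlaces (s34m_VV G (algebraMap ↥L₀ Kb) M p hp.out hpM) (s34m_unif G (M * p))
        (s18_chart1 (L₀ := ↥L₀) (s18g_jF (K := ↥L₀) (M * p))), Q.ord h = 0 := by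
  haveI : NeZero p := ⟨hp.out.ne_zero⟩
  have hf0 : f ≠ 0 := (s33d_kum_of_gen (M * p) p L₀ hf).1
  -- the modular unit
  obtain ⟨g₀, hg₀, hord, hinf, hzero⟩ :=
    s44e_exists_unit G (algebraMap ↥L₀ Kb) M p hp.out hpM h5 e ε hε hεinv hpe
  obtain ⟨hη, hη2⟩ := s44c_five_eta_tame M p hpM h5 ↥L₀ (algebraMap ↥L₀ Kb) κ G hdeg hT hdegM hπ e ε
    he hε hεinv hε0 hpe hperf hg₀ hord hinf hzero hp1
  -- the node factorisations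
  have hnode : ∀ s : s33s_Node (s34m_VV G (algebraMap ↥L₀ Kb) M p hp.out hpM) (s34m_unif G (M * p))
      (s18_chart1 (L₀ := ↥L₀) (s18g_jF (K := ↥L₀) (M * p))),
      ∃ φ' E : s34m_F ↥L₀ (M * p), f = φ' ^ p * E ∧
        s44c_Unit (s44c_five_Ns M p hpM ↥L₀ (algebraMap ↥L₀ Kb) κ G s) E := by
    intro s
    obtain ⟨Φ, hΦ0, hΦ⟩ := hQ4 s.1 s.2.1
      (s.2.2.1 (s44k_const_mem_comp G (algebraMap ↥L₀ Kb) M p hpM _ true))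
    refine ⟨Φ, f / Φ ^ p, ?_, div_ne_zero hf0 (pow_ne_zero p hΦ0), fun Q hQ => ?_⟩
    · rw [mul_div_cancel₀ _ (pow_ne_zero _ hΦ0)]
    · rw [div_eq_mul_inv, Q.ord_mul hf0 (inv_ne_zero (pow_ne_zero p hΦ0)), Q.ord_inv,
        ← zpow_natCast, Q.ord_zpow, hΦ Q hQ.1 hQ.2]
      ring
  exact s44e_glob_five M p hpM h5 ↥L₀ (algebraMap ↥L₀ Kb) κ G hdeg hT hdegM hπ p hp.out.ne_zero f hf0
    (fun s => s44c_five_star_tame_tau M p hpM h5 L₀ κ G hdeg hT hdegM hπ e ε he hε hεinv hε0 hpe hperf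
      ℓ hℓN ζ₀ hζ₀ hnode hf a₀ hx ha₀ hη hη2 s)

include h5 hdeg hT hdegM hπ he hε hεinv hε0 hpe hperf hℓN hζ₀ hζp in
set_option maxHeartbeats 6400000 in
/-- **(★) over the field `L₀`, WILD CASE**: `σ₀` of break exactly `B ≥ 1`, sub-critical `(p - 1) B < e`,
`p² ∤ e`. -/
theorem s44k_star_wild (hp2 : ¬ p ^ 2 ∣ e)
    -- the wild automorphism
    (σ₀ : ↥L₀ ≃ₐ[ℚ] ↥L₀)
    (hσA : ∀ a : ↥L₀, a ∈ G.A → (σ₀ : ↥L₀ ≃+* ↥L₀) a ∈ G.A)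
    (hσA' : ∀ a : ↥L₀, a ∈ G.A → (σ₀.symm : ↥L₀ ≃+* ↥L₀) a ∈ G.A)
    (B : ℕ) (hB : 1 ≤ B) (hsub : (p - 1) * B < e)
    (hσB : ∀ a : ↥L₀, a ∈ G.A →
      ∃ z ∈ G.A, (σ₀ : ↥L₀ ≃+* ↥L₀) a - a = ((G.ϖ : G.A) : ↥L₀) ^ (B + 1) * z)
    (cτ : G.A)
    (hcτ : (σ₀ : ↥L₀ ≃+* ↥L₀) ((G.ϖ : G.A) : ↥L₀) - ((G.ϖ : G.A) : ↥L₀) =
      ((G.ϖ : G.A) : ↥L₀) ^ (B + 1) * (cτ : ↥L₀))
    (hcτ0 : G.π cτ ≠ 0)
    -- the class and its Kummer generator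
    {x : JZero (M * p)} {f : s34m_F ↥L₀ (M * p)}
    (hf : s33d_IsKumGen p x (s18q_incl (M * p) L₀ f))
    (hαx : s35c_alphaPush M p hp.out hpM x = 0) (hβx : s35c_betaPush M p hp.out hpM x = 0)
    (a₀ : ℤ) (hx : heckeOperatorBar (M * p) ⟨ℓ, hℓ.out⟩ x = a₀ • x)
    (ha₀ : ¬ (p : ℤ) ∣ a₀ - ((ℓ : ℤ) + 1))
    -- [RAT] = exact (Q4), both charts
    (hQ4 : ∀ 𝔫 : Ideal (s34x_ring (s34x_infRing (s34m_VV G (algebraMap ↥L₀ Kb) M p hp.out hpM))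
        (s18_chart1 (L₀ := ↥L₀) (s18g_jF (K := ↥L₀) (M * p)))), 𝔫.IsMaximal →
      s34x_const (s34x_infRing (s34m_VV G (algebraMap ↥L₀ Kb) M p hp.out hpM))
        (s18_chart1 (L₀ := ↥L₀) (s18g_jF (K := ↥L₀) (M * p))) ((G.ϖ : G.A) : ↥L₀)
        (s34x_inf_const_mem (s34m_VV G (algebraMap ↥L₀ Kb) M p hp.out hpM) G.A
          (s34c_const_mem_VV G (algebraMap ↥L₀ Kb) M p hp.out hpM) G.ϖ) ∈ 𝔫 →
      ∃ Φ : s34m_F ↥L₀ (M * p), Φ ≠ 0 ∧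
        ∀ Q ∈ s18_chart1 (L₀ := ↥L₀) (s18g_jF (K := ↥L₀) (M * p)),
          s34f_through (s34x_infRing (s34m_VV G (algebraMap ↥L₀ Kb) M p hp.out hpM))
            (s18_chart1 (L₀ := ↥L₀) (s18g_jF (K := ↥L₀) (M * p))) 𝔫 Q →
          Q.ord f = ((p : ℕ) : ℤ) * Q.ord Φ)
    (hQ4' : ∀ 𝔫 : Ideal (s34x_ring (s34x_infRing (s34m_VV G (algebraMap ↥L₀ Kb) M p hp.out hpM))
        (s18_chart1 (L₀ := ↥L₀) (s18g_jF (K := ↥L₀) (M * p))⁻¹)), 𝔫.IsMaximal →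
      s34x_const (s34x_infRing (s34m_VV G (algebraMap ↥L₀ Kb) M p hp.out hpM))
        (s18_chart1 (L₀ := ↥L₀) (s18g_jF (K := ↥L₀) (M * p))⁻¹) ((G.ϖ : G.A) : ↥L₀)
        (s34x_inf_const_mem (s34m_VV G (algebraMap ↥L₀ Kb) M p hp.out hpM) G.A
          (s34c_const_mem_VV G (algebraMap ↥L₀ Kb) M p hp.out hpM) G.ϖ) ∈ 𝔫 →
      ∃ Φ : s34m_F ↥L₀ (M * p), Φ ≠ 0 ∧
        ∀ Q ∈ s18_chart1 (L₀ := ↥L₀) (s18g_jF (K := ↥L₀) (M * p))⁻¹,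
          s34f_through (s34x_infRing (s34m_VV G (algebraMap ↥L₀ Kb) M p hp.out hpM))
            (s18_chart1 (L₀ := ↥L₀) (s18g_jF (K := ↥L₀) (M * p))⁻¹) 𝔫 Q →
          Q.ord f = ((p : ℕ) : ℤ) * Q.ord Φ) :
    ∃ (Gg h : s34m_F ↥L₀ (M * p)) (a : ℤ), Gg ≠ 0 ∧
      f = Gg ^ p * (s34m_unif G (M * p) ^ a * h) ∧
      (∀ i, h ∈ s34m_VV G (algebraMap ↥L₀ Kb) M p hp.out hpM i ∧
        h⁻¹ ∈ s34m_VV G (algebraMap ↥L₀ Kb) M p hp.out hpM i) ∧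
      ∀ Q ∈ s33s_nodePlaces (s34m_VV G (algebraMap ↥L₀ Kb) M p hp.out hpM) (s34m_unif G (M * p))
        (s18_chart1 (L₀ := ↥L₀) (s18g_jF (K := ↥L₀) (M * p))), Q.ord h = 0 := by
  haveI : NeZero p := ⟨hp.out.ne_zero⟩
  haveI : PerfectRing κ p := PerfectField.toPerfectRing p
  obtain ⟨hf0, hdiv⟩ := s33d_kum_of_gen (M * p) p L₀ hf
  set gσ : SemilinearAut ↥L₀ (s34m_F ↥L₀ (M * p)) :=
    arithmeticGalois (modularFunctionFieldFull (M * p)) σ₀ with hgσ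
  set Z := s33s_datum_five M p hpM h5 ↥L₀ (algebraMap ↥L₀ Kb) κ G hdeg hT hdegM hπ e ε he hε hεinv
    hε0 hpe hperf with hZ
  have hCi : Z.Ci = s33y_Ci G (algebraMap ↥L₀ Kb) M p hpM hdeg hT hdegM hπ e ε he hε hεinv hε0 hpe
    hperf := rfl
  have hCz : Z.Cz = s33y_Cz G (algebraMap ↥L₀ Kb) M p hpM hdeg hT hdegM hπ e ε he hε hεinv hε0 hpe
    hperf := rfl
  have hZN : Z.N = s33s_nodePlaces (s34m_VV G (algebraMap ↥L₀ Kb) M p hp.out hpM)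
    (s34m_unif G (M * p)) (s18_chart1 (L₀ := ↥L₀) (s18g_jF (K := ↥L₀) (M * p))) := rfl
  -- the wild `s33z_GalAut`
  have hs : s33i_InertiaAut G σ₀ := s44k_inertiaAut G σ₀ hσA B hσB
  have hN : ∀ f : s34m_F ↥L₀ (M * p), s33z_NF Z f →
      s33z_NF Z (arithmeticRingAut (modularFunctionFieldFull (M * p)) σ₀ f) := by
    intro f hfN
    have := s33y_hN G (algebraMap ↥L₀ Kb) M p hpM hs (s18g_jF (K := ↥L₀) (M * p))
      (s34s_galois_jF (M * p) σ₀) f ⟨hfN.1, fun Q hQ => hfN.2 Q (hZN ▸ hQ)⟩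
    exact ⟨this.1, fun Q hQ => this.2 Q (hZN ▸ hQ)⟩
  set GA : s33z_GalAut Z := s44k_galAut G (algebraMap ↥L₀ Kb) M p hpM σ₀ hσA B hσB hdeg hT hdegM hπ
    e ε he hε hεinv hε0 hpe hperf Z hCi hCz hN with hGA
  have hWi := (s44k_wild_i G (algebraMap ↥L₀ Kb) M p hpM σ₀ hσA B hσB hdeg hT hdegM hπ e ε he hε
    hεinv hε0 hpe hperf Z hCi hCz hN cτ hcτ).firstOrder hB
  have hWz := (s44k_wild_z G (algebraMap ↥L₀ Kb) M p hpM σ₀ hσA B hσB hdeg hT hdegM hπ e ε he hε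
    hεinv hε0 hpe hperf Z hCi hCz hN cτ hcτ).firstOrder hB
  -- the root
  have hα := s44k_isKum0_nuAlpha M p hpM L₀ ζp hζp G hT hdegM hπ e ε he hε hεinv hε0 hpe hperf x f
    hf hαx
  have hβ := s44k_isKum0_nuBeta M p hpM L₀ ζp hζp G hT hdegM hπ e ε he hε hεinv hε0 hpe hperf x f
    hf hβx
  obtain ⟨a, h, c, hc0, ha0, hnf, hcong, heq⟩ := s44k_root G (algebraMap ↥L₀ Kb) M p hpM h5 hdeg hT
    hdegM hπ e ε he hε hεinv hε0 hpe hperf ζp hζp Z hCi hCz hZN σ₀ hσA hσA' B hB hsub hσB f hf0 hdiv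
    hQ4 hα hβ
  have hσ : ∀ y : s34m_F ↥L₀ (M * p), GA.s y = gσ • y := fun _ => rfl
  -- stability of the sets of places through the closed points
  have hgS₁ : ∀ Q : Place ↥L₀ (s34m_F ↥L₀ (M * p)),
      Q ∈ s18_chart1 (L₀ := ↥L₀) (s18g_jF (K := ↥L₀) (M * p)) ↔
        gσ • Q ∈ s18_chart1 (L₀ := ↥L₀) (s18g_jF (K := ↥L₀) (M * p)) :=
    fun Q => s34s_chart1_jF_stable (M * p) σ₀ Q
  have hgS₂ : ∀ Q : Place ↥L₀ (s34m_F ↥L₀ (M * p)),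
      Q ∈ s18_chart1 (L₀ := ↥L₀) (s18g_jF (K := ↥L₀) (M * p))⁻¹ ↔
        gσ • Q ∈ s18_chart1 (L₀ := ↥L₀) (s18g_jF (K := ↥L₀) (M * p))⁻¹ :=
    fun Q => s34s_chart2_jF_stable (M * p) σ₀ Q
  have hst₁ := s44k_thr_stable G (algebraMap ↥L₀ Kb) M p hpM σ₀ hσA hσA' B hσB _ hgS₁
  have hst₂ := s44k_thr_stable G (algebraMap ↥L₀ Kb) M p hpM σ₀ hσA hσA' B hσB _ hgS₂
  -- the node factorisations
  have hΦn : ∀ s : s33s_Node (s34m_VV G (algebraMap ↥L₀ Kb) M p hp.out hpM) (s34m_unif G (M * p))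
      (s18_chart1 (L₀ := ↥L₀) (s18g_jF (K := ↥L₀) (M * p))),
      ∃ Φ : s34m_F ↥L₀ (M * p), Φ ≠ 0 ∧
        ∀ Q ∈ s44c_five_Ns M p hpM ↥L₀ (algebraMap ↥L₀ Kb) κ G s,
          Q.ord f = ((p : ℕ) : ℤ) * Q.ord Φ := by
    intro s
    obtain ⟨Φ, hΦ0, hΦ⟩ := hQ4 s.1 s.2.1
      (s.2.2.1 (s44k_const_mem_comp G (algebraMap ↥L₀ Kb) M p hpM _ true))
    exact ⟨Φ, hΦ0, fun Q hQ => hΦ Q hQ.1 hQ.2⟩
  choose Φ hΦ0 hΦs using hΦn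
  have hvi : ∀ s, ∃ n : ℤ, s44c_Val Z.Di n (Φ s) := fun s => s44c_exists_val (D := Z.Di) (hΦ0 s)
  have hvz : ∀ s, ∃ n : ℤ, s44c_Val Z.Dz n (Φ s) := fun s => s44c_exists_val (D := Z.Dz) (hΦ0 s)
  choose ni hni using hvi
  choose nz hnz using hvz
  have hnode : ∀ s, ∃ φ' E : s34m_F ↥L₀ (M * p), f = φ' ^ p * E ∧
      s44c_Val Z.Di (ni s) φ' ∧ s44c_Val Z.Dz (nz s) φ' ∧
      s44c_Unit (s44c_five_Ns M p hpM ↥L₀ (algebraMap ↥L₀ Kb) κ G s) E ∧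
      s44c_Unit (s44c_five_Ns M p hpM ↥L₀ (algebraMap ↥L₀ Kb) κ G s) (GA.s E / E) := by
    intro s
    obtain ⟨hU1, hU2⟩ := s44k_unit_fd_of_Phi (s44c_five_Ns M p hpM ↥L₀ (algebraMap ↥L₀ Kb) κ G s) gσ
      (hst₁ s.1 true s.2.2.1) p hf0 (hΦ0 s) (hΦs s)
    refine ⟨Φ s, f / Φ s ^ p, ?_, hni s, hnz s, hU1, ?_⟩
    · rw [mul_div_cancel₀ _ (pow_ne_zero _ (hΦ0 s))]
    · rw [hσ]
      exact hU2
  -- the smooth-point factorisations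
  have hsi : s44c_SmoothFact Z.Ci
      (s44c_five_Xi M p hpM h5 ↥L₀ (algebraMap ↥L₀ Kb) κ G hdeg hT hdegM hπ e ε he hε hεinv hε0 hpe
        hperf) GA.s f := by
    refine s44k_smoothFact_of_Phi Z.Ci _ gσ GA.s hσ ?_ hf0 ?_
    · rintro (z | z)
      · exact hst₁ z.1 true z.2.2.1
      · exact hst₂ z.1 true z.2.2.1
    · rintro (z | z)
      · obtain ⟨Ψ, hΨ0, hΨ⟩ := hQ4 z.1 z.2.1
          (z.2.2.1 (s44k_const_mem_comp G (algebraMap ↥L₀ Kb) M p hpM _ true))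
        exact ⟨Ψ, hΨ0, fun Q hQ => hΨ Q hQ.1 hQ.2⟩
      · obtain ⟨Ψ, hΨ0, hΨ⟩ := hQ4' z.1 z.2.1
          (z.2.2.1 (s44k_const_mem_comp G (algebraMap ↥L₀ Kb) M p hpM _ true))
        exact ⟨Ψ, hΨ0, fun Q hQ => hΨ Q hQ.1 hQ.2⟩
  have hsz : s44c_SmoothFact Z.Cz
      (s44c_five_Xz M p hpM h5 ↥L₀ (algebraMap ↥L₀ Kb) κ G hdeg hT hdegM hπ e ε he hε hεinv hε0 hpe
        hperf) GA.s f := by
    refine s44k_smoothFact_of_Phi Z.Cz _ gσ GA.s hσ ?_ hf0 ?_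
    · rintro (z | z)
      · exact hst₁ z.1 false z.2.2.1
      · exact hst₂ z.1 false z.2.2.1
    · rintro (z | z)
      · obtain ⟨Ψ, hΨ0, hΨ⟩ := hQ4 z.1 z.2.1
          (z.2.2.1 (s44k_const_mem_comp G (algebraMap ↥L₀ Kb) M p hpM _ false))
        exact ⟨Ψ, hΨ0, fun Q hQ => hΨ Q hQ.1 hQ.2⟩
      · obtain ⟨Ψ, hΨ0, hΨ⟩ := hQ4' z.1 z.2.1
          (z.2.2.1 (s44k_const_mem_comp G (algebraMap ↥L₀ Kb) M p hpM _ false))
        exact ⟨Ψ, hΨ0, fun Q hQ => hΨ Q hQ.1 hQ.2⟩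
  -- the modular unit
  obtain ⟨g₀, hg₀, hord, hinf, hzero⟩ :=
    s44e_exists_unit G (algebraMap ↥L₀ Kb) M p hp.out hpM h5 e ε hε hεinv hpe
  obtain ⟨hη, hη2⟩ := s44c_five_eta M p hpM h5 ↥L₀ (algebraMap ↥L₀ Kb) κ G hdeg hT hdegM hπ e ε
    he hε hεinv hε0 hpe hperf hg₀ hord hinf hzero hp2
  have hhN : ∀ s, s44c_Unit (s44c_five_Ns M p hpM ↥L₀ (algebraMap ↥L₀ Kb) κ G s) h :=
    fun s => ⟨hnf.1, fun Q hQ => hnf.2 Q ⟨hQ.1, s.1, s.2, hQ.2⟩⟩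
  exact s44e_glob_five M p hpM h5 ↥L₀ (algebraMap ↥L₀ Kb) κ G hdeg hT hdegM hπ p hp.out.ne_zero f hf0
    (fun s => s44c_five_star_tau M p hpM h5 L₀ κ G hdeg hT hdegM hπ e ε he hε hεinv hε0 hpe hperf
      ℓ hℓN ζ₀ hζ₀ GA σ₀ (fun _ => rfl) hB hsub hWi hWz hcτ0 hc0 ha0 hhN hcong heq hnode hsi hsz
      hf a₀ hx ha₀ hη hη2 s)

end Field

end Fermat.Agent.Lib.S44
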