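/-
S44 programme M-AT-P, (★) OVER A FIXED FIELD, family K (helper7): `KStar.lean` INSTANTIATED at the Gauss datum
`s37r_G P Z ϖ hϖ` of an intermediate field `Z ≤ ℚ̄`, finite over `ℚ`, with `A_Z = P ∩ Z` a DVR, `ϖ` ANY uniformiser,
`p = ε ϖ ^ e` GIVEN (so that the wiring can feed helper2's `(D1)` uniformiser `ϖ_L ∈ Z` with `e = e(L)`).

* `s44k_star_tame_inst` : `p ∤ e`;
* `s44k_star_wild_inst` : `σ₀ : Z ≃ₐ[ℚ] Z` preserving `A_Z` both ways, with helper2's `(D2)` (every `a ∈ A_Z` is `≡` a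
  `σ₀`-fixed `u` modulo `ϖ`), `σ₀^p ϖ = ϖ`, `σ₀ ϖ ≠ ϖ`; the two clauses of `s44i_SubCrit` in the form
  "`v(ϖ ^ m) ≠ 1 / p²`" and "witness `g ∈ Z^×`, `v(g) = r ∉ p · v(ϖ ^ ℤ)`, `v(σ₀ g / g - 1) < 1 / (p - 1)`".
  The break `B`, `c̄τ ≠ 0`, `(p - 1) B < e` and `p² ∤ e` are produced INSIDE (`s44k_break`,
  `s44k_subcrit_of_witness`, `s44k_not_sq_dvd`).

Conclusion (both): `f = Gg ^ p · (ϖ ^ a · h)`, `h` a unit of `V_∞` and of `V_0`, `ord_Q h = 0` on `s33t_nodeN` — the body of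
`s44i_Finite` over the field `Z` up to the `p`-th power `Gg ^ p` and the constant `ϖ ^ a`.
-/
import Fermat.Agent.Lib.S44.KStar
import Fermat.Agent.Lib.S33.TPFinal

set_option autoImplicit false
set_option linter.style.haveILetI false
set_option linter.unusedSectionVars false
set_option synthInstance.maxHeartbeats 400000

noncomputable section

namespace Fermat.Agent.Lib.S44

open AlgebraicCurve ModularCurve HahnSeries Fermat.Agent.Lib.FF Fermat.Agent.Lib.S18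
  Fermat.Agent.Lib.S33 Fermat.Agent.Lib.S34 Fermat.Agent.Lib.S35 Fermat.Agent.Lib.S36
  Fermat.Agent.Lib.S37 Fermat.Agent.Lib.Frey

local notation "Kb" => AlgebraicClosure ℚ

variable (M p : ℕ) [NeZero M] [hp : Fact p.Prime] (hpM : ¬ p ∣ M) (h5 : 5 ≤ p)
  (P : ValuationSubring Kb) (hP : P.LiesOverPrime p)
  (Z : IntermediateField ℚ Kb) [FiniteDimensional ℚ ↥Z] [IsDiscreteValuationRing ↥(s18q_A0 P Z)]
  (ϖ : ↥(s18q_A0 P Z)) (hϖ : Irreducible ϖ)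
  (e : ℕ) (ε : ↥Z) (he : 0 < e) (hε : ε ∈ s18q_A0 P Z) (hεinv : ε⁻¹ ∈ s18q_A0 P Z) (hε0 : ε ≠ 0)
  (hpe : (p : ↥Z) = ε * ((ϖ : ↥(s18q_A0 P Z)) : ↥Z) ^ e)
  (ℓ : ℕ) [hℓ : Fact ℓ.Prime] (hℓN : ¬ ℓ ∣ M * p)
  (ζ₀ : (↥Z)ˣ) (hζ₀ : IsPrimitiveRoot (ζ₀ : ↥Z) ℓ)
  (ζp : (↥Z)ˣ) (hζp : IsPrimitiveRoot (ζp : ↥Z) p)

include h5 hP he hε hεinv hε0 hpe hℓN hζ₀ in
set_option maxHeartbeats 1600000 in
/-- **(★) over `Z`, TAME CASE `p ∤ e`**, at the Gauss datum `s37r_G P Z ϖ hϖ`. -/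
theorem s44k_star_tame_inst (hp1 : ¬ p ∣ e)
    {x : JZero (M * p)} {f : s34m_F ↥Z (M * p)}
    (hf : s33d_IsKumGen p x (s18q_incl (M * p) Z f)) (a₀ : ℤ)
    (hx : heckeOperatorBar (M * p) ⟨ℓ, hℓ.out⟩ x = a₀ • x)
    (ha₀ : ¬ (p : ℤ) ∣ a₀ - ((ℓ : ℤ) + 1))
    (hQ4 : ∀ 𝔫 : Ideal (s34x_ring (s34x_infRing
        (s34m_VV (s37r_G P Z ϖ hϖ) (algebraMap ↥Z Kb) M p hp.out hpM))
        (s18_chart1 (L₀ := ↥Z) (s18g_jF (K := ↥Z) (M * p)))), 𝔫.IsMaximal →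
      s34x_const (s34x_infRing (s34m_VV (s37r_G P Z ϖ hϖ) (algebraMap ↥Z Kb) M p hp.out hpM))
        (s18_chart1 (L₀ := ↥Z) (s18g_jF (K := ↥Z) (M * p)))
        (((s37r_G P Z ϖ hϖ).ϖ : (s37r_G P Z ϖ hϖ).A) : ↥Z)
        (s34x_inf_const_mem (s34m_VV (s37r_G P Z ϖ hϖ) (algebraMap ↥Z Kb) M p hp.out hpM)
          (s37r_G P Z ϖ hϖ).A
          (s34c_const_mem_VV (s37r_G P Z ϖ hϖ) (algebraMap ↥Z Kb) M p hp.out hpM)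
          (s37r_G P Z ϖ hϖ).ϖ) ∈ 𝔫 →
      ∃ Φ : s34m_F ↥Z (M * p), Φ ≠ 0 ∧
        ∀ Q ∈ s18_chart1 (L₀ := ↥Z) (s18g_jF (K := ↥Z) (M * p)),
          s34f_through (s34x_infRing
            (s34m_VV (s37r_G P Z ϖ hϖ) (algebraMap ↥Z Kb) M p hp.out hpM))
            (s18_chart1 (L₀ := ↥Z) (s18g_jF (K := ↥Z) (M * p))) 𝔫 Q →
          Q.ord f = ((p : ℕ) : ℤ) * Q.ord Φ) :
    ∃ (Gg h : s34m_F ↥Z (M * p)) (a : ℤ), Gg ≠ 0 ∧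
      f = Gg ^ p * (s34m_unif (s37r_G P Z ϖ hϖ) (M * p) ^ a * h) ∧
      (∀ i, h ∈ s34m_VV (s37r_G P Z ϖ hϖ) (algebraMap ↥Z Kb) M p hp.out hpM i ∧
        h⁻¹ ∈ s34m_VV (s37r_G P Z ϖ hϖ) (algebraMap ↥Z Kb) M p hp.out hpM i) ∧
      ∀ Q ∈ s33t_nodeN M p hpM P Z ϖ hϖ, Q.ord h = 0 := by
  haveI : NumberField ↥Z := ⟨⟩
  haveI hchar₀ : CharP (IsLocalRing.ResidueField ↥(s18q_A0 P Z)) p := s37rl_charP P hP Z
  haveI hperf₀ : PerfectField (IsLocalRing.ResidueField ↥(s18q_A0 P Z)) :=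
    s37rl_perfectField P hP Z
  haveI : PerfectRing (IsLocalRing.ResidueField ↥(s18q_A0 P Z)) p := PerfectField.toPerfectRing p
  haveI : IsDiscreteValuationRing ↥(s37r_G P Z ϖ hϖ).A :=
    (inferInstance : IsDiscreteValuationRing ↥(s18q_A0 P Z))
  have hT : s18g_HT (IsLocalRing.ResidueField ↥(s18q_A0 P Z)) M := s18t_indep_j p M hpM _
  have hdegM : s18g_HDeg ↥Z M := fun n b hb hn =>
    s18g_exists_relation M (algebraMap ↥Z Kb) hn b hb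
  have hdeg : s34m_HDeg ↥Z M p := s34r_deg_HDeg (algebraMap ↥Z Kb) M p hp.out hpM
  have hπ : Function.Surjective (s37r_G P Z ϖ hϖ).π := IsLocalRing.residue_surjective
  have hperf : ∀ c : IsLocalRing.ResidueField ↥(s18q_A0 P Z), ∃ d, d ^ p = c :=
    fun c => surjective_frobenius _ p c
  exact s44k_star_tame M p hpM h5 Z (IsLocalRing.ResidueField ↥(s18q_A0 P Z)) (s37r_G P Z ϖ hϖ) hdeg
    hT hdegM hπ e ε he hε hεinv hε0 hpe hperf ℓ hℓN ζ₀ hζ₀ hp1 hf a₀ hx ha₀ hQ4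

include h5 hP he hε hεinv hε0 hpe hℓN hζ₀ hζp in
set_option maxHeartbeats 3200000 in
/-- **(★) over `Z`, WILD CASE**, at the Gauss datum `s37r_G P Z ϖ hϖ`; the break and the sub-criticality are
extracted from `(D2)` and the witness of `s44i_SubCrit`. -/
theorem s44k_star_wild_inst
    -- the wild automorphism
    (σ₀ : ↥Z ≃ₐ[ℚ] ↥Z)
    (hσA : ∀ a : ↥Z, a ∈ s18q_A0 P Z → (σ₀ : ↥Z ≃+* ↥Z) a ∈ s18q_A0 P Z)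
    (hσA' : ∀ a : ↥Z, a ∈ s18q_A0 P Z → (σ₀.symm : ↥Z ≃+* ↥Z) a ∈ s18q_A0 P Z)
    (hD2 : ∀ a : ↥Z, a ∈ s18q_A0 P Z → ∃ u ∈ s18q_A0 P Z, (σ₀ : ↥Z ≃+* ↥Z) u = u ∧
      ∃ z ∈ s18q_A0 P Z, a - u = ((ϖ : ↥(s18q_A0 P Z)) : ↥Z) * z)
    (hord : ((σ₀ : ↥Z ≃+* ↥Z)^[p]) ((ϖ : ↥(s18q_A0 P Z)) : ↥Z) = ((ϖ : ↥(s18q_A0 P Z)) : ↥Z))
    (hne : (σ₀ : ↥Z ≃+* ↥Z) ((ϖ : ↥(s18q_A0 P Z)) : ↥Z) ≠ ((ϖ : ↥(s18q_A0 P Z)) : ↥Z))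
    -- the two clauses of `s44i_SubCrit`
    (hcl : ∀ m : ℕ, ford_vQ P hp.out hP (algebraMap ↥Z Kb (((ϖ : ↥(s18q_A0 P Z)) : ↥Z) ^ m)) ≠
      (((1 : ℚ) / (p : ℚ) ^ 2 : ℚ) : WithTop ℚ))
    (g : ↥Z) (hg0 : g ≠ 0) (r : ℚ) (hr : ford_vQ P hp.out hP (algebraMap ↥Z Kb g) = (r : WithTop ℚ))
    (hnd : ∀ (m : ℤ) (s : ℚ),
      ford_vQ P hp.out hP (algebraMap ↥Z Kb (((ϖ : ↥(s18q_A0 P Z)) : ↥Z) ^ m)) = (s : WithTop ℚ) →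
        r ≠ (p : ℚ) * s)
    (hlt : ford_vQ P hp.out hP (algebraMap ↥Z Kb ((σ₀ : ↥Z ≃+* ↥Z) g / g - 1)) <
      (((1 : ℚ) / ((p : ℚ) - 1) : ℚ) : WithTop ℚ))
    -- the class and its Kummer generator
    {x : JZero (M * p)} {f : s34m_F ↥Z (M * p)}
    (hf : s33d_IsKumGen p x (s18q_incl (M * p) Z f))
    (hαx : s35c_alphaPush M p hp.out hpM x = 0) (hβx : s35c_betaPush M p hp.out hpM x = 0)
    (a₀ : ℤ) (hx : heckeOperatorBar (M * p) ⟨ℓ, hℓ.out⟩ x = a₀ • x)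
    (ha₀ : ¬ (p : ℤ) ∣ a₀ - ((ℓ : ℤ) + 1))
    -- [RAT] = exact (Q4), both charts
    (hQ4 : ∀ 𝔫 : Ideal (s34x_ring (s34x_infRing
        (s34m_VV (s37r_G P Z ϖ hϖ) (algebraMap ↥Z Kb) M p hp.out hpM))
        (s18_chart1 (L₀ := ↥Z) (s18g_jF (K := ↥Z) (M * p)))), 𝔫.IsMaximal →
      s34x_const (s34x_infRing (s34m_VV (s37r_G P Z ϖ hϖ) (algebraMap ↥Z Kb) M p hp.out hpM))
        (s18_chart1 (L₀ := ↥Z) (s18g_jF (K := ↥Z) (M * p)))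
        (((s37r_G P Z ϖ hϖ).ϖ : (s37r_G P Z ϖ hϖ).A) : ↥Z)
        (s34x_inf_const_mem (s34m_VV (s37r_G P Z ϖ hϖ) (algebraMap ↥Z Kb) M p hp.out hpM)
          (s37r_G P Z ϖ hϖ).A
          (s34c_const_mem_VV (s37r_G P Z ϖ hϖ) (algebraMap ↥Z Kb) M p hp.out hpM)
          (s37r_G P Z ϖ hϖ).ϖ) ∈ 𝔫 →
      ∃ Φ : s34m_F ↥Z (M * p), Φ ≠ 0 ∧
        ∀ Q ∈ s18_chart1 (L₀ := ↥Z) (s18g_jF (K := ↥Z) (M * p)),
          s34f_through (s34x_infRing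
            (s34m_VV (s37r_G P Z ϖ hϖ) (algebraMap ↥Z Kb) M p hp.out hpM))
            (s18_chart1 (L₀ := ↥Z) (s18g_jF (K := ↥Z) (M * p))) 𝔫 Q →
          Q.ord f = ((p : ℕ) : ℤ) * Q.ord Φ)
    (hQ4' : ∀ 𝔫 : Ideal (s34x_ring (s34x_infRing
        (s34m_VV (s37r_G P Z ϖ hϖ) (algebraMap ↥Z Kb) M p hp.out hpM))
        (s18_chart2 (L₀ := ↥Z) (s18g_jF (K := ↥Z) (M * p)))), 𝔫.IsMaximal →
      s34x_const (s34x_infRing (s34m_VV (s37r_G P Z ϖ hϖ) (algebraMap ↥Z Kb) M p hp.out hpM))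
        (s18_chart2 (L₀ := ↥Z) (s18g_jF (K := ↥Z) (M * p)))
        (((s37r_G P Z ϖ hϖ).ϖ : (s37r_G P Z ϖ hϖ).A) : ↥Z)
        (s34x_inf_const_mem (s34m_VV (s37r_G P Z ϖ hϖ) (algebraMap ↥Z Kb) M p hp.out hpM)
          (s37r_G P Z ϖ hϖ).A
          (s34c_const_mem_VV (s37r_G P Z ϖ hϖ) (algebraMap ↥Z Kb) M p hp.out hpM)
          (s37r_G P Z ϖ hϖ).ϖ) ∈ 𝔫 →
      ∃ Φ : s34m_F ↥Z (M * p), Φ ≠ 0 ∧
        ∀ Q ∈ s18_chart2 (L₀ := ↥Z) (s18g_jF (K := ↥Z) (M * p)),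
          s34f_through (s34x_infRing
            (s34m_VV (s37r_G P Z ϖ hϖ) (algebraMap ↥Z Kb) M p hp.out hpM))
            (s18_chart2 (L₀ := ↥Z) (s18g_jF (K := ↥Z) (M * p))) 𝔫 Q →
          Q.ord f = ((p : ℕ) : ℤ) * Q.ord Φ) :
    ∃ (Gg h : s34m_F ↥Z (M * p)) (a : ℤ), Gg ≠ 0 ∧
      f = Gg ^ p * (s34m_unif (s37r_G P Z ϖ hϖ) (M * p) ^ a * h) ∧
      (∀ i, h ∈ s34m_VV (s37r_G P Z ϖ hϖ) (algebraMap ↥Z Kb) M p hp.out hpM i ∧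
        h⁻¹ ∈ s34m_VV (s37r_G P Z ϖ hϖ) (algebraMap ↥Z Kb) M p hp.out hpM i) ∧
      ∀ Q ∈ s33t_nodeN M p hpM P Z ϖ hϖ, Q.ord h = 0 := by
  haveI : NumberField ↥Z := ⟨⟩
  haveI hchar₀ : CharP (IsLocalRing.ResidueField ↥(s18q_A0 P Z)) p := s37rl_charP P hP Z
  haveI hperf₀ : PerfectField (IsLocalRing.ResidueField ↥(s18q_A0 P Z)) :=
    s37rl_perfectField P hP Z
  haveI : PerfectRing (IsLocalRing.ResidueField ↥(s18q_A0 P Z)) p := PerfectField.toPerfectRing p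
  haveI : IsDiscreteValuationRing ↥(s37r_G P Z ϖ hϖ).A :=
    (inferInstance : IsDiscreteValuationRing ↥(s18q_A0 P Z))
  have hT : s18g_HT (IsLocalRing.ResidueField ↥(s18q_A0 P Z)) M := s18t_indep_j p M hpM _
  have hdegM : s18g_HDeg ↥Z M := fun n b hb hn =>
    s18g_exists_relation M (algebraMap ↥Z Kb) hn b hb
  have hdeg : s34m_HDeg ↥Z M p := s34r_deg_HDeg (algebraMap ↥Z Kb) M p hp.out hpM
  have hπ : Function.Surjective (s37r_G P Z ϖ hϖ).π := IsLocalRing.residue_surjective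
  have hperf : ∀ c : IsLocalRing.ResidueField ↥(s18q_A0 P Z), ∃ d, d ^ p = c :=
    fun c => surjective_frobenius _ p c
  have hAP : ∀ y : ↥Z, y ∈ (s37r_G P Z ϖ hϖ).A ↔ algebraMap ↥Z Kb y ∈ P := fun _ => Iff.rfl
  -- the break
  obtain ⟨B, cτ, hB, hcτ0, hcτ, hσB⟩ := s44k_break (s37r_G P Z ϖ hϖ) p (σ₀ : ↥Z ≃+* ↥Z) hσA hσA'
    hD2 hord hne
  -- sub-criticality
  have hsub : (p - 1) * B < e := s44k_subcrit_of_witness (s37r_G P Z ϖ hϖ) p P hP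
    (algebraMap ↥Z Kb) hAP e ε he hε hεinv hε0 hpe (σ₀ : ↥Z ≃+* ↥Z) hσA hσA' B hB cτ hcτ0 hcτ hσB
    g hg0 r hr hnd hlt
  have hp2 : ¬ p ^ 2 ∣ e := s44k_not_sq_dvd (s37r_G P Z ϖ hϖ) p P hP (algebraMap ↥Z Kb) hAP e ε he
    hε hεinv hε0 hpe hcl
  exact s44k_star_wild M p hpM h5 Z (IsLocalRing.ResidueField ↥(s18q_A0 P Z)) (s37r_G P Z ϖ hϖ) hdeg
    hT hdegM hπ e ε he hε hεinv hε0 hpe hperf ℓ hℓN ζ₀ hζ₀ ζp hζp hp2 σ₀ hσA hσA' B hB hsub hσB cτ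
    hcτ hcτ0 hf hαx hβx a₀ hx ha₀ hQ4 hQ4'

end Fermat.Agent.Lib.S44
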