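/-
S44 programme M-AT-P, leaf [L3] = (★), family K (helper7): **THE TWO FIELD STATEMENTS OF helper8's WIRING**
(`EStar.lean`): `s44e_FieldWild`, `s44e_FieldTame` are `s44k_star_wild`, `s44k_star_tame` (`KStar.lean`) at the Gauss
datum `s37r_G P Z ϖ hϖ`.  Hence **`s44k_starMu : s44e_StarMu`** = `s44i_Star` with `μ_p ⊆ L`, UNCONDITIONALLY.
-/
import Fermat.Agent.Lib.S44.EStar
import Fermat.Agent.Lib.S44.KStarInst

set_option autoImplicit false
set_option linter.style.haveILetI false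
set_option linter.unusedSectionVars false
set_option synthInstance.maxHeartbeats 400000

noncomputable section

namespace Fermat.Agent.Lib.S44

open AlgebraicCurve ModularCurve HahnSeries Fermat.Agent.Lib.FF Fermat.Agent.Lib.S18
  Fermat.Agent.Lib.S33 Fermat.Agent.Lib.S34 Fermat.Agent.Lib.S35 Fermat.Agent.Lib.S36
  Fermat.Agent.Lib.S37 Fermat.Agent.Lib.Frey

local notation "Kb" => AlgebraicClosure ℚ

set_option maxHeartbeats 1600000 in
/-- **(★) over a fixed field, TAME case.** -/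
theorem s44k_fieldTame : s44e_FieldTame := by
  intro M _ p hp h5 hpM _ P hP Z _ _ ϖ hϖ e ε he hε hεinv hε0 hpe hp1 _ _ ℓ hℓN ζℓ hζℓ x _ _ _ a₀ hx
    ha₀ f hf hQ4 _
  haveI : Fact (ℓ : ℕ).Prime := ⟨ℓ.2⟩
  exact s44k_star_tame_inst M p hpM h5 P hP Z ϖ hϖ e ε he hε hεinv hε0 hpe (ℓ : ℕ) hℓN ζℓ hζℓ hp1 hf
    a₀ hx ha₀ hQ4

set_option maxHeartbeats 3200000 in
/-- **(★) over a fixed field, WILD case.** -/
theorem s44k_fieldWild : s44e_FieldWild := by
  intro M _ p hp h5 hpM _ P hP Z _ _ ϖ hϖ e ε he hε hεinv hε0 hpe hp2 ζp hζp ℓ hℓN ζℓ hζℓ x _ hαx hβx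
    a₀ hx ha₀ f hf hQ4 hQ4' σ₀ hσA hσA' B hB hsub hσB cτ hcτ hcτ0
  haveI : Fact (ℓ : ℕ).Prime := ⟨ℓ.2⟩
  haveI : NumberField ↥Z := ⟨⟩
  haveI hchar₀ : CharP (IsLocalRing.ResidueField ↥(s18q_A0 P Z)) p := s37rl_charP P hP Z
  haveI hperf₀ : PerfectField (IsLocalRing.ResidueField ↥(s18q_A0 P Z)) :=
    s37rl_perfectField P hP Z
  haveI : PerfectRing (IsLocalRing.ResidueField ↥(s18q_A0 P Z)) p := PerfectField.toPerfectRing p
  haveI : IsDiscreteValuationRing ↥(s37r_G P Z ϖ hϖ).A :=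
    (inferInstance : IsDiscreteValuationRing ↥(s18q_A0 P Z))
  have hT : s18g_HT (IsLocalRing.ResidueField ↥(s18q_A0 P Z)) M := s18t_indep_j p M hpM _
  have hdegM : s18g_HDeg ↥Z M := fun n b hb hn =>
    s18g_exists_relation M (algebraMap ↥Z Kb) hn b hb
  have hdeg : s34m_HDeg ↥Z M p := s34r_deg_HDeg (algebraMap ↥Z Kb) M p hp.out hpM
  have hπ : Function.Surjective (s37r_G P Z ϖ hϖ).π := IsLocalRing.residue_surjective
  have hperf : ∀ c : IsLocalRing.ResidueField ↥(s18q_A0 P Z), ∃ d, d ^ p = c :=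
    fun c => surjective_frobenius _ p c
  exact s44k_star_wild M p hpM h5 Z (IsLocalRing.ResidueField ↥(s18q_A0 P Z)) (s37r_G P Z ϖ hϖ) hdeg
    hT hdegM hπ e ε he hε hεinv hε0 hpe hperf (ℓ : ℕ) hℓN ζℓ hζℓ ζp hζp hp2 σ₀ hσA hσA' B hB hsub hσB
    cτ hcτ hcτ0 hf hαx hβx a₀ hx ha₀ hQ4 hQ4'

/-- **[L3] = (★) with `μ_p ⊆ L`, unconditionally.** -/
theorem s44k_starMu : s44e_StarMu := s44e_star s44k_fieldWild s44k_fieldTame

/-- **LEAF [L3] = (★) of the interface, unconditionally.** -/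
theorem s44k_star : s44i_Star := s44e_star_iface s44k_fieldWild s44k_fieldTame

end Fermat.Agent.Lib.S44
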