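/-
M-AT-P programme (S44), leaf [L5] (helper1): **(M°) FOR TORIC POINTS.**

`s44m_mfin : s44i_MFin`: a toric `p`-torsion point `x` of `J₀(M p)` (`5 ≤ p ∤ M`) with
`α_* x = β_* x = 0` is of `μ_p`-type at `P`: every `σ` in the inertia group acts on `x` through the mod-`p`
cyclotomic character.

Proof = the proof of `s33t_propM_of` (Lib/S33/TPFinal.lean) with [UNIP-J] replaced by the hypothesis
`s44i_Toric` and the two push-forwards equal to `0 ∈ s33_ordKer`; the Σ-datum is the landed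
`s33t_ssDatum_five` / `s33t_ssPack_five`.
-/
import Fermat.Agent.Lib.S44.Iface
import Fermat.Agent.Lib.S33.TPTop

set_option autoImplicit false
set_option linter.style.haveILetI false
set_option linter.unusedSectionVars false
set_option synthInstance.maxHeartbeats 400000

namespace Fermat.Agent.Lib.S44

open ModularCurve HahnSeries AlgebraicCurve Fermat.Agent.Lib.S18 Fermat.Agent.Lib.S28
  Fermat.Agent.Lib.S29 Fermat.Agent.Lib.S37 Fermat.Agent.Lib.FF Fermat.Agent.Lib.S34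
  Fermat.Agent.Lib.S35 Fermat.Agent.Lib.S33

noncomputable section

local notation "Kb" => AlgebraicClosure ℚ

section Core

variable (M p : ℕ) [NeZero M] [hp : Fact p.Prime]

/-- **(M°) for a toric point**, from [SS-pack]. -/
theorem s44m_mfin_of_pack (hp2 : p ≠ 2) (hM : s18_GoodLevel p M) (P : ValuationSubring Kb)
    (hP : P.LiesOverPrime p) (N : s33t_NodeFam M p P) (hS : s33t_SSPack M p hM.1 P N)
    (x : JZero (M * p))
    (hα0 : s35c_alphaPush M p hp.out hM.1 x = 0) (hβ0 : s35c_betaPush M p hp.out hM.1 x = 0)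
    (hU : ∃ Lx : IntermediateField ℚ Kb, FiniteDimensional ℚ ↥Lx ∧
      ∀ (L₀ : IntermediateField ℚ Kb) [FiniteDimensional ℚ ↥L₀] [Normal ℚ ↥L₀]
        [IsDiscreteValuationRing ↥(s18q_A0 P L₀)] (ϖ : ↥(s18q_A0 P L₀)) (hϖ : Irreducible ϖ),
        Lx ≤ L₀ →
        ∃ h : s34m_F ↥L₀ (M * p),
          s33d_IsKumGen p x (s18q_incl (M * p) L₀ h) ∧
          (∃ y : s34m_F ↥L₀ (M * p), y ∈ s34m_Vinf (s37r_G P L₀ ϖ hϖ) (M * p) ∧
            y ∈ s34m_Vzero (s37r_G P L₀ ϖ hϖ) (algebraMap ↥L₀ Kb) M p hp.out hM.1 ∧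
            h - 1 = s34m_unif (s37r_G P L₀ ϖ hϖ) (M * p) * y) ∧
          ∀ Q ∈ N L₀ ϖ hϖ, Q.ord h = 0) :
    s33_IsMuType (M * p) p P x := by
  intro σ hσ a ha
  have hpM : ¬ p ∣ M := hM.1
  haveI : NeZero p := ⟨hp.out.ne_zero⟩
  -- the push-forwards are in the kernel of reduction
  have hαK : s35c_alphaPush M p hp.out hpM x ∈ s33_ordKer M p hp.out 1 P := by
    rw [hα0]; exact (s33_ordKer M p hp.out 1 P).zero_mem
  have hβK : s35c_betaPush M p hp.out hpM x ∈ s33_ordKer M p hp.out 1 P := by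
    rw [hβ0]; exact (s33_ordKer M p hp.out 1 P).zero_mem
  -- the field
  obtain ⟨Lx, hLxfd, hLx⟩ := hU
  obtain ⟨Lss, hLssfd, hLss⟩ := hS
  obtain ⟨Lbig, hLbigfd, hLbig⟩ := s33d_exists_bigField M p
  obtain ⟨ζ, hζ⟩ := HasEnoughRootsOfUnity.exists_primitiveRoot Kb p
  haveI := hLxfd
  haveI := hLssfd
  haveI := hLbigfd
  haveI : FiniteDimensional ℚ ↥(IntermediateField.adjoin ℚ {ζ}) :=
    IntermediateField.adjoin.finiteDimensional ((hζ.isIntegral hp.out.pos).tower_top (A := ℚ))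
  haveI : FiniteDimensional ℚ ↥(Lx ⊔ Lss) := IntermediateField.finiteDimensional_sup _ _
  haveI : FiniteDimensional ℚ ↥(Lx ⊔ Lss ⊔ Lbig) := IntermediateField.finiteDimensional_sup _ _
  haveI : FiniteDimensional ℚ ↥(Lx ⊔ Lss ⊔ Lbig ⊔ IntermediateField.adjoin ℚ {ζ}) :=
    IntermediateField.finiteDimensional_sup _ _
  obtain ⟨L₀, hle, hfd, hnorm⟩ :=
    s33t_exists_normal_ge (Lx ⊔ Lss ⊔ Lbig ⊔ IntermediateField.adjoin ℚ {ζ})
  haveI := hfd
  haveI := hnorm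
  have hLxle : Lx ≤ L₀ := (le_sup_left.trans (le_sup_left.trans le_sup_left)).trans hle
  have hLssle : Lss ≤ L₀ := (le_sup_right.trans (le_sup_left.trans le_sup_left)).trans hle
  have hLbigle : Lbig ≤ L₀ := (le_sup_right.trans le_sup_left).trans hle
  have hζL : ζ ∈ L₀ :=
    hle (le_sup_right (a := Lx ⊔ Lss ⊔ Lbig)
      (IntermediateField.subset_adjoin ℚ {ζ} (Set.mem_singleton ζ)))
  have hbig : s33d_BigField M p L₀ := s33d_bigField_mono M p hLbigle hLbig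
  -- the datum over `L₀`
  haveI : NumberField ↥L₀ := ⟨⟩
  haveI hdvr : IsDiscreteValuationRing ↥(s18q_A0 P L₀) := s18q_A0_dvr P L₀ hP
  obtain ⟨ϖ, hϖ⟩ := IsDiscreteValuationRing.exists_irreducible ↥(s18q_A0 P L₀)
  haveI hchar₀ : CharP (IsLocalRing.ResidueField ↥(s18q_A0 P L₀)) p := s37rl_charP P hP L₀
  haveI hperf₀ : PerfectField (IsLocalRing.ResidueField ↥(s18q_A0 P L₀)) :=
    s37rl_perfectField P hP L₀
  haveI : PerfectRing (IsLocalRing.ResidueField ↥(s18q_A0 P L₀)) p := PerfectField.toPerfectRing p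
  have hT : s18g_HT (IsLocalRing.ResidueField ↥(s18q_A0 P L₀)) M := s18t_indep_j p M hpM _
  have hdegM : s18g_HDeg ↥L₀ M := fun n b hb hn =>
    s18g_exists_relation M (algebraMap ↥L₀ Kb) hn b hb
  have hdeg : s34m_HDeg ↥L₀ M p := s34r_deg_HDeg (algebraMap ↥L₀ Kb) M p hp.out hpM
  have hπ : Function.Surjective (s37r_G P L₀ ϖ hϖ).π := IsLocalRing.residue_surjective
  obtain ⟨e, ε, he, hε, hεinv, hε0, hpe⟩ := s33t_exists_e P L₀ hp.out hP ϖ hϖ
  have hperf : ∀ c : IsLocalRing.ResidueField ↥(s18q_A0 P L₀), ∃ d, d ^ p = c :=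
    fun c => surjective_frobenius _ p c
  obtain ⟨ζ₀, hζ₀, -⟩ := s33t_exists_zeta L₀ hp.out ζ hζ hζL
  -- the toric datum
  obtain ⟨h, hgen, ⟨y, hyi, hyz, ey⟩, hnf⟩ := hLx L₀ ϖ hϖ hLxle
  -- [SS-pack]
  obtain ⟨ι, k, i1, i2, Z, hCi, hCz, hZN, hSC, hNs⟩ :=
    hLss L₀ ϖ hϖ hdeg hT hdegM hπ e ε he hε hεinv hε0 hpe hperf hLssle
  have hgen' : s33t_IsKumGen (M * p) p x (s18q_incl (M * p) L₀ h) :=
    (s33t_isKumGen_iff_desc (M * p) p x _).mpr hgen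
  have hh0 : h ≠ 0 := (s33t_isKum_of_isKumGen (M * p) p L₀ x h hgen').1
  -- the hypotheses of the core
  have hσI := s33t_inertiaAut_restrict P L₀ ϖ hϖ σ hσ
  have hζa : σ.restrictNormal ↥L₀ (ζ₀ : ↥L₀) = (ζ₀ : ↥L₀) ^ a :=
    s33t_restrict_zeta L₀ σ a ha (ζ₀ : ↥L₀) hζ₀.pow_eq_one
  have hnfZ : s33z_NF Z h := ⟨hh0, fun Q hQ => hnf Q (hZN ▸ hQ)⟩
  have hcong : s33z_Cong Z 1 h := by
    constructor
    · refine ⟨y, ?_, ?_⟩
      · show y ∈ Z.Ci.O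
        rw [hCi]; exact hyi
      · rw [pow_one]; exact ey
    · refine ⟨y, ?_, ?_⟩
      · show y ∈ Z.Cz.O
        rw [hCz]; exact hyz
      · rw [pow_one]; exact ey
  -- the level-`M` inputs
  have hgα : s33d_IsKumGen p (s35c_alphaPush M p hp.out hpM x)
      (s18q_incl M L₀ (s33t_nuAlpha (algebraMap ↥L₀ Kb) M p hpM ζ₀ hζ₀ h)) :=
    (s33t_isKumGen_iff_desc M p _ _).mp
      (s33t_isKumGen_nuAlpha M p hpM (algebraMap ↥L₀ Kb) ζ₀ hζ₀ x h hgen')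
  have hgβ : s33d_IsKumGen p (s35c_betaPush M p hp.out hpM x)
      (s18q_incl M L₀ (s33t_nuBeta (algebraMap ↥L₀ Kb) M p hpM ζ₀ hζ₀ h)) :=
    (s33t_isKumGen_iff_desc M p _ _).mp
      (s33t_isKumGen_nuBeta M p hpM (algebraMap ↥L₀ Kb) ζ₀ hζ₀ x h hgen')
  have hα := s33d_ord_crit P M hP L₀ ϖ hϖ hM hp2 hbig ζ₀ hζ₀ hT hdegM hπ e ε he hε hεinv hε0 hpe
    hperf _ hαK _ hgα
  have hβ := s33d_ord_crit P M hP L₀ ϖ hϖ hM hp2 hbig ζ₀ hζ₀ hT hdegM hπ e ε he hε hεinv hε0 hpe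
    hperf _ hβK _ hgβ
  exact s33t_M_core L₀ (s37r_G P L₀ ϖ hϖ) M p hpM hdeg hT hdegM hπ e ε he hε hεinv hε0 hpe hperf
    ζ₀ hζ₀ Z hCi hCz hSC σ hσI (hNs _ hσI) a hζa x h hgen' hcong hnfZ hα hβ

end Core

/-- **[L5]**: (M°) for toric points. -/
theorem s44m_mfin : s44i_MFin := by
  intro M _ p hp h5 hpM P hP x _ hα0 hβ0 ht
  have hM : s18_GoodLevel p M := ⟨hpM, Or.inl h5⟩
  exact s44m_mfin_of_pack M p (by omega) hM P hP (s33t_nodeN M p hpM P)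
    (s33t_ssPack_five M p hM.1 P h5 (s33t_ssDatum_five M p hM.1 P h5)) x hα0 hβ0 ht

end

end Fermat.Agent.Lib.S44
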