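/-
M-AT-P programme (S44), leaves [L7a]/[L7b], abstract part (helper5): pure group theory / linear
algebra over `𝔽_p`.

Setting: a group `G` acting on two `𝔽_p`-spaces `Y` (a piece of `J₀(N)[p]`) and `V` (`= E[p]`), a
character `χ : G → 𝔽_pˣ` and a function `s : G → 𝔽_p` such that EVERY `g` satisfies the same quadratic
relation on both: `g + χ(g) g⁻¹ = s(g)`.

* `s44r_exists_fixed`  : a group acting on a finite non-zero `𝔽_p`-space through elements with
                         `(g - 1)² = 0` has a non-zero fixed vector (`p`-group fixed point count);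
* `s44r_fixedNe_abs`   : a subgroup `H` acting trivially on `V ≠ 0` and with `χ|_H = 1` has a non-zero
                         fixed vector in `Y ≠ 0` (`Y` finite);
* `s44r_endgame_abs`   : if `V` is irreducible of order `p²`, `τ` acts on `Y ≠ 0` through the scalar
                         `χ(τ) ≠ 1` and `(τ - 1) V ⊆ T` for a proper subgroup `T < V`: contradiction.
-/
import Mathlib

set_option autoImplicit false
set_option linter.unusedSectionVars false
set_option linter.style.haveILetI false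

namespace Fermat.Agent.Lib.S44

/-- `(1 + n) ^ k = 1 + k • n` when `n * n = 0`. -/
theorem s44r_one_add_pow {R : Type*} [Ring R] (n : R) (hn : n * n = 0) (k : ℕ) :
    (1 + n) ^ k = 1 + k • n := by
  induction k with
  | zero => simp
  | succ k ih =>
    rw [pow_succ, ih, mul_add, mul_one, add_mul, one_mul, smul_mul_assoc, hn, smul_zero, add_zero,
      succ_nsmul]
    abel

section Abs

variable {p : ℕ} [hp : Fact p.Prime]

/-- **Unipotent fixed point lemma.** -/
theorem s44r_exists_fixed {D : Type*} [Group D] {X : Type*} [AddCommGroup X] [Module (ZMod p) X]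
    [Finite X] [Nontrivial X] (ρ : D →* Module.End (ZMod p) X)
    (hunip : ∀ d : D, (ρ d - 1) * (ρ d - 1) = 0) :
    ∃ x : X, x ≠ 0 ∧ ∀ d : D, ρ d x = x := by
  classical
  set ρ' : D →* (Module.End (ZMod p) X)ˣ := ρ.toHomUnits with hρ'
  have hρ'coe : ∀ d, ((ρ' d : (Module.End (ZMod p) X)ˣ) : Module.End (ZMod p) X) = ρ d :=
    fun d => rfl
  have hpow : ∀ d : D, ρ d ^ p = 1 := by
    intro d
    have h1 : ρ d = 1 + (ρ d - 1) := by abel
    rw [h1, s44r_one_add_pow _ (hunip d) p]
    have : p • (ρ d - 1) = 0 := by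
      rw [← Nat.cast_smul_eq_nsmul (ZMod p), CharP.cast_eq_zero, zero_smul]
    rw [this, add_zero]
  have hQp : IsPGroup p ρ'.range := by
    rintro ⟨q, d, rfl⟩
    refine ⟨1, ?_⟩
    apply Subtype.ext
    apply Units.ext
    rw [pow_one]
    show ((ρ' d) ^ p : (Module.End (ZMod p) X)ˣ).1 = 1
    rw [Units.val_pow_eq_pow_val, hρ'coe]
    exact hpow d
  -- `p ∣ card X`
  obtain ⟨x₀, hx₀⟩ := exists_ne (0 : X)
  have hpx : p • x₀ = 0 := by
    rw [← Nat.cast_smul_eq_nsmul (ZMod p), CharP.cast_eq_zero, zero_smul]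
  have hdvd : p ∣ Nat.card X := by
    have := addOrderOf_dvd_natCard x₀
    rwa [addOrderOf_eq_prime hpx hx₀] at this
  have h0 : (0 : X) ∈ MulAction.fixedPoints ρ'.range X := by
    intro q
    show ((q : (Module.End (ZMod p) X)ˣ) : Module.End (ZMod p) X) 0 = 0
    exact map_zero _
  obtain ⟨b, hb, hb0⟩ := hQp.exists_fixed_point_of_prime_dvd_card_of_fixed_point X hdvd h0
  refine ⟨b, fun h => hb0 h.symm, fun d => ?_⟩
  exact hb ⟨ρ' d, d, rfl⟩

end Abs

section Rep

variable (p : ℕ) [hp : Fact p.Prime] (G : Type*) [Group G] (X : Type*) [AddCommGroup X]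
  [DistribMulAction G X] [Module (ZMod p) X]

/-- a distributive action on an `𝔽_p`-space, as a representation. -/
def s44r_rho : G →* Module.End (ZMod p) X where
  toFun g := AddMonoidHom.toZModLinearMap p (DistribSMul.toAddMonoidHom X g)
  map_one' := by
    ext x
    simp
  map_mul' g h := by
    ext x
    simp [mul_smul]

variable {p G X}

@[simp] theorem s44r_rho_apply (g : G) (x : X) : s44r_rho p G X g x = g • x := rfl

/-- the action commutes with the `𝔽_p`-scalars. -/
theorem s44r_smul_zmod (g : G) (c : ZMod p) (x : X) : g • (c • x) = c • g • x :=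
  (s44r_rho p G X g).map_smul c x

/-- the relation with `χ = 1`, `s = 2` makes `g` unipotent. -/
theorem s44r_unip_of_rel (g : G) (h1 : ∀ x : X, g • x + g⁻¹ • x = (2 : ZMod p) • x) :
    (s44r_rho p G X g - 1) * (s44r_rho p G X g - 1) = 0 := by
  ext x
  have h2 := h1 (g • x)
  rw [inv_smul_smul] at h2
  simp only [Module.End.mul_apply, LinearMap.sub_apply, s44r_rho_apply, Module.End.one_apply,
    LinearMap.zero_apply, smul_sub]
  have h3 : g • g • x = (2 : ZMod p) • g • x - x := by rw [← h2]; abel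
  rw [h3, two_smul]
  abel

end Rep

section Main

variable {p : ℕ} [hp : Fact p.Prime] {G : Type*} [Group G]
  {Y : Type*} [AddCommGroup Y] [DistribMulAction G Y] [Module (ZMod p) Y]
  {V : Type*} [AddCommGroup V] [DistribMulAction G V] [Module (ZMod p) V]
  (χ : G →* (ZMod p)ˣ) (s : G → ZMod p)
  (hY : ∀ (g : G) (y : Y), g • y + (χ g : ZMod p) • g⁻¹ • y = s g • y)
  (hV : ∀ (g : G) (v : V), g • v + (χ g : ZMod p) • g⁻¹ • v = s g • v)

include hV in
/-- an element acting trivially on `V ≠ 0` with `χ = 1` has `s = 2`. -/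
theorem s44r_s_eq_two [Nontrivial V] (g : G) (hg : ∀ v : V, g • v = v) (hχ : χ g = 1) :
    s g = 2 := by
  obtain ⟨v, hv⟩ := exists_ne (0 : V)
  have h1 := hV g v
  have h2 : g⁻¹ • v = v := by rw [inv_smul_eq_iff, hg]
  rw [hg, h2, hχ, Units.val_one, one_smul, ← two_smul (ZMod p) v] at h1
  have h3 : ((2 : ZMod p) - s g) • v = 0 := by rw [sub_smul, h1, sub_self]
  rcases smul_eq_zero.mp h3 with h4 | h4
  · exact (sub_eq_zero.mp h4).symm
  · exact absurd h4 hv

include hY hV in
/-- **[L7a], abstract form.** -/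
theorem s44r_fixedNe_abs [Finite Y] [Nontrivial Y] [Nontrivial V] (H : Subgroup G)
    (hHV : ∀ h ∈ H, ∀ v : V, h • v = v) (hHχ : ∀ h ∈ H, χ h = 1) :
    ∃ y : Y, y ≠ 0 ∧ ∀ h ∈ H, h • y = y := by
  have hunip : ∀ h : H, (((s44r_rho p G Y).comp H.subtype) h - 1) *
      (((s44r_rho p G Y).comp H.subtype) h - 1) = 0 := by
    intro h
    refine s44r_unip_of_rel (h : G) fun y => ?_
    have h1 := hY (h : G) y
    rw [hHχ h h.2, Units.val_one, one_smul,
      s44r_s_eq_two χ s hV (h : G) (hHV h h.2) (hHχ h h.2)] at h1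
    exact h1
  obtain ⟨y, hy0, hy⟩ := s44r_exists_fixed ((s44r_rho p G Y).comp H.subtype) hunip
  exact ⟨y, hy0, fun h hh => hy ⟨h, hh⟩⟩

include hY hV in
/-- **[L7b], abstract form.** -/
theorem s44r_endgame_abs [Nontrivial Y] [Finite V]
    (hirr : ∀ N : Submodule (ZMod p) V, (∀ (g : G), ∀ x ∈ N, g • x ∈ N) → N = ⊥ ∨ N = ⊤)
    (hcard : Nat.card V = p ^ 2)
    (τ : G) (hχτ : (χ τ : ZMod p) ≠ 1) (hτY : ∀ y : Y, τ • y = (χ τ : ZMod p) • y)
    (T : AddSubgroup V) (hT : T ≠ ⊤) (hτT : ∀ v : V, τ • v - v ∈ T) : False := by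
  classical
  have hp2 : 2 ≤ p := hp.out.two_le
  have hVnt : Nontrivial V := by
    rw [← Finite.one_lt_card_iff_nontrivial, hcard]
    calc 1 < 2 ^ 2 := by norm_num
      _ ≤ p ^ 2 := Nat.pow_le_pow_left hp2 2
  -- the normal subgroup `D`
  let D : Subgroup G :=
    { carrier := {d | (∀ y : Y, d • y = y) ∧ χ d = 1}
      one_mem' := ⟨fun y => one_smul _ y, map_one χ⟩
      mul_mem' := fun {a b} ha hb =>
        ⟨fun y => by rw [mul_smul, hb.1, ha.1], by rw [map_mul, ha.2, hb.2, one_mul]⟩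
      inv_mem' := fun {a} ha =>
        ⟨fun y => by rw [inv_smul_eq_iff, ha.1], by rw [map_inv, ha.2, inv_one]⟩ }
  have hDmem : ∀ d : G, d ∈ D ↔ (∀ y : Y, d • y = y) ∧ χ d = 1 := fun d => Iff.rfl
  have hDconj : ∀ (g d : G), d ∈ D → g⁻¹ * d * g ∈ D := by
    intro g d hd
    refine ⟨fun y => ?_, ?_⟩
    · rw [mul_smul, mul_smul, hd.1, inv_smul_smul]
    · rw [map_mul, map_mul, hd.2, mul_one, map_inv, inv_mul_cancel]
  -- `s = 2` on `D`, hence `D` acts unipotently on `V`
  have hsD : ∀ d ∈ D, s d = 2 := by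
    intro d hd
    obtain ⟨y, hy⟩ := exists_ne (0 : Y)
    have h1 := hY d y
    have h2 : d⁻¹ • y = y := by rw [inv_smul_eq_iff, hd.1]
    rw [hd.1, h2, hd.2, Units.val_one, one_smul, ← two_smul (ZMod p) y] at h1
    have h3 : ((2 : ZMod p) - s d) • y = 0 := by rw [sub_smul, h1, sub_self]
    rcases smul_eq_zero.mp h3 with h4 | h4
    · exact (sub_eq_zero.mp h4).symm
    · exact absurd h4 hy
  have hunip : ∀ d : D, (((s44r_rho p G V).comp D.subtype) d - 1) *
      (((s44r_rho p G V).comp D.subtype) d - 1) = 0 := by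
    intro d
    refine s44r_unip_of_rel (d : G) fun v => ?_
    have h1 := hV (d : G) v
    rw [d.2.2, Units.val_one, one_smul, hsD d d.2] at h1
    exact h1
  obtain ⟨x, hx0, hx⟩ := s44r_exists_fixed ((s44r_rho p G V).comp D.subtype) hunip
  -- the fixed space of `D` is `G`-stable, hence everything
  let N : Submodule (ZMod p) V :=
    { carrier := {v | ∀ d ∈ D, d • v = v}
      zero_mem' := fun d _ => smul_zero d
      add_mem' := fun {a b} ha hb d hd => by rw [smul_add, ha d hd, hb d hd]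
      smul_mem' := fun c v hv d hd => by rw [s44r_smul_zmod, hv d hd] }
  have hNstab : ∀ (g : G), ∀ v ∈ N, g • v ∈ N := by
    intro g v hv d hd
    have h1 := hv (g⁻¹ * d * g) (hDconj g d hd)
    rw [mul_smul, mul_smul, inv_smul_eq_iff] at h1
    exact h1
  have hNtop : N = ⊤ := by
    rcases hirr N hNstab with h | h
    · exfalso
      have hxN : x ∈ N := fun d hd => hx ⟨d, hd⟩
      rw [h, Submodule.mem_bot] at hxN
      exact hx0 hxN
    · exact h
  have hDV : ∀ d ∈ D, ∀ v : V, d • v = v := by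
    intro d hd v
    have : v ∈ N := by rw [hNtop]; exact Submodule.mem_top
    exact this d hd
  -- `τ` is central on `V`
  have hcomm : ∀ (g : G) (v : V), τ • g • v = g • τ • v := by
    intro g v
    have hd : τ⁻¹ * g⁻¹ * τ * g ∈ D := by
      refine ⟨fun y => ?_, ?_⟩
      · rw [mul_smul, mul_smul, mul_smul, hτY, s44r_smul_zmod, inv_smul_smul, ← hτY,
          inv_smul_smul]
      · rw [map_mul, map_mul, map_mul, map_inv, map_inv]
        rw [mul_comm (χ τ)⁻¹ (χ g)⁻¹, mul_assoc (χ g)⁻¹, inv_mul_cancel, mul_one, inv_mul_cancel]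
    have h1 := hDV _ hd v
    rw [mul_smul, mul_smul, mul_smul, inv_smul_eq_iff, inv_smul_eq_iff] at h1
    exact h1
  -- `τ = 1` on `V`
  let Kτ : Submodule (ZMod p) V :=
    { carrier := {v | τ • v = v}
      zero_mem' := smul_zero τ
      add_mem' := fun {a b} ha hb => by
        show τ • (a + b) = a + b
        rw [smul_add, ha, hb]
      smul_mem' := fun c v hv => by
        show τ • (c • v) = c • v
        rw [s44r_smul_zmod, hv] }
  have hKstab : ∀ (g : G), ∀ v ∈ Kτ, g • v ∈ Kτ := by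
    intro g v hv
    show τ • g • v = g • v
    rw [hcomm, hv]
  have hKne : Kτ ≠ ⊥ := by
    intro hbot
    -- `τ - 1` is injective, hence surjective, hence `T = ⊤`
    let f : V → V := fun v => τ • v - v
    have hfinj : Function.Injective f := by
      intro a b hab
      have h1 : τ • (a - b) = a - b := by
        have h2 : τ • a - a = τ • b - b := hab
        rw [smul_sub]
        have h3 : τ • a - τ • b = a - b := by
          rw [sub_eq_sub_iff_add_eq_add] at h2 ⊢
          rw [add_comm a, ← h2, add_comm]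
        exact h3
      have h4 : a - b ∈ Kτ := h1
      rw [hbot, Submodule.mem_bot] at h4
      exact sub_eq_zero.mp h4
    have hfsurj : Function.Surjective f := Finite.surjective_of_injective hfinj
    apply hT
    rw [eq_top_iff]
    intro w _
    obtain ⟨v, hv⟩ := hfsurj w
    rw [← hv]
    exact hτT v
  have hτV : ∀ v : V, τ • v = v := by
    rcases hirr Kτ hKstab with h | h
    · exact absurd h hKne
    · intro v
      have : v ∈ Kτ := by rw [h]; exact Submodule.mem_top
      exact this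
  have hτV' : ∀ v : V, τ⁻¹ • v = v := fun v => by rw [inv_smul_eq_iff, hτV]
  -- every `g⁻¹` is scalar on `V`
  have hscal : ∀ g : G, ∃ c : ZMod p, ∀ v : V, g⁻¹ • v = c • v := by
    intro g
    have hu : ((χ g : ZMod p) * ((χ τ : ZMod p) - 1)) ≠ 0 :=
      mul_ne_zero (Units.ne_zero _) (sub_ne_zero.mpr hχτ)
    refine ⟨((χ g : ZMod p) * ((χ τ : ZMod p) - 1))⁻¹ * (s (g * τ) - s g), fun v => ?_⟩
    have h1 := hV g v
    have h2 := hV (g * τ) v
    rw [mul_smul, hτV, mul_inv_rev, mul_smul, hτV', map_mul, Units.val_mul] at h2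
    have h3 : ((χ g : ZMod p) * ((χ τ : ZMod p) - 1)) • g⁻¹ • v = (s (g * τ) - s g) • v := by
      rw [mul_sub, mul_one, sub_smul, sub_smul, ← h2, ← h1]
      abel
    rw [mul_smul, ← h3, smul_smul, inv_mul_cancel₀ hu, one_smul]
  -- a stable line
  obtain ⟨v₀, hv₀⟩ := exists_ne (0 : V)
  have hline : ∀ (g : G), ∀ x ∈ Submodule.span (ZMod p) {v₀}, g • x ∈ Submodule.span (ZMod p) {v₀} := by
    intro g x hx
    obtain ⟨c, hc⟩ := hscal g⁻¹
    rw [inv_inv] at hc
    rw [hc]
    exact Submodule.smul_mem _ _ hx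
  have hspan : Submodule.span (ZMod p) {v₀} = ⊤ := by
    rcases hirr _ hline with h | h
    · exfalso
      have : v₀ ∈ Submodule.span (ZMod p) {v₀} := Submodule.mem_span_singleton_self v₀
      rw [h, Submodule.mem_bot] at this
      exact hv₀ this
    · exact h
  have hsurj : Function.Surjective (fun c : ZMod p => c • v₀) := by
    intro v
    have : v ∈ Submodule.span (ZMod p) {v₀} := by rw [hspan]; exact Submodule.mem_top
    obtain ⟨c, hc⟩ := Submodule.mem_span_singleton.mp this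
    exact ⟨c, hc⟩
  have hle : Nat.card V ≤ Nat.card (ZMod p) := Nat.card_le_card_of_surjective _ hsurj
  rw [hcard, Nat.card_zmod] at hle
  have : p < p ^ 2 := by
    calc p = p ^ 1 := (pow_one p).symm
      _ < p ^ 2 := Nat.pow_lt_pow_right hp2 (by norm_num)
  omega

end Main

section Sub

variable {p : ℕ} [hp : Fact p.Prime] {G : Type*} [Group G]
  {J : Type*} [AddCommGroup J] [DistribMulAction G J]
  {V : Type*} [AddCommGroup V] [DistribMulAction G V] [Module (ZMod p) V]

/-- scalars of `ZMod p` through their values. -/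
theorem s44r_zmod_smul_val {X : Type*} [AddCommGroup X] [Module (ZMod p) X] (c : ZMod p) (x : X) :
    c • x = c.val • x := by
  haveI : NeZero p := ⟨hp.out.ne_zero⟩
  conv_lhs => rw [← ZMod.natCast_zmod_val c]
  exact Nat.cast_smul_eq_nsmul (ZMod p) c.val x

/-- **[L7b], subgroup form**: `Y₁` a `G`-stable `p`-torsion subgroup of an abelian group `J` with
`G`-action, all relations with integer coefficients. -/
theorem s44r_endgame_sub (Y₁ : AddSubgroup J) (hY₁p : ∀ y ∈ Y₁, p • y = 0)
    (hY₁G : ∀ (g : G), ∀ y ∈ Y₁, g • y ∈ Y₁) (hY₁ne : ∃ y ∈ Y₁, y ≠ 0)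
    (χ : G →* (ZMod p)ˣ)
    (hrel : ∀ g : G, ∃ s : ℤ,
      (∀ y ∈ Y₁, g • y + ((χ g : ZMod p).val) • g⁻¹ • y = s • y) ∧
      (∀ v : V, g • v + ((χ g : ZMod p).val) • g⁻¹ • v = s • v))
    [Finite V]
    (hirr : ∀ N : Submodule (ZMod p) V, (∀ (g : G), ∀ x ∈ N, g • x ∈ N) → N = ⊥ ∨ N = ⊤)
    (hcard : Nat.card V = p ^ 2)
    (τ : G) (hχτ : (χ τ : ZMod p) ≠ 1)
    (hτY : ∀ y ∈ Y₁, τ • y = ((χ τ : ZMod p).val) • y)
    (T : AddSubgroup V) (hT : T ≠ ⊤) (hτT : ∀ v : V, τ • v - v ∈ T) : False := by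
  classical
  letI iSM : SMul G ↥Y₁ := ⟨fun g y => ⟨g • (y : J), hY₁G g y y.2⟩⟩
  have hc : ∀ (g : G) (z : ↥Y₁), ((g • z : ↥Y₁) : J) = g • (z : J) := fun _ _ => rfl
  letI iDMA : DistribMulAction G ↥Y₁ :=
    Function.Injective.distribMulAction Y₁.subtype Subtype.val_injective (fun _ _ => rfl)
  letI iMod : Module (ZMod p) ↥Y₁ := AddCommGroup.zmodModule (fun y => Subtype.ext (by
    rw [AddSubgroup.coe_nsmul, AddSubgroup.coe_zero]; exact hY₁p y y.2))
  haveI : Nontrivial ↥Y₁ := by
    obtain ⟨y, hy, hy0⟩ := hY₁ne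
    exact ⟨⟨⟨y, hy⟩, 0, fun h => hy0 (congrArg Subtype.val h)⟩⟩
  choose s hsY hsV using hrel
  refine s44r_endgame_abs (Y := ↥Y₁) (V := V) χ (fun g => ((s g : ℤ) : ZMod p)) ?_ ?_ hirr hcard τ
    hχτ ?_ T hT hτT
  · intro g y
    rw [s44r_zmod_smul_val, Int.cast_smul_eq_zsmul]
    apply Subtype.ext
    rw [AddSubgroup.coe_add, AddSubgroup.coe_nsmul, hc, hc, AddSubgroup.coe_zsmul]
    exact hsY g (y : J) y.2
  · intro g v
    rw [s44r_zmod_smul_val, Int.cast_smul_eq_zsmul]
    exact hsV g v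
  · intro y
    rw [s44r_zmod_smul_val]
    apply Subtype.ext
    rw [AddSubgroup.coe_nsmul, hc]
    exact hτY (y : J) y.2

end Sub

end Fermat.Agent.Lib.S44
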