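/-
M-AT-P programme (S44), soft part (helper2), file 1: Frobenius density at finite level for the triple
(`J₀(M)[p]`, `μ_p`, `W[p]`) with `W` an integral Weierstrass model (`W.Δ ≠ 0`), and the resulting
TWO-SIDED Lucas relation: for every `g ∈ G_ℚ` there is ONE integer `s` with
`g + χ(g) g⁻¹ = s` both on any Galois-stable eigen-subgroup `Y ≤ J₀(M)[p]` of the system
`ℓ ↦ a_ℓ(W)` and on `W(ℚ̄)[p]`.  (Elliptic re-run of `s33r_dens_raw` / `s33r_dens_Y`.)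
-/
import Fermat.Agent.Lib.S33.RealDens
import Fermat.Agent.Lib.S58.OLevel
import Fermat.Agent.Lib.S58.FCore

set_option autoImplicit false
set_option linter.style.haveILetI false
set_option linter.unusedSectionVars false

namespace Fermat.Agent.Lib.S44

open Module ModularCurve
open Fermat.Agent.Lib.S29 Fermat.Agent.Lib.S30 Fermat.Agent.Lib.S31 Fermat.Agent.Lib.S33
open Fermat.Agent.Lib.S58

local notation "Γℚ" => (AlgebraicClosure ℚ ≃ₐ[ℚ] AlgebraicClosure ℚ)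
local notation "Kb" => AlgebraicClosure ℚ

noncomputable section

/-- the quadratic relation of a Frobenius element on `W[λⁿ]` (`s58_EllFrob`, proved in Lib/S58). -/
theorem s44s_ellFrob : s58_EllFrob := s58o_ellFrob_of_core s58f_frobCore

section Level

variable (W : WeierstrassCurve ℤ) (hΔ : W.Δ ≠ 0) (p : ℕ) [Fact p.Prime] (M : ℕ) [NeZero M]

include hΔ in
/-- A finite Galois-stable level trivialising `J₀(M)[p]`, `μ_p` and `W(ℚ̄)[p]`. -/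
theorem s44s_exists_level :
    ∃ L : IntermediateField ℚ Kb, FiniteDimensional ℚ L ∧
      (∀ σ : Γℚ, ∀ x ∈ L, σ x ∈ L) ∧
      ∀ σ : Γℚ, (∀ x ∈ L, σ x = x) →
        (∀ x : JZero M, p • x = 0 → σ • x = x) ∧ s33r_chi p σ = 1 ∧
          ∀ Q : s58_Pt W, p • Q = 0 → σ • Q = Q := by
  have hp : p.Prime := Fact.out
  haveI : NeZero p := ⟨hp.ne_zero⟩
  obtain ⟨L₁, hL₁, -, h₁⟩ := s30a_exists_level M p
  obtain ⟨L₂, hL₂, -, h₂⟩ := (s30y_cycDatum p).cont 1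
  obtain ⟨L₃, hL₃, h₃⟩ := s58o_ellLevel W hΔ p hp.pos
  have hcl : IsAlgClosure ℚ Kb := ⟨inferInstance, AlgebraicClosure.isAlgebraic ℚ⟩
  have hnQ : Normal ℚ Kb := IsAlgClosure.normal ℚ Kb
  set L₀ : IntermediateField ℚ Kb := L₁ ⊔ L₂ ⊔ L₃ with hL₀
  have hfd12 : FiniteDimensional ℚ (L₁ ⊔ L₂ : IntermediateField ℚ Kb) :=
    IntermediateField.finiteDimensional_sup L₁ L₂
  have hfd : FiniteDimensional ℚ L₀ := IntermediateField.finiteDimensional_sup (L₁ ⊔ L₂) L₃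
  set L : IntermediateField ℚ Kb := IntermediateField.normalClosure ℚ L₀ Kb with hL
  have hle : L₀ ≤ L := IntermediateField.le_normalClosure L₀
  have hnorm : Normal ℚ L := normalClosure.normal ℚ L₀ Kb
  have hle1 : L₁ ≤ L := le_trans (le_trans le_sup_left le_sup_left) hle
  have hle2 : L₂ ≤ L := le_trans (le_trans le_sup_right le_sup_left) hle
  have hle3 : L₃ ≤ L := le_trans le_sup_right hle
  refine ⟨L, normalClosure.is_finiteDimensional ℚ L₀ Kb, fun σ y hy => ?_,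
    fun σ hσ => ⟨fun x hx => ?_, ?_, ?_⟩⟩
  · have h1 := IntermediateField.normal_iff_forall_map_le'.mp hnorm σ
    exact h1 ((IntermediateField.mem_map _).mpr ⟨y, hy, rfl⟩)
  · refine h₁ σ (fun y hy => hσ y (hle1 hy)) x ?_
    rw [natCast_zsmul]
    exact hx
  · obtain ⟨w, hw⟩ := h₂ σ (fun y hy => hσ y (hle2 hy))
    apply Units.ext
    rw [s33r_chi_val, Units.val_one]
    have hw' : ((s30y_eps p σ : ℤ_[p]ˣ) : ℤ_[p]) = 1 + (p : ℤ_[p]) ^ 1 * w := by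
      have : ((s30y_eps p σ : ℤ_[p]ˣ) : ℤ_[p]) - 1 = (p : ℤ_[p]) ^ 1 * w := hw
      rw [← this]; ring
    rw [hw', map_add, map_one, map_mul, pow_one, map_natCast, ZMod.natCast_self, zero_mul,
      add_zero]
  · exact h₃ σ (fun y hy => hσ y (hle3 hy))

include hΔ in
/-- **Frobenius density at finite level** (raw form, elliptic version): every `g` is `σ ^ j * h` with
`σ` a Frobenius element at a prime `ℓ ∉ S₁` and `h` acting trivially on `J₀(M)[p]`, `μ_p` and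
`W(ℚ̄)[p]`. -/
theorem s44s_dens_raw (hp2 : p ≠ 2) (S₁ : Finset ℕ) (hpS : p ∈ S₁)
    (hMS : ∀ q : ℕ, q.Prime → q ∣ M → q ∈ S₁)
    (hΔS : ∀ q : ℕ, q.Prime → (q : ℤ) ∣ W.Δ → q ∈ S₁) (g : Γℚ) :
    ∃ (ℓ : ℕ) (hℓ : ℓ.Prime) (σ h : Γℚ) (j : ℕ), ℓ ∉ S₁ ∧ g = σ ^ j * h ∧
      (∀ x : JZero M, p • x = 0 → h • x = x) ∧ s33r_chi p h = 1 ∧
      (∀ Q : s58_Pt W, p • Q = 0 → h • Q = Q) ∧
      (∀ x : JZero M, p • x = 0 →
        σ • σ • x - heckeOperatorBar M ⟨ℓ, hℓ⟩ (σ • x) + ℓ • x = 0) ∧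
      ((s33r_chi p σ : (ZMod p)ˣ) : ZMod p) = (ℓ : ZMod p) ∧
      (∀ Q : s58_Pt W, p • Q = 0 → σ • σ • Q - W.apOfModel ℓ • σ • Q + ℓ • Q = 0) := by
  have hp : p.Prime := Fact.out
  obtain ⟨L, hfd, hstab, hL⟩ := s44s_exists_level W hΔ p M
  obtain ⟨ℓ, A, σ, j, hℓ, hℓS₁, hA, hFr, hj⟩ := s29d_frobDensity L hfd hstab S₁ g
  have hℓp : ℓ ≠ p := fun h => hℓS₁ (h ▸ hpS)
  have hℓM : ¬ ℓ ∣ M := fun h => hℓS₁ (hMS ℓ hℓ h)
  have hℓMp : ¬ ℓ ∣ M * p := by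
    intro h
    rcases (Nat.Prime.dvd_mul hℓ).mp h with h | h
    · exact hℓM h
    · exact hℓp ((Nat.prime_dvd_prime_iff_eq hℓ hp).mp h)
  have hℓΔ : ¬ (ℓ : ℤ) ∣ W.Δ := fun h => hℓS₁ (hΔS ℓ hℓ h)
  have hfix : ∀ x ∈ L, ((σ ^ j)⁻¹ * g) x = x := by
    intro x hx
    rw [AlgEquiv.mul_apply, ← hj x hx]
    exact (σ ^ j).symm_apply_apply x
  obtain ⟨h1, h2, h3⟩ := hL _ hfix
  refine ⟨ℓ, hℓ, σ, (σ ^ j)⁻¹ * g, j, hℓS₁, by rw [mul_inv_cancel_left], h1, h2, h3, ?_,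
    s33r_chi_frob p ℓ hℓ hℓp A hA σ hFr, ?_⟩
  · intro x hx
    exact s29g_frobenius_quadratic M p ℓ hℓ hℓMp A hA σ hFr x 1 (by rw [pow_one]; exact hx)
  · intro Q hQ
    exact s44s_ellFrob W ℓ hℓ hℓΔ p hp hp2 (Ne.symm hℓp) 1 A hA σ hFr Q (by rw [pow_one]; exact hQ)

end Level

end

end Fermat.Agent.Lib.S44
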