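/-
M-AT-P programme (S44), soft part (helper2), file 2: the TWO-SIDED relation.  For a Galois-stable
subgroup `Y ≤ J₀(M)[p]` on which `T_ℓ = a_ℓ(W)` for all primes `ℓ ∉ S₁`, every `g ∈ G_ℚ` satisfies
`g + χ(g) g⁻¹ = s` on `Y` AND on `W(ℚ̄)[p]`, with ONE integer `s = s(g)`.
(Input shape of `hdens` / `hCHV` of `s33r_main` with `𝔼 := ZMod p`.)
-/
import Fermat.Agent.Lib.S44.SoftDens

set_option autoImplicit false
set_option linter.style.haveILetI false
set_option linter.unusedSectionVars false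

namespace Fermat.Agent.Lib.S44

open Module ModularCurve
open Fermat.Agent.Lib.S29 Fermat.Agent.Lib.S30 Fermat.Agent.Lib.S31 Fermat.Agent.Lib.S33
open Fermat.Agent.Lib.S58

local notation "Γℚ" => (AlgebraicClosure ℚ ≃ₐ[ℚ] AlgebraicClosure ℚ)
local notation "Kb" => AlgebraicClosure ℚ

noncomputable section

/-- `W(ℚ̄)[p]` as a `ℤ`-submodule of `W(ℚ̄)`. -/
def s44s_Wp (W : WeierstrassCurve ℤ) (p : ℕ) : Submodule ℤ (s58_Pt W) where
  carrier := {Q | p • Q = 0}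
  zero_mem' := nsmul_zero _
  add_mem' := by
    intro a b ha hb
    have ha' : p • a = 0 := ha
    have hb' : p • b = 0 := hb
    show p • (a + b) = 0
    rw [nsmul_add, ha', hb', add_zero]
  smul_mem' := by
    intro c a ha
    have ha' : p • a = 0 := ha
    show p • (c • a) = 0
    rw [← natCast_zsmul, smul_comm, natCast_zsmul, ha']
    exact zsmul_zero c

theorem s44s_mem_Wp {W : WeierstrassCurve ℤ} {p : ℕ} {Q : s58_Pt W} :
    Q ∈ s44s_Wp W p ↔ p • Q = 0 := Iff.rfl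

theorem s44s_Wp_gal (W : WeierstrassCurve ℤ) (p : ℕ) (σ : Γℚ) (Q : s58_Pt W)
    (hQ : Q ∈ s44s_Wp W p) : σ • Q ∈ s44s_Wp W p := by
  show p • (σ • Q) = 0
  have h1 := (DistribMulAction.toAddMonoidHom (s58_Pt W) σ).map_nsmul p Q
  have h2 : σ • (p • Q) = p • (σ • Q) := h1
  rw [← h2, s44s_mem_Wp.mp hQ]
  rfl

/-- Lucas values of integer scalars in an endomorphism ring. -/
theorem s44s_lucas_scalar {A : Type*} [AddCommGroup A] (a d : ℤ) (j : ℕ) :
    s31c_lucas ((a : ℤ) • (1 : Module.End ℤ A)) ((d : ℤ) • (1 : Module.End ℤ A)) j =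
      (s31c_lucas a d j) • (1 : Module.End ℤ A) := by
  have h := s31c_lucas_map (s := a) (d := d) (algebraMap ℤ (Module.End ℤ A)) j
  rw [Algebra.algebraMap_eq_smul_one, Algebra.algebraMap_eq_smul_one,
    Algebra.algebraMap_eq_smul_one] at h
  exact h.symm

section Rel

variable (W : WeierstrassCurve ℤ) (hΔ : W.Δ ≠ 0) {p : ℕ} [Fact p.Prime] {M : ℕ} [NeZero M]
  {S₁ : Finset ℕ} {Y : Submodule ℤ (JZero M)}

include hΔ in
/-- **The two-sided relation.** -/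
theorem s44s_dens (hp2 : p ≠ 2) (hpS : p ∈ S₁)
    (hMS : ∀ q : ℕ, q.Prime → q ∣ M → q ∈ S₁)
    (hΔS : ∀ q : ℕ, q.Prime → (q : ℤ) ∣ W.Δ → q ∈ S₁)
    (hY : s33r_Stable M p S₁ Y)
    (hYeig : ∀ ℓ : Nat.Primes, (ℓ : ℕ) ∉ S₁ → ∀ y ∈ Y,
      heckeOperatorBar M ℓ y = W.apOfModel ℓ • y) (g : Γℚ) :
    ∃ s : ℤ,
      (∀ y ∈ Y, g • y + (((s33r_chi p g : (ZMod p)ˣ) : ZMod p).val) • g⁻¹ • y = s • y) ∧
      (∀ Q : s58_Pt W, p • Q = 0 →
        g • Q + (((s33r_chi p g : (ZMod p)ˣ) : ZMod p).val) • g⁻¹ • Q = s • Q) := by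
  obtain ⟨ℓ, hℓ, σ, h, j, hℓS, rfl, hhJ, hχh, hhW, hES, hχσ, hESW⟩ :=
    s44s_dens_raw W hΔ p M hp2 S₁ hpS hMS hΔS g
  set n : ℕ := (((s33r_chi p (σ ^ j * h) : (ZMod p)ˣ) : ZMod p).val) with hn
  have hnval : (n : ZMod p) = ((ℓ ^ j : ℕ) : ZMod p) := by
    rw [hn, ZMod.natCast_val, ZMod.cast_id', id, map_mul, map_pow, hχh, mul_one,
      Units.val_pow_eq_pow_val, hχσ, Nat.cast_pow]
  refine ⟨s31c_lucas (W.apOfModel ℓ) (ℓ : ℤ) j, fun y hy => ?_, fun Q hQ => ?_⟩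
  · -- the `J`-side
    have hTY : (heckeOperatorBar M ⟨ℓ, hℓ⟩).restrict (p := Y) (q := Y) (hY.hecke ⟨ℓ, hℓ⟩ hℓS) =
        (W.apOfModel ℓ : ℤ) • (1 : Module.End ℤ ↥Y) := by
      ext y
      rw [LinearMap.restrict_apply, LinearMap.smul_apply, Module.End.one_apply,
        Submodule.coe_smul_of_tower]
      exact hYeig ⟨ℓ, hℓ⟩ hℓS y y.2
    have hD : ((ℓ : ℕ) : Module.End ℤ ↥Y) = ((ℓ : ℤ)) • (1 : Module.End ℤ ↥Y) := by
      rw [← Int.cast_natCast (R := Module.End ℤ ↥Y), ← zsmul_one]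
    have h1 := s33r_lucas_abs hY.gal p hY.tors (heckeOperatorBar M ⟨ℓ, hℓ⟩)
      (hY.hecke ⟨ℓ, hℓ⟩ hℓS) ℓ σ h j n hhJ hES hnval
    rw [hTY, hD, s44s_lucas_scalar] at h1
    have h2 := congrArg (fun f : Module.End ℤ ↥Y => ((f ⟨y, hy⟩ : ↥Y) : JZero M)) h1
    simp only [LinearMap.add_apply, LinearMap.smul_apply, Module.End.one_apply,
      Submodule.coe_add, Submodule.coe_smul_of_tower, s33r_rhoY_apply] at h2
    exact h2.symm
  · -- the `W`-side
    set T : Module.End ℤ (s58_Pt W) := (W.apOfModel ℓ : ℤ) • (1 : Module.End ℤ (s58_Pt W)) with hT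
    have hTstab : ∀ y ∈ s44s_Wp W p, T y ∈ s44s_Wp W p := by
      intro y hy
      rw [hT, LinearMap.smul_apply, Module.End.one_apply]
      exact (s44s_Wp W p).smul_mem _ hy
    have hTY : T.restrict (p := s44s_Wp W p) (q := s44s_Wp W p) hTstab =
        (W.apOfModel ℓ : ℤ) • (1 : Module.End ℤ ↥(s44s_Wp W p)) := by
      ext y
      show T (y : s58_Pt W) =
        ((((W.apOfModel ℓ : ℤ) • (1 : Module.End ℤ ↥(s44s_Wp W p))) y : ↥(s44s_Wp W p)) :
          s58_Pt W)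
      rw [hT]
      simp only [LinearMap.smul_apply, Module.End.one_apply, Submodule.coe_smul_of_tower]
    have hD : ((ℓ : ℕ) : Module.End ℤ ↥(s44s_Wp W p)) =
        ((ℓ : ℤ)) • (1 : Module.End ℤ ↥(s44s_Wp W p)) := by
      rw [← Int.cast_natCast (R := Module.End ℤ ↥(s44s_Wp W p)), ← zsmul_one]
    have hESW' : ∀ x : s58_Pt W, p • x = 0 → σ • σ • x - T (σ • x) + ℓ • x = 0 := by
      intro x hx
      rw [hT, LinearMap.smul_apply, Module.End.one_apply]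
      exact hESW x hx
    have h1 := s33r_lucas_abs (G := Γℚ) (Y := s44s_Wp W p) (s44s_Wp_gal W p) p
      (fun y hy => hy) T hTstab ℓ σ h j n hhW hESW' hnval
    rw [hTY, hD, s44s_lucas_scalar] at h1
    have h2 := congrArg
      (fun f : Module.End ℤ ↥(s44s_Wp W p) => ((f ⟨Q, hQ⟩ : ↥(s44s_Wp W p)) : s58_Pt W)) h1
    simp only [LinearMap.add_apply, LinearMap.smul_apply, Module.End.one_apply,
      Submodule.coe_add, Submodule.coe_smul_of_tower, s33r_rhoY_apply] at h2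
    exact h2.symm

end Rel

end

end Fermat.Agent.Lib.S44
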