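/-
M-AT-P programme (S44), soft part (helper2), file 5: **fixed points**.
Abstract: a subgroup `H ≤ G` acting on a non-zero finite `p`-torsion stable subgroup `Y` through
"quadratic unipotents" (`h² + 1 = 2h` on `Y`) has a non-zero fixed point in `Y` (`p`-group fixed-point
lemma).  Instance: `Y` = the eigen-subgroup `s44s_Y` of `J₀(N)[p]` for the system of an integral model
`W`, `H` = the elements of `G_ℚ` acting trivially on `W(ℚ̄)[p]` and on `μ_p`.
-/
import Fermat.Agent.Lib.S44.SoftRel
import Fermat.Agent.Lib.S44.SoftY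
import Fermat.Agent.Lib.S58.OExact

set_option autoImplicit false
set_option linter.style.haveILetI false
set_option linter.unusedSectionVars false

namespace Fermat.Agent.Lib.S44

open Module ModularCurve
open Fermat.Agent.Lib.S29 Fermat.Agent.Lib.S30 Fermat.Agent.Lib.S31 Fermat.Agent.Lib.S33
open Fermat.Agent.Lib.S58

local notation "Γℚ" => (AlgebraicClosure ℚ ≃ₐ[ℚ] AlgebraicClosure ℚ)
local notation "Kb" => AlgebraicClosure ℚ

noncomputable section

section Abs

variable {G A : Type*} [Group G] [AddCommGroup A] [DistribMulAction G A] {Y : Submodule ℤ A}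

/-- the permutation representation of `G` on a stable subgroup. -/
def s44s_perm (hgal : ∀ σ : G, ∀ y ∈ Y, σ • y ∈ Y) : G →* Equiv.Perm ↥Y where
  toFun σ :=
    { toFun := fun y => s33r_rhoY hgal σ y
      invFun := fun y => s33r_rhoY hgal σ⁻¹ y
      left_inv := fun y => by
        show (s33r_rhoY hgal σ⁻¹ * s33r_rhoY hgal σ) y = y
        rw [← map_mul, inv_mul_cancel, map_one, Module.End.one_apply]
      right_inv := fun y => by
        show (s33r_rhoY hgal σ * s33r_rhoY hgal σ⁻¹) y = y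
        rw [← map_mul, mul_inv_cancel, map_one, Module.End.one_apply] }
  map_one' := by
    ext y
    show ((s33r_rhoY hgal 1 y : ↥Y) : A) = y
    rw [map_one, Module.End.one_apply]
  map_mul' σ τ := by
    ext y
    show ((s33r_rhoY hgal (σ * τ) y : ↥Y) : A) = (s33r_rhoY hgal σ (s33r_rhoY hgal τ y) : ↥Y)
    rw [map_mul, Module.End.mul_apply]

theorem s44s_perm_apply (hgal : ∀ σ : G, ∀ y ∈ Y, σ • y ∈ Y) (σ : G) (y : ↥Y) :
    ((s44s_perm hgal σ y : ↥Y) : A) = σ • (y : A) := rfl

/-- a quadratic unipotent has `p`-th power one modulo `p`. -/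
theorem s44s_pow_eq_one {R : Type*} [Ring R] (u : R) (hu : u * u + 1 = 2 • u) (p : ℕ)
    (hp : (p : R) = 0) : u ^ p = 1 := by
  have key : ∀ n : ℕ, u ^ n = 1 + n • (u - 1) := by
    intro n
    induction n with
    | zero => simp
    | succ n ih =>
      have h2 : u * (u - 1) = u - 1 := by
        have : u * u = 2 • u - 1 := eq_sub_of_add_eq hu
        rw [mul_sub, mul_one, this, two_nsmul]
        abel
      rw [pow_succ', ih, mul_add, mul_one, mul_smul_comm, h2, succ_nsmul]
      abel
  rw [key p, nsmul_eq_mul, hp, zero_mul, add_zero]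

/-- **fixed points of quadratic unipotents.** -/
theorem s44s_fixed_ne (p : ℕ) [Fact p.Prime] [Finite ↥Y]
    (hgal : ∀ σ : G, ∀ y ∈ Y, σ • y ∈ Y) (htors : ∀ y ∈ Y, p • y = 0) (hne : ∃ y ∈ Y, y ≠ 0)
    (H : Subgroup G) (hunip : ∀ h ∈ H, ∀ y ∈ Y, h • h • y + y = 2 • h • y) :
    ∃ y ∈ Y, y ≠ 0 ∧ ∀ h ∈ H, h • y = y := by
  classical
  have hp : p.Prime := Fact.out
  -- `p = 0` in `End Y`
  have hp0 : ((p : ℕ) : Module.End ℤ ↥Y) = 0 := by
    ext y
    rw [Module.End.natCast_apply, LinearMap.zero_apply, Submodule.coe_smul_of_tower,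
      Submodule.coe_zero]
    exact htors y y.2
  -- the image of `H` is a `p`-group
  set K : Subgroup (Equiv.Perm ↥Y) := H.map (s44s_perm hgal) with hK
  have hpow : ∀ h ∈ H, (s44s_perm hgal h) ^ p = 1 := by
    intro h hh
    have hu : s33r_rhoY hgal h * s33r_rhoY hgal h + 1 = 2 • s33r_rhoY hgal h := by
      ext y
      have := hunip h hh y y.2
      simp only [LinearMap.add_apply, Module.End.mul_apply, Module.End.one_apply,
        LinearMap.smul_apply, Submodule.coe_add, Submodule.coe_smul_of_tower, s33r_rhoY_apply]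
      exact this
    have h1 := s44s_pow_eq_one (s33r_rhoY hgal h) hu p hp0
    rw [← map_pow]
    ext y
    show ((s33r_rhoY hgal (h ^ p) y : ↥Y) : A) = y
    rw [map_pow, h1, Module.End.one_apply]
  have hKp : IsPGroup p K := by
    rintro ⟨k, hk⟩
    obtain ⟨h, hh, rfl⟩ := Subgroup.mem_map.mp hk
    refine ⟨1, Subtype.ext ?_⟩
    rw [pow_one]
    exact hpow h hh
  -- `p ∣ #Y`
  have hYp : IsPGroup p (Multiplicative ↥Y) := by
    intro g
    refine ⟨1, ?_⟩
    rw [pow_one]
    apply Multiplicative.toAdd.injective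
    rw [toAdd_pow, toAdd_one]
    apply Subtype.ext
    rw [Submodule.coe_smul_of_tower, Submodule.coe_zero]
    exact htors _ (Multiplicative.toAdd g).2
  have hcard : p ∣ Nat.card ↥Y := by
    have h1 : Nat.card (Multiplicative ↥Y) = Nat.card ↥Y := Nat.card_congr Multiplicative.toAdd
    rcases hYp.card_eq_or_dvd with h | h
    · exfalso
      obtain ⟨y, hy, hy0⟩ := hne
      rw [h1] at h
      have hsub : Subsingleton ↥Y := (Nat.card_eq_one_iff_unique.mp h).1
      exact hy0 (congrArg Subtype.val (Subsingleton.elim (⟨y, hy⟩ : ↥Y) 0))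
    · rwa [h1] at h
  have h0 : (0 : ↥Y) ∈ MulAction.fixedPoints K ↥Y := by
    rintro ⟨k, hk⟩
    obtain ⟨h, -, rfl⟩ := Subgroup.mem_map.mp hk
    apply Subtype.ext
    show ((s44s_perm hgal h 0 : ↥Y) : A) = _
    rw [s44s_perm_apply, Submodule.coe_zero, smul_zero]
  obtain ⟨b, hb, hb0⟩ := hKp.exists_fixed_point_of_prime_dvd_card_of_fixed_point ↥Y hcard h0
  refine ⟨b, b.2, fun h => hb0 (Subtype.ext h.symm), fun h hh => ?_⟩
  have h1 := hb ⟨s44s_perm hgal h, Subgroup.mem_map.mpr ⟨h, hh, rfl⟩⟩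
  have h2 := congrArg (fun y : ↥Y => (y : A)) h1
  exact h2

end Abs

end

end Fermat.Agent.Lib.S44
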