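/-
M-AT-P programme (S44), soft part (helper2), file 4: transport between the points of an integral
model `W` (`s58_Pt W = W_ℚ(ℚ̄)`, the language of `Lib/S58` and of `s44s_dens`) and the points of the
curve `E / ℚ` itself (`(E⁄ℚ̄).Point`, the language of the frozen statements and of `s13_V`), for
`C • E = W_ℚ`.  Galois-equivariant additive isomorphism `s44s_Psi`.
-/
import Fermat.Agent.Lib.S41.ATransport
import Fermat.Agent.Lib.S58.Iface

set_option autoImplicit false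
set_option linter.unusedSectionVars false

namespace Fermat.Agent.Lib.S44

open WeierstrassCurve WeierstrassCurve.Affine
open Fermat.Agent.Lib.S41 Fermat.Agent.Lib.S58 Fermat.Agent.Lib.Frey

local notation "Γℚ" => (AlgebraicClosure ℚ ≃ₐ[ℚ] AlgebraicClosure ℚ)
local notation "Kb" => AlgebraicClosure ℚ

noncomputable section

variable (E : WeierstrassCurve ℚ) (W : WeierstrassCurve ℤ)
  (C : VariableChange ℚ) (hC : C • E = W.map (Int.castRingHom ℚ))

theorem s44s_one_smul (W : WeierstrassCurve ℤ) :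
    (1 : VariableChange ℚ) • (W.map (Int.castRingHom ℚ)) = W.map (Int.castRingHom ℚ) :=
  one_smul _ _

/-- The identification `W_ℚ(ℚ̄) ≃ E(ℚ̄)` for an integral model `W` of `E`. -/
def s44s_Psi : s58_Pt W ≃+ (E.toAffine⁄Kb).Point :=
  (s41a_Phi (W.map (Int.castRingHom ℚ)) W ⊤ 1 (s44s_one_smul W)).symm.trans
    (s41a_Phi E W ⊤ C hC)

/-- Galois equivariance of `s44s_Psi`. -/
theorem s44s_Psi_sigma (σ : Γℚ) (Q : s58_Pt W) :
    s44s_Psi E W C hC (σ • Q) = σ • s44s_Psi E W C hC Q := by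
  obtain ⟨P', rfl⟩ := (s41a_Phi (W.map (Int.castRingHom ℚ)) W ⊤ 1 (s44s_one_smul W)).surjective Q
  rw [s41a_Phi_sigma]
  show s41a_Phi E W ⊤ C hC ((s41a_Phi (W.map (Int.castRingHom ℚ)) W ⊤ 1 (s44s_one_smul W)).symm
      (s41a_Phi (W.map (Int.castRingHom ℚ)) W ⊤ 1 (s44s_one_smul W) _)) =
    σ • s41a_Phi E W ⊤ C hC ((s41a_Phi (W.map (Int.castRingHom ℚ)) W ⊤ 1 (s44s_one_smul W)).symm
      (s41a_Phi (W.map (Int.castRingHom ℚ)) W ⊤ 1 (s44s_one_smul W) P'))
  rw [AddEquiv.symm_apply_apply, AddEquiv.symm_apply_apply, s41a_Phi_sigma]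

theorem s44s_Psi_symm_sigma (σ : Γℚ) (R : (E.toAffine⁄Kb).Point) :
    (s44s_Psi E W C hC).symm (σ • R) = σ • (s44s_Psi E W C hC).symm R := by
  apply (s44s_Psi E W C hC).injective
  rw [s44s_Psi_sigma, AddEquiv.apply_symm_apply, AddEquiv.apply_symm_apply]

/-- torsion is transported. -/
theorem s44s_Psi_nsmul_eq_zero (n : ℕ) (Q : s58_Pt W) :
    n • s44s_Psi E W C hC Q = 0 ↔ n • Q = 0 := by
  rw [← map_nsmul, AddEquiv.map_eq_zero_iff]

include hC in
/-- A `σ` fixing the `n`-torsion of `E(ℚ̄)` pointwise fixes the `n`-torsion of `W_ℚ(ℚ̄)` pointwise. -/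
theorem s44s_fix_of_fix (n : ℕ) (σ : Γℚ)
    (h : ∀ v : Submodule.torsionBy ℤ (E.toAffine⁄Kb).Point n, σ • v = v)
    (Q : s58_Pt W) (hQ : n • Q = 0) : σ • Q = Q := by
  have hmem : s44s_Psi E W C hC Q ∈ Submodule.torsionBy ℤ (E.toAffine⁄Kb).Point n := by
    rw [Submodule.mem_torsionBy_iff, natCast_zsmul]
    exact (s44s_Psi_nsmul_eq_zero E W C hC n Q).mpr hQ
  have h1 := congrArg (fun v : Submodule.torsionBy ℤ (E.toAffine⁄Kb).Point n =>
    (v : (E.toAffine⁄Kb).Point)) (h ⟨_, hmem⟩)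
  have h2 : σ • s44s_Psi E W C hC Q = s44s_Psi E W C hC Q := h1
  rw [← s44s_Psi_sigma] at h2
  exact (s44s_Psi E W C hC).injective h2

end

end Fermat.Agent.Lib.S44
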