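/-
M-AT-P programme (S44), soft part (helper2), file 6: the interface leaves
* `s44s_eigExists : s44i_EigExists`  [L1]
* `s44s_fixedNe  : s44i_FixedNe`    [L7a]
of `Lib/S44/Iface.lean` (helper1).
-/
import Fermat.Agent.Lib.S44.Iface
import Fermat.Agent.Lib.S44.SoftFix
import Fermat.Agent.Lib.S44.SoftTransport
import Fermat.Agent.Lib.EN.FreyCard

set_option autoImplicit false
set_option linter.style.haveILetI false
set_option linter.unusedSectionVars false

namespace Fermat.Agent.Lib.S44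

open Module ModularCurve
open Fermat.Agent.Lib.S29 Fermat.Agent.Lib.S30 Fermat.Agent.Lib.S31 Fermat.Agent.Lib.S33
open Fermat.Agent.Lib.S58 Fermat.Agent.Lib.S13 Fermat.Agent.Lib.EN

local notation "Γℚ" => (AlgebraicClosure ℚ ≃ₐ[ℚ] AlgebraicClosure ℚ)
local notation "Kb" => AlgebraicClosure ℚ

noncomputable section

/-- **[L1]** -/
theorem s44s_eigExists : s44i_EigExists := by
  intro N _ f hf p hp 𝔪 hmax hpm a B hB hcong
  haveI : Fact p.Prime := ⟨hp⟩
  obtain ⟨x, hx0, hx⟩ := s44s_exists_eigen hf p 𝔪 hmax hpm B hB a hcong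
  exact ⟨x, hx0, hx⟩

/-- the discriminant of an integral model of an elliptic curve is non-zero. -/
theorem s44s_Δ_ne_zero (E : WeierstrassCurve ℚ) [E.IsElliptic] (W : WeierstrassCurve ℤ)
    (hW : W.IsIntegralModelOf E) : W.Δ ≠ 0 := by
  obtain ⟨C, hC⟩ := hW
  intro h0
  have h1 : (W.map (Int.castRingHom ℚ)).Δ = 0 := by
    rw [WeierstrassCurve.map_Δ, h0, map_zero]
  rw [← hC, WeierstrassCurve.variableChange_Δ] at h1
  have hE : E.Δ ≠ 0 := E.isUnit_Δ.ne_zero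
  have hu : ((C.u⁻¹ : ℚˣ) : ℚ) ^ 12 ≠ 0 := pow_ne_zero _ (Units.ne_zero _)
  exact (mul_ne_zero hu hE) h1

/-- a point of exact order `p` is killed by an integer only if `p` divides it. -/
theorem s44s_dvd_of_zsmul_eq_zero {A : Type*} [AddCommGroup A] {p : ℕ} (hp : p.Prime) {Q : A}
    (hQ : p • Q = 0) (hQ0 : Q ≠ 0) {m : ℤ} (hm : m • Q = 0) : (p : ℤ) ∣ m := by
  by_contra hnd
  have hcop : IsCoprime (p : ℤ) m :=
    (Int.isCoprime_iff_gcd_eq_one).mpr
      ((Nat.Prime.coprime_iff_not_dvd hp).mpr (fun h => hnd (Int.natCast_dvd.mpr h)))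
  obtain ⟨u, v, huv⟩ := hcop
  apply hQ0
  have h1 : (u * (p : ℤ) + v * m) • Q = Q := by rw [huv, one_zsmul]
  rw [add_smul, mul_smul, mul_smul, natCast_zsmul, hQ, hm, smul_zero, smul_zero, add_zero] at h1
  exact h1.symm

/-- **[L7a]** -/
theorem s44s_fixedNe : s44i_FixedNe := by
  intro P W hW N _ B hB hbad L hfd hnorm hsplit hex
  classical
  have hp : P.p.Prime := P.pp
  haveI : Fact P.p.Prime := ⟨hp⟩
  haveI : NeZero P.p := ⟨hp.ne_zero⟩
  have hp2 : P.p ≠ 2 := by have := P.hp5; omega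
  have hΔ : W.Δ ≠ 0 := s44s_Δ_ne_zero P.freyCurve W hW
  obtain ⟨C, hC⟩ := hW
  set a : ℕ → ℤ := fun ℓ => W.apOfModel ℓ with ha
  set Y : Submodule ℤ (JZero N) := s44s_Y N P.p B a with hY
  have hstab : s33r_Stable N P.p B Y := s44s_Y_stable N P.p B a
  -- membership of `p`, the primes of `N` and the bad primes in `B`
  have hpB : P.p ∈ B := hB P.p hp (Dvd.intro_left N rfl)
  have hNB : ∀ q : ℕ, q.Prime → q ∣ N → q ∈ B := fun q hq hqN =>
    hB q hq (Dvd.dvd.mul_right hqN P.p)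
  have hΔB : ∀ q : ℕ, q.Prime → (q : ℤ) ∣ W.Δ → q ∈ B := fun q hq hqΔ =>
    hbad q hq (fun hgood => hgood hqΔ)
  -- finiteness of `Y`
  haveI : Finite ↥Y := by
    haveI := s30a_finite_torsion (N := N) P.p
    refine Finite.of_injective
      (fun y : ↥Y => (⟨(y : JZero N), by
        rw [AlgebraicCurve.Pic0.mem_torsion, natCast_zsmul]; exact y.2.1⟩ : s29k_Jp N P.p)) ?_
    intro y y' h
    exact Subtype.ext (congrArg (fun z : s29k_Jp N P.p => (z : JZero N)) h)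
  -- a point of exact order `p` on `W`
  obtain ⟨Q₀, hQ₀, hQ₀'⟩ := s58o_ellExact W hΔ P.p hp 0
  rw [zero_add, pow_one] at hQ₀
  rw [pow_zero, one_smul] at hQ₀'
  -- the unipotency of the elements fixing `L`
  have hunip : ∀ h ∈ L.fixingSubgroup, ∀ y ∈ Y, h • h • y + y = 2 • h • y := by
    intro h hh y hy
    have hfix : ∀ x ∈ L, h x = x := (IntermediateField.mem_fixingSubgroup_iff L h).mp hh
    obtain ⟨hV, hμ⟩ := hsplit h hfix
    have hfix' : ∀ x ∈ L, h⁻¹ x = x := fun x hx => by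
      have := hfix x hx
      calc h⁻¹ x = h⁻¹ (h x) := by rw [this]
        _ = x := by rw [← AlgEquiv.mul_apply, inv_mul_cancel, AlgEquiv.one_apply]
    obtain ⟨hV', -⟩ := hsplit h⁻¹ hfix'
    -- `χ h = 1`
    have hχ : (((s33r_chi P.p h : (ZMod P.p)ˣ) : ZMod P.p)) = 1 := by
      have := s33r_chi_eq_of_acts P.p h 1 (fun ζ hζ => by rw [pow_one]; exact hμ ζ hζ)
      rw [← this, Nat.cast_one]
    have hn : (((s33r_chi P.p h : (ZMod P.p)ˣ) : ZMod P.p)).val = 1 := by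
      rw [hχ]
      haveI : Fact (1 < P.p) := ⟨hp.one_lt⟩
      exact ZMod.val_one P.p
    obtain ⟨s, hsY, hsW⟩ := s44s_dens W hΔ hp2 hpB hNB hΔB hstab
      (fun ℓ hℓ y hy => s44s_Y_eig N P.p B a ℓ hℓ y hy) h
    rw [hn] at hsY hsW
    -- `s ≡ 2 mod p`
    have hQh : h • Q₀ = Q₀ := s44s_fix_of_fix P.freyCurve W C hC P.p h hV Q₀ hQ₀
    have hQh' : h⁻¹ • Q₀ = Q₀ := s44s_fix_of_fix P.freyCurve W C hC P.p h⁻¹ hV' Q₀ hQ₀
    have h2 := hsW Q₀ hQ₀
    rw [hQh, hQh', one_smul] at h2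
    have h3 : (s - 2) • Q₀ = 0 := by
      rw [sub_smul, ← h2, two_smul]
      abel
    obtain ⟨c, hc⟩ := s44s_dvd_of_zsmul_eq_zero hp hQ₀ hQ₀' h3
    -- the relation on `Y` at `h • y`
    have hy' : h • y ∈ Y := hstab.gal h y hy
    have h4 := hsY (h • y) hy'
    rw [inv_smul_smul, one_smul] at h4
    have hs : s = 2 + (P.p : ℤ) * c := by rw [← hc]; ring
    have h5 : s • (h • y) = 2 • (h • y) := by
      rw [hs, add_zsmul, mul_zsmul', natCast_zsmul, hstab.tors (h • y) hy', zsmul_zero,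
        add_zero]
      exact ofNat_zsmul _ 2
    rw [h4, h5]
  obtain ⟨x, hx0, hx⟩ := hex
  obtain ⟨y, hyY, hy0, hyfix⟩ := s44s_fixed_ne P.p hstab.gal hstab.tors ⟨x, hx, hx0⟩
    L.fixingSubgroup hunip
  exact ⟨y, hy0, hyY, fun σ hσ =>
    hyfix σ ((IntermediateField.mem_fixingSubgroup_iff L σ).mpr hσ)⟩

end

end Fermat.Agent.Lib.S44
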