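/-
M-AT-P programme (S44), leaf [L7b] `s44i_Endgame` (Iface v2), concrete part (helper5).

`s44r_endgame : s44i_Endgame`.  The one W-side input, `cfh_T₀ P A hA ≠ ⊤` (for `p ∣ abc` the kernel of
reduction `E[p] ∩ E₁` of `Lib/S13/LocD` is not all of `E[p]`), is a hypothesis of the leaf (it is leaf
[L6b] `s44i_WNotTop`, helper6).

Ingredients: helper2's two-sided relation `s44s_dens` (`g + χ(g) g⁻¹ = s(g)` on the eigen-subgroup
`s44s_Y` of `J₀(N)[p]` and on `W(ℚ̄)[p]`), the Galois-equivariant transport `s44s_Psi` to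
`s13_V P = E[p](ℚ̄)`, `s33r_exists_tau` (`τ ∈ I_A` with `χ(τ) = 2`), `cfh_T_quot`
(`(τ - 1) V ⊆ T`), `ent_ifaceCard` (`#V = p²`) and the abstract endgame `s44r_endgame_sub`.
-/
import Fermat.Agent.Lib.S44.SoftLeaves
import Fermat.Agent.Lib.S44.REndAbs
import Fermat.Agent.Lib.S33.RealResid
import Fermat.Agent.Lib.S13.LocD

set_option autoImplicit false
set_option linter.style.haveILetI false
set_option linter.unusedSectionVars false

namespace Fermat.Agent.Lib.S44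

open Module ModularCurve WeierstrassCurve WeierstrassCurve.Affine
open Fermat.Agent.Lib.S29 Fermat.Agent.Lib.S30 Fermat.Agent.Lib.S31 Fermat.Agent.Lib.S33
open Fermat.Agent.Lib.S58 Fermat.Agent.Lib.S13 Fermat.Agent.Lib.EN

local notation "Γℚ" => (AlgebraicClosure ℚ ≃ₐ[ℚ] AlgebraicClosure ℚ)
local notation "Kb" => AlgebraicClosure ℚ

noncomputable section

/-- a normal intermediate field is stable under `G_ℚ`. -/
theorem s44r_normal_mem (L : IntermediateField ℚ Kb) (hnorm : Normal ℚ ↥L) (g : Γℚ) (a : Kb)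
    (ha : a ∈ L) : g a ∈ L := by
  have hgal : IsGalois ℚ Kb := Fermat.Agent.Lib.CFT.cfg_isGalois_QBar
  have hn : Normal ℚ Kb := IsGalois.to_normal
  have h1 := IntermediateField.normal_iff_forall_map_le'.mp hnorm g
  apply h1
  rw [IntermediateField.mem_map]
  exact ⟨a, ha, rfl⟩

/-- **[L7b]**. -/
theorem s44r_endgame : s44i_Endgame := by
  intro P W hW hpabc hirr N _ B hB hbad L hfd hnorm hsplit A hA hT hex hmu
  classical
  have hp : P.p.Prime := P.pp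
  haveI : Fact P.p.Prime := ⟨hp⟩
  haveI : NeZero P.p := ⟨hp.ne_zero⟩
  have hp5 : 5 ≤ P.p := P.hp5
  have hp2 : P.p ≠ 2 := by omega
  have hΔ : W.Δ ≠ 0 := s44s_Δ_ne_zero P.freyCurve W hW
  obtain ⟨C, hC⟩ := hW
  set a : ℕ → ℤ := fun ℓ => W.apOfModel ℓ with ha
  set Y : Submodule ℤ (JZero N) := s44s_Y N P.p B a with hY
  have hstab : s33r_Stable N P.p B Y := s44s_Y_stable N P.p B a
  have hpB : P.p ∈ B := hB P.p hp (Dvd.intro_left N rfl)
  have hNB : ∀ q : ℕ, q.Prime → q ∣ N → q ∈ B := fun q hq hqN =>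
    hB q hq (Dvd.dvd.mul_right hqN P.p)
  have hΔB : ∀ q : ℕ, q.Prime → (q : ℤ) ∣ W.Δ → q ∈ B := fun q hq hqΔ =>
    hbad q hq (fun hgood => hgood hqΔ)
  -- the `L`-rational part of `Y`
  let Y₁ : AddSubgroup (JZero N) :=
    { carrier := {x | x ∈ Y ∧ ∀ σ : Γℚ, (∀ a ∈ L, σ a = a) → σ • x = x}
      zero_mem' := ⟨Y.zero_mem, fun σ _ => smul_zero σ⟩
      add_mem' := fun {x y} hx hy =>
        ⟨Y.add_mem hx.1 hy.1, fun σ hσ => by rw [smul_add, hx.2 σ hσ, hy.2 σ hσ]⟩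
      neg_mem' := fun {x} hx =>
        ⟨Y.neg_mem hx.1, fun σ hσ => by rw [smul_neg, hx.2 σ hσ]⟩ }
  have hY₁mem : ∀ x : JZero N, x ∈ Y₁ ↔
      x ∈ Y ∧ ∀ σ : Γℚ, (∀ a ∈ L, σ a = a) → σ • x = x := fun x => Iff.rfl
  have hY₁p : ∀ y ∈ Y₁, P.p • y = 0 := fun y hy => hstab.tors y hy.1
  have hY₁G : ∀ (g : Γℚ), ∀ y ∈ Y₁, g • y ∈ Y₁ := by
    intro g y hy
    refine ⟨hstab.gal g y hy.1, fun σ hσ => ?_⟩
    have hconj : ∀ a ∈ L, (g⁻¹ * σ * g) a = a := by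
      intro a ha
      have h1 : g a ∈ L := s44r_normal_mem L hnorm g a ha
      rw [AlgEquiv.mul_apply, AlgEquiv.mul_apply, hσ (g a) h1, ← AlgEquiv.mul_apply,
        inv_mul_cancel, AlgEquiv.one_apply]
    have h2 := hy.2 (g⁻¹ * σ * g) hconj
    rw [mul_smul, mul_smul, inv_smul_eq_iff] at h2
    exact h2
  have hY₁ne : ∃ y ∈ Y₁, y ≠ 0 := by
    obtain ⟨x, hx0, hx, hxfix⟩ := hex
    exact ⟨x, ⟨hx, hxfix⟩, hx0⟩
  -- the relations
  have hrel : ∀ g : Γℚ, ∃ s : ℤ,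
      (∀ y ∈ Y₁, g • y + (((s33r_chi P.p g : (ZMod P.p)ˣ) : ZMod P.p).val) • g⁻¹ • y = s • y) ∧
      (∀ v : s13_V P, g • v + (((s33r_chi P.p g : (ZMod P.p)ˣ) : ZMod P.p).val) • g⁻¹ • v =
        s • v) := by
    intro g
    obtain ⟨s, hsY, hsW⟩ := s44s_dens W hΔ hp2 hpB hNB hΔB hstab
      (fun ℓ hℓ y hy => s44s_Y_eig N P.p B a ℓ hℓ y hy) g
    refine ⟨s, fun y hy => hsY y hy.1, fun v => ?_⟩
    set Ψ := s44s_Psi P.freyCurve W C hC with hΨ
    set Q : s58_Pt W := Ψ.symm (v : (P.freyCurve.toAffine⁄Kb).Point) with hQ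
    have hΨQ : Ψ Q = (v : (P.freyCurve.toAffine⁄Kb).Point) := Ψ.apply_symm_apply _
    have hv : P.p • (v : (P.freyCurve.toAffine⁄Kb).Point) = 0 := by
      have := (Submodule.mem_torsionBy_iff _ _).mp v.2
      rwa [natCast_zsmul] at this
    have hpQ : P.p • Q = 0 := by
      rw [← s44s_Psi_nsmul_eq_zero P.freyCurve W C hC, hΨQ]
      exact hv
    have h1 := congrArg Ψ (hsW Q hpQ)
    rw [map_add, map_nsmul, map_zsmul, s44s_Psi_sigma, s44s_Psi_sigma, hΨQ] at h1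
    apply Subtype.ext
    exact h1
  -- the inertia element
  obtain ⟨τ, hτI, hτμ, hχτ⟩ := s33r_exists_tau (p := P.p) hp2 A hA
  have hχ2 : (((s33r_chi P.p τ : (ZMod P.p)ˣ) : ZMod P.p)).val = 2 := by
    rw [← s33r_chi_eq_of_acts P.p τ 2 hτμ]
    exact ZMod.val_natCast_of_lt (by omega)
  have hτY : ∀ y ∈ Y₁, τ • y = (((s33r_chi P.p τ : (ZMod P.p)ˣ) : ZMod P.p).val) • y := by
    intro y hy
    rw [hχ2]
    exact hmu y hy.1 hy.2 τ hτI 2 hτμ
  -- `V`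
  have hcard : Nat.card (s13_V P) = P.p ^ 2 := ent_ifaceCard P
  haveI hfin : Finite (s13_V P) := by
    apply Nat.finite_of_card_ne_zero
    rw [hcard]; exact pow_ne_zero 2 hp.ne_zero
  exact s44r_endgame_sub (p := P.p) (G := Γℚ) (J := JZero N) (V := s13_V P) Y₁ hY₁p hY₁G hY₁ne
    (s33r_chi P.p) hrel (fun N' hN' => hirr.2 N' hN') hcard τ hχτ hτY
    (cfh_T₀ P A hA) hT
    (fun v => (cfh_mem_T_iff P A hA _).mp (cfh_T_quot P A hA τ hτI v))

end

end Fermat.Agent.Lib.S44
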