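/-
M-AT-P programme (S44), brick [KAPPA-PAR], part 1 (helper5): the analytic core.

A holomorphic function `H` on `ℍ` with `H (z + N) = ζ_p ^ e · H z` whose `p`-th power tends to a
NON-ZERO constant at `i∞` is in fact `N`-periodic: `p ∣ e`.  (`H` is `pN`-periodic and bounded, so it
factors through an analytic function of `q_{pN}` near `0`; hence `H` itself converges at `i∞`, to a
`p`-th root `r ≠ 0` of the constant, and `r = ζ_p ^ e · r`.)
-/
import Mathlib

set_option autoImplicit false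

namespace Fermat.Agent.Lib.S44

open UpperHalfPlane hiding I
open Complex Filter Function Topology
open scoped Real Manifold

noncomputable section

local notation "𝕢" => Periodic.qParam

/-- translation by a real number tends to `i∞`. -/
theorem s44r_tendsto_vadd (m : ℝ) : Tendsto (fun w : ℍ => m +ᵥ w) atImInfty atImInfty := by
  rw [atImInfty, tendsto_comap_iff]
  have : (UpperHalfPlane.im ∘ fun w : ℍ => m +ᵥ w) = UpperHalfPlane.im := by
    funext w; simp [UpperHalfPlane.vadd_im]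
  rw [this]
  exact tendsto_comap

/-- iterating a quasi-period. -/
theorem s44r_quasi_iter {H : ℍ → ℂ} (t : ℝ) (c : ℂ) (hper : ∀ w : ℍ, H (t +ᵥ w) = c * H w) (k : ℕ)
    (w : ℍ) : H (((k : ℝ) * t) +ᵥ w) = c ^ k * H w := by
  induction k generalizing w with
  | zero => simp
  | succ k ih =>
    have h1 : (((k + 1 : ℕ) : ℝ) * t) +ᵥ w = t +ᵥ (((k : ℝ) * t) +ᵥ w) := by
      rw [vadd_vadd]
      congr 1
      push_cast
      ring
    rw [h1, hper, ih, pow_succ]
    ring

/-- a function on `ℍ` with a real period gives a periodic function on `ℂ` through `ofComplex`. -/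
theorem s44r_periodic_ofComplex {H : ℍ → ℂ} (t : ℝ) (hper : ∀ w : ℍ, H (t +ᵥ w) = H w) :
    Periodic (H ∘ ofComplex) t := by
  intro w
  by_cases hw : 0 < Complex.im w
  · have hw' : 0 < Complex.im (w + (t : ℂ)) := by simpa using hw
    simp only [comp_apply]
    rw [ofComplex_apply_of_im_pos hw', ofComplex_apply_of_im_pos hw, ← hper ⟨w, hw⟩]
    congr 1
    apply UpperHalfPlane.ext
    simp [add_comm]
  · have hw0 : Complex.im w ≤ 0 := not_lt.mp hw
    have hw' : Complex.im (w + (t : ℂ)) ≤ 0 := by simpa using hw0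
    simp only [comp_apply, ofComplex_apply_of_im_nonpos hw', ofComplex_apply_of_im_nonpos hw0]

/-- **The analytic core of [KAPPA-PAR].** -/
theorem s44r_root_limit (N p : ℕ) (hN : 0 < N) (hp : 0 < p) {H : ℍ → ℂ} (hH : MDiff H) (e : ℕ)
    (hper : ∀ w : ℍ, H ((N : ℝ) +ᵥ w) = cexp (2 * π * I / p) ^ e * H w)
    {c : ℂ} (hc : c ≠ 0) (hlim : Tendsto (fun w : ℍ => H w ^ p) atImInfty (𝓝 c)) :
    p ∣ e := by
  set ζ : ℂ := cexp (2 * π * I / p) with hζ
  have hprim : IsPrimitiveRoot ζ p := Complex.isPrimitiveRoot_exp p hp.ne'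
  -- `H` is `pN`-periodic
  have hperP : ∀ w : ℍ, H ((((p : ℝ) * (N : ℝ))) +ᵥ w) = H w := by
    intro w
    have h1 := s44r_quasi_iter (H := H) (N : ℝ) (ζ ^ e) hper p w
    rw [h1, ← pow_mul, mul_comm e p, pow_mul, hprim.pow_eq_one, one_pow, one_mul]
  set h : ℝ := (p : ℝ) * (N : ℝ) with hh
  have hhpos : 0 < h := by positivity
  have hPer : Periodic (H ∘ ofComplex) h := s44r_periodic_ofComplex h hperP
  -- `H` is bounded at `i∞`
  have hbdd : IsBoundedAtImInfty H := by
    rw [UpperHalfPlane.isBoundedAtImInfty_iff]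
    have h1 : ∀ᶠ w : ℍ in atImInfty, ‖H w ^ p‖ < ‖c‖ + 1 := by
      have h2 : Tendsto (fun w : ℍ => ‖H w ^ p‖) atImInfty (𝓝 ‖c‖) := hlim.norm
      exact h2.eventually (gt_mem_nhds (lt_add_one ‖c‖))
    rw [Filter.eventually_iff, atImInfty_mem] at h1
    obtain ⟨A, hA⟩ := h1
    refine ⟨max (‖c‖ + 1) 1, A, fun z hz => ?_⟩
    have h3 : ‖H z‖ ^ p < ‖c‖ + 1 := by
      have := hA z hz
      simpa [norm_pow] using this
    by_contra hcon
    push Not at hcon
    have h4 : (1 : ℝ) < ‖H z‖ := lt_of_le_of_lt (le_max_right _ _) hcon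
    have h5 : ‖H z‖ ≤ ‖H z‖ ^ p := le_self_pow₀ h4.le hp.ne'
    have h6 : ‖c‖ + 1 < ‖H z‖ := lt_of_le_of_lt (le_max_left _ _) hcon
    linarith
  -- the cusp function
  have han : AnalyticAt ℂ (cuspFunction h H) 0 := analyticAt_cuspFunction_zero hhpos hPer hH hbdd
  set r : ℂ := cuspFunction h H 0 with hr
  have hHlim : Tendsto H atImInfty (𝓝 r) := by
    have h1 : Tendsto (fun τ : ℍ => cuspFunction h H (𝕢 h τ)) atImInfty (𝓝 r) :=
      han.continuousAt.tendsto.comp (qParam_tendsto_atImInfty hhpos)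
    refine h1.congr fun τ => ?_
    exact eq_cuspFunction τ hhpos.ne' hPer
  -- `r ^ p = c`
  have hrc : r ^ p = c := tendsto_nhds_unique (hHlim.pow p) hlim
  have hr0 : r ≠ 0 := by
    intro h0
    rw [h0, zero_pow hp.ne'] at hrc
    exact hc hrc.symm
  -- the two limits of `w ↦ H (N + w)`
  have hl1 : Tendsto (fun w : ℍ => H ((N : ℝ) +ᵥ w)) atImInfty (𝓝 r) :=
    hHlim.comp (s44r_tendsto_vadd (N : ℝ))
  have hl2 : Tendsto (fun w : ℍ => H ((N : ℝ) +ᵥ w)) atImInfty (𝓝 (ζ ^ e * r)) := by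
    have : (fun w : ℍ => H ((N : ℝ) +ᵥ w)) = fun w => ζ ^ e * H w := funext hper
    rw [this]
    exact hHlim.const_mul _
  have h7 : r = ζ ^ e * r := tendsto_nhds_unique hl1 hl2
  have h8 : ζ ^ e = 1 := by
    have : (ζ ^ e - 1) * r = 0 := by rw [sub_mul, one_mul, ← h7, sub_self]
    rcases mul_eq_zero.mp this with h9 | h9
    · exact sub_eq_zero.mp h9
    · exact absurd h9 hr0
  exact (hprim.pow_eq_one_iff_dvd e).mp h8

end

end Fermat.Agent.Lib.S44
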