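/-
M-AT-P programme (S44), brick [KAPPA-PAR], part 2 (helper5): the cusp step.

Setting (abstract, in the analytic model `ffm_R N ⊆ ffm_E N` of Lib/FF): `φ : F →+* ffm_E N` a bridge
sending constants to constants, `h ∈ F` with `div h = p • D`, `φ h = a / b` with `a, b ∈ ffm_R N`, a
holomorphic `A` with `A ^ p = a · b ^ (p - 1)` and a character `ψ : Γ₀(N) → 𝔽_p` with
`A ∘ γ = ζ_p ^ ψ(γ) · A`.  Then, for `p ≥ 5` prime not dividing `N`, `ψ` is PARABOLIC and kills the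
elements of finite order: `ψ ∈ s29h_Hp N p`.

* `s44r_ord_cusp`   : `p ∣ ord_{q_N}(δ • φ h)` at EVERY cusp (one line from `s29m_valuation_of_div`);
* `s44r_cusp_step`  : the analytic step (from `s44r_root_limit`);
* `s44r_psi_mem_Hp` : the conclusion.
-/
import Fermat.Agent.Lib.S44.RKapLimit
import Fermat.Agent.Lib.FF.ModelInf
import Fermat.Agent.Lib.S29.KBridge
import Fermat.Agent.Lib.S29.HDefs
import Fermat.Agent.Lib.S29.HStab
import Fermat.Agent.Lib.Period.Parabolic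
import Fermat.Agent.Lib.S16.FTors

set_option autoImplicit false
set_option linter.unusedSectionVars false
set_option linter.style.haveILetI false

namespace Fermat.Agent.Lib.S44

open UpperHalfPlane hiding I
open Complex Filter Function Topology AlgebraicCurve CongruenceSubgroup ModularCurve.Period
open Fermat.Agent.Lib.FF Fermat.Agent.Lib.S29
open scoped Real Manifold MatrixGroups

noncomputable section

/-! ### Orders at the cusps -/

section Ord

variable {K : Type*} [Field K] {F : Type*} [Field F] [Algebra K F] {N : ℕ} [NeZero N]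

/-- **`p` divides the order of `φ h` at every cusp** (in the parameter `q_N`). -/
theorem s44r_ord_cusp (φ : F →+* ffm_E N)
    (hφK : ∀ c : K, ∃ c' : ℂ, φ (algebraMap K F c) = algebraMap ℂ (ffm_E N) c') (p : ℕ)
    (h : F) (hh : h ≠ 0) (D : Divisor K F) (hD : ∀ v : Place K F, v.ord h = (p : ℤ) * D v)
    (δ : SL(2, ℤ)) : ∃ k : ℤ, ffm_ordInf N (δ • φ h) = WithZero.exp ((p : ℤ) * k) := by
  refine s29m_valuation_of_div ((ffm_ordInf N).comap
    ((MulSemiringAction.toRingHom SL(2, ℤ) (ffm_E N) δ).comp φ)) (fun c => ?_) p h hh D hD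
  obtain ⟨c', hc'⟩ := hφK c
  show ffm_ordInf N (δ • φ (algebraMap K F c)) ≤ 1
  rw [hc', smul_algebraMap]
  by_cases h0 : c' = 0
  · rw [h0, map_zero, map_zero]
    exact zero_le_one
  · rw [ffm_ordInf_const N h0]

end Ord

/-! ### The analytic step -/

/-- **The cusp step**: `G ∈ ffm_R N` non-zero with `p ∣ ord_∞ G`, `F` holomorphic with `F ^ p = G` and
`F (z + N) = ζ_p ^ e · F z`: then `p ∣ e`. -/
theorem s44r_cusp_step (N p : ℕ) [NeZero N] (hp : 0 < p) (G : ffm_R N) (hG : G ≠ 0)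
    (hdvd : (p : ℤ) ∣ ffm_expInf N G) {F : ℍ → ℂ} (hF : MDiff F)
    (hFG : ∀ z, F z ^ p = (G : ℍ → ℂ) z) (e : ℕ)
    (hper : ∀ w : ℍ, F ((N : ℝ) +ᵥ w) = cexp (2 * π * I / p) ^ e * F w) : p ∣ e := by
  obtain ⟨k, hk⟩ := hdvd
  obtain ⟨c, hc, hlim⟩ := ffm_hasExp N hG
  have hN0 : (N : ℂ) ≠ 0 := Nat.cast_ne_zero.mpr (NeZero.ne N)
  set E : ℍ → ℂ := fun z => cexp (-(2 * π * I * k * z / N)) with hE
  set H : ℍ → ℂ := fun z => F z * E z with hH
  have hEd : MDiff E := by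
    have hd : Differentiable ℂ (fun w : ℂ => cexp (-(2 * π * I * k * w / N))) := by fun_prop
    exact hd.comp_mdifferentiable mdifferentiable_coe
  have hHd : MDiff H := hF.mul hEd
  -- quasi-periodicity of `H`
  have hEper : ∀ w : ℍ, E ((N : ℝ) +ᵥ w) = E w := by
    intro w
    simp only [hE]
    rw [UpperHalfPlane.coe_vadd]
    have h1 : -(2 * π * I * k * ((((N : ℝ) : ℂ)) + (w : ℂ)) / N) =
        -(2 * π * I * k * w / N) + ((-k : ℤ) : ℂ) * (2 * π * I) := by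
      push_cast
      field_simp
      ring
    rw [h1, Complex.exp_add, Complex.exp_int_mul_two_pi_mul_I, mul_one]
  have hHper : ∀ w : ℍ, H ((N : ℝ) +ᵥ w) = cexp (2 * π * I / p) ^ e * H w := by
    intro w
    simp only [hH]
    rw [hper, hEper]
    ring
  -- the `p`-th power of `H` tends to `c`
  have hHp : ∀ z : ℍ, H z ^ p = (G : ℍ → ℂ) z * cexp (-(2 * π * I * (ffm_expInf N G) * z / N)) := by
    intro z
    simp only [hH, hE]
    rw [mul_pow, hFG, ← Complex.exp_nat_mul, hk]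
    congr 2
    push_cast
    ring
  have hlim' : Tendsto (fun w : ℍ => H w ^ p) atImInfty (𝓝 c) := by
    refine hlim.congr fun z => ?_
    rw [hHp]
  exact s44r_root_limit N p (Nat.pos_of_ne_zero (NeZero.ne N)) hp hHd e hHper hc hlim'

/-! ### The conclusion -/

section Main

variable {K : Type*} [Field K] {F : Type*} [Field F] [Algebra K F] {N : ℕ} [NeZero N]

/-- `γ ^ 12 = 1` for an integral matrix of determinant one and trace `0`, `1` or `-1`. -/
theorem s44r_pow_twelve (g : SL(2, ℤ))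
    (ht : (g : Matrix (Fin 2) (Fin 2) ℤ).trace = 0 ∨ (g : Matrix (Fin 2) (Fin 2) ℤ).trace = 1 ∨
      (g : Matrix (Fin 2) (Fin 2) ℤ).trace = -1) : g ^ 12 = 1 := by
  have hsq := s29h_sq_eq g
  apply Subtype.ext
  rw [Matrix.SpecialLinearGroup.coe_pow, Matrix.SpecialLinearGroup.coe_one]
  set A : Matrix (Fin 2) (Fin 2) ℤ := (g : Matrix (Fin 2) (Fin 2) ℤ) with hA
  rcases ht with h0 | h1 | h1
  · rw [h0, zero_smul, zero_sub] at hsq
    have : A ^ 12 = (A * A) ^ 6 := by rw [← pow_two, ← pow_mul]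
    rw [this, hsq]
    norm_num
  · rw [h1, one_smul] at hsq
    have h3 : A ^ 3 = -1 := by
      have : A ^ 3 = A * A * A := by rw [pow_succ, pow_two]
      rw [this, hsq, sub_mul, one_mul, hsq]
      abel
    have : A ^ 12 = (A ^ 3) ^ 4 := by rw [← pow_mul]
    rw [this, h3]
    norm_num
  · rw [h1, neg_one_smul] at hsq
    have h3 : A ^ 3 = 1 := by
      have : A ^ 3 = A * A * A := by rw [pow_succ, pow_two]
      rw [this, hsq, sub_mul, one_mul, neg_mul, hsq]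
      abel
    have : A ^ 12 = (A ^ 3) ^ 4 := by rw [← pow_mul]
    rw [this, h3, one_pow]

variable (φ : F →+* ffm_E N)
  (hφK : ∀ c : K, ∃ c' : ℂ, φ (algebraMap K F c) = algebraMap ℂ (ffm_E N) c')
  (p : ℕ) [hpp : Fact p.Prime]
  (h : F) (hh : h ≠ 0) (D : Divisor K F) (hD : ∀ v : Place K F, v.ord h = (p : ℤ) * D v)
  (a b : ffm_R N) (hb : b ≠ 0)
  (hab : φ h * algebraMap (ffm_R N) (ffm_E N) b = algebraMap (ffm_R N) (ffm_E N) a)
  {A : ℍ → ℂ} (hA : MDiff A) (hA0 : ∃ τ, A τ ≠ 0)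
  (hAp : ∀ τ, A τ ^ p = (a : ℍ → ℂ) τ * (b : ℍ → ℂ) τ ^ (p - 1))
  (ψ : Additive (Gamma0 N) →+ ZMod p)
  (hAψ : ∀ (γ : Gamma0 N) (τ : ℍ), A ((γ : SL(2, ℤ)) • τ) =
    cexp (2 * π * I / p) ^ (ψ (Additive.ofMul γ)).val * A τ)

include hφK hh hD hb hab in
/-- the exponent of `δ • (a b^{p-1})` at `i∞` is divisible by `p`. -/
theorem s44r_exp_dvd (δ : SL(2, ℤ)) :
    δ • (a * b ^ (p - 1)) ≠ 0 ∧ (p : ℤ) ∣ ffm_expInf N (δ • (a * b ^ (p - 1))) := by
  have hp0 : p ≠ 0 := hpp.out.ne_zero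
  have hinj := ffm_algebraMap_injective N
  have hbE : algebraMap (ffm_R N) (ffm_E N) b ≠ 0 := by
    rwa [Ne, map_eq_zero_iff _ hinj]
  have hφh : φ h ≠ 0 := (map_ne_zero φ).mpr hh
  have ha : a ≠ 0 := by
    rintro rfl
    rw [map_zero] at hab
    exact (mul_ne_zero hφh hbE) hab
  have hG0 : a * b ^ (p - 1) ≠ 0 := mul_ne_zero ha (pow_ne_zero _ hb)
  have hδG : δ • (a * b ^ (p - 1)) ≠ 0 := by
    intro h0
    apply hG0
    have := congrArg (fun x => δ⁻¹ • x) h0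
    simpa using this
  have hδb : δ • b ≠ 0 := by
    intro h0
    apply hb
    have := congrArg (fun x => δ⁻¹ • x) h0
    simpa using this
  refine ⟨hδG, ?_⟩
  obtain ⟨k, hk⟩ := s44r_ord_cusp φ hφK p h hh D hD δ
  -- `alg (a b^{p-1}) = φ h · (alg b)^p`
  have h1 : algebraMap (ffm_R N) (ffm_E N) (a * b ^ (p - 1)) =
      φ h * algebraMap (ffm_R N) (ffm_E N) b ^ p := by
    rw [map_mul, map_pow, ← hab, mul_assoc, ← pow_succ', Nat.sub_add_cancel (Nat.one_le_iff_ne_zero.mpr hp0)]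
  have h2 : ffm_ordInf N (algebraMap (ffm_R N) (ffm_E N) (δ • (a * b ^ (p - 1)))) =
      WithZero.exp ((p : ℤ) * k) *
        ffm_ordInf N (algebraMap (ffm_R N) (ffm_E N) (δ • b)) ^ p := by
    rw [← ffm_smul_algebraMap, h1, smul_mul', smul_pow', map_mul, map_pow, hk, ffm_smul_algebraMap]
  rw [ffm_ordInf_algebraMap_eq_exp N hδG, ffm_ordInf_algebraMap_eq_exp N hδb,
    ← WithZero.exp_nsmul, ← WithZero.exp_add, WithZero.exp_inj] at h2
  refine ⟨-k + ffm_expInf N (δ • b), ?_⟩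
  have h3 : (p : ℕ) • (-(ffm_expInf N (δ • b))) = (p : ℤ) * (-(ffm_expInf N (δ • b))) := by
    rw [nsmul_eq_mul]
  rw [h3] at h2
  linarith

include hφK hh hD hb hab hA hAp hAψ in
/-- `ψ` kills the conjugates of `T ^ N`. -/
theorem s44r_psi_conj_TN (δ : SL(2, ℤ)) (g : Gamma0 N)
    (hg : ∀ w : ℍ, (g : SL(2, ℤ)) • (δ • w) = δ • ((N : ℝ) +ᵥ w)) :
    ψ (Additive.ofMul g) = 0 := by
  have hp0 : 0 < p := hpp.out.pos
  obtain ⟨hG0, hdvd⟩ := s44r_exp_dvd φ hφK p h hh D hD a b hb hab δ⁻¹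
  set Fδ : ℍ → ℂ := fun w => A (δ • w) with hFδ
  have hFd : MDiff Fδ := by
    have : MDiff (fun τ : ℍ => ((δ : SL(2, ℤ)) : GL (Fin 2) ℝ) • τ) :=
      UpperHalfPlane.mdifferentiable_smul (by simp)
    exact hA.comp this
  have hFG : ∀ z, Fδ z ^ p = ((δ⁻¹ • (a * b ^ (p - 1)) : ffm_R N) : ℍ → ℂ) z := by
    intro z
    rw [ffm_smul_apply, inv_inv]
    simp only [hFδ]
    rw [hAp]
    rfl
  have hper : ∀ w : ℍ, Fδ ((N : ℝ) +ᵥ w) =
      cexp (2 * π * I / p) ^ (ψ (Additive.ofMul g)).val * Fδ w := by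
    intro w
    simp only [hFδ]
    rw [← hg w, hAψ g]
  have h1 := s44r_cusp_step N p hp0 _ hG0 hdvd hFd hFG _ hper
  have h2 : (ψ (Additive.ofMul g)).val = 0 :=
    Nat.eq_zero_of_dvd_of_lt h1 (ZMod.val_lt _)
  exact (ZMod.val_eq_zero _).mp h2

end Main

end

end Fermat.Agent.Lib.S44
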