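/-
M-AT-P programme (S44), brick [KAPPA-PAR], part 3 (helper5): in the setting of `KapCusp.lean`
(`A ^ p = a · b ^ (p - 1)`, `A ∘ γ = ζ_p ^ ψ(γ) · A`, `φ h = a / b`, `div h = p • D`), for a prime
`p ≥ 5` not dividing `N`:  **`ψ ∈ s29h_Hp N p`** (parabolic, trivial on the elements of finite order).
-/
import Fermat.Agent.Lib.S44.RKapCusp

set_option autoImplicit false
set_option linter.unusedSectionVars false
set_option linter.style.haveILetI false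

namespace Fermat.Agent.Lib.S44

open UpperHalfPlane hiding I
open Complex Filter Function Topology AlgebraicCurve CongruenceSubgroup ModularCurve.Period
open Fermat.Agent.Lib.FF Fermat.Agent.Lib.S29 Fermat.Agent.Lib.Period
open scoped Real Manifold MatrixGroups

noncomputable section

/-- integer multiples of a period. -/
theorem s44r_period_int {H : ℍ → ℂ} (t : ℝ) (hper : ∀ w : ℍ, H (t +ᵥ w) = H w) (m : ℤ) (w : ℍ) :
    H (((m : ℝ) * t) +ᵥ w) = H w := by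
  have hnat : ∀ (k : ℕ) (w : ℍ), H (((k : ℝ) * t) +ᵥ w) = H w := by
    intro k w
    have := s44r_quasi_iter (H := H) t 1 (fun w => by rw [hper, one_mul]) k w
    rw [this, one_pow, one_mul]
  obtain ⟨k, rfl | rfl⟩ := m.eq_nat_or_neg
  · simpa using hnat k w
  · have h1 := hnat k ((((-(k : ℤ) : ℤ) : ℝ) * t) +ᵥ w)
    rw [vadd_vadd] at h1
    have h2 : (k : ℝ) * t + ((-(k : ℤ) : ℤ) : ℝ) * t = 0 := by
      push_cast
      ring
    rw [h2, zero_vadd] at h1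
    exact h1.symm

section Main

variable {K : Type*} [Field K] {F : Type*} [Field F] [Algebra K F] {N : ℕ} [NeZero N]
  (φ : F →+* ffm_E N)
  (hφK : ∀ c : K, ∃ c' : ℂ, φ (algebraMap K F c) = algebraMap ℂ (ffm_E N) c')
  (p : ℕ) [hpp : Fact p.Prime]
  (h : F) (hh : h ≠ 0) (D : Divisor K F) (hD : ∀ v : Place K F, v.ord h = (p : ℤ) * D v)
  (a b : ffm_R N) (hb : b ≠ 0)
  (hab : φ h * algebraMap (ffm_R N) (ffm_E N) b = algebraMap (ffm_R N) (ffm_E N) a)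
  {A : ℍ → ℂ} (hA : MDiff A) (hA0 : ∃ τ, A τ ≠ 0)
  (hAp : ∀ τ, A τ ^ p = (a : ℍ → ℂ) τ * (b : ℍ → ℂ) τ ^ (p - 1))
  (ψ : Additive (Gamma0 N) →+ ZMod p)
  (hAψ : ∀ (γ : Gamma0 N) (τ : ℍ), A ((γ : SL(2, ℤ)) • τ) =
    cexp (2 * π * I / p) ^ (ψ (Additive.ofMul γ)).val * A τ)

include hφK hh hD hb hab hA hA0 hAp hAψ in
/-- **`ψ` is parabolic.** -/
theorem s44r_psi_parabolic (hpN : ¬ p ∣ N) (γ : Gamma0 N)
    (hγ : ((γ : SL(2, ℤ)) : Matrix (Fin 2) (Fin 2) ℤ).trace ^ 2 = 4) :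
    ψ (Additive.ofMul γ) = 0 := by
  have hp : p.Prime := hpp.out
  obtain ⟨δ, m, hm⟩ := pmP_exists_conj_of_trace_sq (γ : SL(2, ℤ)) hγ
  -- the element `g = δ T^N δ⁻¹` of `Γ(N) ≤ Γ₀(N)`
  have hgmem : δ * ModularGroup.T ^ (N : ℤ) * δ⁻¹ ∈ Gamma0 N :=
    s29m_Gamma_le_Gamma0 N ((Gamma_normal N).conj_mem _ (ffm_T_pow_mem_Gamma N) δ)
  set g : Gamma0 N := ⟨_, hgmem⟩ with hgdef
  have hg : ∀ w : ℍ, (g : SL(2, ℤ)) • (δ • w) = δ • ((N : ℝ) +ᵥ w) := by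
    intro w
    have h1 := pmP_smul_conj_smul (γ := δ * ModularGroup.T ^ (N : ℤ) * δ⁻¹) (δ := δ)
      (m := (N : ℤ)) (Or.inl rfl) w
    rw [Int.cast_natCast] at h1
    exact h1
  have hψg := s44r_psi_conj_TN φ hφK p h hh D hD a b hb hab hA hAp ψ hAψ δ g hg
  set ζ : ℂ := cexp (2 * π * I / p) with hζ
  have hprim : IsPrimitiveRoot ζ p := Complex.isPrimitiveRoot_exp p hp.ne_zero
  set Fδ : ℍ → ℂ := fun w => A (δ • w) with hFδ
  have hperN : ∀ w : ℍ, Fδ ((N : ℝ) +ᵥ w) = Fδ w := by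
    intro w
    simp only [hFδ]
    rw [← hg w, hAψ g, hψg, ZMod.val_zero, pow_zero, one_mul]
  have hperm : ∀ w : ℍ, Fδ ((m : ℝ) +ᵥ w) = ζ ^ (ψ (Additive.ofMul γ)).val * Fδ w := by
    intro w
    simp only [hFδ]
    rw [← pmP_smul_conj_smul hm w, hAψ γ]
  have h1 : ∀ w : ℍ, Fδ (((N : ℝ) * (m : ℝ)) +ᵥ w) =
      (ζ ^ (ψ (Additive.ofMul γ)).val) ^ N * Fδ w :=
    fun w => s44r_quasi_iter (m : ℝ) _ hperm N w
  have h2 : ∀ w : ℍ, Fδ (((N : ℝ) * (m : ℝ)) +ᵥ w) = Fδ w := by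
    intro w
    rw [mul_comm]
    exact s44r_period_int (N : ℝ) hperN m w
  obtain ⟨τ, hτ⟩ := hA0
  have hw0 : Fδ (δ⁻¹ • τ) ≠ 0 := by
    simp only [hFδ]
    rwa [smul_inv_smul]
  have h3 : (ζ ^ (ψ (Additive.ofMul γ)).val) ^ N = 1 := by
    have h4 := (h1 (δ⁻¹ • τ)).symm.trans (h2 (δ⁻¹ • τ))
    have h5 : ((ζ ^ (ψ (Additive.ofMul γ)).val) ^ N - 1) * Fδ (δ⁻¹ • τ) = 0 := by
      rw [sub_mul, one_mul, h4, sub_self]
    rcases mul_eq_zero.mp h5 with h6 | h6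
    · exact sub_eq_zero.mp h6
    · exact absurd h6 hw0
  rw [← pow_mul] at h3
  have h7 : p ∣ (ψ (Additive.ofMul γ)).val * N := (hprim.pow_eq_one_iff_dvd _).mp h3
  have h8 : p ∣ (ψ (Additive.ofMul γ)).val := by
    rcases (Nat.Prime.dvd_mul hp).mp h7 with h9 | h9
    · exact h9
    · exact absurd h9 hpN
  have h9 : (ψ (Additive.ofMul γ)).val = 0 := Nat.eq_zero_of_dvd_of_lt h8 (ZMod.val_lt _)
  exact (ZMod.val_eq_zero _).mp h9

include hφK hh hD hb hab hA hA0 hAp hAψ in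
/-- **`ψ` kills the elements of finite order.** -/
theorem s44r_psi_finOrder (hp5 : 5 ≤ p) (hpN : ¬ p ∣ N) (γ : Gamma0 N) (hfin : IsOfFinOrder γ) :
    ψ (Additive.ofMul γ) = 0 := by
  have hp : p.Prime := hpp.out
  have htr := Fermat.Agent.Lib.S16.s16f_abs_trace_le_of_isOfFinOrder N γ hfin
  set t : ℤ := (((γ : SL(2, ℤ)) : Matrix (Fin 2) (Fin 2) ℤ).trace) with ht
  have hcases : t ^ 2 = 4 ∨ t = 0 ∨ t = 1 ∨ t = -1 := by
    rw [abs_le] at htr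
    obtain ⟨h1, h2⟩ := htr
    have : t = -2 ∨ t = -1 ∨ t = 0 ∨ t = 1 ∨ t = 2 := by omega
    rcases this with h | h | h | h | h <;> simp [h]
  rcases hcases with h4 | h3
  · exact s44r_psi_parabolic φ hφK p h hh D hD a b hb hab hA hA0 hAp ψ hAψ hpN γ h4
  · have h12 : (γ : SL(2, ℤ)) ^ 12 = 1 := s44r_pow_twelve _ h3
    have hγ12 : γ ^ 12 = 1 := Subtype.ext (by simpa using h12)
    have h5 : (12 : ℕ) • ψ (Additive.ofMul γ) = 0 := by
      rw [← map_nsmul, ← ofMul_pow, hγ12, ofMul_one, map_zero]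
    rw [nsmul_eq_mul] at h5
    have h12u : ((12 : ℕ) : ZMod p) ≠ 0 := by
      intro h0
      have h6 : p ∣ 12 := (ZMod.natCast_eq_zero_iff 12 p).mp h0
      have h7 : p ≤ 12 := Nat.le_of_dvd (by norm_num) h6
      interval_cases p <;> simp_all (config := { decide := true })
    exact (mul_eq_zero.mp h5).resolve_left h12u

include hφK hh hD hb hab hA hA0 hAp hAψ in
/-- **[KAPPA-PAR], abstract form: `ψ ∈ H_p`.** -/
theorem s44r_psi_mem_Hp (hp5 : 5 ≤ p) (hpN : ¬ p ∣ N) : ψ ∈ s29h_Hp N p := by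
  rw [s29h_mem_Hpar_iff]
  exact ⟨fun γ hγ => s44r_psi_parabolic φ hφK p h hh D hD a b hb hab hA hA0 hAp ψ hAψ hpN γ hγ,
    fun γ hγ => s44r_psi_finOrder φ hφK p h hh D hD a b hb hab hA hA0 hAp ψ hAψ hp5 hpN γ hγ⟩

end Main

end

end Fermat.Agent.Lib.S44
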