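/-
M-AT-P programme (S44), soft part (helper2), file 7 (brick B2): **from a mod-`p` eigenclass in
`k ⊗ H_p(M)` to a normalised eigenform of level `M`** (no newness condition): coordinates in the full
lattice `H(M, ℤ)` (`s41g_coord`, `s41g_red`), Deligne–Serre lifting (`s41f_lift`), Eichler–Shimura
(`s41f_exists_pair`), and `s35c_exists_eigenform`.  (`U_q`-free twin of `s41f_form`.)
-/
import Fermat.Agent.Lib.S41.Form
import Fermat.Agent.Lib.S41.GCoord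
import Fermat.Agent.Lib.S41.GSetup

set_option autoImplicit false
set_option linter.style.haveILetI false
set_option linter.unusedSectionVars false

open scoped TensorProduct

namespace Fermat.Agent.Lib.S44

open Fermat.Agent.Lib.S29 Fermat.Agent.Lib.S30 Fermat.Agent.Lib.S35 Fermat.Agent.Lib.S41
  CongruenceSubgroup ModularCurve ModularCurve.Period ModularFormClass

noncomputable section

/-- base change of the inclusion of a submodule which is everything is onto. -/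
theorem s44s_mem_range_baseChange {F k V : Type*} [Field F] [Field k] [Algebra F k]
    [AddCommGroup V] [Module F V] (N : Submodule F V) (hN : N = ⊤) (w : k ⊗[F] V) :
    w ∈ LinearMap.range (N.subtype.baseChange k) := by
  subst hN
  have hs : Function.Surjective ((⊤ : Submodule F V).subtype) := fun x => ⟨⟨x, Submodule.mem_top⟩, rfl⟩
  have h2 : Function.Surjective (((⊤ : Submodule F V).subtype).baseChange k) := by
    rw [LinearMap.baseChange_eq_ltensor]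
    exact LinearMap.lTensor_surjective k hs
  exact LinearMap.mem_range.mpr (h2 w)

variable (M : ℕ) [NeZero M] (p : ℕ) [Fact p.Prime] (k : Type) [Field k] [Algebra (ZMod p) k]

/-- **coordinates in the full lattice.** -/
theorem s44s_coord (e : Nat.Primes → k) (J : Nat.Primes → Prop)
    (w : k ⊗[ZMod p] s29h_Hp M p) (hw : w ≠ 0)
    (heig : ∀ ℓ : Nat.Primes, J ℓ → (s29h_Tl M p ℓ).baseChange k w = e ℓ • w) :
    ∃ (r : ℕ) (b : Fin r → (Additive (Gamma0 M) →+ ℤ))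
      (t : Nat.Primes → Matrix (Fin r) (Fin r) ℤ),
      LinearIndependent ℤ b ∧ (∀ j, b j ∈ s29s_M M) ∧
      (∀ ℓ : Nat.Primes, ∀ j, s41_TlZ M ℓ (b j) = ∑ i, t ℓ i j • b i) ∧
      ∃ v : Fin r → k, v ≠ 0 ∧
        ∀ ℓ : Nat.Primes, J ℓ → ((t ℓ).map (Int.cast : ℤ → k)).mulVec v = e ℓ • v := by
  have hspan : Submodule.span (ZMod p)
      ((s41g_red M p) '' ((⊤ : Submodule ℤ (s29s_M M)) : Set (s29s_M M))) = ⊤ := by
    rw [Submodule.top_coe, Set.image_univ, (s41g_red_surjective M p).range_eq, Submodule.span_univ]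
  obtain ⟨r, b, t, hbli, -, hbt, v, hv0, hveig⟩ := s41g_coord (p := p) (k := k)
    (L' := s29s_M M) (V' := s29h_Hp M p) (s41g_red M p) (fun x hx => s41g_red_ker M p x hx)
    (⊤ : Submodule ℤ (s29s_M M)) (fun x _ => Submodule.mem_top) J
    (s41g_TZ M) (fun i x _ => Submodule.mem_top)
    (s29h_Tl M p) (fun i x => s41g_Tl_red M p i x) e w hw
    (s44s_mem_range_baseChange _ hspan w) heig
  refine ⟨r, fun j => ((b j : s29s_M M) : Additive (Gamma0 M) →+ ℤ), t, ?_, fun j => (b j).2,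
    fun ℓ j => ?_, v, hv0, hveig⟩
  · exact hbli.map' (s29s_M M).subtype (Submodule.ker_subtype _)
  · have h1 := congrArg (fun z : s29s_M M => (z : Additive (Gamma0 M) →+ ℤ)) (hbt ℓ j)
    simp only [Submodule.coe_sum, Submodule.coe_smul] at h1
    exact h1

/-- **[B2]: an eigenclass mod `p` of level `M` gives a normalised eigenform of level `M`.** -/
theorem s44s_formOld (e : Nat.Primes → k) (S : Finset ℕ)
    (w : k ⊗[ZMod p] s29h_Hp M p) (hw : w ≠ 0)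
    (heig : ∀ ℓ : Nat.Primes, (ℓ : ℕ) ∉ S → ¬ (ℓ : ℕ) ∣ M * p →
      (s29h_Tl M p ℓ).baseChange k w = e ℓ • w) :
    ∃ (g : CuspForm (Gamma0 M) 2) (𝔪' : Ideal (integralClosure ℤ ℂ)),
      g.IsNormalizedEigenform ∧ 𝔪'.IsMaximal ∧ (p : integralClosure ℤ ℂ) ∈ 𝔪' ∧
      ∀ ℓ : Nat.Primes, (ℓ : ℕ) ∉ S → ¬ (ℓ : ℕ) ∣ M * p → ∀ n : ℤ, e ℓ = (n : k) →
        ∃ a : integralClosure ℤ ℂ, (a : ℂ) = qCoeff g ℓ ∧
          a - ((n : ℤ) : integralClosure ℤ ℂ) ∈ 𝔪' := by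
  classical
  have hchar : CharP k p :=
    charP_of_injective_algebraMap (algebraMap (ZMod p) k).injective p
  obtain ⟨r, b, t, hbli, hbM, hbt, v, hv0, hveig⟩ := s44s_coord M p k e
    (fun ℓ : Nat.Primes => (ℓ : ℕ) ∉ S ∧ ¬ (ℓ : ℕ) ∣ M * p) w hw
    (fun ℓ hℓ => heig ℓ hℓ.1 hℓ.2)
  -- the index set of good primes
  let I : Type := {ℓ : Nat.Primes // (ℓ : ℕ) ∉ S ∧ ¬ (ℓ : ℕ) ∣ M * p}
  have hIM : ∀ i : I, ¬ ((i.1 : Nat.Primes) : ℕ) ∣ M := fun i h => i.2.2 (Dvd.dvd.mul_right h p)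
  have hcomm : ∀ i j : I, t i.1 * t j.1 = t j.1 * t i.1 := fun i j =>
    s41f_mat_comm b hbli hbM i.1 j.1 (hIM i) (hIM j) (t i.1) (t j.1) (hbt i.1) (hbt j.1)
  obtain ⟨ψ, c, 𝔪', hc0, hceig, hmax, hpm, hcong⟩ :=
    s41f_lift (fun i : I => t i.1) hcomm p k (fun i => e i.1) v hv0 (fun i => hveig i.1 i.2)
  -- preimages of the basis classes under the period pairing
  have hpre : ∀ j, ∃ x : CuspForm (Gamma0 M) 2 × CuspForm (Gamma0 M) 2,
      periodHomPair M x = s29s_cast ℂ (b j) := fun j =>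
    s41f_exists_pair _ (s29s_cast_isParabolic ℂ (hbM j).1)
  choose x hx using hpre
  set X : CuspForm (Gamma0 M) 2 × CuspForm (Gamma0 M) 2 := ∑ j, c j • x j with hX
  have hPX : periodHomPair M X = s41f_chi b c := by
    rw [hX, map_sum, s41f_chi]
    refine Finset.sum_congr rfl fun j _ => ?_
    rw [map_smul, hx j]
  have hX0 : X ≠ 0 := by
    intro h0
    apply s41f_chi_ne_zero b hbli c hc0
    rw [← hPX, h0, map_zero]
  -- `T_ℓ X = ψ_ℓ X`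
  have hTX : ∀ i : I,
      CuspForm.heckeTLin 2 (i.1 : Nat.Primes).2 (hIM i) X.1 = ((ψ i : integralClosure ℤ ℂ) : ℂ) • X.1 ∧
      CuspForm.heckeTLin 2 (i.1 : Nat.Primes).2 (hIM i) X.2 = ((ψ i : integralClosure ℤ ℂ) : ℂ) • X.2 := by
    intro i
    haveI : Fact ((i.1 : Nat.Primes) : ℕ).Prime := ⟨(i.1 : Nat.Primes).2⟩
    have h1 := s30e_heckeHom_periodHomPair (i.1 : Nat.Primes).2 (hIM i) X.1 X.2
    have h2 : periodHomPair M (X.1, X.2) = s41f_chi b c := hPX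
    rw [h2, s41f_hecke_chi b i.1 (t i.1) (hbt i.1) c, hceig i] at h1
    have h3 : s41f_chi b (((ψ i : integralClosure ℤ ℂ) : ℂ) • c) =
        periodHomPair M ((((ψ i : integralClosure ℤ ℂ) : ℂ) • X.1,
          ((ψ i : integralClosure ℤ ℂ) : ℂ) • X.2)) := by
      have h4 : ((((ψ i : integralClosure ℤ ℂ) : ℂ) • X.1, ((ψ i : integralClosure ℤ ℂ) : ℂ) • X.2) :
          CuspForm (Gamma0 M) 2 × CuspForm (Gamma0 M) 2) =
          ((ψ i : integralClosure ℤ ℂ) : ℂ) • X := rfl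
      rw [h4, map_smul, hPX, s41f_chi, s41f_chi, Finset.smul_sum]
      refine Finset.sum_congr rfl fun j _ => ?_
      rw [Pi.smul_apply, smul_eq_mul, mul_smul]
    rw [h3] at h1
    have h5 := s41f_pair_injective h1
    exact ⟨(congrArg Prod.fst h5).symm, (congrArg Prod.snd h5).symm⟩
  -- the eigenvalue function
  let cfun : ℕ → ℂ := fun ℓ =>
    if h : ∃ hℓ : ℓ.Prime, ℓ ∉ S ∧ ¬ ℓ ∣ M * p then
      ((ψ ⟨⟨ℓ, h.choose⟩, h.choose_spec⟩ : integralClosure ℤ ℂ) : ℂ) else 0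
  have hcfun : ∀ i : I, cfun ((i.1 : Nat.Primes) : ℕ) = ((ψ i : integralClosure ℤ ℂ) : ℂ) := by
    intro i
    have h : ∃ hℓ : ((i.1 : Nat.Primes) : ℕ).Prime,
        ((i.1 : Nat.Primes) : ℕ) ∉ S ∧ ¬ ((i.1 : Nat.Primes) : ℕ) ∣ M * p :=
      ⟨(i.1 : Nat.Primes).2, i.2⟩
    show (if h : ∃ hℓ : ((i.1 : Nat.Primes) : ℕ).Prime,
        ((i.1 : Nat.Primes) : ℕ) ∉ S ∧ ¬ ((i.1 : Nat.Primes) : ℕ) ∣ M * p then
      ((ψ ⟨⟨_, h.choose⟩, h.choose_spec⟩ : integralClosure ℤ ℂ) : ℂ) else 0) = _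
    rw [dif_pos h]
    rfl
  -- the set of excluded primes
  let S' : Set ℕ := {ℓ | ℓ ∣ p ∨ ℓ ∈ S}
  have hgood : ∀ (ℓ : ℕ) (hℓ : ℓ.Prime), ¬ ℓ ∣ M → ℓ ∉ S' → ℓ ∉ S ∧ ¬ ℓ ∣ M * p := by
    intro ℓ hℓ hℓM hℓS
    refine ⟨fun h => hℓS (Or.inr h), fun h => ?_⟩
    rcases (Nat.Prime.dvd_mul hℓ).mp h with h | h
    · exact hℓM h
    · exact hℓS (Or.inl h)
  -- a non-zero component
  have hex : ∃ h : CuspForm (Gamma0 M) 2, h ≠ 0 ∧
      (∀ (ℓ : ℕ) (hℓ : ℓ.Prime) (hℓM : ¬ ℓ ∣ M), ℓ ∉ S' →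
        CuspForm.heckeTLin 2 hℓ hℓM h = cfun ℓ • h) := by
    by_cases h1 : X.1 = 0
    · have h2 : X.2 ≠ 0 := fun h2 => hX0 (Prod.ext h1 h2)
      refine ⟨X.2, h2, fun ℓ hℓ hℓM hℓS => ?_⟩
      have := (hTX ⟨⟨ℓ, hℓ⟩, hgood ℓ hℓ hℓM hℓS⟩).2
      rw [hcfun ⟨⟨ℓ, hℓ⟩, hgood ℓ hℓ hℓM hℓS⟩]
      exact this
    · refine ⟨X.1, h1, fun ℓ hℓ hℓM hℓS => ?_⟩
      have := (hTX ⟨⟨ℓ, hℓ⟩, hgood ℓ hℓ hℓM hℓS⟩).1
      rw [hcfun ⟨⟨ℓ, hℓ⟩, hgood ℓ hℓ hℓM hℓS⟩]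
      exact this
  obtain ⟨h, hh0, hheig⟩ := hex
  obtain ⟨g, hg, hgc⟩ := s35c_exists_eigenform S' cfun h hh0 hheig
  refine ⟨g, 𝔪', hg, hmax, hpm, fun ℓ hℓS hℓ n hn => ?_⟩
  have hℓM : ¬ (ℓ : ℕ) ∣ M := fun h' => hℓ (Dvd.dvd.mul_right h' p)
  have hℓS' : (ℓ : ℕ) ∉ S' := by
    rintro (h' | h')
    · exact hℓ (Dvd.dvd.mul_left h' M)
    · exact hℓS h'
  refine ⟨ψ ⟨ℓ, hℓS, hℓ⟩, ?_, hcong ⟨ℓ, hℓS, hℓ⟩ n hn⟩
  rw [hgc ℓ ℓ.2 hℓM hℓS']
  exact (hcfun ⟨ℓ, hℓS, hℓ⟩).symm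

end

end Fermat.Agent.Lib.S44
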