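/-
M-AT-P programme (S44), soft part (helper2), file 9: leaf [L2] (`s44i_Old` with the hypotheses
`5 ≤ p`, `¬ p ∣ M` available at the call site) from brick B2 (`s44s_formOld`) and the CONVERSE
EigenSupport contract `s44s_ConvEigen` (= helper5's [KAPPA-PAR] output `s44r_convEigen`).
-/
import Fermat.Agent.Lib.S44.Iface
import Fermat.Agent.Lib.S44.SoftOld
import Fermat.Agent.Lib.S29.KIface

set_option autoImplicit false
set_option linter.style.haveILetI false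
set_option linter.unusedSectionVars false

open scoped TensorProduct

namespace Fermat.Agent.Lib.S44

open Module ModularCurve AlgebraicCurve
open Fermat.Agent.Lib.S29 Fermat.Agent.Lib.S30 Fermat.Agent.Lib.S33

noncomputable section

/-- **Converse EigenSupport** ([KAPPA-PAR], helper5): an eigenvector in `k ⊗ J₀(N)[p]` gives an
eigenvector in `k ⊗ H_p(N)` with the same eigenvalues (`p ≥ 5`, `p ∤ N`). -/
def s44s_ConvEigen : Prop :=
  ∀ (N : ℕ) [NeZero N] (p : ℕ) [Fact p.Prime], 5 ≤ p → ¬ p ∣ N →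
  ∀ (k : Type) [Field k] [Algebra (ZMod p) k] (S : Finset ℕ) (e : Nat.Primes → k)
    (v : k ⊗[ZMod p] s29k_Jp N p), v ≠ 0 →
    (∀ ℓ : Nat.Primes, (ℓ : ℕ) ∉ S → ¬ (ℓ : ℕ) ∣ N * p →
      (s29k_Tl N p ℓ).baseChange k v = e ℓ • v) →
    ∃ w : k ⊗[ZMod p] s29h_Hp N p, w ≠ 0 ∧
      ∀ ℓ : Nat.Primes, (ℓ : ℕ) ∉ S → ¬ (ℓ : ℕ) ∣ N * p →
        (s29h_Tl N p ℓ).baseChange k w = e ℓ • w

/-- **[L2]** (with `5 ≤ p`, `¬ p ∣ M`): a non-zero eigen-`p`-torsion point at level `M` gives a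
normalised eigenform of level `M`. -/
theorem s44s_old (hconv : s44s_ConvEigen) (M : ℕ) [NeZero M] (p : ℕ) (hp : p.Prime) (hp5 : 5 ≤ p)
    (hpM : ¬ p ∣ M) (a : ℕ → ℤ) (B : Finset ℕ)
    (hB : ∀ q : ℕ, q.Prime → q ∣ M * p → q ∈ B)
    (y : JZero M) (hy0 : y ≠ 0) (hy : s44i_Eig M p a B y) : s44i_LevelOcc M p a B := by
  classical
  haveI : Fact p.Prime := ⟨hp⟩
  obtain ⟨hpy, hyeig⟩ := hy
  -- the point of `J₀(M)[p]`
  set y' : s29k_Jp M p := ⟨y, by rw [Pic0.mem_torsion, natCast_zsmul]; exact hpy⟩ with hy'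
  have hy'0 : y' ≠ 0 := fun h => hy0 (congrArg (fun z : s29k_Jp M p => (z : JZero M)) h)
  set v : (ZMod p) ⊗[ZMod p] s29k_Jp M p := (1 : ZMod p) ⊗ₜ[ZMod p] y' with hv
  have hv0 : v ≠ 0 := by
    intro h0
    have h1 := congrArg (TensorProduct.lid (ZMod p) (s29k_Jp M p)) h0
    rw [hv, TensorProduct.lid_tmul, one_smul, map_zero] at h1
    exact hy'0 h1
  set e : Nat.Primes → ZMod p := fun ℓ => ((a ℓ : ℤ) : ZMod p) with he
  have hveig : ∀ ℓ : Nat.Primes, (ℓ : ℕ) ∉ B → ¬ (ℓ : ℕ) ∣ M * p →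
      (s29k_Tl M p ℓ).baseChange (ZMod p) v = e ℓ • v := by
    intro ℓ hℓB _
    have h1 : s29k_Tl M p ℓ y' = e ℓ • y' := by
      apply Subtype.ext
      rw [s29k_Tl_coe, he, Int.cast_smul_eq_zsmul]
      exact hyeig ℓ hℓB
    rw [hv, LinearMap.baseChange_tmul, h1, TensorProduct.tmul_smul, TensorProduct.smul_tmul']
  obtain ⟨w, hw0, hweig⟩ := hconv M p hp5 hpM (ZMod p) B e v hv0 hveig
  obtain ⟨g, 𝔪', hg, hmax, hpm, hcong⟩ := s44s_formOld M p (ZMod p) e B w hw0 hweig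
  refine ⟨g, 𝔪', hg, hmax, hpm, fun ℓ hℓ hℓB => ?_⟩
  have hℓMp : ¬ ℓ ∣ M * p := fun h => hℓB (hB ℓ hℓ h)
  exact hcong ⟨ℓ, hℓ⟩ hℓB hℓMp (a ℓ) rfl

/-- **[L2]** in the wording of Iface v2 (`s44i_Old`), modulo the converse EigenSupport. -/
theorem s44s_old_leaf (hconv : s44s_ConvEigen) : s44i_Old :=
  fun M _ p hp hp5 hpM a B hB y hy0 hy => s44s_old hconv M p hp hp5 hpM a B hB y hy0 hy

end

end Fermat.Agent.Lib.S44
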