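/-
M-AT-P programme (S44), brick [KAPPA-PAR], final file (helper5): the converse EigenSupport contract
in helper2's shape `s44s_ConvEigen` (Lib/S44/SoftOldLeaf.lean), and hence leaf [L2] with the
hypotheses `5 ≤ p`, `¬ p ∣ M`:  `s44r_old`.
-/
import Fermat.Agent.Lib.S44.RKapCore
import Fermat.Agent.Lib.S44.SoftOldLeaf

set_option autoImplicit false
set_option linter.style.haveILetI false
set_option linter.unusedSectionVars false

open scoped TensorProduct

namespace Fermat.Agent.Lib.S44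

open Module ModularCurve AlgebraicCurve
open Fermat.Agent.Lib.S29 Fermat.Agent.Lib.S30 Fermat.Agent.Lib.S33

noncomputable section

/-- **Converse EigenSupport**, helper2's contract. -/
theorem s44r_convEigen_s : s44s_ConvEigen := by
  intro N _ p _ hp5 hpN k _ _ S e v hv heig
  obtain ⟨w, hw0, hw⟩ := s44r_convEigen N p hp5 hpN k (↑S : Set ℕ) e v hv
    (fun ℓ h1 h2 => heig ℓ (fun h3 => h2 (Finset.mem_coe.mpr h3)) h1)
  exact ⟨w, hw0, fun ℓ h2 h1 => hw ℓ h1 (fun h3 => h2 (Finset.mem_coe.mp h3))⟩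

/-- **[L2]** (with `5 ≤ p`, `¬ p ∣ M`): a non-zero eigen-`p`-torsion point at level `M` gives a
normalised eigenform of level `M` with the same eigenvalues modulo a maximal ideal over `p`. -/
theorem s44r_old (M : ℕ) [NeZero M] (p : ℕ) (hp : p.Prime) (hp5 : 5 ≤ p)
    (hpM : ¬ p ∣ M) (a : ℕ → ℤ) (B : Finset ℕ)
    (hB : ∀ q : ℕ, q.Prime → q ∣ M * p → q ∈ B)
    (y : JZero M) (hy0 : y ≠ 0) (hy : s44i_Eig M p a B y) : s44i_LevelOcc M p a B :=
  s44s_old s44r_convEigen_s M p hp hp5 hpM a B hB y hy0 hy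

/-- **Leaf [L2]** in the text of Iface v2. -/
theorem s44r_old_leaf : s44i_Old :=
  fun M _ p hp hp5 hpM a B hB y hy0 hy => s44r_old M p hp hp5 hpM a B hB y hy0 hy

end

end Fermat.Agent.Lib.S44
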