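/-
M-AT-P programme (S44), leaf [L4a] = [GLUE-p] (helper2), ABSTRACT CORE over helper4's Σ-datum
`s33z_Datum` (Lib/S33/CritSs): no modular curve in this file.

`Z` a Σ-datum (two Gauss components `C_∞`, `C_0` of the function field `𝓕`, node places `N`,
[GLUE], [LIFT], `unit`).  Let `f₁, f₂ ∈ 𝓕` be node-avoiding units of both components with
`f₁ ≡ 1 mod ϖ O_∞`, `f₂ ≡ 1 mod ϖ O_0` and `f₂ = c g ^ p f₁` (`c` a non-zero constant).  Then there is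
`g₁` such that `g₁ ^ p f₁` is node-avoiding and `≡ 1 mod ϖ (O_∞ ⊓ O_0)` (`s44s_glue_core`).

Proof: normalise `c g ^ p = c' v ^ p` with `v` a unit of `O_∞`, `c'` a unit of `A₀`; `u₀ ∈ A₀` a lift
of the `p`-th root of `c' mod ϖ`; `t = u₀ v` is a node-avoiding unit of both components with
`red_∞ t ^ p = red_∞ f₂` and `red_0 t ^ p = red_0 f₁⁻¹`.  At every node `ev (red_∞ t) ^ p = ev (red_∞ f₂)
= ev (red_0 f₂) = 1` ([GLUE] for `f₂`), so `ev (red_∞ t) = 1 = ev (red_0 t)` ([GLUE] for `t`, `p`-th roots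
are unique in characteristic `p`): the pair `(1, red_0 t)` is glued; [LIFT] gives `g₁`; `unit` gives the
node-avoidance of `g₁ ^ p f₁ = 1 + ϖ y`.
-/
import Fermat.Agent.Lib.S33.CritSs

set_option autoImplicit false
set_option linter.style.haveILetI false

noncomputable section

namespace Fermat.Agent.Lib.S44

open AlgebraicCurve Fermat.Agent.Lib.FF Fermat.Agent.Lib.S33

variable {L₀ 𝓕' κ Fb : Type*} [Field L₀] [Field 𝓕'] [Algebra L₀ 𝓕'] [Field κ] [Field Fb]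
  [Algebra κ Fb]

section Comp

variable {𝓕 : Type*} [Field 𝓕] [Algebra L₀ 𝓕] (D : s33f_Datum L₀ 𝓕 κ Fb)

/-- every non-zero function is `ϖ ^ m · (unit of O)`, `m : ℤ`. -/
theorem s44s_exists_zpow_unit {x : 𝓕} (hx : x ≠ 0) :
    ∃ (m : ℤ) (v : 𝓕), v ∈ D.O ∧ v⁻¹ ∈ D.O ∧ x = s33f_pi D ^ m * v := by
  rcases D.O.mem_or_inv_mem x with h | h
  · obtain ⟨j, v, hv, hv', e⟩ := D.unif x h hx
    exact ⟨(j : ℤ), v, hv, hv', by rw [zpow_natCast]; exact e⟩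
  · obtain ⟨j, v, hv, hv', e⟩ := D.unif x⁻¹ h (inv_ne_zero hx)
    refine ⟨-(j : ℤ), v⁻¹, hv', by rwa [inv_inv], ?_⟩
    have : x = (x⁻¹)⁻¹ := (inv_inv x).symm
    rw [this, e, mul_inv, zpow_neg, zpow_natCast]
    rfl

/-- an element of a valuation subring a positive power of which lies in it. -/
theorem s44s_mem_of_pow_mem {F : Type*} [Field F] (W : ValuationSubring F) {x : F} {n : ℕ}
    (hn : 1 ≤ n) (h : x ^ n ∈ W) : x ∈ W := by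
  rcases W.mem_or_inv_mem x with h1 | h1
  · exact h1
  · rcases eq_or_ne x 0 with rfl | hx
    · exact W.zero_mem
    · have : x = x ^ n * x⁻¹ ^ (n - 1) := by
        obtain ⟨m, rfl⟩ : ∃ m, n = m + 1 := ⟨n - 1, by omega⟩
        rw [Nat.add_sub_cancel, pow_succ, inv_pow]
        field_simp
      rw [this]
      exact W.mul_mem _ _ h (W.pow_mem h1 _)

/-- a constant which is a unit of `O` has non-zero reduction. -/
theorem s44s_resA_ne_zero {c : L₀} (hc : c ∈ D.A₀) (hc' : c⁻¹ ∈ D.A₀) (hc0 : c ≠ 0) :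
    D.resA ⟨c, hc⟩ * D.resA ⟨c⁻¹, hc'⟩ = 1 := by
  rw [← map_mul]
  have : (⟨c, hc⟩ * ⟨c⁻¹, hc'⟩ : D.A₀) = 1 := by
    apply Subtype.ext
    push_cast
    exact mul_inv_cancel₀ hc0
  rw [this, map_one]

end Comp

section Core

variable {D' : s33f_Datum L₀ 𝓕' κ Fb} {𝓕 : Type*} [Field 𝓕] [Algebra L₀ 𝓕]
  {ι : Type*} {k : ι → Type*} [∀ s, Field (k s)] [∀ s, Algebra κ (k s)]
  (Z : s33z_Datum D' 𝓕 ι k)

/-- in a field of characteristic `p`, `x ^ p = 1 → x = 1`. -/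
theorem s44s_eq_one_of_pow_char {K : Type*} [Field K] (p : ℕ) [Fact p.Prime] [CharP K p] {x : K}
    (h : x ^ p = 1) : x = 1 := by
  apply frobenius_inj K p
  rw [frobenius_def, frobenius_def, h, one_pow]

/-- **[GLUE-p], abstract core.** -/
theorem s44s_glue_core {f₁ f₂ g : 𝓕} {c : L₀}
    (hf₁ : s33z_NF Z f₁) (hf₂ : s33z_NF Z f₂)
    (h1i : s33f_Cong Z.Di 1 f₁ 1) (h1z : f₁ ∈ Z.Cz.O) (h1z' : f₁⁻¹ ∈ Z.Cz.O)
    (h2z : s33f_Cong Z.Dz 1 f₂ 1) (h2i : f₂ ∈ Z.Ci.O) (h2i' : f₂⁻¹ ∈ Z.Ci.O)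
    (hc : c ≠ 0) (hg : g ≠ 0) (e : f₂ = algebraMap L₀ 𝓕 c * g ^ D'.p * f₁) :
    ∃ g₁ : 𝓕, g₁ ≠ 0 ∧ s33z_NF Z (g₁ ^ D'.p * f₁) ∧ s33z_Cong Z 1 (g₁ ^ D'.p * f₁) := by
  have hpp : D'.p.Prime := D'.p_prime
  haveI : Fact D'.p.Prime := ⟨hpp⟩
  have hp1 : 1 ≤ D'.p := hpp.one_lt.le
  have hp0 : D'.p ≠ 0 := hpp.ne_zero
  have hf₁0 : f₁ ≠ 0 := hf₁.1
  have hf₂0 : f₂ ≠ 0 := hf₂.1
  -- `f₁` is a unit of `O_∞`, `f₂` a unit of `O_0`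
  have h1i_mem : f₁ ∈ Z.Ci.O := h1i.mem_one
  have h1i_inv : f₁⁻¹ ∈ Z.Ci.O := s33f_inv_mem_of_cong_one le_rfl h1i
  have h2z_mem : f₂ ∈ Z.Cz.O := h2z.mem_one
  have h2z_inv : f₂⁻¹ ∈ Z.Cz.O := s33f_inv_mem_of_cong_one le_rfl h2z
  -- Step 1: normalise `g = ϖ ^ m v`
  obtain ⟨m, v, hv, hv', eg⟩ := s44s_exists_zpow_unit Z.Di hg
  have hv0 : v ≠ 0 := by
    rintro rfl
    rw [mul_zero] at eg
    exact hg eg
  obtain ⟨c', hc'⟩ : ∃ c' : L₀, c' = c * D'.ϖ ^ (m * (D'.p : ℤ)) := ⟨_, rfl⟩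
  have hc'0 : c' ≠ 0 := by
    rw [hc']
    exact mul_ne_zero hc (zpow_ne_zero _ D'.ϖ_ne_zero)
  have e' : f₂ = algebraMap L₀ 𝓕 c' * v ^ D'.p * f₁ := by
    have hpi : s33f_pi Z.Di = algebraMap L₀ 𝓕 D'.ϖ := rfl
    rw [e, eg, hc', map_mul, map_zpow₀, mul_pow, hpi, ← zpow_natCast (algebraMap L₀ 𝓕 D'.ϖ ^ m),
      ← zpow_mul]
    ring
  have hquot : algebraMap L₀ 𝓕 c' * v ^ D'.p = f₂ * f₁⁻¹ := by
    rw [e', mul_assoc (algebraMap L₀ 𝓕 c' * v ^ D'.p), mul_inv_cancel₀ hf₁0, mul_one]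
  -- `c'` is a unit of `A₀`
  have hc'A : c' ∈ D'.A₀ := by
    rw [← Z.Ci.const_mem_iff]
    have : algebraMap L₀ 𝓕 c' = f₂ * f₁⁻¹ * (v⁻¹) ^ D'.p := by
      rw [← hquot, inv_pow, mul_assoc, mul_inv_cancel₀ (pow_ne_zero _ hv0), mul_one]
    rw [this]
    exact Z.Ci.O.mul_mem _ _ (Z.Ci.O.mul_mem _ _ h2i h1i_inv) (Z.Ci.O.pow_mem hv' _)
  have hc'A' : c'⁻¹ ∈ D'.A₀ := by
    rw [← Z.Ci.const_mem_iff]
    have : algebraMap L₀ 𝓕 c'⁻¹ = f₁ * f₂⁻¹ * v ^ D'.p := by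
      rw [map_inv₀]
      apply inv_eq_of_mul_eq_one_right
      have h0 : algebraMap L₀ 𝓕 c' * (f₁ * f₂⁻¹ * v ^ D'.p) =
          (algebraMap L₀ 𝓕 c' * v ^ D'.p) * (f₁ * f₂⁻¹) := by ring
      rw [h0, hquot]
      field_simp
    rw [this]
    exact Z.Ci.O.mul_mem _ _ (Z.Ci.O.mul_mem _ _ h1i_mem h2i') (Z.Ci.O.pow_mem hv _)
  have hres1 := s44s_resA_ne_zero Z.Di hc'A hc'A' hc'0
  -- Step 2: the `p`-th root of `c' mod ϖ`
  obtain ⟨d, hd⟩ := D'.κ_perfect (D'.resA ⟨c', hc'A⟩)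
  obtain ⟨u₀, hu₀⟩ := D'.resA_surjective d
  have hd0 : d ≠ 0 := by
    rintro rfl
    rw [zero_pow hp0] at hd
    have h0 : (Z.Di.resA ⟨c', hc'A⟩) = 0 := hd.symm
    rw [h0, zero_mul] at hres1
    exact zero_ne_one hres1
  have hu₀0 : (u₀ : L₀) ≠ 0 := by
    intro h0
    apply hd0
    have : u₀ = 0 := Subtype.ext h0
    rw [← hu₀, this, map_zero]
  -- the constant `w = u₀ ^ p / c'`, with reduction `1`
  obtain ⟨w, hw⟩ : ∃ w : D'.A₀, w = u₀ ^ D'.p * ⟨c'⁻¹, hc'A'⟩ := ⟨_, rfl⟩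
  have hwL : (w : L₀) = (u₀ : L₀) ^ D'.p * c'⁻¹ := by
    rw [hw]
    push_cast
    rfl
  have hwres : D'.resA w = 1 := by
    rw [hw, map_mul, map_pow, hu₀, hd]
    exact hres1
  have hw0 : (w : L₀) ≠ 0 := by
    rw [hwL]
    exact mul_ne_zero (pow_ne_zero _ hu₀0) (inv_ne_zero hc'0)
  obtain ⟨t, ht⟩ : ∃ t : 𝓕, t = algebraMap L₀ 𝓕 (u₀ : L₀) * v := ⟨_, rfl⟩
  have ht0 : t ≠ 0 := by
    rw [ht]
    exact mul_ne_zero ((map_ne_zero_iff _ (algebraMap L₀ 𝓕).injective).mpr hu₀0) hv0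
  have htp : t ^ D'.p = algebraMap L₀ 𝓕 (w : L₀) * (f₂ * f₁⁻¹) := by
    rw [← hquot, ht, hwL, map_mul, map_pow, map_inv₀, mul_pow]
    have hne : algebraMap L₀ 𝓕 c' ≠ 0 := (map_ne_zero_iff _ (algebraMap L₀ 𝓕).injective).mpr hc'0
    field_simp
  have hti : t ∈ Z.Ci.O := by
    rw [ht]
    exact Z.Ci.O.mul_mem _ _ (s33f_const_mem Z.Di u₀) hv
  have htz : t ∈ Z.Cz.O := by
    apply s44s_mem_of_pow_mem Z.Cz.O hp1
    rw [htp]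
    exact Z.Cz.O.mul_mem _ _ (s33f_const_mem Z.Dz w) (Z.Cz.O.mul_mem _ _ h2z_mem h1z')
  -- `t` is node-avoiding
  have htNF : s33z_NF Z t := by
    refine ⟨ht0, fun Q hQ => ?_⟩
    have h1 : s33z_NF Z (t ^ D'.p) := by
      rw [htp]
      exact (s33z_nf_const hw0).mul (hf₂.mul hf₁.inv)
    have h2 := h1.2 Q hQ
    rw [← zpow_natCast, Q.ord_zpow] at h2
    have hpz : ((D'.p : ℕ) : ℤ) ≠ 0 := by exact_mod_cast hp0
    exact (mul_eq_zero.mp h2).resolve_left hpz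
  -- the reductions of `t`
  have hri : s33f_redX Z.Di t ^ D'.p = s33f_redX Z.Di f₂ := by
    rw [← s33f_redX_pow (D := Z.Di) hti, htp,
      s33f_redX_mul (D := Z.Di) (s33f_const_mem Z.Di w) (Z.Ci.O.mul_mem _ _ h2i h1i_inv),
      s33f_redX_const (D := Z.Di) w, s33f_redX_mul (D := Z.Di) h2i h1i_inv,
      s33f_redX_cong_one (D := Z.Di) le_rfl (h1i.inv₁ le_rfl)]
    have : Z.Di.resA w = 1 := hwres
    rw [this, map_one, one_mul, mul_one]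
  have hrz : s33f_redX Z.Dz t ^ D'.p = s33f_redX Z.Dz f₁⁻¹ := by
    rw [← s33f_redX_pow (D := Z.Dz) htz, htp,
      s33f_redX_mul (D := Z.Dz) (s33f_const_mem Z.Dz w) (Z.Cz.O.mul_mem _ _ h2z_mem h1z'),
      s33f_redX_const (D := Z.Dz) w, s33f_redX_mul (D := Z.Dz) h2z_mem h1z',
      s33f_redX_cong_one (D := Z.Dz) le_rfl h2z]
    have : Z.Dz.resA w = 1 := hwres
    rw [this, map_one, one_mul, one_mul]
  -- Step 3: the pair `(1, red_0 t)` is glued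
  have hglued : ∀ s : ι, ∃ (h1 : (1 : Fb) ∈ Z.Wi s) (h2 : s33f_redX Z.Dz t ∈ Z.Wz s),
      Z.evi s ⟨1, h1⟩ = Z.evz s ⟨s33f_redX Z.Dz t, h2⟩ := by
    intro s
    haveI : CharP (k s) D'.p := s33z_charP_k Z s
    obtain ⟨a1, a2, ea⟩ := Z.glue t hti htz htNF.reg s
    obtain ⟨b1, b2, eb⟩ := Z.glue f₂ h2i h2z_mem hf₂.reg s
    -- `red_0 f₂ = 1`
    have hb2 : Z.Cz.red ⟨f₂, h2z_mem⟩ = 1 := by
      have := s33f_redX_cong_one (D := Z.Dz) le_rfl h2z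
      rwa [s33f_redX_of_mem Z.Dz h2z_mem] at this
    have hev2 : Z.evz s ⟨Z.Cz.red ⟨f₂, h2z_mem⟩, b2⟩ = 1 := by
      have : (⟨Z.Cz.red ⟨f₂, h2z_mem⟩, b2⟩ : Z.Wz s) = 1 := Subtype.ext hb2
      rw [this, map_one]
    -- `(red_∞ t) ^ p = red_∞ f₂`
    have hpow : (⟨Z.Ci.red ⟨t, hti⟩, a1⟩ : Z.Wi s) ^ D'.p = ⟨Z.Ci.red ⟨f₂, h2i⟩, b1⟩ := by
      apply Subtype.ext
      push_cast
      have h1 := hri
      rw [s33f_redX_of_mem Z.Di hti, s33f_redX_of_mem Z.Di h2i] at h1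
      exact h1
    have hev1 : Z.evi s ⟨Z.Ci.red ⟨t, hti⟩, a1⟩ = 1 := by
      apply s44s_eq_one_of_pow_char D'.p
      rw [← map_pow, hpow, eb, hev2]
    have hz' : s33f_redX Z.Dz t = Z.Cz.red ⟨t, htz⟩ := s33f_redX_of_mem Z.Dz htz
    refine ⟨(Z.Wi s).one_mem, by rw [hz']; exact a2, ?_⟩
    have h1 : (⟨1, (Z.Wi s).one_mem⟩ : Z.Wi s) = 1 := rfl
    rw [h1, map_one]
    have h2 : (⟨s33f_redX Z.Dz t, by rw [hz']; exact a2⟩ : Z.Wz s) = ⟨Z.Cz.red ⟨t, htz⟩, a2⟩ :=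
      Subtype.ext hz'
    rw [h2, ← ea, hev1]
  -- Step 4: [LIFT]
  obtain ⟨g₁, hgi, hgz, hgreg, hgri, hgrz⟩ := Z.lift 1 (s33f_redX Z.Dz t) hglued
  have hgri' : s33f_redX Z.Di g₁ = 1 := by rw [s33f_redX_of_mem Z.Di hgi]; exact hgri
  have hgrz' : s33f_redX Z.Dz g₁ = s33f_redX Z.Dz t := by
    rw [s33f_redX_of_mem Z.Dz hgz]; exact hgrz
  have hg₁0 : g₁ ≠ 0 := by
    rintro rfl
    rw [s33f_redX_zero] at hgri'
    exact zero_ne_one hgri'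
  -- Step 5: `h = g₁ ^ p f₁`
  have hcong : s33z_Cong Z 1 (g₁ ^ D'.p * f₁) := by
    constructor
    · rw [← s33f_redX_eq_iff (D := Z.Di) (Z.Ci.O.mul_mem _ _ (Z.Ci.O.pow_mem hgi _) h1i_mem)
        Z.Ci.O.one_mem, s33f_redX_mul (D := Z.Di) (Z.Ci.O.pow_mem hgi _) h1i_mem,
        s33f_redX_pow (D := Z.Di) hgi, hgri', one_pow, one_mul,
        s33f_redX_cong_one (D := Z.Di) le_rfl h1i, s33f_redX_one]
    · rw [← s33f_redX_eq_iff (D := Z.Dz) (Z.Cz.O.mul_mem _ _ (Z.Cz.O.pow_mem hgz _) h1z)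
        Z.Cz.O.one_mem, s33f_redX_mul (D := Z.Dz) (Z.Cz.O.pow_mem hgz _) h1z,
        s33f_redX_pow (D := Z.Dz) hgz, hgrz', hrz, ← s33f_redX_mul (D := Z.Dz) h1z' h1z,
        inv_mul_cancel₀ hf₁0]
  refine ⟨g₁, hg₁0, ?_, hcong⟩
  obtain ⟨y, hyi, hyz, ey⟩ := hcong.exists_eq
  have hyreg : s33z_Reg Z y := by
    have h0 : s33z_pi Z ^ 1 ≠ 0 := pow_ne_zero _ s33z_pi_ne_zero
    have : y = (s33z_pi Z ^ 1)⁻¹ * (g₁ ^ D'.p * f₁ - 1) := by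
      rw [ey, ← mul_assoc, inv_mul_cancel₀ h0, one_mul]
    rw [this]
    refine (s33z_reg_pi_pow_inv 1).mul (s33z_Reg.sub (s33z_Reg.mul ?_ hf₁.reg) s33z_reg_one)
    intro Q hQ
    exact Q.toValuationSubring.pow_mem (hgreg Q hQ) _
  have hfinal := s33z_nf_one_add hyi hyz hyreg
  have : g₁ ^ D'.p * f₁ = 1 + s33z_pi Z * y := by
    rw [pow_one] at ey
    rw [← ey]
    ring
  rw [this]
  exact hfinal

end Core

end Fermat.Agent.Lib.S44
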