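/-
M-AT-P programme (S44), leaf [L4a] = [GLUE-p] (helper2), ABSTRACT CORE for the Iface v3 wording of
`s44i_RedTriv` (congruence form: `h ≡ c · a ^ p mod ϖ V_i`, `a` a unit of `V_i`), over helper4's Σ-datum
`s33z_Datum` (Lib/S33/CritSs).  No modular curve in this file.

* `s44s_const_unit_of_cong` : one component; `f` a unit of `O`, `f ≡ c a ^ p mod ϖ O` with `a` a unit of
  `O` ⇒ `c` is a unit of `A₀` and `red f = c̄ · (red a) ^ p`.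
* `s44s_glue_coreA` : `f` a node-avoiding unit of both components with `f ≡ c₁ a₁ ^ p mod ϖ O_∞` and
  `f ≡ c₃ b ^ p mod ϖ O_0` ⇒ some `d · g₁ ^ p · f` is node-avoiding and `≡ 1 mod ϖ (O_∞ ⊓ O_0)`.
  ([GLUE] for `f` at every node: `c̄₁ ev(ā₁) ^ p = c̄₃ ev(b̄) ^ p`; with `δ ^ p = c̄₃ / c̄₁` the pair
  `(ā₁, δ b̄)` is glued, [LIFT] its inverse pair to `g₁`, `d = c₁⁻¹`.)
* `s44s_glue_core3` : the same with the second congruence known for another Kummer generator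
  `h₂ = c g ^ p f` (transfer through `g = ϖ ^ m v`).
-/
import Fermat.Agent.Lib.S44.SoftGlue

set_option autoImplicit false
set_option linter.style.haveILetI false

noncomputable section

namespace Fermat.Agent.Lib.S44

open AlgebraicCurve Fermat.Agent.Lib.FF Fermat.Agent.Lib.S33

variable {L₀ 𝓕' κ Fb : Type*} [Field L₀] [Field 𝓕'] [Algebra L₀ 𝓕'] [Field κ] [Field Fb]
  [Algebra κ Fb]

section Comp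

variable {𝓕 : Type*} [Field 𝓕] [Algebra L₀ 𝓕] (D : s33f_Datum L₀ 𝓕 κ Fb)

/-- one component: a unit `f ≡ c a ^ p mod ϖ` with `a` a unit has `c` a unit of `A₀` and
`red f = c̄ (red a) ^ p`. -/
theorem s44s_const_unit_of_cong {f a : 𝓕} {c : L₀} (hf : f ∈ D.O) (hf' : f⁻¹ ∈ D.O) (hf0 : f ≠ 0)
    (ha : a ∈ D.O) (ha' : a⁻¹ ∈ D.O) (ha0 : a ≠ 0) (hc : c ≠ 0)
    (h : s33f_Cong D 1 f (algebraMap L₀ 𝓕 c * a ^ D.p)) :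
    ∃ hcA : c ∈ D.A₀, c⁻¹ ∈ D.A₀ ∧
      s33f_redX D f = algebraMap κ Fb (D.resA ⟨c, hcA⟩) * s33f_redX D a ^ D.p := by
  obtain ⟨w, hw⟩ : ∃ w : 𝓕, w = algebraMap L₀ 𝓕 c * a ^ D.p := ⟨_, rfl⟩
  rw [← hw] at h
  have hc0 : algebraMap L₀ 𝓕 c ≠ 0 := (map_ne_zero_iff _ (algebraMap L₀ 𝓕).injective).mpr hc
  have hap0 : a ^ D.p ≠ 0 := pow_ne_zero _ ha0
  have hw0 : w ≠ 0 := by rw [hw]; exact mul_ne_zero hc0 hap0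
  have hwO : w ∈ D.O := h.symm.mem hf
  -- `c ∈ A₀`
  have hcA : c ∈ D.A₀ := by
    rw [← D.const_mem_iff]
    have : algebraMap L₀ 𝓕 c = w * (a⁻¹) ^ D.p := by
      rw [hw, inv_pow, mul_assoc, mul_inv_cancel₀ hap0, mul_one]
    rw [this]
    exact D.O.mul_mem _ _ hwO (D.O.pow_mem ha' _)
  -- `w / f ≡ 1`
  have h1 : s33f_Cong D 1 (w * f⁻¹) 1 := by
    have h2 := (h.symm).mul_left f⁻¹ hf'
    rw [inv_mul_cancel₀ hf0, mul_comm] at h2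
    exact h2
  have hwf' : (w * f⁻¹)⁻¹ ∈ D.O := s33f_inv_mem_of_cong_one le_rfl h1
  have hw' : w⁻¹ ∈ D.O := by
    have : w⁻¹ = (w * f⁻¹)⁻¹ * f⁻¹ := by
      rw [mul_inv, inv_inv]
      field_simp
    rw [this]
    exact D.O.mul_mem _ _ hwf' hf'
  have hcA' : c⁻¹ ∈ D.A₀ := by
    rw [← D.const_mem_iff, map_inv₀]
    have : (algebraMap L₀ 𝓕 c)⁻¹ = w⁻¹ * a ^ D.p := by
      rw [hw, mul_inv, mul_assoc, inv_mul_cancel₀ hap0, mul_one]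
    rw [this]
    exact D.O.mul_mem _ _ hw' (D.O.pow_mem ha _)
  refine ⟨hcA, hcA', ?_⟩
  rw [(s33f_redX_eq_iff hf hwO).mpr h, hw,
    s33f_redX_mul (D := D) (s33f_const_mem D ⟨c, hcA⟩) (D.O.pow_mem ha _),
    s33f_redX_const (D := D) ⟨c, hcA⟩, s33f_redX_pow (D := D) ha]

/-- the reduction of a unit is a unit. -/
theorem s44s_redX_mul_inv {a : 𝓕} (ha : a ∈ D.O) (ha' : a⁻¹ ∈ D.O) (ha0 : a ≠ 0) :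
    s33f_redX D a * s33f_redX D a⁻¹ = 1 := by
  rw [← s33f_redX_mul (D := D) ha ha', mul_inv_cancel₀ ha0, s33f_redX_one]

end Comp

section Core

variable {D' : s33f_Datum L₀ 𝓕' κ Fb} {𝓕 : Type*} [Field 𝓕] [Algebra L₀ 𝓕]
  {ι : Type*} {k : ι → Type*} [∀ s, Field (k s)] [∀ s, Algebra κ (k s)]
  (Z : s33z_Datum D' 𝓕 ι k)

/-- the reduction of the inverse of a unit. -/
theorem s44s_redX_inv {𝓕₁ : Type*} [Field 𝓕₁] [Algebra L₀ 𝓕₁] (D : s33f_Datum L₀ 𝓕₁ κ Fb) {a : 𝓕₁}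
    (ha : a ∈ D.O) (ha' : a⁻¹ ∈ D.O) (ha0 : a ≠ 0) :
    s33f_redX D a⁻¹ = (s33f_redX D a)⁻¹ :=
  eq_inv_of_mul_eq_one_right (s44s_redX_mul_inv D ha ha' ha0)

/-- **[GLUE-p], abstract core, one generator with both congruences.** -/
theorem s44s_glue_coreA {f a₁ b : 𝓕} {c₁ c₃ : L₀} (hf : s33z_NF Z f)
    (hfi : f ∈ Z.Ci.O) (hfi' : f⁻¹ ∈ Z.Ci.O) (hfz : f ∈ Z.Cz.O) (hfz' : f⁻¹ ∈ Z.Cz.O)
    (hc₁ : c₁ ≠ 0) (ha₁ : a₁ ∈ Z.Ci.O) (ha₁' : a₁⁻¹ ∈ Z.Ci.O) (ha₁0 : a₁ ≠ 0)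
    (hcong₁ : s33f_Cong Z.Di 1 f (algebraMap L₀ 𝓕 c₁ * a₁ ^ D'.p))
    (hc₃ : c₃ ≠ 0) (hb : b ∈ Z.Cz.O) (hb' : b⁻¹ ∈ Z.Cz.O) (hb0 : b ≠ 0)
    (hcong₃ : s33f_Cong Z.Dz 1 f (algebraMap L₀ 𝓕 c₃ * b ^ D'.p)) :
    ∃ (d : L₀) (g₁ : 𝓕), d ≠ 0 ∧ g₁ ≠ 0 ∧
      s33z_NF Z (algebraMap L₀ 𝓕 d * g₁ ^ D'.p * f) ∧
      s33z_Cong Z 1 (algebraMap L₀ 𝓕 d * g₁ ^ D'.p * f) := by
  have hpp : D'.p.Prime := D'.p_prime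
  haveI : Fact D'.p.Prime := ⟨hpp⟩
  have hp1 : 1 ≤ D'.p := hpp.one_lt.le
  have hp0 : D'.p ≠ 0 := hpp.ne_zero
  have hf0 : f ≠ 0 := hf.1
  obtain ⟨hc₁A, hc₁A', hri⟩ :=
    s44s_const_unit_of_cong Z.Di hfi hfi' hf0 ha₁ ha₁' ha₁0 hc₁ hcong₁
  obtain ⟨hc₃A, hc₃A', hrz⟩ :=
    s44s_const_unit_of_cong Z.Dz hfz hfz' hf0 hb hb' hb0 hc₃ hcong₃
  -- notation in the residue fields
  obtain ⟨α, hα⟩ : ∃ α : Fb, α = s33f_redX Z.Di a₁ := ⟨_, rfl⟩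
  obtain ⟨β, hβ⟩ : ∃ β : Fb, β = s33f_redX Z.Dz b := ⟨_, rfl⟩
  obtain ⟨γ₁, hγ₁⟩ : ∃ γ₁ : κ, γ₁ = D'.resA ⟨c₁, hc₁A⟩ := ⟨_, rfl⟩
  obtain ⟨γ₃, hγ₃⟩ : ∃ γ₃ : κ, γ₃ = D'.resA ⟨c₃, hc₃A⟩ := ⟨_, rfl⟩
  have hγ₁u : γ₁ * D'.resA ⟨c₁⁻¹, hc₁A'⟩ = 1 := by
    rw [hγ₁]; exact s44s_resA_ne_zero Z.Di hc₁A hc₁A' hc₁
  have hγ₃u : γ₃ * D'.resA ⟨c₃⁻¹, hc₃A'⟩ = 1 := by
    rw [hγ₃]; exact s44s_resA_ne_zero Z.Dz hc₃A hc₃A' hc₃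
  have hγ₁0 : γ₁ ≠ 0 := left_ne_zero_of_mul_eq_one hγ₁u
  have hγ₃0 : γ₃ ≠ 0 := left_ne_zero_of_mul_eq_one hγ₃u
  have hγ₁inv : D'.resA ⟨c₁⁻¹, hc₁A'⟩ = γ₁⁻¹ := eq_inv_of_mul_eq_one_right hγ₁u
  have hαα' : α * s33f_redX Z.Di a₁⁻¹ = 1 := by
    rw [hα]; exact s44s_redX_mul_inv Z.Di ha₁ ha₁' ha₁0
  have hββ' : β * s33f_redX Z.Dz b⁻¹ = 1 := by
    rw [hβ]; exact s44s_redX_mul_inv Z.Dz hb hb' hb0
  have hα0 : α ≠ 0 := left_ne_zero_of_mul_eq_one hαα'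
  have hβ0 : β ≠ 0 := left_ne_zero_of_mul_eq_one hββ'
  have hα' : s33f_redX Z.Di a₁⁻¹ = α⁻¹ := eq_inv_of_mul_eq_one_right hαα'
  have hβ' : s33f_redX Z.Dz b⁻¹ = β⁻¹ := eq_inv_of_mul_eq_one_right hββ'
  have hri1 : s33f_redX Z.Di f = algebraMap κ Fb γ₁ * α ^ D'.p := by
    rw [hγ₁, hα]; exact hri
  have hrz1 : s33f_redX Z.Dz f = algebraMap κ Fb γ₃ * β ^ D'.p := by
    rw [hγ₃, hβ]; exact hrz
  have hri1' : s33f_redX Z.Di f⁻¹ = algebraMap κ Fb γ₁⁻¹ * (α⁻¹) ^ D'.p := by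
    rw [s44s_redX_inv Z.Di hfi hfi' hf0, hri1, mul_inv, map_inv₀, inv_pow]
  have hrz1' : s33f_redX Z.Dz f⁻¹ = algebraMap κ Fb γ₃⁻¹ * (β⁻¹) ^ D'.p := by
    rw [s44s_redX_inv Z.Dz hfz hfz' hf0, hrz1, mul_inv, map_inv₀, inv_pow]
  -- the `p`-th root of `γ₃ / γ₁`
  obtain ⟨δ, hδ⟩ := D'.κ_perfect (γ₃ * γ₁⁻¹)
  have hδ0 : δ ≠ 0 := by
    rintro rfl
    rw [zero_pow hp0] at hδ
    exact mul_ne_zero hγ₃0 (inv_ne_zero hγ₁0) hδ.symm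
  -- the pair to lift
  obtain ⟨φi, hφi⟩ : ∃ φi : Fb, φi = α⁻¹ := ⟨_, rfl⟩
  obtain ⟨φz, hφz⟩ : ∃ φz : Fb, φz = algebraMap κ Fb δ⁻¹ * β⁻¹ := ⟨_, rfl⟩
  have hglued : ∀ s : ι, ∃ (h1 : φi ∈ Z.Wi s) (h2 : φz ∈ Z.Wz s),
      Z.evi s ⟨φi, h1⟩ = Z.evz s ⟨φz, h2⟩ := by
    intro s
    haveI : CharP (k s) D'.p := s33z_charP_k Z s
    obtain ⟨a1, a2, ea⟩ := Z.glue f hfi hfz hf.reg s
    obtain ⟨a1', a2', -⟩ := Z.glue f⁻¹ hfi' hfz' hf.inv.reg s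
    have e1 : Z.Ci.red ⟨f, hfi⟩ = algebraMap κ Fb γ₁ * α ^ D'.p :=
      (s33f_redX_of_mem Z.Di hfi).symm.trans hri1
    have e2 : Z.Cz.red ⟨f, hfz⟩ = algebraMap κ Fb γ₃ * β ^ D'.p :=
      (s33f_redX_of_mem Z.Dz hfz).symm.trans hrz1
    have e1' : Z.Ci.red ⟨f⁻¹, hfi'⟩ = algebraMap κ Fb γ₁⁻¹ * (α⁻¹) ^ D'.p :=
      (s33f_redX_of_mem Z.Di hfi').symm.trans hri1'
    have e2' : Z.Cz.red ⟨f⁻¹, hfz'⟩ = algebraMap κ Fb γ₃⁻¹ * (β⁻¹) ^ D'.p :=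
      (s33f_redX_of_mem Z.Dz hfz').symm.trans hrz1'
    rw [e1] at a1
    rw [e2] at a2
    rw [e1'] at a1'
    rw [e2'] at a2'
    -- memberships
    have hcγ₁ : algebraMap κ Fb γ₁ ≠ 0 := (map_ne_zero_iff _ (algebraMap κ Fb).injective).mpr hγ₁0
    have hcγ₃ : algebraMap κ Fb γ₃ ≠ 0 := (map_ne_zero_iff _ (algebraMap κ Fb).injective).mpr hγ₃0
    have hαW : α ∈ Z.Wi s := by
      apply s44s_mem_of_pow_mem (Z.Wi s) hp1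
      have : α ^ D'.p = algebraMap κ Fb γ₁⁻¹ * (algebraMap κ Fb γ₁ * α ^ D'.p) := by
        rw [map_inv₀, ← mul_assoc, inv_mul_cancel₀ hcγ₁, one_mul]
      rw [this]
      exact (Z.Wi s).mul_mem _ _ (Z.Wi_const s _) a1
    have hαW' : α⁻¹ ∈ Z.Wi s := by
      apply s44s_mem_of_pow_mem (Z.Wi s) hp1
      have : (α⁻¹) ^ D'.p = algebraMap κ Fb γ₁ * (algebraMap κ Fb γ₁⁻¹ * (α⁻¹) ^ D'.p) := by
        rw [map_inv₀, ← mul_assoc, mul_inv_cancel₀ hcγ₁, one_mul]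
      rw [this]
      exact (Z.Wi s).mul_mem _ _ (Z.Wi_const s _) a1'
    have hβW : β ∈ Z.Wz s := by
      apply s44s_mem_of_pow_mem (Z.Wz s) hp1
      have : β ^ D'.p = algebraMap κ Fb γ₃⁻¹ * (algebraMap κ Fb γ₃ * β ^ D'.p) := by
        rw [map_inv₀, ← mul_assoc, inv_mul_cancel₀ hcγ₃, one_mul]
      rw [this]
      exact (Z.Wz s).mul_mem _ _ (Z.Wz_const s _) a2
    have hβW' : β⁻¹ ∈ Z.Wz s := by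
      apply s44s_mem_of_pow_mem (Z.Wz s) hp1
      have : (β⁻¹) ^ D'.p = algebraMap κ Fb γ₃ * (algebraMap κ Fb γ₃⁻¹ * (β⁻¹) ^ D'.p) := by
        rw [map_inv₀, ← mul_assoc, mul_inv_cancel₀ hcγ₃, one_mul]
      rw [this]
      exact (Z.Wz s).mul_mem _ _ (Z.Wz_const s _) a2'
    -- the evaluations
    have hevA : Z.evi s ⟨α, hαW⟩ * Z.evi s ⟨α⁻¹, hαW'⟩ = 1 := by
      rw [← map_mul]
      have : (⟨α, hαW⟩ * ⟨α⁻¹, hαW'⟩ : Z.Wi s) = 1 := Subtype.ext (mul_inv_cancel₀ hα0)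
      rw [this, map_one]
    have hevB : Z.evz s ⟨β, hβW⟩ * Z.evz s ⟨β⁻¹, hβW'⟩ = 1 := by
      rw [← map_mul]
      have : (⟨β, hβW⟩ * ⟨β⁻¹, hβW'⟩ : Z.Wz s) = 1 := Subtype.ext (mul_inv_cancel₀ hβ0)
      rw [this, map_one]
    have hea : algebraMap κ (k s) γ₁ * Z.evi s ⟨α, hαW⟩ ^ D'.p
        = algebraMap κ (k s) γ₃ * Z.evz s ⟨β, hβW⟩ ^ D'.p := by
      have h1 : (⟨algebraMap κ Fb γ₁ * α ^ D'.p, a1⟩ : Z.Wi s)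
          = ⟨algebraMap κ Fb γ₁, Z.Wi_const s γ₁⟩ * ⟨α, hαW⟩ ^ D'.p := Subtype.ext rfl
      have h2 : (⟨algebraMap κ Fb γ₃ * β ^ D'.p, a2⟩ : Z.Wz s)
          = ⟨algebraMap κ Fb γ₃, Z.Wz_const s γ₃⟩ * ⟨β, hβW⟩ ^ D'.p := Subtype.ext rfl
      have h3 : Z.evi s ⟨algebraMap κ Fb γ₁ * α ^ D'.p, a1⟩
          = Z.evz s ⟨algebraMap κ Fb γ₃ * β ^ D'.p, a2⟩ := by
        have h4 : (⟨Z.Ci.red ⟨f, hfi⟩, e1 ▸ a1⟩ : Z.Wi s) = ⟨algebraMap κ Fb γ₁ * α ^ D'.p, a1⟩ :=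
          Subtype.ext e1
        have h5 : (⟨Z.Cz.red ⟨f, hfz⟩, e2 ▸ a2⟩ : Z.Wz s) = ⟨algebraMap κ Fb γ₃ * β ^ D'.p, a2⟩ :=
          Subtype.ext e2
        rw [← h4, ← h5]
        exact ea
      rw [h1, h2, map_mul, map_mul, map_pow, map_pow, Z.evi_const, Z.evz_const] at h3
      exact h3
    have hroot : Z.evi s ⟨α, hαW⟩ = algebraMap κ (k s) δ * Z.evz s ⟨β, hβW⟩ := by
      apply frobenius_inj (k s) D'.p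
      have hδk' : algebraMap κ (k s) δ ^ D'.p
          = algebraMap κ (k s) γ₃ * (algebraMap κ (k s) γ₁)⁻¹ := by
        rw [← map_pow, hδ, map_mul, map_inv₀]
      rw [frobenius_def, frobenius_def, mul_pow, hδk']
      have hne : algebraMap κ (k s) γ₁ ≠ 0 :=
        (map_ne_zero_iff _ (algebraMap κ (k s)).injective).mpr hγ₁0
      field_simp
      linear_combination hea
    have hδk : algebraMap κ (k s) δ * algebraMap κ (k s) δ⁻¹ = 1 := by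
      rw [← map_mul, mul_inv_cancel₀ hδ0, map_one]
    have hφzW : φz ∈ Z.Wz s := by
      rw [hφz]
      exact (Z.Wz s).mul_mem _ _ (Z.Wz_const s _) hβW'
    have hφiW : φi ∈ Z.Wi s := by
      rw [hφi]; exact hαW'
    refine ⟨hφiW, hφzW, ?_⟩
    have h6 : (⟨φi, hφiW⟩ : Z.Wi s) = ⟨α⁻¹, hαW'⟩ := Subtype.ext hφi
    have h7 : (⟨φz, hφzW⟩ : Z.Wz s) = ⟨algebraMap κ Fb δ⁻¹, Z.Wz_const s _⟩ * ⟨β⁻¹, hβW'⟩ :=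
      Subtype.ext hφz
    rw [h6, h7, map_mul, Z.evz_const]
    -- inverses of equal elements
    have h8 : Z.evi s ⟨α⁻¹, hαW'⟩ = (Z.evi s ⟨α, hαW⟩)⁻¹ := eq_inv_of_mul_eq_one_right hevA
    have h9 : Z.evz s ⟨β⁻¹, hβW'⟩ = (Z.evz s ⟨β, hβW⟩)⁻¹ := eq_inv_of_mul_eq_one_right hevB
    have h10 : algebraMap κ (k s) δ⁻¹ = (algebraMap κ (k s) δ)⁻¹ := map_inv₀ _ _
    rw [h8, h9, h10, hroot, mul_inv]
  -- [LIFT]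
  obtain ⟨g₁, hgi, hgz, hgreg, hgri, hgrz⟩ := Z.lift φi φz hglued
  have hgri' : s33f_redX Z.Di g₁ = α⁻¹ := by
    rw [s33f_redX_of_mem Z.Di hgi, ← hφi]; exact hgri
  have hgrz' : s33f_redX Z.Dz g₁ = algebraMap κ Fb δ⁻¹ * β⁻¹ := by
    rw [s33f_redX_of_mem Z.Dz hgz, ← hφz]; exact hgrz
  have hg₁0 : g₁ ≠ 0 := by
    rintro rfl
    rw [s33f_redX_zero] at hgri'
    exact inv_ne_zero hα0 hgri'.symm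
  have hd0 : c₁⁻¹ ≠ 0 := inv_ne_zero hc₁
  -- the congruences
  have hdi : algebraMap L₀ 𝓕 c₁⁻¹ ∈ Z.Ci.O := (Z.Ci.const_mem_iff _).mpr hc₁A'
  have hdz : algebraMap L₀ 𝓕 c₁⁻¹ ∈ Z.Cz.O := (Z.Cz.const_mem_iff _).mpr hc₁A'
  have hredd_i : s33f_redX Z.Di (algebraMap L₀ 𝓕 c₁⁻¹) = algebraMap κ Fb γ₁⁻¹ := by
    have := s33f_redX_const (D := Z.Di) ⟨c₁⁻¹, hc₁A'⟩
    rw [← hγ₁inv]
    exact this
  have hredd_z : s33f_redX Z.Dz (algebraMap L₀ 𝓕 c₁⁻¹) = algebraMap κ Fb γ₁⁻¹ := by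
    have := s33f_redX_const (D := Z.Dz) ⟨c₁⁻¹, hc₁A'⟩
    rw [← hγ₁inv]
    exact this
  have hcγ₁ : algebraMap κ Fb γ₁ ≠ 0 := (map_ne_zero_iff _ (algebraMap κ Fb).injective).mpr hγ₁0
  have hcγ₃ : algebraMap κ Fb γ₃ ≠ 0 := (map_ne_zero_iff _ (algebraMap κ Fb).injective).mpr hγ₃0
  have hcδ : algebraMap κ Fb δ ≠ 0 := (map_ne_zero_iff _ (algebraMap κ Fb).injective).mpr hδ0
  have hδFb : algebraMap κ Fb δ ^ D'.p * algebraMap κ Fb γ₁ = algebraMap κ Fb γ₃ := by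
    rw [← map_pow, hδ, ← map_mul, mul_assoc, inv_mul_cancel₀ hγ₁0, mul_one]
  have hcong : s33z_Cong Z 1 (algebraMap L₀ 𝓕 c₁⁻¹ * g₁ ^ D'.p * f) := by
    constructor
    · rw [← s33f_redX_eq_iff (D := Z.Di)
        (Z.Ci.O.mul_mem _ _ (Z.Ci.O.mul_mem _ _ hdi (Z.Ci.O.pow_mem hgi _)) hfi) Z.Ci.O.one_mem,
        s33f_redX_mul (D := Z.Di) (Z.Ci.O.mul_mem _ _ hdi (Z.Ci.O.pow_mem hgi _)) hfi,
        s33f_redX_mul (D := Z.Di) hdi (Z.Ci.O.pow_mem hgi _), s33f_redX_pow (D := Z.Di) hgi,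
        hgri', hredd_i, hri1, s33f_redX_one, map_inv₀, inv_pow]
      have hαp : α ^ D'.p ≠ 0 := pow_ne_zero _ hα0
      field_simp
    · rw [← s33f_redX_eq_iff (D := Z.Dz)
        (Z.Cz.O.mul_mem _ _ (Z.Cz.O.mul_mem _ _ hdz (Z.Cz.O.pow_mem hgz _)) hfz) Z.Cz.O.one_mem,
        s33f_redX_mul (D := Z.Dz) (Z.Cz.O.mul_mem _ _ hdz (Z.Cz.O.pow_mem hgz _)) hfz,
        s33f_redX_mul (D := Z.Dz) hdz (Z.Cz.O.pow_mem hgz _), s33f_redX_pow (D := Z.Dz) hgz,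
        hgrz', hredd_z, hrz1, s33f_redX_one, map_inv₀, map_inv₀, ← hδFb, mul_pow, inv_pow, inv_pow]
      have hβp : β ^ D'.p ≠ 0 := pow_ne_zero _ hβ0
      have hδp : algebraMap κ Fb δ ^ D'.p ≠ 0 := pow_ne_zero _ hcδ
      field_simp
  refine ⟨c₁⁻¹, g₁, hd0, hg₁0, ?_, hcong⟩
  obtain ⟨y, hyi, hyz, ey⟩ := hcong.exists_eq
  have hyreg : s33z_Reg Z y := by
    have h0 : s33z_pi Z ^ 1 ≠ 0 := pow_ne_zero _ s33z_pi_ne_zero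
    have : y = (s33z_pi Z ^ 1)⁻¹ * (algebraMap L₀ 𝓕 c₁⁻¹ * g₁ ^ D'.p * f - 1) := by
      rw [ey, ← mul_assoc, inv_mul_cancel₀ h0, one_mul]
    rw [this]
    refine (s33z_reg_pi_pow_inv 1).mul
      (s33z_Reg.sub (s33z_Reg.mul (s33z_Reg.mul (s33z_reg_const _) ?_) hf.reg) s33z_reg_one)
    intro Q hQ
    exact Q.toValuationSubring.pow_mem (hgreg Q hQ) _
  have hfinal := s33z_nf_one_add hyi hyz hyreg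
  have : algebraMap L₀ 𝓕 c₁⁻¹ * g₁ ^ D'.p * f = 1 + s33z_pi Z * y := by
    rw [pow_one] at ey
    rw [← ey]
    ring
  rw [this]
  exact hfinal

/-- a unit of `O` which is `≡ c a ^ p mod ϖ` has `a ≠ 0`. -/
theorem s44s_ne_zero_of_cong {𝓕₁ : Type*} [Field 𝓕₁] [Algebra L₀ 𝓕₁] (D : s33f_Datum L₀ 𝓕₁ κ Fb)
    {f a : 𝓕₁} {c : L₀} (hf : f ∈ D.O) (hf' : f⁻¹ ∈ D.O) (hf0 : f ≠ 0)
    (h : s33f_Cong D 1 f (algebraMap L₀ 𝓕₁ c * a ^ D.p)) : a ≠ 0 := by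
  rintro rfl
  rw [zero_pow D.p_prime.ne_zero, mul_zero] at h
  have h1 := (s33f_redX_eq_zero_iff hf).mpr h
  have h2 := s44s_redX_mul_inv D hf hf' hf0
  rw [h1, zero_mul] at h2
  exact zero_ne_one h2

/-- **[GLUE-p], abstract core for Iface v3**: the two congruences are known for two Kummer generators
`f` and `h₂ = c g ^ p f`. -/
theorem s44s_glue_core3 {f h₂ g a₁ a₂ : 𝓕} {c c₁ c₂ : L₀}
    (hf : s33z_NF Z f) (hh₂ : s33z_NF Z h₂)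
    (hfi : f ∈ Z.Ci.O) (hfi' : f⁻¹ ∈ Z.Ci.O) (hfz : f ∈ Z.Cz.O) (hfz' : f⁻¹ ∈ Z.Cz.O)
    (h2i : h₂ ∈ Z.Ci.O) (h2i' : h₂⁻¹ ∈ Z.Ci.O) (h2z : h₂ ∈ Z.Cz.O) (h2z' : h₂⁻¹ ∈ Z.Cz.O)
    (hc₁ : c₁ ≠ 0) (ha₁ : a₁ ∈ Z.Ci.O) (ha₁' : a₁⁻¹ ∈ Z.Ci.O)
    (hcong₁ : s33f_Cong Z.Di 1 f (algebraMap L₀ 𝓕 c₁ * a₁ ^ D'.p))
    (hc₂ : c₂ ≠ 0) (ha₂ : a₂ ∈ Z.Cz.O) (ha₂' : a₂⁻¹ ∈ Z.Cz.O)
    (hcong₂ : s33f_Cong Z.Dz 1 h₂ (algebraMap L₀ 𝓕 c₂ * a₂ ^ D'.p))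
    (hc : c ≠ 0) (hg : g ≠ 0) (e : h₂ = algebraMap L₀ 𝓕 c * g ^ D'.p * f) :
    ∃ (d : L₀) (g₁ : 𝓕), d ≠ 0 ∧ g₁ ≠ 0 ∧
      s33z_NF Z (algebraMap L₀ 𝓕 d * g₁ ^ D'.p * f) ∧
      s33z_Cong Z 1 (algebraMap L₀ 𝓕 d * g₁ ^ D'.p * f) := by
  have hpp : D'.p.Prime := D'.p_prime
  have hp1 : 1 ≤ D'.p := hpp.one_lt.le
  have hf0 : f ≠ 0 := hf.1
  have hh₂0 : h₂ ≠ 0 := hh₂.1
  have ha₁0 : a₁ ≠ 0 := s44s_ne_zero_of_cong Z.Di hfi hfi' hf0 hcong₁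
  have ha₂0 : a₂ ≠ 0 := s44s_ne_zero_of_cong Z.Dz h2z h2z' hh₂0 hcong₂
  -- Step 1: normalise `g = ϖ ^ m v`
  obtain ⟨m, v, hv, hv', eg⟩ := s44s_exists_zpow_unit Z.Di hg
  have hv0 : v ≠ 0 := by
    rintro rfl
    rw [mul_zero] at eg
    exact hg eg
  obtain ⟨c', hc'⟩ : ∃ c' : L₀, c' = c * D'.ϖ ^ (m * (D'.p : ℤ)) := ⟨_, rfl⟩
  have hc'0 : c' ≠ 0 := by
    rw [hc']
    exact mul_ne_zero hc (zpow_ne_zero _ D'.ϖ_ne_zero)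
  have e' : h₂ = algebraMap L₀ 𝓕 c' * v ^ D'.p * f := by
    have hpi : s33f_pi Z.Di = algebraMap L₀ 𝓕 D'.ϖ := rfl
    rw [e, eg, hc', map_mul, map_zpow₀, mul_pow, hpi, ← zpow_natCast (algebraMap L₀ 𝓕 D'.ϖ ^ m),
      ← zpow_mul]
    ring
  have hvp0 : v ^ D'.p ≠ 0 := pow_ne_zero _ hv0
  have hcF0 : algebraMap L₀ 𝓕 c' ≠ 0 := (map_ne_zero_iff _ (algebraMap L₀ 𝓕).injective).mpr hc'0
  have hquot : algebraMap L₀ 𝓕 c' * v ^ D'.p = h₂ * f⁻¹ := by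
    rw [e', mul_assoc (algebraMap L₀ 𝓕 c' * v ^ D'.p), mul_inv_cancel₀ hf0, mul_one]
  -- `c'` is a unit of `A₀`
  have hc'A : c' ∈ D'.A₀ := by
    rw [← Z.Ci.const_mem_iff]
    have : algebraMap L₀ 𝓕 c' = h₂ * f⁻¹ * (v⁻¹) ^ D'.p := by
      rw [← hquot, inv_pow, mul_assoc, mul_inv_cancel₀ hvp0, mul_one]
    rw [this]
    exact Z.Ci.O.mul_mem _ _ (Z.Ci.O.mul_mem _ _ h2i hfi') (Z.Ci.O.pow_mem hv' _)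
  have hc'A' : c'⁻¹ ∈ D'.A₀ := by
    rw [← Z.Ci.const_mem_iff]
    have : algebraMap L₀ 𝓕 c'⁻¹ = f * h₂⁻¹ * v ^ D'.p := by
      rw [map_inv₀]
      apply inv_eq_of_mul_eq_one_right
      have h0 : algebraMap L₀ 𝓕 c' * (f * h₂⁻¹ * v ^ D'.p) =
          (algebraMap L₀ 𝓕 c' * v ^ D'.p) * (f * h₂⁻¹) := by ring
      rw [h0, hquot]
      field_simp
    rw [this]
    exact Z.Ci.O.mul_mem _ _ (Z.Ci.O.mul_mem _ _ hfi h2i') (Z.Ci.O.pow_mem hv _)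
  have hcz : algebraMap L₀ 𝓕 c' ∈ Z.Cz.O := (Z.Cz.const_mem_iff _).mpr hc'A
  have hcz' : algebraMap L₀ 𝓕 c'⁻¹ ∈ Z.Cz.O := (Z.Cz.const_mem_iff _).mpr hc'A'
  -- `v` is a unit of `O_0`
  have hvz : v ∈ Z.Cz.O := by
    apply s44s_mem_of_pow_mem Z.Cz.O hp1
    have : v ^ D'.p = algebraMap L₀ 𝓕 c'⁻¹ * (h₂ * f⁻¹) := by
      rw [← hquot, map_inv₀, ← mul_assoc, inv_mul_cancel₀ hcF0, one_mul]
    rw [this]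
    exact Z.Cz.O.mul_mem _ _ hcz' (Z.Cz.O.mul_mem _ _ h2z hfz')
  have hvz' : v⁻¹ ∈ Z.Cz.O := by
    apply s44s_mem_of_pow_mem Z.Cz.O hp1
    have : (v⁻¹) ^ D'.p = algebraMap L₀ 𝓕 c' * (f * h₂⁻¹) := by
      rw [inv_pow]
      apply inv_eq_of_mul_eq_one_right
      have h0 : v ^ D'.p * (algebraMap L₀ 𝓕 c' * (f * h₂⁻¹)) =
          (algebraMap L₀ 𝓕 c' * v ^ D'.p) * (f * h₂⁻¹) := by ring
      rw [h0, hquot]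
      field_simp
    rw [this]
    exact Z.Cz.O.mul_mem _ _ hcz (Z.Cz.O.mul_mem _ _ hfz h2z')
  -- the second congruence for `f`
  have hb : a₂ * v⁻¹ ∈ Z.Cz.O := Z.Cz.O.mul_mem _ _ ha₂ hvz'
  have hb' : (a₂ * v⁻¹)⁻¹ ∈ Z.Cz.O := by
    rw [mul_inv, inv_inv]
    exact Z.Cz.O.mul_mem _ _ ha₂' hvz
  have hb0 : a₂ * v⁻¹ ≠ 0 := mul_ne_zero ha₂0 (inv_ne_zero hv0)
  have hc₃ : c₂ * c'⁻¹ ≠ 0 := mul_ne_zero hc₂ (inv_ne_zero hc'0)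
  have hcong₃ : s33f_Cong Z.Dz 1 f (algebraMap L₀ 𝓕 (c₂ * c'⁻¹) * (a₂ * v⁻¹) ^ D'.p) := by
    have hw : algebraMap L₀ 𝓕 c'⁻¹ * (v⁻¹) ^ D'.p ∈ Z.Cz.O :=
      Z.Cz.O.mul_mem _ _ hcz' (Z.Cz.O.pow_mem hvz' _)
    have h1 := hcong₂.mul_left _ hw
    have h2 : algebraMap L₀ 𝓕 c'⁻¹ * (v⁻¹) ^ D'.p * h₂ = f := by
      rw [e', map_inv₀, inv_pow]
      field_simp
    have h3 : algebraMap L₀ 𝓕 c'⁻¹ * (v⁻¹) ^ D'.p * (algebraMap L₀ 𝓕 c₂ * a₂ ^ D'.p)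
        = algebraMap L₀ 𝓕 (c₂ * c'⁻¹) * (a₂ * v⁻¹) ^ D'.p := by
      rw [map_mul, mul_pow]
      ring
    rw [h2, h3] at h1
    exact h1
  exact s44s_glue_coreA Z hf hfi hfi' hfz hfz' hc₁ ha₁ ha₁' ha₁0 hcong₁ hc₃ hb hb' hb0 hcong₃

end Core

end Fermat.Agent.Lib.S44
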