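/-
M-AT-P programme (S44), programme lead helper1: **TOP WIRING `S44 ⇐ leaves`.**

`s44t_main`: the eight leaves of `Lib/S44/Iface.lean` (+ the landed `s41a_nonEis`, `s33l_hecke_pt`,
`s35c_alphaPush_smul`) imply the statement of S44.
-/
import Fermat.Agent.Lib.S44.Iface
import Fermat.Agent.Lib.S33.LInj
import Fermat.Agent.Lib.S41.ANonEis
import Fermat.Agent.Lib.EN.FreyCard
import Fermat.Agent.Lib.Frobenius.Exists

set_option autoImplicit false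
set_option linter.style.haveILetI false
set_option linter.unusedSectionVars false
set_option synthInstance.maxHeartbeats 400000

namespace Fermat.Agent.Lib.S44

open ModularCurve AlgebraicCurve Fermat.Agent.Lib.S18 Fermat.Agent.Lib.S29
  Fermat.Agent.Lib.S35 Fermat.Agent.Lib.S33 Fermat.Agent.Lib.S13 Fermat.Agent.Lib.S41
  Fermat.Agent.Lib.EN WeierstrassCurve

noncomputable section

local notation "Kb" => AlgebraicClosure ℚ
local notation "Γℚ" => (AlgebraicClosure ℚ ≃ₐ[ℚ] AlgebraicClosure ℚ)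

/-- the discriminant of an integral model of an elliptic curve is non-zero. -/
theorem s44t_Δ_ne_zero (E : WeierstrassCurve ℚ) [E.IsElliptic] (W : WeierstrassCurve ℤ)
    (hW : W.IsIntegralModelOf E) : W.Δ ≠ 0 := by
  obtain ⟨C, hC⟩ := hW
  intro h0
  have h1 : (W.map (Int.castRingHom ℚ)).Δ = 0 := by
    rw [WeierstrassCurve.map_Δ, h0, map_zero]
  rw [← hC, WeierstrassCurve.variableChange_Δ] at h1
  have hE : E.Δ ≠ 0 := E.isUnit_Δ.ne_zero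
  have hu : ((C.u⁻¹ : ℚˣ) : ℚ) ^ 12 ≠ 0 := pow_ne_zero _ (Units.ne_zero _)
  exact (mul_ne_zero hu hE) h1

/-- **S44 from the leaves.** -/
theorem s44t_main (h1 : s44i_EigExists) (h2 : s44i_Old) (h3 : s44i_Star) (h4 : s44i_Lift)
    (h5 : s44i_MFin) (h6 : s44i_WSide) (h6b : s44i_WNotTop) (h7a : s44i_FixedNe)
    (h7b : s44i_Endgame)
    (P : FreyPackage) {N : ℕ} (hcond : P.IsConductorLevel N) (hpN : P.p ∣ N)
    (hirr : WeierstrassCurve.Affine.Point.GaloisRepIsIrreducible (K := AlgebraicClosure ℚ) ℚ P.freyCurve P.p)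
    (hmod : P.ModularRepOfLevel N) :
    ∃ M : ℕ, M ∣ N ∧ ¬ P.p ∣ M ∧ P.ModularRepOfLevel M := by
  classical
  obtain ⟨M, rfl⟩ : ∃ M, N = M * P.p := ⟨N / P.p, (Nat.div_mul_cancel hpN).symm⟩
  have hp := P.pp
  have hp5 := P.hp5
  have hp2 : P.p ≠ 2 := by omega
  haveI : Fact P.p.Prime := ⟨hp⟩
  have hM0 : M ≠ 0 := by
    intro h; have := hcond.pos; rw [h, zero_mul] at this; exact lt_irrefl _ this
  haveI : NeZero M := ⟨hM0⟩
  have hpM : ¬ P.p ∣ M := by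
    rintro ⟨k, rfl⟩
    exact hcond.sq_not_dvd hp ⟨k, by ring⟩
  have hsqM : Squarefree M := hcond.squarefree.squarefree_of_dvd (Dvd.intro _ rfl)
  obtain ⟨f, W, 𝔪, hf, hW, hmax, hpm, hcong⟩ := hmod
  have hΔ : W.Δ ≠ 0 := s44t_Δ_ne_zero P.freyCurve W hW
  -- the exceptional set
  set a : ℕ → ℤ := fun ℓ => W.apOfModel ℓ with ha
  have hprod : M * P.p * P.p * W.Δ.natAbs ≠ 0 :=
    Nat.mul_ne_zero (Nat.mul_ne_zero (Nat.mul_ne_zero hM0 hp.ne_zero) hp.ne_zero)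
      (Int.natAbs_ne_zero.mpr hΔ)
  set B : Finset ℕ := (M * P.p * P.p * W.Δ.natAbs).primeFactors with hB
  have hB1 : ∀ q : ℕ, q.Prime → q ∣ M * P.p * P.p → q ∈ B := fun q hq hd =>
    Nat.mem_primeFactors.mpr ⟨hq, hd.mul_right _, hprod⟩
  have hB1' : ∀ q : ℕ, q.Prime → q ∣ M * P.p → q ∈ B := fun q hq hd => hB1 q hq (hd.mul_right _)
  have hB2 : ∀ q : ℕ, q.Prime → ¬ W.IsGoodPrimeFor q → q ∈ B := fun q hq hbad => by
    have hd : (q : ℤ) ∣ W.Δ := not_not.mp hbad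
    have hd' : q ∣ W.Δ.natAbs := Int.natCast_dvd.mp hd
    exact Nat.mem_primeFactors.mpr ⟨hq, hd'.mul_left _, hprod⟩
  have hB3 : ∀ ℓ : ℕ, ℓ.Prime → W.IsGoodPrimeFor ℓ → ¬ ℓ ∣ M → ℓ ≠ P.p → ℓ ∉ B := by
    intro ℓ hℓ hgood hℓM hℓp hmem
    have hd := (Nat.mem_primeFactors.mp hmem).2.1
    rcases (Nat.Prime.dvd_mul hℓ).mp hd with h | h
    · rcases (Nat.Prime.dvd_mul hℓ).mp h with h | h
      · rcases (Nat.Prime.dvd_mul hℓ).mp h with h | h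
        · exact hℓM h
        · exact hℓp ((Nat.prime_dvd_prime_iff_eq hℓ hp).mp h)
      · exact hℓp ((Nat.prime_dvd_prime_iff_eq hℓ hp).mp h)
    · exact hgood (Int.natCast_dvd.mpr h)
  have hB4 : ∀ ℓ : ℕ, ℓ.Prime → ℓ ∉ B →
      W.IsGoodPrimeFor ℓ ∧ ¬ ℓ ∣ M * P.p ∧ ℓ ≠ P.p ∧ ¬ ℓ ∣ M * P.p * P.p := by
    intro ℓ hℓ hℓB
    refine ⟨fun hbad => hℓB (hB2 ℓ hℓ (not_not.mpr hbad)), fun hd => hℓB (hB1' ℓ hℓ hd), ?_,
      fun hd => hℓB (hB1 ℓ hℓ hd)⟩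
    rintro rfl
    exact hℓB (hB1' _ hℓ (Dvd.intro_left _ rfl))
  by_cases hocc : s44i_LevelOcc M P.p a B
  · -- the eigensystem occurs at level `M`
    obtain ⟨g, 𝔪', hg, hmax', hpm', hc⟩ := hocc
    exact ⟨M, Dvd.intro _ rfl, hpM, g, W, 𝔪', hg, hW, hmax', hpm',
      fun ℓ hℓ hgood hℓM hℓp => hc ℓ hℓ (hB3 ℓ hℓ hgood hℓM hℓp)⟩
  · exfalso
    -- [L1]
    obtain ⟨x₀, hx₀, hE₀⟩ := h1 (M * P.p) f hf P.p hp 𝔪 hmax hpm a B hB1
      (fun ℓ hℓ hℓB => hcong ℓ hℓ (hB4 ℓ hℓ hℓB).1 (hB4 ℓ hℓ hℓB).2.1 (hB4 ℓ hℓ hℓB).2.2.1)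
    -- [L2]: the eigen-module is `p`-new
    have hnew : ∀ x : JZero (M * P.p), s44i_Eig (M * P.p) P.p a B x →
        s35c_alphaPush M P.p hp hpM x = 0 ∧ s35c_betaPush M P.p hp hpM x = 0 := by
      intro x hE
      constructor
      · by_contra hne
        refine hocc (h2 M P.p hp hp5 hpM a B hB1' _ hne ⟨?_, fun ℓ hℓB => ?_⟩)
        · rw [← map_nsmul, hE.1, map_zero]
        · have h := s33l_hecke_pt P.p (s35c_alphaPush M P.p hp hpM)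
            (fun σ x => s35c_alphaPush_smul M P.p hp hpM σ x) ℓ (hB4 ℓ ℓ.2 hℓB).2.2.2
            (hB4 ℓ ℓ.2 hℓB).2.1 x hE.1
          rw [← h, hE.2 ℓ hℓB, map_zsmul]
      · by_contra hne
        refine hocc (h2 M P.p hp hp5 hpM a B hB1' _ hne ⟨?_, fun ℓ hℓB => ?_⟩)
        · rw [← map_nsmul, hE.1, map_zero]
        · have h := s33l_hecke_pt P.p (s35c_betaPush M P.p hp hpM)
            (fun σ x => s35c_betaPush_smul M P.p hp hpM σ x) ℓ (hB4 ℓ ℓ.2 hℓB).2.2.2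
            (hB4 ℓ ℓ.2 hℓB).2.1 x hE.1
          rw [← h, hE.2 ℓ hℓB, map_zsmul]
    -- the place and the W-side
    have hpabc : (P.p : ℤ) ∣ P.a * P.b * P.c := hcond.p_dvd_abc hpN
    obtain ⟨A, hA⟩ := Fermat.Agent.Lib.Frobenius.exists_liesOverPrime P.p hp
    obtain ⟨L, hLfd, hLn, hLs, hLsc⟩ := h6 P hpabc A hA
    haveI := hLfd
    haveI := hLn
    -- [L7a]
    have hx₁ := h7a P W hW (M * P.p) B hB1 hB2 L hLfd hLn hLs ⟨x₀, hx₀, hE₀⟩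
    -- the non-Eisenstein prime
    obtain ⟨ℓ₀, hℓ₀, hℓ₀B, -, hℓ₀ne⟩ := s41a_nonEis P.freyCurve W hW P.p hp hp2 hirr B
    -- [L7b]
    refine h7b P W hW hpabc hirr (M * P.p) B hB1 hB2 L hLfd hLn hLs A hA (h6b P hpabc A hA) hx₁
      (fun x hE hfix => ?_)
    obtain ⟨hα, hβ⟩ := hnew x hE
    have hfin : s44i_Finite M P.p hpM A x := by
      have hμ : ∀ ζ : Kb, ζ ^ P.p = 1 → ζ ∈ L := by
        intro ζ hζ
        have hfixL : IntermediateField.fixedField L.fixingSubgroup = L :=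
          InfiniteGalois.fixedField_fixingSubgroup L
        rw [← hfixL]
        rintro ⟨σ, hσ⟩
        exact (hLs σ fun a ha => hσ ⟨a, ha⟩).2 ζ hζ
      refine h3 M P.p hp5 hpM hsqM A hA L hLsc hμ x hE.1 hα hβ hfix
        ⟨⟨ℓ₀, hℓ₀⟩, a ℓ₀, (hB4 ℓ₀ hℓ₀ hℓ₀B).2.1, hE.2 ⟨ℓ₀, hℓ₀⟩ hℓ₀B, fun hd => hℓ₀ne ?_⟩
      have e : W.apOfModel ℓ₀ ^ 2 - ((ℓ₀ : ℤ) + 1) ^ 2 =
          (a ℓ₀ - ((ℓ₀ : ℕ) + 1)) * (a ℓ₀ + ((ℓ₀ : ℕ) + 1)) := by rw [ha]; push_cast; ring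
      rw [e]
      exact hd.mul_right _
    rcases h4 M P.p hp5 hpM hsqM A hA a B hB1' x hE hα hβ hfin with ht | ho
    · exact h5 M P.p hp5 hpM A hA x hE.1 hα hβ ht
    · exact absurd ho hocc

end

end Fermat.Agent.Lib.S44
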