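/-
M-AT-P programme (S44), W-side [L6] (helper6, prefix `s44w_`), brick (I): **INTEGRALITY OF THE MULTIPLICATION PAIRS**.
`K` an algebraically closed field of characteristic `0`, `R` a subring of `K`, `W` a Weierstrass
curve over `K` with `Δ ≠ 0` and `b₂, b₄, b₆, b₈ ∈ R`.  If the integers `1, …, n - 2` are units of `R`
then for every `k ≤ n` the multiplication pair `(a_k, b_k) = (enc_a W k, enc_b W k)` of
`Lib/EN/MulRec.lean` (`x([k]P) = a_k(x(P)) / b_k(x(P))`) has all its coefficients in `R`.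

Method: the recursion of `MulRec` is exact division, `a_{k+2} · a_k = W(a_{k+1}, b_{k+1})` and
`b_{k+2} · b_k = U(a_{k+1}, b_{k+1})` (`enc_Id`), `a_k` is monic and `b_k` has leading coefficient `k²`
(`enc_Inv`); a polynomial identity `f · g = h` with `g, h` integral and the leading coefficient of `g` a
unit of `R` forces `f` integral (`s44w_int_of_mul`).

Typical use: `R = ℤ_(p)` (or a valuation subring over `p`), `n = p`.
-/
import Fermat.Agent.Lib.EN.MulRec

set_option autoImplicit false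

namespace Fermat.Agent.Lib.S44

open Polynomial WeierstrassCurve Fermat.Agent.Lib.EN

variable {K : Type*} [Field K]

/-- `f` has all its coefficients in the subring `R`. -/
def s44w_Int (R : Subring K) (f : K[X]) : Prop := ∀ i, f.coeff i ∈ R

theorem s44w_int_iff_lifts (R : Subring K) (f : K[X]) :
    s44w_Int R f ↔ f ∈ Polynomial.lifts R.subtype := by
  rw [Polynomial.lifts_iff_coeff_lifts]
  constructor
  · intro h i
    exact ⟨⟨f.coeff i, h i⟩, rfl⟩
  · intro h i
    obtain ⟨r, hr⟩ := h i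
    rw [← hr]
    exact r.2

theorem s44w_int_zero (R : Subring K) : s44w_Int R (0 : K[X]) := fun i => by
  rw [coeff_zero]; exact R.zero_mem

theorem s44w_int_one (R : Subring K) : s44w_Int R (1 : K[X]) := fun i => by
  rw [coeff_one]; split_ifs
  · exact R.one_mem
  · exact R.zero_mem

theorem s44w_int_X (R : Subring K) : s44w_Int R (X : K[X]) := fun i => by
  rw [coeff_X]; split_ifs
  · exact R.one_mem
  · exact R.zero_mem

theorem s44w_int_C (R : Subring K) {r : K} (hr : r ∈ R) : s44w_Int R (C r) := fun i => by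
  rw [coeff_C]; split_ifs
  · exact hr
  · exact R.zero_mem

theorem s44w_int_add (R : Subring K) {f g : K[X]} (hf : s44w_Int R f) (hg : s44w_Int R g) :
    s44w_Int R (f + g) := fun i => by
  rw [coeff_add]; exact R.add_mem (hf i) (hg i)

theorem s44w_int_neg (R : Subring K) {f : K[X]} (hf : s44w_Int R f) : s44w_Int R (-f) := fun i => by
  rw [coeff_neg]; exact R.neg_mem (hf i)

theorem s44w_int_sub (R : Subring K) {f g : K[X]} (hf : s44w_Int R f) (hg : s44w_Int R g) :
    s44w_Int R (f - g) := fun i => by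
  rw [coeff_sub]; exact R.sub_mem (hf i) (hg i)

theorem s44w_int_mul (R : Subring K) {f g : K[X]} (hf : s44w_Int R f) (hg : s44w_Int R g) :
    s44w_Int R (f * g) := fun i => by
  rw [coeff_mul]
  exact R.sum_mem fun x _ => R.mul_mem (hf _) (hg _)

theorem s44w_int_pow (R : Subring K) {f : K[X]} (hf : s44w_Int R f) (n : ℕ) :
    s44w_Int R (f ^ n) := by
  induction n with
  | zero => rw [pow_zero]; exact s44w_int_one R
  | succ n ih => rw [pow_succ]; exact s44w_int_mul R ih hf

theorem s44w_int_natCast (R : Subring K) (n : ℕ) : s44w_Int R ((n : K[X])) := by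
  rw [← C_eq_natCast]
  exact s44w_int_C R (natCast_mem R n)

theorem s44w_int_ofNat (R : Subring K) (n : ℕ) [n.AtLeastTwo] :
    s44w_Int R ((OfNat.ofNat n : K[X])) := by
  have : (OfNat.ofNat n : K[X]) = ((n : ℕ) : K[X]) := (Nat.cast_ofNat (R := K[X]) (n := n)).symm
  rw [this]
  exact s44w_int_natCast R n

/-- **exact division by a polynomial with unit leading coefficient preserves integrality.** -/
theorem s44w_int_of_mul (R : Subring K) {f g : K[X]} (hg : s44w_Int R g) (hg0 : g ≠ 0)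
    (hlc : g.leadingCoeff⁻¹ ∈ R) (hfg : s44w_Int R (f * g)) : s44w_Int R f := by
  classical
  have hc0 : g.leadingCoeff ≠ 0 := leadingCoeff_ne_zero.mpr hg0
  -- the monic multiple `g' = C lc⁻¹ * g`
  set g' : K[X] := C g.leadingCoeff⁻¹ * g with hg'
  have hg'int : s44w_Int R g' := s44w_int_mul R (s44w_int_C R hlc) hg
  have hg'mon : g'.Monic := by
    rw [hg', mul_comm]
    exact monic_mul_leadingCoeff_inv hg0
  have hfg' : s44w_Int R (f * g') := by
    have : f * g' = C g.leadingCoeff⁻¹ * (f * g) := by rw [hg']; ring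
    rw [this]
    exact s44w_int_mul R (s44w_int_C R hlc) hfg
  -- lift to `R[X]`
  obtain ⟨gR, hgR, -, hgRmon⟩ := Polynomial.lifts_and_degree_eq_and_monic
    ((s44w_int_iff_lifts R g').mp hg'int) hg'mon
  obtain ⟨hR, hhR⟩ := (Polynomial.mem_lifts _).mp ((s44w_int_iff_lifts R (f * g')).mp hfg')
  have key : Polynomial.map R.subtype (hR /ₘ gR) = f := by
    rw [Polynomial.map_divByMonic _ hgRmon, hhR, hgR, mul_comm]
    exact mul_divByMonic_cancel_left f hg'mon
  rw [← key]
  intro i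
  rw [coeff_map]
  exact (coeff (hR /ₘ gR) i).2

section forms

variable (R : Subring K) (W : WeierstrassCurve K)

theorem s44w_int_iff_exists (f : K[X]) :
    s44w_Int R f ↔ ∃ q : R[X], Polynomial.map R.subtype q = f := by
  rw [s44w_int_iff_lifts, Polynomial.mem_lifts]

theorem s44w_int_UX {a b : K[X]} (ha : s44w_Int R a) (hb : s44w_Int R b) :
    s44w_Int R (enc_UX a b) := by
  obtain ⟨aR, rfl⟩ := (s44w_int_iff_exists R a).mp ha
  obtain ⟨bR, rfl⟩ := (s44w_int_iff_exists R b).mp hb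
  refine (s44w_int_iff_exists R _).mpr ⟨(aR * 1 - X * bR) ^ 2, ?_⟩
  simp only [enc_UX, enc_Uh, Polynomial.map_pow, Polynomial.map_sub, Polynomial.map_mul,
    Polynomial.map_one, Polynomial.map_X]

theorem s44w_int_VX (hb2 : W.b₂ ∈ R) (hb4 : W.b₄ ∈ R) (hb6 : W.b₆ ∈ R) {a b : K[X]}
    (ha : s44w_Int R a) (hb : s44w_Int R b) : s44w_Int R (enc_VX W a b) := by
  obtain ⟨aR, rfl⟩ := (s44w_int_iff_exists R a).mp ha
  obtain ⟨bR, rfl⟩ := (s44w_int_iff_exists R b).mp hb
  refine (s44w_int_iff_exists R _).mpr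
    ⟨enc_Vh (C ⟨W.b₂, hb2⟩) (C ⟨W.b₄, hb4⟩) (C ⟨W.b₆, hb6⟩) aR bR X 1, ?_⟩
  simp only [enc_VX, enc_Vh, Polynomial.map_pow, Polynomial.map_add,
    Polynomial.map_mul, Polynomial.map_one, Polynomial.map_X, Polynomial.map_C,
    Subring.subtype_apply, Polynomial.map_ofNat]

theorem s44w_int_WX (hb4 : W.b₄ ∈ R) (hb6 : W.b₆ ∈ R) (hb8 : W.b₈ ∈ R) {a b : K[X]}
    (ha : s44w_Int R a) (hb : s44w_Int R b) : s44w_Int R (enc_WX W a b) := by
  obtain ⟨aR, rfl⟩ := (s44w_int_iff_exists R a).mp ha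
  obtain ⟨bR, rfl⟩ := (s44w_int_iff_exists R b).mp hb
  refine (s44w_int_iff_exists R _).mpr
    ⟨enc_Wh (C ⟨W.b₄, hb4⟩) (C ⟨W.b₆, hb6⟩) (C ⟨W.b₈, hb8⟩) aR bR X 1, ?_⟩
  simp only [enc_WX, enc_Wh, Polynomial.map_pow, Polynomial.map_sub, Polynomial.map_add,
    Polynomial.map_mul, Polynomial.map_one, Polynomial.map_X, Polynomial.map_C,
    Subring.subtype_apply]

end forms

section main

variable [IsAlgClosed K] [CharZero K] (R : Subring K) (W : WeierstrassCurve K)

/-- **Integrality of the multiplication pairs `(a_k, b_k)`, `k ≤ n`**, when `1, …, n - 2` are units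
of `R`. -/
theorem s44w_int_ab (hΔ : W.Δ ≠ 0) (hb2 : W.b₂ ∈ R) (hb4 : W.b₄ ∈ R) (hb6 : W.b₆ ∈ R)
    (hb8 : W.b₈ ∈ R) (n : ℕ) (hunit : ∀ j : ℕ, 1 ≤ j → j + 2 ≤ n → ((j : K))⁻¹ ∈ R) :
    ∀ k, k ≤ n → s44w_Int R (enc_a W k) ∧ s44w_Int R (enc_b W k) := by
  -- strong induction on pairs `(k, k + 1)`
  have main : ∀ k, k + 1 ≤ n →
      (s44w_Int R (enc_a W k) ∧ s44w_Int R (enc_b W k)) ∧
      (s44w_Int R (enc_a W (k + 1)) ∧ s44w_Int R (enc_b W (k + 1))) := by
    intro k
    induction k with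
    | zero =>
      intro _
      refine ⟨⟨?_, ?_⟩, ?_, ?_⟩
      · rw [enc_a_zero]; exact s44w_int_one R
      · rw [enc_b_zero]; exact s44w_int_zero R
      · rw [enc_a_one]; exact s44w_int_X R
      · rw [enc_b_one]; exact s44w_int_one R
    | succ k ih =>
      intro hk
      obtain ⟨⟨ha0, hb0⟩, ha1, hb1⟩ := ih (by omega)
      refine ⟨⟨ha1, hb1⟩, ?_, ?_⟩
      · -- `a_{k+2} * a_k = W(a_{k+1}, b_{k+1})`, `a_k` monic
        obtain ⟨hI0, -, hId⟩ := enc_Inv_all W hΔ k
        obtain ⟨-, hmon0, -, -, -⟩ := hI0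
        obtain ⟨-, -, hW⟩ := hId
        refine s44w_int_of_mul R ha0 hmon0.ne_zero ?_ ?_
        · rw [hmon0.leadingCoeff, inv_one]; exact R.one_mem
        · rw [← hW]
          exact s44w_int_WX R W hb4 hb6 hb8 ha1 hb1
      · -- `b_{k+2} * b_k = U(a_{k+1}, b_{k+1})`, `lc b_k = k²`
        rcases Nat.eq_zero_or_pos k with rfl | hkpos
        · rw [enc_b_two]
          exact s44w_int_VX R W hb2 hb4 hb6 (s44w_int_X R) (s44w_int_one R)
        · obtain ⟨hI0, -, hId⟩ := enc_Inv_all W hΔ k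
          obtain ⟨-, -, -, -, hlc0⟩ := hI0
          obtain ⟨hU, -, -⟩ := hId
          have hkK : (k : K) ≠ 0 := Nat.cast_ne_zero.mpr hkpos.ne'
          have hb00 : enc_b W k ≠ 0 := fun h => by
            rw [h, leadingCoeff_zero] at hlc0
            exact pow_ne_zero 2 hkK hlc0.symm
          refine s44w_int_of_mul R hb0 hb00 ?_ ?_
          · rw [hlc0, ← inv_pow]
            exact R.pow_mem (hunit k hkpos (by omega)) 2
          · rw [← hU]
            exact s44w_int_UX R ha1 hb1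
  intro k hk
  rcases Nat.eq_zero_or_pos k with rfl | hkpos
  · refine ⟨?_, ?_⟩
    · rw [enc_a_zero]; exact s44w_int_one R
    · rw [enc_b_zero]; exact s44w_int_zero R
  · obtain ⟨j, rfl⟩ : ∃ j, k = j + 1 := ⟨k - 1, by omega⟩
    exact (main j hk).2

end main

end Fermat.Agent.Lib.S44
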