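/-
M-AT-P programme (S44), W-side [L6] (helper6, prefix `s44w_`), brick (A2): **a Newton-polygon lemma for
a split polynomial over a valued field.**

`A` a valuation subring of a field `K`, `f = c · ∏_{r ∈ m} (X − r)` with all coefficients in `A`
(`m` a multiset of elements of `K`).  Let `m⁺` be the roots lying in `A` and `m⁻` the others, and
`κ := c · ∏_{r ∈ m⁻} (−r)`.  Then `κ ∈ A`, and the reduction of `f` modulo the maximal ideal is
`κ̄ · ∏_{r ∈ m⁺} (X − r̄)`; in particular, if the reduction of `f` is non-zero then `κ` is a unit of `A`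
and the degree of the reduction is the number of roots lying in `A`.
-/
import Fermat.Agent.Lib.S44.WInt

set_option autoImplicit false

namespace Fermat.Agent.Lib.S44

open Polynomial IsLocalRing

variable {K : Type*} [Field K] (A : ValuationSubring K)

/-- the lift to `A[X]` of a polynomial with coefficients in `A`. -/
theorem s44w_exists_lift {f : K[X]} (hf : s44w_Int A.toSubring f) :
    ∃ fA : (A : Type _)[X], fA.map A.subtype = f :=
  (s44w_int_iff_exists A.toSubring f).mp hf

theorem s44w_map_subtype_injective :
    Function.Injective (Polynomial.map (A.subtype : A →+* K)) :=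
  Polynomial.map_injective _ Subtype.val_injective

variable {A}

/-- an element outside `A` has its inverse in the maximal ideal. -/
theorem s44w_inv_mem_nonunits {r : K} (hr : r ∉ A) : r⁻¹ ∈ A.nonunits := by
  have hr0 : r ≠ 0 := by
    rintro rfl
    exact hr A.zero_mem
  rw [ValuationSubring.mem_nonunits_iff, map_inv₀]
  have h1 : 1 < A.valuation r := by
    rw [← not_le]
    exact fun h => hr ((A.valuation_le_one_iff r).mp h)
  exact inv_lt_one_of_one_lt₀ h1

/-- the normalised factor attached to a root: `X − r` if `r ∈ A`, `1 − r⁻¹ X` otherwise. -/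
noncomputable def s44w_fac (A : ValuationSubring K) (r : K) : (A : Type _)[X] :=
  open Classical in
  if h : r ∈ A then X - C ⟨r, h⟩
  else 1 - C ⟨r⁻¹, A.nonunits_subset (s44w_inv_mem_nonunits h)⟩ * X

/-- the normalising constant attached to a root: `1` if `r ∈ A`, `−r` otherwise. -/
noncomputable def s44w_cst (A : ValuationSubring K) (r : K) : K :=
  open Classical in if r ∈ A then 1 else -r

theorem s44w_fac_spec (r : K) :
    X - C r = C (s44w_cst A r) * (s44w_fac A r).map A.subtype := by
  classical
  unfold s44w_cst s44w_fac
  by_cases h : r ∈ A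
  · rw [if_pos h, dif_pos h, C_1, one_mul, Polynomial.map_sub, Polynomial.map_X, Polynomial.map_C]
    rfl
  · have hr0 : r ≠ 0 := by
      rintro rfl
      exact h A.zero_mem
    rw [if_neg h, dif_neg h, Polynomial.map_sub, Polynomial.map_one, Polynomial.map_mul,
      Polynomial.map_X, Polynomial.map_C]
    change X - C r = C (-r) * (1 - C r⁻¹ * X)
    rw [mul_sub, mul_one, ← mul_assoc, ← C_mul, neg_mul, mul_inv_cancel₀ hr0, C_neg, C_neg, C_1]
    ring

theorem s44w_fac_map_residue (r : K) :
    (s44w_fac A r).map (residue A) =
      open Classical in if h : r ∈ A then X - C (residue A ⟨r, h⟩) else 1 := by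
  classical
  unfold s44w_fac
  by_cases h : r ∈ A
  · rw [dif_pos h, dif_pos h, Polynomial.map_sub, Polynomial.map_X, Polynomial.map_C]
  · rw [dif_neg h, dif_neg h, Polynomial.map_sub, Polynomial.map_one, Polynomial.map_mul,
      Polynomial.map_X, Polynomial.map_C]
    have : residue A ⟨r⁻¹, A.nonunits_subset (s44w_inv_mem_nonunits h)⟩ = 0 := by
      rw [residue_eq_zero_iff, ← ValuationSubring.coe_mem_nonunits_iff]
      exact s44w_inv_mem_nonunits h
    rw [this, C_0, zero_mul, sub_zero]

theorem s44w_fac_map_residue_monic (r : K) : ((s44w_fac A r).map (residue A)).Monic := by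
  classical
  rw [s44w_fac_map_residue]
  by_cases h : r ∈ A
  · rw [dif_pos h]; exact monic_X_sub_C _
  · rw [dif_neg h]; exact monic_one

theorem s44w_fac_map_residue_natDegree (r : K) :
    ((s44w_fac A r).map (residue A)).natDegree = open Classical in if r ∈ A then 1 else 0 := by
  classical
  rw [s44w_fac_map_residue]
  by_cases h : r ∈ A
  · rw [dif_pos h, if_pos h]; exact natDegree_X_sub_C _
  · rw [dif_neg h, if_neg h]; exact natDegree_one

/-- the product of the normalised factors. -/
noncomputable def s44w_G (A : ValuationSubring K) (m : Multiset K) : (A : Type _)[X] :=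
  (m.map (s44w_fac A)).prod

/-- the product of the normalising constants: `∏_{r ∉ A} (−r)`. -/
noncomputable def s44w_kappa (A : ValuationSubring K) (m : Multiset K) : K :=
  (m.map (s44w_cst A)).prod

theorem s44w_prod_spec (m : Multiset K) :
    (m.map (fun r => X - C r)).prod = C (s44w_kappa A m) * (s44w_G A m).map A.subtype := by
  induction m using Multiset.induction_on with
  | empty => simp [s44w_kappa, s44w_G]
  | cons r m ih =>
    simp only [s44w_kappa, s44w_G, Multiset.map_cons, Multiset.prod_cons] at ih ⊢
    rw [ih, s44w_fac_spec (A := A) r, Polynomial.map_mul, C_mul]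
    ring

theorem s44w_G_map_residue_monic (m : Multiset K) : ((s44w_G A m).map (residue A)).Monic := by
  unfold s44w_G
  rw [Polynomial.map_multiset_prod, Multiset.map_map]
  exact monic_multiset_prod_of_monic _ _ fun r _ => s44w_fac_map_residue_monic r

theorem s44w_G_map_residue_natDegree (m : Multiset K) :
    ((s44w_G A m).map (residue A)).natDegree =
      open Classical in Multiset.card (m.filter (· ∈ A)) := by
  classical
  unfold s44w_G
  rw [Polynomial.map_multiset_prod, Multiset.map_map,
    natDegree_multiset_prod_of_monic _ (by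
      intro q hq
      obtain ⟨r, -, rfl⟩ := Multiset.mem_map.mp hq
      exact s44w_fac_map_residue_monic r), Multiset.map_map]
  induction m using Multiset.induction_on with
  | empty => simp
  | cons r m ih =>
    rw [Multiset.map_cons, Multiset.sum_cons, ih, Multiset.filter_cons]
    simp only [Function.comp_apply, s44w_fac_map_residue_natDegree]
    by_cases h : r ∈ A
    · rw [if_pos h, if_pos h, Multiset.card_add, Multiset.card_singleton]
    · rw [if_neg h, if_neg h, zero_add, zero_add]

/-- **Newton-polygon lemma.**  `f = c ∏ (X − r)` with coefficients in `A`: the constant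
`κ = c ∏_{r ∉ A} (−r)` lies in `A` and `f̄ = κ̄ · Ḡ` with `Ḡ` monic of degree `#{r ∈ A}`. -/
theorem s44w_newton {c : K} {m : Multiset K} {fA : (A : Type _)[X]}
    (hf : fA.map A.subtype = C c * (m.map (fun r => X - C r)).prod) :
    ∃ κ : A, (κ : K) = c * s44w_kappa A m ∧ fA = C κ * s44w_G A m := by
  classical
  set g := s44w_G A m with hg
  set d := Multiset.card (m.filter (· ∈ A)) with hd
  have hmon := s44w_G_map_residue_monic (A := A) m
  have hdeg := s44w_G_map_residue_natDegree (A := A) m
  -- the coefficient of `X^d` of `g` is a unit of `A`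
  have hunit : IsUnit (g.coeff d) := by
    have h1 : residue A (g.coeff d) = 1 := by
      have h4 : (g.map (residue A)).natDegree = d := hdeg
      rw [← coeff_map, ← h4]
      exact hmon.coeff_natDegree
    by_contra hnu
    have : residue A (g.coeff d) = 0 := by
      rw [residue_eq_zero_iff]
      exact (mem_maximalIdeal _).mpr hnu
    rw [this] at h1
    exact zero_ne_one h1
  have hfK : fA.map A.subtype = C (c * s44w_kappa A m) * g.map A.subtype := by
    rw [hf, s44w_prod_spec (A := A) m, C_mul]
    ring
  -- `κ ∈ A`
  have hκ : c * s44w_kappa A m ∈ A := by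
    have h2 := congrArg (fun q => q.coeff d) hfK
    simp only [coeff_map, coeff_C_mul] at h2
    obtain ⟨w, hw⟩ := hunit
    have h3 : c * s44w_kappa A m = ((fA.coeff d * (w⁻¹ : Aˣ) : A) : K) := by
      have hw' : ((g.coeff d : A) : K) * (((w⁻¹ : Aˣ) : A) : K) = 1 := by
        rw [← hw]
        exact_mod_cast congrArg (fun z : A => (z : K)) (Units.mul_inv w)
      push_cast
      have h2' : (A.subtype (fA.coeff d) : K) = c * s44w_kappa A m * (A.subtype (g.coeff d) : K) := h2
      simp only [ValuationSubring.subtype_apply] at h2'
      rw [h2', mul_assoc, hw', mul_one]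
    rw [h3]
    exact (fA.coeff d * (w⁻¹ : Aˣ) : A).2
  refine ⟨⟨_, hκ⟩, rfl, ?_⟩
  apply s44w_map_subtype_injective A
  rw [hfK, Polynomial.map_mul, Polynomial.map_C]
  rfl

/-- consequence: if the reduction of `f` is non-zero, `κ` is a unit and the degree of the reduction is
the number of roots in `A`. -/
theorem s44w_newton_deg {c : K} {m : Multiset K} {fA : (A : Type _)[X]}
    (hf : fA.map A.subtype = C c * (m.map (fun r => X - C r)).prod)
    (hne : fA.map (residue A) ≠ 0) :
    A.valuation (c * s44w_kappa A m) = 1 ∧
      (fA.map (residue A)).natDegree = open Classical in Multiset.card (m.filter (· ∈ A)) := by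
  classical
  obtain ⟨κ, hκ, hfA⟩ := s44w_newton hf
  have hmap : fA.map (residue A) = C (residue A κ) * (s44w_G A m).map (residue A) := by
    rw [hfA, Polynomial.map_mul, Polynomial.map_C]
  have hκ0 : residue A κ ≠ 0 := by
    intro h0
    apply hne
    rw [hmap, h0, C_0, zero_mul]
  constructor
  · rw [← hκ]
    have hu : IsUnit κ := by
      by_contra hnu
      exact hκ0 ((residue_eq_zero_iff _).mpr ((mem_maximalIdeal _).mpr hnu))
    exact (A.valuation_eq_one_iff κ).mp hu
  · rw [hmap, natDegree_C_mul hκ0]
    exact s44w_G_map_residue_natDegree m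

end Fermat.Agent.Lib.S44
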