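/-
M-AT-P programme (S44), W-side [L6] (helper6, prefix `s44w_`), brick (A3): **the reduction of the
multiplication-by-`p` denominator at a prime of multiplicative reduction has degree exactly
`p² − p`.**

`A` a valuation subring of an algebraically closed field `K` of characteristic `0` whose residue
field `k` has characteristic `p`; `W` a Weierstrass curve over `A` with `Δ ≠ 0` on the generic fibre
and special fibre in nodal normal form (`s58x_Node`, `(y − αx)(y − βx) = x³`).  If `a_p, b_p`
(`enc_a`, `enc_b` of `Lib/EN/MulRec`) have coefficients in `A`, then `b̄_p ≠ 0` and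
`deg b̄_p = p² − p`.

Method: along the parametrisation `u ↦ (X(u), Y(u))`, `X(u) = u d / (1 − u)²` (`d = (α − β)²`), of
the smooth locus of the special fibre (`Lib/S58/XNode`), lifting + `s58g_red_nsmul` give
`X(u^p) · b̄_p(X(u)) = ā_p(X(u))` for all but finitely many `u`; since `1 − u^p = (1 − u)^p` in
characteristic `p` and `ā_p` is monic of degree `p²`, comparing orders of vanishing at `u = 1`
gives the degree.
-/
import Fermat.Agent.Lib.S44.WVal
import Fermat.Agent.Lib.S58.GRed
import Fermat.Agent.Lib.S58.XNode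
import Fermat.Agent.Lib.EN.Pointwise
import Fermat.Agent.Lib.S41.ARedRes

set_option autoImplicit false
set_option linter.unusedSectionVars false

namespace Fermat.Agent.Lib.S44

open Polynomial

section poly

variable {k : Type*} [Field k]

/-- homogenisation of `f` (of degree `≤ n`) along `x = d u / (1 − u)²`:
`(1 − u)^{2n} f(d u / (1 − u)²)`. -/
noncomputable def s44w_H (d : k) (n : ℕ) (f : k[X]) : k[X] :=
  ∑ i ∈ Finset.range (n + 1), C (f.coeff i) * (C d * X) ^ i * (1 - X) ^ (2 * (n - i))

theorem s44w_H_eval (d : k) (n : ℕ) (f : k[X]) (hf : f.natDegree ≤ n) (u : k) (hu : 1 - u ≠ 0) :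
    (s44w_H d n f).eval u = (1 - u) ^ (2 * n) * f.eval (u * d / (1 - u) ^ 2) := by
  rw [s44w_H, eval_finsetSum, eval_eq_sum_range' (Nat.lt_succ_of_le hf), Finset.mul_sum]
  apply Finset.sum_congr rfl
  intro i hi
  have hi' : i ≤ n := Nat.lt_succ_iff.mp (Finset.mem_range.mp hi)
  simp only [eval_mul, eval_C, eval_pow, eval_X, eval_sub, eval_one]
  have e : (1 - u) ^ (2 * n) = (1 - u) ^ (2 * (n - i)) * ((1 - u) ^ 2) ^ i := by
    rw [← pow_mul, ← pow_add]
    congr 1
    omega
  rw [e, div_pow]
  have h2 : ((1 - u) ^ 2) ^ i ≠ 0 := pow_ne_zero _ (pow_ne_zero _ hu)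
  field_simp

theorem s44w_H_eval_one (d : k) (n : ℕ) (f : k[X]) :
    (s44w_H d n f).eval 1 = f.coeff n * d ^ n := by
  rw [s44w_H, eval_finsetSum, Finset.sum_eq_single n]
  · simp
  · intro i hi hne
    have hi' : i < n := lt_of_le_of_ne (Nat.lt_succ_iff.mp (Finset.mem_range.mp hi)) hne
    simp only [eval_mul, eval_C, eval_pow, eval_X, eval_sub, eval_one, sub_self]
    rw [zero_pow (by omega), mul_zero]
  · intro h
    exact absurd (Finset.mem_range.mpr (Nat.lt_succ_self n)) h

theorem s44w_H_shift (d : k) (m n : ℕ) (hmn : m ≤ n) (f : k[X]) (hf : f.natDegree ≤ m) :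
    s44w_H d n f = (1 - X) ^ (2 * (n - m)) * s44w_H d m f := by
  rw [s44w_H, s44w_H, Finset.mul_sum]
  rw [← Finset.sum_subset (Finset.range_subset_range.mpr (Nat.succ_le_succ hmn))]
  · apply Finset.sum_congr rfl
    intro i hi
    have hi' : i ≤ m := Nat.lt_succ_iff.mp (Finset.mem_range.mp hi)
    have e : (1 - X : k[X]) ^ (2 * (n - i)) =
        (1 - X) ^ (2 * (n - m)) * (1 - X) ^ (2 * (m - i)) := by
      rw [← pow_add]
      congr 1
      omega
    rw [e]
    ring
  · intro i _ hi
    have hi' : m < i := by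
      by_contra hcon
      exact hi (Finset.mem_range.mpr (by omega))
    rw [coeff_eq_zero_of_natDegree_lt (lt_of_le_of_lt hf hi'), C_0, zero_mul, zero_mul]

theorem s44w_H_zero (d : k) (n : ℕ) : s44w_H d n (0 : k[X]) = 0 := by
  simp [s44w_H]

/-- **the degree count.**  `k` infinite of characteristic `p`, `a` monic of degree `p²`,
`deg b ≤ p²`, and `X(u^p) b(X(u)) = a(X(u))` for all `u` outside a finite set, where
`X(u) = u d / (1 − u)²`, `d ≠ 0`.  Then `b ≠ 0` and `deg b = p² − p`. -/
theorem s44w_node_degree [Infinite k] (p : ℕ) [hp : Fact p.Prime] [CharP k p] (d : k) (hd : d ≠ 0)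
    (a b : k[X]) (ha : a.Monic) (hda : a.natDegree = p ^ 2) (hdb : b.natDegree ≤ p ^ 2)
    (S : Set k) (hS : S.Finite)
    (h : ∀ u : k, u ∉ S → 1 - u ≠ 0 → 1 - u ^ p ≠ 0 →
      (u ^ p * d / (1 - u ^ p) ^ 2) * b.eval (u * d / (1 - u) ^ 2) =
        a.eval (u * d / (1 - u) ^ 2)) :
    b ≠ 0 ∧ b.natDegree = p ^ 2 - p := by
  set n := p ^ 2 with hn
  have h1X : (1 - X : k[X]) ≠ 0 := by
    intro h0
    have := congrArg (eval 0) h0
    simp at this
  have key : X ^ p * C d * s44w_H d n b = (1 - X) ^ (2 * p) * s44w_H d n a := by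
    apply Polynomial.eq_of_infinite_eval_eq
    apply Set.Infinite.mono (s := (S ∪ {1})ᶜ)
    · intro u hu
      simp only [Set.mem_compl_iff, Set.mem_union, Set.mem_singleton_iff, not_or] at hu
      obtain ⟨huS, hu1⟩ := hu
      have h1 : 1 - u ≠ 0 := sub_ne_zero.mpr (Ne.symm hu1)
      have hfrob : 1 - u ^ p = (1 - u) ^ p := by rw [sub_pow_char, one_pow]
      have h2 : 1 - u ^ p ≠ 0 := by rw [hfrob]; exact pow_ne_zero _ h1
      have hh := h u huS h1 h2
      simp only [Set.mem_ofPred_eq, eval_mul, eval_pow, eval_X, eval_C, eval_sub, eval_one]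
      rw [s44w_H_eval d n b hdb u h1, s44w_H_eval d n a hda.le u h1, ← hh, hfrob]
      generalize b.eval (u * d / (1 - u) ^ 2) = B
      have h3 : (1 - u) ^ p ≠ 0 := pow_ne_zero _ h1
      rw [show (1 - u) ^ (2 * p) = ((1 - u) ^ p) ^ 2 by rw [← pow_mul, mul_comm]]
      field_simp
    · exact (hS.union (Set.finite_singleton 1)).infinite_compl
  have hHa1 : (s44w_H d n a).eval 1 ≠ 0 := by
    rw [s44w_H_eval_one]
    have : a.coeff n = 1 := by rw [← hda]; exact ha.coeff_natDegree
    rw [this, one_mul]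
    exact pow_ne_zero _ hd
  have hb0 : b ≠ 0 := by
    rintro rfl
    rw [s44w_H_zero, mul_zero] at key
    rcases mul_eq_zero.mp key.symm with h0 | h0
    · exact pow_ne_zero _ h1X h0
    · apply hHa1
      rw [h0, eval_zero]
  refine ⟨hb0, ?_⟩
  set m := b.natDegree with hm
  have hshift := s44w_H_shift d m n hdb b le_rfl
  have hHb1 : (s44w_H d m b).eval 1 ≠ 0 := by
    rw [s44w_H_eval_one]
    exact mul_ne_zero (leadingCoeff_ne_zero.mpr hb0) (pow_ne_zero _ hd)
  rw [hshift] at key
  have hcmp : 2 * (n - m) = 2 * p := by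
    rcases lt_trichotomy (2 * (n - m)) (2 * p) with hlt | heq | hgt
    · exfalso
      obtain ⟨r, hr⟩ := Nat.exists_eq_add_of_lt hlt
      have e : (1 - X : k[X]) ^ (2 * (n - m)) * (X ^ p * C d * s44w_H d m b) =
          (1 - X) ^ (2 * (n - m)) * ((1 - X) ^ (r + 1) * s44w_H d n a) := by
        have e2 : (1 - X : k[X]) ^ (2 * p) = (1 - X) ^ (2 * (n - m)) * (1 - X) ^ (r + 1) := by
          rw [← pow_add, hr, add_assoc]
        rw [e2] at key
        linear_combination key
      have e' := congrArg (eval 1) (mul_left_cancel₀ (pow_ne_zero _ h1X) e)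
      simp only [eval_mul, eval_pow, eval_X, eval_C, eval_sub, eval_one, sub_self, one_pow,
        one_mul] at e'
      rw [zero_pow (by omega), zero_mul] at e'
      exact mul_ne_zero hd hHb1 e'
    · exact heq
    · exfalso
      obtain ⟨r, hr⟩ := Nat.exists_eq_add_of_lt hgt
      have e : (1 - X : k[X]) ^ (2 * p) * (X ^ p * C d * ((1 - X) ^ (r + 1) * s44w_H d m b)) =
          (1 - X) ^ (2 * p) * s44w_H d n a := by
        have e2 : (1 - X : k[X]) ^ (2 * (n - m)) = (1 - X) ^ (2 * p) * (1 - X) ^ (r + 1) := by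
          rw [← pow_add, hr, add_assoc]
        rw [e2] at key
        linear_combination key
      have e' := congrArg (eval 1) (mul_left_cancel₀ (pow_ne_zero _ h1X) e)
      simp only [eval_mul, eval_pow, eval_X, eval_C, eval_sub, eval_one, sub_self, one_pow,
        one_mul] at e'
      rw [zero_pow (by omega), zero_mul, mul_zero] at e'
      exact hHa1 e'.symm
  have hmn : m ≤ n := hdb
  omega

end poly

section curve

open WeierstrassCurve WeierstrassCurve.Affine IsLocalRing Fermat.Agent.Lib.S41 Fermat.Agent.Lib.S58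
  Fermat.Agent.Lib.EN

variable {K : Type*} [Field K] [DecidableEq K] [IsAlgClosed K] [CharZero K]
  (A : ValuationSubring K) (W : WeierstrassCurve A) [DecidableEq (ResidueField A)]

/-- evaluation of a lifted polynomial at an integral point. -/
theorem s44w_eval_lift (fA : (A : Type _)[X]) (a : A) :
    (fA.map A.subtype).eval (a : K) = ((fA.eval a : A) : K) := by
  rw [eval_map]
  exact eval₂_at_apply A.subtype a

theorem s44w_eval_res (fA : (A : Type _)[X]) (a : A) :
    (fA.map (residue A)).eval (residue A a) = residue A (fA.eval a) := by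
  rw [eval_map]
  exact eval₂_at_apply (residue A) a

variable {A W}

/-- **the reduced multiplication formula on the nodal special fibre.** -/
theorem s44w_red_eq (hΔ : (s41a_WK A W).Δ ≠ 0) {α β : ResidueField A}
    (hnode : s58x_Node (s41a_Wk A W) α β) (p : ℕ) (hp : 0 < p) (aA bA : (A : Type _)[X])
    (ha : aA.map A.subtype = enc_a (s41a_WK A W) p)
    (hb : bA.map A.subtype = enc_b (s41a_WK A W) p)
    (u : (ResidueField A)ˣ)
    (hu : ∀ j : ℕ, 0 < j → j ≤ p → (u : ResidueField A) ^ j ≠ 1) :
    s58x_X α β ((u : ResidueField A) ^ p) * (bA.map (residue A)).eval (s58x_X α β u) =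
      (aA.map (residue A)).eval (s58x_X α β u) := by
  have hu1 : (u : ResidueField A) ≠ 1 := by
    have := hu 1 one_pos hp
    rwa [pow_one] at this
  have hup : ((u ^ p : (ResidueField A)ˣ) : ResidueField A) ≠ 1 := by
    rw [Units.val_pow_eq_pow_val]
    exact hu p hp le_rfl
  have hpt := s58x_pt_of_ne hnode hu1
  obtain ⟨P, hP⟩ := s58g_exists_lift (A := A) (W := W)
    (s58x_nonsingular hnode (sub_ne_zero.mpr (Ne.symm hu1)) u.ne_zero)
  rw [← hpt] at hP
  have hord : ∀ j, 0 < j → j < p + 1 → j • s58x_pt hnode u ≠ 0 := by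
    intro j hj hjp h0
    rw [← s58x_pt_pow, s58x_pt_eq_zero_iff] at h0
    apply hu j hj (by omega)
    have := congrArg Units.val h0
    rwa [Units.val_pow_eq_pow_val, Units.val_one] at this
  have hred := s58g_red_nsmul hP (p + 1) hord p hp (Nat.lt_succ_self p)
  rw [← s58x_pt_pow, s58x_pt_of_ne hnode hup] at hred
  rw [hpt] at hP
  obtain ⟨a, b, h₁, h₂, rfl, e⟩ := hP
  obtain ⟨a', b', h₁', h₂', e1, e2⟩ := hred
  rw [Point.some.injEq] at e e2
  have hXu : s58x_X α β u = residue A a := e.1
  have hXup : s58x_X α β ((u : ResidueField A) ^ p) = residue A a' := by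
    rw [← e2.1, Units.val_pow_eq_pow_val]
  have hmul := enc_nsmul_some (s41a_WK A W) hΔ h₁ p e1
  rw [← ha, ← hb, s44w_eval_lift, s44w_eval_lift] at hmul
  have hmulA : a' * bA.eval a = aA.eval a := by
    apply Subtype.ext
    push_cast
    exact hmul
  rw [hXu, hXup, s44w_eval_res, s44w_eval_res, ← map_mul, hmulA]

/-- **(A3)**: the reduction of `b_p` is non-zero of degree exactly `p² − p`. -/
theorem s44w_bbar_deg (hΔ : (s41a_WK A W).Δ ≠ 0) {α β : ResidueField A}
    (hnode : s58x_Node (s41a_Wk A W) α β) (p : ℕ) [hp : Fact p.Prime] [CharP (ResidueField A) p]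
    (aA bA : (A : Type _)[X])
    (ha : aA.map A.subtype = enc_a (s41a_WK A W) p)
    (hb : bA.map A.subtype = enc_b (s41a_WK A W) p) :
    bA.map (residue A) ≠ 0 ∧ (bA.map (residue A)).natDegree = p ^ 2 - p := by
  have hac : IsAlgClosed (ResidueField A) := s41a_isAlgClosed_residueField A
  have hInv := (enc_Inv_all (s41a_WK A W) hΔ p).1
  obtain ⟨-, hmonK, hdaK, hdbK, -⟩ := hInv
  have hmonA : aA.Monic := by
    apply Polynomial.monic_of_injective (f := A.subtype) Subtype.val_injective
    rw [ha]; exact hmonK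
  have hdaA : aA.natDegree = p ^ 2 := by
    rw [← natDegree_map_eq_of_injective (f := A.subtype) Subtype.val_injective, ha, hdaK]
  have hdbA : bA.natDegree = p ^ 2 - 1 := by
    rw [← natDegree_map_eq_of_injective (f := A.subtype) Subtype.val_injective, hb, hdbK]
  have hd : (α - β) ^ 2 ≠ 0 := pow_ne_zero 2 (sub_ne_zero.mpr hnode.hne)
  -- the excluded finite set
  let S : Set (ResidueField A) :=
    {0} ∪ ⋃ j ∈ Finset.Icc 1 p, {u | u ^ j = 1}
  have hS : S.Finite := by
    apply Set.Finite.union (Set.finite_singleton 0)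
    apply Set.Finite.biUnion (Finset.finite_toSet _)
    intro j hj
    have hj1 : 0 < j := (Finset.mem_Icc.mp hj).1
    apply Set.Finite.subset (Finset.finite_toSet (nthRoots j (1 : ResidueField A)).toFinset)
    intro u hu
    rw [Finset.mem_coe, Multiset.mem_toFinset, mem_nthRoots hj1]
    exact hu
  refine s44w_node_degree p ((α - β) ^ 2) hd (aA.map (residue A)) (bA.map (residue A))
    (hmonA.map _) ?_ ?_ S hS ?_
  · rw [hmonA.natDegree_map, hdaA]
  · refine le_trans natDegree_map_le ?_
    rw [hdbA]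
    omega
  · intro u huS h1 h2
    have hu0 : u ≠ 0 := by
      rintro rfl
      exact huS (Or.inl rfl)
    have huj : ∀ j : ℕ, 0 < j → j ≤ p → u ^ j ≠ 1 := by
      intro j hj hjp h0
      apply huS
      right
      simp only [Set.mem_iUnion]
      exact ⟨j, Finset.mem_Icc.mpr ⟨hj, hjp⟩, h0⟩
    have := s44w_red_eq hΔ hnode p hp.out.pos aA bA ha hb (Units.mk0 u hu0) huj
    simpa only [s58x_X, Units.val_mk0] using this

end curve

end Fermat.Agent.Lib.S44
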