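/-
M-AT-P programme (S44), W-side [L6] (helper6, prefix `s44w_`), brick (A4-0): **the Newton data of the
`p`-division polynomial at a prime of multiplicative reduction.**

`A` a valuation subring over the prime `p` (odd) of an algebraically closed field `K` of
characteristic `0`, `W` a Weierstrass curve over `A` with `Δ ≠ 0` and nodal special fibre.  Then
`b_p = p² g²` with `g` monic (`enc_b_odd_square`), `g = ∏ (X − r)`, and among the `p² − 1` roots of
`b_p` (with multiplicity) exactly `p² − p` lie in `A`; moreover `p² ∏_{r ∉ A} (−r)` is a unit of `A`.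

Also: the Legendre model `Y² = X (X − δ)(X − ε)` over `A` (`s44w_WA`), its generic fibre (`fl_curve`)
and its nodal special fibre when `δ ∈ 𝔪`, `ε` a unit, `2` a unit.
-/
import Fermat.Agent.Lib.S44.WRed
import Fermat.Agent.Lib.EN.PFa
import Fermat.Agent.Lib.Frey.Ord
import Fermat.Agent.Lib.Frey.Defs

set_option autoImplicit false
set_option linter.unusedSectionVars false

namespace Fermat.Agent.Lib.S44

open Polynomial WeierstrassCurve WeierstrassCurve.Affine IsLocalRing Fermat.Agent.Lib.S41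
  Fermat.Agent.Lib.S58 Fermat.Agent.Lib.EN Fermat.Agent.Lib.Frey

section lifts

variable {K : Type*} [Field K] [IsAlgClosed K] [CharZero K]
  (A : ValuationSubring K) (W : WeierstrassCurve A)

/-- integral lifts of the multiplication pair `(a_p, b_p)` when `p` is the residue
characteristic. -/
theorem s44w_exists_lifts (hΔ : (s41a_WK A W).Δ ≠ 0) {p : ℕ} (hp : p.Prime)
    (hA : (p : K) ∈ A.nonunits) :
    ∃ aA bA : (A : Type _)[X], aA.map A.subtype = enc_a (s41a_WK A W) p ∧
      bA.map A.subtype = enc_b (s41a_WK A W) p := by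
  have hmem : ∀ x : A, (x : K) ∈ A.toSubring := fun x => x.2
  have h := s44w_int_ab A.toSubring (s41a_WK A W) hΔ
    (by rw [s41a_WK, map_b₂]; exact hmem _) (by rw [s41a_WK, map_b₄]; exact hmem _)
    (by rw [s41a_WK, map_b₆]; exact hmem _) (by rw [s41a_WK, map_b₈]; exact hmem _) p
    (by
      intro j hj1 hjp
      have hnd : ¬ p ∣ j := fun hd => by
        have := Nat.le_of_dvd (by omega) hd
        omega
      have hv : A.valuation (j : K) = 1 := ford_val_natCast_of_not_dvd hp hA hnd
      change ((j : K))⁻¹ ∈ A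
      rw [← A.valuation_le_one_iff, map_inv₀, hv, inv_one])
    p le_rfl
  obtain ⟨aA, haA⟩ := s44w_exists_lift A h.1
  obtain ⟨bA, hbA⟩ := s44w_exists_lift A h.2
  exact ⟨aA, bA, haA, hbA⟩

end lifts

section newton

variable {K : Type*} [Field K] [DecidableEq K] [IsAlgClosed K] [CharZero K]
  (A : ValuationSubring K) (W : WeierstrassCurve A) [DecidableEq (ResidueField A)]

/-- **Newton data of `b_p` at a prime of multiplicative reduction.** -/
theorem s44w_node_newton (hΔ : (s41a_WK A W).Δ ≠ 0) {α β : ResidueField A}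
    (hnode : s58x_Node (s41a_Wk A W) α β) {p : ℕ} (hp : p.Prime) (hp2 : p ≠ 2)
    (hA : (p : K) ∈ A.nonunits) :
    ∃ g : K[X], g.Monic ∧ enc_b (s41a_WK A W) p = C ((p : K) ^ 2) * g ^ 2 ∧
      2 * g.natDegree = p ^ 2 - 1 ∧
      A.valuation ((p : K) ^ 2 * s44w_kappa A (g.roots + g.roots)) = 1 ∧
      open Classical in
        Multiset.card ((g.roots + g.roots).filter (· ∈ A)) = p ^ 2 - p := by
  classical
  have : Fact p.Prime := ⟨hp⟩
  have hch : CharP (ResidueField A) p := s41a_charP_residueField A hp hA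
  obtain ⟨aA, bA, haA, hbA⟩ := s44w_exists_lifts A W hΔ hp hA
  obtain ⟨hne, hdeg⟩ := s44w_bbar_deg hΔ hnode p aA bA haA hbA
  have hodd : Odd p := hp.odd_of_ne_two hp2
  obtain ⟨g, hg, hbg⟩ := enc_b_odd_square (s41a_WK A W).toAffine hΔ p hodd
  have hsplit : g = (g.roots.map (X - C ·)).prod :=
    (IsAlgClosed.splits g).eq_prod_roots_of_monic hg
  have hf : bA.map A.subtype =
      C ((p : K) ^ 2) * ((g.roots + g.roots).map (fun r => X - C r)).prod := by
    rw [hbA, hbg, Multiset.map_add, Multiset.prod_add, ← pow_two, ← hsplit]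
  obtain ⟨h1, h2⟩ := s44w_newton_deg hf hne
  refine ⟨g, hg, hbg, ?_, h1, ?_⟩
  · have hdb : (enc_b (s41a_WK A W) p).natDegree = p ^ 2 - 1 :=
      (enc_Inv_all (s41a_WK A W) hΔ p).1.2.2.2.1
    have hpK : ((p : K)) ^ 2 ≠ 0 := pow_ne_zero 2 (Nat.cast_ne_zero.mpr hp.ne_zero)
    rw [← hdb, hbg, natDegree_C_mul hpK, natDegree_pow]
  · rw [← hdeg, h2]

end newton

section legendre

variable {K : Type*} [Field K] (A : ValuationSubring K)

/-- the Legendre model `Y² = X (X − δ) (X − ε)` over `A`. -/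
def s44w_WA (δ ε : A) : WeierstrassCurve A := ⟨0, -(δ + ε), 0, δ * ε, 0⟩

theorem s44w_WA_generic (δ ε : A) :
    s41a_WK A (s44w_WA A δ ε) = fl_curve (δ : K) (ε : K) := by
  ext <;> simp [s44w_WA, fl_curve, WeierstrassCurve.map]

/-- the special fibre is the nodal cubic `Y² = X² (X − ε̄)`, in normal form with `α = γ̄`,
`β = −γ̄`, `γ² = −ε`. -/
theorem s44w_WA_node (δ ε γ : A) (hδ : residue A δ = 0) (hγ : γ ^ 2 = -ε)
    (h2γ : residue A (2 * γ) ≠ 0) :
    s58x_Node (s41a_Wk A (s44w_WA A δ ε)) (residue A γ) (-(residue A γ)) := by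
  have hγ' : residue A γ ^ 2 = -residue A ε := by
    rw [← map_pow, hγ, map_neg]
  refine ⟨?_, ?_, ?_, ?_, ?_, ?_⟩
  · simp [s44w_WA]
  · simp only [s44w_WA, WeierstrassCurve.map, map_neg, map_add, hδ, zero_add]
    linear_combination (-1 : ResidueField A) * hγ'
  · simp [s44w_WA]
  · simp [s44w_WA, hδ]
  · simp [s44w_WA]
  · intro h
    apply h2γ
    rw [map_mul, map_ofNat]
    linear_combination h

end legendre

end Fermat.Agent.Lib.S44
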