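/-
M-AT-P programme (S44), W-side [L6] (helper6, prefix `s44w_`), brick (A4): **the kernel of reduction
in `E[p]` at a prime `p` of multiplicative reduction** (Legendre model `Y² = X (X − δ)(X − ε)`,
`v δ > 0`, `v ε = 0`, `p` odd, `v` the valuation with `v p = 1`):

* `s44w_exists_integral_torsion` : some non-zero `p`-torsion point has integral abscissa
  (so `T = E[p] ∩ E₁ ≠ E[p]`);
* `s44w_exists_T`               : some non-zero `p`-torsion point lies in `E₁` (`T ≠ 0`);
* `s44w_T_val`                  : every non-zero `Q ∈ T` has `v (t(Q)) = 1 / (p − 1)`, `t = x / y`.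
-/
import Fermat.Agent.Lib.S44.WLeg
import Fermat.Agent.Lib.Frey.E1TorsionT
import Fermat.Agent.Lib.EN.PFPrime

set_option autoImplicit false
set_option linter.unusedSectionVars false

namespace Fermat.Agent.Lib.S44

open Polynomial WeierstrassCurve WeierstrassCurve.Affine IsLocalRing Fermat.Agent.Lib.S41
  Fermat.Agent.Lib.S58 Fermat.Agent.Lib.EN Fermat.Agent.Lib.Frey

/-- in a group of order `p²`, two non-zero elements of a proper subgroup are multiples of each
other. -/
theorem s44w_prime_sq_sub {G : Type*} [AddCommGroup G] {p : ℕ} (hp : p.Prime)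
    (hG : Nat.card G = p ^ 2) (T : AddSubgroup G) (hT : T ≠ ⊤) {x y : G} (hx : x ∈ T) (hy : y ∈ T)
    (hx0 : x ≠ 0) : ∃ k : ℕ, k < p ∧ y = k • x := by
  classical
  have : Fact p.Prime := ⟨hp⟩
  have : Finite G := Nat.finite_of_card_ne_zero (by rw [hG]; exact pow_ne_zero 2 hp.ne_zero)
  have hdvd : Nat.card T ∣ p ^ 2 := hG ▸ AddSubgroup.card_addSubgroup_dvd_card T
  obtain ⟨i, hi, hcard⟩ := (Nat.dvd_prime_pow hp).mp hdvd
  have hi2 : i ≠ 2 := by
    rintro rfl
    exact hT ((AddSubgroup.card_eq_iff_eq_top T).mp (hcard.trans hG.symm))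
  have hi0 : i ≠ 0 := by
    rintro rfl
    rw [pow_zero] at hcard
    have := AddSubgroup.eq_bot_of_card_eq T hcard
    rw [this, AddSubgroup.mem_bot] at hx
    exact hx0 hx
  have hi1 : i = 1 := by omega
  rw [hi1, pow_one] at hcard
  have hx' : (⟨x, hx⟩ : T) ≠ 0 := fun h => hx0 (congrArg Subtype.val h)
  have htop := zmultiples_eq_top_of_prime_card hcard hx'
  have hmem : (⟨y, hy⟩ : T) ∈ AddSubgroup.zmultiples (⟨x, hx⟩ : T) := by
    rw [htop]; exact AddSubgroup.mem_top _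
  have hord : addOrderOf (⟨x, hx⟩ : T) = p := by
    apply addOrderOf_eq_prime
    · rw [← hcard]; exact card_nsmul_eq_zero'
    · exact hx'
  rw [mem_zmultiples_iff_mem_range_addOrderOf, hord] at hmem
  obtain ⟨k, hk, hky⟩ := Finset.mem_image.mp hmem
  refine ⟨k, Finset.mem_range.mp hk, ?_⟩
  have := congrArg Subtype.val hky
  simpa using this.symm

section kappa

variable {K : Type*} [Field K] (A : ValuationSubring K) (v : AddValuation K (WithTop ℚ))

/-- valuation of the Newton constant when all the non-integral roots have the same valuation. -/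
theorem s44w_v_kappa (m : Multiset K) (w : ℚ) (hw : ∀ r ∈ m, r ∉ A → v r = (w : WithTop ℚ)) :
    v (s44w_kappa A m) =
      (((open Classical in Multiset.card (m.filter (· ∉ A)) : ℕ) : ℚ) * w : ℚ) := by
  classical
  induction m using Multiset.induction_on with
  | empty => simp [s44w_kappa]
  | cons r m ih =>
    have ih' := ih (fun r' hr' => hw r' (Multiset.mem_cons_of_mem hr'))
    have hk : s44w_kappa A (r ::ₘ m) = s44w_cst A r * s44w_kappa A m := by
      simp [s44w_kappa]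
    rw [hk, v.map_mul, ih', Multiset.filter_cons]
    unfold s44w_cst
    by_cases hr : r ∈ A
    · rw [if_pos hr, if_neg (not_not.mpr hr), v.map_one, zero_add, zero_add]
    · rw [if_neg hr, if_pos hr, v.map_neg, hw r (Multiset.mem_cons_self r m) hr,
        Multiset.card_add, Multiset.card_singleton, ← WithTop.coe_add]
      congr 1
      push_cast
      ring

end kappa

section main

variable {K : Type*} [Field K] [DecidableEq K] [IsAlgClosed K] [CharZero K] [Algebra ℚ K]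
  [Algebra.IsAlgebraic ℚ K] (A : ValuationSubring K) {p : ℕ} (hp : p.Prime) (hp2 : p ≠ 2)
  (hA : (p : K) ∈ A.nonunits) (δ ε : K) (hδA : δ ∈ A.nonunits) (hδ0 : δ ≠ 0)
  (hε : A.valuation ε = 1)

include hδA hδ0 hε in
theorem s44w_leg_Δ : (fl_curve δ ε).Δ ≠ 0 := by
  rw [ent_fl_curve_Δ]
  have h16 : (16 : K) ≠ 0 := by norm_num
  have hε0 : ε ≠ 0 := by
    rintro rfl
    rw [map_zero] at hε
    exact zero_ne_one hε
  have hδε : δ ≠ ε := by
    rintro rfl
    have := A.mem_nonunits_iff.mp hδA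
    rw [hε] at this
    exact lt_irrefl _ this
  exact mul_ne_zero (mul_ne_zero (mul_ne_zero h16 (pow_ne_zero 2 hδ0)) (pow_ne_zero 2 hε0))
    (pow_ne_zero 2 (sub_ne_zero.mpr hδε))

include hp hp2 hA in
theorem s44w_val_two : A.valuation (2 : K) = 1 := by
  have hnd : ¬ p ∣ 2 := fun h => hp2 ((Nat.prime_dvd_prime_iff_eq hp Nat.prime_two).mp h)
  have := ford_val_natCast_of_not_dvd hp hA hnd
  simpa using this

include hp hp2 hA hδA hδ0 hε in
/-- the Newton data of `b_p` for the Legendre model. -/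
theorem s44w_leg_newton :
    ∃ g : K[X], g.Monic ∧ enc_b (fl_curve δ ε) p = C ((p : K) ^ 2) * g ^ 2 ∧
      2 * g.natDegree = p ^ 2 - 1 ∧
      A.valuation ((p : K) ^ 2 * s44w_kappa A (g.roots + g.roots)) = 1 ∧
      open Classical in
        Multiset.card ((g.roots + g.roots).filter (· ∈ A)) = p ^ 2 - p := by
  classical
  have hΔ := s44w_leg_Δ A δ ε hδA hδ0 hε
  obtain ⟨γ, hγ⟩ := IsAlgClosed.exists_pow_nat_eq (-ε) (n := 2) (by norm_num)
  have hvγ : A.valuation γ = 1 := by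
    have h2 : A.valuation γ ^ 2 = 1 := by
      rw [← map_pow, hγ, Valuation.map_neg, hε]
    exact (pow_eq_one_iff.mp h2).resolve_right two_ne_zero
  let δ' : A := ⟨δ, A.nonunits_subset hδA⟩
  let ε' : A := ⟨ε, (A.valuation_le_one_iff ε).mp hε.le⟩
  let γ' : A := ⟨γ, (A.valuation_le_one_iff γ).mp hvγ.le⟩
  have hδres : residue A δ' = 0 := by
    rw [residue_eq_zero_iff, ← ValuationSubring.coe_mem_nonunits_iff]
    exact hδA
  have hγ' : γ' ^ 2 = -ε' := Subtype.ext (by push_cast; exact hγ)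
  have h2γ : residue A (2 * γ') ≠ 0 := by
    intro h0
    rw [residue_eq_zero_iff, A.valuation_lt_one_iff] at h0
    have e : ((2 * γ' : A) : K) = 2 * γ := by
      push_cast
      rw [show ((2 : A) : K) = 2 from map_ofNat A.subtype 2]
    rw [e, map_mul, s44w_val_two A hp hp2 hA, hvγ, one_mul] at h0
    exact lt_irrefl _ h0
  have hnode := s44w_WA_node A δ' ε' γ' hδres hγ' h2γ
  have hgen : s41a_WK A (s44w_WA A δ' ε') = fl_curve δ ε := s44w_WA_generic A δ' ε'
  have hΔ' : (s41a_WK A (s44w_WA A δ' ε')).Δ ≠ 0 := by rw [hgen]; exact hΔ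
  have := s44w_node_newton A (s44w_WA A δ' ε') hΔ' hnode hp hp2 hA
  rw [hgen] at this
  exact this

include hδA hδ0 hε in
/-- a root of `g` (`b_p = p² g²`) is the abscissa of a `p`-torsion point. -/
theorem s44w_root_torsion {g : K[X]} (hg0 : g ≠ 0)
    (hbg : enc_b (fl_curve δ ε) p = C ((p : K) ^ 2) * g ^ 2) {r : K}
    (hr : r ∈ g.roots + g.roots) :
    p • enc_pt (fl_curve δ ε).toAffine (s44w_leg_Δ A δ ε hδA hδ0 hε) r = 0 := by
  have hroot : r ∈ g.roots := by
    rcases Multiset.mem_add.mp hr with h | h <;> exact h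
  have hgr : g.eval r = 0 := (mem_roots hg0).mp hroot
  have hev : (enc_b (fl_curve δ ε) p).eval r = 0 := by
    rw [hbg, eval_mul, eval_pow, hgr]
    simp
  exact (enc_nsmul_pt_eq_zero_iff _ _ p r).mpr hev

include hp hp2 hA hδA hδ0 hε in
/-- **some non-zero `p`-torsion point has integral abscissa** (`T ≠ E[p]`). -/
theorem s44w_exists_integral_torsion :
    ∃ (x y : K) (h : (fl_curve δ ε).toAffine.Nonsingular x y),
      p • Point.some x y h = 0 ∧ x ∈ A := by
  classical
  have hΔ := s44w_leg_Δ A δ ε hδA hδ0 hε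
  obtain ⟨g, hg, hbg, hdeg, hval, hcard⟩ := s44w_leg_newton A hp hp2 hA δ ε hδA hδ0 hε
  have hpos : 0 < Multiset.card ((g.roots + g.roots).filter (· ∈ A)) := by
    rw [hcard]
    have h2 := hp.two_le
    have : p < p ^ 2 := by nlinarith
    omega
  obtain ⟨r, hr⟩ := Multiset.card_pos_iff_exists_mem.mp hpos
  rw [Multiset.mem_filter] at hr
  obtain ⟨hrm, hrA⟩ := hr
  exact ⟨r, enc_y _ r, enc_y_nonsingular _ hΔ r,
    s44w_root_torsion A δ ε hδA hδ0 hε hg.ne_zero hbg hrm, hrA⟩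

include hp hp2 hA hδA hδ0 hε in
/-- **some non-zero `p`-torsion point lies in the kernel of reduction** (`T ≠ 0`). -/
theorem s44w_exists_T :
    ∃ (x y : K) (h : (fl_curve δ ε).toAffine.Nonsingular x y),
      p • Point.some x y h = 0 ∧ x ∉ A := by
  classical
  have hΔ := s44w_leg_Δ A δ ε hδA hδ0 hε
  obtain ⟨g, hg, hbg, hdeg, hval, hcard⟩ := s44w_leg_newton A hp hp2 hA δ ε hδA hδ0 hε
  have hsplit := Multiset.filter_add_not (· ∈ A) (g.roots + g.roots)
  have hcm : Multiset.card (g.roots + g.roots) = p ^ 2 - 1 := by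
    rw [Multiset.card_add, IsAlgClosed.card_roots_eq_natDegree, ← two_mul, hdeg]
  have hpos : 0 < Multiset.card ((g.roots + g.roots).filter (fun r => ¬ r ∈ A)) := by
    have := congrArg Multiset.card hsplit
    rw [Multiset.card_add, hcard, hcm] at this
    have h2 := hp.two_le
    have : p < p ^ 2 := by nlinarith
    omega
  obtain ⟨r, hr⟩ := Multiset.card_pos_iff_exists_mem.mp hpos
  rw [Multiset.mem_filter] at hr
  obtain ⟨hrm, hrA⟩ := hr
  exact ⟨r, enc_y _ r, enc_y_nonsingular _ hΔ r,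
    s44w_root_torsion A δ ε hδA hδ0 hε hg.ne_zero hbg hrm, hrA⟩

include hp2 hδA hδ0 hε in
/-- **every non-zero point of `T = E[p] ∩ E₁` has `v (x / y) = 1 / (p − 1)`.** -/
theorem s44w_T_val {x₀ y₀ : K} (h₀ : (fl_curve δ ε).toAffine.Nonsingular x₀ y₀)
    (htor : p • Point.some x₀ y₀ h₀ = 0) (hx₀ : x₀ ∉ A) :
    ford_vQ A hp hA (x₀ / y₀) = (((1 : ℚ) / ((p : ℚ) - 1) : ℚ) : WithTop ℚ) := by
  classical
  set v := ford_vQ A hp hA with hv
  have hΔ := s44w_leg_Δ A δ ε hδA hδ0 hε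
  have hvδ : 0 ≤ v δ := (ford_vQ_nonneg_iff hp hA δ).mpr (A.nonunits_subset hδA)
  have hvε : 0 ≤ v ε := (ford_vQ_nonneg_iff hp hA ε).mpr ((A.valuation_le_one_iff ε).mp hε.le)
  have h1 : (fl_curve δ ε).a₁ = 0 := rfl
  have h3 : (fl_curve δ ε).a₃ = 0 := rfl
  have ha2 : 0 ≤ v (fl_curve δ ε).a₂ := by
    rw [fl_curve_a₂, AddValuation.map_neg]; exact v.map_le_add hvδ hvε
  have ha4 : 0 ≤ v (fl_curve δ ε).a₄ := by
    rw [fl_curve_a₄, v.map_mul]; exact add_nonneg hvδ hvε
  have ha6 : 0 ≤ v (fl_curve δ ε).a₆ := by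
    rw [fl_curve_a₆, AddValuation.map_zero]; exact le_top
  have hneg : ∀ x : K, x ∉ A → v x < 0 := fun x hx => by
    rw [← not_le, hv, ford_vQ_nonneg_iff]; exact hx
  obtain ⟨r₀, hr₀, hxr₀, hyr₀, htr₀⟩ :=
    frd_val_point v h1 h3 ha2 ha4 ha6 h₀.1 (hneg x₀ hx₀)
  obtain ⟨g, hg, hbg, hdeg, hval, hcard⟩ := s44w_leg_newton A hp hp2 hA δ ε hδA hδ0 hε
  -- the groups `V = E[p]` and `T = V ∩ E₁`
  have hV : Nat.card (Submodule.torsionBy ℤ (fl_curve δ ε).toAffine.Point (p : ℤ)) = p ^ 2 :=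
    enc_card_torsion_of_Δ (fl_curve δ ε).toAffine hΔ p hp.pos
  let T : AddSubgroup (Submodule.torsionBy ℤ (fl_curve δ ε).toAffine.Point (p : ℤ)) :=
    { carrier := {q | fl_InE1 v (q : (fl_curve δ ε).toAffine.Point)}
      zero_mem' := Or.inl rfl
      add_mem' := fun {a b} ha hb => fab_E1_add v h1 h3 ha2 ha4 ha6 ha hb
      neg_mem' := fun {a} ha => fab_E1_neg v ha }
  have hmemV : ∀ Q : (fl_curve δ ε).toAffine.Point, p • Q = 0 →
      Q ∈ Submodule.torsionBy ℤ (fl_curve δ ε).toAffine.Point (p : ℤ) := by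
    intro Q hQ
    rw [Submodule.mem_torsionBy_iff, natCast_zsmul]
    exact hQ
  have hTtop : T ≠ ⊤ := by
    obtain ⟨x, y, h, htor', hxA⟩ := s44w_exists_integral_torsion A hp hp2 hA δ ε hδA hδ0 hε
    intro htop
    have hmem : (⟨Point.some x y h, hmemV _ htor'⟩ :
        Submodule.torsionBy ℤ (fl_curve δ ε).toAffine.Point (p : ℤ)) ∈ T := by
      rw [htop]; exact AddSubgroup.mem_top _
    rcases hmem with h0 | ⟨x', y', h', hxy, hx'⟩
    · exact Point.some_ne_zero _ h0
    · rw [Point.some.injEq] at hxy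
      obtain ⟨rfl, rfl⟩ := hxy
      exact absurd ((ford_vQ_nonneg_iff hp hA x).mpr hxA) (not_le.mpr hx')
  -- every non-integral root has valuation `-2 r₀`
  have hroots : ∀ r ∈ g.roots + g.roots, r ∉ A → v r = ((-2 * r₀ : ℚ) : WithTop ℚ) := by
    intro r hr hrA
    have htr := s44w_root_torsion A δ ε hδA hδ0 hε hg.ne_zero hbg hr
    have hq₀T : (⟨Point.some x₀ y₀ h₀, hmemV _ htor⟩ :
        Submodule.torsionBy ℤ (fl_curve δ ε).toAffine.Point (p : ℤ)) ∈ T :=
      Or.inr ⟨x₀, y₀, h₀, rfl, hneg x₀ hx₀⟩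
    have hqT : (⟨enc_pt (fl_curve δ ε).toAffine hΔ r, hmemV _ htr⟩ :
        Submodule.torsionBy ℤ (fl_curve δ ε).toAffine.Point (p : ℤ)) ∈ T :=
      Or.inr ⟨r, _, _, rfl, hneg r hrA⟩
    have hq₀0 : (⟨Point.some x₀ y₀ h₀, hmemV _ htor⟩ :
        Submodule.torsionBy ℤ (fl_curve δ ε).toAffine.Point (p : ℤ)) ≠ 0 := by
      intro h0
      exact Point.some_ne_zero _ (congrArg Subtype.val h0)
    obtain ⟨k, hkp, hk⟩ := s44w_prime_sq_sub hp hV T hTtop hq₀T hqT hq₀0
    have hkQ : enc_pt (fl_curve δ ε).toAffine hΔ r = k • Point.some x₀ y₀ h₀ := by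
      have := congrArg Subtype.val hk
      simpa using this
    have hk0 : k ≠ 0 := by
      rintro rfl
      rw [zero_smul] at hkQ
      exact Point.some_ne_zero _ hkQ
    have hlt := frd_t_nsmul v h1 h3 ha2 ha4 ha6 h₀ (hneg x₀ hx₀) htr₀ k
    rw [← hkQ] at hlt
    have hvk : v (k : K) = 0 := by
      have hnd : ¬ p ∣ k := fun hd => by
        have := Nat.le_of_dvd (Nat.pos_of_ne_zero hk0) hd
        omega
      have : Fact p.Prime := ⟨hp⟩
      rw [hv, ford_vQ_natCast hp hA hk0, padicValNat.eq_zero_of_not_dvd hnd]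
      rfl
    have hkt : v ((k : K) * (x₀ / y₀)) = (r₀ : WithTop ℚ) := by
      rw [v.map_mul, hvk, zero_add, htr₀]
    have htq : v (r / enc_y (fl_curve δ ε).toAffine r) = (r₀ : WithTop ℚ) := by
      have hlt' : v ((k : K) * (x₀ / y₀)) <
          v (r / enc_y (fl_curve δ ε).toAffine r - (k : K) * (x₀ / y₀)) := by
        rw [hkt]; exact hlt
      rw [AddValuation.map_eq_of_lt_sub v hlt', hkt]
    obtain ⟨r', hr', hxr', hyr', htr'⟩ := frd_val_point v h1 h3 ha2 ha4 ha6
      (enc_y_nonsingular (fl_curve δ ε).toAffine hΔ r).1 (hneg r hrA)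
    obtain rfl : r' = r₀ := fuc_ex_unique v htr' htq
    exact hxr'
  have hk := s44w_v_kappa A v (g.roots + g.roots) (-2 * r₀) hroots
  have hcount : Multiset.card ((g.roots + g.roots).filter (· ∉ A)) = p - 1 := by
    have hsplit := Multiset.filter_add_not (· ∈ A) (g.roots + g.roots)
    have hcm : Multiset.card (g.roots + g.roots) = p ^ 2 - 1 := by
      rw [Multiset.card_add, IsAlgClosed.card_roots_eq_natDegree, ← two_mul, hdeg]
    have := congrArg Multiset.card hsplit
    rw [Multiset.card_add, hcard, hcm] at this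
    have h2 := hp.two_le
    have : p < p ^ 2 := by nlinarith
    omega
  have h0 : v ((p : K) ^ 2 * s44w_kappa A (g.roots + g.roots)) = 0 := by
    have := (ford_vQ_eq_iff hp hA ((p : K) ^ 2 * s44w_kappa A (g.roots + g.roots)) 1).mpr
      (by rw [hval, map_one])
    rw [hv, this, AddValuation.map_one]
  rw [v.map_mul, v.map_pow, hv, ford_vQ_q, ← hv, hk, hcount] at h0
  have h2 : (2 • (1 : WithTop ℚ)) = ((2 : ℚ) : WithTop ℚ) := by
    rw [two_nsmul]; norm_num
  rw [h2, ← WithTop.coe_add] at h0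
  have h0' : (2 : ℚ) + ((p - 1 : ℕ) : ℚ) * (-2 * r₀) = 0 := by exact_mod_cast h0
  have hp1 : ((p - 1 : ℕ) : ℚ) = (p : ℚ) - 1 := by
    rw [Nat.cast_sub hp.one_le]; simp
  rw [hp1] at h0'
  have hpne : (p : ℚ) - 1 ≠ 0 := by
    have : (2 : ℚ) ≤ p := by exact_mod_cast hp.two_le
    linarith
  rw [htr₀]
  congr 1
  field_simp
  linear_combination (-1 / 2 : ℚ) * h0'

end main

end Fermat.Agent.Lib.S44
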