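/-
M-AT-P programme (S44), W-side [L6] (helper6, prefix `s44w_`), brick (F): **the Legendre frame of the
Frey curve at a prime `p ∣ abc`** and the leaf `s44i_WNotTop`.

`s44w_frey_leg` : if `p ∣ abc` there are `s = ±1`, integers `z` (`p ∣ z`, `z ≠ 0`), `e` (`p ∤ e`), `r`
and an additive equivalence `Φ : E(ℚ̄) ≃+ E'(ℚ̄)` from the frozen Frey model to the Legendre model
`E' : Y² = X (X − s z^p) (X − e)`, given on affine points by `(X, Y) ↦ (4 X + r, 8 Y + 4 X)`.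

`s44w_wnottop` : for `p ∣ abc` the kernel of reduction `cfh_T₀ P A hA` is not all of `E[p]`.
-/
import Fermat.Agent.Lib.S44.WTors
import Fermat.Agent.Lib.GC.LocalP
import Fermat.Agent.Lib.S13.LocD

set_option autoImplicit false
set_option linter.unusedSectionVars false

namespace Fermat.Agent.Lib.S44

open WeierstrassCurve WeierstrassCurve.Affine WeierstrassCurve.Affine.Point
  Fermat.Agent.Lib.Frey Fermat.Agent.Lib.GC Fermat.Agent.Lib.S13

local notation "Qb" => AlgebraicClosure ℚ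

/-- coordinates of `gch_toLeg` on affine points. -/
theorem s44w_toLeg_some (P : FreyPackage) {X Y : Qb} (h : (P.freyCurve⁄Qb).Nonsingular X Y) :
    ∃ h' : (fl_curve ((P.a : Qb) ^ P.p) (-((P.b : Qb) ^ P.p))).toAffine.Nonsingular
        (4 * X) (8 * Y + 4 * X),
      gch_toLeg P (Point.some X Y h) = Point.some (4 * X) (8 * Y + 4 * X) h' := by
  rcases hq : gch_toLeg P (Point.some X Y h) with _ | ⟨X', Y', h'⟩
  · exfalso
    have h0 : gch_toLeg P (Point.some X Y h) = 0 := hq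
    rw [AddEquiv.map_eq_zero_iff] at h0
    exact Point.some_ne_zero _ h0
  · have hs : (gch_toLeg P).symm (Point.some X' Y' h') = Point.some X Y h := by
      rw [← hq, AddEquiv.symm_apply_apply]
    obtain ⟨h'', e⟩ := gch_toLeg_symm_some P h'
    rw [hs, Point.some.injEq] at e
    obtain ⟨e1, e2⟩ := e
    have hX : X' = 4 * X := by rw [e1]; ring
    have hY : Y' = 8 * Y + 4 * X := by rw [e1, e2]; ring
    subst hX hY
    exact ⟨h', rfl⟩

/-- transport of an affine point along an equality of curves, with rewritten coordinates. -/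
theorem s44w_congr_some {W₁ W₂ : WeierstrassCurve Qb} (hW : W₁ = W₂) {x y x' y' : Qb}
    (h : W₁.toAffine.Nonsingular x y) (hx : x' = x) (hy : y' = y) :
    ∃ h' : W₂.toAffine.Nonsingular x' y', fab_congr hW (Point.some x y h) = Point.some x' y' h' := by
  subst hW hx hy
  exact ⟨h, rfl⟩

/-- frame lemma, no translation (generic target curve, to keep the kernel check cheap). -/
theorem s44w_frame_of_congr (P : FreyPackage) (W₂ : WeierstrassCurve Qb)
    (hc : fl_curve ((P.a : Qb) ^ P.p) (-((P.b : Qb) ^ P.p)) = W₂) (X Y : Qb)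
    (h : (P.freyCurve⁄Qb).Nonsingular X Y) :
    ∃ h'', ((gch_toLeg P).trans (fab_congr hc)) (Point.some X Y h) =
      Point.some (4 * X + ((0 : ℤ) : Qb)) (8 * Y + 4 * X) h'' := by
  obtain ⟨h', e⟩ := s44w_toLeg_some P h
  obtain ⟨h'', e'⟩ := s44w_congr_some hc h'
    (x' := 4 * X + ((0 : ℤ) : Qb)) (y' := 8 * Y + 4 * X)
    (by rw [Int.cast_zero, add_zero]) rfl
  exact ⟨h'', by rw [AddEquiv.trans_apply, e, e']⟩

/-- frame lemma with a translation `X ↦ X - ρ`. -/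
theorem s44w_frame_of_transl (P : FreyPackage) (W₂ : WeierstrassCurve Qb) (ρ : Qb) (ρ' : ℤ)
    (hρ : ((ρ' : ℤ) : Qb) = -ρ)
    (hc : fq_transl ρ • fl_curve ((P.a : Qb) ^ P.p) (-((P.b : Qb) ^ P.p)) = W₂) (X Y : Qb)
    (h : (P.freyCurve⁄Qb).Nonsingular X Y) :
    ∃ h'', ((gch_toLeg P).trans ((fvc_pointEquiv _ (fq_transl ρ)).symm.trans (fab_congr hc)))
        (Point.some X Y h) = Point.some (4 * X + ((ρ' : ℤ) : Qb)) (8 * Y + 4 * X) h'' := by
  obtain ⟨h', e⟩ := s44w_toLeg_some P h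
  have hX : fvc_X (fq_transl ρ) (4 * X + ((ρ' : ℤ) : Qb)) = 4 * X := by
    unfold fvc_X
    rw [fq_transl_u, fq_transl_r, hρ]
    ring
  have hY : fvc_Y (fq_transl ρ) (4 * X + ((ρ' : ℤ) : Qb)) (8 * Y + 4 * X) = 8 * Y + 4 * X := by
    unfold fvc_Y
    rw [fq_transl_u, fq_transl_s, fq_transl_t]
    ring
  have h'' : (fq_transl ρ • fl_curve ((P.a : Qb) ^ P.p) (-((P.b : Qb) ^ P.p))).toAffine.Nonsingular
      (4 * X + ((ρ' : ℤ) : Qb)) (8 * Y + 4 * X) := by
    rw [fvc_nonsingular, hX, hY]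
    exact h'
  have hsymm : (fvc_pointEquiv _ (fq_transl ρ)).symm
      (Point.some (4 * X) (8 * Y + 4 * X) h') = Point.some _ _ h'' := by
    rw [AddEquiv.symm_apply_eq, fvc_pointEquiv_some]
    exact fvc_some_congr hX.symm hY.symm _ _
  obtain ⟨h₃, e₃⟩ := s44w_congr_some hc h'' (x' := 4 * X + ((ρ' : ℤ) : Qb))
    (y' := 8 * Y + 4 * X) rfl rfl
  exact ⟨h₃, by rw [AddEquiv.trans_apply, AddEquiv.trans_apply, e, hsymm, e₃]⟩

/-- **the Legendre frame at `p ∣ abc`.** -/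
theorem s44w_frey_leg (P : FreyPackage) (hdvd : (P.p : ℤ) ∣ P.a * P.b * P.c) :
    ∃ (s z e r : ℤ)
      (Φ : (P.freyCurve⁄Qb).Point ≃+
        (fl_curve ((s : Qb) * (z : Qb) ^ P.p) (e : Qb)).toAffine.Point),
      (s = 1 ∨ s = -1) ∧ (P.p : ℤ) ∣ z ∧ z ≠ 0 ∧ ¬ (P.p : ℤ) ∣ e ∧
      ∀ (X Y : Qb) (h : (P.freyCurve⁄Qb).Nonsingular X Y),
        ∃ h', Φ (Point.some X Y h) = Point.some (4 * X + (r : Qb)) (8 * Y + 4 * X) h' := by
  have hpp : Prime (P.p : ℤ) := Nat.prime_iff_prime_int.mp P.pp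
  rcases fq_cases P P.pp with ⟨ha, hb, hc⟩ | ⟨ha, hb, hc⟩ | ⟨hb, ha, hc⟩ | ⟨hc, ha, hb⟩
  · exfalso
    rcases hpp.dvd_or_dvd hdvd with h | h
    · rcases hpp.dvd_or_dvd h with h | h
      · exact ha h
      · exact hb h
    · exact hc h
  · -- `p ∣ a`
    have hcurve : fl_curve ((P.a : Qb) ^ P.p) (-((P.b : Qb) ^ P.p)) =
        fl_curve (((1 : ℤ) : Qb) * (P.a : Qb) ^ P.p) (((-(P.b ^ P.p) : ℤ)) : Qb) := by
      push_cast; rw [one_mul]
    refine ⟨1, P.a, -(P.b ^ P.p), 0, (gch_toLeg P).trans (fab_congr hcurve), Or.inl rfl, ha,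
      P.ha0, ?_, s44w_frame_of_congr P _ hcurve⟩
    rw [Int.dvd_neg]
    exact fun h => hb (hpp.dvd_of_dvd_pow h)
  · -- `p ∣ b`
    have hcurve : fl_curve ((P.a : Qb) ^ P.p) (-((P.b : Qb) ^ P.p)) =
        fl_curve (((-1 : ℤ) : Qb) * (P.b : Qb) ^ P.p) (((P.a ^ P.p : ℤ)) : Qb) := by
      push_cast; rw [neg_one_mul, ← fq_curve_comm]
    exact ⟨-1, P.b, P.a ^ P.p, 0, (gch_toLeg P).trans (fab_congr hcurve), Or.inr rfl, hb,
      P.hb0, fun h => ha (hpp.dvd_of_dvd_pow h), s44w_frame_of_congr P _ hcurve⟩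
  · -- `p ∣ c`
    have hFLT : (P.a : Qb) ^ P.p + (P.b : Qb) ^ P.p = (P.c : Qb) ^ P.p := by
      exact_mod_cast congrArg (fun z : ℤ => (z : Qb)) P.hFLT
    have hcurve : fq_transl ((P.a : Qb) ^ P.p) •
        fl_curve ((P.a : Qb) ^ P.p) (-((P.b : Qb) ^ P.p)) =
        fl_curve (((-1 : ℤ) : Qb) * (P.c : Qb) ^ P.p) (((-(P.a ^ P.p) : ℤ)) : Qb) := by
      push_cast
      rw [fq_transl_curve, fq_curve_comm, neg_one_mul]
      congr 1
      rw [← hFLT]; ring
    refine ⟨-1, P.c, -(P.a ^ P.p), -(P.a ^ P.p),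
      (gch_toLeg P).trans ((fvc_pointEquiv _ (fq_transl ((P.a : Qb) ^ P.p))).symm.trans
        (fab_congr hcurve)), Or.inr rfl, hc, P.hc0, ?_,
      s44w_frame_of_transl P _ _ _ (by push_cast; ring) hcurve⟩
    rw [Int.dvd_neg]
    exact fun h => ha (hpp.dvd_of_dvd_pow h)

/-- valuation data of the Legendre frame: `δ = s z^p` is a non-zero non-unit, `ε = e` a unit. -/
theorem s44w_frame_val (P : FreyPackage) (A : ValuationSubring Qb) (hA : (P.p : Qb) ∈ A.nonunits)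
    {s z e : ℤ} (hs : s = 1 ∨ s = -1) (hz : (P.p : ℤ) ∣ z) (hz0 : z ≠ 0) (he : ¬ (P.p : ℤ) ∣ e) :
    ((s : Qb) * (z : Qb) ^ P.p) ∈ A.nonunits ∧ ((s : Qb) * (z : Qb) ^ P.p) ≠ 0 ∧
      A.valuation (e : Qb) = 1 := by
  set v := ford_vQ A P.pp hA with hv
  have hint : ∀ w : ℤ, 0 ≤ v (w : Qb) := ford_vQ_intCast_nonneg P.pp hA
  have hvq : 0 < v (P.p : Qb) := by rw [hv, ford_vQ_q]; exact zero_lt_one
  have hvs : v (s : Qb) = 0 := by
    rcases hs with rfl | rfl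
    · rw [Int.cast_one, v.map_one]
    · rw [Int.cast_neg, Int.cast_one, v.map_neg, v.map_one]
  have hvz : 0 < v (z : Qb) := fq_v_int_pos_of_dvd v hint hvq hz
  have hs0 : (s : Qb) ≠ 0 := by
    rcases hs with rfl | rfl <;> simp
  have hzQ : (z : Qb) ≠ 0 := by exact_mod_cast hz0
  refine ⟨?_, mul_ne_zero hs0 (pow_ne_zero _ hzQ), ford_val_intCast_of_not_dvd P.pp hA he⟩
  rw [← ford_vQ_pos_iff P.pp hA, ← hv, v.map_mul, v.map_pow, hvs, zero_add]
  exact nsmul_pos hvz P.pp.ne_zero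

/-- **leaf `s44i_WNotTop`**: at a prime `p ∣ abc` the kernel of reduction is not all of `E[p]`. -/
theorem s44w_wnottop (P : FreyPackage) (hdvd : (P.p : ℤ) ∣ P.a * P.b * P.c)
    (A : ValuationSubring Qb) (hA : A.LiesOverPrime P.p) : cfh_T₀ P A hA ≠ ⊤ := by
  obtain ⟨s, z, e, r, Φ, hs, hz, hz0, he, hΦ⟩ := s44w_frey_leg P hdvd
  obtain ⟨hδA, hδ0, hε⟩ := s44w_frame_val P A hA hs hz hz0 he
  have hp2 : P.p ≠ 2 := by have := P.hp5; omega
  obtain ⟨x, y, h, htor, hxA⟩ :=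
    s44w_exists_integral_torsion A P.pp hp2 hA _ _ hδA hδ0 hε
  -- pull back to the Frey model
  set Q := Φ.symm (Point.some x y h) with hQ
  have hΦQ : Φ Q = Point.some x y h := by rw [hQ, AddEquiv.apply_symm_apply]
  have hQtor : P.p • Q = 0 := by
    rw [hQ, ← map_nsmul, htor, _root_.map_zero]
  have hQ0 : Q ≠ 0 := by
    intro h0
    rw [h0, _root_.map_zero] at hΦQ
    exact Point.some_ne_zero _ hΦQ.symm
  intro htop
  have hmem : (⟨Q, by rw [Submodule.mem_torsionBy_iff, natCast_zsmul]; exact hQtor⟩ :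
      Submodule.torsionBy ℤ (P.freyCurve⁄Qb).Point P.p) ∈ cfh_T₀ P A hA := by
    rw [htop]; exact AddSubgroup.mem_top _
  rcases hmem with h0 | ⟨X, Y, hXY, hQXY, hX⟩
  · exact hQ0 h0
  · have hQXY' : Q = Point.some X Y hXY := hQXY
    obtain ⟨h', e'⟩ := hΦ X Y hXY
    rw [← hQXY', hΦQ, Point.some.injEq] at e'
    have hx : x = 4 * X + (r : Qb) := e'.1
    have hX' : (0 : WithTop ℚ) ≤ cfh_vp P A hA X := by
      have h4 : A.valuation (4 : Qb) = 1 := by
        have h2 := s44w_val_two A P.pp hp2 hA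
        have : (4 : Qb) = 2 * 2 := by norm_num
        rw [this, map_mul, h2, one_mul]
      have hXeq : X = (x - (r : Qb)) * (4 : Qb)⁻¹ := by
        rw [hx]; field_simp; ring
      have hXA : X ∈ A := by
        rw [hXeq]
        refine A.mul_mem _ _ (sub_mem hxA (intCast_mem A r)) ?_
        rw [← A.valuation_le_one_iff, map_inv₀, h4, inv_one]
      exact (ford_vQ_nonneg_iff P.pp hA X).mpr hXA
    exact absurd hX' (not_le.mpr hX)

end Fermat.Agent.Lib.S44
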