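/-
M-AT-P programme (S44), W-side (helper6, prefix `s44w_`): **leaf [L6b] `s44i_WNotTop` PROVED.**
For `p ∣ abc` the kernel of reduction `cfh_T₀ P A hA` at a place over `p` is not all of `E[p]`
(`Lib/S44/WFrey.lean`: the reduction of the `p`-division polynomial `b_p` on the Legendre model has
degree `p² − p > 0`, so some non-zero `p`-torsion point has integral abscissa).
-/
import Fermat.Agent.Lib.S44.Iface
import Fermat.Agent.Lib.S44.WFrey

set_option autoImplicit false

namespace Fermat.Agent.Lib.S44

/-- **[L6b]** -/
theorem s44w_wnottop_leaf : s44i_WNotTop :=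
  fun P hdvd A hA => s44w_wnottop P hdvd A hA

end Fermat.Agent.Lib.S44
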