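/-
M-AT-P programme (S44), soft part (helper2): a finite group which embeds into
`GL(V) × C × D` with `V` a plane over `𝔽_p`, `#C ∣ p - 1`, `#D ∣ 2` (`p` odd) has order not divisible
by `p²`.  (For the W-side: `Gal(ℚ(E[p], μ_p, √D₀)/ℚ)`.)
-/
import Mathlib

set_option autoImplicit false

namespace Fermat.Agent.Lib.S44

open Matrix

/-- the order of `GL₂(𝔽_p)`. -/
theorem s44s_card_GL2 (p : ℕ) [Fact p.Prime] :
    Nat.card (GL (Fin 2) (ZMod p)) = (p ^ 2 - 1) * (p ^ 2 - p) := by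
  have h := Matrix.card_GL_field (𝔽 := ZMod p) 2
  rw [h, Fin.prod_univ_two]
  simp [Nat.card_eq_fintype_card, ZMod.card]

/-- the automorphism group of a plane over `𝔽_p` has the order of `GL₂(𝔽_p)`. -/
theorem s44s_card_aut (p : ℕ) [Fact p.Prime] {V : Type*} [AddCommGroup V] [Module (ZMod p) V]
    (hV : Module.finrank (ZMod p) V = 2) :
    Nat.card (V ≃ₗ[ZMod p] V) = (p ^ 2 - 1) * (p ^ 2 - p) := by
  have hfin : Module.Finite (ZMod p) V := Module.finite_of_finrank_pos (by omega)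
  let φ : V ≃ₗ[ZMod p] (Fin 2 → ZMod p) := (Module.finBasisOfFinrankEq (ZMod p) V hV).equivFun
  let E : (V ≃ₗ[ZMod p] V) ≃ ((Fin 2 → ZMod p) ≃ₗ[ZMod p] (Fin 2 → ZMod p)) :=
    { toFun := fun e => φ.symm.trans (e.trans φ)
      invFun := fun e' => φ.trans (e'.trans φ.symm)
      left_inv := by
        intro e
        ext x
        simp
      right_inv := by
        intro e'
        ext x
        simp }
  rw [Nat.card_congr E,
    Nat.card_congr (LinearMap.GeneralLinearGroup.generalLinearEquiv (ZMod p)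
      (Fin 2 → ZMod p)).symm.toEquiv,
    Nat.card_congr (Matrix.GeneralLinearGroup.toLin (n := Fin 2) (R := ZMod p)).symm.toEquiv]
  exact s44s_card_GL2 p

/-- the numerical fact. -/
theorem s44s_not_sq_dvd (p : ℕ) (hp : p.Prime) (hp2 : p ≠ 2) (c d : ℕ) (hc : c ∣ p - 1)
    (hd : d ∣ 2) : ¬ p ^ 2 ∣ (p ^ 2 - 1) * (p ^ 2 - p) * (c * d) := by
  have h2 := hp.two_le
  have hp1 : 0 < p - 1 := by omega
  have hfac : p ^ 2 - p = p * (p - 1) := by
    rw [Nat.mul_sub, mul_one, sq]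
  intro h
  rw [hfac] at h
  have h' : p * p ∣ p * ((p ^ 2 - 1) * (p - 1) * (c * d)) := by
    have : (p ^ 2 - 1) * (p * (p - 1)) * (c * d) = p * ((p ^ 2 - 1) * (p - 1) * (c * d)) := by ring
    rw [← this, ← sq]
    exact h
  have h3 : p ∣ (p ^ 2 - 1) * (p - 1) * (c * d) := Nat.dvd_of_mul_dvd_mul_left hp.pos h'
  have hnp1 : ¬ p ∣ p - 1 := fun hh => by
    have := Nat.le_of_dvd hp1 hh
    omega
  rcases (Nat.Prime.dvd_mul hp).mp h3 with h4 | h4
  · rcases (Nat.Prime.dvd_mul hp).mp h4 with h5 | h5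
    · have h6 : p ∣ p ^ 2 := Dvd.intro_left _ (by rw [sq])
      have h7 : 1 ≤ p ^ 2 := Nat.one_le_pow _ _ hp.pos
      have h8 : p ∣ p ^ 2 - (p ^ 2 - 1) := Nat.dvd_sub h6 h5
      have h9 : p ^ 2 - (p ^ 2 - 1) = 1 := by omega
      rw [h9] at h8
      exact hp.one_lt.ne' (Nat.dvd_one.mp h8)
    · exact hnp1 h5
  · rcases (Nat.Prime.dvd_mul hp).mp h4 with h5 | h5
    · exact hnp1 (h5.trans hc)
    · have := (Nat.prime_dvd_prime_iff_eq hp Nat.prime_two).mp (h5.trans hd)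
      exact hp2 this

/-- **A finite group embedding into `GL(V) × C × D`** (`V` a plane over `𝔽_p`, `#C ∣ p - 1`,
`#D ∣ 2`, `p` odd) has order prime to `p²`. -/
theorem s44s_card_not_sq_dvd (p : ℕ) [hp : Fact p.Prime] (hp2 : p ≠ 2) {G V C D : Type*} [Group G]
    [AddCommGroup V] [Module (ZMod p) V] (hV : Module.finrank (ZMod p) V = 2)
    [Group C] [Finite C] [Group D] [Finite D] (hC : Nat.card C ∣ p - 1) (hD : Nat.card D ∣ 2)
    (f : G →* (V ≃ₗ[ZMod p] V) × C × D) (hf : Function.Injective f) :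
    ¬ p ^ 2 ∣ Nat.card G := by
  have hfin : Module.Finite (ZMod p) V := Module.finite_of_finrank_pos (by omega)
  have hVfin : Finite V := Module.finite_of_finite (ZMod p)
  have hAutFin : Finite (V ≃ₗ[ZMod p] V) :=
    Finite.of_injective (fun e : V ≃ₗ[ZMod p] V => (e : V → V)) (fun e e' h => by
      ext x
      exact congrFun h x)
  have h1 : Nat.card G ∣ Nat.card ((V ≃ₗ[ZMod p] V) × C × D) :=
    Subgroup.card_dvd_of_injective f hf
  rw [Nat.card_prod, Nat.card_prod, s44s_card_aut p hV] at h1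
  intro h
  have h2 := h.trans h1
  obtain ⟨c, hc⟩ := hC
  obtain ⟨d, hd⟩ := hD
  refine s44s_not_sq_dvd p hp.out hp2 (Nat.card C) (Nat.card D) ⟨c, hc⟩ ⟨d, hd⟩ ?_
  exact h2

end Fermat.Agent.Lib.S44
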