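/-
M-AT-P programme (S44), W-side [L6] (helper6, prefix `s44w_`), brick (C-0): **the splitting field.**

`s44w_L P D = ℚ(x(Q), y(Q) : Q ∈ E[p]; μ_p; √D) ⊂ ℚ̄` (frozen Frey model, `D : ℤ` a parameter): finite,
normal, and `s44i_Splits P (s44w_L P D)`.
-/
import Fermat.Agent.Lib.S44.Iface
import Fermat.Agent.Lib.GC.LocalP
import Fermat.Agent.Lib.EN.FreyCard

set_option autoImplicit false
set_option linter.unusedSectionVars false

namespace Fermat.Agent.Lib.S44

open WeierstrassCurve WeierstrassCurve.Affine WeierstrassCurve.Affine.Point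
  Fermat.Agent.Lib.Frey Fermat.Agent.Lib.GC Fermat.Agent.Lib.S13 Fermat.Agent.Lib.EN

local notation "Kb" => AlgebraicClosure ℚ

/-- the coordinates of the `p`-torsion points of the frozen Frey model. -/
noncomputable def s44w_coords (P : FreyPackage) : Set Kb :=
  {a | ∃ (X Y : Kb) (h : (P.freyCurve⁄Kb).Nonsingular X Y),
    P.p • Point.some X Y h = 0 ∧ (a = X ∨ a = Y)}

/-- the generators of the splitting field. -/
noncomputable def s44w_gens (P : FreyPackage) (D : ℤ) : Set Kb :=
  s44w_coords P ∪ {ζ | ζ ^ P.p = 1} ∪ {w | w ^ 2 = (D : Kb)}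

/-- **the splitting field** `ℚ(E[p], μ_p, √D)`. -/
noncomputable def s44w_L (P : FreyPackage) (D : ℤ) : IntermediateField ℚ Kb :=
  IntermediateField.adjoin ℚ (s44w_gens P D)

theorem s44w_coord_mem (P : FreyPackage) (D : ℤ) {X Y : Kb}
    (h : (P.freyCurve⁄Kb).Nonsingular X Y) (htor : P.p • Point.some X Y h = 0) :
    X ∈ s44w_L P D ∧ Y ∈ s44w_L P D :=
  ⟨IntermediateField.subset_adjoin _ _ (Or.inl (Or.inl ⟨X, Y, h, htor, Or.inl rfl⟩)),
    IntermediateField.subset_adjoin _ _ (Or.inl (Or.inl ⟨X, Y, h, htor, Or.inr rfl⟩))⟩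

theorem s44w_zeta_mem (P : FreyPackage) (D : ℤ) {ζ : Kb} (hζ : ζ ^ P.p = 1) : ζ ∈ s44w_L P D :=
  IntermediateField.subset_adjoin _ _ (Or.inl (Or.inr hζ))

theorem s44w_sqrt_mem (P : FreyPackage) (D : ℤ) {w : Kb} (hw : w ^ 2 = (D : Kb)) :
    w ∈ s44w_L P D :=
  IntermediateField.subset_adjoin _ _ (Or.inr hw)

/-- the abscissa / ordinate of a point (junk `0` at infinity). -/
noncomputable def s44w_xy {W : Affine Kb} (b : Bool) : W.Point → Kb
  | .zero => 0
  | .some x y _ => if b then x else y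

theorem s44w_coords_finite (P : FreyPackage) : (s44w_coords P).Finite := by
  classical
  have hcard : Nat.card (s13_V P) = P.p ^ 2 := ent_ifaceCard P
  have : Finite (s13_V P) :=
    Nat.finite_of_card_ne_zero (by rw [hcard]; exact pow_ne_zero 2 P.pp.ne_zero)
  have hfin : (Set.range (fun q : s13_V P × Bool =>
      s44w_xy q.2 (q.1 : (P.freyCurve⁄Kb).Point))).Finite := Set.finite_range _
  refine hfin.subset ?_
  rintro a ⟨X, Y, h, htor, ha⟩
  have hmem : Point.some X Y h ∈
      Submodule.torsionBy ℤ (P.freyCurve⁄Kb).Point (P.p : ℤ) := by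
    rw [Submodule.mem_torsionBy_iff, natCast_zsmul]
    exact htor
  rcases ha with rfl | rfl
  · exact ⟨(⟨_, hmem⟩, true), rfl⟩
  · exact ⟨(⟨_, hmem⟩, false), rfl⟩

theorem s44w_gens_finite (P : FreyPackage) (D : ℤ) : (s44w_gens P D).Finite := by
  refine ((s44w_coords_finite P).union ?_).union ?_
  · have hp : 0 < P.p := P.pp.pos
    refine (Polynomial.nthRoots P.p (1 : Kb)).toFinset.finite_toSet.subset ?_
    intro ζ hζ
    rw [Finset.mem_coe, Multiset.mem_toFinset, Polynomial.mem_nthRoots hp]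
    exact hζ
  · refine (Polynomial.nthRoots 2 ((D : ℤ) : Kb)).toFinset.finite_toSet.subset ?_
    intro w hw
    rw [Finset.mem_coe, Multiset.mem_toFinset, Polynomial.mem_nthRoots (by norm_num)]
    exact hw

theorem s44w_L_finite (P : FreyPackage) (D : ℤ) : FiniteDimensional ℚ (s44w_L P D) := by
  have : Finite (s44w_gens P D) := (s44w_gens_finite P D).to_subtype
  exact IntermediateField.finiteDimensional_adjoin
    (fun x _ => (Algebra.IsIntegral.isIntegral (R := ℚ) x))

/-- the generators are stable under `Gal(ℚ̄/ℚ)`. -/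
theorem s44w_gens_stable (P : FreyPackage) (D : ℤ) (σ : Kb ≃ₐ[ℚ] Kb) {a : Kb}
    (ha : a ∈ s44w_gens P D) : σ a ∈ s44w_gens P D := by
  rcases ha with (⟨X, Y, h, htor, ha⟩ | ha) | ha
  · left; left
    have hσ := gch_smul_eq_sigma P σ (Point.some X Y h)
    rw [fab_sigma_some] at hσ
    have htor' : P.p • (σ • Point.some X Y h) = 0 := by
      rw [gch_smul_eq_sigma, ← map_nsmul, htor, _root_.map_zero]
    rw [hσ] at htor'
    refine ⟨_, _, _, htor', ?_⟩
    rcases ha with rfl | rfl
    · exact Or.inl rfl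
    · exact Or.inr rfl
  · left; right
    change (σ a) ^ P.p = 1
    rw [← map_pow, ha, map_one]
  · right
    change (σ a) ^ 2 = (D : Kb)
    rw [← map_pow, ha, map_intCast]

theorem s44w_L_normal (P : FreyPackage) (D : ℤ) : Normal ℚ (s44w_L P D) := by
  have h : @Normal ℚ (s44w_L P D) _ _ (IntermediateField.algebra' _) := by
    rw [IntermediateField.normal_iff_forall_map_le']
    intro σ
    rw [s44w_L, IntermediateField.adjoin_map, IntermediateField.adjoin_le_iff]
    rintro _ ⟨a, ha, rfl⟩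
    exact IntermediateField.subset_adjoin _ _ (s44w_gens_stable P D σ ha)
  convert h
  exact Subsingleton.elim _ _

theorem s44w_L_splits (P : FreyPackage) (D : ℤ) : s44i_Splits P (s44w_L P D) := by
  intro σ hσ
  refine ⟨fun v => ?_, fun ζ hζ => hσ ζ (s44w_zeta_mem P D hζ)⟩
  apply Subtype.ext
  change σ • (v : (P.freyCurve⁄Kb).Point) = v
  have htor : P.p • (v : (P.freyCurve⁄Kb).Point) = 0 := by
    have := (Submodule.mem_torsionBy_iff _ _).mp v.2
    rwa [natCast_zsmul] at this
  rcases hv : (v : (P.freyCurve⁄Kb).Point) with _ | ⟨X, Y, h⟩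
  · change σ • (0 : (P.freyCurve⁄Kb).Point) = 0
    rw [gch_smul_eq_sigma, _root_.map_zero]
  · rw [hv] at htor
    obtain ⟨hX, hY⟩ := s44w_coord_mem P D h htor
    rw [gch_smul_eq_sigma, fab_sigma_some]
    exact fvc_some_congr (hσ X hX) (hσ Y hY) _ _

end Fermat.Agent.Lib.S44
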