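/-
M-AT-P programme (S44), W-side [L6], brick (C) (helper2, for helper6): **`p² ∤ [L : ℚ]` for helper6's
splitting field `L = s44w_L P D = ℚ(E[p], μ_p, √D)`** (`Lib/S44/WField.lean`).

`φ : G_ℚ → Aut_{𝔽_p}(E[p]) × (ℤ/p)^× × Perm{w | w² = D}`, `σ ↦ (σ|_V, χ_p(σ), σ|_{±√D})`; an element of
`ker φ` fixes every generator of `L`, so `ker φ ≤ Gal(ℚ̄/L) = ker (res_L)` and
`[L : ℚ] = #Gal(L/ℚ) = (G_ℚ : ker res_L)` divides `(G_ℚ : ker φ) = #im φ`, which is prime to `p²`
(`s44s_card_not_sq_dvd`, SoftCard).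
-/
import Fermat.Agent.Lib.S44.WField
import Fermat.Agent.Lib.S44.SoftCard
import Fermat.Agent.Lib.S44.SoftVal
import Fermat.Agent.Lib.S33.RealDens

set_option autoImplicit false
set_option linter.unusedSectionVars false
set_option linter.style.haveILetI false

namespace Fermat.Agent.Lib.S44

open WeierstrassCurve WeierstrassCurve.Affine WeierstrassCurve.Affine.Point
  Fermat.Agent.Lib.S13 Fermat.Agent.Lib.EN Fermat.Agent.Lib.S33 Fermat.Agent.Lib.S30

local notation "Kb" => AlgebraicClosure ℚ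
local notation "Γℚ" => (AlgebraicClosure ℚ ≃ₐ[ℚ] AlgebraicClosure ℚ)

noncomputable section

/-- a distributive action on a `ZMod n`-module, as a homomorphism to the linear automorphisms. -/
def s44s_rho (n : ℕ) (G V : Type*) [Group G] [AddCommGroup V] [Module (ZMod n) V]
    [DistribMulAction G V] : G →* (V ≃ₗ[ZMod n] V) where
  toFun g :=
    { toFun := fun v => g • v
      invFun := fun v => g⁻¹ • v
      map_add' := smul_add g
      map_smul' := fun c v => ZMod.map_smul (DistribMulAction.toAddMonoidHom V g) c v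
      left_inv := fun v => inv_smul_smul g v
      right_inv := fun v => smul_inv_smul g v }
  map_one' := by
    ext v
    exact one_smul G v
  map_mul' g h := by
    ext v
    exact mul_smul g h v

@[simp]
theorem s44s_rho_apply (n : ℕ) (G V : Type*) [Group G] [AddCommGroup V] [Module (ZMod n) V]
    [DistribMulAction G V] (g : G) (v : V) : s44s_rho n G V g v = g • v := rfl

/-- the roots of `w² = D`. -/
abbrev s44s_SqrtSet (D : ℤ) : Type := {w : Kb // w ^ 2 = (D : Kb)}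

/-- `G_ℚ` permutes the roots of `w² = D`. -/
def s44s_sqrtPerm (D : ℤ) : Γℚ →* Equiv.Perm (s44s_SqrtSet D) where
  toFun σ :=
    { toFun := fun w => ⟨σ w.1, by rw [← map_pow, w.2, map_intCast]⟩
      invFun := fun w => ⟨σ⁻¹ w.1, by rw [← map_pow, w.2, map_intCast]⟩
      left_inv := fun w => Subtype.ext (by
        show σ⁻¹ (σ w.1) = w.1
        rw [← AlgEquiv.mul_apply, inv_mul_cancel, AlgEquiv.one_apply])
      right_inv := fun w => Subtype.ext (by
        show σ (σ⁻¹ w.1) = w.1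
        rw [← AlgEquiv.mul_apply, mul_inv_cancel, AlgEquiv.one_apply]) }
  map_one' := by
    ext w
    rfl
  map_mul' σ τ := by
    ext w
    rfl

theorem s44s_sqrtSet_finite (D : ℤ) : Finite (s44s_SqrtSet D) := by
  have h : {w : Kb | w ^ 2 = (D : Kb)}.Finite := by
    refine (Polynomial.nthRoots 2 ((D : ℤ) : Kb)).toFinset.finite_toSet.subset ?_
    intro w hw
    rw [Finset.mem_coe, Multiset.mem_toFinset, Polynomial.mem_nthRoots (by norm_num)]
    exact hw
  exact h.to_subtype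

theorem s44s_sqrtSet_card_le (D : ℤ) : Nat.card (s44s_SqrtSet D) ≤ 2 := by
  classical
  have hsub : {w : Kb | w ^ 2 = (D : Kb)} ⊆ ((Polynomial.nthRoots 2 ((D : ℤ) : Kb)).toFinset : Set Kb) := by
    intro w hw
    rw [Finset.mem_coe, Multiset.mem_toFinset, Polynomial.mem_nthRoots (by norm_num)]
    exact hw
  have h1 : Nat.card (s44s_SqrtSet D) = Set.ncard {w : Kb | w ^ 2 = (D : Kb)} := rfl
  rw [h1]
  calc Set.ncard {w : Kb | w ^ 2 = (D : Kb)}
      ≤ Set.ncard ((Polynomial.nthRoots 2 ((D : ℤ) : Kb)).toFinset : Set Kb) :=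
        Set.ncard_le_ncard hsub (Finset.finite_toSet _)
    _ = (Polynomial.nthRoots 2 ((D : ℤ) : Kb)).toFinset.card := Set.ncard_coe_finset _
    _ ≤ Multiset.card (Polynomial.nthRoots 2 ((D : ℤ) : Kb)) := Multiset.toFinset_card_le _
    _ ≤ 2 := Polynomial.card_nthRoots 2 _

theorem s44s_sqrtPerm_card_dvd (D : ℤ) : Nat.card (Equiv.Perm (s44s_SqrtSet D)) ∣ 2 := by
  classical
  haveI := s44s_sqrtSet_finite D
  haveI : Fintype (s44s_SqrtSet D) := Fintype.ofFinite _
  rw [Nat.card_eq_fintype_card, Fintype.card_perm]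
  have h := s44s_sqrtSet_card_le D
  rw [Nat.card_eq_fintype_card] at h
  interval_cases (Fintype.card (s44s_SqrtSet D)) <;> decide

section Main

variable (P : FreyPackage) (D : ℤ)

/-- `φ = (σ|_V, χ_p(σ), σ|_{±√D})`. -/
def s44s_phiL : Γℚ →*
    (s13_V P ≃ₗ[ZMod P.p] s13_V P) × (ZMod P.p)ˣ × Equiv.Perm (s44s_SqrtSet D) :=
  haveI : Fact P.p.Prime := ⟨P.pp⟩
  (s44s_rho P.p Γℚ (s13_V P)).prod ((s33r_chi P.p).prod (s44s_sqrtPerm D))

/-- `χ_p(σ) = 1 ⇒ σ` fixes `μ_p` pointwise. -/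
theorem s44s_fix_mu_of_chi (p : ℕ) [hp : Fact p.Prime] (σ : Γℚ) (hσ : s33r_chi p σ = 1)
    (ζ : Kb) (hζ : ζ ^ p = 1) : σ ζ = ζ := by
  haveI : NeZero p := ⟨hp.out.ne_zero⟩
  obtain ⟨ζ₀, hζ₀⟩ := s30y_exists_primitiveRoot p 1
  rw [pow_one] at hζ₀
  have h1 : (σ ζ₀) ^ p = 1 := by rw [← map_pow, hζ₀.pow_eq_one, map_one]
  obtain ⟨a, -, ha⟩ := hζ₀.eq_pow_of_pow_eq_one h1
  have hact : ∀ ξ : Kb, ξ ^ p = 1 → σ ξ = ξ ^ a := by
    intro ξ hξ
    obtain ⟨i, -, rfl⟩ := hζ₀.eq_pow_of_pow_eq_one hξ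
    rw [map_pow, ← ha, ← pow_mul, ← pow_mul, mul_comm]
  have h2 := s33r_chi_eq_of_acts p σ a hact
  rw [hσ, Units.val_one] at h2
  have h3 : a % p = 1 := by
    have h4 := (ZMod.natCast_eq_natCast_iff' a 1 p).mp (by simpa using h2)
    rw [h4]
    exact Nat.mod_eq_of_lt hp.out.one_lt
  rw [hact ζ hζ]
  conv_lhs => rw [← Nat.div_add_mod a p, h3, pow_add, pow_mul, hζ, one_pow, one_mul, pow_one]

/-- an element of `ker φ` fixes every generator of `L`. -/
theorem s44s_fix_gens (σ : Γℚ) (hσ : s44s_phiL P D σ = 1) {a : Kb} (ha : a ∈ s44w_gens P D) :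
    σ a = a := by
  haveI : Fact P.p.Prime := ⟨P.pp⟩
  have h1 : s44s_rho P.p Γℚ (s13_V P) σ = 1 := congrArg Prod.fst hσ
  have h2 : s33r_chi P.p σ = 1 := congrArg (fun z => z.2.1) hσ
  have h3 : s44s_sqrtPerm D σ = 1 := congrArg (fun z => z.2.2) hσ
  rcases ha with (⟨X, Y, h, htor, ha⟩ | ha) | ha
  · have hmem : Point.some X Y h ∈
        Submodule.torsionBy ℤ (P.freyCurve⁄Kb).Point (P.p : ℤ) := by
      rw [Submodule.mem_torsionBy_iff, natCast_zsmul]
      exact htor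
    have h4 : s44s_rho P.p Γℚ (s13_V P) σ ⟨_, hmem⟩ = (⟨_, hmem⟩ : s13_V P) := by
      rw [h1]
      rfl
    have h5 : σ • (Point.some X Y h : (P.freyCurve⁄Kb).Point) = Point.some X Y h :=
      congrArg Subtype.val h4
    rw [algEquiv_smul_def, Affine.Point.map_some] at h5
    have h6 := Point.some.inj h5
    rcases ha with rfl | rfl
    · exact h6.1
    · exact h6.2
  · exact s44s_fix_mu_of_chi P.p σ h2 a ha
  · have h4 : s44s_sqrtPerm D σ ⟨a, ha⟩ = (⟨a, ha⟩ : s44s_SqrtSet D) := by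
      rw [h3]
      rfl
    exact congrArg Subtype.val h4

/-- `ker φ ≤ Gal(ℚ̄/L)`. -/
theorem s44s_ker_le (σ : Γℚ) (hσ : s44s_phiL P D σ = 1) : ∀ a ∈ s44w_L P D, σ a = a := by
  intro a ha
  unfold s44w_L at ha
  induction ha using IntermediateField.adjoin_induction with
  | mem x hx => exact s44s_fix_gens P D σ hσ hx
  | algebraMap x => exact σ.commutes x
  | add x y _ _ hx hy => rw [map_add, hx, hy]
  | inv x _ hx => rw [map_inv₀, hx]
  | mul x y _ _ hx hy => rw [map_mul, hx, hy]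

/-- **`p² ∤ [L : ℚ]`** for `L = ℚ(E[p], μ_p, √D)`. -/
theorem s44s_not_sq_dvd_finrank_L : ¬ P.p ^ 2 ∣ Module.finrank ℚ ↥(s44w_L P D) := by
  classical
  haveI hpF : Fact P.p.Prime := ⟨P.pp⟩
  haveI hfin : FiniteDimensional ℚ ↥(s44w_L P D) := s44w_L_finite P D
  haveI hnorm : Normal ℚ ↥(s44w_L P D) := s44w_L_normal P D
  haveI hgal : IsGalois ℚ ↥(s44w_L P D) := ⟨⟩
  -- the plane `V`
  have hcard : Nat.card (s13_V P) = P.p ^ 2 := ent_ifaceCard P
  haveI hVfin : Finite (s13_V P) :=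
    Nat.finite_of_card_ne_zero (by rw [hcard]; exact pow_ne_zero 2 P.pp.ne_zero)
  have hV : Module.finrank (ZMod P.p) (s13_V P) = 2 := by
    have h1 := Module.natCard_eq_pow_finrank (K := ZMod P.p) (V := s13_V P)
    rw [hcard, Nat.card_zmod] at h1
    exact (Nat.pow_right_injective P.pp.two_le h1).symm
  -- the restriction homomorphism
  set res : Γℚ →* (↥(s44w_L P D) ≃ₐ[ℚ] ↥(s44w_L P D)) :=
    AlgEquiv.restrictNormalHom (F := ℚ) (K₁ := Kb) ↥(s44w_L P D) with hres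
  have hsurj : Function.Surjective res := AlgEquiv.restrictNormalHom_surjective Kb
  have hker : (s44s_phiL P D).ker ≤ res.ker := by
    intro σ hσ
    rw [MonoidHom.mem_ker] at hσ
    rw [MonoidHom.mem_ker]
    ext x
    have h0 := AlgEquiv.restrictNormal_commutes σ ↥(s44w_L P D) x
    have h1 : σ (algebraMap ↥(s44w_L P D) Kb x) = algebraMap ↥(s44w_L P D) Kb x :=
      s44s_ker_le P D σ hσ _ x.2
    rw [h1] at h0
    exact h0
  have h1 : res.ker.index = Module.finrank ℚ ↥(s44w_L P D) := by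
    rw [Subgroup.index_ker, MonoidHom.range_eq_top.mpr hsurj, Subgroup.card_top,
      IsGalois.card_aut_eq_finrank]
  have h2 : (s44s_phiL P D).ker.index = Nat.card (s44s_phiL P D).range := Subgroup.index_ker _
  have h3 : res.ker.index ∣ (s44s_phiL P D).ker.index := Subgroup.index_dvd_of_le hker
  -- the order of the image is prime to `p²`
  haveI : Finite (ZMod P.p)ˣ := inferInstance
  haveI : Finite (Equiv.Perm (s44s_SqrtSet D)) := by
    haveI := s44s_sqrtSet_finite D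
    infer_instance
  have hC : Nat.card (ZMod P.p)ˣ ∣ P.p - 1 := by
    rw [Nat.card_eq_fintype_card, ZMod.card_units_eq_totient, Nat.totient_prime P.pp]
  have hp2 : P.p ≠ 2 := by
    have := P.hp5
    omega
  have h4 := s44s_card_not_sq_dvd P.p hp2 hV hC (s44s_sqrtPerm_card_dvd D)
    (s44s_phiL P D).range.subtype (Subgroup.subtype_injective _)
  intro hdvd
  apply h4
  rw [← h2]
  exact (h1 ▸ hdvd).trans h3

/-- **the two value-group clauses of `s44i_SubCrit`** for `L = s44w_L P D` and a witness of value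
`1/p`. -/
theorem s44s_subCrit_val_L (A : ValuationSubring Kb) (hA : A.LiesOverPrime P.p) :
    (∀ a ∈ s44w_L P D, Fermat.Agent.Lib.Frey.ford_vQ A P.pp hA a ≠
      (((1 : ℚ) / (P.p : ℚ) ^ 2 : ℚ) : WithTop ℚ)) ∧
    ∀ a ∈ s44w_L P D, ∀ s : ℚ, Fermat.Agent.Lib.Frey.ford_vQ A P.pp hA a = (s : WithTop ℚ) →
      (1 : ℚ) / (P.p : ℚ) ≠ (P.p : ℚ) * s :=
  ⟨s44s_vQ_ne_sq P.p P.pp A hA (s44w_L P D) (s44w_L_finite P D) (s44w_L_normal P D)
      (s44s_not_sq_dvd_finrank_L P D),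
    s44s_vQ_ne_mul_one P.p P.pp A hA (s44w_L P D) (s44w_L_finite P D) (s44w_L_normal P D)
      (s44s_not_sq_dvd_finrank_L P D)⟩

end Main

end

end Fermat.Agent.Lib.S44
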