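/-
M-AT-P programme (S44), W-side [L6] (helper6, prefix `s44w_`), brick (A5) = (F1): **multiplication by
`p` on the kernel of reduction at a prime of multiplicative reduction**, Legendre model
`Y² = X (X − δ)(X − ε)` (`v δ > 0`, `v ε = 0`, `p` odd, `v p = 1`):

`s44w_F1` : for `y ∈ E₁` with `0 < v(t(y)) = s < 1/(p − 1)` and `p • y ≠ 0`:
`v (x(p • y)) = −2 p s` (so `v(t(p • y)) = p s`).
-/
import Fermat.Agent.Lib.S44.WTors
import Fermat.Agent.Lib.Frey.FqPoint

set_option autoImplicit false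
set_option linter.unusedSectionVars false

namespace Fermat.Agent.Lib.S44

open Polynomial WeierstrassCurve WeierstrassCurve.Affine IsLocalRing Fermat.Agent.Lib.S41
  Fermat.Agent.Lib.S58 Fermat.Agent.Lib.EN Fermat.Agent.Lib.Frey

section val

variable {K : Type*} [Field K] (v : AddValuation K (WithTop ℚ))

/-- a monic polynomial with integral coefficients at an argument of negative valuation. -/
theorem s44w_v_monic_eval {f : K[X]} (hf : f.Monic) (hint : ∀ i, 0 ≤ v (f.coeff i)) {x : K}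
    {w : ℚ} (hx : v x = (w : WithTop ℚ)) (hw : w < 0) :
    v (f.eval x) = (((f.natDegree : ℚ) * w : ℚ) : WithTop ℚ) := by
  set n := f.natDegree with hn
  have hxn : v (x ^ n) = (((n : ℚ) * w : ℚ) : WithTop ℚ) := fq_v_pow_coe v hx n
  rw [eval_eq_sum_range, Finset.sum_range_succ, ← hn, hf.coeff_natDegree, one_mul]
  have hlt : (((n : ℚ) * w : ℚ) : WithTop ℚ) < v (∑ i ∈ Finset.range n, f.coeff i * x ^ i) := by
    apply AddValuation.map_lt_sum v (WithTop.coe_ne_top)
    intro i hi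
    have hi' : i < n := Finset.mem_range.mp hi
    have h1 : (((i : ℚ) * w : ℚ) : WithTop ℚ) ≤ v (f.coeff i * x ^ i) := by
      rw [v.map_mul, fq_v_pow_coe v hx i]
      exact le_add_of_nonneg_left (hint i)
    refine lt_of_lt_of_le ?_ h1
    have : (n : ℚ) * w < (i : ℚ) * w := by
      have : (i : ℚ) < (n : ℚ) := by exact_mod_cast hi'
      nlinarith
    exact_mod_cast this
  rw [AddValuation.map_add_eq_of_lt_right v (by rw [hxn]; exact hlt), hxn]

variable (A : ValuationSubring K)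

/-- valuation of `∏ (x − r)` when the factors have one valuation for `r ∈ A`, another for
`r ∉ A`. -/
theorem s44w_v_prod_sub (m : Multiset K) (x : K) (α β : ℚ)
    (hα : ∀ r ∈ m, r ∈ A → v (x - r) = (α : WithTop ℚ))
    (hβ : ∀ r ∈ m, r ∉ A → v (x - r) = (β : WithTop ℚ)) :
    v ((m.map (fun r => x - r)).prod) =
      (((open Classical in Multiset.card (m.filter (· ∈ A)) : ℕ) : ℚ) * α +
        ((open Classical in Multiset.card (m.filter (· ∉ A)) : ℕ) : ℚ) * β : ℚ) := by
  classical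
  induction m using Multiset.induction_on with
  | empty => simp
  | cons r m ih =>
    have ih' := ih (fun r' hr' => hα r' (Multiset.mem_cons_of_mem hr'))
      (fun r' hr' => hβ r' (Multiset.mem_cons_of_mem hr'))
    rw [Multiset.map_cons, Multiset.prod_cons, v.map_mul, ih', Multiset.filter_cons,
      Multiset.filter_cons]
    by_cases hr : r ∈ A
    · rw [if_pos hr, if_neg (not_not.mpr hr), hα r (Multiset.mem_cons_self r m) hr]
      simp only [Multiset.card_add, Multiset.card_singleton, Multiset.card_zero]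
      rw [← WithTop.coe_add]
      congr 1
      push_cast
      ring
    · rw [if_neg hr, if_pos hr, hβ r (Multiset.mem_cons_self r m) hr]
      simp only [Multiset.card_add, Multiset.card_singleton, Multiset.card_zero]
      rw [← WithTop.coe_add]
      congr 1
      push_cast
      ring

end val

section main

variable {K : Type*} [Field K] [DecidableEq K] [IsAlgClosed K] [CharZero K] [Algebra ℚ K]
  [Algebra.IsAlgebraic ℚ K] (A : ValuationSubring K) {p : ℕ} (hp : p.Prime) (hp2 : p ≠ 2)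
  (hA : (p : K) ∈ A.nonunits) (δ ε : K) (hδA : δ ∈ A.nonunits) (hδ0 : δ ≠ 0)
  (hε : A.valuation ε = 1)

include hδA hδ0 hε in
/-- the numerator `a_p` of multiplication by `p` has integral coefficients. -/
theorem s44w_leg_a_int (i : ℕ) : 0 ≤ ford_vQ A hp hA ((enc_a (fl_curve δ ε) p).coeff i) := by
  have hΔ := s44w_leg_Δ A δ ε hδA hδ0 hε
  let δ' : A := ⟨δ, A.nonunits_subset hδA⟩
  let ε' : A := ⟨ε, (A.valuation_le_one_iff ε).mp hε.le⟩
  have hgen : s41a_WK A (s44w_WA A δ' ε') = fl_curve δ ε := s44w_WA_generic A δ' ε'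
  have hΔ' : (s41a_WK A (s44w_WA A δ' ε')).Δ ≠ 0 := by rw [hgen]; exact hΔ
  obtain ⟨aA, bA, haA, hbA⟩ := s44w_exists_lifts A (s44w_WA A δ' ε') hΔ' hp hA
  rw [hgen] at haA
  rw [← haA, coeff_map, ford_vQ_nonneg_iff]
  exact (aA.coeff i).2

/-- the short-model hypotheses for the Legendre curve. -/
theorem s44w_leg_short (v : AddValuation K (WithTop ℚ)) (hvδ : 0 ≤ v δ) (hvε : 0 ≤ v ε) :
    0 ≤ v (fl_curve δ ε).a₂ ∧ 0 ≤ v (fl_curve δ ε).a₄ ∧ 0 ≤ v (fl_curve δ ε).a₆ := by
  refine ⟨?_, ?_, ?_⟩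
  · rw [fl_curve_a₂, AddValuation.map_neg]; exact v.map_le_add hvδ hvε
  · rw [fl_curve_a₄, v.map_mul]; exact add_nonneg hvδ hvε
  · rw [fl_curve_a₆, AddValuation.map_zero]; exact le_top

include hp2 hδA hδ0 hε in
/-- **(F1)**: `v (x (p • y)) = −2 p s` for `y ∈ E₁` with `v (t(y)) = s < 1 / (p − 1)`. -/
theorem s44w_F1 {x y : K} (h : (fl_curve δ ε).toAffine.Nonsingular x y) {s : ℚ}
    (hs : ford_vQ A hp hA (x / y) = (s : WithTop ℚ)) (hx : x ∉ A)
    (hs1 : s < 1 / ((p : ℚ) - 1)) {x' y' : K}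
    {h' : (fl_curve δ ε).toAffine.Nonsingular x' y'}
    (hmul : p • Point.some x y h = Point.some x' y' h') :
    ford_vQ A hp hA x' = ((-2 * (p : ℚ) * s : ℚ) : WithTop ℚ) := by
  classical
  set v := ford_vQ A hp hA with hv
  have hΔ := s44w_leg_Δ A δ ε hδA hδ0 hε
  have hvδ : 0 ≤ v δ := (ford_vQ_nonneg_iff hp hA δ).mpr (A.nonunits_subset hδA)
  have hvε : 0 ≤ v ε := (ford_vQ_nonneg_iff hp hA ε).mpr ((A.valuation_le_one_iff ε).mp hε.le)
  have h1 : (fl_curve δ ε).a₁ = 0 := rfl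
  have h3 : (fl_curve δ ε).a₃ = 0 := rfl
  obtain ⟨ha2, ha4, ha6⟩ := s44w_leg_short δ ε v hvδ hvε
  have hneg : ∀ x : K, x ∉ A → v x < 0 := fun x hx => by
    rw [← not_le, hv, ford_vQ_nonneg_iff]; exact hx
  have hpQ : (2 : ℚ) ≤ (p : ℚ) := by exact_mod_cast hp.two_le
  have hp1 : (0 : ℚ) < (p : ℚ) - 1 := by linarith
  set c : ℚ := 1 / ((p : ℚ) - 1) with hc
  have hcp : c * ((p : ℚ) - 1) = 1 := by rw [hc]; field_simp
  -- valuations of `x`
  obtain ⟨s', hs', hxs, hys, hts⟩ := frd_val_point v h1 h3 ha2 ha4 ha6 h.1 (hneg x hx)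
  have hss : s' = s := fuc_ex_unique v hts hs
  rw [hss] at hs' hxs hys
  -- Newton data
  obtain ⟨g, hg, hbg, hdeg, hval, hcard⟩ := s44w_leg_newton A hp hp2 hA δ ε hδA hδ0 hε
  -- the non-integral roots have valuation `-2c`
  have hroots : ∀ r ∈ g.roots, r ∉ A → v r = ((-2 * c : ℚ) : WithTop ℚ) := by
    intro r hr hrA
    have hr' : r ∈ g.roots + g.roots := Multiset.mem_add.mpr (Or.inl hr)
    have htr := s44w_root_torsion A δ ε hδA hδ0 hε hg.ne_zero hbg hr'
    have hT := s44w_T_val A hp hp2 hA δ ε hδA hδ0 hε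
      (enc_y_nonsingular (fl_curve δ ε).toAffine hΔ r) htr hrA
    obtain ⟨r', hr'0, hxr', hyr', htr'⟩ := frd_val_point v h1 h3 ha2 ha4 ha6
      (enc_y_nonsingular (fl_curve δ ε).toAffine hΔ r).1 (hneg r hrA)
    obtain rfl : r' = c := fuc_ex_unique v htr' hT
    exact hxr'
  -- valuations of the factors
  have hα : ∀ r ∈ g.roots, r ∈ A → v (x - r) = ((-2 * s : ℚ) : WithTop ℚ) := by
    intro r _ hrA
    have hr0 : 0 ≤ v r := (ford_vQ_nonneg_iff hp hA r).mpr hrA
    rw [AddValuation.map_sub_eq_of_lt_left v (lt_of_lt_of_le (hneg x hx) hr0), hxs]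
  have hβ : ∀ r ∈ g.roots, r ∉ A → v (x - r) = ((-2 * c : ℚ) : WithTop ℚ) := by
    intro r hr hrA
    have hlt : v r < v x := by
      rw [hroots r hr hrA, hxs]
      have : -2 * c < -2 * s := by linarith
      exact_mod_cast this
    rw [AddValuation.map_sub_eq_of_lt_right v hlt, hroots r hr hrA]
  have hprod := s44w_v_prod_sub v A g.roots x (-2 * s) (-2 * c) hα hβ
  -- counts
  have hn1 : 2 * Multiset.card (g.roots.filter (· ∈ A)) = p ^ 2 - p := by
    rw [← hcard, Multiset.filter_add, Multiset.card_add, two_mul]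
  have hn : Multiset.card (g.roots.filter (· ∈ A)) + Multiset.card (g.roots.filter (· ∉ A)) =
      g.natDegree := by
    rw [← Multiset.card_add, Multiset.filter_add_not, IsAlgClosed.card_roots_eq_natDegree]
  have hplt : p < p ^ 2 := by have := hp.two_le; nlinarith
  have hn2 : 2 * Multiset.card (g.roots.filter (· ∉ A)) = p - 1 := by omega
  have hn1Q : (2 : ℚ) * (Multiset.card (g.roots.filter (· ∈ A)) : ℚ) = (p : ℚ) ^ 2 - p := by
    have := congrArg (fun n : ℕ => (n : ℚ)) hn1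
    simp only [Nat.cast_mul, Nat.cast_ofNat] at this
    rw [this, Nat.cast_sub hplt.le]
    push_cast
    ring
  have hn2Q : (2 : ℚ) * (Multiset.card (g.roots.filter (· ∉ A)) : ℚ) = (p : ℚ) - 1 := by
    have := congrArg (fun n : ℕ => (n : ℚ)) hn2
    simp only [Nat.cast_mul, Nat.cast_ofNat] at this
    rw [this, Nat.cast_sub hp.one_le]
    push_cast
    ring
  -- `g(x)` and `b_p(x)`
  have hgx : g.eval x = (g.roots.map (fun r => x - r)).prod := by
    rw [(IsAlgClosed.splits g).eval_eq_prod_roots x, hg.leadingCoeff, one_mul]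
  have hvg : v (g.eval x) = (((-(p : ℚ) ^ 2 + p) * s - 1 : ℚ) : WithTop ℚ) := by
    rw [hgx, hprod]
    congr 1
    have e1 : (Multiset.card (g.roots.filter (· ∈ A)) : ℚ) = ((p : ℚ) ^ 2 - p) / 2 := by
      linarith
    have e2 : (Multiset.card (g.roots.filter (· ∉ A)) : ℚ) = ((p : ℚ) - 1) / 2 := by
      linarith
    rw [e1, e2]
    linear_combination (-1 : ℚ) * hcp
  have hvp : v (p : K) = ((1 : ℚ) : WithTop ℚ) := by
    rw [hv, ford_vQ_q]; rfl
  have hvb : v ((enc_b (fl_curve δ ε) p).eval x) =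
      (((-2 * (p : ℚ) ^ 2 + 2 * p) * s : ℚ) : WithTop ℚ) := by
    rw [hbg, eval_mul, eval_C, eval_pow]
    rw [fuc_ex_mul v (fuc_ex_sq v hvp) (fuc_ex_sq v hvg)]
    congr 1
    ring
  -- `a_p(x)`
  obtain ⟨-, hmon, hda, -, -⟩ := (enc_Inv_all (fl_curve δ ε) hΔ p).1
  have hva : v ((enc_a (fl_curve δ ε) p).eval x) =
      ((-2 * (p : ℚ) ^ 2 * s : ℚ) : WithTop ℚ) := by
    rw [s44w_v_monic_eval v hmon (s44w_leg_a_int A hp hA δ ε hδA hδ0 hε) hxs (by linarith), hda]
    congr 1
    push_cast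
    ring
  -- conclusion
  have hmulx := enc_nsmul_some (fl_curve δ ε).toAffine hΔ h p hmul
  rw [← hmulx] at hva
  rw [fuc_ex_of_mul v hva hvb]
  congr 1
  ring

end main

end Fermat.Agent.Lib.S44
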