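/-
M-AT-P programme (S44), W-side [L6] (helper6, prefix `s44w_`), brick (B1): **the local wild
witness** on the Legendre model `Y² = X (X − δ)(X − ε)` (`v δ > 0`, `v ε = 0`, `p` odd, `v p = 1`).

* `s44w_t_add` : for `y₃ = y₁ + y₂` in `E₁` (all affine), `v (t₃ − t₁ − t₂) ≥ r₁ + r₂ + r₃`.
* `s44w_wild_local` : if `τ` preserves `v`, acts trivially on the residue field, fixes the
  coordinates of a point `Q ≠ 0` of `T = E[p] ∩ E₁`, and `τ y = y + Q` for an affine `y ∈ E₁`, then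
  `g := t(y) = x/y` has `0 < v g = s < 1/(p − 1)` and `v (τ g / g − 1) < 1/(p − 1)`.
-/
import Fermat.Agent.Lib.S44.WWit1

set_option autoImplicit false
set_option linter.unusedSectionVars false

namespace Fermat.Agent.Lib.S44

open Polynomial WeierstrassCurve WeierstrassCurve.Affine IsLocalRing Fermat.Agent.Lib.S41
  Fermat.Agent.Lib.S58 Fermat.Agent.Lib.EN Fermat.Agent.Lib.Frey

section diff

variable {K : Type*} [Field K] [DecidableEq K] (v : AddValuation K (WithTop ℚ))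
  {W : WeierstrassCurve K}

/-- the difference lemma for `t = X / Y` on the kernel of reduction of a short integral model. -/
theorem s44w_t_add (h1 : W.a₁ = 0) (h3 : W.a₃ = 0) (ha2 : 0 ≤ v W.a₂) (ha4 : 0 ≤ v W.a₄)
    (ha6 : 0 ≤ v W.a₆) {x₁ y₁ x₂ y₂ x₃ y₃ : K} {h₁ : W.toAffine.Nonsingular x₁ y₁}
    {h₂ : W.toAffine.Nonsingular x₂ y₂} {h₃ : W.toAffine.Nonsingular x₃ y₃}
    (hx₁ : v x₁ < 0) (hx₂ : v x₂ < 0) (hx₃ : v x₃ < 0)
    (hadd : Point.some x₃ y₃ h₃ = Point.some x₁ y₁ h₁ + Point.some x₂ y₂ h₂)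
    {r₁ r₂ r₃ : ℚ} (hr₁ : v (x₁ / y₁) = (r₁ : WithTop ℚ)) (hr₂ : v (x₂ / y₂) = (r₂ : WithTop ℚ))
    (hr₃ : v (x₃ / y₃) = (r₃ : WithTop ℚ)) :
    ((r₁ + r₂ + r₃ : ℚ) : WithTop ℚ) ≤ v (x₃ / y₃ - x₁ / y₁ - x₂ / y₂) := by
  obtain ⟨s₁, hs₁0, hxr₁, hyr₁, htr₁⟩ := frd_val_point v h1 h3 ha2 ha4 ha6 h₁.1 hx₁
  obtain ⟨s₂, hs₂0, hxr₂, hyr₂, htr₂⟩ := frd_val_point v h1 h3 ha2 ha4 ha6 h₂.1 hx₂
  obtain ⟨s₃, hs₃0, hxr₃, hyr₃, htr₃⟩ := frd_val_point v h1 h3 ha2 ha4 ha6 h₃.1 hx₃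
  obtain rfl : r₁ = s₁ := fuc_ex_unique v hr₁ htr₁
  obtain rfl : r₂ = s₂ := fuc_ex_unique v hr₂ htr₂
  obtain rfl : r₃ = s₃ := fuc_ex_unique v hr₃ htr₃
  have hsum : Point.some x₁ y₁ h₁ + Point.some x₂ y₂ h₂ + (-(Point.some x₃ y₃ h₃)) = 0 := by
    rw [hadd]; exact add_neg_cancel _
  rw [Point.neg_some] at hsum
  obtain ⟨ℓ, n, l₁, l₂, l₃, e1, e2, e3⟩ := fab_collinear_of_add_eq_zero hsum
  have h1' : W.toAffine.a₁ = 0 := h1
  have h3' : W.toAffine.a₃ = 0 := h3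
  rw [h1'] at e1 e2
  rw [h3'] at e2 e3
  rw [Affine.negY, h1', h3', zero_mul, sub_zero, sub_zero] at l₃
  have hyr₃' : v (-y₃) = ((-3 * r₃ : ℚ) : WithTop ℚ) := by rw [v.map_neg, hyr₃]
  have hest := frd_t_sum v ha2 ha4 ha6 hs₁0 hs₂0 hs₃0 hxr₁ hxr₂ hxr₃ hyr₁ hyr₂ hyr₃' l₁ l₂ l₃
    (by linear_combination e1) (by linear_combination e2) (by linear_combination e3)
  have : x₃ / y₃ - x₁ / y₁ - x₂ / y₂ = -(x₁ / y₁ + x₂ / y₂ + x₃ / -y₃) := by
    rw [div_neg]; ring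
  rw [this, v.map_neg]
  exact hest

end diff

section main

variable {K : Type*} [Field K] [DecidableEq K] [IsAlgClosed K] [CharZero K] [Algebra ℚ K]
  [Algebra.IsAlgebraic ℚ K] (A : ValuationSubring K) {p : ℕ} (hp : p.Prime) (hp2 : p ≠ 2)
  (hA : (p : K) ∈ A.nonunits) (δ ε : K) (hδA : δ ∈ A.nonunits) (hδ0 : δ ≠ 0)
  (hε : A.valuation ε = 1)

include hp2 hδA hδ0 hε in
/-- **the local wild witness.** -/
theorem s44w_wild_local (τ : K ≃+* K)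
    (hτv : ∀ a, ford_vQ A hp hA (τ a) = ford_vQ A hp hA a)
    (hτI : ∀ a, 0 ≤ ford_vQ A hp hA a → 0 < ford_vQ A hp hA (τ a - a))
    {x y xQ yQ : K} (h : (fl_curve δ ε).toAffine.Nonsingular x y)
    (hQ : (fl_curve δ ε).toAffine.Nonsingular xQ yQ)
    (hτ : (fl_curve δ ε).toAffine.Nonsingular (τ x) (τ y))
    (hx : x ∉ A) (hxQ : xQ ∉ A) (hpQ : p • Point.some xQ yQ hQ = 0)
    (hτQx : τ xQ = xQ) (hτQy : τ yQ = yQ)
    (hadd : Point.some (τ x) (τ y) hτ = Point.some x y h + Point.some xQ yQ hQ) :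
    ∃ s : ℚ, 0 < s ∧ s < 1 / ((p : ℚ) - 1) ∧ ford_vQ A hp hA (x / y) = (s : WithTop ℚ) ∧
      ford_vQ A hp hA (τ (x / y) / (x / y) - 1) < (((1 : ℚ) / ((p : ℚ) - 1) : ℚ) : WithTop ℚ) := by
  classical
  set v := ford_vQ A hp hA with hv
  set c : ℚ := 1 / ((p : ℚ) - 1) with hc
  have hvδ : 0 ≤ v δ := (ford_vQ_nonneg_iff hp hA δ).mpr (A.nonunits_subset hδA)
  have hvε : 0 ≤ v ε := (ford_vQ_nonneg_iff hp hA ε).mpr ((A.valuation_le_one_iff ε).mp hε.le)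
  have h1 : (fl_curve δ ε).a₁ = 0 := rfl
  have h3 : (fl_curve δ ε).a₃ = 0 := rfl
  obtain ⟨ha2, ha4, ha6⟩ := s44w_leg_short δ ε v hvδ hvε
  have hneg : ∀ x : K, x ∉ A → v x < 0 := fun x hx => by
    rw [← not_le, hv, ford_vQ_nonneg_iff]; exact hx
  have htQ : v (xQ / yQ) = (c : WithTop ℚ) :=
    s44w_T_val A hp hp2 hA δ ε hδA hδ0 hε hQ hpQ hxQ
  obtain ⟨s, hs0, hxs, hys, hts⟩ := frd_val_point v h1 h3 ha2 ha4 ha6 h.1 (hneg x hx)
  have hτx : v (τ x) < 0 := by rw [hτv]; exact hneg x hx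
  have htτ : v (τ x / τ y) = (s : WithTop ℚ) := by
    rw [← map_div₀, hτv, hts]
  have hE := s44w_t_add v h1 h3 ha2 ha4 ha6 (hneg x hx) (hneg xQ hxQ) hτx hadd hts htQ htτ
  have hcpos : 0 < c := by
    rw [hc]
    have : (2 : ℚ) ≤ p := by exact_mod_cast hp.two_le
    apply div_pos one_pos; linarith
  -- `D = τ g − g` has valuation `c`
  have hD : v (τ (x / y) - x / y) = (c : WithTop ℚ) := by
    have : τ (x / y) - x / y = xQ / yQ + (τ x / τ y - x / y - xQ / yQ) := by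
      rw [map_div₀]; ring
    rw [this]
    exact fuc_ex_add v htQ hE (by linarith)
  have hg0 : x / y ≠ 0 := fuc_ne_zero_of_ex v hts
  have htQ0 : xQ / yQ ≠ 0 := fuc_ne_zero_of_ex v htQ
  have hsc : s < c := by
    by_contra hcs
    rw [not_lt] at hcs
    have hva : v (x / y / (xQ / yQ)) = ((s - c : ℚ) : WithTop ℚ) := by
      have : v (x / y / (xQ / yQ) * (xQ / yQ)) = (s : WithTop ℚ) := by
        rw [div_mul_cancel₀ _ htQ0, hts]
      exact fuc_ex_of_mul v this htQ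
    have hint : 0 ≤ v (x / y / (xQ / yQ)) := by
      rw [hva]
      have : (0 : ℚ) ≤ s - c := by linarith
      exact_mod_cast this
    have hlt := hτI _ hint
    have hfix : τ (xQ / yQ) = xQ / yQ := by rw [map_div₀, hτQx, hτQy]
    have : τ (x / y / (xQ / yQ)) - x / y / (xQ / yQ) = (τ (x / y) - x / y) / (xQ / yQ) := by
      rw [map_div₀, hfix]; ring
    rw [this] at hlt
    have h0 : v ((τ (x / y) - x / y) / (xQ / yQ)) = ((c - c : ℚ) : WithTop ℚ) := by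
      have : v ((τ (x / y) - x / y) / (xQ / yQ) * (xQ / yQ)) = (c : WithTop ℚ) := by
        rw [div_mul_cancel₀ _ htQ0, hD]
      exact fuc_ex_of_mul v this htQ
    rw [h0, sub_self] at hlt
    exact lt_irrefl _ hlt
  refine ⟨s, hs0, hsc, hts, ?_⟩
  have : τ (x / y) / (x / y) - 1 = (τ (x / y) - x / y) / (x / y) := by
    rw [sub_div, div_self hg0]
  rw [this]
  have h0 : v ((τ (x / y) - x / y) / (x / y)) = ((c - s : ℚ) : WithTop ℚ) := by
    have : v ((τ (x / y) - x / y) / (x / y) * (x / y)) = (c : WithTop ℚ) := by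
      rw [div_mul_cancel₀ _ hg0, hD]
    exact fuc_ex_of_mul v this hts
  rw [h0]
  have : c - s < c := by linarith
  exact_mod_cast this

end main

end Fermat.Agent.Lib.S44
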