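/-
M-AT-P programme (S44), W-side [L6] (helper6, prefix `s44w_`), brick (B2): **from `E₀` to `E₁`**.

* `s44w_node_param` : every point `(x, y)`, `x ≠ 0`, of the nodal cubic `s58x_Node W α β` is
  `(X(u), Y(u))` for a unit `u ≠ 1`.
* `s44w_unit_order` : every unit of the residue field of a valuation subring of `ℚ̄` over `p` has
  finite order prime to `p`.
* `s44w_E0_to_E1_gen` / `s44w_E0_to_E1` : a point with unit abscissa on a model with nodal special
  fibre has a multiple `N • y`, `p ∤ N`, in the kernel of reduction.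
-/
import Fermat.Agent.Lib.S44.WWit2
import Fermat.Agent.Lib.S18.XPerfect

set_option autoImplicit false
set_option linter.unusedSectionVars false

namespace Fermat.Agent.Lib.S44

open Polynomial WeierstrassCurve WeierstrassCurve.Affine IsLocalRing Fermat.Agent.Lib.S41
  Fermat.Agent.Lib.S58 Fermat.Agent.Lib.EN Fermat.Agent.Lib.Frey Fermat.Agent.Lib.S18

section node

variable {k : Type*} [Field k] {W : WeierstrassCurve k} {α β : k}

/-- surjectivity of the parametrisation of the nodal cubic away from the node. -/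
theorem s44w_node_param (h : s58x_Node W α β) {x y : k} (he : W.toAffine.Equation x y)
    (hx : x ≠ 0) : ∃ u : kˣ, (u : k) ≠ 1 ∧ s58x_X α β u = x ∧ s58x_Y α β u = y := by
  rw [Affine.equation_iff, h.h₁, h.h₂, h.h₃, h.h₄, h.h₆] at he
  have hd : α - β ≠ 0 := sub_ne_zero.mpr h.hne
  have hprod : (y - α * x) * (y - β * x) = x ^ 3 := by linear_combination he
  have hx3 : x ^ 3 ≠ 0 := pow_ne_zero 3 hx
  have hA : y - α * x ≠ 0 := fun h0 => hx3 (by rw [← hprod, h0, zero_mul])
  have hB : y - β * x ≠ 0 := fun h0 => hx3 (by rw [← hprod, h0, mul_zero])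
  have hu0 : (y - α * x) / (y - β * x) ≠ 0 := div_ne_zero hA hB
  have h1u : 1 - (y - α * x) / (y - β * x) = (α - β) * x / (y - β * x) := by
    rw [eq_div_iff hB, sub_mul, one_mul, div_mul_cancel₀ _ hB]; ring
  have h1u0 : 1 - (y - α * x) / (y - β * x) ≠ 0 := by
    rw [h1u]; exact div_ne_zero (mul_ne_zero hd hx) hB
  refine ⟨Units.mk0 _ hu0, ?_, ?_, ?_⟩
  · rw [Units.val_mk0]
    intro h1
    apply h1u0
    rw [h1, sub_self]
  · rw [Units.val_mk0, s58x_X, h1u]
    field_simp
    linear_combination hprod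
  · rw [Units.val_mk0, s58x_Y, h1u]
    field_simp
    linear_combination (y * (α - β)) * hprod

end node

section order

/-- every unit of the residue field has finite order prime to the residue characteristic. -/
theorem s44w_unit_order {K : Type*} [Field K] [CharZero K] [Algebra ℚ K]
    [Algebra.IsAlgebraic ℚ K]
    (A : ValuationSubring K) {p : ℕ} (hp : p.Prime) (hA : (p : K) ∈ A.nonunits)
    (u : (ResidueField A)ˣ) : ∃ N : ℕ, 0 < N ∧ ¬ p ∣ N ∧ u ^ N = 1 := by
  classical
  have halgK : @Algebra.IsAlgebraic ℚ K _ _ DivisionRing.toRatAlgebra := by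
    have e : (DivisionRing.toRatAlgebra : Algebra ℚ K) = ‹Algebra ℚ K› := Subsingleton.elim _ _
    rw [e]; infer_instance
  haveI : Fact p.Prime := ⟨hp⟩
  haveI : CharP (ResidueField A) p := s18x_charP_residueField A hp hA
  letI : Algebra (ZMod p) (ResidueField A) := ZMod.algebra _ p
  have halg : IsAlgebraic (ZMod p) (u : ResidueField A) := s18x_residue_isAlgebraic A _
  let F := IntermediateField.adjoin (ZMod p) {(u : ResidueField A)}
  haveI : FiniteDimensional (ZMod p) F := IntermediateField.adjoin.finiteDimensional halg.isIntegral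
  haveI : Finite F := Module.finite_of_finite (ZMod p)
  letI : Fintype F := Fintype.ofFinite F
  let u' : F := ⟨u, IntermediateField.mem_adjoin_simple_self _ _⟩
  have hu'0 : u' ≠ 0 := by
    intro h0
    have := congrArg Subtype.val h0
    exact u.ne_zero this
  have hpow := FiniteField.pow_card_sub_one_eq_one u' hu'0
  obtain ⟨n, -, hn⟩ := FiniteField.card F p
  have hn1 : 1 ≤ (n : ℕ) := n.pos
  have hpn : p ≤ p ^ (n : ℕ) := by
    calc p = p ^ 1 := (pow_one p).symm
      _ ≤ p ^ (n : ℕ) := Nat.pow_le_pow_right hp.pos hn1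
  refine ⟨p ^ (n : ℕ) - 1, ?_, ?_, ?_⟩
  · have := hp.two_le; omega
  · intro hdvd
    have h1 : p ∣ p ^ (n : ℕ) := dvd_pow_self p (by omega)
    have h2 : p ∣ 1 := by
      have := Nat.dvd_sub h1 hdvd
      have e : p ^ (n : ℕ) - (p ^ (n : ℕ) - 1) = 1 := by have := hp.two_le; omega
      rwa [e] at this
    exact hp.one_lt.ne' (Nat.dvd_one.mp h2)
  · rw [hn] at hpow
    apply Units.ext
    rw [Units.val_pow_eq_pow_val, Units.val_one]
    have := congrArg Subtype.val hpow
    simpa [u'] using this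

end order

section gen

variable {K : Type*} [Field K] [DecidableEq K] [CharZero K] [Algebra ℚ K]
  [Algebra.IsAlgebraic ℚ K]
  (A : ValuationSubring K) (W : WeierstrassCurve A) [DecidableEq (ResidueField A)]

/-- on a model with nodal special fibre, a point with unit abscissa has a multiple `N • y`,
`p ∤ N`, in the kernel of reduction. -/
theorem s44w_E0_to_E1_gen {α β : ResidueField A} (hnode : s58x_Node (s41a_Wk A W) α β) {p : ℕ}
    (hp : p.Prime) (hA : (p : K) ∈ A.nonunits) {a b : A}
    (h : (s41a_WK A W).toAffine.Nonsingular (a : K) (b : K)) (ha : residue A a ≠ 0) :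
    ∃ N : ℕ, 0 < N ∧ ¬ p ∣ N ∧
      frd_E1 A.valuation (s41a_WK A W).toAffine (N • Point.some (a : K) (b : K) h) := by
  have he : W.toAffine.Equation a b := s58g_equation_of_nonsingular h
  have hek : (s41a_Wk A W).toAffine.Equation (residue A a) (residue A b) := he.map (residue A)
  obtain ⟨u, hu1, hX, hY⟩ := s44w_node_param hnode hek ha
  have h' : (s41a_Wk A W).toAffine.Nonsingular (residue A a) (residue A b) := by
    rw [← hX, ← hY]
    exact s58x_nonsingular hnode (sub_ne_zero.mpr (Ne.symm hu1)) u.ne_zero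
  have hpt : s58x_pt hnode u = Point.some (residue A a) (residue A b) h' := by
    rw [s58x_pt_of_ne hnode hu1]
    exact s41a_some_congr hX hY _ _
  obtain ⟨N, hN0, hpN, huN⟩ := s44w_unit_order A hp hA u
  set m := orderOf u with hm
  have hmN : m ∣ N := orderOf_dvd_of_pow_eq_one huN
  have hm0 : 0 < m := Nat.pos_of_dvd_of_pos hmN hN0
  have hm1 : m ≠ 1 := by
    intro h1
    have : u = 1 := orderOf_eq_one_iff.mp h1
    exact hu1 (by rw [this, Units.val_one])
  have hpm : ¬ p ∣ m := fun hd => hpN (hd.trans hmN)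
  refine ⟨m, hm0, hpm, ?_⟩
  have hR : s58g_Red A W (Point.some (a : K) (b : K) h)
      (Point.some (residue A a) (residue A b) h') := ⟨a, b, h, h', rfl, rfl⟩
  have hord : ∀ k, 0 < k → k < m → k • Point.some (residue A a) (residue A b) h' ≠ 0 := by
    intro k hk0 hkm h0
    rw [← hpt, ← s58x_pt_pow, s58x_pt_eq_zero_iff] at h0
    exact pow_ne_one_of_lt_orderOf hk0.ne' hkm h0
  have hred := s58g_red_nsmul hR m hord (m - 1) (by omega) (by omega)
  have hmt : m • Point.some (residue A a) (residue A b) h' = 0 := by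
    rw [← hpt, ← s58x_pt_pow, hm, pow_orderOf_eq_one, s58x_pt_one]
  have hneg : (m - 1) • Point.some (residue A a) (residue A b) h' =
      -Point.some (residue A a) (residue A b) h' := by
    apply eq_neg_of_add_eq_zero_left
    rw [← succ_nsmul]
    have : m - 1 + 1 = m := by omega
    rw [this, hmt]
  rw [hneg] at hred
  have hsub := s58g_sub_mem_E1 hred (s58g_red_neg hR)
  have : (m - 1) • Point.some (a : K) (b : K) h - -Point.some (a : K) (b : K) h =
      m • Point.some (a : K) (b : K) h := by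
    rw [sub_neg_eq_add, ← succ_nsmul]
    congr 1
    omega
  rwa [this] at hsub

end gen

section leg

variable {K : Type*} [Field K] [DecidableEq K] [IsAlgClosed K] [CharZero K] [Algebra ℚ K]
  [Algebra.IsAlgebraic ℚ K] (A : ValuationSubring K) {p : ℕ} (hp : p.Prime) (hp2 : p ≠ 2)
  (hA : (p : K) ∈ A.nonunits) (δ ε : K) (hδA : δ ∈ A.nonunits) (hδ0 : δ ≠ 0)
  (hε : A.valuation ε = 1)

include hp2 hδA hε in
/-- **from `E₀` to `E₁` on the Legendre model.** -/
theorem s44w_E0_to_E1 {x y : K} (h : (fl_curve δ ε).toAffine.Nonsingular x y)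
    (hx : A.valuation x = 1) :
    ∃ N : ℕ, 0 < N ∧ ¬ p ∣ N ∧ fl_InE1 (ford_vQ A hp hA) (N • Point.some x y h) := by
  classical
  let δ' : A := ⟨δ, A.nonunits_subset hδA⟩
  let ε' : A := ⟨ε, (A.valuation_le_one_iff ε).mp hε.le⟩
  have hgen : s41a_WK A (s44w_WA A δ' ε') = fl_curve δ ε := s44w_WA_generic A δ' ε'
  -- the tangent directions at the node
  obtain ⟨γ, hγ⟩ := IsAlgClosed.exists_pow_nat_eq (-ε) (n := 2) (by norm_num)
  have hvγ : A.valuation γ = 1 := by
    have h2 : A.valuation γ ^ 2 = 1 := by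
      rw [← map_pow, hγ, Valuation.map_neg, hε]
    exact (pow_eq_one_iff_of_nonneg zero_le two_ne_zero).mp h2
  let γ' : A := ⟨γ, (A.valuation_le_one_iff γ).mp hvγ.le⟩
  have hγ' : γ' ^ 2 = -ε' := Subtype.ext (by push_cast; exact hγ)
  have hδres : residue A δ' = 0 :=
    (residue_eq_zero_iff _).mpr (ValuationSubring.coe_mem_nonunits_iff.mp hδA)
  have h2γ : residue A (2 * γ') ≠ 0 := by
    rw [Ne, residue_eq_zero_iff]
    intro hmem
    have hv : A.valuation (((2 * γ' : A)) : K) < 1 := (A.valuation_lt_one_iff _).mp hmem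
    have e2 : ((2 : A) : K) = 2 := map_ofNat A.subtype 2
    have : (((2 * γ' : A)) : K) = 2 * γ := by push_cast; rw [e2]
    rw [this, map_mul, hvγ, mul_one, s44w_val_two A hp hp2 hA] at hv
    exact lt_irrefl _ hv
  have hnode := s44w_WA_node A δ' ε' γ' hδres hγ' h2γ
  have hxA : x ∈ A := (A.valuation_le_one_iff x).mp hx.le
  have key : ∀ (W' : WeierstrassCurve K) (hW' : s41a_WK A (s44w_WA A δ' ε') = W')
      (h : W'.toAffine.Nonsingular x y),
      ∃ N : ℕ, 0 < N ∧ ¬ p ∣ N ∧ frd_E1 A.valuation W'.toAffine (N • Point.some x y h) := by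
    rintro _ rfl h
    have hyA : y ∈ A := s41a_y_mem A _ hxA h.1
    have ha : residue A (⟨x, hxA⟩ : A) ≠ 0 := by
      rw [Ne, residue_eq_zero_iff]
      intro hmem
      have hv : A.valuation x < 1 := (A.valuation_lt_one_iff _).mp hmem
      rw [hx] at hv
      exact lt_irrefl _ hv
    exact s44w_E0_to_E1_gen A (s44w_WA A δ' ε') hnode hp hA (a := ⟨x, hxA⟩) (b := ⟨y, hyA⟩) h ha
  obtain ⟨N, hN0, hpN, hE⟩ := key _ hgen h
  refine ⟨N, hN0, hpN, ?_⟩
  rcases hE with h0 | ⟨x', y', h', he, hv⟩
  · exact Or.inl h0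
  · refine Or.inr ⟨x', y', h', he, ?_⟩
    rw [← not_le, ford_vQ_nonneg_iff, ← A.valuation_le_one_iff]
    exact not_le.mpr hv

end leg

end Fermat.Agent.Lib.S44
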