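/-
M-AT-P programme (S44), W-side [L6] (helper6, prefix `s44w_`), brick (B3): **the wild witness on the
Legendre model `Y² = X (X − s t^p)(X − ε)`**, generic valued field.

* `s44w_T_cyclic` : two non-zero points of `T = E[p] ∩ E₁` are multiples of each other.
* `s44w_T_fixed`  : an automorphism preserving `v` whose `p`-th iterate fixes the coordinates of the
  `p`-torsion points fixes `T` pointwise.
* `s44w_wild_global` : if such a `τ` (trivial on the residue field, fixing `t`, `ε`) moves a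
  `p`-torsion point `R`, then with `P₀ = (t², t² w)`, `w² = (1 − s t^(p−2))(t² − ε)`, some multiple
  `y = N • (R − j • P₀)` is an affine point of `E₁` with `0 < v t(y) = σ < 1/(p−1)`,
  `v (τ t(y) / t(y) − 1) < 1/(p−1)` and `v t(p • y) = p σ`.
-/
import Fermat.Agent.Lib.S44.WWit3
import Fermat.Agent.Lib.GC.LocalP

set_option autoImplicit false
set_option linter.unusedSectionVars false

namespace Fermat.Agent.Lib.S44

open Polynomial WeierstrassCurve WeierstrassCurve.Affine IsLocalRing Fermat.Agent.Lib.S41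
  Fermat.Agent.Lib.S58 Fermat.Agent.Lib.EN Fermat.Agent.Lib.Frey Fermat.Agent.Lib.GC

section iter

/-- iterates of an additive endomorphism on an eigenvector. -/
theorem s44w_iterate_nsmul {G : Type*} [AddCommMonoid G] (f : G →+ G) {Q : G} {k : ℕ}
    (hf : f Q = k • Q) (n : ℕ) : (⇑f)^[n] Q = k ^ n • Q := by
  induction n with
  | zero => simp
  | succ n ih =>
    rw [Function.iterate_succ_apply', ih, map_nsmul, hf, smul_smul, pow_succ]

variable {K : Type*} [Field K] [DecidableEq K]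

/-- iterates of the action of a ring endomorphism on an affine point. -/
theorem s44w_sigma_iterate (σ : K →+* K) (W : WeierstrassCurve K) (hW : W.map σ = W) {x y : K}
    (h : W.toAffine.Nonsingular x y) (n : ℕ) :
    ∃ h' : W.toAffine.Nonsingular ((⇑σ)^[n] x) ((⇑σ)^[n] y),
      (⇑(fab_sigma σ W hW))^[n] (Point.some x y h) = Point.some ((⇑σ)^[n] x) ((⇑σ)^[n] y) h' := by
  induction n with
  | zero => exact ⟨h, rfl⟩
  | succ n ih =>
    obtain ⟨h', e⟩ := ih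
    simp only [Function.iterate_succ_apply']
    rw [e, fab_sigma_some]
    exact ⟨hW ▸ fab_map_nonsingular σ W h', rfl⟩

end iter

section main

variable {K : Type*} [Field K] [DecidableEq K] [IsAlgClosed K] [CharZero K] [Algebra ℚ K]
  [Algebra.IsAlgebraic ℚ K] (A : ValuationSubring K) {p : ℕ} (hp : p.Prime) (hp2 : p ≠ 2)
  (hA : (p : K) ∈ A.nonunits) (δ ε : K) (hδA : δ ∈ A.nonunits) (hδ0 : δ ≠ 0)
  (hε : A.valuation ε = 1)

include hp2 hδA hδ0 hε in
/-- **`T = E[p] ∩ E₁` is cyclic.** -/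
theorem s44w_T_cyclic {Q₁ Q₂ : (fl_curve δ ε).toAffine.Point} (h₁ : p • Q₁ = 0)
    (h₂ : p • Q₂ = 0) (hE₁ : fl_InE1 (ford_vQ A hp hA) Q₁) (hE₂ : fl_InE1 (ford_vQ A hp hA) Q₂)
    (h0 : Q₁ ≠ 0) : ∃ k : ℕ, k < p ∧ Q₂ = k • Q₁ := by
  classical
  set v := ford_vQ A hp hA with hv
  have hΔ := s44w_leg_Δ A δ ε hδA hδ0 hε
  have hvδ : 0 ≤ v δ := (ford_vQ_nonneg_iff hp hA δ).mpr (A.nonunits_subset hδA)
  have hvε : 0 ≤ v ε := (ford_vQ_nonneg_iff hp hA ε).mpr ((A.valuation_le_one_iff ε).mp hε.le)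
  have h1 : (fl_curve δ ε).a₁ = 0 := rfl
  have h3 : (fl_curve δ ε).a₃ = 0 := rfl
  obtain ⟨ha2, ha4, ha6⟩ := s44w_leg_short δ ε v hvδ hvε
  have hV : Nat.card (Submodule.torsionBy ℤ (fl_curve δ ε).toAffine.Point (p : ℤ)) = p ^ 2 :=
    enc_card_torsion_of_Δ (fl_curve δ ε).toAffine hΔ p hp.pos
  let T : AddSubgroup (Submodule.torsionBy ℤ (fl_curve δ ε).toAffine.Point (p : ℤ)) :=
    { carrier := {q | fl_InE1 v (q : (fl_curve δ ε).toAffine.Point)}
      zero_mem' := Or.inl rfl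
      add_mem' := fun {a b} ha hb => fab_E1_add v h1 h3 ha2 ha4 ha6 ha hb
      neg_mem' := fun {a} ha => fab_E1_neg v ha }
  have hmemV : ∀ Q : (fl_curve δ ε).toAffine.Point, p • Q = 0 →
      Q ∈ Submodule.torsionBy ℤ (fl_curve δ ε).toAffine.Point (p : ℤ) := by
    intro Q hQ
    rw [Submodule.mem_torsionBy_iff, natCast_zsmul]
    exact hQ
  have hTtop : T ≠ ⊤ := by
    obtain ⟨x, y, h, htor', hxA⟩ := s44w_exists_integral_torsion A hp hp2 hA δ ε hδA hδ0 hε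
    intro htop
    have hmem : (⟨Point.some x y h, hmemV _ htor'⟩ :
        Submodule.torsionBy ℤ (fl_curve δ ε).toAffine.Point (p : ℤ)) ∈ T := by
      rw [htop]; exact AddSubgroup.mem_top _
    rcases hmem with h0 | ⟨x', y', h', hxy, hx'⟩
    · exact Point.some_ne_zero _ h0
    · rw [Point.some.injEq] at hxy
      obtain ⟨rfl, rfl⟩ := hxy
      exact absurd ((ford_vQ_nonneg_iff hp hA x).mpr hxA) (not_le.mpr hx')
  have hq₁T : (⟨Q₁, hmemV _ h₁⟩ :
      Submodule.torsionBy ℤ (fl_curve δ ε).toAffine.Point (p : ℤ)) ∈ T := hE₁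
  have hq₂T : (⟨Q₂, hmemV _ h₂⟩ :
      Submodule.torsionBy ℤ (fl_curve δ ε).toAffine.Point (p : ℤ)) ∈ T := hE₂
  have hq₁0 : (⟨Q₁, hmemV _ h₁⟩ :
      Submodule.torsionBy ℤ (fl_curve δ ε).toAffine.Point (p : ℤ)) ≠ 0 := by
    intro h
    exact h0 (congrArg Subtype.val h)
  obtain ⟨k, hkp, hk⟩ := s44w_prime_sq_sub hp hV T hTtop hq₁T hq₂T hq₁0
  refine ⟨k, hkp, ?_⟩
  have := congrArg Subtype.val hk
  simpa using this

include hp2 hδA hδ0 hε in
/-- **`τ` fixes `T` pointwise** as soon as `τ^p` fixes the coordinates of the `p`-torsion points. -/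
theorem s44w_T_fixed (τ : K ≃+* K) (hτv : ∀ a, ford_vQ A hp hA (τ a) = ford_vQ A hp hA a)
    (hW : (fl_curve δ ε).map (τ : K →+* K) = fl_curve δ ε)
    (hτp : ∀ (x y : K) (h : (fl_curve δ ε).toAffine.Nonsingular x y), p • Point.some x y h = 0 →
      (⇑τ)^[p] x = x ∧ (⇑τ)^[p] y = y)
    {Q : (fl_curve δ ε).toAffine.Point} (hQ : p • Q = 0) (hE : fl_InE1 (ford_vQ A hp hA) Q) :
    fab_sigma (τ : K →+* K) (fl_curve δ ε) hW Q = Q := by
  classical
  set φ := fab_sigma (τ : K →+* K) (fl_curve δ ε) hW with hφ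
  by_cases h0 : Q = 0
  · rw [h0, map_zero]
  have hφE : fl_InE1 (ford_vQ A hp hA) (φ Q) :=
    fab_sigma_mem_E1 hW (fun a => by simpa using hτv a) hE
  have hφp : p • φ Q = 0 := by rw [← map_nsmul, hQ, map_zero]
  obtain ⟨k, hkp, hk⟩ := s44w_T_cyclic A hp hp2 hA δ ε hδA hδ0 hε hQ hφp hE hφE h0
  have hiter := s44w_iterate_nsmul φ hk p
  obtain ⟨x, y, h, rfl⟩ : ∃ (x y : K) (h : (fl_curve δ ε).toAffine.Nonsingular x y),
      Q = Point.some x y h := by
    rcases Q with _ | ⟨x, y, h⟩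
    · exact absurd rfl h0
    · exact ⟨x, y, h, rfl⟩
  obtain ⟨h', e⟩ := s44w_sigma_iterate (τ : K →+* K) (fl_curve δ ε) hW h p
  obtain ⟨ex, ey⟩ := hτp x y h hQ
  have e' : (⇑φ)^[p] (Point.some x y h) = Point.some x y h := by
    rw [e]
    exact s41a_some_congr ex ey _ _
  rw [e'] at hiter
  -- `k ^ p • Q = Q`, hence `k ≡ 1 mod p`
  haveI : Fact p.Prime := ⟨hp⟩
  have hord : addOrderOf (Point.some x y h) = p := addOrderOf_eq_prime hQ h0
  have hmod : k ^ p ≡ 1 [MOD p] := by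
    have : k ^ p • Point.some x y h = 1 • Point.some x y h := by rw [one_nsmul]; exact hiter.symm
    rw [nsmul_eq_nsmul_iff_modEq, hord] at this
    exact this
  have hk1 : k ≡ 1 [MOD p] := by
    have h1 : ((k ^ p : ℕ) : ZMod p) = ((1 : ℕ) : ZMod p) := (ZMod.natCast_eq_natCast_iff _ _ _).mpr hmod
    rw [Nat.cast_pow, ZMod.pow_card] at h1
    exact (ZMod.natCast_eq_natCast_iff _ _ _).mp h1
  rw [hk]
  have : k • Point.some x y h = 1 • Point.some x y h := by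
    rw [nsmul_eq_nsmul_iff_modEq, hord]; exact hk1
  rw [this, one_nsmul]

end main

section glob

variable {K : Type} [Field K] [DecidableEq K] [IsAlgClosed K] [CharZero K] [Algebra ℚ K]
  [Algebra.IsAlgebraic ℚ K] (A : ValuationSubring K) {p : ℕ} (hp : p.Prime) (hp2 : p ≠ 2)
  (hA : (p : K) ∈ A.nonunits)

include hp2 in
/-- **the wild witness on the Legendre model `Y² = X (X − s t^p)(X − ε)`.** -/
theorem s44w_wild_global (τ : K ≃+* K)
    (hτv : ∀ a, ford_vQ A hp hA (τ a) = ford_vQ A hp hA a)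
    (hτI : ∀ a, 0 ≤ ford_vQ A hp hA a → 0 < ford_vQ A hp hA (τ a - a))
    (s t ε w : K) (hs : s = 1 ∨ s = -1) (ht : τ t = t) (hτε : τ ε = ε) (ht0 : t ≠ 0)
    (htA : t ∈ A.nonunits) (hε : A.valuation ε = 1) (k : ℕ) (hk : p = k + 2)
    (hw : w ^ 2 = (1 - s * t ^ k) * (t ^ 2 - ε))
    (hW : (fl_curve (s * t ^ p) ε).map (τ : K →+* K) = fl_curve (s * t ^ p) ε)
    (hτp : ∀ (x y : K) (h : (fl_curve (s * t ^ p) ε).toAffine.Nonsingular x y),
      p • Point.some x y h = 0 → (⇑τ)^[p] x = x ∧ (⇑τ)^[p] y = y)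
    (R : (fl_curve (s * t ^ p) ε).toAffine.Point) (hR : p • R = 0)
    (hmove : fab_sigma (τ : K →+* K) (fl_curve (s * t ^ p) ε) hW R ≠ R) :
    ∃ (h₀ : (fl_curve (s * t ^ p) ε).toAffine.Nonsingular (t ^ 2) (t ^ 2 * w)) (j : ℤ) (N : ℕ)
      (x y x' y' : K) (h : (fl_curve (s * t ^ p) ε).toAffine.Nonsingular x y)
      (h' : (fl_curve (s * t ^ p) ε).toAffine.Nonsingular x' y') (σ : ℚ),
      N • (R - j • Point.some (t ^ 2) (t ^ 2 * w) h₀) = Point.some x y h ∧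
      p • Point.some x y h = Point.some x' y' h' ∧
      0 < σ ∧ σ < 1 / ((p : ℚ) - 1) ∧ ford_vQ A hp hA (x / y) = (σ : WithTop ℚ) ∧
      ford_vQ A hp hA (τ (x / y) / (x / y) - 1) < (((1 : ℚ) / ((p : ℚ) - 1) : ℚ) : WithTop ℚ) ∧
      ford_vQ A hp hA (x' / y') = (((p : ℚ) * σ : ℚ) : WithTop ℚ) := by
  classical
  set v := ford_vQ A hp hA with hv
  have hp3 : 3 ≤ p := by have := hp.two_le; omega
  have hk1 : 1 ≤ k := by omega
  have h2 : v 2 = 0 := by
    have := (ford_vQ_eq_iff hp hA (2 : K) 1).mpr (by rw [s44w_val_two A hp hp2 hA, map_one])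
    rw [hv, this, AddValuation.map_one]
  have h2ne : (2 : K) ≠ 0 := two_ne_zero
  have htpos : 0 < v t := (ford_vQ_pos_iff hp hA t).mpr htA
  have hvε : v ε = 0 := by
    have := (ford_vQ_eq_iff hp hA ε 1).mpr (by rw [hε, map_one])
    rw [hv, this, AddValuation.map_one]
  have hvs : v s = 0 := by
    rcases hs with rfl | rfl
    · exact AddValuation.map_one v
    · rw [AddValuation.map_neg, AddValuation.map_one]
  have hs0 : s ≠ 0 := by
    rcases hs with rfl | rfl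
    · exact one_ne_zero
    · exact neg_ne_zero.mpr one_ne_zero
  have hτs : τ s = s := by
    rcases hs with rfl | rfl
    · exact map_one τ
    · rw [map_neg, map_one]
  obtain ⟨β, hβ⟩ := fuc_exists_ex v ht0
  have hβpos : 0 < β := by
    rw [hβ] at htpos
    exact_mod_cast htpos
  have hpq : (0 : ℚ) < (p : ℚ) := by exact_mod_cast hp.pos
  have hvδ : v (s * t ^ p) = (((p : ℚ) * β : ℚ) : WithTop ℚ) := by
    rw [v.map_mul, hvs, zero_add, fq_v_pow_coe v hβ]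
  have hm : 0 < (p : ℚ) * β := by positivity
  have hδ0 : s * t ^ p ≠ 0 := mul_ne_zero hs0 (pow_ne_zero _ ht0)
  have hδA : s * t ^ p ∈ A.nonunits := by
    rw [← ford_vQ_pos_iff hp hA, ← hv, hvδ]
    exact_mod_cast hm
  -- the unit under the square root
  have hvtk : (0 : WithTop ℚ) < v (s * t ^ k) := by
    rw [AddValuation.map_mul, hvs, zero_add, fq_v_pow_coe v hβ]
    have : (0 : ℚ) < (k : ℚ) * β := by
      have : (1 : ℚ) ≤ (k : ℚ) := by exact_mod_cast hk1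
      positivity
    exact_mod_cast this
  have hv1 : v (1 - s * t ^ k) = 0 := by
    have := AddValuation.map_sub_eq_of_lt_left (v := v) (x := (1 : K)) (y := s * t ^ k)
      (by rw [AddValuation.map_one]; exact hvtk)
    rw [this, AddValuation.map_one]
  have hvt2 : v (t ^ 2) = (((2 : ℚ) * β : ℚ) : WithTop ℚ) := by
    have := fq_v_pow_coe v hβ 2
    simpa using this
  have hvt2pos : (0 : WithTop ℚ) < v (t ^ 2) := by
    rw [hvt2]
    have : (0 : ℚ) < 2 * β := by positivity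
    exact_mod_cast this
  have hv2' : v (t ^ 2 - ε) = 0 := by
    have := AddValuation.map_sub_eq_of_lt_right (v := v) (x := t ^ 2) (y := ε)
      (by rw [hvε]; exact hvt2pos)
    rw [this, hvε]
  have hvu : v ((1 - s * t ^ k) * (t ^ 2 - ε)) = 0 := by
    rw [AddValuation.map_mul, hv1, hv2', add_zero]
  have hτu : τ ((1 - s * t ^ k) * (t ^ 2 - ε)) = (1 - s * t ^ k) * (t ^ 2 - ε) := by
    simp only [map_mul, map_sub, map_one, map_pow, ht, hτε, hτs]
  have hτw : τ w = w := fq_sqrt_fixed v τ hτI h2 hτu hvu hw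
  have hw0 : w ≠ 0 := by
    rintro rfl
    have : (1 - s * t ^ k) * (t ^ 2 - ε) = 0 := by rw [← hw]; ring
    rw [this, AddValuation.map_zero] at hvu
    exact WithTop.top_ne_zero hvu
  have h₀ : (fl_curve (s * t ^ p) ε).toAffine.Nonsingular (t ^ 2) (t ^ 2 * w) := by
    apply fq_nonsingular_of_ne_zero h2ne
    · have := fq_point_equation t s ε w k hw
      rw [← hk] at this
      exact this
    · exact mul_ne_zero (pow_ne_zero 2 ht0) hw0
  -- abbreviations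
  have hvδ' : 0 ≤ v (s * t ^ p) := by rw [hvδ]; exact_mod_cast hm.le
  have hvε' : 0 ≤ v ε := by rw [hvε]
  have h1 : (fl_curve (s * t ^ p) ε).a₁ = 0 := rfl
  have h3 : (fl_curve (s * t ^ p) ε).a₃ = 0 := rfl
  obtain ⟨ha2, ha4, ha6⟩ := s44w_leg_short (s * t ^ p) ε v hvδ' hvε'
  set φ := fab_sigma (τ : K →+* K) (fl_curve (s * t ^ p) ε) hW with hφ
  have hMoves : gch_Moves v (τ : K →+* K) p (fl_curve (s * t ^ p) ε) hW :=
    gch_mult_case v τ hτv hτI h2 hp3 s t ε hs ht hτε ht0 htpos hvε hW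
  have hQ'E : fl_InE1 v (φ R - R) := hMoves R hR
  have hQ'0 : φ R - R ≠ 0 := sub_ne_zero.mpr hmove
  have hQ'p : p • (φ R - R) = 0 := by
    rw [smul_sub, ← map_nsmul, hR, map_zero, sub_zero]
  have hfix : ∀ Q : (fl_curve (s * t ^ p) ε).toAffine.Point, p • Q = 0 → fl_InE1 v Q → φ Q = Q :=
    fun Q hQ hE => s44w_T_fixed A hp hp2 hA (s * t ^ p) ε hδA hδ0 hε τ hτv hW hτp hQ hE
  -- the point `P₀`
  have hφP₀ : φ (Point.some (t ^ 2) (t ^ 2 * w) h₀) = Point.some (t ^ 2) (t ^ 2 * w) h₀ :=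
    fab_sigma_eq_of_coords hW (by simp [ht]) (by simp [ht, hτw])
  have hvX₀ : v (t ^ 2) = ((2 * ((p : ℚ) * β) / p : ℚ) : WithTop ℚ) := by
    rw [hvt2]
    congr 1
    field_simp
  obtain ⟨j, hj⟩ := fu_exists_sub_inE0 v (s * t ^ p) ε ((p : ℚ) * β) hvδ hm hvε h2 p (by omega) R
    (Point.some (t ^ 2) (t ^ 2 * w) h₀) hR (t ^ 2) (t ^ 2 * w) h₀ rfl hvX₀
  have hφy₀ : φ (R - j • Point.some (t ^ 2) (t ^ 2 * w) h₀) =
      (R - j • Point.some (t ^ 2) (t ^ 2 * w) h₀) + (φ R - R) := by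
    rw [map_sub, map_zsmul, hφP₀]; abel
  -- the multiple in `E₁`
  have hp1 : ¬ p ∣ 1 := fun h => hp.one_lt.ne' (Nat.dvd_one.mp h)
  have hN : ∃ N : ℕ, 0 < N ∧ ¬ p ∣ N ∧
      fl_InE1 v (N • (R - j • Point.some (t ^ 2) (t ^ 2 * w) h₀)) := by
    rcases hj with h0 | ⟨x₀, y₀, h₀', e, hx₀⟩
    · exact ⟨1, one_pos, hp1, by rw [one_nsmul, h0]; exact Or.inl rfl⟩
    · rcases lt_or_eq_of_le hx₀ with hlt | heq
      · exact ⟨1, one_pos, hp1, by rw [one_nsmul, e]; exact Or.inr ⟨x₀, y₀, h₀', rfl, hlt⟩⟩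
      · have hx1 : A.valuation x₀ = 1 := by
          have := (ford_vQ_eq_iff hp hA x₀ 1).mp (by rw [← hv, heq, AddValuation.map_one])
          rw [this, map_one]
        obtain ⟨N, hN0, hpN, hE⟩ := s44w_E0_to_E1 A hp hp2 hA (s * t ^ p) ε hδA hε h₀' hx1
        exact ⟨N, hN0, hpN, by rw [e]; exact hE⟩
  obtain ⟨N, hN0, hpN, hYE⟩ := hN
  have hφY : φ (N • (R - j • Point.some (t ^ 2) (t ^ 2 * w) h₀)) =
      N • (R - j • Point.some (t ^ 2) (t ^ 2 * w) h₀) + N • (φ R - R) := by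
    rw [map_nsmul, hφy₀, smul_add]
  have hQ''p : p • (N • (φ R - R)) = 0 := by rw [smul_comm, hQ'p, smul_zero]
  have hQ''E : fl_InE1 v (N • (φ R - R)) := frd_E1_nsmul v h1 h3 ha2 ha4 ha6 hQ'E N
  have hQ''0 : N • (φ R - R) ≠ 0 := by
    intro h0
    haveI : Fact p.Prime := ⟨hp⟩
    have hord : addOrderOf (φ R - R) = p := addOrderOf_eq_prime hQ'p hQ'0
    have := addOrderOf_dvd_of_nsmul_eq_zero h0
    rw [hord] at this
    exact hpN this
  have hφQ'' : φ (N • (φ R - R)) = N • (φ R - R) := hfix _ hQ''p hQ''E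
  have hY0 : N • (R - j • Point.some (t ^ 2) (t ^ 2 * w) h₀) ≠ 0 := by
    intro h0
    rw [h0, map_zero, zero_add] at hφY
    exact hQ''0 hφY.symm
  obtain ⟨x, y, h, hY, hx⟩ : ∃ (x y : K) (h : (fl_curve (s * t ^ p) ε).toAffine.Nonsingular x y),
      N • (R - j • Point.some (t ^ 2) (t ^ 2 * w) h₀) = Point.some x y h ∧ v x < 0 := by
    rcases hYE with h0 | ⟨x, y, h, e, hx⟩
    · exact absurd h0 hY0
    · exact ⟨x, y, h, e, hx⟩
  obtain ⟨xQ, yQ, hQ, hQe, hxQ⟩ : ∃ (x y : K)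
      (h : (fl_curve (s * t ^ p) ε).toAffine.Nonsingular x y),
      N • (φ R - R) = Point.some x y h ∧ v x < 0 := by
    rcases hQ''E with h0 | ⟨x, y, h, e, hx⟩
    · exact absurd h0 hQ''0
    · exact ⟨x, y, h, e, hx⟩
  rw [hY, hQe, hφ, fab_sigma_some] at hφY
  rw [hQe, hφ, fab_sigma_some, Point.some.injEq] at hφQ''
  rw [hQe] at hQ''p
  have hxA : x ∉ A := by
    rw [← ford_vQ_nonneg_iff hp hA, not_le]; exact hx
  have hxQA : xQ ∉ A := by
    rw [← ford_vQ_nonneg_iff hp hA, not_le]; exact hxQ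
  obtain ⟨σ, hσ0, hσc, hσv, hσw⟩ := s44w_wild_local A hp hp2 hA (s * t ^ p) ε hδA hδ0 hε τ hτv hτI
    h hQ _ hxA hxQA hQ''p hφQ''.1 hφQ''.2 hφY
  -- the multiple `p • y`
  have hYE' : fl_InE1 v (Point.some x y h) := Or.inr ⟨x, y, h, rfl, hx⟩
  have hpY0 : p • Point.some x y h ≠ 0 := by
    intro h0
    have h1' := hfix _ h0 hYE'
    rw [hφ, fab_sigma_some] at h1'
    rw [h1'] at hφY
    exact Point.some_ne_zero _ (left_eq_add.mp hφY)
  have hpYE : fl_InE1 v (p • Point.some x y h) := frd_E1_nsmul v h1 h3 ha2 ha4 ha6 hYE' p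
  obtain ⟨x', y', h', hpY, hx'⟩ : ∃ (x' y' : K)
      (h' : (fl_curve (s * t ^ p) ε).toAffine.Nonsingular x' y'),
      p • Point.some x y h = Point.some x' y' h' ∧ v x' < 0 := by
    rcases hpYE with h0 | ⟨x', y', h', e, hx'⟩
    · exact absurd h0 hpY0
    · exact ⟨x', y', h', e, hx'⟩
  have hF1 := s44w_F1 A hp hp2 hA (s * t ^ p) ε hδA hδ0 hε h hσv hxA hσc hpY
  obtain ⟨r, hr0, hxr, hyr, htr⟩ := frd_val_point v h1 h3 ha2 ha4 ha6 h'.1 hx'
  have hr : -2 * r = -2 * (p : ℚ) * σ := fuc_ex_unique v hxr hF1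
  refine ⟨h₀, j, N, x, y, x', y', h, h', σ, hY, hpY, hσ0, hσc, hσv, hσw, ?_⟩
  rw [htr]
  congr 1
  linarith

end glob

end Fermat.Agent.Lib.S44
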