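/-
M-AT-P programme (S44), W-side [L6] (helper6, prefix `s44w_`), brick (B4): global odds and ends for
the assembly of `s44i_WSide`.

* `s44w_zeta_fixed`  : an automorphism whose `p`-th power fixes a `p`-th root of unity fixes it.
* `s44w_unit_val`    : `(1 − s t^k)(t² − ε)` is a unit.
* `s44w_mem_of_fixed`: Galois descent to an intermediate field of `ℚ̄/ℚ`.
* `s44w_F2 D = ℚ(√D)`: finite, normal, values in `(1/2)ℤ`.
* `s44w_ne_mul`      : `m / (2p) ∉ p · v(L^×)` when `p ∤ m`, `p² ∤ [L : ℚ]`.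
-/
import Fermat.Agent.Lib.S44.WWit4
import Fermat.Agent.Lib.S44.SoftCardL

set_option autoImplicit false
set_option linter.unusedSectionVars false

namespace Fermat.Agent.Lib.S44

open Polynomial Fermat.Agent.Lib.Frey

local notation "Kb" => AlgebraicClosure ℚ
local notation "Γℚ" => (AlgebraicClosure ℚ ≃ₐ[ℚ] AlgebraicClosure ℚ)

section zeta

/-- iterates of a monoid endomorphism on an "eigenvector". -/
theorem s44w_iterate_pow {M : Type*} [CommMonoid M] (f : M →* M) {ζ : M} {k : ℕ}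
    (hf : f ζ = ζ ^ k) (n : ℕ) : (⇑f)^[n] ζ = ζ ^ (k ^ n) := by
  induction n with
  | zero => simp
  | succ n ih =>
    rw [Function.iterate_succ_apply', ih, map_pow, hf, ← pow_mul, pow_succ, mul_comm]

/-- comparison of powers of a non-zero element of a field. -/
theorem s44w_pow_eq_pow_iff {F : Type*} [Field F] {ζ : F} (h0 : ζ ≠ 0) (a b : ℕ) :
    ζ ^ a = ζ ^ b ↔ a ≡ b [MOD orderOf ζ] := by
  have h := pow_eq_pow_iff_modEq (x := Units.mk0 ζ h0) (n := a) (m := b)
  rw [← orderOf_units, Units.val_mk0] at h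
  rw [← h, Units.ext_iff, Units.val_pow_eq_pow_val, Units.val_pow_eq_pow_val, Units.val_mk0]

/-- an automorphism whose `p`-th power fixes a `p`-th root of unity fixes it. -/
theorem s44w_zeta_fixed {F : Type*} [Field F] {p : ℕ} (hp : p.Prime) (τ : F ≃+* F) {ζ : F}
    (hζ : ζ ^ p = 1) (hτp : (⇑τ)^[p] ζ = ζ) : τ ζ = ζ := by
  by_cases h1 : ζ = 1
  · rw [h1, map_one]
  haveI : Fact p.Prime := ⟨hp⟩
  have hord : orderOf ζ = p := orderOf_eq_prime hζ h1
  have hζ0 : ζ ≠ 0 := by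
    rintro rfl
    rw [zero_pow hp.ne_zero] at hζ
    exact zero_ne_one hζ
  have hprim : IsPrimitiveRoot ζ p := hord ▸ IsPrimitiveRoot.orderOf ζ
  have hτζ : (τ ζ) ^ p = 1 := by rw [← map_pow, hζ, map_one]
  obtain ⟨k, -, hk⟩ := hprim.eq_pow_of_pow_eq_one hτζ
  have hiter := s44w_iterate_pow (τ : F →* F) (ζ := ζ) (k := k) (by simpa using hk.symm) p
  have hiter' : (⇑τ)^[p] ζ = ζ ^ (k ^ p) := hiter
  rw [hτp] at hiter'
  have hmod : k ^ p ≡ 1 [MOD p] := by
    have : ζ ^ (k ^ p) = ζ ^ 1 := by rw [pow_one]; exact hiter'.symm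
    rw [s44w_pow_eq_pow_iff hζ0, hord] at this
    exact this
  have hk1 : k ≡ 1 [MOD p] := by
    have h1 : ((k ^ p : ℕ) : ZMod p) = ((1 : ℕ) : ZMod p) :=
      (ZMod.natCast_eq_natCast_iff _ _ _).mpr hmod
    rw [Nat.cast_pow, ZMod.pow_card] at h1
    exact (ZMod.natCast_eq_natCast_iff _ _ _).mp h1
  rw [← hk]
  have : ζ ^ k = ζ ^ 1 := by
    rw [s44w_pow_eq_pow_iff hζ0, hord]; exact hk1
  rw [this, pow_one]

end zeta

section unit

variable {K : Type*} [Field K] (v : AddValuation K (WithTop ℚ))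

/-- `(1 − s t^k)(t² − ε)` is a unit. -/
theorem s44w_unit_val {s t ε : K} (hs : s = 1 ∨ s = -1) (htpos : 0 < v t) (ht0 : t ≠ 0)
    (hvε : v ε = 0) {k : ℕ} (hk1 : 1 ≤ k) : v ((1 - s * t ^ k) * (t ^ 2 - ε)) = 0 := by
  have hvs : v s = 0 := by
    rcases hs with rfl | rfl
    · exact AddValuation.map_one v
    · rw [AddValuation.map_neg, AddValuation.map_one]
  obtain ⟨β, hβ⟩ := fuc_exists_ex v ht0
  have hβpos : 0 < β := by
    rw [hβ] at htpos
    exact_mod_cast htpos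
  have hvtk : (0 : WithTop ℚ) < v (s * t ^ k) := by
    rw [AddValuation.map_mul, hvs, zero_add, fq_v_pow_coe v hβ]
    have : (0 : ℚ) < (k : ℚ) * β := by
      have : (1 : ℚ) ≤ (k : ℚ) := by exact_mod_cast hk1
      positivity
    exact_mod_cast this
  have hv1 : v (1 - s * t ^ k) = 0 := by
    have := AddValuation.map_sub_eq_of_lt_left (v := v) (x := (1 : K)) (y := s * t ^ k)
      (by rw [AddValuation.map_one]; exact hvtk)
    rw [this, AddValuation.map_one]
  have hvt2 : v (t ^ 2) = (((2 : ℚ) * β : ℚ) : WithTop ℚ) := by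
    have := fq_v_pow_coe v hβ 2
    simpa using this
  have hvt2pos : (0 : WithTop ℚ) < v (t ^ 2) := by
    rw [hvt2]
    have : (0 : ℚ) < 2 * β := by positivity
    exact_mod_cast this
  have hv2' : v (t ^ 2 - ε) = 0 := by
    have := AddValuation.map_sub_eq_of_lt_right (v := v) (x := t ^ 2) (y := ε)
      (by rw [hvε]; exact hvt2pos)
    rw [this, hvε]
  rw [AddValuation.map_mul, hv1, hv2', add_zero]

end unit

section descent

/-- Galois descent to an intermediate field of `ℚ̄ / ℚ`. -/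
theorem s44w_mem_of_fixed (L : IntermediateField ℚ Kb) (a : Kb)
    (h : ∀ σ : Γℚ, (∀ b ∈ L, σ b = b) → σ a = a) : a ∈ L := by
  rw [← InfiniteGalois.fixedField_fixingSubgroup L, IntermediateField.mem_fixedField_iff]
  intro σ hσ
  exact h σ (fun b hb => (IntermediateField.mem_fixingSubgroup_iff _ _).mp hσ b hb)

end descent

section F2

/-- the field `ℚ(√D) ⊂ ℚ̄`. -/
noncomputable def s44w_F2 (D : ℤ) : IntermediateField ℚ Kb :=
  IntermediateField.adjoin ℚ {w : Kb | w ^ 2 = (D : Kb)}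

theorem s44w_F2_sqrt_mem (D : ℤ) {w : Kb} (hw : w ^ 2 = (D : Kb)) : w ∈ s44w_F2 D :=
  IntermediateField.subset_adjoin _ _ hw

theorem s44w_F2_finite (D : ℤ) : FiniteDimensional ℚ (s44w_F2 D) := by
  have hfin : ({w : Kb | w ^ 2 = (D : Kb)}).Finite := by
    refine (Polynomial.nthRoots 2 ((D : ℤ) : Kb)).toFinset.finite_toSet.subset ?_
    intro w hw
    rw [Finset.mem_coe, Multiset.mem_toFinset, Polynomial.mem_nthRoots (by norm_num)]
    exact hw
  have : Finite {w : Kb | w ^ 2 = (D : Kb)} := hfin.to_subtype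
  exact IntermediateField.finiteDimensional_adjoin
    (fun x _ => (Algebra.IsIntegral.isIntegral (R := ℚ) x))

theorem s44w_F2_normal (D : ℤ) : Normal ℚ (s44w_F2 D) := by
  have h : @Normal ℚ (s44w_F2 D) _ _ (IntermediateField.algebra' _) := by
    rw [IntermediateField.normal_iff_forall_map_le']
    intro σ
    rw [s44w_F2, IntermediateField.adjoin_map, IntermediateField.adjoin_le_iff]
    rintro _ ⟨a, ha, rfl⟩
    apply IntermediateField.subset_adjoin
    change (σ a) ^ 2 = (D : Kb)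
    rw [← map_pow, ha, map_intCast]
  convert h
  exact Subsingleton.elim _ _

theorem s44w_F2_finrank_le (D : ℤ) : Module.finrank ℚ (s44w_F2 D) ≤ 2 := by
  obtain ⟨w₀, hw₀⟩ := IsAlgClosed.exists_pow_nat_eq ((D : ℤ) : Kb) (n := 2) (by norm_num)
  have hle : s44w_F2 D ≤ IntermediateField.adjoin ℚ {w₀} := by
    rw [s44w_F2, IntermediateField.adjoin_le_iff]
    intro w hw
    have hw' : w ^ 2 = (D : Kb) := hw
    have : (w - w₀) * (w + w₀) = 0 := by ring_nf; rw [hw', hw₀]; ring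
    rcases mul_eq_zero.mp this with h | h
    · rw [sub_eq_zero.mp h]
      exact IntermediateField.mem_adjoin_simple_self ℚ w₀
    · rw [eq_neg_of_add_eq_zero_left h]
      exact neg_mem (IntermediateField.mem_adjoin_simple_self ℚ w₀)
  have hint : IsIntegral ℚ w₀ := Algebra.IsIntegral.isIntegral (R := ℚ) w₀
  have hfr : Module.finrank ℚ (IntermediateField.adjoin ℚ {w₀}) ≤ 2 := by
    rw [IntermediateField.adjoin.finrank hint]
    have hq : (X ^ 2 - C (D : ℚ) : ℚ[X]) ≠ 0 := X_pow_sub_C_ne_zero (by norm_num) _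
    have hroot : Polynomial.aeval w₀ (X ^ 2 - C (D : ℚ) : ℚ[X]) = 0 := by
      simp [hw₀]
    have := natDegree_le_natDegree (minpoly.degree_le_of_ne_zero ℚ w₀ hq hroot)
    rwa [natDegree_X_pow_sub_C] at this
  haveI := IntermediateField.adjoin.finiteDimensional hint
  exact (IntermediateField.finrank_le_of_le_right hle).trans hfr

/-- the values of `ford_vQ` on `ℚ(√D)` lie in `(1/2) ℤ`. -/
theorem s44w_F2_val (D : ℤ) (p : ℕ) (hp : p.Prime) (A : ValuationSubring Kb)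
    (hA : A.LiesOverPrime p) {a : Kb} (ha : a ∈ s44w_F2 D) (ha0 : a ≠ 0) :
    ∃ k : ℤ, ford_vQ A hp hA a = ((((k : ℚ) / 2 : ℚ)) : WithTop ℚ) := by
  obtain ⟨e, he, hen, hval⟩ := s44s_valGroup' p hp A hA (s44w_F2 D) (s44w_F2_finite D)
    (s44w_F2_normal D)
  obtain ⟨k, hk⟩ := hval a ha ha0
  have he2 : e ≤ 2 := by
    have hpos : 0 < Module.finrank ℚ (s44w_F2 D) := by
      haveI := s44w_F2_finite D
      exact Module.finrank_pos
    exact (Nat.le_of_dvd hpos hen).trans (s44w_F2_finrank_le D)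
  have : e = 1 ∨ e = 2 := by omega
  rcases this with rfl | rfl
  · exact ⟨2 * k, by rw [hk]; congr 1; push_cast; ring⟩
  · exact ⟨k, by rw [hk]; congr 1⟩

end F2

section nemul

/-- `m / (2p) ∉ p · v(L^×)` when `p ∤ m` and `p² ∤ [L : ℚ]`. -/
theorem s44w_ne_mul (p : ℕ) (hp : p.Prime) (A : ValuationSubring Kb)
    (hA : A.LiesOverPrime p) (L : IntermediateField ℚ Kb) (hfin : FiniteDimensional ℚ ↥L)
    (hnorm : Normal ℚ ↥L) (hn : ¬ p ^ 2 ∣ Module.finrank ℚ ↥L) (m : ℤ) (hm : ¬ (p : ℤ) ∣ m) :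
    ∀ a ∈ L, ∀ s : ℚ, ford_vQ A hp hA a = (s : WithTop ℚ) →
      (m : ℚ) / (2 * (p : ℚ)) ≠ (p : ℚ) * s := by
  obtain ⟨e, he, hen, hval⟩ := s44s_valGroup' p hp A hA L hfin hnorm
  intro a haL s hs h
  by_cases ha0 : a = 0
  · subst ha0
    exact s44s_vQ_zero_ne p hp A hA _ hs
  obtain ⟨k, hk⟩ := hval a haL ha0
  rw [hk, WithTop.coe_eq_coe] at hs
  have hpq : (p : ℚ) ≠ 0 := by exact_mod_cast hp.ne_zero
  have heq : (e : ℚ) ≠ 0 := by exact_mod_cast he.ne'
  have h2 : m * (e : ℤ) = (p : ℤ) ^ 2 * (2 * k) := by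
    have : (m : ℚ) * (e : ℚ) = (p : ℚ) ^ 2 * (2 * (k : ℚ)) := by
      rw [← hs] at h
      field_simp at h
      linarith
    exact_mod_cast this
  have hpp : Prime (p : ℤ) := Nat.prime_iff_prime_int.mp hp
  have hcop : IsCoprime ((p : ℤ) ^ 2) m :=
    ((hpp.coprime_iff_not_dvd.mpr hm)).pow_left
  have h3 : (p : ℤ) ^ 2 ∣ (e : ℤ) := by
    apply hcop.dvd_of_dvd_mul_left
    rw [h2]
    exact Dvd.intro _ rfl
  have h4 : ((p ^ 2 : ℕ) : ℤ) ∣ (e : ℤ) := by
    push_cast
    exact h3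
  exact hn ((Int.natCast_dvd_natCast.mp h4).trans hen)

end nemul

end Fermat.Agent.Lib.S44
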