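/-
M-AT-P programme (S44), W-side [L6] (helper6, prefix `s44w_`): **the leaf `s44i_WSide`.**

For a Frey package with `p ∣ abc` and a place `𝔓 ∣ p` of `ℚ̄`: `L = ℚ(E[p], μ_p, √D)`,
`D = (1 − s z^(p−2))(z² − e)` (Legendre frame `Y² = X (X − s z^p)(X − e)`), is finite, normal, splits
`E[p]` and `μ_p`, and is sub-critically ramified at `𝔓`: `p² ∤ e(L)` (helper2's `SoftCardL`) and every
inertia element of order `p` on `L` has the wild witness `g = t(y)`, `y = N • (R − j • P₀) ∈ E₁`.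
-/
import Fermat.Agent.Lib.S44.WGlob
import Fermat.Agent.Lib.S44.WFrey

set_option autoImplicit false
set_option linter.unusedSectionVars false

namespace Fermat.Agent.Lib.S44

open WeierstrassCurve WeierstrassCurve.Affine WeierstrassCurve.Affine.Point
  Fermat.Agent.Lib.Frey Fermat.Agent.Lib.GC Fermat.Agent.Lib.S13

local notation "Qb" => AlgebraicClosure ℚ
local notation "Γℚ" => (AlgebraicClosure ℚ ≃ₐ[ℚ] AlgebraicClosure ℚ)

section frame

variable (P : FreyPackage) {s z e r : ℤ}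
  (Φ : (P.freyCurve⁄Qb).Point ≃+ (fl_curve ((s : Qb) * (z : Qb) ^ P.p) (e : Qb)).toAffine.Point)
  (hΦ : ∀ (X Y : Qb) (h : (P.freyCurve⁄Qb).Nonsingular X Y),
    ∃ h', Φ (Point.some X Y h) = Point.some (4 * X + (r : Qb)) (8 * Y + 4 * X) h')

include hΦ in
/-- the coordinates of the `p`-torsion points of the Legendre model lie in `L`. -/
theorem s44w_leg_coords_mem (D : ℤ) {x y : Qb}
    (h : (fl_curve ((s : Qb) * (z : Qb) ^ P.p) (e : Qb)).toAffine.Nonsingular x y)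
    (htor : P.p • Point.some x y h = 0) : x ∈ s44w_L P D ∧ y ∈ s44w_L P D := by
  have hΦQ : Φ (Φ.symm (Point.some x y h)) = Point.some x y h := AddEquiv.apply_symm_apply _ _
  have hQtor : P.p • Φ.symm (Point.some x y h) = 0 := by
    rw [← map_nsmul, htor, _root_.map_zero]
  rcases hQc : Φ.symm (Point.some x y h) with _ | ⟨X, Y, hXY⟩
  · exfalso
    rw [hQc] at hΦQ
    have h0 : Φ (0 : (P.freyCurve⁄Qb).Point) = Point.some x y h := hΦQ
    rw [_root_.map_zero] at h0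
    exact Point.some_ne_zero _ h0.symm
  · rw [hQc] at hΦQ hQtor
    obtain ⟨h', e'⟩ := hΦ X Y hXY
    rw [hΦQ, Point.some.injEq] at e'
    obtain ⟨hX, hY⟩ := s44w_coord_mem P D hXY hQtor
    have h4 : (4 : Qb) ∈ s44w_L P D := by
      have := intCast_mem (s44w_L P D) 4
      simpa using this
    have h8 : (8 : Qb) ∈ s44w_L P D := by
      have := intCast_mem (s44w_L P D) 8
      simpa using this
    constructor
    · rw [e'.1]
      exact add_mem (mul_mem h4 hX) (intCast_mem _ r)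
    · rw [e'.2]
      exact add_mem (mul_mem h8 hY) (mul_mem h4 hX)

include hΦ in
/-- if `τ` fixes the `p`-torsion points of the Legendre model and the square roots of `D`, and
`τ^p` is trivial on `L`, then `τ` is trivial on `L`. -/
theorem s44w_fix_of_fix_torsion (D : ℤ) (τ : Γℚ)
    (hW : (fl_curve ((s : Qb) * (z : Qb) ^ P.p) (e : Qb)).map
      ((τ : Qb ≃+* Qb) : Qb →+* Qb) = fl_curve ((s : Qb) * (z : Qb) ^ P.p) (e : Qb))
    (hall : ∀ R : (fl_curve ((s : Qb) * (z : Qb) ^ P.p) (e : Qb)).toAffine.Point, P.p • R = 0 →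
      fab_sigma ((τ : Qb ≃+* Qb) : Qb →+* Qb) _ hW R = R)
    (hτp : ∀ a ∈ s44w_L P D, (τ ^ P.p) a = a)
    (hw : ∀ w : Qb, w ^ 2 = (D : Qb) → τ w = w) :
    ∀ a ∈ s44w_L P D, τ a = a := by
  intro a ha
  unfold s44w_L at ha
  induction ha using IntermediateField.adjoin_induction with
  | mem x hx =>
    rcases hx with (⟨X, Y, h, htor, hx⟩ | hζ) | hw'
    · obtain ⟨h', e'⟩ := hΦ X Y h
      have hRtor : P.p • Φ (Point.some X Y h) = 0 := by
        rw [← map_nsmul, htor, _root_.map_zero]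
      have hfix := hall _ hRtor
      rw [e', fab_sigma_some, Point.some.injEq] at hfix
      obtain ⟨h1, h2⟩ := hfix
      have h1' : (4 : Qb) * τ X + (r : Qb) = 4 * X + (r : Qb) := by
        have : τ (4 * X + (r : Qb)) = 4 * X + (r : Qb) := h1
        rwa [map_add, map_mul, map_ofNat, map_intCast] at this
      have hX : τ X = X := by
        have h4 : (4 : Qb) ≠ 0 := by norm_num
        exact mul_left_cancel₀ h4 (add_right_cancel h1')
      have h2' : (8 : Qb) * τ Y + 4 * τ X = 8 * Y + 4 * X := by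
        have : τ (8 * Y + 4 * X) = 8 * Y + 4 * X := h2
        rwa [map_add, map_mul, map_mul, map_ofNat, map_ofNat] at this
      have hY : τ Y = Y := by
        have h8 : (8 : Qb) ≠ 0 := by norm_num
        rw [hX] at h2'
        exact mul_left_cancel₀ h8 (add_right_cancel h2')
      rcases hx with rfl | rfl
      · exact hX
      · exact hY
    · have hζ' : x ^ P.p = 1 := hζ
      have h1 := hτp x (s44w_zeta_mem P D hζ')
      rw [AlgEquiv.coe_pow] at h1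
      exact s44w_zeta_fixed P.pp (τ : Qb ≃+* Qb) hζ' h1
    · exact hw x hw'
  | algebraMap x => exact τ.commutes x
  | add x y _ _ hx hy => rw [map_add, hx, hy]
  | inv x _ hx => rw [map_inv₀, hx]
  | mul x y _ _ hx hy => rw [map_mul, hx, hy]

end frame

/-- **leaf [L6] `s44i_WSide`.** -/
theorem s44w_wside : s44i_WSide := by
  intro P hdvd A hA
  obtain ⟨s, z, e, r, Φ, hs, hz, hz0, he, hΦ⟩ := s44w_frey_leg P hdvd
  obtain ⟨hδA, hδ0, hε⟩ := s44w_frame_val P A hA hs hz hz0 he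
  have hp5 := P.hp5
  have hp2 : P.p ≠ 2 := by omega
  obtain ⟨k, hk⟩ : ∃ k, P.p = k + 2 := ⟨P.p - 2, by omega⟩
  have hk1 : 1 ≤ k := by omega
  set D : ℤ := (1 - s * z ^ k) * (z ^ 2 - e) with hD
  have hfin := s44w_L_finite P D
  have hnorm := s44w_L_normal P D
  have hnsq := s44s_not_sq_dvd_finrank_L P D
  refine ⟨s44w_L P D, hfin, hnorm, s44w_L_splits P D, (s44s_subCrit_val_L P D A hA).1, ?_⟩
  intro τ hτ hτp hτne
  obtain ⟨hτv, hτI⟩ := ford_vQ_inertia P.pp hA τ hτ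
  set v := ford_vQ A P.pp hA with hv
  -- casts and valuations
  have hsQ : (s : Qb) = 1 ∨ (s : Qb) = -1 := by
    rcases hs with rfl | rfl
    · left; simp
    · right; simp
  have hτz : (τ : Qb ≃+* Qb) (z : Qb) = z := map_intCast (τ : Qb ≃+* Qb) z
  have hτe : (τ : Qb ≃+* Qb) (e : Qb) = e := map_intCast (τ : Qb ≃+* Qb) e
  have hτs : (τ : Qb ≃+* Qb) (s : Qb) = s := map_intCast (τ : Qb ≃+* Qb) s
  have hzQ0 : (z : Qb) ≠ 0 := by exact_mod_cast hz0
  have hint : ∀ w : ℤ, 0 ≤ v (w : Qb) := ford_vQ_intCast_nonneg P.pp hA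
  have hvq : 0 < v (P.p : Qb) := by rw [hv, ford_vQ_q]; exact zero_lt_one
  have hvz : 0 < v (z : Qb) := fq_v_int_pos_of_dvd v hint hvq hz
  have hzA : (z : Qb) ∈ A.nonunits := (ford_vQ_pos_iff P.pp hA _).mp hvz
  have h2 : v 2 = 0 := fq_v_two v P.pp hint hvq hp2
  have hvε : v (e : Qb) = 0 := by
    have := (ford_vQ_eq_iff P.pp hA (e : Qb) 1).mpr (by rw [hε, map_one])
    rw [hv, this, AddValuation.map_one]
  have hW : (fl_curve ((s : Qb) * (z : Qb) ^ P.p) (e : Qb)).map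
      ((τ : Qb ≃+* Qb) : Qb →+* Qb) = fl_curve ((s : Qb) * (z : Qb) ^ P.p) (e : Qb) :=
    fab_fl_curve_map _ (by simp) (by simp)
  obtain ⟨w, hw⟩ := IsAlgClosed.exists_pow_nat_eq ((D : ℤ) : Qb) (n := 2) (by norm_num)
  have hDQ : ((D : ℤ) : Qb) = (1 - (s : Qb) * (z : Qb) ^ k) * ((z : Qb) ^ 2 - (e : Qb)) := by
    rw [hD]; push_cast; ring
  have hwD : w ^ 2 = (1 - (s : Qb) * (z : Qb) ^ k) * ((z : Qb) ^ 2 - (e : Qb)) := by
    rw [hw, hDQ]
  -- `τ` fixes the square roots of `D`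
  have hvu := s44w_unit_val v hsQ hvz hzQ0 hvε hk1
  have hτu : (τ : Qb ≃+* Qb) ((1 - (s : Qb) * (z : Qb) ^ k) * ((z : Qb) ^ 2 - (e : Qb))) =
      (1 - (s : Qb) * (z : Qb) ^ k) * ((z : Qb) ^ 2 - (e : Qb)) := by
    simp only [map_mul, map_sub, map_one, map_pow, hτz, hτe, hτs]
  have hsqrt : ∀ w' : Qb, w' ^ 2 = (D : Qb) → τ w' = w' := fun w' hw' =>
    fq_sqrt_fixed v (τ : Qb ≃+* Qb) hτI h2 hτu hvu (by rw [hw', hDQ])
  -- a moved torsion point
  obtain ⟨R, hR, hmove⟩ : ∃ R : (fl_curve ((s : Qb) * (z : Qb) ^ P.p) (e : Qb)).toAffine.Point,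
      P.p • R = 0 ∧ fab_sigma ((τ : Qb ≃+* Qb) : Qb →+* Qb) _ hW R ≠ R := by
    by_contra hcon
    push Not at hcon
    obtain ⟨a, haL, hane⟩ := hτne
    exact hane (s44w_fix_of_fix_torsion P Φ hΦ D τ hW hcon hτp hsqrt a haL)
  have hτp' : ∀ (x y : Qb)
      (h : (fl_curve ((s : Qb) * (z : Qb) ^ P.p) (e : Qb)).toAffine.Nonsingular x y),
      P.p • Point.some x y h = 0 →
      (⇑(τ : Qb ≃+* Qb))^[P.p] x = x ∧ (⇑(τ : Qb ≃+* Qb))^[P.p] y = y := by
    intro x y h htor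
    obtain ⟨hx, hy⟩ := s44w_leg_coords_mem P Φ hΦ D h htor
    have h1 := hτp x hx
    have h2 := hτp y hy
    rw [AlgEquiv.coe_pow] at h1 h2
    exact ⟨h1, h2⟩
  obtain ⟨h₀, j, N, x, y, x', y', h, h', σ, hY, hpY, hσ0, hσc, hσv, hσw, hσ'⟩ :=
    s44w_wild_global A P.pp hp2 hA (τ : Qb ≃+* Qb) hτv hτI (s : Qb) (z : Qb) (e : Qb) w hsQ hτz
      hτe hzQ0 hzA hε k hk hwD hW hτp' R hR hmove
  -- `g = x / y ∈ L`
  have hgL : x / y ∈ s44w_L P D := by
    apply s44w_mem_of_fixed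
    intro ρ hρ
    have hWρ : (fl_curve ((s : Qb) * (z : Qb) ^ P.p) (e : Qb)).map
        ((ρ : Qb ≃+* Qb) : Qb →+* Qb) = fl_curve ((s : Qb) * (z : Qb) ^ P.p) (e : Qb) :=
      fab_fl_curve_map _ (by simp) (by simp)
    have hρR : fab_sigma ((ρ : Qb ≃+* Qb) : Qb →+* Qb) _ hWρ R = R := by
      rcases R with _ | ⟨xR, yR, hRns⟩
      · exact _root_.map_zero _
      · obtain ⟨hx, hy⟩ := s44w_leg_coords_mem P Φ hΦ D hRns hR
        exact fab_sigma_eq_of_coords hWρ (hρ _ hx) (hρ _ hy)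
    have hρw : ρ w = w := hρ w (s44w_sqrt_mem P D hw)
    have hρP₀ : fab_sigma ((ρ : Qb ≃+* Qb) : Qb →+* Qb) _ hWρ
        (Point.some ((z : Qb) ^ 2) ((z : Qb) ^ 2 * w) h₀) =
        Point.some ((z : Qb) ^ 2) ((z : Qb) ^ 2 * w) h₀ :=
      fab_sigma_eq_of_coords hWρ (by simp) (by simp [hρw])
    have hρY : fab_sigma ((ρ : Qb ≃+* Qb) : Qb →+* Qb) _ hWρ (Point.some x y h) =
        Point.some x y h := by
      rw [← hY, map_nsmul, map_sub, map_zsmul, hρR, hρP₀]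
    rw [fab_sigma_some, Point.some.injEq] at hρY
    have h1 : ρ x = x := hρY.1
    have h2 : ρ y = y := hρY.2
    rw [map_div₀, h1, h2]
  -- `t (p • y) ∈ ℚ(√D)`
  have hg'F : x' / y' ∈ s44w_F2 D := by
    apply s44w_mem_of_fixed
    intro ρ hρ
    have hWρ : (fl_curve ((s : Qb) * (z : Qb) ^ P.p) (e : Qb)).map
        ((ρ : Qb ≃+* Qb) : Qb →+* Qb) = fl_curve ((s : Qb) * (z : Qb) ^ P.p) (e : Qb) :=
      fab_fl_curve_map _ (by simp) (by simp)
    have hρw : ρ w = w := hρ w (s44w_F2_sqrt_mem D hw)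
    have hρP₀ : fab_sigma ((ρ : Qb ≃+* Qb) : Qb →+* Qb) _ hWρ
        (Point.some ((z : Qb) ^ 2) ((z : Qb) ^ 2 * w) h₀) =
        Point.some ((z : Qb) ^ 2) ((z : Qb) ^ 2 * w) h₀ :=
      fab_sigma_eq_of_coords hWρ (by simp) (by simp [hρw])
    have hZ : Point.some x' y' h' =
        N • (-(P.p • (j • Point.some ((z : Qb) ^ 2) ((z : Qb) ^ 2 * w) h₀))) := by
      rw [← hpY, ← hY, smul_comm P.p N, smul_sub, hR, zero_sub]
    have hρZ : fab_sigma ((ρ : Qb ≃+* Qb) : Qb →+* Qb) _ hWρ (Point.some x' y' h') =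
        Point.some x' y' h' := by
      rw [hZ, map_nsmul, map_neg, map_nsmul, map_zsmul, hρP₀]
    rw [fab_sigma_some, Point.some.injEq] at hρZ
    have h1 : ρ x' = x' := hρZ.1
    have h2 : ρ y' = y' := hρZ.2
    rw [map_div₀, h1, h2]
  have hg'0 : x' / y' ≠ 0 := fuc_ne_zero_of_ex v hσ'
  obtain ⟨k', hk'⟩ := s44w_F2_val D P.p P.pp A hA hg'F hg'0
  have hpq : (5 : ℚ) ≤ (P.p : ℚ) := by exact_mod_cast hp5
  have hk'σ : (P.p : ℚ) * σ = (k' : ℚ) / 2 := fuc_ex_unique v hσ' hk'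
  have hσeq : σ = (k' : ℚ) / (2 * (P.p : ℚ)) := by
    field_simp
    linarith
  -- `k' ∈ {1, 2}`
  have hk'pos : 0 < k' := by
    have : (0 : ℚ) < (k' : ℚ) := by
      have : (0 : ℚ) < (P.p : ℚ) * σ := by positivity
      linarith
    exact_mod_cast this
  have hk'lt : k' < 3 := by
    have h1 : σ * ((P.p : ℚ) - 1) < 1 := by
      rw [lt_div_iff₀ (by linarith)] at hσc
      exact hσc
    have : (k' : ℚ) < 3 := by nlinarith
    exact_mod_cast this
  have hk'nd : ¬ (P.p : ℤ) ∣ k' := by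
    intro hd
    have := Int.le_of_dvd hk'pos hd
    have : (P.p : ℤ) < 3 := lt_of_le_of_lt this hk'lt
    omega
  refine ⟨x / y, hgL, σ, hσv, ?_, hσw⟩
  intro a ha s' hs'
  rw [hσeq]
  exact s44w_ne_mul P.p P.pp A hA (s44w_L P D) hfin hnorm hnsq k' hk'nd a ha s' hs'

end Fermat.Agent.Lib.S44
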