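/-
M-AT-P (S44), helper1: PRE-ASSEMBLY.  All closed leaves wired into `s44t_main`; the only open
input is `s44i_LiftOcc` (L4b = W4, helper3).
-/
import Fermat.Agent.Lib.S44.Top
import Fermat.Agent.Lib.S44.MFin
import Fermat.Agent.Lib.S44.SoftLeaves
import Fermat.Agent.Lib.S44.RKapOld
import Fermat.Agent.Lib.S44.SoftLiftTor
import Fermat.Agent.Lib.S44.WSide
import Fermat.Agent.Lib.S44.WNotTop
import Fermat.Agent.Lib.S44.REnd
import Fermat.Agent.Lib.S44.KStarWire

set_option autoImplicit false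

namespace Fermat.Agent.Lib.S44

open WeierstrassCurve WeierstrassCurve.Affine WeierstrassCurve.Affine.Point FreyPackage

theorem s44_asm (hocc : s44i_LiftOcc)
    (P : FreyPackage) {N : ℕ} (hcond : P.IsConductorLevel N) (hpN : P.p ∣ N)
    (hirr : GaloisRepIsIrreducible (K := AlgebraicClosure ℚ) ℚ P.freyCurve P.p)
    (hmod : P.ModularRepOfLevel N) :
    ∃ M : ℕ, M ∣ N ∧ ¬ P.p ∣ M ∧ P.ModularRepOfLevel M :=
  s44t_main s44s_eigExists s44r_old_leaf s44k_star
    (s44i_lift_of s44s_liftTor hocc) s44m_mfin s44w_wside s44w_wnottop_leaf s44s_fixedNe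
    s44r_endgame P hcond hpN hirr hmod

end Fermat.Agent.Lib.S44
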