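/-
M-AT-P, W4′ [AN] (helper5), part 0: the concrete form of the ring `B` of W4′.

`F = s29bp_FK K M = K(j(q^d) : d ∣ M) ⊆ K((q))` (`= s34m_F K M` as a type), `K` any field
containing `ℚ`.
* `s44r_winf K M` : the `q`-order valuation of `F` (restriction of the `X`-adic valuation of `K((q))`);
* `s44r_vinf K M : Place K F` : the place `∞` (the cusp `∞`), with `s44r_vinf_ord : ord_∞ y = y.order`;
* `s44r_B K M : Subalgebra K F` : the functions regular at every place `≠ ∞`.
-/
import Fermat.Agent.Lib.S29.BPPlace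
import Fermat.Agent.Lib.S29.KBridge
import Fermat.Agent.Lib.S34.XKron
import Fermat.Agent.Lib.S18.TSepJ

set_option autoImplicit false
set_option linter.unusedSectionVars false

namespace Fermat.Agent.Lib.S44

open AlgebraicCurve WithZero ModularCurve
open Fermat.Agent.Lib.FF Fermat.Agent.Lib.S29 Fermat.Agent.Lib.S18 Fermat.Agent.Lib.S34

noncomputable section

variable (K : Type*) [Field K] [Algebra ℚ K] (M : ℕ)

/-- The `q`-order valuation on `F_K(M)`. -/
def s44r_winf : Valuation ↥(s29bp_FK K M) ℤᵐ⁰ :=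
  (Valued.v : Valuation (LaurentSeries K) ℤᵐ⁰).comap (algebraMap ↥(s29bp_FK K M) (LaurentSeries K))

theorem s44r_winf_apply (y : ↥(s29bp_FK K M)) :
    s44r_winf K M y = Valued.v (y : LaurentSeries K) := rfl

theorem s44r_winf_le_exp_iff (y : ↥(s29bp_FK K M)) (D : ℤ) :
    s44r_winf K M y ≤ exp (-D) ↔ ∀ n : ℤ, n < D → (y : LaurentSeries K).coeff n = 0 := by
  rw [s44r_winf_apply]
  exact LaurentSeries.valuation_le_iff_coeff_lt_eq_zero K

theorem s44r_winf_le_one_iff (y : ↥(s29bp_FK K M)) :
    s44r_winf K M y ≤ 1 ↔ ∀ n : ℤ, n < 0 → (y : LaurentSeries K).coeff n = 0 := by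
  have := s44r_winf_le_exp_iff K M y 0
  rwa [neg_zero, exp_zero] at this

/-- The valuation of a nonzero element is `exp (-order)`. -/
theorem s44r_winf_eq_exp {y : ↥(s29bp_FK K M)} (hy : y ≠ 0) :
    s44r_winf K M y = exp (-(y : LaurentSeries K).order) := by
  have hy' : (y : LaurentSeries K) ≠ 0 := fun h => hy (Subtype.ext h)
  apply le_antisymm
  · rw [s44r_winf_le_exp_iff]
    intro n hn
    exact HahnSeries.coeff_eq_zero_of_lt_order hn
  · have h0 : s44r_winf K M y ≠ 0 := (Valuation.ne_zero_iff _).mpr hy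
    by_contra hlt
    rw [not_le] at hlt
    have h1 : s44r_winf K M y ≤ exp (-((y : LaurentSeries K).order + 1)) := by
      rw [← exp_log h0] at hlt ⊢
      rw [exp_lt_exp] at hlt
      rw [exp_le_exp]
      omega
    rw [s44r_winf_le_exp_iff] at h1
    exact hy' (HahnSeries.coeff_order_eq_zero.mp (h1 _ (by omega)))

theorem s44r_log_winf {y : ↥(s29bp_FK K M)} (hy : y ≠ 0) :
    -(log (s44r_winf K M y)) = (y : LaurentSeries K).order := by
  rw [s44r_winf_eq_exp K M hy, log_exp, neg_neg]

theorem s44r_order_jK : ((s29bp_jK K M : ↥(s29bp_FK K M)) : LaurentSeries K).order = -1 := by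
  rw [s29bp_jK_coe]
  show (coeffMap (algebraMap ℚ K) jq).order = -1
  rw [s34x_order_coeffMap]
  exact s18t_order_jqModC ℚ

theorem s44r_jK_ne_zero : s29bp_jK K M ≠ 0 := by
  intro h
  have := s44r_order_jK K M
  rw [h] at this
  simp at this

/-- **The place `∞`** of `F_K(M)`: the valuation ring of the `q`-order. -/
def s44r_vinf : Place K ↥(s29bp_FK K M) where
  toValuationSubring := (s44r_winf K M).valuationSubring
  algebraMap_mem' := fun c => by
    rw [Valuation.mem_valuationSubring_iff, s44r_winf_le_one_iff]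
    intro n hn
    show (algebraMap K (LaurentSeries K) c).coeff n = 0
    rw [algebraMap_laurentSeries_eq_single, HahnSeries.coeff_single_of_ne (by omega)]
  ne_top' := by
    intro htop
    have h : s29bp_jK K M ∈ (s44r_winf K M).valuationSubring := by
      rw [htop]; exact ValuationSubring.mem_top _
    rw [Valuation.mem_valuationSubring_iff, s44r_winf_eq_exp K M (s44r_jK_ne_zero K M),
      s44r_order_jK, ← exp_zero, exp_le_exp] at h
    omega
  isPrincipalIdealRing' := s29bp_isPrincipalIdealRing_valuationSubring _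

theorem s44r_mem_vinf_iff (y : ↥(s29bp_FK K M)) :
    y ∈ (s44r_vinf K M).toValuationSubring ↔ ∀ n : ℤ, n < 0 → (y : LaurentSeries K).coeff n = 0 := by
  rw [← s44r_winf_le_one_iff]
  exact Valuation.mem_valuationSubring_iff _ _

/-- **`ord_∞` is the `q`-order.** -/
theorem s44r_vinf_ord {y : ↥(s29bp_FK K M)} (hy : y ≠ 0) :
    (s44r_vinf K M).ord y = (y : LaurentSeries K).order := by
  obtain ⟨m, hm, hmf⟩ := ffs_exists_proportional (s44r_winf K M) (s44r_vinf K M) rfl
  have h1 := hmf (s29bp_jK K M)⁻¹ (inv_ne_zero (s44r_jK_ne_zero K M))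
  rw [map_inv₀, log_inv, neg_neg, Place.ord_inv] at h1
  have h2 := s44r_log_winf K M (s44r_jK_ne_zero K M)
  rw [s44r_order_jK] at h2
  have hm1 : m = 1 := by
    have hd : m ∣ 1 := ⟨-(s44r_vinf K M).ord (s29bp_jK K M), by linarith⟩
    exact Int.eq_one_of_dvd_one hm.le hd
  have := hmf y hy
  rw [hm1, one_mul, s44r_log_winf K M hy] at this
  exact this.symm

/-- **The ring `B` of W4′**: the functions of `F_K(M)` regular at every place `≠ ∞`. -/
def s44r_B : Subalgebra K ↥(s29bp_FK K M) where
  carrier := {U | ∀ v : Place K ↥(s29bp_FK K M), v ≠ s44r_vinf K M → U ∈ v.toValuationSubring}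
  mul_mem' := fun ha hb v hv => v.toValuationSubring.mul_mem _ _ (ha v hv) (hb v hv)
  add_mem' := fun ha hb v hv => v.toValuationSubring.add_mem _ _ (ha v hv) (hb v hv)
  algebraMap_mem' := fun c v _ => v.algebraMap_mem' c

theorem s44r_mem_B_iff (U : ↥(s29bp_FK K M)) :
    U ∈ s44r_B K M ↔
      ∀ v : Place K ↥(s29bp_FK K M), v ≠ s44r_vinf K M → U ∈ v.toValuationSubring := Iff.rfl

end

end Fermat.Agent.Lib.S44
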