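/-
M-AT-P programme (S44), wall W4′ = [L4b], brick **[GR-DESC]** (owner: helper4; helper1 #2222/#2227), part 1:
**(D1) the place `∞` does not split in the constant field extension `F_{L₀}(M) ⊂ F_{ℚ̄}(M)`.**

* `s44gd_incl_mem_vinf_iff` : `incl x₀ ∈ O_{∞, ℚ̄} ↔ x₀ ∈ O_{∞, L₀}`;
* `s44gd_restrict_vinf`     : the restriction of `∞_{ℚ̄}` to `F_{L₀}` is `∞_{L₀}`;
* `s44gd_eq_vinf_of_restrict` : **a place of `F_{ℚ̄}(M)` whose restriction to `F_{L₀}(M)` is `∞_{L₀}` IS `∞_{ℚ̄}`**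
  (`y = Σ cᵢ · incl (Λᵢ y)` for `L₀`-linear functionals `λᵢ : ℚ̄ → L₀` applied coefficientwise — helper1's
  coefficient descent `s33d_lam_mem` — so that `ord_q y ≥ 0 ⇒ ord_q (Λᵢ y) ≥ 0`);
* `s44gd_incl_mem_B`        : **(D1)** `U₀ ∈ B_{L₀}(M) ⇒ incl U₀ ∈ B_{ℚ̄}(M)` (regular off `∞`).
-/
import Fermat.Agent.Lib.S44.RAnDefs
import Fermat.Agent.Lib.S33.DescField
import Fermat.Agent.Lib.S18.QPlace

set_option autoImplicit false
set_option linter.unusedSectionVars false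
set_option linter.style.haveILetI false

noncomputable section

namespace Fermat.Agent.Lib.S44

open ModularCurve AlgebraicCurve HahnSeries Fermat.Agent.Lib.FF Fermat.Agent.Lib.S18
  Fermat.Agent.Lib.S29 Fermat.Agent.Lib.S33

local notation "Kb" => AlgebraicClosure ℚ

section D1

variable (M : ℕ) (L₀ : IntermediateField ℚ Kb)

/-- `incl x₀` is regular at `∞_{ℚ̄}` iff `x₀` is regular at `∞_{L₀}`. -/
theorem s44gd_incl_mem_vinf_iff (x₀ : ↥(s29bp_FK ↥L₀ M)) :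
    s18q_incl M L₀ x₀ ∈ (s44r_vinf Kb M).toValuationSubring ↔
      x₀ ∈ (s44r_vinf ↥L₀ M).toValuationSubring := by
  rw [s44r_mem_vinf_iff, s44r_mem_vinf_iff]
  refine forall_congr' fun n => forall_congr' fun _ => ?_
  rw [s18q_incl_coe, coeffMap_coeff]
  exact map_eq_zero_iff _ (algebraMap ↥L₀ Kb).injective

/-- the restriction of `∞_{ℚ̄}` to `F_{L₀}(M)` is `∞_{L₀}`. -/
theorem s44gd_restrict_vinf : s18q_restrict M L₀ (s44r_vinf Kb M) = s44r_vinf ↥L₀ M := by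
  apply Place.ext
  ext x₀
  exact s44gd_incl_mem_vinf_iff M L₀ x₀

/-- a finite-dimensional `L₀`-subspace of `ℚ̄` containing a given number field. -/
theorem s44gd_exists_dual (L₂ : IntermediateField ℚ Kb) [FiniteDimensional ℚ ↥L₂] :
    ∃ (n : ℕ) (c : Fin n → Kb) (lam : Fin n → (Kb →ₗ[↥L₀] ↥L₀)),
      ∀ w ∈ L₂, w = ∑ i, algebraMap ↥L₀ Kb (lam i w) * c i := by
  classical
  set b := Module.finBasis ℚ ↥L₂ with hb
  set W : Submodule ↥L₀ Kb :=
    Submodule.span ↥L₀ (Set.range (fun i => ((b i : ↥L₂) : Kb))) with hW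
  haveI : FiniteDimensional ↥L₀ ↥W := FiniteDimensional.span_of_finite ↥L₀ (Set.finite_range _)
  have hLW : ∀ w ∈ L₂, w ∈ W := by
    intro w hw
    have h1 := b.sum_repr ⟨w, hw⟩
    have h2 : w = ∑ i, (algebraMap ℚ ↥L₀ (b.repr ⟨w, hw⟩ i)) • ((b i : ↥L₂) : Kb) := by
      have h3 := congrArg (fun z : ↥L₂ => (z : Kb)) h1
      simp only [AddSubmonoidClass.coe_finsetSum] at h3
      refine h3.symm.trans (Finset.sum_congr rfl fun i _ => ?_)
      rw [IntermediateField.coe_smul, algebraMap_smul]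
    rw [h2]
    exact Submodule.sum_mem _ fun i _ =>
      Submodule.smul_mem _ _ (Submodule.subset_span ⟨i, rfl⟩)
  obtain ⟨g, hg⟩ := LinearMap.exists_leftInverse_of_injective W.subtype
    (LinearMap.ker_eq_bot.mpr W.injective_subtype)
  set bW := Module.finBasis ↥L₀ ↥W with hbW
  refine ⟨_, fun i => ((bW i : ↥W) : Kb), fun i => (bW.coord i).comp g, ?_⟩
  intro w hw
  have hgw : g w = ⟨w, hLW w hw⟩ := LinearMap.congr_fun hg ⟨w, hLW w hw⟩
  have h1 := bW.sum_repr ⟨w, hLW w hw⟩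
  have h3 := congrArg (fun z : ↥W => (z : Kb)) h1
  simp only [AddSubmonoidClass.coe_finsetSum] at h3
  refine h3.symm.trans (Finset.sum_congr rfl fun i _ => ?_)
  rw [LinearMap.comp_apply, hgw, Module.Basis.coord_apply, Submodule.coe_smul, Algebra.smul_def]

variable [FiniteDimensional ℚ ↥L₀]

/-- **the place `∞` does not split**: a place of `F_{ℚ̄}(M)` whose restriction to `F_{L₀}(M)` is `∞_{L₀}` is
`∞_{ℚ̄}`. -/
theorem s44gd_eq_vinf_of_restrict (Q : Place Kb ↥(s29bp_FK Kb M))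
    (hQ : s18q_restrict M L₀ Q = s44r_vinf ↥L₀ M) : Q = s44r_vinf Kb M := by
  classical
  haveI : Algebra.IsAlgebraic ↥L₀ Kb := s18q_isAlgebraic_over L₀
  symm
  apply ff_place_eq_of_le
  intro y hy
  rw [s44r_mem_vinf_iff] at hy
  -- a number field of definition of `y`, containing `L₀`
  obtain ⟨L₁, hL₁, hy₁⟩ := s18q_exists_field M {y}
  haveI := hL₁
  haveI : FiniteDimensional ℚ ↥(L₁ ⊔ L₀) := IntermediateField.finiteDimensional_sup L₁ L₀
  obtain ⟨y₂, rfl⟩ := s18q_incl_range_mono M (le_sup_left : L₁ ≤ L₁ ⊔ L₀)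
    (hy₁ y (Finset.mem_singleton_self y))
  obtain ⟨n, c, lam, hdual⟩ := s44gd_exists_dual L₀ (L₁ ⊔ L₀)
  set Y : ↥(s29bp_FK Kb M) := s18q_incl M (L₁ ⊔ L₀) y₂ with hY
  -- the components `Λᵢ y ∈ F_{L₀}`
  set f : Fin n → ↥(s29bp_FK ↥L₀ M) := fun i =>
    ⟨s33d_lam (lam i) (Y : LaurentSeries Kb), s33d_lam_mem (lam i) Y.2⟩ with hf
  have hcoef : ∀ m : ℤ, (Y : LaurentSeries Kb).coeff m ∈ L₁ ⊔ L₀ := by
    intro m
    rw [hY, s18q_incl_coe, coeffMap_coeff]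
    exact ((y₂ : LaurentSeries ↥(L₁ ⊔ L₀)).coeff m).2
  have hdec : Y = ∑ i, algebraMap Kb ↥(s29bp_FK Kb M) (c i) * s18q_incl M L₀ (f i) := by
    apply Subtype.ext
    ext m
    rw [AddSubmonoidClass.coe_finsetSum, HahnSeries.coeff_sum]
    refine (hdual _ (hcoef m)).trans (Finset.sum_congr rfl fun i _ => ?_)
    rw [MulMemClass.coe_mul, s18q_incl_coe]
    have h1 : ((algebraMap Kb ↥(s29bp_FK Kb M) (c i) : ↥(s29bp_FK Kb M)) : LaurentSeries Kb) =
        HahnSeries.C (c i) := by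
      show algebraMap Kb (LaurentSeries Kb) (c i) = _
      rw [algebraMap_laurentSeries_eq_single]
      rfl
    rw [h1, HahnSeries.C_mul_eq_smul, HahnSeries.coeff_smul, coeffMap_coeff, smul_eq_mul, mul_comm]
    rfl
  rw [hdec]
  refine Subring.sum_mem _ fun i _ => Q.toValuationSubring.mul_mem _ _ (Q.algebraMap_mem' _) ?_
  rw [← s18q_mem_restrict, hQ, s44r_mem_vinf_iff]
  intro m hm
  show (s33d_lam (lam i) (Y : LaurentSeries Kb)).coeff m = 0
  rw [s33d_lam_coeff, hy m hm, map_zero]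

/-- **(D1)**: a function of `F_{L₀}(M)` regular off `∞` stays regular off `∞` over `ℚ̄`. -/
theorem s44gd_incl_mem_B {U₀ : ↥(s29bp_FK ↥L₀ M)} (hU : U₀ ∈ s44r_B ↥L₀ M) :
    s18q_incl M L₀ U₀ ∈ s44r_B Kb M := by
  intro Q hQ
  rw [← s18q_mem_restrict]
  exact hU _ fun h => hQ (s44gd_eq_vinf_of_restrict M L₀ Q h)

end D1

end Fermat.Agent.Lib.S44
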