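/-
M-AT-P programme (S44), wall W4′ = [L4b], brick **[GR-DESC]** (owner: helper4; helper1 #2222/#2227), part 2:
**descent of good reduction from the top level `(ℚ̄, P)` to a finite level `(L₀, A₀ = P ∩ L₀)`.**

Hypotheses-as-data = the two top-level statements of [GR] (helper9's `GTop.lean`, #2227 [GR-B2]):
* (a) `s44gd_HypA M P` : `∀ U ∈ B_{ℚ̄}(M), ∃ c ∈ P, c ≠ 0, c • U ∈ P((q))`;
* (b) `s44gd_HypB M P` : `y ∈ P((q))` the `q`-expansion of `U ∈ B_{ℚ̄}(M)` ⇒ `coeffMap (residue P) y ∈ F_κ̄(M)`,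
  regular at every place `≠ ∞̃`.

Results (`A₀ := s18q_A0 P L₀`, `L₀` a number field):
* `s44gd_exists_mul_mem` : (D2) for `0 ≠ c ∈ P` there is `0 ≠ a ∈ A₀` with `a ∈ c P`;
* `s44gd_g1`  : **(g1)** bounded denominators of `B_{L₀}(M)` w.r.t. `A₀`;
* `s44gd_g2'` : **(g2′)** (helper3 #2214): for `y₀ ∈ A₀((q))` the `q`-expansion of `U₀ ∈ B_{L₀}(M)`,
                `coeffMap (resMap ∘ residue A₀) y₀ ∈ F_κ̄(M)` is regular at every place `≠ ∞̃`;
* `s44gd_g2`  : **(g2)** if moreover the polar part of `y₀` vanishes mod `𝔪₀`, all coefficients of positive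
                index vanish mod `𝔪₀` (D3: regular everywhere on `F_κ̄(M)` ⇒ constant).
-/
import Fermat.Agent.Lib.S44.GDesc1
import Fermat.Agent.Lib.S44.HResP
import Fermat.Agent.Lib.S37.RTop

set_option autoImplicit false
set_option linter.unusedSectionVars false
set_option linter.style.haveILetI false

noncomputable section

namespace Fermat.Agent.Lib.S44

open ModularCurve AlgebraicCurve HahnSeries Polynomial Fermat.Agent.Lib.FF Fermat.Agent.Lib.S18
  Fermat.Agent.Lib.S29 Fermat.Agent.Lib.S33 Fermat.Agent.Lib.S37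

local notation "Kb" => AlgebraicClosure ℚ

/-! ### The two top-level hypotheses -/

/-- **(a)** bounded denominators at the top level. -/
def s44gd_HypA (M : ℕ) (P : ValuationSubring Kb) : Prop :=
  ∀ U ∈ s44r_B Kb M, ∃ c : ↥P, c ≠ 0 ∧ ∃ y : LaurentSeries ↥P,
    coeffMap P.subtype y = ((c : ↥P) : Kb) • ((U : ↥(s29bp_FK Kb M)) : LaurentSeries Kb)

/-- **(b)** good reduction of `B` at the top level. -/
def s44gd_HypB (M : ℕ) [NeZero M] (P : ValuationSubring Kb)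
    [IsAlgClosed (IsLocalRing.ResidueField ↥P)] : Prop :=
  ∀ (y : LaurentSeries ↥P) (U : ↥(s29bp_FK Kb M)),
    coeffMap P.subtype y = ((U : ↥(s29bp_FK Kb M)) : LaurentSeries Kb) → U ∈ s44r_B Kb M →
    ∃ h : coeffMap (IsLocalRing.residue ↥P) y ∈
        modularFunctionFieldFullC (IsLocalRing.ResidueField ↥P) M,
      ∀ Q : Place (IsLocalRing.ResidueField ↥P)
          ↥(modularFunctionFieldFullC (IsLocalRing.ResidueField ↥P) M),
        Q ≠ s44h_fbarInf (IsLocalRing.ResidueField ↥P) M →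
        (⟨_, h⟩ : ↥(modularFunctionFieldFullC (IsLocalRing.ResidueField ↥P) M)) ∈
          Q.toValuationSubring

section Desc

variable (M : ℕ) (P : ValuationSubring Kb) (L₀ : IntermediateField ℚ Kb)

/-- **(D2)** every non-zero `c ∈ P` divides (in `P`) a non-zero element of `A₀ = P ∩ L₀`. -/
theorem s44gd_exists_mul_mem (c : Kb) (hcP : c ∈ P) (hc0 : c ≠ 0) :
    ∃ a : ↥(s18q_A0 P L₀), a ≠ 0 ∧ ∃ d ∈ P, (((a : ↥(s18q_A0 P L₀)) : ↥L₀) : Kb) = c * d := by
  classical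
  haveI : Algebra.IsAlgebraic ↥L₀ Kb := s18q_isAlgebraic_over L₀
  have hint : IsIntegral ↥L₀ c := Algebra.IsIntegral.isIntegral c
  set m := minpoly ↥L₀ c with hm
  have hm0 : m.coeff 0 ≠ 0 := minpoly.coeff_zero_ne_zero hint hc0
  -- clear the denominators of the coefficients of `m`
  obtain ⟨b, hb⟩ := IsLocalization.exist_integer_multiples (nonZeroDivisors ↥(s18q_A0 P L₀))
    (Finset.range (m.natDegree + 1)) (fun i => m.coeff i)
  have hb0 : (b : ↥(s18q_A0 P L₀)) ≠ 0 := nonZeroDivisors.coe_ne_zero b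
  have hbP : ∀ i : ℕ, ((((b : ↥(s18q_A0 P L₀)) : ↥L₀) * m.coeff i : ↥L₀) : Kb) ∈ P := by
    intro i
    by_cases hi : i ∈ Finset.range (m.natDegree + 1)
    · obtain ⟨r, hr⟩ := hb i hi
      have : (((b : ↥(s18q_A0 P L₀)) : ↥L₀) * m.coeff i : ↥L₀) = ((r : ↥(s18q_A0 P L₀)) : ↥L₀) := by
        show _ = algebraMap ↥(s18q_A0 P L₀) ↥L₀ r
        rw [hr, Algebra.smul_def]
        rfl
      rw [this]
      exact r.2
    · have : m.coeff i = 0 := Polynomial.coeff_eq_zero_of_natDegree_lt (by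
        rw [Finset.mem_range, not_lt] at hi
        omega)
      rw [this, mul_zero]
      exact P.zero_mem
  obtain ⟨r₀, hr₀⟩ := hb 0 (Finset.mem_range.mpr (Nat.succ_pos _))
  have hr₀' : ((r₀ : ↥(s18q_A0 P L₀)) : ↥L₀) = ((b : ↥(s18q_A0 P L₀)) : ↥L₀) * m.coeff 0 := by
    show algebraMap ↥(s18q_A0 P L₀) ↥L₀ r₀ = _
    rw [hr₀, Algebra.smul_def]
    rfl
  refine ⟨r₀, ?_, ?_⟩
  · intro h0
    rw [h0, ZeroMemClass.coe_zero] at hr₀'
    rcases mul_eq_zero.mp hr₀'.symm with h | h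
    · exact hb0 (Subtype.ext h)
    · exact hm0 h
  · -- `0 = m(c) = (divX m)(c) · c + m₀`
    have hroot : aeval c m = 0 := minpoly.aeval ↥L₀ c
    have hsplit : aeval c (divX m) * c + algebraMap ↥L₀ Kb (m.coeff 0) = 0 := by
      have := congrArg (aeval c) (divX_mul_X_add m)
      rw [map_add, map_mul, aeval_X, aeval_C, hroot] at this
      exact this
    refine ⟨-(algebraMap ↥L₀ Kb ((b : ↥(s18q_A0 P L₀)) : ↥L₀) * aeval c (divX m)), P.neg_mem _ ?_, ?_⟩
    · rw [aeval_eq_sum_range, Finset.mul_sum]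
      refine Subring.sum_mem _ fun i _ => ?_
      rw [Algebra.smul_def, ← mul_assoc, ← map_mul, coeff_divX]
      exact P.mul_mem _ _ (hbP (i + 1)) (P.pow_mem hcP i)
    · rw [hr₀']
      have h1 : algebraMap ↥L₀ Kb (m.coeff 0) = -(aeval c (divX m) * c) := by
        linear_combination hsplit
      show algebraMap ↥L₀ Kb (((b : ↥(s18q_A0 P L₀)) : ↥L₀) * m.coeff 0) = _
      rw [map_mul, h1]
      ring

variable [FiniteDimensional ℚ ↥L₀]

/-- **(g1)** bounded denominators at the level `(L₀, A₀)`. -/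
theorem s44gd_g1 (ha : s44gd_HypA M P) {U₀ : ↥(s29bp_FK ↥L₀ M)} (hU : U₀ ∈ s44r_B ↥L₀ M) :
    ∃ c : ↥(s18q_A0 P L₀), c ≠ 0 ∧ ∃ y : LaurentSeries ↥(s18q_A0 P L₀),
      coeffMap (algebraMap ↥(s18q_A0 P L₀) ↥L₀) y =
        algebraMap ↥(s18q_A0 P L₀) ↥L₀ c • ((U₀ : ↥(s29bp_FK ↥L₀ M)) : LaurentSeries ↥L₀) := by
  obtain ⟨c, hc0, Y, hY⟩ := ha _ (s44gd_incl_mem_B M L₀ hU)
  have hc0' : ((c : ↥P) : Kb) ≠ 0 := fun h => hc0 (Subtype.ext h)
  obtain ⟨a, ha0, d, hdP, had⟩ := s44gd_exists_mul_mem P L₀ (c : Kb) c.2 hc0'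
  refine ⟨a, ha0, ?_⟩
  obtain ⟨y, hy, -⟩ := s18q_exists_lift (algebraMap ↥L₀ Kb) P
    (HahnSeries.C (⟨d, hdP⟩ : ↥P) * Y)
    (((a : ↥(s18q_A0 P L₀)) : ↥L₀) • ((U₀ : ↥(s29bp_FK ↥L₀ M)) : LaurentSeries ↥L₀)) (by
      ext n
      rw [map_mul, coeffMap_coeff, HahnSeries.coeff_smul, hY]
      have h1 : coeffMap P.subtype (HahnSeries.C (⟨d, hdP⟩ : ↥P)) = HahnSeries.C d := by
        rw [HahnSeries.C_apply, coeffMap_single]
        rfl
      have had' : algebraMap ↥L₀ Kb ((a : ↥(s18q_A0 P L₀)) : ↥L₀) = (c : Kb) * d := had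
      rw [h1, HahnSeries.C_mul_eq_smul, HahnSeries.coeff_smul, HahnSeries.coeff_smul,
        s18q_incl_coe, coeffMap_coeff, smul_eq_mul, smul_eq_mul, smul_eq_mul, map_mul, had']
      ring)
  exact ⟨y, hy⟩

variable [NeZero M] [IsAlgClosed (IsLocalRing.ResidueField ↥P)]

/-- the two residue maps `A₀ → κ̄` agree. -/
theorem s44gd_residue_comp :
    (IsLocalRing.residue ↥P).comp (s18q_A0_hom P L₀) =
      (s37r_resMap P L₀).comp (IsLocalRing.residue ↥(s18q_A0 P L₀)) :=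
  RingHom.ext fun _ => rfl

/-- **(g2′)** good reduction of `B_{L₀}(M)` (consumer shape of helper3 #2214). -/
theorem s44gd_g2' (hb : s44gd_HypB M P) (y₀ : LaurentSeries ↥(s18q_A0 P L₀))
    {U₀ : ↥(s29bp_FK ↥L₀ M)} (hU : U₀ ∈ s44r_B ↥L₀ M)
    (hy : coeffMap (algebraMap ↥(s18q_A0 P L₀) ↥L₀) y₀ =
      ((U₀ : ↥(s29bp_FK ↥L₀ M)) : LaurentSeries ↥L₀)) :
    ∃ h : coeffMap ((s37r_resMap P L₀).comp (IsLocalRing.residue ↥(s18q_A0 P L₀))) y₀ ∈
        modularFunctionFieldFullC (IsLocalRing.ResidueField ↥P) M,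
      ∀ Q : Place (IsLocalRing.ResidueField ↥P)
          ↥(modularFunctionFieldFullC (IsLocalRing.ResidueField ↥P) M),
        Q ≠ s44h_fbarInf (IsLocalRing.ResidueField ↥P) M →
        (⟨_, h⟩ : ↥(modularFunctionFieldFullC (IsLocalRing.ResidueField ↥P) M)) ∈
          Q.toValuationSubring := by
  have h1 : coeffMap P.subtype (coeffMap (s18q_A0_hom P L₀) y₀) =
      ((s18q_incl M L₀ U₀ : ↥(s29bp_FK Kb M)) : LaurentSeries Kb) := by
    rw [s18q_incl_coe, ← hy, coeffMap_coeffMap, coeffMap_coeffMap]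
    exact coeffMap_congr (RingHom.ext fun _ => rfl) y₀
  have h2 := hb (coeffMap (s18q_A0_hom P L₀) y₀) (s18q_incl M L₀ U₀) h1
    (s44gd_incl_mem_B M L₀ hU)
  have h3 : coeffMap (IsLocalRing.residue ↥P) (coeffMap (s18q_A0_hom P L₀) y₀) =
      coeffMap ((s37r_resMap P L₀).comp (IsLocalRing.residue ↥(s18q_A0 P L₀))) y₀ := by
    rw [coeffMap_coeffMap, s44gd_residue_comp]
  rw [h3] at h2
  exact h2

/-- **(g2)** an integral member of `B_{L₀}(M)` whose reduction has no pole reduces to a constant. -/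
theorem s44gd_g2 (p : ℕ) [Fact p.Prime] [CharP (IsLocalRing.ResidueField ↥P) p]
    (hb : s44gd_HypB M P) (y₀ : LaurentSeries ↥(s18q_A0 P L₀))
    {U₀ : ↥(s29bp_FK ↥L₀ M)} (hU : U₀ ∈ s44r_B ↥L₀ M)
    (hy : coeffMap (algebraMap ↥(s18q_A0 P L₀) ↥L₀) y₀ =
      ((U₀ : ↥(s29bp_FK ↥L₀ M)) : LaurentSeries ↥L₀))
    (hneg : ∀ i : ℤ, i < 0 → IsLocalRing.residue ↥(s18q_A0 P L₀) (y₀.coeff i) = 0) :
    ∀ i : ℤ, 0 < i → IsLocalRing.residue ↥(s18q_A0 P L₀) (y₀.coeff i) = 0 := by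
  obtain ⟨h, hreg⟩ := s44gd_g2' M P L₀ hb y₀ hU hy
  set ybar : ↥(modularFunctionFieldFullC (IsLocalRing.ResidueField ↥P) M) := ⟨_, h⟩ with hybar
  -- regular at `∞̃` too
  have hinf : ybar ∈ (s44h_fbarInf (IsLocalRing.ResidueField ↥P) M).toValuationSubring := by
    rw [s44h_mem_fbarInf]
    intro k hk
    show (coeffMap ((s37r_resMap P L₀).comp (IsLocalRing.residue ↥(s18q_A0 P L₀))) y₀).coeff k = 0
    rw [coeffMap_coeff, RingHom.comp_apply, hneg k hk, map_zero]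
  have hall : ∀ Q : Place (IsLocalRing.ResidueField ↥P)
      ↥(modularFunctionFieldFullC (IsLocalRing.ResidueField ↥P) M),
      ybar ∈ Q.toValuationSubring := by
    intro Q
    by_cases hQ : Q = s44h_fbarInf (IsLocalRing.ResidueField ↥P) M
    · rw [hQ]; exact hinf
    · exact hreg Q hQ
  -- hence constant
  have hL : ybar ∈ riemannRochSpace
      (0 : Divisor (IsLocalRing.ResidueField ↥P)
        ↥(modularFunctionFieldFullC (IsLocalRing.ResidueField ↥P) M)) := by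
    rw [mem_riemannRochSpace_iff]
    intro v
    by_cases h0 : ybar = 0
    · exact Or.inl h0
    · right
      rw [Finsupp.coe_zero, Pi.zero_apply, neg_zero]
      exact (ff_mem_iff_ord_nonneg v h0).mp (hall v)
  rw [s44rq_fbar_L_zero (IsLocalRing.ResidueField ↥P) M p, Submodule.mem_span_singleton] at hL
  obtain ⟨c, hc⟩ := hL
  intro i hi
  have h4 : ((ybar : ↥(modularFunctionFieldFullC (IsLocalRing.ResidueField ↥P) M)) :
      LaurentSeries (IsLocalRing.ResidueField ↥P)).coeff i = 0 := by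
    rw [← hc, IntermediateField.coe_smul, IntermediateField.coe_one, Algebra.smul_def, mul_one,
      algebraMap_laurentSeries_eq_single, HahnSeries.coeff_single_of_ne hi.ne']
  have h5 : (coeffMap ((s37r_resMap P L₀).comp (IsLocalRing.residue ↥(s18q_A0 P L₀))) y₀).coeff i =
      0 := h4
  rw [coeffMap_coeff, RingHom.comp_apply] at h5
  exact (map_eq_zero_iff _ (s37r_resMap P L₀).injective).mp h5

end Desc

end Fermat.Agent.Lib.S44
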