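/-
M-AT-P, W4′ [AN] (helper5), part 1: the normalised derivative `D = (2πi)⁻¹ d/dτ` and `q`-expansions.

* `s44r_D_eq_cusp` : for a nice `g` (holomorphic, `1`-periodic, bounded at `i∞`),
  `D g τ = q · G'(q)` with `G` the cusp function, `q = exp(2πiτ)`;
* `s44r_nice_D`, `s44r_qExpansion_D` : `D g` is nice (it even vanishes at `i∞`) and its `q`-expansion
  is `∑ m a_m q^m`;
* `s44r_isLaurent_D` : `ffb_IsLaurent f x → ffb_IsLaurent (D f) (θ x)`, `θ = q d/dq = ffd_theta`.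
-/
import Fermat.Agent.Lib.FF.Bridge
import Fermat.Agent.Lib.FF.LaurentDeriv
import Fermat.Prelude.Def_ModularCurve_LaurentCoeff

set_option autoImplicit false
set_option linter.unusedSectionVars false

namespace Fermat.Agent.Lib.S44

open UpperHalfPlane hiding I
open Filter Function Complex Derivative
open Fermat.Agent.Lib.FF
open scoped Manifold Topology Real

noncomputable section

local notation "𝕢" => Periodic.qParam

/-- derivative of `q = exp(2πiz/h)`. -/
theorem s44r_hasDerivAt_qParam (h : ℝ) (z : ℂ) :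
    HasDerivAt (𝕢 h) (2 * π * I / h * 𝕢 h z) z := by
  have h1 : HasDerivAt (fun w : ℂ => 2 * π * I * w / h) (2 * π * I / h) z := by
    have := ((hasDerivAt_id z).const_mul (2 * π * I)).div_const (h : ℂ)
    simpa using this
  have h2 : HasDerivAt (fun w : ℂ => cexp (2 * π * I * w / h))
      (cexp (2 * π * I * z / h) * (2 * π * I / h)) z := h1.cexp
  have e : cexp (2 * π * I * z / h) * (2 * π * I / h) = 2 * π * I / h * 𝕢 h z := by
    rw [mul_comm]; rfl
  rw [e] at h2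
  exact h2

/-- `g ∘ ofComplex` agrees near `τ ∈ ℍ` with `G ∘ q`. -/
theorem s44r_eventuallyEq_cusp {g : ℍ → ℂ} (hper : Periodic (g ∘ ofComplex) 1) (τ : ℍ) :
    (g ∘ ofComplex) =ᶠ[𝓝 (τ : ℂ)] (cuspFunction 1 g) ∘ (𝕢 1) := by
  filter_upwards [isOpen_upperHalfPlaneSet.mem_nhds τ.im_pos] with w hw
  have := eq_cuspFunction (h := 1) ⟨w, hw⟩ one_ne_zero hper
  simp only [comp_apply, ofComplex_apply_of_im_pos hw]
  exact this.symm

/-- **`D g = q · G'(q)`.** -/
theorem s44r_D_eq_cusp {g : ℍ → ℂ} (hg : ffb_Nice g) (τ : ℍ) :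
    D g τ = 𝕢 1 τ * deriv (cuspFunction 1 g) (𝕢 1 τ) := by
  have hq : ‖𝕢 1 (τ : ℂ)‖ < 1 := Periodic.norm_qParam_lt_one one_pos τ.im_pos
  have hG : DifferentiableAt ℂ (cuspFunction 1 g) (𝕢 1 τ) :=
    differentiableAt_cuspFunction one_pos hg.per hg.hol hg.bdd hq
  have h1 : HasDerivAt ((cuspFunction 1 g) ∘ (𝕢 1))
      (deriv (cuspFunction 1 g) (𝕢 1 τ) * (2 * π * I / (1 : ℝ) * 𝕢 1 (τ : ℂ))) (τ : ℂ) :=
    hG.hasDerivAt.comp (τ : ℂ) (s44r_hasDerivAt_qParam 1 τ)
  have h2 := (h1.congr_of_eventuallyEq (s44r_eventuallyEq_cusp hg.per τ)).deriv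
  unfold normalizedDerivOfComplex
  rw [h2]
  have hpi : (2 * (π : ℂ) * I) ≠ 0 := by
    simp [Real.pi_ne_zero]
  simp only [ofReal_one, div_one]
  field_simp

/-- `D g → 0` at `i∞`. -/
theorem s44r_D_isZeroAtImInfty {g : ℍ → ℂ} (hg : ffb_Nice g) : IsZeroAtImInfty (D g) := by
  have hA : AnalyticAt ℂ (cuspFunction 1 g) 0 := hg.analyticAt
  have hc : ContinuousAt (fun q : ℂ => q * deriv (cuspFunction 1 g) q) 0 :=
    continuousAt_id.mul hA.deriv.continuousAt
  have h0 : Tendsto (fun q : ℂ => q * deriv (cuspFunction 1 g) q) (𝓝 0) (𝓝 0) := by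
    have := hc.tendsto
    simpa using this
  have h1 := h0.comp (qParam_tendsto_atImInfty (h := 1) one_pos)
  show Tendsto (D g) atImInfty (𝓝 0)
  refine h1.congr fun τ => ?_
  simp only [comp_apply]
  exact (s44r_D_eq_cusp hg τ).symm

theorem s44r_periodic_deriv {F : ℂ → ℂ} (hF : Periodic F 1) : Periodic (deriv F) 1 := by
  intro w
  have h1 : (fun x => F (x + 1)) = F := funext hF
  have h2 := deriv_comp_add_const F (1 : ℂ) w
  rw [h1] at h2
  exact h2.symm

/-- `D g` is nice. -/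
theorem s44r_nice_D {g : ℍ → ℂ} (hg : ffb_Nice g) : ffb_Nice (D g) where
  hol := normalizedDerivOfComplex_mdifferentiable hg.hol
  per := by
    intro w
    simp only [comp_apply]
    by_cases hw : 0 < w.im
    · have hw1 : 0 < (w + 1).im := by simpa using hw
      rw [ofComplex_apply_of_im_pos hw, ofComplex_apply_of_im_pos hw1]
      unfold normalizedDerivOfComplex
      show (2 * π * I)⁻¹ * deriv (g ∘ ofComplex) (w + 1) = (2 * π * I)⁻¹ * deriv (g ∘ ofComplex) w
      rw [s44r_periodic_deriv hg.per w]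
    · have hw1 : ¬ 0 < (w + 1).im := by simpa using hw
      rw [ofComplex_apply_of_im_nonpos (not_lt.mp hw),
        ofComplex_apply_of_im_nonpos (not_lt.mp hw1)]
  bdd := (s44r_D_isZeroAtImInfty hg).isBoundedAtImInfty

/-- the cusp function of `D g` is `q · G'(q)` on the unit disc. -/
theorem s44r_cuspFunction_D {g : ℍ → ℂ} (hg : ffb_Nice g) {q : ℂ} (hq : ‖q‖ < 1) :
    cuspFunction 1 (D g) q = q * deriv (cuspFunction 1 g) q := by
  rcases eq_or_ne q 0 with rfl | hq0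
  · rw [zero_mul, cuspFunction_apply_zero one_pos (s44r_nice_D hg).analyticAt (s44r_nice_D hg).per]
    exact (s44r_D_isZeroAtImInfty hg).valueAtInfty_eq_zero
  · have him : 0 < (Periodic.invQParam 1 q).im :=
      Periodic.im_invQParam_pos_of_norm_lt_one one_pos hq hq0
    have h1 := eq_cuspFunction (h := 1) ⟨_, him⟩ one_ne_zero (s44r_nice_D hg).per
    have h2 : 𝕢 1 ((⟨_, him⟩ : ℍ) : ℂ) = q := Periodic.qParam_right_inv one_ne_zero hq0
    rw [h2] at h1
    rw [h1, s44r_D_eq_cusp hg, h2]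

/-- Taylor coefficients of a derivative. -/
theorem s44r_taylor_deriv_coeff (G : ℂ → ℂ) (m : ℕ) :
    (ffb_taylor (deriv G)).coeff m = ((m : ℂ) + 1) * (ffb_taylor G).coeff (m + 1) := by
  rw [ffb_taylor_coeff, ffb_taylor_coeff, ← iteratedDeriv_succ', Nat.factorial_succ]
  have h1 : ((m.factorial : ℂ)) ≠ 0 := by exact_mod_cast Nat.factorial_ne_zero m
  have h2 : ((m : ℂ) + 1) ≠ 0 := by exact_mod_cast Nat.succ_ne_zero m
  push_cast
  field_simp

/-- **The `q`-expansion of `D g` is `∑ m a_m q^m`.** -/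
theorem s44r_qExpansion_D {g : ℍ → ℂ} (hg : ffb_Nice g) :
    qExpansion 1 (D g) = PowerSeries.mk fun m => (m : ℂ) * (qExpansion 1 g).coeff m := by
  have hA : AnalyticAt ℂ (cuspFunction 1 g) 0 := hg.analyticAt
  have hev : cuspFunction 1 (D g) =ᶠ[𝓝 0] (fun q : ℂ => q) * deriv (cuspFunction 1 g) := by
    filter_upwards [Metric.ball_mem_nhds (0 : ℂ) one_pos] with q hq
    rw [Pi.mul_apply]
    exact s44r_cuspFunction_D hg (by simpa using hq)
  rw [ffb_qExpansion_eq_taylor, ffb_taylor_congr hev, ffb_taylor_mul (f := fun q : ℂ => q) analyticAt_id hA.deriv,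
    ffb_taylor_id]
  ext m
  rw [PowerSeries.coeff_mk]
  rcases m with _ | m
  · simp
  · rw [PowerSeries.coeff_succ_X_mul, s44r_taylor_deriv_coeff, ffb_qExpansion_eq_taylor]
    push_cast
    ring

/-! ### Laurent expansions -/

/-- `θ` on power series, inside Laurent series. -/
theorem s44r_theta_ofPowerSeries (P : PowerSeries ℂ) :
    ffd_theta (HahnSeries.ofPowerSeries ℤ ℂ P) =
      HahnSeries.ofPowerSeries ℤ ℂ (PowerSeries.mk fun m => (m : ℂ) * P.coeff m) := by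
  ext n
  rw [ffd_theta_coeff]
  by_cases hn : 0 ≤ n
  · obtain ⟨m, rfl⟩ := Int.eq_ofNat_of_zero_le hn
    rw [HahnSeries.ofPowerSeries_apply_coeff, HahnSeries.ofPowerSeries_apply_coeff,
      PowerSeries.coeff_mk]
    simp
  · have h1 : ∀ Q : PowerSeries ℂ, (HahnSeries.ofPowerSeries ℤ ℂ Q).coeff n = 0 := by
      intro Q
      rw [HahnSeries.ofPowerSeries_apply]
      apply HahnSeries.embDomain_of_notMem_range
      rintro ⟨m, hm⟩
      apply hn
      rw [← hm]
      simp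
    rw [h1, h1, mul_zero]

theorem s44r_theta_single (n : ℤ) (c : ℂ) :
    ffd_theta (HahnSeries.single n c : LaurentSeries ℂ) = HahnSeries.single n ((n : ℂ) * c) := by
  ext m
  rw [ffd_theta_coeff]
  by_cases hm : m = n
  · subst hm; simp
  · rw [HahnSeries.coeff_single_of_ne hm, HahnSeries.coeff_single_of_ne hm, mul_zero]

/-- `D q = q`. -/
theorem s44r_D_Q : D ffb_Q = ffb_Q := by
  funext τ
  have h1 : (ffb_Q ∘ ofComplex) =ᶠ[𝓝 (τ : ℂ)] 𝕢 1 := by
    filter_upwards [isOpen_upperHalfPlaneSet.mem_nhds τ.im_pos] with w hw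
    simp only [comp_apply, ofComplex_apply_of_im_pos hw]
    rfl
  have h2 := ((s44r_hasDerivAt_qParam 1 (τ : ℂ)).congr_of_eventuallyEq h1).deriv
  unfold normalizedDerivOfComplex
  rw [h2]
  have hpi : (2 * (π : ℂ) * I) ≠ 0 := by
    simp [Real.pi_ne_zero]
  simp only [ofReal_one, div_one]
  show (2 * π * I)⁻¹ * (2 * π * I * 𝕢 1 (τ : ℂ)) = 𝕢 1 (τ : ℂ)
  field_simp

theorem s44r_mdiff_Q : MDiff ffb_Q := ffb_nice_Q.hol

/-- `D (q^M) = M q^M`. -/
theorem s44r_D_Q_pow (M : ℕ) : D (ffb_Q ^ M) = (M : ℂ) • ffb_Q ^ M := by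
  rw [normalizedDerivOfComplex_pow _ _ s44r_mdiff_Q, s44r_D_Q]
  funext τ
  rcases M with _ | M
  · simp
  · simp only [Pi.mul_apply, Pi.pow_apply, Pi.smul_apply, smul_eq_mul, Nat.add_sub_cancel,
      Pi.natCast_apply]
    rw [pow_succ]
    ring

/-- **Laurent expansion of the derivative.** -/
theorem s44r_isLaurent_D {f : ℍ → ℂ} {x : LaurentSeries ℂ} (hmd : MDiff f)
    (hf : ffb_IsLaurent f x) : ffb_IsLaurent (D f) (ffd_theta x) := by
  obtain ⟨M, h1, rfl⟩ := hf
  have hQM : MDiff (ffb_Q ^ M) := (ffb_nice_Q.pow M).hol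
  have e1 : ffb_Q ^ M * D f = D (ffb_Q ^ M * f) + (-(M : ℂ)) • (ffb_Q ^ M * f) := by
    rw [normalizedDerivOfComplex_mul _ _ hQM hmd, s44r_D_Q_pow]
    funext τ
    simp only [Pi.add_apply, Pi.mul_apply, Pi.smul_apply, smul_eq_mul, Pi.pow_apply]
    ring
  have hc : ffb_Nice ((-(M : ℂ)) • (ffb_Q ^ M * f)) := by
    have := (ffb_Nice.const (-(M : ℂ))).mul h1
    have e : (fun _ : ℍ => (-(M : ℂ))) * (ffb_Q ^ M * f) = (-(M : ℂ)) • (ffb_Q ^ M * f) := by
      funext τ; simp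
    rwa [e] at this
  refine ⟨M, e1 ▸ (s44r_nice_D h1).add hc, ?_⟩
  rw [e1, (s44r_nice_D h1).qExpansion_add hc, s44r_qExpansion_D h1,
    qExpansion_smul h1.analyticAt, ffd_theta_mul, s44r_theta_single, s44r_theta_ofPowerSeries,
    map_add]
  set P := qExpansion 1 (ffb_Q ^ M * f) with hP
  have e2 : HahnSeries.ofPowerSeries ℤ ℂ ((-(M : ℂ)) • P) =
      HahnSeries.C (-(M : ℂ)) * HahnSeries.ofPowerSeries ℤ ℂ P := by
    rw [← HahnSeries.ofPowerSeries_C, ← map_mul]
    congr 1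
    ext m
    rw [PowerSeries.coeff_smul, PowerSeries.coeff_C_mul]
    rfl
  have e3 : (HahnSeries.single (-(M : ℤ)) (((-(M : ℤ) : ℤ) : ℂ) * 1) : LaurentSeries ℂ) =
      HahnSeries.C (-(M : ℂ)) * HahnSeries.single (-(M : ℤ)) 1 := by
    rw [HahnSeries.C_apply, HahnSeries.single_mul_single, zero_add]
    congr 1
    push_cast
    ring
  rw [e2, e3]
  ring

/-- `coeffMap` commutes with `θ`. -/
theorem s44r_coeffMap_theta {K : Type*} [Field K] (ι : K →+* ℂ) (x : LaurentSeries K) :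
    ModularCurve.coeffMap ι (ffd_theta x) = ffd_theta (ModularCurve.coeffMap ι x) := by
  ext n
  simp [ModularCurve.coeffMap]

end

end Fermat.Agent.Lib.S44
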