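/-
M-AT-P, W4′ [AN] (helper5), part 2 (Mathlib only): meromorphic orders of the "Wronskian"
`wr c d = c' d - c d' = d² (c/d)'`.

* `s44r_mero_deriv_nonneg` : `0 ≤ ord g → 0 ≤ ord g'`;
* `s44r_wr_eventuallyEq` : `wr c d = d² (c/d)'` on a punctured neighbourhood;
* `s44r_order_wr_ge` : `ord d ≤ ord c → ord a + 2 ord d ≤ ord (a · wr c d)`;
* `s44r_order_wr_eq` : `ord c ≠ ord d → ord (a · wr c d) = ord a + ord c + ord d - 1`;
* `s44r_analyticOrderAt_le_iff` : comparison of analytic and meromorphic orders.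
-/
import Mathlib

set_option autoImplicit false

namespace Fermat.Agent.Lib.S44

open Filter Topology

noncomputable section

/-- `0 ≤ ord g → 0 ≤ ord g'`. -/
theorem s44r_mero_deriv_nonneg {g : ℂ → ℂ} {x : ℂ} (hg : MeromorphicAt g x)
    (h : 0 ≤ meromorphicOrderAt g x) : 0 ≤ meromorphicOrderAt (deriv g) x := by
  obtain ⟨G, hG, hgG⟩ := hg.meromorphicOrderAt_nonneg_iff.mp h
  rw [meromorphicOrderAt_congr hgG.nhdsNE_deriv]
  exact hG.deriv.meromorphicOrderAt_nonneg

/-- The Wronskian-type expression `c' d - c d'`. -/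
def s44r_wr (c d : ℂ → ℂ) : ℂ → ℂ := deriv c * d - c * deriv d

theorem s44r_wr_apply (c d : ℂ → ℂ) (z : ℂ) :
    s44r_wr c d z = deriv c z * d z - c z * deriv d z := rfl

/-- `wr c d = d² (c/d)'` on a punctured neighbourhood. -/
theorem s44r_wr_eventuallyEq {c d : ℂ → ℂ} {x : ℂ} (hc : MeromorphicAt c x)
    (hd : MeromorphicAt d x) (hd0 : meromorphicOrderAt d x ≠ ⊤) :
    s44r_wr c d =ᶠ[𝓝[≠] x] d * d * deriv (c / d) := by
  filter_upwards [hc.eventually_analyticAt, hd.eventually_analyticAt,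
    (meromorphicOrderAt_ne_top_iff_eventually_ne_zero hd).mp hd0] with z hcz hdz hdz0
  rw [Pi.mul_apply, Pi.mul_apply, deriv_div hcz.differentiableAt hdz.differentiableAt hdz0,
    s44r_wr_apply]
  field_simp

theorem s44r_meromorphicAt_wr {c d : ℂ → ℂ} {x : ℂ} (hc : MeromorphicAt c x)
    (hd : MeromorphicAt d x) : MeromorphicAt (s44r_wr c d) x :=
  (hc.deriv.mul hd).sub (hc.mul hd.deriv)

/-- `ord (a · wr c d) = ord a + 2 ord d + ord (c/d)'`. -/
theorem s44r_order_wr {a c d : ℂ → ℂ} {x : ℂ} (ha : MeromorphicAt a x) (hc : MeromorphicAt c x)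
    (hd : MeromorphicAt d x) (hd0 : meromorphicOrderAt d x ≠ ⊤) :
    meromorphicOrderAt (a * s44r_wr c d) x =
      meromorphicOrderAt a x + (meromorphicOrderAt d x + meromorphicOrderAt d x +
        meromorphicOrderAt (deriv (c / d)) x) := by
  have h1 : a * s44r_wr c d =ᶠ[𝓝[≠] x] a * (d * d * deriv (c / d)) := by
    filter_upwards [s44r_wr_eventuallyEq hc hd hd0] with z hz
    rw [Pi.mul_apply, Pi.mul_apply, hz]
  rw [meromorphicOrderAt_congr h1, meromorphicOrderAt_mul ha ((hd.mul hd).mul (hc.div hd).deriv),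
    meromorphicOrderAt_mul (hd.mul hd) (hc.div hd).deriv, meromorphicOrderAt_mul hd hd]

/-- **Regular case**: `ord d ≤ ord c → ord a + 2 ord d ≤ ord (a · wr c d)`. -/
theorem s44r_order_wr_ge {a c d : ℂ → ℂ} {x : ℂ} {nd : ℤ} (ha : MeromorphicAt a x)
    (hc : MeromorphicAt c x) (hd : MeromorphicAt d x)
    (hnd : meromorphicOrderAt d x = (nd : WithTop ℤ))
    (hcd : (nd : WithTop ℤ) ≤ meromorphicOrderAt c x) :
    meromorphicOrderAt a x + ((2 * nd : ℤ) : WithTop ℤ) ≤
      meromorphicOrderAt (a * s44r_wr c d) x := by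
  have hd0 : meromorphicOrderAt d x ≠ ⊤ := by rw [hnd]; exact WithTop.coe_ne_top
  have h0 : 0 ≤ meromorphicOrderAt (c / d) x := by
    rw [meromorphicOrderAt_div hc hd, hnd]
    cases hn : meromorphicOrderAt c x with
    | top => simp
    | coe nc =>
      rw [hn] at hcd
      have : nd ≤ nc := by exact_mod_cast hcd
      have e : ((nc : ℤ) : WithTop ℤ) - ((nd : ℤ) : WithTop ℤ) = ((nc - nd : ℤ) : WithTop ℤ) := by
        norm_cast
      rw [e]
      have : (0 : ℤ) ≤ nc - nd := by omega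
      exact_mod_cast this
  have h1 := s44r_mero_deriv_nonneg (hc.div hd) h0
  rw [s44r_order_wr ha hc hd hd0, hnd]
  have e : ((2 * nd : ℤ) : WithTop ℤ) = (nd : WithTop ℤ) + (nd : WithTop ℤ) := by
    rw [two_mul]; norm_cast
  rw [e]
  have h2 : (nd : WithTop ℤ) + (nd : WithTop ℤ) ≤
      (nd : WithTop ℤ) + (nd : WithTop ℤ) + meromorphicOrderAt (deriv (c / d)) x :=
    le_add_of_nonneg_right h1
  exact add_le_add_right h2 _

/-- **Polar case**: `ord c ≠ ord d → ord (a · wr c d) = ord a + (ord c + ord d - 1)`. -/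
theorem s44r_order_wr_eq {a c d : ℂ → ℂ} {x : ℂ} {nc nd : ℤ} (ha : MeromorphicAt a x)
    (hc : MeromorphicAt c x) (hd : MeromorphicAt d x)
    (hnc : meromorphicOrderAt c x = (nc : WithTop ℤ))
    (hnd : meromorphicOrderAt d x = (nd : WithTop ℤ)) (hne : nc ≠ nd) :
    meromorphicOrderAt (a * s44r_wr c d) x =
      meromorphicOrderAt a x + ((nc + nd - 1 : ℤ) : WithTop ℤ) := by
  have hd0 : meromorphicOrderAt d x ≠ ⊤ := by rw [hnd]; exact WithTop.coe_ne_top
  have h0 : meromorphicOrderAt (c / d) x = ((nc - nd : ℤ) : WithTop ℤ) := by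
    rw [meromorphicOrderAt_div hc hd, hnc, hnd]
    norm_cast
  have hn0 : ((nc - nd : ℤ) : ℂ) ≠ 0 := by
    have : nc - nd ≠ 0 := sub_ne_zero.mpr hne
    exact_mod_cast this
  have h1 := meromorphicOrderAt_deriv_eq_sub_one hn0 h0
  rw [s44r_order_wr ha hc hd hd0, hnd, h1]
  congr 1
  have : ((nc + nd - 1 : ℤ) : WithTop ℤ) = ((nd + nd + (nc - nd - 1) : ℤ) : WithTop ℤ) := by
    congr 1; ring
  rw [this]
  norm_cast

/-- Comparison of analytic orders through meromorphic orders. -/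
theorem s44r_analyticOrderAt_le_iff {f g : ℂ → ℂ} {x : ℂ} (hf : AnalyticAt ℂ f x)
    (hg : AnalyticAt ℂ g x) :
    analyticOrderAt f x ≤ analyticOrderAt g x ↔
      meromorphicOrderAt f x ≤ meromorphicOrderAt g x := by
  rw [hf.meromorphicOrderAt_eq, hg.meromorphicOrderAt_eq]
  cases hn : analyticOrderAt f x with
  | top =>
    cases hm : analyticOrderAt g x with
    | top => simp
    | coe m => simp
  | coe n =>
    cases hm : analyticOrderAt g x with
    | top => simp
    | coe m =>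
      simp only [ENat.map_natCast, Nat.cast_le]
      constructor
      · intro h; exact_mod_cast h
      · intro h; exact_mod_cast h

end

end Fermat.Agent.Lib.S44
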