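/-
M-AT-P, W4′ [AN] (helper5), part 3: the weight-two "Wronskian" `W c d = D c · d − c · D d`
(`= d² · D(c/d)`) of two holomorphic functions on `ℍ`: local order estimates.

* `s44r_W`, `s44r_W_mdiff`, `s44r_W_slash` (`(W c d)∣[2]σ = W (c∣[0]σ) (d∣[0]σ)`);
* `s44r_ord_interior` : `ord_τ b ≤ ord_τ a`, `ord_τ d ≤ ord_τ c` ⇒ `ord_τ (b d²) ≤ ord_τ (a · W c d)`;
* `s44r_cusp_zero` : the analogous statement at `i∞` for elements of `ffm_R N` (in the parameter
  `q_N`), in the regular case and in the polar case; conclusion: the quotient tends to `0`.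
-/
import Fermat.Agent.Lib.S44.RAnMero
import Fermat.Agent.Lib.S44.RAnDeriv
import Fermat.Agent.Lib.FF.ModelInf
import Fermat.Agent.Lib.RR.DivLemmas

set_option autoImplicit false
set_option linter.unusedSectionVars false

namespace Fermat.Agent.Lib.S44

open UpperHalfPlane hiding I
open Filter Function Complex Derivative ModularForm
open Fermat.Agent.Lib.FF Fermat.Agent.Lib.RR
open scoped Manifold Topology Real MatrixGroups

noncomputable section

local notation "𝕢" => Periodic.qParam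

/-- The weight-two Wronskian `W c d = D c · d − c · D d`. -/
def s44r_W (c d : ℍ → ℂ) : ℍ → ℂ := D c * d - c * D d

theorem s44r_W_apply (c d : ℍ → ℂ) (z : ℍ) : s44r_W c d z = D c z * d z - c z * D d z := rfl

theorem s44r_W_mdiff {c d : ℍ → ℂ} (hc : MDiff c) (hd : MDiff d) : MDiff (s44r_W c d) :=
  ((normalizedDerivOfComplex_mdifferentiable hc).mul hd).sub
    (hc.mul (normalizedDerivOfComplex_mdifferentiable hd))

theorem s44r_two_pi_I_ne_zero : (2 * (π : ℂ) * I) ≠ 0 := by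
  simp [Real.pi_ne_zero]

/-- In the complex coordinate, `W c d = (2πi)⁻¹ · wr c̃ d̃` near `τ`. -/
theorem s44r_W_comp_eventuallyEq (c d : ℍ → ℂ) (τ : ℍ) :
    (s44r_W c d) ∘ ofComplex =ᶠ[𝓝 (τ : ℂ)]
      (fun _ => (2 * (π : ℂ) * I)⁻¹) * s44r_wr (c ∘ ofComplex) (d ∘ ofComplex) := by
  filter_upwards [isOpen_upperHalfPlaneSet.mem_nhds τ.im_pos] with w hw
  have hz : ((ofComplex w : ℍ) : ℂ) = w := by rw [ofComplex_apply_of_im_pos hw]
  simp only [comp_apply, Pi.mul_apply, s44r_wr_apply, s44r_W_apply, normalizedDerivOfComplex, hz]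
  ring

/-- **Interior estimate.** -/
theorem s44r_ord_interior {a b c d : ℍ → ℂ} (ha : MDiff a) (hb : MDiff b) (hc : MDiff c)
    (hd : MDiff d) (hd0 : d ≠ 0) (τ : ℍ) (hab : div_ord b τ ≤ div_ord a τ)
    (hcd : div_ord d τ ≤ div_ord c τ) :
    div_ord (b * (d * d)) τ ≤ div_ord (a * s44r_W c d) τ := by
  have hAa := div_analyticAt ha τ
  have hAb := div_analyticAt hb τ
  have hAc := div_analyticAt hc τ
  have hAd := div_analyticAt hd τ
  have hAW := div_analyticAt (ha.mul (s44r_W_mdiff hc hd)) τ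
  have hAbd := div_analyticAt (hb.mul (hd.mul hd)) τ
  unfold div_ord at hab hcd ⊢
  rw [s44r_analyticOrderAt_le_iff hAb hAa] at hab
  rw [s44r_analyticOrderAt_le_iff hAd hAc] at hcd
  rw [s44r_analyticOrderAt_le_iff hAbd hAW]
  -- the order of `d` is finite
  have hdtop : analyticOrderAt (d ∘ ofComplex) (τ : ℂ) ≠ ⊤ := div_ord_ne_top hd hd0 τ
  obtain ⟨n, hn⟩ := ENat.ne_top_iff_exists.mp hdtop
  have hnd : meromorphicOrderAt (d ∘ ofComplex) (τ : ℂ) = ((n : ℤ) : WithTop ℤ) := by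
    rw [hAd.meromorphicOrderAt_eq, ← hn]
    rfl
  rw [hnd] at hcd
  -- left side
  have e1 : (b * (d * d)) ∘ ofComplex = (b ∘ ofComplex) * ((d ∘ ofComplex) * (d ∘ ofComplex)) := rfl
  rw [e1, meromorphicOrderAt_mul hAb.meromorphicAt (hAd.meromorphicAt.mul hAd.meromorphicAt),
    meromorphicOrderAt_mul hAd.meromorphicAt hAd.meromorphicAt, hnd]
  -- right side
  have e2 : (a * s44r_W c d) ∘ ofComplex =ᶠ[𝓝[≠] (τ : ℂ)]
      (fun _ => (2 * (π : ℂ) * I)⁻¹) *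
        ((a ∘ ofComplex) * s44r_wr (c ∘ ofComplex) (d ∘ ofComplex)) := by
    refine Filter.EventuallyEq.filter_mono ?_ nhdsWithin_le_nhds
    filter_upwards [s44r_W_comp_eventuallyEq c d τ] with w hw
    have : ((a * s44r_W c d) ∘ ofComplex) w = (a ∘ ofComplex) w * ((s44r_W c d) ∘ ofComplex) w := rfl
    rw [this, hw]
    simp only [Pi.mul_apply]
    ring
  rw [meromorphicOrderAt_congr e2,
    meromorphicOrderAt_mul_of_ne_zero analyticAt_const (inv_ne_zero s44r_two_pi_I_ne_zero)]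
  have h3 := s44r_order_wr_ge (a := a ∘ ofComplex) hAa.meromorphicAt hAc.meromorphicAt
    hAd.meromorphicAt hnd hcd
  refine le_trans ?_ h3
  have e3 : ((2 * (n : ℤ) : ℤ) : WithTop ℤ) = ((n : ℤ) : WithTop ℤ) + ((n : ℤ) : WithTop ℤ) := by
    rw [two_mul]; norm_cast
  rw [e3]
  exact add_le_add_left hab _

/-! ### Slash action -/

theorem s44r_slash_zero (F : ℍ → ℂ) (σ : SL(2, ℤ)) (z : ℍ) : (F ∣[(0 : ℤ)] σ) z = F (σ • z) := by
  rw [SL_slash_apply]
  simp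

theorem s44r_mdiff_slash_zero {F : ℍ → ℂ} (hF : MDiff F) (σ : SL(2, ℤ)) :
    MDiff (F ∣[(0 : ℤ)] σ) := by
  rw [SL_slash]; exact hF.slash _ _

/-- `D (F∣[0]σ) = (D F)∣[2]σ`. -/
theorem s44r_D_slash_zero {F : ℍ → ℂ} (hF : MDiff F) (σ : SL(2, ℤ)) :
    D (F ∣[(0 : ℤ)] σ) = (D F) ∣[(2 : ℤ)] σ := by
  have := normalizedDerivOfComplex_SL_slash (k := 0) hF (γ := σ)
  rw [this]
  funext z
  simp

/-- `(W c d)∣[2]σ = W (c∣[0]σ) (d∣[0]σ)`. -/
theorem s44r_W_slash {c d : ℍ → ℂ} (hc : MDiff c) (hd : MDiff d) (σ : SL(2, ℤ)) :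
    (s44r_W c d) ∣[(2 : ℤ)] σ = s44r_W (c ∣[(0 : ℤ)] σ) (d ∣[(0 : ℤ)] σ) := by
  unfold s44r_W
  rw [s44r_D_slash_zero hc, s44r_D_slash_zero hd, sub_eq_add_neg, SlashAction.add_slash,
    SlashAction.neg_slash, ← sub_eq_add_neg]
  have h1 := mul_slash_SL2 2 0 σ (D c) d
  have h2 := mul_slash_SL2 0 2 σ c (D d)
  simp only [add_zero, zero_add] at h1 h2
  rw [h1, h2]

/-! ### The cusp `i∞` -/

section Cusp

variable (N : ℕ) [NeZero N]

/-- `D A τ = (1/N) · q · G_A'(q)`, `q = q_N(τ)`, `G_A` the germ at `i∞`. -/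
theorem s44r_D_eq_germ (A : ffm_R N) (τ : ℍ) :
    D (A : ℍ → ℂ) τ = (N : ℂ)⁻¹ * (𝕢 (N : ℝ) τ * deriv (ffm_germInf N A) (𝕢 (N : ℝ) τ)) := by
  have hN : ((N : ℝ) : ℂ) ≠ 0 := by exact_mod_cast NeZero.ne N
  have hNr : (N : ℝ) ≠ 0 := by exact_mod_cast NeZero.ne N
  have hdiff : DifferentiableAt ℂ ((A : ℍ → ℂ) ∘ ofComplex) (τ : ℂ) :=
    (ffm_analyticAt_comp_ofComplex A.2.mdiff τ).differentiableAt
  have hG : DifferentiableAt ℂ (ffm_germInf N A) (𝕢 (N : ℝ) τ) :=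
    (ffm_periodic A).differentiableAt_cuspFunction hNr hdiff
  have hev : ((A : ℍ → ℂ) ∘ ofComplex) =ᶠ[𝓝 (τ : ℂ)] (ffm_germInf N A) ∘ (𝕢 (N : ℝ)) := by
    filter_upwards [isOpen_upperHalfPlaneSet.mem_nhds τ.im_pos] with w hw
    have := ffm_germInf_qParam N A ⟨w, hw⟩
    simp only [comp_apply, ofComplex_apply_of_im_pos hw]
    exact this.symm
  have h1 : HasDerivAt ((ffm_germInf N A) ∘ (𝕢 (N : ℝ)))
      (deriv (ffm_germInf N A) (𝕢 (N : ℝ) τ) * (2 * π * I / (N : ℝ) * 𝕢 (N : ℝ) (τ : ℂ))) (τ : ℂ) :=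
    hG.hasDerivAt.comp (τ : ℂ) (s44r_hasDerivAt_qParam (N : ℝ) τ)
  have h2 := (h1.congr_of_eventuallyEq hev).deriv
  unfold normalizedDerivOfComplex
  rw [h2]
  have hpi := s44r_two_pi_I_ne_zero
  have hN' : (N : ℂ) ≠ 0 := by exact_mod_cast NeZero.ne N
  push_cast
  field_simp

/-- `W C D = (1/N) · q · wr G_C G_D (q)`. -/
theorem s44r_W_eq_germ (C Dd : ffm_R N) (τ : ℍ) :
    s44r_W (C : ℍ → ℂ) (Dd : ℍ → ℂ) τ =
      (N : ℂ)⁻¹ * (𝕢 (N : ℝ) τ *
        s44r_wr (ffm_germInf N C) (ffm_germInf N Dd) (𝕢 (N : ℝ) τ)) := by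
  rw [s44r_W_apply, s44r_D_eq_germ, s44r_D_eq_germ, s44r_wr_apply, ffm_germInf_qParam,
    ffm_germInf_qParam]
  ring

/-- The quotient function in the `q`-coordinate. -/
def s44r_Psi (A B C Dd : ffm_R N) : ℂ → ℂ :=
  (fun q : ℂ => (N : ℂ)⁻¹ * q) *
    ((ffm_germInf N A * s44r_wr (ffm_germInf N C) (ffm_germInf N Dd)) /
      (ffm_germInf N B * (ffm_germInf N Dd * ffm_germInf N Dd)))

theorem s44r_order_lin : meromorphicOrderAt (fun q : ℂ => (N : ℂ)⁻¹ * q) 0 = ((1 : ℤ) : WithTop ℤ) := by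
  have hN' : (N : ℂ)⁻¹ ≠ 0 := inv_ne_zero (by exact_mod_cast NeZero.ne N)
  have h1 : (fun q : ℂ => (N : ℂ)⁻¹ * q) = (fun _ : ℂ => (N : ℂ)⁻¹) * id := rfl
  rw [h1, meromorphicOrderAt_mul_of_ne_zero analyticAt_const hN', meromorphicOrderAt_id]
  rfl

/-- **Cusp estimate**: if `H · B · D² = A · W C D` and the orders at `i∞` satisfy the regular or the
polar condition, then `H → 0` at `i∞`. -/
theorem s44r_cusp_zero (A B C Dd : ffm_R N) (H : ℍ → ℂ)
    (hH : H * ((B : ℍ → ℂ) * ((Dd : ℍ → ℂ) * (Dd : ℍ → ℂ))) =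
      (A : ℍ → ℂ) * s44r_W (C : ℍ → ℂ) (Dd : ℍ → ℂ))
    {na nb nc nd : ℤ}
    (hna : meromorphicOrderAt (ffm_germInf N A) 0 = (na : WithTop ℤ))
    (hnb : meromorphicOrderAt (ffm_germInf N B) 0 = (nb : WithTop ℤ))
    (hnc : meromorphicOrderAt (ffm_germInf N C) 0 = (nc : WithTop ℤ))
    (hnd : meromorphicOrderAt (ffm_germInf N Dd) 0 = (nd : WithTop ℤ))
    (hcase : (nb ≤ na ∧ nd ≤ nc) ∨ (nc ≠ nd ∧ 0 < na - nb + (nc - nd))) :
    IsZeroAtImInfty H := by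
  have mA := ffm_germInf_meromorphicAt N A
  have mB := ffm_germInf_meromorphicAt N B
  have mC := ffm_germInf_meromorphicAt N C
  have mD := ffm_germInf_meromorphicAt N Dd
  have mden : MeromorphicAt (ffm_germInf N B * (ffm_germInf N Dd * ffm_germInf N Dd)) 0 :=
    mB.mul (mD.mul mD)
  have mnum : MeromorphicAt
      (ffm_germInf N A * s44r_wr (ffm_germInf N C) (ffm_germInf N Dd)) 0 :=
    mA.mul (s44r_meromorphicAt_wr mC mD)
  have mlin : MeromorphicAt (fun q : ℂ => (N : ℂ)⁻¹ * q) 0 := by fun_prop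
  -- the order of the denominator
  have hden : meromorphicOrderAt
      (ffm_germInf N B * (ffm_germInf N Dd * ffm_germInf N Dd)) 0 =
      ((nb + (nd + nd) : ℤ) : WithTop ℤ) := by
    rw [meromorphicOrderAt_mul mB (mD.mul mD), meromorphicOrderAt_mul mD mD, hnb, hnd]
    norm_cast
  -- the order of `Ψ` is positive
  have hpos : 0 < meromorphicOrderAt (s44r_Psi N A B C Dd) 0 := by
    unfold s44r_Psi
    rw [meromorphicOrderAt_mul mlin (mnum.div mden), meromorphicOrderAt_div mnum mden,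
      s44r_order_lin, hden]
    rcases hcase with ⟨h1, h2⟩ | ⟨h1, h2⟩
    · have h3 := s44r_order_wr_ge mA mC mD hnd (by rw [hnc]; exact_mod_cast h2)
      rw [hna] at h3
      cases hw : meromorphicOrderAt
          (ffm_germInf N A * s44r_wr (ffm_germInf N C) (ffm_germInf N Dd)) 0 with
      | top => simp
      | coe w =>
        rw [hw] at h3
        have h4 : na + 2 * nd ≤ w := by exact_mod_cast h3
        have e : ((1 : ℤ) : WithTop ℤ) + (((w : ℤ) : WithTop ℤ) - ((nb + (nd + nd) : ℤ) : WithTop ℤ))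
            = ((1 + (w - (nb + (nd + nd))) : ℤ) : WithTop ℤ) := by norm_cast
        rw [e]
        have : (0 : ℤ) < 1 + (w - (nb + (nd + nd))) := by omega
        exact_mod_cast this
    · rw [s44r_order_wr_eq mA mC mD hnc hnd h1, hna]
      have e : ((1 : ℤ) : WithTop ℤ) + (((na : ℤ) : WithTop ℤ) + ((nc + nd - 1 : ℤ) : WithTop ℤ) -
          ((nb + (nd + nd) : ℤ) : WithTop ℤ)) =
          ((1 + (na + (nc + nd - 1) - (nb + (nd + nd))) : ℤ) : WithTop ℤ) := by norm_cast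
      rw [e]
      have : (0 : ℤ) < 1 + (na + (nc + nd - 1) - (nb + (nd + nd))) := by omega
      exact_mod_cast this
  have hlim := (tendsto_zero_of_meromorphicOrderAt_pos hpos).comp (ffm_tendsto_qParam N)
  -- the denominator does not vanish near `0`
  have hne : ∀ᶠ q in 𝓝[≠] (0 : ℂ),
      (ffm_germInf N B * (ffm_germInf N Dd * ffm_germInf N Dd)) q ≠ 0 :=
    (meromorphicOrderAt_ne_top_iff_eventually_ne_zero mden).mp (by rw [hden]; exact WithTop.coe_ne_top)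
  show Tendsto H atImInfty (𝓝 0)
  refine hlim.congr' ?_
  filter_upwards [(ffm_tendsto_qParam N).eventually hne] with τ hτ
  simp only [comp_apply, s44r_Psi, Pi.mul_apply, Pi.div_apply]
  have h1 := congrFun hH τ
  simp only [Pi.mul_apply] at h1
  rw [s44r_W_eq_germ, ← ffm_germInf_qParam N A τ, ← ffm_germInf_qParam N B τ,
    ← ffm_germInf_qParam N Dd τ] at h1
  simp only [Pi.mul_apply] at hτ
  have h2 : H τ = ffm_germInf N A (𝕢 (N : ℝ) τ) * ((N : ℂ)⁻¹ * (𝕢 (N : ℝ) τ *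
      s44r_wr (ffm_germInf N C) (ffm_germInf N Dd) (𝕢 (N : ℝ) τ))) /
      (ffm_germInf N B (𝕢 (N : ℝ) τ) *
        (ffm_germInf N Dd (𝕢 (N : ℝ) τ) * ffm_germInf N Dd (𝕢 (N : ℝ) τ))) := by
    rw [eq_div_iff hτ]; exact h1
  rw [h2]
  ring

end Cusp

end

end Fermat.Agent.Lib.S44
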