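/-
M-AT-P, W4′ [AN] (helper5), part 4: from formal quotients in `K((q))` to holomorphic functions.

A quadruple `𝒟 = (α, β, γ, δ)` of elements of `K[J_d : d ∣ N]` represents the formal weight-two
object `(α/β) · θ(γ/δ) = α · (θγ·δ − γ·θδ) / (β δ²)`.  Its analytic counterpart is
`num 𝒟 / den 𝒟`, `num = a · W c d`, `den = b · d²` (`a = ψ α`, …).

* `s44r_Quad`, `numS`, `denS`, `num`, `den`, `isLaurent_num`, `isLaurent_den`;
* `s44r_Quad.Represents 𝒟 φ` : `φ · denS = numS`, `β ≠ 0`, `δ ≠ 0`;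
* `s44r_represents_of_frac` : `z β = α`, `x δ = γ` ⇒ `𝒟` represents `z · θx`;
* `s44r_chain` : two quadruples representing the same `φ` have `num 𝒟 · den 𝒟' = num 𝒟' · den 𝒟`.
-/
import Fermat.Agent.Lib.S44.RAnLocal
import Fermat.Agent.Lib.S29.BPPhi

set_option autoImplicit false
set_option linter.unusedSectionVars false

namespace Fermat.Agent.Lib.S44

open UpperHalfPlane hiding I
open Filter Function Complex Derivative ModularForm ModularCurve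
open Fermat.Agent.Lib.FF Fermat.Agent.Lib.RR Fermat.Agent.Lib.S29
open scoped Manifold Topology Real MatrixGroups

noncomputable section

variable {K : Type*} [Field K] [Algebra ℚ K]

/-- The formal Wronskian `θγ · δ − γ · θδ`. -/
def s44r_WS (γ δ : LaurentSeries K) : LaurentSeries K := ffd_theta γ * δ - γ * ffd_theta δ

/-- `x δ = γ ⇒ θx · δ² = WS γ δ`. -/
theorem s44r_theta_mul_sq {x γ δ : LaurentSeries K} (h : x * δ = γ) :
    ffd_theta x * (δ * δ) = s44r_WS γ δ := by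
  unfold s44r_WS
  rw [← h, ffd_theta_mul]
  ring

theorem s44r_coeffMap_WS (ι : K →+* ℂ) (γ δ : LaurentSeries K) :
    coeffMap ι (s44r_WS γ δ) = s44r_WS (coeffMap ι γ) (coeffMap ι δ) := by
  unfold s44r_WS
  rw [map_sub, map_mul, map_mul, s44r_coeffMap_theta, s44r_coeffMap_theta]

/-- Laurent expansion of the analytic Wronskian. -/
theorem s44r_isLaurent_W {c d : ℍ → ℂ} {x y : LaurentSeries ℂ} (hc : MDiff c) (hd : MDiff d)
    (hcx : ffb_IsLaurent c x) (hdy : ffb_IsLaurent d y) :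
    ffb_IsLaurent (s44r_W c d) (s44r_WS x y) := by
  unfold s44r_W s44r_WS
  have h1 := (s44r_isLaurent_D hc hcx).mul hdy
  have h2 := (hcx.mul (s44r_isLaurent_D hd hdy)).neg
  have := h1.add h2
  rwa [← sub_eq_add_neg, ← sub_eq_add_neg] at this

variable (K) in
/-- A quadruple of elements of `K[J_d : d ∣ N]`. -/
structure s44r_Quad (N : ℕ) where
  /-- numerator of `z` -/
  α : s29bp_A K N
  /-- denominator of `z` -/
  β : s29bp_A K N
  /-- numerator of `x` -/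
  γ : s29bp_A K N
  /-- denominator of `x` -/
  δ : s29bp_A K N

namespace s44r_Quad

variable {N : ℕ} (𝒟 : s44r_Quad K N)

/-- formal numerator -/
def numS : LaurentSeries K :=
  (𝒟.α : LaurentSeries K) * s44r_WS (𝒟.γ : LaurentSeries K) (𝒟.δ : LaurentSeries K)

/-- formal denominator -/
def denS : LaurentSeries K :=
  (𝒟.β : LaurentSeries K) * ((𝒟.δ : LaurentSeries K) * (𝒟.δ : LaurentSeries K))

variable (ι : K →+* ℂ)

/-- the four holomorphic functions -/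
def fa : ℍ → ℂ := (s29bp_psi ι N 𝒟.α : ℍ → ℂ)

def fb : ℍ → ℂ := (s29bp_psi ι N 𝒟.β : ℍ → ℂ)

def fc : ℍ → ℂ := (s29bp_psi ι N 𝒟.γ : ℍ → ℂ)

def fd : ℍ → ℂ := (s29bp_psi ι N 𝒟.δ : ℍ → ℂ)

/-- analytic numerator `a · W c d` -/
def num : ℍ → ℂ := 𝒟.fa ι * s44r_W (𝒟.fc ι) (𝒟.fd ι)

/-- analytic denominator `b · d²` -/
def den : ℍ → ℂ := 𝒟.fb ι * (𝒟.fd ι * 𝒟.fd ι)

theorem mdiff_fa : MDiff (𝒟.fa ι) := (s29bp_psi ι N 𝒟.α).2.mdiff
theorem mdiff_fb : MDiff (𝒟.fb ι) := (s29bp_psi ι N 𝒟.β).2.mdiff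
theorem mdiff_fc : MDiff (𝒟.fc ι) := (s29bp_psi ι N 𝒟.γ).2.mdiff
theorem mdiff_fd : MDiff (𝒟.fd ι) := (s29bp_psi ι N 𝒟.δ).2.mdiff

theorem mdiff_num : MDiff (𝒟.num ι) :=
  (𝒟.mdiff_fa ι).mul (s44r_W_mdiff (𝒟.mdiff_fc ι) (𝒟.mdiff_fd ι))

theorem mdiff_den : MDiff (𝒟.den ι) :=
  (𝒟.mdiff_fb ι).mul ((𝒟.mdiff_fd ι).mul (𝒟.mdiff_fd ι))

theorem isLaurent_num : ffb_IsLaurent (𝒟.num ι) (coeffMap ι 𝒟.numS) := by
  unfold num numS
  rw [map_mul, s44r_coeffMap_WS]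
  exact (s29bp_psi_isLaurent ι N 𝒟.α).mul
    (s44r_isLaurent_W (𝒟.mdiff_fc ι) (𝒟.mdiff_fd ι) (s29bp_psi_isLaurent ι N 𝒟.γ)
      (s29bp_psi_isLaurent ι N 𝒟.δ))

theorem isLaurent_den : ffb_IsLaurent (𝒟.den ι) (coeffMap ι 𝒟.denS) := by
  unfold den denS
  rw [map_mul, map_mul]
  exact (s29bp_psi_isLaurent ι N 𝒟.β).mul
    ((s29bp_psi_isLaurent ι N 𝒟.δ).mul (s29bp_psi_isLaurent ι N 𝒟.δ))

/-- `𝒟` represents the Laurent series `φ`. -/
def Represents (φ : LaurentSeries K) : Prop :=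
  φ * 𝒟.denS = 𝒟.numS ∧ 𝒟.β ≠ 0 ∧ 𝒟.δ ≠ 0

theorem denS_ne_zero {φ : LaurentSeries K} (h : 𝒟.Represents φ) : 𝒟.denS ≠ 0 := by
  have hβ : (𝒟.β : LaurentSeries K) ≠ 0 := fun h0 => h.2.1 (Subtype.ext h0)
  have hδ : (𝒟.δ : LaurentSeries K) ≠ 0 := fun h0 => h.2.2 (Subtype.ext h0)
  exact mul_ne_zero hβ (mul_ne_zero hδ hδ)

theorem fb_ne_zero {φ : LaurentSeries K} (h : 𝒟.Represents φ) : 𝒟.fb ι ≠ 0 := by
  intro h0
  apply h.2.1
  apply s29bp_psi_injective ι N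
  rw [map_zero]
  exact Subtype.ext h0

theorem fd_ne_zero {φ : LaurentSeries K} (h : 𝒟.Represents φ) : 𝒟.fd ι ≠ 0 := by
  intro h0
  apply h.2.2
  apply s29bp_psi_injective ι N
  rw [map_zero]
  exact Subtype.ext h0

theorem den_ne_zero {φ : LaurentSeries K} (h : 𝒟.Represents φ) : 𝒟.den ι ≠ 0 := by
  intro h0
  unfold den at h0
  rcases (UpperHalfPlane.mul_eq_zero_iff (𝒟.mdiff_fb ι)
    ((𝒟.mdiff_fd ι).mul (𝒟.mdiff_fd ι))).mp h0 with h1 | h1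
  · exact 𝒟.fb_ne_zero ι h h1
  · rcases (UpperHalfPlane.mul_eq_zero_iff (𝒟.mdiff_fd ι) (𝒟.mdiff_fd ι)).mp h1 with h2 | h2
    · exact 𝒟.fd_ne_zero ι h h2
    · exact 𝒟.fd_ne_zero ι h h2

end s44r_Quad

/-- `z β = α`, `x δ = γ` ⇒ the quadruple represents `z · θx`. -/
theorem s44r_represents_of_frac {N : ℕ} (𝒟 : s44r_Quad K N) {z x : LaurentSeries K}
    (hz : z * (𝒟.β : LaurentSeries K) = (𝒟.α : LaurentSeries K))
    (hx : x * (𝒟.δ : LaurentSeries K) = (𝒟.γ : LaurentSeries K))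
    (hβ : 𝒟.β ≠ 0) (hδ : 𝒟.δ ≠ 0) : 𝒟.Represents (z * ffd_theta x) := by
  refine ⟨?_, hβ, hδ⟩
  unfold s44r_Quad.denS s44r_Quad.numS
  rw [← hz, ← s44r_theta_mul_sq hx]
  ring

/-- **Chain rule**: two quadruples representing the same series give proportional pairs. -/
theorem s44r_chain {N : ℕ} (ι : K →+* ℂ) (𝒟 𝒟' : s44r_Quad K N) {φ : LaurentSeries K}
    (h : 𝒟.Represents φ) (h' : 𝒟'.Represents φ) :
    𝒟.num ι * 𝒟'.den ι = 𝒟'.num ι * 𝒟.den ι := by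
  have h1 := (𝒟.isLaurent_num ι).mul (𝒟'.isLaurent_den ι)
  have h2 := (𝒟'.isLaurent_num ι).mul (𝒟.isLaurent_den ι)
  have e : coeffMap ι 𝒟.numS * coeffMap ι 𝒟'.denS = coeffMap ι 𝒟'.numS * coeffMap ι 𝒟.denS := by
    rw [← map_mul, ← map_mul, ← h.1, ← h'.1]
    congr 1
    ring
  rw [e] at h1
  exact h1.ext h2

end

end Fermat.Agent.Lib.S44
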