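/-
M-AT-P, W4′ [AN] (helper5), part 5: the analytic core.

Given a Laurent series `φ ∈ K((q))` represented by a quadruple `𝒟` (`φ = (α/β)·θ(γ/δ)`) such that
* at every `τ ∈ ℍ` SOME quadruple representing `φ` is regular at `τ`
  (`ord_τ b' ≤ ord_τ a'`, `ord_τ d' ≤ ord_τ c'`), and
* at every cusp `σ∞` SOME quadruple representing `φ` is regular or "polar with positive total order",
there is a cusp form `f ∈ S₂(Γ₀(N))` with `q`-expansion `ι φ` (`s44r_an_core`).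
-/
import Fermat.Agent.Lib.S44.RAnBridge
import Fermat.Agent.Lib.RR.DivModular
import Fermat.Prelude.Thm_CongruenceSubgroup_one_mem_strictPeriods_Gamma0

set_option autoImplicit false
set_option linter.unusedSectionVars false

namespace Fermat.Agent.Lib.S44

open UpperHalfPlane hiding I
open Filter Function Complex Derivative ModularForm ModularCurve CongruenceSubgroup OnePoint
  Matrix.SpecialLinearGroup
open Fermat.Agent.Lib.FF Fermat.Agent.Lib.RR Fermat.Agent.Lib.S29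
open scoped Manifold Topology Real MatrixGroups

noncomputable section

variable {K : Type*} [Field K] [Algebra ℚ K] (ι : K →+* ℂ) {N : ℕ}

/-- cancellation in the domain of holomorphic functions on `ℍ`. -/
theorem s44r_mul_left_cancel {P G₁ G₂ : ℍ → ℂ} (hP : MDiff P) (h1 : MDiff G₁) (h2 : MDiff G₂)
    (hP0 : P ≠ 0) (h : P * G₁ = P * G₂) : G₁ = G₂ := by
  have h3 : P * (G₁ - G₂) = 0 := by rw [mul_sub, h, sub_self]
  rcases (UpperHalfPlane.mul_eq_zero_iff hP (h1.sub h2)).mp h3 with h4 | h4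
  · exact absurd h4 hP0
  · exact sub_eq_zero.mp h4

/-- **Step C**: the order inequality at an interior point, from a regular quadruple. -/
theorem s44r_interior_le (𝒟 𝒟' : s44r_Quad K N) {φ : LaurentSeries K}
    (h : 𝒟.Represents φ) (h' : 𝒟'.Represents φ) (τ : ℍ)
    (hab : div_ord (𝒟'.fb ι) τ ≤ div_ord (𝒟'.fa ι) τ)
    (hcd : div_ord (𝒟'.fd ι) τ ≤ div_ord (𝒟'.fc ι) τ) :
    div_ord (𝒟.den ι) τ ≤ div_ord (𝒟.num ι) τ := by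
  have h1 : div_ord (𝒟'.den ι) τ ≤ div_ord (𝒟'.num ι) τ :=
    s44r_ord_interior (𝒟'.mdiff_fa ι) (𝒟'.mdiff_fb ι) (𝒟'.mdiff_fc ι) (𝒟'.mdiff_fd ι)
      (𝒟'.fd_ne_zero ι h') τ hab hcd
  have h2 : div_ord (𝒟.num ι * 𝒟'.den ι) τ = div_ord (𝒟'.num ι * 𝒟.den ι) τ := by
    rw [s44r_chain ι 𝒟 𝒟' h h']
  rw [div_ord_mul (𝒟.mdiff_num ι) (𝒟'.mdiff_den ι),
    div_ord_mul (𝒟'.mdiff_num ι) (𝒟.mdiff_den ι)] at h2
  have hfin : div_ord (𝒟'.den ι) τ ≠ ⊤ := div_ord_ne_top (𝒟'.mdiff_den ι) (𝒟'.den_ne_zero ι h') τ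
  have h3 : div_ord (𝒟.den ι) τ + div_ord (𝒟'.den ι) τ ≤
      div_ord (𝒟.num ι) τ + div_ord (𝒟'.den ι) τ := by
    rw [h2, add_comm]
    exact add_le_add h1 le_rfl
  exact (ENat.add_le_add_iff_right hfin).mp h3

/-- **Step E**: the quotient `H` of one representing quadruple is the quotient of all of them. -/
theorem s44r_transfer (𝒟 𝒟' : s44r_Quad K N) {φ : LaurentSeries K}
    (h : 𝒟.Represents φ) (h' : 𝒟'.Represents φ) {H : ℍ → ℂ} (hH : MDiff H)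
    (hnum : 𝒟.num ι = 𝒟.den ι * H) : 𝒟'.num ι = 𝒟'.den ι * H := by
  have h1 := s44r_chain ι 𝒟 𝒟' h h'
  rw [hnum] at h1
  refine (s44r_mul_left_cancel (𝒟.mdiff_den ι) ((𝒟'.mdiff_den ι).mul hH) (𝒟'.mdiff_num ι)
    (𝒟.den_ne_zero ι h) ?_).symm
  rw [mul_comm (𝒟.den ι) (𝒟'.num ι), ← h1]
  ring

/-! ### Slash action on a quadruple -/

/-- the translate `σ⁻¹ • f` is `f∣[0]σ`. -/
theorem s44r_smul_inv_eq_slash (σ : SL(2, ℤ)) (f : ffm_R N) :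
    ((σ⁻¹ • f : ffm_R N) : ℍ → ℂ) = (f : ℍ → ℂ) ∣[(0 : ℤ)] σ := by
  funext z
  rw [s44r_slash_zero, ffm_smul_apply, inv_inv]

theorem s44r_den_slash (𝒟 : s44r_Quad K N) (σ : SL(2, ℤ)) :
    (𝒟.den ι) ∣[(0 : ℤ)] σ =
      ((σ⁻¹ • s29bp_psi ι N 𝒟.β : ffm_R N) : ℍ → ℂ) *
        (((σ⁻¹ • s29bp_psi ι N 𝒟.δ : ffm_R N) : ℍ → ℂ) *
          ((σ⁻¹ • s29bp_psi ι N 𝒟.δ : ffm_R N) : ℍ → ℂ)) := by
  unfold s44r_Quad.den s44r_Quad.fb s44r_Quad.fd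
  have h1 := mul_slash_SL2 0 0 σ ((s29bp_psi ι N 𝒟.δ : ffm_R N) : ℍ → ℂ)
    ((s29bp_psi ι N 𝒟.δ : ffm_R N) : ℍ → ℂ)
  have h2 := mul_slash_SL2 0 0 σ ((s29bp_psi ι N 𝒟.β : ffm_R N) : ℍ → ℂ)
    (((s29bp_psi ι N 𝒟.δ : ffm_R N) : ℍ → ℂ) * ((s29bp_psi ι N 𝒟.δ : ffm_R N) : ℍ → ℂ))
  simp only [add_zero] at h1 h2
  rw [h2, h1, s44r_smul_inv_eq_slash, s44r_smul_inv_eq_slash]

theorem s44r_num_slash (𝒟 : s44r_Quad K N) (σ : SL(2, ℤ)) :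
    (𝒟.num ι) ∣[(2 : ℤ)] σ =
      ((σ⁻¹ • s29bp_psi ι N 𝒟.α : ffm_R N) : ℍ → ℂ) *
        s44r_W ((σ⁻¹ • s29bp_psi ι N 𝒟.γ : ffm_R N) : ℍ → ℂ)
          ((σ⁻¹ • s29bp_psi ι N 𝒟.δ : ffm_R N) : ℍ → ℂ) := by
  unfold s44r_Quad.num s44r_Quad.fa s44r_Quad.fc s44r_Quad.fd
  have h1 := mul_slash_SL2 0 2 σ ((s29bp_psi ι N 𝒟.α : ffm_R N) : ℍ → ℂ)
    (s44r_W ((s29bp_psi ι N 𝒟.γ : ffm_R N) : ℍ → ℂ) ((s29bp_psi ι N 𝒟.δ : ffm_R N) : ℍ → ℂ))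
  simp only [zero_add] at h1
  rw [h1, s44r_W_slash (s29bp_psi ι N 𝒟.γ).2.mdiff (s29bp_psi ι N 𝒟.δ).2.mdiff,
    s44r_smul_inv_eq_slash, s44r_smul_inv_eq_slash, s44r_smul_inv_eq_slash]

/-- **Step F**: the slashed quotient equation. -/
theorem s44r_slash_eq (𝒟 : s44r_Quad K N) {H : ℍ → ℂ} (hnum : 𝒟.num ι = 𝒟.den ι * H)
    (σ : SL(2, ℤ)) :
    (H ∣[(2 : ℤ)] σ) * (((σ⁻¹ • s29bp_psi ι N 𝒟.β : ffm_R N) : ℍ → ℂ) *
        (((σ⁻¹ • s29bp_psi ι N 𝒟.δ : ffm_R N) : ℍ → ℂ) *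
          ((σ⁻¹ • s29bp_psi ι N 𝒟.δ : ffm_R N) : ℍ → ℂ))) =
      ((σ⁻¹ • s29bp_psi ι N 𝒟.α : ffm_R N) : ℍ → ℂ) *
        s44r_W ((σ⁻¹ • s29bp_psi ι N 𝒟.γ : ffm_R N) : ℍ → ℂ)
          ((σ⁻¹ • s29bp_psi ι N 𝒟.δ : ffm_R N) : ℍ → ℂ) := by
  rw [← s44r_num_slash, ← s44r_den_slash, hnum]
  have h1 := mul_slash_SL2 0 2 σ (𝒟.den ι) H
  simp only [zero_add] at h1
  rw [h1, mul_comm]

/-- **Step G**: invariance under `Γ₀(N)`. -/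
theorem s44r_slash_invariant (𝒟 : s44r_Quad K N) {φ : LaurentSeries K} (h : 𝒟.Represents φ)
    {H : ℍ → ℂ} (hH : MDiff H) (hnum : 𝒟.num ι = 𝒟.den ι * H) {σ : SL(2, ℤ)}
    (hσ : σ ∈ Gamma0 N) : H ∣[(2 : ℤ)] σ = H := by
  have h1 := s44r_slash_eq ι 𝒟 hnum σ
  have hinv : ∀ a : s29bp_A K N, (σ⁻¹ • s29bp_psi ι N a : ffm_R N) = s29bp_psi ι N a :=
    fun a => s29bp_psi_smul ι N (inv_mem hσ) a
  rw [hinv, hinv, hinv, hinv] at h1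
  have h2 : 𝒟.den ι * (H ∣[(2 : ℤ)] σ) = 𝒟.den ι * H := by
    rw [← hnum, mul_comm]
    exact h1
  have hHσ : MDiff (H ∣[(2 : ℤ)] σ) := by
    rw [SL_slash]; exact hH.slash _ _
  exact s44r_mul_left_cancel (𝒟.mdiff_den ι) hHσ hH (𝒟.den_ne_zero ι h) h2

/-- The cusp condition for a quadruple at the cusp `σ∞`. -/
def s44r_Quad.CuspOK [NeZero N] (𝒟 : s44r_Quad K N) (σ : SL(2, ℤ)) : Prop :=
  ∃ na nb nc nd : ℤ,
    meromorphicOrderAt (ffm_germInf N (σ⁻¹ • s29bp_psi ι N 𝒟.α)) 0 = (na : WithTop ℤ) ∧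
    meromorphicOrderAt (ffm_germInf N (σ⁻¹ • s29bp_psi ι N 𝒟.β)) 0 = (nb : WithTop ℤ) ∧
    meromorphicOrderAt (ffm_germInf N (σ⁻¹ • s29bp_psi ι N 𝒟.γ)) 0 = (nc : WithTop ℤ) ∧
    meromorphicOrderAt (ffm_germInf N (σ⁻¹ • s29bp_psi ι N 𝒟.δ)) 0 = (nd : WithTop ℤ) ∧
    ((nb ≤ na ∧ nd ≤ nc) ∨ (nc ≠ nd ∧ 0 < na - nb + (nc - nd)))

/-- **The analytic core.** -/
theorem s44r_an_core [NeZero N] (φ : LaurentSeries K) (𝒟 : s44r_Quad K N)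
    (h𝒟 : 𝒟.Represents φ)
    (hint : ∀ τ : ℍ, ∃ 𝒟' : s44r_Quad K N, 𝒟'.Represents φ ∧
      div_ord (𝒟'.fb ι) τ ≤ div_ord (𝒟'.fa ι) τ ∧ div_ord (𝒟'.fd ι) τ ≤ div_ord (𝒟'.fc ι) τ)
    (hcusp : ∀ σ : SL(2, ℤ), ∃ 𝒟' : s44r_Quad K N, 𝒟'.Represents φ ∧ 𝒟'.CuspOK ι σ) :
    ∃ f : CuspForm (Gamma0 N) 2, ∀ n : ℕ, (qExpansion 1 f).coeff n = ι (φ.coeff n) := by
  -- Step D: the global quotient
  obtain ⟨H, hH, hnum⟩ := div_core (𝒟.mdiff_num ι) (𝒟.mdiff_den ι) (𝒟.den_ne_zero ι h𝒟)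
    (fun τ => by
      obtain ⟨𝒟', h', hab, hcd⟩ := hint τ
      exact s44r_interior_le ι 𝒟 𝒟' h𝒟 h' τ hab hcd)
  -- cusps
  have hzero : ∀ σ : SL(2, ℤ), IsZeroAtImInfty (H ∣[(2 : ℤ)] σ) := by
    intro σ
    obtain ⟨𝒟', h', na, nb, nc, nd, hna, hnb, hnc, hnd, hcase⟩ := hcusp σ
    have hnum' := s44r_transfer ι 𝒟 𝒟' h𝒟 h' hH hnum
    exact s44r_cusp_zero N _ _ _ _ (H ∣[(2 : ℤ)] σ) (s44r_slash_eq ι 𝒟' hnum' σ)
      hna hnb hnc hnd hcase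
  -- the cusp form
  let f : CuspForm (Gamma0 N) 2 :=
    { toFun := H
      slash_action_eq' := by
        rintro _ ⟨γ, hγ, rfl⟩
        have := s44r_slash_invariant ι 𝒟 h𝒟 hH hnum hγ
        rwa [SL_slash] at this
      holo' := hH
      zero_at_cusps' := by
        intro c hc
        rw [Subgroup.IsArithmetic.isCusp_iff_isCusp_SL2Z] at hc
        rw [isZeroAt_iff_forall_SL2Z hc]
        intro γ _
        exact hzero γ }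
  refine ⟨f, fun n => ?_⟩
  -- the `q`-expansion
  have hper : Periodic (H ∘ ofComplex) 1 := by
    have := SlashInvariantFormClass.periodic_comp_ofComplex f
      (CongruenceSubgroup.one_mem_strictPeriods_Gamma0 N)
    exact this
  have hbdd : IsBoundedAtImInfty H := by
    have h1 := hzero 1
    rw [SlashAction.slash_one] at h1
    exact h1.isBoundedAtImInfty
  have hnice : ffb_Nice H := ⟨hH, hper, hbdd⟩
  have hL : ffb_IsLaurent H (HahnSeries.ofPowerSeries ℤ ℂ (qExpansion 1 H)) := by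
    refine ⟨0, ?_, ?_⟩
    · rw [pow_zero, one_mul]; exact hnice
    · rw [pow_zero, one_mul]
      simp
  have h1 := (𝒟.isLaurent_den ι).mul hL
  rw [← hnum] at h1
  have h2 := h1.unique (𝒟.isLaurent_num ι)
  rw [← h𝒟.1, map_mul, mul_comm] at h2
  have hden0 : coeffMap ι 𝒟.denS ≠ 0 := by
    rw [Ne, map_eq_zero_iff _ (ffb_coeffMap_injective ι ι.injective)]
    exact 𝒟.denS_ne_zero h𝒟
  have h3 := mul_right_cancel₀ hden0 h2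
  have h4 := congrArg (fun s : LaurentSeries ℂ => s.coeff (n : ℤ)) h3
  simp only [coeffMap_coeff] at h4
  rw [HahnSeries.ofPowerSeries_apply_coeff] at h4
  exact h4

end

end Fermat.Agent.Lib.S44
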