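/-
M-AT-P, W4′ [AN] (helper5), part 6: from places of `F_K(N)` to the analytic conditions of
`s44r_an_core`; the analytic half of [AN].

* `s44r_exists_quad` : a pair `(z, x) ∈ F²` has a quadruple with the `Φ`-relations;
* `s44r_good_interior`, `s44r_good_cusp` : regular / polar pairs give good quadruples;
* **`s44r_an_of_local`** : `φ = z₀ θx₀ ∈ q K[[q]]` (`x₀` with a pole at `∞`) which at every place
  `P ≠ ∞` can be written `φ = z θt` with `z, t` regular at `P` is the `q`-expansion of a cusp form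
  of weight two on `Γ₀(N)`.
-/
import Fermat.Agent.Lib.S44.RAnForm
import Fermat.Agent.Lib.S44.RAnDefs

set_option autoImplicit false
set_option linter.unusedSectionVars false

namespace Fermat.Agent.Lib.S44

open UpperHalfPlane hiding I
open Filter Function ModularForm ModularCurve CongruenceSubgroup OnePoint
  Matrix.SpecialLinearGroup AlgebraicCurve
open Fermat.Agent.Lib.FF Fermat.Agent.Lib.RR Fermat.Agent.Lib.S29
open scoped Manifold Topology Real MatrixGroups WithZero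

noncomputable section

variable {K : Type*} [Field K] [Algebra ℚ K] (ι : K →+* ℂ) {N : ℕ}

/-- A pair of elements of `F` has a quadruple. -/
theorem s44r_exists_quad (z x : ↥(s29bp_FK K N)) :
    ∃ 𝒟 : s44r_Quad K N, 𝒟.β ≠ 0 ∧ 𝒟.δ ≠ 0 ∧
      (z : LaurentSeries K) * (𝒟.β : LaurentSeries K) = (𝒟.α : LaurentSeries K) ∧
      (x : LaurentSeries K) * (𝒟.δ : LaurentSeries K) = (𝒟.γ : LaurentSeries K) ∧
      s29bp_phi ι N z * algebraMap (ffm_R N) (ffm_E N) (s29bp_psi ι N 𝒟.β) =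
        algebraMap (ffm_R N) (ffm_E N) (s29bp_psi ι N 𝒟.α) ∧
      s29bp_phi ι N x * algebraMap (ffm_R N) (ffm_E N) (s29bp_psi ι N 𝒟.δ) =
        algebraMap (ffm_R N) (ffm_E N) (s29bp_psi ι N 𝒟.γ) := by
  obtain ⟨a, b, hb, h1, h2⟩ := s29bp_exists_frac ι N z
  obtain ⟨c, d, hd, h3, h4⟩ := s29bp_exists_frac ι N x
  exact ⟨⟨a, b, c, d⟩, hb, hd, h1, h3, h2, h4⟩

theorem s44r_ordToVal_le {x y : WithTop ℤ} (h : ffm_ordToVal x ≤ ffm_ordToVal y) : y ≤ x := by
  induction x using WithTop.recTopCoe with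
  | top => exact le_top
  | coe a =>
    induction y using WithTop.recTopCoe with
    | top =>
      simp only [ffm_ordToVal_top, ffm_ordToVal_coe] at h
      exact absurd (le_antisymm h zero_le) (by simp)
    | coe b =>
      simp only [ffm_ordToVal_coe, WithZero.exp_le_exp] at h
      have : b ≤ a := by omega
      exact_mod_cast this

/-- valuation `≤ 1` at `τ` ⇒ order inequality of numerator and denominator. -/
theorem s44r_div_ord_le_of_val (a b : ffm_R N) (_hb : b ≠ 0) (y : ffm_E N)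
    (hy : y * algebraMap (ffm_R N) (ffm_E N) b = algebraMap (ffm_R N) (ffm_E N) a) (τ : ℍ)
    (hv : ffm_ordAt N τ y ≤ 1) : div_ord (b : ℍ → ℂ) τ ≤ div_ord (a : ℍ → ℂ) τ := by
  have h1 : ffm_ordAt N τ (algebraMap (ffm_R N) (ffm_E N) a) ≤
      ffm_ordAt N τ (algebraMap (ffm_R N) (ffm_E N) b) := by
    rw [← hy, map_mul]
    exact mul_le_of_le_one_left' hv
  rw [ffm_ordAt_algebraMap, ffm_ordAt_algebraMap] at h1
  have h2 := s44r_ordToVal_le h1
  show analyticOrderAt (ffm_germAt N b) (τ : ℂ) ≤ analyticOrderAt (ffm_germAt N a) (τ : ℂ)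
  rw [s44r_analyticOrderAt_le_iff (ffm_germAt_analyticAt N b τ) (ffm_germAt_analyticAt N a τ)]
  exact h2

/-- A pair regular at `τ` gives a good quadruple at `τ`. -/
theorem s44r_good_interior {φ : LaurentSeries K} (z x : ↥(s29bp_FK K N))
    (hφ : φ = (z : LaurentSeries K) * ffd_theta (x : LaurentSeries K)) (τ : ℍ)
    (hz : ffm_ordAt N τ (s29bp_phi ι N z) ≤ 1) (hx : ffm_ordAt N τ (s29bp_phi ι N x) ≤ 1) :
    ∃ 𝒟' : s44r_Quad K N, 𝒟'.Represents φ ∧
      div_ord (𝒟'.fb ι) τ ≤ div_ord (𝒟'.fa ι) τ ∧ div_ord (𝒟'.fd ι) τ ≤ div_ord (𝒟'.fc ι) τ := by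
  obtain ⟨𝒟, hβ, hδ, h1, h2, h3, h4⟩ := s44r_exists_quad ι z x
  have hβ' : s29bp_psi ι N 𝒟.β ≠ 0 := fun h0 => hβ (s29bp_psi_injective ι N (by rw [h0, map_zero]))
  have hδ' : s29bp_psi ι N 𝒟.δ ≠ 0 := fun h0 => hδ (s29bp_psi_injective ι N (by rw [h0, map_zero]))
  refine ⟨𝒟, hφ ▸ s44r_represents_of_frac 𝒟 h1 h2 hβ hδ, ?_, ?_⟩
  · exact s44r_div_ord_le_of_val _ _ hβ' _ h3 τ hz
  · exact s44r_div_ord_le_of_val _ _ hδ' _ h4 τ hx

/-! ### Cusps -/

section Cusp

variable [NeZero N]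

theorem s44r_smul_ne_zero (σ : SL(2, ℤ)) {f : ffm_R N} (hf : f ≠ 0) : σ • f ≠ 0 := by
  intro h
  apply hf
  have := congrArg (fun g => σ⁻¹ • g) h
  simpa using this

/-- orders at `i∞` of numerator, denominator and quotient. -/
theorem s44r_cusp_orders (a b : ffm_R N) (ha : a ≠ 0) (hb : b ≠ 0) (y : ffm_E N)
    (hy : y * algebraMap (ffm_R N) (ffm_E N) b = algebraMap (ffm_R N) (ffm_E N) a) :
    meromorphicOrderAt (ffm_germInf N a) 0 = ((ffm_expInf N a : ℤ) : WithTop ℤ) ∧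
    meromorphicOrderAt (ffm_germInf N b) 0 = ((ffm_expInf N b : ℤ) : WithTop ℤ) ∧
    ffi_ord (ffm_ordInf N) y = ffm_expInf N a - ffm_expInf N b := by
  refine ⟨ffm_expInf_eq N ha, ffm_expInf_eq N hb, ?_⟩
  have h1 := congrArg (ffm_ordInf N) hy
  rw [map_mul, ffm_ordInf_algebraMap_eq_exp N ha, ffm_ordInf_algebraMap_eq_exp N hb] at h1
  have h2 : ffm_ordInf N y =
      WithZero.exp (-(ffm_expInf N a)) * (WithZero.exp (-(ffm_expInf N b)))⁻¹ := by
    rw [← h1, mul_assoc, mul_inv_cancel₀ WithZero.exp_ne_zero, mul_one]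
  unfold ffi_ord
  rw [h2, ← WithZero.exp_neg, ← WithZero.exp_add, WithZero.log_exp]
  ring

/-- the slashed `Φ`-relation. -/
theorem s44r_smul_rel (σ : SL(2, ℤ)) (a b : ffm_R N) (y : ffm_E N)
    (hy : y * algebraMap (ffm_R N) (ffm_E N) b = algebraMap (ffm_R N) (ffm_E N) a) :
    (σ • y) * algebraMap (ffm_R N) (ffm_E N) (σ • b) =
      algebraMap (ffm_R N) (ffm_E N) (σ • a) := by
  rw [← ffm_smul_algebraMap, ← ffm_smul_algebraMap, ← smul_mul', hy]

/-- A pair which is regular, or polar of positive total order, at the cusp `σ∞` gives a good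
quadruple there. -/
theorem s44r_good_cusp {φ : LaurentSeries K} (z x : ↥(s29bp_FK K N)) (hz0 : z ≠ 0) (hx0 : x ≠ 0)
    (hφ : φ = (z : LaurentSeries K) * ffd_theta (x : LaurentSeries K)) (σ : SL(2, ℤ))
    (hcase : (0 ≤ ffi_ord (ffm_ordInf N) (σ⁻¹ • s29bp_phi ι N z) ∧
        0 ≤ ffi_ord (ffm_ordInf N) (σ⁻¹ • s29bp_phi ι N x)) ∨
      (ffi_ord (ffm_ordInf N) (σ⁻¹ • s29bp_phi ι N x) ≠ 0 ∧
        0 < ffi_ord (ffm_ordInf N) (σ⁻¹ • s29bp_phi ι N z) +
          ffi_ord (ffm_ordInf N) (σ⁻¹ • s29bp_phi ι N x))) :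
    ∃ 𝒟' : s44r_Quad K N, 𝒟'.Represents φ ∧ 𝒟'.CuspOK ι σ := by
  obtain ⟨𝒟, hβ, hδ, h1, h2, h3, h4⟩ := s44r_exists_quad ι z x
  have hz0' : (z : LaurentSeries K) ≠ 0 := fun h => hz0 (Subtype.ext h)
  have hx0' : (x : LaurentSeries K) ≠ 0 := fun h => hx0 (Subtype.ext h)
  have hβL : (𝒟.β : LaurentSeries K) ≠ 0 := fun h => hβ (Subtype.ext h)
  have hδL : (𝒟.δ : LaurentSeries K) ≠ 0 := fun h => hδ (Subtype.ext h)
  have hα : 𝒟.α ≠ 0 := by
    intro h
    have : (𝒟.α : LaurentSeries K) = 0 := by rw [h]; rfl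
    rw [← h1] at this
    exact mul_ne_zero hz0' hβL this
  have hγ : 𝒟.γ ≠ 0 := by
    intro h
    have : (𝒟.γ : LaurentSeries K) = 0 := by rw [h]; rfl
    rw [← h2] at this
    exact mul_ne_zero hx0' hδL this
  have hne : ∀ a : s29bp_A K N, a ≠ 0 → σ⁻¹ • s29bp_psi ι N a ≠ 0 := fun a ha =>
    s44r_smul_ne_zero σ⁻¹ (fun h0 => ha (s29bp_psi_injective ι N (by rw [h0, map_zero])))
  obtain ⟨ea, eb, eab⟩ := s44r_cusp_orders _ _ (hne _ hα) (hne _ hβ) _
    (s44r_smul_rel σ⁻¹ _ _ _ h3)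
  obtain ⟨ec, ed, ecd⟩ := s44r_cusp_orders _ _ (hne _ hγ) (hne _ hδ) _
    (s44r_smul_rel σ⁻¹ _ _ _ h4)
  refine ⟨𝒟, hφ ▸ s44r_represents_of_frac 𝒟 h1 h2 hβ hδ, _, _, _, _, ea, eb, ec, ed, ?_⟩
  rw [eab, ecd] at hcase
  rcases hcase with ⟨h5, h6⟩ | ⟨h5, h6⟩
  · left; constructor <;> omega
  · right; constructor <;> omega

end Cusp

/-! ### The analytic half of [AN] -/

theorem s44r_order_theta {x : LaurentSeries K} (hx : x.order ≠ 0) :
    (ffd_theta x).order = x.order := by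
  have : CharZero K := algebraRat.charZero K
  have hx0 : x ≠ 0 := by
    rintro rfl
    exact hx HahnSeries.order_zero
  have hc : (ffd_theta x).coeff x.order ≠ 0 := by
    rw [ffd_theta_coeff]
    refine mul_ne_zero ?_ (fun h => hx0 (HahnSeries.coeff_order_eq_zero.mp h))
    exact_mod_cast hx
  have hθ0 : ffd_theta x ≠ 0 := HahnSeries.ne_zero_of_coeff_ne_zero hc
  refine le_antisymm (HahnSeries.order_le_of_coeff_ne_zero hc) ?_
  rw [HahnSeries.le_order_iff_forall hθ0]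
  intro j hj
  rw [ffd_theta_coeff, HahnSeries.coeff_eq_zero_of_lt_order hj, mul_zero]

variable [NeZero N]

/-- **The analytic half of [AN].** -/
theorem s44r_an_of_local (φ : LaurentSeries K) (hφ0 : φ ≠ 0) (hord : 0 < φ.order)
    (z₀ x₀ : ↥(s29bp_FK K N))
    (h₀ : φ = (z₀ : LaurentSeries K) * ffd_theta (x₀ : LaurentSeries K))
    (hx₀ : (x₀ : LaurentSeries K).order < 0)
    (hloc : ∀ P : Place K ↥(s29bp_FK K N), P ≠ s44r_vinf K N →
      ∃ z t : ↥(s29bp_FK K N), z ∈ P.toValuationSubring ∧ t ∈ P.toValuationSubring ∧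
        φ = (z : LaurentSeries K) * ffd_theta (t : LaurentSeries K)) :
    ∃ f : CuspForm (Gamma0 N) 2, ∀ n : ℕ, (qExpansion 1 f).coeff n = ι (φ.coeff n) := by
  have hz₀L : (z₀ : LaurentSeries K) ≠ 0 := by
    intro h; rw [h, zero_mul] at h₀; exact hφ0 h₀
  have hθ₀L : ffd_theta (x₀ : LaurentSeries K) ≠ 0 := by
    intro h; rw [h, mul_zero] at h₀; exact hφ0 h₀
  have hz₀ : z₀ ≠ 0 := fun h => hz₀L (by rw [h]; rfl)
  have hx₀0 : x₀ ≠ 0 := by
    intro h
    rw [h] at hx₀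
    simp at hx₀
  -- a pair `(z, t)` with `φ = z θt`, `φ ≠ 0`, has `z ≠ 0`, `t ≠ 0`
  have hpair : ∀ z t : ↥(s29bp_FK K N),
      φ = (z : LaurentSeries K) * ffd_theta (t : LaurentSeries K) → z ≠ 0 ∧ t ≠ 0 := by
    intro z t h
    constructor
    · intro h0; rw [h0] at h; apply hφ0; rw [h]; simp
    · intro h0; rw [h0] at h; apply hφ0; rw [h]
      have : ffd_theta (((0 : ↥(s29bp_FK K N)) : LaurentSeries K)) = 0 := by
        ext n; simp
      rw [this, mul_zero]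
  obtain ⟨𝒟₀, hβ, hδ, h1, h2, -, -⟩ := s44r_exists_quad ι z₀ x₀
  have h𝒟₀ : 𝒟₀.Represents φ := h₀ ▸ s44r_represents_of_frac 𝒟₀ h1 h2 hβ hδ
  refine s44r_an_core ι φ 𝒟₀ h𝒟₀ ?_ ?_
  · -- interior points
    intro τ
    let w : Valuation ↥(s29bp_FK K N) ℤᵐ⁰ := (ffm_ordAt N τ).comap (s29bp_phi ι N)
    have hw : ∀ f, w f = ffm_ordAt N τ (s29bp_phi ι N f) := fun f => rfl
    have hK : ∀ c : K, w (algebraMap K ↥(s29bp_FK K N) c) ≤ 1 := by
      intro c
      rw [hw, s29bp_phi_const]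
      by_cases hc : c = 0
      · rw [hc, map_zero, map_zero, map_zero]; exact zero_le_one
      · exact (ffm_ordAt_const N τ ((map_ne_zero ι).mpr hc)).le
    by_cases hnt : ∃ t : ↥(s29bp_FK K N), t ≠ 0 ∧ w t < 1
    · obtain ⟨P, m, hm, hP⟩ := s29m_place_of_valuation w hK hnt
      have hPinf : P ≠ s44r_vinf K N := by
        rintro rfl
        have hj0 := s44r_jK_ne_zero K N
        have h3 := hP (s29bp_jK K N) hj0
        rw [s44r_vinf_ord K N hj0, s44r_order_jK] at h3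
        have h4 : w (s29bp_jK K N) ≤ 1 := by
          rw [hw, s29bp_phi_j]; exact ffm_ordAt_algebraMap_le_one N τ _
        have h5 : w (s29bp_jK K N) ≠ 0 := (Valuation.ne_zero_iff w).mpr hj0
        have h6 : WithZero.log (w (s29bp_jK K N)) ≤ 0 := by
          rw [← WithZero.log_one]; exact (WithZero.log_le_log h5 one_ne_zero).mpr h4
        nlinarith
      obtain ⟨z, t, hzP, htP, hzt⟩ := hloc P hPinf
      obtain ⟨hz0, ht0⟩ := hpair z t hzt
      have hle : ∀ f : ↥(s29bp_FK K N), f ≠ 0 → f ∈ P.toValuationSubring → w f ≤ 1 := by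
        intro f hf hfP
        have h3 := hP f hf
        have h4 : 0 ≤ P.ord f := (ff_mem_iff_ord_nonneg P hf).mp hfP
        have h5 : w f ≠ 0 := (Valuation.ne_zero_iff w).mpr hf
        rw [← WithZero.exp_log h5, ← WithZero.exp_zero, WithZero.exp_le_exp]
        nlinarith
      exact s44r_good_interior ι z t hzt τ (hle z hz0 hzP) (hle t ht0 htP)
    · -- trivial valuation: the global pair is regular
      push Not at hnt
      have hone : ∀ f : ↥(s29bp_FK K N), f ≠ 0 → w f ≤ 1 := by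
        intro f hf
        have h3 := hnt f⁻¹ (inv_ne_zero hf)
        rw [map_inv₀] at h3
        have h5 : w f ≠ 0 := (Valuation.ne_zero_iff w).mpr hf
        exact (one_le_inv₀ (zero_lt_iff.mpr h5)).mp h3
      exact s44r_good_interior ι z₀ x₀ h₀ τ (hone z₀ hz₀) (hone x₀ hx₀0)
  · -- cusps
    intro σ
    obtain ⟨P, m, hm, hP⟩ := s29bp_exists_place_cusp (K := K) ι N σ⁻¹
    by_cases hPinf : P = s44r_vinf K N
    · -- the cusp lies over `∞`: polar case with the global pair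
      subst hPinf
      refine s44r_good_cusp ι z₀ x₀ hz₀ hx₀0 h₀ σ (Or.inr ?_)
      rw [hP z₀ hz₀, hP x₀ hx₀0, s44r_vinf_ord K N hz₀, s44r_vinf_ord K N hx₀0]
      have h3 : φ.order = (z₀ : LaurentSeries K).order + (x₀ : LaurentSeries K).order := by
        rw [h₀, HahnSeries.order_mul hz₀L hθ₀L, s44r_order_theta (by omega)]
      constructor
      · have : m * (x₀ : LaurentSeries K).order < 0 := mul_neg_of_pos_of_neg hm hx₀
        omega
      · rw [← mul_add, ← h3]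
        exact mul_pos hm hord
    · obtain ⟨z, t, hzP, htP, hzt⟩ := hloc P hPinf
      obtain ⟨hz0, ht0⟩ := hpair z t hzt
      refine s44r_good_cusp ι z t hz0 ht0 hzt σ (Or.inl ?_)
      rw [hP z hz0, hP t ht0]
      have h4 : 0 ≤ P.ord z := (ff_mem_iff_ord_nonneg P hz0).mp hzP
      have h5 : 0 ≤ P.ord t := (ff_mem_iff_ord_nonneg P ht0).mp htP
      exact ⟨mul_nonneg hm.le h4, mul_nonneg hm.le h5⟩

end

end Fermat.Agent.Lib.S44
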