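/-
M-AT-P programme (S44), W4′ [AN], algebraic half, step [DIFF] (helper5, prefix `s44r_`).

Generic different bound: `K` a field of characteristic `0`, `F/K` a function field with
transcendental generator `t` (`[FFGen K t]`), `A = K[t]`, `B = ffB K t` its integral closure.
If `P` is a place of `F` at which `t` is a uniformiser (`ord_P t = 1`), then `P` is unramified
over `K[t]`, hence does not divide the different, hence every `z` in the trace dual of `B`
(`Tr_{F/K(t)}(z·B) ⊆ K[t]`) is regular at `P`.
-/
import Fermat.Agent.Lib.FF.FFBasicResidue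
import Fermat.Agent.Lib.FF.FFBasicIdentity

set_option autoImplicit false
set_option linter.unusedSectionVars false
set_option linter.style.haveILetI false

noncomputable section

namespace Fermat.Agent.Lib.S44

open IsDedekindDomain WithZero IsLocalRing AlgebraicCurve IntermediateField Polynomial
  Fermat.Agent.Lib.FF
open scoped IntermediateField.algebraAdjoinAdjoin nonZeroDivisors

attribute [local instance] FractionRing.liftAlgebra

/-- residue extensions are separable in characteristic zero. -/
theorem s44r_quot_sep {K A B : Type*} [Field K] [CharZero K] [CommRing A] [CommRing B]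
    [Algebra K A] [Algebra A B] [Algebra.IsIntegral A B]
    (p : Ideal A) [p.IsMaximal] (P : Ideal B) [P.IsMaximal] [P.LiesOver p] :
    Algebra.IsSeparable (A ⧸ p) (B ⧸ P) := by
  letI := Ideal.Quotient.field p
  letI := Ideal.Quotient.field P
  haveI : CharZero (A ⧸ p) :=
    charZero_of_injective_algebraMap (algebraMap K (A ⧸ p)).injective
  haveI : Algebra.IsIntegral (A ⧸ p) (B ⧸ P) := Ideal.Quotient.algebra_isIntegral_of_liesOver P p
  exact Algebra.IsAlgebraic.isSeparable_of_perfectField

/-- an element of the trace dual of `B` is integral at every prime not dividing the different. -/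
theorem s44r_val_le_one_of_dual {A K L B : Type*} [CommRing A] [Field K] [CommRing B] [Field L]
    [Algebra A K] [Algebra B L] [Algebra A B] [Algebra K L] [Algebra A L]
    [IsScalarTower A K L] [IsScalarTower A B L]
    [IsDomain A] [IsFractionRing A K] [FiniteDimensional K L] [Algebra.IsSeparable K L]
    [IsIntegralClosure B A L] [IsFractionRing B L] [IsIntegrallyClosed A]
    [IsDedekindDomain B] [Module.IsTorsionFree A B]
    (w : HeightOneSpectrum B) (hw : ¬ w.asIdeal ∣ differentIdeal A B) (z : L)
    (hz : ∀ b : B, ∃ a : A, Algebra.trace K L (z * algebraMap B L b) = algebraMap A K a) :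
    w.valuation L z ≤ 1 := by
  have hne : (1 : FractionalIdeal B⁰ L) ≠ 0 := one_ne_zero
  have hzd : z ∈ FractionalIdeal.dual A K (1 : FractionalIdeal B⁰ L) := by
    rw [FractionalIdeal.mem_dual hne]
    intro a ha
    obtain ⟨b, rfl⟩ := (FractionalIdeal.mem_one_iff _).mp ha
    obtain ⟨c, hc⟩ := hz b
    exact ⟨c, by rw [Algebra.traceForm_apply, hc]⟩
  have hD := coeIdeal_differentIdeal A K L B
  have hdual : FractionalIdeal.dual A K (1 : FractionalIdeal B⁰ L)
      = ((differentIdeal A B : Ideal B) : FractionalIdeal B⁰ L)⁻¹ := by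
    rw [hD, inv_inv]
  rw [hdual] at hzd
  -- an element of the different outside `w`
  rw [Ideal.dvd_iff_le] at hw
  obtain ⟨d, hdD, hdw⟩ := SetLike.not_le_iff_exists.mp hw
  have hDne : ((differentIdeal A B : Ideal B) : FractionalIdeal B⁰ L) ≠ 0 := by
    intro h0
    rw [h0, inv_zero] at hdual
    exact FractionalIdeal.dual_ne_zero A K hne hdual
  have hmul := (FractionalIdeal.mem_inv_iff hDne).mp hzd (algebraMap B L d)
    ((FractionalIdeal.mem_coeIdeal _).mpr ⟨d, hdD, rfl⟩)
  obtain ⟨b, hb⟩ := (FractionalIdeal.mem_one_iff _).mp hmul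
  have hvd : w.valuation L (algebraMap B L d) = 1 := by
    rw [w.valuation_of_algebraMap]
    have h1 := w.intValuation_le_one d
    have h2 : ¬ w.intValuation d < 1 := fun h => hdw ((w.intValuation_lt_one_iff_mem d).mp h)
    exact le_antisymm h1 (not_lt.mp h2)
  have : w.valuation L z = w.valuation L (algebraMap B L b) := by
    rw [hb, map_mul, hvd, mul_one]
  rw [this]
  exact w.valuation_le_one b

variable {K F : Type*} [Field K] [Field F] [Algebra K F] [CharZero K] {t : F} [FFGen K t]

set_option synthInstance.maxHeartbeats 200000 in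
/-- separability of the fraction fields (characteristic zero). -/
theorem s44r_diff_sep :
    Algebra.IsSeparable (FractionRing (ffA K t)) (FractionRing (ffB K t)) := by
  haveI : CharZero (FractionRing (ffA K t)) :=
    charZero_of_injective_algebraMap (algebraMap K (FractionRing (ffA K t))).injective
  exact Algebra.IsAlgebraic.isSeparable_of_perfectField

set_option synthInstance.maxHeartbeats 200000 in
set_option maxHeartbeats 1000000 in
/-- a place at which `t` is a uniformiser is unramified over `K[t]`. -/
theorem s44r_diff_unram (w : HeightOneSpectrum (ffB K t))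
    (hw : (ff_placeOf K t w).ord t = 1) :
    ¬ w.asIdeal ∣ differentIdeal (ffA K t) (ffB K t) := by
  classical
  have hXw : ffXB K t ∈ w.asIdeal := (ff_ord_x_pos_iff w).mp (by omega)
  haveI hlies : w.asIdeal.LiesOver (ffP K t) := ff_liesOver_of_mem w hXw
  haveI hmax : w.asIdeal.IsMaximal := w.isMaximal
  have he : Ideal.ramificationIdx' (ffP K t) w.asIdeal = 1 := by
    have := ff_ramificationIdx_eq (K := K) (x := t) w
    rw [hw] at this
    exact_mod_cast this
  have hmap_ne : (ffP K t).map (algebraMap (ffA K t) (ffB K t)) ≠ ⊥ := by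
    rw [ffP_map, Ne, Ideal.span_singleton_eq_bot]
    exact ffXB_ne_zero
  obtain ⟨Q, h₁, h₂⟩ := Ideal.eq_prime_pow_mul_coprime hmap_ne w.asIdeal
  rw [← Ideal.IsDedekindDomain.ramificationIdx'_eq_normalizedFactors_count hmap_ne w.isPrime
    w.ne_bot, he, pow_one] at h₂
  haveI := s44r_diff_sep (K := K) (t := t)
  haveI : Algebra.IsSeparable (ffA K t ⧸ ffP K t) (ffB K t ⧸ w.asIdeal) :=
    s44r_quot_sep (K := K) (ffP K t) w.asIdeal
  exact not_dvd_differentIdeal_of_isCoprime_of_isSeparable (ffA K t) w.asIdeal Q
    (Ideal.isCoprime_iff_sup_eq.mpr h₁) h₂.symm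

set_option synthInstance.maxHeartbeats 200000 in
set_option maxHeartbeats 1000000 in
/-- **[DIFF]** the different bound at a place where `t` is a uniformiser: the trace dual of the
integral closure of `K[t]` is regular there. -/
theorem s44r_diff (P : Place K F) (htP : t ∈ P.toValuationSubring) (hP : P.ord t = 1) (z : F)
    (hz : ∀ U ∈ ffB K t, ∃ p : K[X],
      algebraMap K⟮t⟯ F (Algebra.trace K⟮t⟯ F (z * U)) = Polynomial.aeval t p) :
    z ∈ P.toValuationSubring := by
  set w := ff_primeOf P htP with hwdef
  have hPw : ff_placeOf K t w = P := ff_placeOf_primeOf P htP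
  have hw : (ff_placeOf K t w).ord t = 1 := by rw [hPw]; exact hP
  rw [← hPw, ff_mem_placeOf_iff]
  refine s44r_val_le_one_of_dual (A := ffA K t) (K := K⟮t⟯) (L := F) (B := ffB K t) w
    (s44r_diff_unram w hw) z ?_
  intro b
  obtain ⟨p, hp⟩ := hz (b : F) b.2
  have hmem : Polynomial.aeval t p ∈ ffA K t := by
    show Polynomial.aeval t p ∈ Algebra.adjoin K {t}
    rw [Algebra.adjoin_singleton_eq_range_aeval]
    exact ⟨p, rfl⟩
  refine ⟨⟨Polynomial.aeval t p, hmem⟩, ?_⟩
  apply (algebraMap K⟮t⟯ F).injective
  rw [← IsScalarTower.algebraMap_apply (ffA K t) K⟮t⟯ F]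
  exact hp

end Fermat.Agent.Lib.S44
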