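/-
M-AT-P programme (S44), W4′ [RIEMANN-K], corollaries (helper6, prefix `s44rc_`).

`K` any field of characteristic `0`, `F/K` a function field (`[FFGen K x]`), `vinf : Place K F` a
place with residue field `K`, `B = s44rc_B vinf` the ring of functions regular at every place
`≠ vinf`.  For `t ∈ B` with a pole at `vinf` (`vinf.ord t < 0`):

* `s44rc_transcendental`, `s44rc_gen` : `t` is transcendental, `FFGen K t`;
* `s44rc_mem_B_iff_mem_ffB` : **`B = ffB K t`** (integral closure of `K[t]`), as sets;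
* `s44rc_finrank` : **`[F : K(t)] = − ord_∞ t`**;
* `s44rc_exists_basis` : a `K⟮t⟯`-basis of `F` inside `B`;
* `s44rc_exists_unif` : for every place `P ≠ vinf` a `π ∈ B` with `ord_P π = 1`.
-/
import Fermat.Agent.Lib.FF.FFBasicResidue
import Fermat.Agent.Lib.FF.FFBasicIdentity

set_option autoImplicit false
set_option linter.unusedSectionVars false
set_option linter.style.haveILetI false

noncomputable section

namespace Fermat.Agent.Lib.S44

open IsDedekindDomain WithZero IsLocalRing AlgebraicCurve IntermediateField Polynomial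
  Fermat.Agent.Lib.FF
open scoped IntermediateField.algebraAdjoinAdjoin

variable {K F : Type*} [Field K] [Field F] [Algebra K F]

/-- the functions regular at every place `≠ vinf`. -/
def s44rc_B (vinf : Place K F) : Subalgebra K F where
  carrier := {U | ∀ v : Place K F, v ≠ vinf → U ∈ v.toValuationSubring}
  mul_mem' := fun ha hb v hv => v.toValuationSubring.mul_mem _ _ (ha v hv) (hb v hv)
  add_mem' := fun ha hb v hv => v.toValuationSubring.add_mem _ _ (ha v hv) (hb v hv)
  algebraMap_mem' := fun c v _ => v.algebraMap_mem' c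

theorem s44rc_mem_B_iff (vinf : Place K F) (U : F) :
    U ∈ s44rc_B vinf ↔ ∀ v : Place K F, v ≠ vinf → U ∈ v.toValuationSubring := Iff.rfl

/-- elements algebraic over the constants have order `0` everywhere. -/
theorem s44rc_ord_eq_zero_of_isAlgebraic (v : Place K F) {t : F} (ht : IsAlgebraic K t) :
    v.ord t = 0 := by
  rcases eq_or_ne t 0 with rfl | ht0
  · exact v.ord_zero
  have key : ∀ s : F, IsAlgebraic K s → s ∈ v.toValuationSubring := by
    intro s hs
    have h1 : IsIntegral v.toValuationSubring s := hs.isIntegral.tower_top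
    obtain ⟨y, hy⟩ :=
      (IsIntegrallyClosed.isIntegral_iff (R := v.toValuationSubring) (K := F)).mp h1
    rw [← hy]
    exact y.2
  have h1 := (ff_mem_iff_ord_nonneg v ht0).mp (key t ht)
  have h2 := (ff_mem_iff_ord_nonneg v (inv_ne_zero ht0)).mp (key t⁻¹ ht.inv)
  rw [v.ord_inv] at h2
  omega

/-- a function with a pole is transcendental. -/
theorem s44rc_transcendental (vinf : Place K F) {t : F} (ht : vinf.ord t < 0) :
    Transcendental K t := by
  intro halg
  have := s44rc_ord_eq_zero_of_isAlgebraic vinf halg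
  omega

section gen

variable [CharZero K] (x : F) [FFGen K x] (vinf : Place K F)

include x in
theorem s44rc_gen {t : F} (ht : vinf.ord t < 0) : FFGen K t :=
  ff_gen_of_transcendental (x := x) (s44rc_transcendental vinf ht)

end gen

section main

variable [CharZero K] (vinf : Place K F) {t : F} [FFGen K t]

theorem s44rc_ne_zero_of_ord {t : F} (ht : vinf.ord t < 0) : t ≠ 0 := by
  rintro rfl
  rw [vinf.ord_zero] at ht
  exact lt_irrefl _ ht

theorem s44rc_not_mem_vinf (ht : vinf.ord t < 0) : t ∉ vinf.toValuationSubring := by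
  intro h
  have := (ff_mem_iff_ord_nonneg vinf (s44rc_ne_zero_of_ord vinf ht)).mp h
  omega

/-- **(C2)** `B` is the integral closure of `K[t]`. -/
theorem s44rc_mem_B_iff_mem_ffB (htB : t ∈ s44rc_B vinf) (ht : vinf.ord t < 0) (U : F) :
    U ∈ s44rc_B vinf ↔ U ∈ ffB K t := by
  constructor
  · intro hU
    have hle : ∀ w : HeightOneSpectrum (ffB K t), w.valuation F U ≤ 1 := by
      intro w
      rw [← ff_mem_placeOf_iff]
      apply hU
      intro hv
      have := ff_x_mem_placeOf (K := K) (x := t) w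
      rw [hv] at this
      exact s44rc_not_mem_vinf vinf ht this
    obtain ⟨b, hb⟩ := HeightOneSpectrum.mem_integers_of_valuation_le_one F U hle
    rw [← hb]
    exact b.2
  · intro hU v hv
    exact ff_B_mem_of_mem v (htB v hv) ⟨U, hU⟩

/-- the places at which `t` is regular are the places `≠ vinf`. -/
theorem s44rc_mem_iff_ne (htB : t ∈ s44rc_B vinf) (ht : vinf.ord t < 0) (v : Place K F) :
    t ∈ v.toValuationSubring ↔ v ≠ vinf := by
  constructor
  · rintro h rfl
    exact s44rc_not_mem_vinf v ht h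
  · exact fun hv => htB v hv

/-- **(C4)** uniformisers inside `B`. -/
theorem s44rc_exists_unif (htB : t ∈ s44rc_B vinf) (ht : vinf.ord t < 0) (P : Place K F)
    (hP : P ≠ vinf) : ∃ π : F, π ∈ s44rc_B vinf ∧ P.ord π = 1 := by
  have htP : t ∈ P.toValuationSubring := htB P hP
  set w := ff_primeOf P htP with hw
  obtain ⟨π, hπ⟩ := w.intValuation_exists_uniformizer
  refine ⟨(π : F), (s44rc_mem_B_iff_mem_ffB vinf htB ht _).mpr π.2, ?_⟩
  rw [← ff_placeOf_primeOf P htP, ff_placeOf_ord]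
  have h1 : w.valuation F (π : F) = w.intValuation π := w.valuation_of_algebraMap π
  rw [h1, hπ, WithZero.log_exp]
  norm_num

omit [CharZero K] [FFGen K t] in
/-- strict ultrametric inequality for `ord`. -/
theorem s44rc_ord_add_of_lt (v : Place K F) {f g : F} (hf : f ≠ 0) (hg : g ≠ 0)
    (h : v.ord f < v.ord g) : v.ord (f + g) = v.ord f := by
  have h1 : v.adicValuation g < v.adicValuation f := by
    rw [← not_le, ← Fermat.Agent.Lib.FF.ff_ord_le_iff v hg hf]
    omega
  have h2 := Valuation.map_add_eq_of_lt_left v.adicValuation h1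
  rw [Fermat.Agent.Lib.FF.ff_ord_eq_neg_log, h2]
  rfl

/-- **(C4′)** uniformisers inside `B` with a pole at `vinf`. -/
theorem s44rc_exists_unif_pole (htB : t ∈ s44rc_B vinf) (ht : vinf.ord t < 0) (P : Place K F)
    (hP : P ≠ vinf) : ∃ π : F, π ∈ s44rc_B vinf ∧ P.ord π = 1 ∧ vinf.ord π < 0 := by
  obtain ⟨π, hπB, hπP⟩ := s44rc_exists_unif vinf htB ht P hP
  have hπ0 : π ≠ 0 := by
    rintro rfl
    rw [Place.ord_zero] at hπP
    omega
  have ht0 : t ≠ 0 := s44rc_ne_zero_of_ord vinf ht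
  by_cases hneg : vinf.ord π < 0
  · exact ⟨π, hπB, hπP, hneg⟩
  have ha : 0 ≤ vinf.ord π := not_lt.mp hneg
  set N : ℕ := 2 * (vinf.ord π).toNat + 1 with hN
  have hNa : (N : ℤ) = 2 * vinf.ord π + 1 := by
    rw [hN]
    push_cast
    rw [Int.toNat_of_nonneg ha]
  set g : F := π * t ^ N with hg
  have hg0 : g ≠ 0 := mul_ne_zero hπ0 (pow_ne_zero _ ht0)
  have hord : ∀ v : Place K F, v.ord g = v.ord π + (N : ℤ) * v.ord t := by
    intro v
    rw [hg, v.ord_mul hπ0 (pow_ne_zero _ ht0), ← zpow_natCast, v.ord_zpow]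
  have htP : 0 ≤ P.ord t := (Fermat.Agent.Lib.FF.ff_mem_iff_ord_nonneg P ht0).mp (htB P hP)
  -- at `P`
  have h1P : P.ord (1 + g) = 0 := by
    have h := s44rc_ord_add_of_lt P (one_ne_zero) hg0 (by
      rw [Place.ord_one, hord P, hπP]
      positivity)
    rw [h, Place.ord_one]
  -- at `vinf`
  have hgneg : vinf.ord g < 0 := by
    rw [hord vinf, hNa]
    nlinarith
  have h1inf : vinf.ord (1 + g) = vinf.ord g := by
    have h := s44rc_ord_add_of_lt vinf hg0 (one_ne_zero) (by rw [Place.ord_one]; exact hgneg)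
    rw [add_comm, h]
  have h1g0 : (1 : F) + g ≠ 0 := by
    intro h0
    rw [h0, Place.ord_zero] at h1inf
    omega
  refine ⟨π * (1 + g), ?_, ?_, ?_⟩
  · refine (s44rc_B vinf).mul_mem hπB ((s44rc_B vinf).add_mem ((s44rc_B vinf).one_mem) ?_)
    exact (s44rc_B vinf).mul_mem hπB ((s44rc_B vinf).pow_mem htB N)
  · rw [P.ord_mul hπ0 h1g0, h1P, hπP, add_zero]
  · rw [vinf.ord_mul hπ0 h1g0, h1inf, hord vinf, hNa]
    nlinarith

/-- **(C3)** a `K⟮t⟯`-basis of `F` inside `B`. -/
theorem s44rc_exists_basis (htB : t ∈ s44rc_B vinf) (ht : vinf.ord t < 0) :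
    ∃ b : Module.Basis (Fin (Module.finrank K⟮t⟯ F)) K⟮t⟯ F, ∀ i, b i ∈ s44rc_B vinf := by
  classical
  let c := Module.finBasis K⟮t⟯ F
  haveI := ff_isAlgebraic_adjoin (K := K) (x := t)
  have hex : ∀ i, ∃ a : ffA K t, a ≠ 0 ∧ (a : F) * c i ∈ ffB K t := by
    intro i
    obtain ⟨a, ha, h⟩ :=
      (Algebra.IsAlgebraic.isAlgebraic (R := ffA K t) (c i)).exists_integral_multiple
    exact ⟨a, ha, h⟩
  choose a ha0 ha using hex
  -- the scalars as units of `K⟮t⟯`
  have hmem : ∀ i, ((a i : ffA K t) : F) ∈ K⟮t⟯ := fun i =>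
    IntermediateField.algebra_adjoin_le_adjoin K _ (a i).2
  let u : Fin (Module.finrank K⟮t⟯ F) → K⟮t⟯ := fun i => ⟨(a i : F), hmem i⟩
  have hu : ∀ i, IsUnit (u i) := by
    intro i
    rw [isUnit_iff_ne_zero]
    intro h0
    apply ha0 i
    apply Subtype.ext
    exact congrArg (fun z : K⟮t⟯ => (z : F)) h0
  refine ⟨c.isUnitSMul hu, fun i => ?_⟩
  rw [Module.Basis.isUnitSMul_apply]
  rw [s44rc_mem_B_iff_mem_ffB vinf htB ht]
  exact ha i

end main

section degree

/-- residue degree one when the constants surject onto the residue field upstairs. -/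
theorem s44rc_inertiaDeg_eq_one_aux {K A B : Type*} [Field K] [CommRing A]
    [CommRing B] [Algebra K A] [Algebra K B] [Algebra A B] [IsScalarTower K A B]
    (p : Ideal A) [p.IsMaximal] (P : Ideal B) [P.IsPrime]
    [P.LiesOver p] (hsurj : Function.Surjective (algebraMap K (B ⧸ P))) :
    Ideal.inertiaDeg' p P = 1 := by
  rw [Ideal.inertiaDeg'_algebraMap]
  have hsurj2 : Function.Surjective (algebraMap (A ⧸ p) (B ⧸ P)) := by
    intro y
    obtain ⟨c, rfl⟩ := hsurj y
    exact ⟨algebraMap K _ c, (IsScalarTower.algebraMap_apply K _ _ c).symm⟩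
  have hinj2 : Function.Injective (algebraMap (A ⧸ p) (B ⧸ P)) :=
    FaithfulSMul.algebraMap_injective _ _
  have e : (A ⧸ p) ≃ₗ[A ⧸ p] (B ⧸ P) :=
    LinearEquiv.ofBijective (Algebra.linearMap _ _) ⟨hinj2, hsurj2⟩
  rw [← e.finrank_eq, Module.finrank_self]

variable [CharZero K] (vinf : Place K F)
  (hres : ∀ y ∈ vinf.toValuationSubring, ∃ c : K,
    y - algebraMap K F c ∈ vinf.toValuationSubring.nonunits)
  {t : F} [FFGen K t]

include hres in
/-- **(C2), degree**: `[F : K(t)] = − ord_∞ t` for `t ∈ B` with a pole at the rational place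
`vinf`. -/
theorem s44rc_finrank (htB : t ∈ s44rc_B vinf) (ht : vinf.ord t < 0) :
    (Module.finrank K⟮t⟯ F : ℤ) = -vinf.ord t := by
  classical
  have ht0 : t ≠ 0 := s44rc_ne_zero_of_ord vinf ht
  have hs0 : t⁻¹ ≠ 0 := inv_ne_zero ht0
  have hords : 0 < vinf.ord t⁻¹ := by rw [vinf.ord_inv]; omega
  have hs : t⁻¹ ∈ vinf.toValuationSubring := (ff_mem_iff_ord_nonneg vinf hs0).mpr hords.le
  set w := ff_primeOf (x := t⁻¹) vinf hs with hw
  have hvw : ff_placeOf K t⁻¹ w = vinf := ff_placeOf_primeOf vinf hs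
  have hXw : ffXB K t⁻¹ ∈ w.asIdeal := by
    rw [← ff_ord_x_pos_iff, hvw]; exact hords
  haveI hlies : w.asIdeal.LiesOver (ffP K t⁻¹) := ff_liesOver_of_mem w hXw
  -- the only prime over `(s)`
  have hmem : ∀ P : Ideal (ffB K t⁻¹), P ∈ IsDedekindDomain.primesOverFinset (ffP K t⁻¹)
      (ffB K t⁻¹) ↔ P ∈ Ideal.primesOver (ffP K t⁻¹) (ffB K t⁻¹) :=
    fun P => IsDedekindDomain.mem_primesOverFinset_iff (A := ffA K t⁻¹) (p := ffP K t⁻¹)
      (ffP_ne_bot (K := K) (x := t⁻¹)) (ffB K t⁻¹)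
  have hS : IsDedekindDomain.primesOverFinset (ffP K t⁻¹) (ffB K t⁻¹) = {w.asIdeal} := by
    rw [Finset.eq_singleton_iff_unique_mem]
    refine ⟨(hmem _).mpr ⟨w.isPrime, hlies⟩, ?_⟩
    intro P hP
    obtain ⟨hPprime, hPlies⟩ := (hmem P).mp hP
    haveI := hPprime
    haveI := hPlies
    have hXP : ffXB K t⁻¹ ∈ P := ff_mem_of_liesOver (K := K) (x := t⁻¹) P
    have hPne : P ≠ ⊥ := by
      intro h
      rw [h, Ideal.mem_bot] at hXP
      exact ffXB_ne_zero (K := K) (x := t⁻¹) hXP
    let w' : HeightOneSpectrum (ffB K t⁻¹) := ⟨P, hPprime, hPne⟩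
    have hw'pos : 0 < (ff_placeOf K t⁻¹ w').ord t⁻¹ := (ff_ord_x_pos_iff w').mpr hXP
    have hw'v : ff_placeOf K t⁻¹ w' = vinf := by
      by_contra hne
      have h1 := (ff_mem_iff_ord_nonneg _ ht0).mp (htB _ hne)
      rw [Place.ord_inv] at hw'pos
      omega
    have : w' = w := ff_placeOf_injective (hw'v.trans hvw.symm)
    exact congrArg HeightOneSpectrum.asIdeal this
  have hsum := Ideal.sum_ramification_inertia (R := ffA K t⁻¹) (ffB K t⁻¹) K⟮t⁻¹⟯ F
    (p := ffP K t⁻¹) (ffP_ne_bot (K := K) (x := t⁻¹))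
  rw [hS, Finset.sum_singleton] at hsum
  -- the residue degree is one
  have hf : Ideal.inertiaDeg' (ffP K t⁻¹) w.asIdeal = 1 := by
    apply s44rc_inertiaDeg_eq_one_aux (K := K)
    intro y
    obtain ⟨b, rfl⟩ := Ideal.Quotient.mk_surjective y
    obtain ⟨c, hc⟩ := hres (b : F) (ff_B_mem_of_mem vinf hs b)
    refine ⟨c, ?_⟩
    rw [IsScalarTower.algebraMap_apply K (ffB K t⁻¹) (ffB K t⁻¹ ⧸ w.asIdeal)]
    symm
    apply Ideal.Quotient.eq.mpr
    show b - algebraMap K (ffB K t⁻¹) c ∈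
      (IsLocalRing.maximalIdeal vinf.toValuationSubring).comap (ff_BtoO vinf hs)
    rw [Ideal.mem_comap, IsLocalRing.mem_maximalIdeal, mem_nonunits_iff]
    intro hunit
    obtain ⟨ha, hmem⟩ := (ValuationSubring.mem_nonunits_iff_exists_mem_maximalIdeal).mp hc
    exact (IsLocalRing.mem_maximalIdeal _).mp hmem hunit
  rw [hf, mul_one] at hsum
  have he := ff_ramificationIdx_eq (K := K) (x := t⁻¹) w
  rw [hvw, vinf.ord_inv] at he
  rw [ff_adjoin_inv] at hsum
  rw [← hsum, he]

end degree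

end Fermat.Agent.Lib.S44
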