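/-
M-AT-P programme (S44), W4′ [AN] (helper5, prefix `s44r_`): the algebraic half and the final
statement.

* `s44r_vinf_res` : the residue field of the `q`-adic place `∞` of `F_K(N)` is `K`;
* `s44r_exists_pole` : a transcendental generator has a pole (generic);
* `s44r_dual_at` : one-place trace duality at `∞` (helper1's `s44a_dual`) for `x ∈ B` with a pole;
* **`s44r_an`** : `φ ∈ B^⊥ ∩ q K[[q]]` is the `q`-expansion of a cusp form of weight two on
  `Γ₀(N)`, given that `B ≠ K` ([RIEMANN-K]).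
-/
import Fermat.Agent.Lib.S44.RAnDict
import Fermat.Agent.Lib.S44.RAnDiff
import Fermat.Agent.Lib.S44.RRiemKCor
import Fermat.Agent.Lib.S44.ADual
import Fermat.Agent.Lib.S29.BPDeg

set_option autoImplicit false
set_option linter.unusedSectionVars false
set_option linter.style.haveILetI false

namespace Fermat.Agent.Lib.S44

open UpperHalfPlane hiding I
open AlgebraicCurve ModularCurve IntermediateField CongruenceSubgroup ModularForm
open Fermat.Agent.Lib.FF Fermat.Agent.Lib.S29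
open scoped WithZero MatrixGroups

noncomputable section

section generic

variable {K F : Type*} [Field K] [Field F] [Algebra K F] [CharZero K]

set_option synthInstance.maxHeartbeats 200000 in
/-- a transcendental generator has a pole. -/
theorem s44r_exists_pole (x : F) [FFGen K x] : ∃ v : Place K F, v.ord x < 0 := by
  classical
  haveI : FFGen K x⁻¹ := ff_gen_inv
  haveI : Algebra.IsIntegral (ffA K x⁻¹) (ffB K x⁻¹) :=
    IsIntegralClosure.isIntegral_algebra (ffA K x⁻¹) F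
  have hker : RingHom.ker (algebraMap (ffA K x⁻¹) (ffB K x⁻¹)) ≤ ffP K x⁻¹ := by
    intro a ha
    rw [RingHom.mem_ker] at ha
    have : a = 0 := (FaithfulSMul.algebraMap_injective (ffA K x⁻¹) (ffB K x⁻¹))
      (by rw [ha, map_zero])
    rw [this]
    exact Ideal.zero_mem _
  obtain ⟨Q, hQmax, hQ⟩ := Ideal.exists_ideal_over_maximal_of_isIntegral (S := ffB K x⁻¹)
    (ffP K x⁻¹) hker
  have hXQ : ffXB K x⁻¹ ∈ Q := by
    have h1 : ffX K x⁻¹ ∈ ffP K x⁻¹ := Ideal.subset_span rfl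
    rw [← hQ, Ideal.mem_comap] at h1
    exact h1
  have hQne : Q ≠ ⊥ := by
    intro h
    rw [h, Ideal.mem_bot] at hXQ
    exact ffXB_ne_zero (K := K) (x := x⁻¹) hXQ
  let w : IsDedekindDomain.HeightOneSpectrum (ffB K x⁻¹) := ⟨Q, hQmax.isPrime, hQne⟩
  refine ⟨ff_placeOf K x⁻¹ w, ?_⟩
  have h1 : 0 < (ff_placeOf K x⁻¹ w).ord x⁻¹ := (ff_ord_x_pos_iff w).mpr hXQ
  rw [Place.ord_inv] at h1
  omega

end generic

variable {K : Type*} [Field K] [Algebra ℚ K] (ι : K →+* ℂ) {N : ℕ}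

/-- the residue field of the place `∞` is `K` (constant term). -/
theorem s44r_vinf_res (y : ↥(s29bp_FK K N)) (hy : y ∈ (s44r_vinf K N).toValuationSubring) :
    ∃ c : K, y - algebraMap K ↥(s29bp_FK K N) c ∈ (s44r_vinf K N).toValuationSubring.nonunits := by
  refine ⟨(y : LaurentSeries K).coeff 0, ?_⟩
  set c := (y : LaurentSeries K).coeff 0 with hc
  rw [ValuationSubring.mem_nonunits_iff_or]
  by_cases h0 : y - algebraMap K ↥(s29bp_FK K N) c = 0
  · exact Or.inl h0
  · right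
    intro hinv
    have hmem : y - algebraMap K ↥(s29bp_FK K N) c ∈ (s44r_vinf K N).toValuationSubring :=
      sub_mem hy ((s44r_vinf K N).algebraMap_mem' c)
    have h1 := (ff_mem_iff_ord_nonneg _ h0).mp hmem
    have h2 := (ff_mem_iff_ord_nonneg _ (inv_ne_zero h0)).mp hinv
    rw [Place.ord_inv] at h2
    have h3 : (s44r_vinf K N).ord (y - algebraMap K ↥(s29bp_FK K N) c) = 0 := by omega
    rw [s44r_vinf_ord K N h0] at h3
    have hne : ((y - algebraMap K ↥(s29bp_FK K N) c : ↥(s29bp_FK K N)) : LaurentSeries K) ≠ 0 :=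
      fun h => h0 (Subtype.ext h)
    have h4 : ((y - algebraMap K ↥(s29bp_FK K N) c : ↥(s29bp_FK K N)) : LaurentSeries K).coeff
        ((y - algebraMap K ↥(s29bp_FK K N) c : ↥(s29bp_FK K N)) : LaurentSeries K).order ≠ 0 :=
      fun h => hne (HahnSeries.coeff_order_eq_zero.mp h)
    rw [h3] at h4
    apply h4
    show ((y : LaurentSeries K) - algebraMap K (LaurentSeries K) c).coeff 0 = 0
    rw [HahnSeries.coeff_sub, algebraMap_laurentSeries_eq_single, HahnSeries.coeff_single_same,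
      hc, sub_self]

variable [NeZero N]

include ι in
/-- one-place trace duality at `∞`, for `x ∈ B` with a pole at `∞`. -/
theorem s44r_dual_at (x : ↥(s29bp_FK K N)) (hxB : x ∈ s44r_B K N)
    (hx : (s44r_vinf K N).ord x < 0) (φ : LaurentSeries K)
    (hφ : ∀ U ∈ s44r_B K N, ((U : LaurentSeries K) * φ).coeff 0 = 0) :
    ∃ z : ↥(s29bp_FK K N), φ = (z : LaurentSeries K) * ffd_theta (x : LaurentSeries K) ∧
      ∀ U ∈ ffB K x, ∃ p : Polynomial K,
        algebraMap K⟮x⟯ ↥(s29bp_FK K N) (Algebra.trace K⟮x⟯ ↥(s29bp_FK K N) (z * U)) =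
          Polynomial.aeval x p := by
  classical
  haveI : CharZero K := algebraRat.charZero K
  haveI hgenj : FFGen K (s29bp_jK K N) := s29bp_ffGen ι N
  haveI hgen : FFGen K x := s44rc_gen (s29bp_jK K N) (s44r_vinf K N) hx
  have hxB' : x ∈ s44rc_B (s44r_vinf K N) := hxB
  have hx0 : x ≠ 0 := s44rc_ne_zero_of_ord (s44r_vinf K N) hx
  -- the pole order
  obtain ⟨n, hn⟩ : ∃ n : ℕ, (s44r_vinf K N).ord x = -(n : ℤ) :=
    ⟨(-(s44r_vinf K N).ord x).toNat, by omega⟩
  have hn0 : n ≠ 0 := by rintro rfl; simp at hn; omega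
  have hnK : (n : K) ≠ 0 := Nat.cast_ne_zero.mpr hn0
  have hxord : (((s29bp_FK K N).val x : LaurentSeries K)).order = -(n : ℤ) := by
    rw [← hn, s44r_vinf_ord K N hx0]; rfl
  -- a uniformiser at `∞`
  have htord : (((s29bp_FK K N).val (s29bp_jK K N)⁻¹ : LaurentSeries K)).order = 1 := by
    have h1 := s44r_vinf_ord K N (inv_ne_zero (s44r_jK_ne_zero K N))
    rw [Place.ord_inv, s44r_vinf_ord K N (s44r_jK_ne_zero K N), s44r_order_jK] at h1
    rw [show (((s29bp_FK K N).val (s29bp_jK K N)⁻¹ : LaurentSeries K)) =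
      (((s29bp_jK K N)⁻¹ : ↥(s29bp_FK K N)) : LaurentSeries K) from rfl, ← h1]
    norm_num
  -- the degree
  have hdeg : Module.finrank K⟮x⟯ ↥(s29bp_FK K N) = n := by
    have := s44rc_finrank (s44r_vinf K N) (fun y hy => s44r_vinf_res y hy) hxB' hx
    rw [hn, neg_neg] at this
    exact_mod_cast this
  -- a basis inside `B`
  obtain ⟨b, hb⟩ := s44rc_exists_basis (s44r_vinf K N) hxB' hx
  obtain ⟨z, hz1, hz2⟩ := s44a_dual (s29bp_FK K N).val x (s29bp_jK K N)⁻¹ n hnK hxord htord hdeg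
    (Subalgebra.toSubmodule (s44r_B K N)) (fun U hU => (s44r_B K N).mul_mem hxB hU)
    (b.reindex (finCongr hdeg)) (fun i => by rw [Module.Basis.reindex_apply]; exact hb _)
    φ hφ
  refine ⟨z, hz1, fun U hU => ?_⟩
  exact hz2 U ((s44rc_mem_B_iff_mem_ffB (s44r_vinf K N) hxB' hx U).mpr hU)

include ι in
/-- **[AN]**: `φ ∈ B^⊥ ∩ q K[[q]]` is the `q`-expansion of a cusp form of weight two on
`Γ₀(N)` — given that `B ≠ K` (which is [RIEMANN-K]). -/
theorem s44r_an (hB : ∃ t ∈ s44r_B K N, (s44r_vinf K N).ord t < 0) (φ : LaurentSeries K)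
    (hφ : ∀ U ∈ s44r_B K N, ((U : LaurentSeries K) * φ).coeff 0 = 0)
    (hord : ∀ n : ℤ, n ≤ 0 → φ.coeff n = 0) :
    ∃ f : CuspForm (Gamma0 N) 2, ∀ n : ℕ, (qExpansion 1 f).coeff n = ι (φ.coeff n) := by
  classical
  haveI : CharZero K := algebraRat.charZero K
  haveI hgenj : FFGen K (s29bp_jK K N) := s29bp_ffGen ι N
  by_cases hφ0 : φ = 0
  · refine ⟨0, fun n => ?_⟩
    rw [hφ0, HahnSeries.coeff_zero, map_zero]
    have h0 : qExpansion 1 ((0 : CuspForm (Gamma0 N) 2) : UpperHalfPlane → ℂ) = 0 := by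
      rw [FunLike.coe_zero]
      exact qExpansion_zero 1
    rw [h0]
    simp
  have hordpos : 0 < φ.order := by
    by_contra h
    exact hφ0 (HahnSeries.coeff_order_eq_zero.mp (hord _ (not_lt.mp h)))
  obtain ⟨t₀, ht₀B, ht₀⟩ := hB
  have ht₀B' : t₀ ∈ s44rc_B (s44r_vinf K N) := ht₀B
  haveI hgen0 : FFGen K t₀ := s44rc_gen (s29bp_jK K N) (s44r_vinf K N) ht₀
  obtain ⟨z₀, hz₀, -⟩ := s44r_dual_at ι t₀ ht₀B ht₀ φ hφ
  have hx₀ : ((t₀ : LaurentSeries K)).order < 0 := by
    rw [← s44r_vinf_ord K N (s44rc_ne_zero_of_ord (s44r_vinf K N) ht₀)]; exact ht₀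
  refine s44r_an_of_local ι φ hφ0 hordpos z₀ t₀ hz₀ hx₀ ?_
  intro P hP
  -- a uniformiser at `P` inside `B`
  obtain ⟨π, hπB, hπ⟩ := s44rc_exists_unif (s44r_vinf K N) ht₀B' ht₀ P hP
  have hπtr : Transcendental K π := by
    intro halg
    have := s44rc_ord_eq_zero_of_isAlgebraic P halg
    omega
  haveI hgenπ : FFGen K π := ff_gen_of_transcendental (x := s29bp_jK K N) hπtr
  have hπinf : (s44r_vinf K N).ord π < 0 := by
    obtain ⟨v, hv⟩ := s44r_exists_pole (K := K) π
    by_cases hvinf : v = s44r_vinf K N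
    · rw [← hvinf]; exact hv
    · exfalso
      have hπ0 : π ≠ 0 := by rintro rfl; rw [v.ord_zero] at hv; exact lt_irrefl _ hv
      have := (ff_mem_iff_ord_nonneg v hπ0).mp (hπB v hvinf)
      omega
  obtain ⟨z, hz1, hz2⟩ := s44r_dual_at ι π hπB hπinf φ hφ
  have hπP : π ∈ P.toValuationSubring := hπB P hP
  exact ⟨z, π, s44r_diff P hπP hπ z hz2, hπP, hz1⟩

end

end Fermat.Agent.Lib.S44
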