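/-
M-AT-P programme (S44), W4′ [AN] (helper5, prefix `s44r_`): the final, unconditional statement.

`s44r_an` (RAnAlg) + helper4's [RIEMANN-K] `s44rk_large_orders` (which gives `B ≠ K`).
-/
import Fermat.Agent.Lib.S44.RAnAlg
import Fermat.Agent.Lib.S44.RRiemK4

set_option autoImplicit false
set_option linter.unusedSectionVars false
set_option linter.style.haveILetI false

namespace Fermat.Agent.Lib.S44

open UpperHalfPlane hiding I
open AlgebraicCurve ModularCurve IntermediateField CongruenceSubgroup ModularForm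
open Fermat.Agent.Lib.FF Fermat.Agent.Lib.S29
open scoped WithZero MatrixGroups

noncomputable section

variable {K : Type*} [Field K] [Algebra ℚ K] (ι : K →+* ℂ) {N : ℕ} [NeZero N]

include ι in
/-- [RIEMANN-K] for `F_K(N)` and its place `∞`: all large pole orders occur in `B`. -/
theorem s44r_B_large_orders :
    ∃ γ : ℕ, ∀ k : ℕ, γ ≤ k → ∃ U ∈ s44r_B K N, (s44r_vinf K N).ord U = -(k : ℤ) := by
  haveI : CharZero K := algebraRat.charZero K
  haveI hgenj : FFGen K (s29bp_jK K N) := s29bp_ffGen ι N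
  obtain ⟨γ, hγ⟩ := s44rk_large_orders (s29bp_jK K N) (s44r_vinf K N)
    (fun y hy => s44r_vinf_res y hy)
  exact ⟨γ, fun k hk => by
    obtain ⟨U, hU, hUo⟩ := hγ k hk
    exact ⟨U, hU, hUo⟩⟩

include ι in
/-- `B ≠ K`. -/
theorem s44r_B_ne_const : ∃ t ∈ s44r_B K N, (s44r_vinf K N).ord t < 0 := by
  obtain ⟨γ, hγ⟩ := s44r_B_large_orders (K := K) ι (N := N)
  obtain ⟨U, hU, hUo⟩ := hγ (γ + 1) (by omega)
  exact ⟨U, hU, by rw [hUo]; push_cast; omega⟩

include ι in
/-- **[AN], final form.** `K` a field with an embedding `ι : K →+* ℂ`, `F = F_K(N) ⊂ K((q))`,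
`B ⊂ F` the functions regular at every place `≠ ∞`.  Every `φ ∈ q K[[q]]` orthogonal to `B` for the
residue pairing `(U, φ) ↦ coeff₀ (U φ)` is the `q`-expansion of a cusp form of weight two on
`Γ₀(N)`. -/
theorem s44r_an_final (φ : LaurentSeries K)
    (hφ : ∀ U ∈ s44r_B K N, ((U : LaurentSeries K) * φ).coeff 0 = 0)
    (hord : ∀ n : ℤ, n ≤ 0 → φ.coeff n = 0) :
    ∃ f : CuspForm (Gamma0 N) 2, ∀ n : ℕ, (qExpansion 1 f).coeff n = ι (φ.coeff n) :=
  s44r_an ι (s44r_B_ne_const ι) φ hφ hord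

end

end Fermat.Agent.Lib.S44
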