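/-
M-AT-P programme (S44), W4′ [SQ-INST] (helper5, prefix `s44r_`), part 1: abstract integrality.

`A` a discrete valuation ring with fraction field `K`, `π : A →+* k` onto a field, `cf : ι → ℕ → ℤ`
a finite family of integer sequences whose reductions are `k`-linearly independent
(`hinj`).  If a `K`-combination `∑ d_j · cf_j` has all its terms in `A`, then the `d_j` are in `A`.
-/
import Mathlib

set_option autoImplicit false

namespace Fermat.Agent.Lib.S44

section

variable {A K k : Type*} [CommRing A] [IsDomain A] [IsDiscreteValuationRing A] [Field K]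
  [Algebra A K] [IsFractionRing A K] [Field k] (π : A →+* k) (hπ : Function.Surjective π)
  {ι : Type*} [Fintype ι] (cf : ι → ℕ → ℤ)
  (hinj : ∀ w : ι → k, (∀ n, ∑ i, w i * ((cf i n : ℤ) : k) = 0) → w = 0)

include hπ hinj in
/-- divisibility by `ϖ^m` of all the terms of an `A`-combination forces divisibility of the
coefficients. -/
theorem s44r_sq_div (ϖ : A) (hϖ : Irreducible ϖ) :
    ∀ (m : ℕ) (e : ι → A), (∀ n, ϖ ^ m ∣ ∑ j, e j * ((cf j n : ℤ) : A)) → ∀ j, ϖ ^ m ∣ e j := by
  have hπϖ : π ϖ = 0 := by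
    have hmax : (RingHom.ker π).IsMaximal := RingHom.ker_isMaximal_of_surjective π hπ
    have heq : RingHom.ker π = IsLocalRing.maximalIdeal A := IsLocalRing.eq_maximalIdeal hmax
    have hmem : ϖ ∈ IsLocalRing.maximalIdeal A :=
      (IsLocalRing.mem_maximalIdeal _).mpr hϖ.not_isUnit
    rw [← heq] at hmem
    exact hmem
  have hdvd : ∀ a : A, π a = 0 → ϖ ∣ a := by
    intro a ha
    have hnu : ¬ IsUnit a := fun h => (h.map π).ne_zero ha
    have hmem : a ∈ IsLocalRing.maximalIdeal A := (IsLocalRing.mem_maximalIdeal _).mpr hnu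
    rwa [hϖ.maximalIdeal_eq, Ideal.mem_span_singleton] at hmem
  intro m
  induction m with
  | zero => intro e _ j; rw [pow_zero]; exact one_dvd _
  | succ m ih =>
    intro e he j
    have h1 : ∀ n, ∑ i, π (e i) * ((cf i n : ℤ) : k) = 0 := by
      intro n
      obtain ⟨c, hc⟩ := he n
      have := congrArg π hc
      rw [map_sum, map_mul, map_pow, hπϖ, zero_pow (Nat.succ_ne_zero m), zero_mul] at this
      rw [← this]
      refine Finset.sum_congr rfl fun i _ => ?_
      rw [map_mul, map_intCast]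
    have h2 := hinj (fun i => π (e i)) h1
    have h3 : ∀ i, ϖ ∣ e i := fun i => hdvd _ (congrFun h2 i)
    choose e' he' using h3
    have h4 : ∀ n, ϖ ^ m ∣ ∑ i, e' i * ((cf i n : ℤ) : A) := by
      intro n
      have h5 : ∑ i, e i * ((cf i n : ℤ) : A) = ϖ * ∑ i, e' i * ((cf i n : ℤ) : A) := by
        rw [Finset.mul_sum]
        refine Finset.sum_congr rfl fun i _ => ?_
        rw [he' i, mul_assoc]
      have h6 := he n
      rw [h5, pow_succ'] at h6
      exact (mul_dvd_mul_iff_left hϖ.ne_zero).mp h6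
    rw [he' j, pow_succ']
    exact mul_dvd_mul_left ϖ (ih e' h4 j)

include hπ hinj in
/-- **integrality of the coordinates.** -/
theorem s44r_sq_int (ϖ : A) (hϖ : Irreducible ϖ) (d : ι → K) (x : ℕ → A)
    (hx : ∀ n, algebraMap A K (x n) = ∑ j, d j * ((cf j n : ℤ) : K)) :
    ∃ a : ι → A, ∀ j, algebraMap A K (a j) = d j := by
  classical
  have hinjAK : Function.Injective (algebraMap A K) := IsFractionRing.injective A K
  obtain ⟨⟨c, hcmem⟩, hc⟩ := IsLocalization.exist_integer_multiples (nonZeroDivisors A)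
    (Finset.univ : Finset ι) d
  have hc0 : c ≠ 0 := nonZeroDivisors.ne_zero hcmem
  have hc' : ∀ j, ∃ e : A, algebraMap A K e = algebraMap A K c * d j := by
    intro j
    obtain ⟨e, he⟩ := hc j (Finset.mem_univ j)
    refine ⟨e, ?_⟩
    rw [he]
    show (c • d j : K) = _
    rw [Algebra.smul_def]
  choose e he using hc'
  obtain ⟨m, u, hcu⟩ := IsDiscreteValuationRing.eq_unit_mul_pow_irreducible hc0 hϖ
  have hsum : ∀ n, c * x n = ∑ j, e j * ((cf j n : ℤ) : A) := by
    intro n
    apply hinjAK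
    rw [map_mul, hx n, map_sum, Finset.mul_sum]
    refine Finset.sum_congr rfl fun j _ => ?_
    rw [map_mul, he j, map_intCast, mul_assoc]
  have hdiv : ∀ n, ϖ ^ m ∣ ∑ j, e j * ((cf j n : ℤ) : A) := by
    intro n
    rw [← hsum n, hcu]
    exact Dvd.intro_left _ (by ring : (u : A) * x n * ϖ ^ m = (u : A) * ϖ ^ m * x n)
  have h1 := s44r_sq_div π hπ cf hinj ϖ hϖ m e hdiv
  choose e'' he'' using h1
  refine ⟨fun j => ((u⁻¹ : Aˣ) : A) * e'' j, fun j => ?_⟩
  have h2 := he j
  rw [he'' j, hcu, map_mul, map_mul] at h2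
  have hϖm : algebraMap A K (ϖ ^ m) ≠ 0 := by
    rw [Ne, map_eq_zero_iff _ hinjAK]
    exact pow_ne_zero m hϖ.ne_zero
  have h3 : algebraMap A K (e'' j) = algebraMap A K (u : A) * d j := by
    apply mul_left_cancel₀ hϖm
    rw [h2]; ring
  rw [map_mul, h3, ← mul_assoc, ← map_mul, Units.inv_mul, map_one, one_mul]

end

end Fermat.Agent.Lib.S44
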