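/-
M-AT-P (S44), W4 [S49-WIRE] (helper6): **from a non-zero mod-`p` `q`-expansion eigenvector in the
`k`-span of the reductions of `ℤ`-integral weight two cusp forms of level `M` to a normalised eigenform
of level `M` whose eigenvalues are congruent to `a ℓ` modulo a maximal ideal over `p`** (the body of
`s44i_LevelOcc`).

Route: `ℤ`-basis `b` of `CuspForm.intLattice M 2`; saturation of the lattice gives injectivity of
`k^r → k^ℕ`, `w ↦ ∑ w_i (b_i mod p)`; the eigen-equation on coefficients becomes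
`(t_ℓ mod p) w = a_ℓ w` for the integer matrices `t_ℓ` of `T_ℓ` on `b`; Deligne–Serre lifting
`s41f_lift` for the commuting `t_ℓ`; the complex eigenvector `∑ c_j b_j ≠ 0`; `s35c_exists_eigenform`.
No spanning hypothesis (`HasIntegralBasis`) is needed.
-/
import Fermat.Agent.Lib.S41.FormLift
import Fermat.Agent.Lib.S35.B3Form
import Fermat.Agent.Lib.S29.DSLattice

set_option autoImplicit false
set_option linter.unusedSectionVars false
set_option linter.style.haveILetI false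

open ModularFormClass

namespace Fermat.Agent.Lib.S44

open Fermat.Agent.Lib.QCoeff Fermat.Agent.Lib.Lattice Fermat.Agent.Lib.Lifting
  Fermat.Agent.Lib.S35 Fermat.Agent.Lib.S41 Fermat.Agent.Lib.S29

noncomputable section

local notation "Γ₀(" N ")" => CongruenceSubgroup.Gamma0 N

variable {M : ℕ}

/-! ### Integer `q`-coefficients of integral forms -/

/-- integer `q`-coefficients of an integral form. -/
def s44w_icoeff (f : CuspForm.intLattice M 2) (n : ℕ) : ℤ :=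
  ((mem_intLattice_iff (f : CuspForm Γ₀(M) 2)).mp f.2 n).choose

theorem s44w_icoeff_spec (f : CuspForm.intLattice M 2) (n : ℕ) :
    qCoeff ⇑(f : CuspForm Γ₀(M) 2) n = (s44w_icoeff f n : ℂ) :=
  ((mem_intLattice_iff (f : CuspForm Γ₀(M) 2)).mp f.2 n).choose_spec

theorem s44w_icoeff_eq (f : CuspForm.intLattice M 2) (n : ℕ) (m : ℤ)
    (h : qCoeff ⇑(f : CuspForm Γ₀(M) 2) n = (m : ℂ)) : s44w_icoeff f n = m := by
  apply Int.cast_injective (α := ℂ)
  rw [← s44w_icoeff_spec, h]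

theorem s44w_icoeff_add (f g : CuspForm.intLattice M 2) (n : ℕ) :
    s44w_icoeff (f + g) n = s44w_icoeff f n + s44w_icoeff g n := by
  apply s44w_icoeff_eq
  rw [Submodule.coe_add, qCoeff_add, s44w_icoeff_spec, s44w_icoeff_spec, Int.cast_add]

theorem s44w_icoeff_zsmul (c : ℤ) (f : CuspForm.intLattice M 2) (n : ℕ) :
    s44w_icoeff (c • f) n = c * s44w_icoeff f n := by
  apply s44w_icoeff_eq
  rw [Submodule.coe_smul, qCoeff_zsmul, s44w_icoeff_spec, Int.cast_mul]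

/-- the integer `q`-expansion as a `ℤ`-linear map. -/
def s44w_icoeffLin (M : ℕ) : CuspForm.intLattice M 2 →ₗ[ℤ] (ℕ → ℤ) where
  toFun f := s44w_icoeff f
  map_add' f g := funext (s44w_icoeff_add f g)
  map_smul' c f := funext fun n => by
    rw [s44w_icoeff_zsmul]
    rfl

theorem s44w_icoeffLin_apply (f : CuspForm.intLattice M 2) (n : ℕ) :
    s44w_icoeffLin M f n = s44w_icoeff f n := rfl

theorem s44w_icoeffLin_injective [NeZero M] : Function.Injective (s44w_icoeffLin M) := by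
  intro f g h
  apply Subtype.ext
  refine ext_of_qCoeff fun n _ => ?_
  rw [s44w_icoeff_spec, s44w_icoeff_spec]
  have := congrFun h n
  rw [s44w_icoeffLin_apply, s44w_icoeffLin_apply] at this
  rw [this]

theorem s44w_icoeff_zero_idx (f : CuspForm.intLattice M 2) : s44w_icoeff f 0 = 0 := by
  apply s44w_icoeff_eq
  rw [qCoeff_zero, Int.cast_zero]

theorem s44w_icoeff_sum {ι : Type*} (s : Finset ι) (u : ι → ℤ) (f : ι → CuspForm.intLattice M 2)
    (n : ℕ) : s44w_icoeff (∑ i ∈ s, u i • f i) n = ∑ i ∈ s, u i * s44w_icoeff (f i) n := by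
  have h := congrFun (map_sum (s44w_icoeffLin M) (fun i => u i • f i) s) n
  rw [s44w_icoeffLin_apply, Finset.sum_apply] at h
  rw [h]
  refine Finset.sum_congr rfl fun i _ => ?_
  rw [s44w_icoeffLin_apply, s44w_icoeff_zsmul]

/-- saturation: an integral form all of whose coefficients are divisible by `m ≠ 0` is `m` times an
integral form. -/
theorem s44w_saturated {m : ℤ} (hm : m ≠ 0) (f : CuspForm.intLattice M 2)
    (h : ∀ n, m ∣ s44w_icoeff f n) : ∃ g : CuspForm.intLattice M 2, f = m • g := by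
  have hf : (f : CuspForm Γ₀(M) 2) ∈ divLattice M 2 m := by
    intro n
    obtain ⟨c, hc⟩ := h n
    exact ⟨c, by rw [s44w_icoeff_spec, hc]⟩
  obtain ⟨g, hg, hfg⟩ := exists_eq_smul_of_mem_divLattice hm hf
  exact ⟨⟨g, hg⟩, Subtype.ext hfg⟩

/-! ### Injectivity of the mod-`p` `q`-expansion on `k ⊗ Λ` -/

section Basis

variable {r : ℕ} (b : Module.Basis (Fin r) ℤ (CuspForm.intLattice M 2))

/-- over `ZMod p`. -/
theorem s44w_inj_zmod (p : ℕ) [Fact p.Prime] (u : Fin r → ZMod p)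
    (h : ∀ n, ∑ i, u i * ((s44w_icoeff (b i) n : ℤ) : ZMod p) = 0) : u = 0 := by
  have hp : (p : ℤ) ≠ 0 := by exact_mod_cast (Fact.out : p.Prime).ne_zero
  -- integer lifts
  have hlift : ∀ i, ∃ z : ℤ, (z : ZMod p) = u i := fun i => ZMod.intCast_surjective (u i)
  choose z hz using hlift
  set f : CuspForm.intLattice M 2 := ∑ i, z i • b i with hf
  have hdiv : ∀ n, (p : ℤ) ∣ s44w_icoeff f n := by
    intro n
    rw [← ZMod.intCast_zmod_eq_zero_iff_dvd, hf, s44w_icoeff_sum, Int.cast_sum, ← h n]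
    refine Finset.sum_congr rfl fun i _ => ?_
    rw [Int.cast_mul, hz]
  obtain ⟨g, hg⟩ := s44w_saturated hp f hdiv
  funext i
  have h1 : b.repr f i = z i := by
    rw [hf, b.repr_sum_self]
  have h2 : b.repr f i = (p : ℤ) * b.repr g i := by
    rw [hg, map_smul, Finsupp.smul_apply, smul_eq_mul]
  rw [Pi.zero_apply, ← hz i, ← h1, h2, Int.cast_mul]
  simp

/-- over any field of characteristic `p`. -/
theorem s44w_inj_field (p : ℕ) [Fact p.Prime] (k : Type*) [Field k] [CharP k p] (w : Fin r → k)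
    (h : ∀ n, ∑ i, w i * ((s44w_icoeff (b i) n : ℤ) : k) = 0) : w = 0 := by
  letI : Algebra (ZMod p) k := ZMod.algebra k p
  funext i
  rw [Pi.zero_apply, ← Module.forall_dual_apply_eq_zero_iff (ZMod p)]
  intro lam
  have h0 := s44w_inj_zmod b p (fun i => lam (w i)) (fun n => by
    have h2 := congrArg lam (h n)
    rw [map_sum, map_zero] at h2
    rw [← h2]
    refine Finset.sum_congr rfl fun j _ => ?_
    have h3 : w j * ((s44w_icoeff (b j) n : ℤ) : k) =
        ((s44w_icoeff (b j) n : ℤ) : ZMod p) • w j := by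
      rw [Algebra.smul_def, mul_comm, map_intCast]
    rw [h3, map_smul, smul_eq_mul, mul_comm])
  exact congrFun h0 i

end Basis

/-! ### The Hecke matrices -/

/-- The action of a linear map on a combination of a family on which it has matrix `m`. -/
theorem s44w_apply_sum {R A : Type*} [CommRing R] [AddCommGroup A] [Module R A] (T : A →ₗ[R] A)
    {r : ℕ} (b : Fin r → A) (m : Matrix (Fin r) (Fin r) R)
    (hm : ∀ j, T (b j) = ∑ i, m i j • b i) (x : Fin r → R) :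
    T (∑ j, x j • b j) = ∑ i, (m.mulVec x) i • b i := by
  rw [map_sum]
  simp only [map_smul, hm, Finset.smul_sum, smul_smul]
  rw [Finset.sum_comm]
  refine Finset.sum_congr rfl fun i _ => ?_
  rw [← Finset.sum_smul]
  congr 1
  rw [Matrix.mulVec, dotProduct]
  exact Finset.sum_congr rfl fun j _ => mul_comm _ _

section Hecke

variable [NeZero M] {r : ℕ} (b : Module.Basis (Fin r) ℤ (CuspForm.intLattice M 2))

/-- the matrix of a Hecke operator on the basis `b` of the integral lattice. -/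
def s44w_mat : TT M →ₐ[ℤ] Matrix (Fin r) (Fin r) ℤ :=
  (LinearMap.toMatrixAlgEquiv b).toAlgHom.comp (restrictEnd M (by norm_num : (1 : ℤ) ≤ 2) ∅)

theorem s44w_mat_comm (T T' : TT M) :
    s44w_mat b T * s44w_mat b T' = s44w_mat b T' * s44w_mat b T := by
  rw [← map_mul, ← map_mul, mul_comm]

theorem s44w_mat_apply (T : TT M) (j : Fin r) :
    restrictEnd M (by norm_num : (1 : ℤ) ≤ 2) ∅ T (b j) = ∑ i, s44w_mat b T i j • b i := by
  have h : ∀ i, s44w_mat b T i j =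
      b.repr (restrictEnd M (by norm_num : (1 : ℤ) ≤ 2) ∅ T (b j)) i := fun i => by
    simp [s44w_mat, LinearMap.toMatrixAlgEquiv_apply]
  simp_rw [h]
  exact (b.sum_repr _).symm

theorem s44w_icoeff_hecke {ℓ : ℕ} (hℓ : ℓ.Prime) (hℓM : ¬ ℓ ∣ M) (f : CuspForm.intLattice M 2)
    (n : ℕ) :
    s44w_icoeff (restrictEnd M (by norm_num : (1 : ℤ) ≤ 2) ∅
        (CuspForm.heckeAlgebra.T hℓ hℓM (Set.notMem_empty ℓ)) f) n =
      s44w_icoeff f (n * ℓ) + if ℓ ∣ n then (ℓ : ℤ) * s44w_icoeff f (n / ℓ) else 0 := by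
  apply s44w_icoeff_eq
  rw [restrictEnd_apply_coe, CuspForm.heckeAlgebra.coe_T, qCoeff_heckeTLin hℓ hℓM,
    s44w_icoeff_spec]
  split_ifs with h
  · rw [s44w_icoeff_spec]
    push_cast
    norm_num
  · simp

theorem s44w_hecke_coe {ℓ : ℕ} (hℓ : ℓ.Prime) (hℓM : ¬ ℓ ∣ M) (j : Fin r) :
    CuspForm.heckeTLin 2 hℓ hℓM ((b j : CuspForm.intLattice M 2) : CuspForm Γ₀(M) 2) =
      ∑ i, ((s44w_mat b (CuspForm.heckeAlgebra.T hℓ hℓM (Set.notMem_empty ℓ))).map
        (Int.cast : ℤ → ℂ)) i j • ((b i : CuspForm.intLattice M 2) : CuspForm Γ₀(M) 2) := by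
  have h := congrArg (fun x : CuspForm.intLattice M 2 => (x : CuspForm Γ₀(M) 2))
    (s44w_mat_apply b (CuspForm.heckeAlgebra.T hℓ hℓM (Set.notMem_empty ℓ)) j)
  simp only [restrictEnd_apply_coe, CuspForm.heckeAlgebra.coe_T] at h
  rw [h, Submodule.coe_sum]
  refine Finset.sum_congr rfl fun i _ => ?_
  rw [Submodule.coe_smul, Matrix.map_apply, Int.cast_smul_eq_zsmul]

/-- the basis vectors are `ℂ`-linearly independent: a non-zero complex combination is non-zero. -/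
theorem s44w_comb_ne_zero (c : Fin r → ℂ) (hc : c ≠ 0) :
    ∑ j, c j • ((b j : CuspForm.intLattice M 2) : CuspForm Γ₀(M) 2) ≠ 0 := by
  intro h0
  have hker : LinearMap.ker (s44w_icoeffLin M) = ⊥ :=
    LinearMap.ker_eq_bot.mpr s44w_icoeffLin_injective
  have hu : LinearIndependent ℤ (fun j => s44w_icoeffLin M (b j)) :=
    b.linearIndependent.map' (s44w_icoeffLin M) hker
  have huC := s29s_linearIndependent_complex_of_int _ hu
  have h1 : ∑ j, c j • (fun n => ((s44w_icoeffLin M (b j) n : ℤ) : ℂ)) = 0 := by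
    funext n
    have h2 := congrArg (qCoeffLin M 2 n) h0
    rw [map_sum, map_zero] at h2
    simp only [Finset.sum_apply, Pi.smul_apply, Pi.zero_apply, smul_eq_mul]
    rw [← h2]
    refine Finset.sum_congr rfl fun j _ => ?_
    rw [map_smul, qCoeffLin_apply, s44w_icoeff_spec, smul_eq_mul, s44w_icoeffLin_apply]
  have h3 := Fintype.linearIndependent_iff.mp huC c h1
  exact hc (funext h3)

/-- **[S49-WIRE], basis form.** -/
theorem s44w_levelocc_basis (p : ℕ) [Fact p.Prime] (k : Type*) [Field k] [CharP k p]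
    (a : ℕ → ℤ) (B : Finset ℕ) (hB : ∀ q : ℕ, q.Prime → q ∣ M → q ∈ B)
    (w : Fin r → k) (hw : w ≠ 0)
    (heig : ∀ ℓ : ℕ, ℓ.Prime → ℓ ∉ B → ∀ n : ℕ,
      (∑ i, w i * ((s44w_icoeff (b i) (n * ℓ) : ℤ) : k)) +
        (if ℓ ∣ n then (ℓ : k) * ∑ i, w i * ((s44w_icoeff (b i) (n / ℓ) : ℤ) : k) else 0) =
      ((a ℓ : ℤ) : k) * ∑ i, w i * ((s44w_icoeff (b i) n : ℤ) : k)) :
    ∃ (g : CuspForm Γ₀(M) 2) (𝔪 : Ideal (integralClosure ℤ ℂ)),
      g.IsNormalizedEigenform ∧ 𝔪.IsMaximal ∧ ((p : ℕ) : integralClosure ℤ ℂ) ∈ 𝔪 ∧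
      ∀ ℓ : ℕ, ℓ.Prime → ℓ ∉ B →
        ∃ α : integralClosure ℤ ℂ, (α : ℂ) = qCoeff ⇑g ℓ ∧
          α - ((a ℓ : ℤ) : integralClosure ℤ ℂ) ∈ 𝔪 := by
  classical
  let I : Type := {ℓ : Nat.Primes // (ℓ : ℕ) ∉ B}
  have hIM : ∀ i : I, ¬ ((i.1 : Nat.Primes) : ℕ) ∣ M := fun i h => i.2 (hB _ i.1.2 h)
  let Tl : I → TT M := fun i => CuspForm.heckeAlgebra.T i.1.2 (hIM i) (Set.notMem_empty _)
  let t : I → Matrix (Fin r) (Fin r) ℤ := fun i => s44w_mat b (Tl i)
  have hcomm : ∀ i j, t i * t j = t j * t i := fun i j => s44w_mat_comm b _ _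
  -- the integer identity behind the matrix
  have hmat : ∀ (i : I) (j : Fin r) (n : ℕ),
      ∑ i', t i i' j * s44w_icoeff (b i') n =
        s44w_icoeff (b j) (n * ((i.1 : Nat.Primes) : ℕ)) +
          if ((i.1 : Nat.Primes) : ℕ) ∣ n then
            (((i.1 : Nat.Primes) : ℕ) : ℤ) * s44w_icoeff (b j) (n / ((i.1 : Nat.Primes) : ℕ))
          else 0 := by
    intro i j n
    rw [← s44w_icoeff_hecke i.1.2 (hIM i) (b j) n, s44w_mat_apply b _ j, s44w_icoeff_sum]
  have hveig : ∀ i : I, ((t i).map (Int.cast : ℤ → k)).mulVec w = ((a (i.1 : Nat.Primes) : ℤ) : k) • w := by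
    intro i
    rw [← sub_eq_zero]
    apply s44w_inj_field b p k
    intro n
    have h1 := heig ((i.1 : Nat.Primes) : ℕ) i.1.2 i.2 n
    have h2 : ∑ i', (((t i).map (Int.cast : ℤ → k)).mulVec w) i' *
          ((s44w_icoeff (b i') n : ℤ) : k) =
        ∑ j, w j * ((∑ i', t i i' j * s44w_icoeff (b i') n : ℤ) : k) := by
      simp only [Matrix.mulVec, dotProduct, Matrix.map_apply, Finset.sum_mul, Int.cast_sum,
        Int.cast_mul, Finset.mul_sum]
      rw [Finset.sum_comm]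
      refine Finset.sum_congr rfl fun j _ => Finset.sum_congr rfl fun i' _ => ?_
      ring
    simp only [Pi.sub_apply, Pi.smul_apply, smul_eq_mul, sub_mul, Finset.sum_sub_distrib]
    rw [h2, sub_eq_zero]
    simp only [hmat]
    rw [show ∑ x, ((a (i.1 : Nat.Primes) : ℤ) : k) * w x * ((s44w_icoeff (b x) n : ℤ) : k) =
      ((a (i.1 : Nat.Primes) : ℤ) : k) * ∑ x, w x * ((s44w_icoeff (b x) n : ℤ) : k) by
        rw [Finset.mul_sum]; exact Finset.sum_congr rfl fun x _ => by ring]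
    rw [← h1]
    by_cases hd : ((i.1 : Nat.Primes) : ℕ) ∣ n
    · simp only [if_pos hd, Int.cast_add, Int.cast_mul, Int.cast_natCast, mul_add,
        Finset.sum_add_distrib, Finset.mul_sum]
      congr 1
      exact Finset.sum_congr rfl fun x _ => by ring
    · simp only [if_neg hd, Int.cast_add, Int.cast_zero, add_zero]
  obtain ⟨ψ, c, 𝔪', hc0, hceig, hmax, hpm, hcong⟩ :=
    s41f_lift t hcomm p k (fun i => ((a (i.1 : Nat.Primes) : ℤ) : k)) w hw hveig
  -- the complex eigenvector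
  set X : CuspForm Γ₀(M) 2 := ∑ j, c j • ((b j : CuspForm.intLattice M 2) : CuspForm Γ₀(M) 2)
    with hX
  have hX0 : X ≠ 0 := s44w_comb_ne_zero b c hc0
  have hTX : ∀ i : I, CuspForm.heckeTLin 2 (i.1 : Nat.Primes).2 (hIM i) X =
      ((ψ i : integralClosure ℤ ℂ) : ℂ) • X := by
    intro i
    have h := s44w_apply_sum (CuspForm.heckeTLin 2 (i.1 : Nat.Primes).2 (hIM i))
      (fun j => ((b j : CuspForm.intLattice M 2) : CuspForm Γ₀(M) 2))
      ((t i).map (Int.cast : ℤ → ℂ)) (fun j => s44w_hecke_coe b _ _ j) c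
    rw [hX, h, hceig i, Finset.smul_sum]
    refine Finset.sum_congr rfl fun j _ => ?_
    rw [Pi.smul_apply, smul_eq_mul, mul_smul]
  -- the eigenvalue function
  let cfun : ℕ → ℂ := fun ℓ =>
    if h : ℓ.Prime ∧ ℓ ∉ B then ((ψ ⟨⟨ℓ, h.1⟩, h.2⟩ : integralClosure ℤ ℂ) : ℂ) else 0
  have hcfun : ∀ (ℓ : ℕ) (hℓ : ℓ.Prime) (hℓB : ℓ ∉ B),
      cfun ℓ = ((ψ ⟨⟨ℓ, hℓ⟩, hℓB⟩ : integralClosure ℤ ℂ) : ℂ) := by
    intro ℓ hℓ hℓB
    show (if h : ℓ.Prime ∧ ℓ ∉ B then ((ψ ⟨⟨ℓ, h.1⟩, h.2⟩ : integralClosure ℤ ℂ) : ℂ) else 0) = _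
    rw [dif_pos ⟨hℓ, hℓB⟩]
  obtain ⟨g, hg, hgc⟩ := s35c_exists_eigenform (N := M) {ℓ | ℓ ∈ B} cfun X hX0
    (fun ℓ hℓ hℓM hℓS => by
      have hℓB : ℓ ∉ B := hℓS
      rw [hcfun ℓ hℓ hℓB]
      exact hTX ⟨⟨ℓ, hℓ⟩, hℓB⟩)
  refine ⟨g, 𝔪', hg, hmax, hpm, fun ℓ hℓ hℓB => ⟨ψ ⟨⟨ℓ, hℓ⟩, hℓB⟩, ?_, hcong ⟨⟨ℓ, hℓ⟩, hℓB⟩ _ rfl⟩⟩
  rw [hgc ℓ hℓ (fun h => hℓB (hB ℓ hℓ h)) hℓB, hcfun ℓ hℓ hℓB]

end Hecke

/-! ### The span form -/

/-- **[S49-WIRE].**  `φ : ℕ → k` (the coefficients of a mod-`p` `q`-expansion over a field `k` of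
characteristic `p`), not identically zero, lying in the `k`-span of the reductions of finitely many
weight two cusp forms `f j` of level `M` with integer `q`-coefficients `cf j n`, and satisfying the
`T_ℓ`-eigen-equation with eigenvalue `a ℓ` on coefficients for all primes `ℓ ∉ B ⊇ {q ∣ M}`.  Then the
eigensystem `a` occurs modulo `p` at level `M` (this is the body of `s44i_LevelOcc M p a B`). -/
theorem s44w_levelocc (M : ℕ) [NeZero M] (p : ℕ) [Fact p.Prime] (k : Type*) [Field k] [CharP k p]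
    (a : ℕ → ℤ) (B : Finset ℕ) (hB : ∀ q : ℕ, q.Prime → q ∣ M → q ∈ B)
    (φ : ℕ → k) (hφ0 : ∃ n, φ n ≠ 0)
    {ι : Type*} [Fintype ι] (f : ι → CuspForm Γ₀(M) 2) (cf : ι → ℕ → ℤ) (v : ι → k)
    (hf : ∀ j n, qCoeff ⇑(f j) n = ((cf j n : ℤ) : ℂ))
    (hφ : ∀ n, φ n = ∑ j, v j * ((cf j n : ℤ) : k))
    (heig : ∀ ℓ : ℕ, ℓ.Prime → ℓ ∉ B → ∀ n : ℕ, 1 ≤ n →
      φ (n * ℓ) + (if ℓ ∣ n then (ℓ : k) * φ (n / ℓ) else 0) = ((a ℓ : ℤ) : k) * φ n) :
    ∃ (g : CuspForm Γ₀(M) 2) (𝔪 : Ideal (integralClosure ℤ ℂ)),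
      g.IsNormalizedEigenform ∧ 𝔪.IsMaximal ∧ ((p : ℕ) : integralClosure ℤ ℂ) ∈ 𝔪 ∧
      ∀ ℓ : ℕ, ℓ.Prime → ℓ ∉ B →
        ∃ α : integralClosure ℤ ℂ, (α : ℂ) = qCoeff ⇑g ℓ ∧
          α - ((a ℓ : ℤ) : integralClosure ℤ ℂ) ∈ 𝔪 := by
  classical
  haveI : Module.Finite ℤ (CuspForm.intLattice M 2) := finite_intLattice M 2
  haveI : Module.Free ℤ (CuspForm.intLattice M 2) := by
    haveI := isAddTorsionFree_cuspForm M 2
    exact Module.free_of_finite_type_torsion_free'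
  set b := Module.finBasis ℤ (CuspForm.intLattice M 2) with hb
  -- the forms as elements of the lattice
  let F : ι → CuspForm.intLattice M 2 := fun j =>
    ⟨f j, (mem_intLattice_iff (f j)).mpr fun n => ⟨cf j n, hf j n⟩⟩
  have hF : ∀ j n, s44w_icoeff (F j) n = cf j n := fun j n => s44w_icoeff_eq _ _ _ (hf j n)
  have hcf : ∀ j n, cf j n = ∑ i, b.repr (F j) i * s44w_icoeff (b i) n := by
    intro j n
    rw [← hF j n, ← s44w_icoeff_sum, b.sum_repr]
  set w : Fin _ → k := fun i => ∑ j, v j * ((b.repr (F j) i : ℤ) : k) with hw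
  have hφw : ∀ n, φ n = ∑ i, w i * ((s44w_icoeff (b i) n : ℤ) : k) := by
    intro n
    rw [hφ n]
    simp only [hw, hcf, Int.cast_sum, Int.cast_mul, Finset.mul_sum, Finset.sum_mul]
    rw [Finset.sum_comm]
    refine Finset.sum_congr rfl fun i _ => Finset.sum_congr rfl fun j _ => ?_
    ring
  have hw0 : w ≠ 0 := by
    intro h0
    obtain ⟨n, hn⟩ := hφ0
    apply hn
    rw [hφw n, h0]
    simp
  have hφ00 : φ 0 = 0 := by
    rw [hφw 0]
    simp [s44w_icoeff_zero_idx]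
  refine s44w_levelocc_basis b p k a B hB w hw0 fun ℓ hℓ hℓB n => ?_
  rw [← hφw, ← hφw, ← hφw]
  rcases Nat.eq_zero_or_pos n with rfl | hn
  · simp [hφ00]
  · exact heig ℓ hℓ hℓB n hn

end

end Fermat.Agent.Lib.S44
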