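/-
M-AT-P programme (S44), W4′ [SQ-INST] (helper5, prefix `s44r_`), part 2: the instance of helper1's
squeeze `s44a_sq_laurent` at `F_K(M)`.

* `s44r_BL K M` : the ring `B` (functions regular off `∞`) as a `K`-subspace of `K((q))`;
* `s44r_sq_key` : every `φ ∈ W = B^⊥ ∩ q K[[q]]` is a `K`-combination of the integer `q`-expansions
  of a `ℤ`-basis of `intLattice M 2` ([AN] + S23 + a `K`-linear retraction of `ι : K → ℂ`);
* `s44r_sq_finite` : `W` is finite-dimensional; `s44r_sq_WBD` : bounded denominators;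
* **`s44r_sq_inst`** : [SQ-INST].
-/
import Fermat.Agent.Lib.S44.RAnFinal
import Fermat.Agent.Lib.S44.RSqInt
import Fermat.Agent.Lib.S44.ASqueezeL
import Fermat.Agent.Lib.S44.WOcc
import Fermat.Agent.S23

set_option autoImplicit false
set_option linter.unusedSectionVars false
set_option linter.style.haveILetI false

open ModularFormClass

namespace Fermat.Agent.Lib.S44

open UpperHalfPlane hiding I
open AlgebraicCurve ModularCurve CongruenceSubgroup ModularForm
open Fermat.Agent.Lib.FF Fermat.Agent.Lib.S29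
open Fermat.Agent.Lib.QCoeff Fermat.Agent.Lib.Lattice
open scoped MatrixGroups

noncomputable section

variable (K : Type*) [Field K] [Algebra ℚ K] (M : ℕ)

/-- the ring `B` of functions regular off `∞`, as a `K`-subspace of `K((q))`. -/
def s44r_BL : Submodule K (LaurentSeries K) where
  carrier := {x | ∃ U ∈ s44r_B K M, ((U : ↥(s29bp_FK K M)) : LaurentSeries K) = x}
  add_mem' := by
    rintro _ _ ⟨U, hU, rfl⟩ ⟨V, hV, rfl⟩
    exact ⟨U + V, (s44r_B K M).add_mem hU hV, rfl⟩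
  zero_mem' := ⟨0, (s44r_B K M).zero_mem, rfl⟩
  smul_mem' := by
    rintro c _ ⟨U, hU, rfl⟩
    refine ⟨algebraMap K ↥(s29bp_FK K M) c * U,
      (s44r_B K M).mul_mem ((s44r_B K M).algebraMap_mem c) hU, ?_⟩
    show algebraMap K (LaurentSeries K) c * (U : LaurentSeries K) = c • (U : LaurentSeries K)
    rw [algebraMap_laurentSeries_eq_single]
    exact HahnSeries.C_mul_eq_smul

variable {K M}

theorem s44r_mem_BL_iff (x : LaurentSeries K) :
    x ∈ s44r_BL K M ↔ ∃ U ∈ s44r_B K M, ((U : ↥(s29bp_FK K M)) : LaurentSeries K) = x :=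
  Iff.rfl

theorem s44r_one_mem_BL : (1 : LaurentSeries K) ∈ s44r_BL K M :=
  (s44r_mem_BL_iff 1).mpr ⟨1, (s44r_B K M).one_mem, rfl⟩

variable (ι : K →+* ℂ) [NeZero M] {r : ℕ} (b : Module.Basis (Fin r) ℤ (CuspForm.intLattice M 2))

include ι in
/-- **[KEY]** the elements of `W` are `K`-combinations of the integral basis. -/
theorem s44r_sq_key (φ : LaurentSeries K) (hφ : φ ∈ s44a_sq_W (s44r_BL K M)) :
    ∃ d : Fin r → K, ∀ n : ℕ, φ.coeff n = ∑ j, d j * ((s44w_icoeff (b j) n : ℤ) : K) := by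
  classical
  obtain ⟨hord, horth⟩ := hφ
  have hφ' : ∀ U ∈ s44r_B K M, ((U : LaurentSeries K) * φ).coeff 0 = 0 := fun U hU =>
    horth _ ((s44r_mem_BL_iff _).mpr ⟨U, hU, rfl⟩)
  obtain ⟨f, hf⟩ := s44r_an_final ι φ hφ' hord
  -- `f` is a complex combination of the basis
  have htop := Fermat.Agent.S23.result M
  have hle : Submodule.span ℂ ((CuspForm.intLattice M 2 : Submodule ℤ (CuspForm (Gamma0 M) 2)) :
      Set (CuspForm (Gamma0 M) 2)) ≤
      Submodule.span ℂ (Set.range fun j => ((b j : CuspForm.intLattice M 2) :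
        CuspForm (Gamma0 M) 2)) := by
    rw [Submodule.span_le]
    intro g hg
    have h1 := b.sum_repr ⟨g, hg⟩
    have h2 : g = ∑ j, (b.repr ⟨g, hg⟩ j : ℤ) • ((b j : CuspForm.intLattice M 2) :
        CuspForm (Gamma0 M) 2) := by
      have := congrArg (fun x : CuspForm.intLattice M 2 => (x : CuspForm (Gamma0 M) 2)) h1
      simp only [Submodule.coe_sum, Submodule.coe_smul] at this
      exact this.symm
    rw [h2]
    refine Submodule.sum_mem _ fun j _ => ?_
    rw [← Int.cast_smul_eq_zsmul ℂ]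
    exact Submodule.smul_mem _ _ (Submodule.subset_span ⟨j, rfl⟩)
  have hfmem : f ∈ Submodule.span ℂ (Set.range fun j => ((b j : CuspForm.intLattice M 2) :
      CuspForm (Gamma0 M) 2)) := by
    apply hle
    unfold CuspForm.HasIntegralStructure at htop
    rw [htop]
    exact Submodule.mem_top
  obtain ⟨c, hc⟩ := (Submodule.mem_span_range_iff_exists_fun ℂ).mp hfmem
  have hq : ∀ n : ℕ, ι (φ.coeff n) = ∑ j, c j * ((s44w_icoeff (b j) n : ℤ) : ℂ) := by
    intro n
    rw [← hf n]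
    have h2 := congrArg (qCoeffLin M 2 n) hc
    rw [map_sum] at h2
    show qCoeff (⇑f) n = _
    rw [← qCoeffLin_apply, ← h2]
    refine Finset.sum_congr rfl fun j _ => ?_
    rw [map_smul, qCoeffLin_apply, s44w_icoeff_spec, smul_eq_mul]
  -- a `K`-linear retraction of `ι`
  letI : Algebra K ℂ := ι.toAlgebra
  have hker : LinearMap.ker (Algebra.linearMap K ℂ) = ⊥ := by
    rw [LinearMap.ker_eq_bot]
    exact (algebraMap K ℂ).injective
  obtain ⟨μ, hμ⟩ := LinearMap.exists_leftInverse_of_injective (Algebra.linearMap K ℂ) hker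
  have hμι : ∀ a : K, μ (ι a) = a := fun a => LinearMap.congr_fun hμ a
  refine ⟨fun j => μ (c j), fun n => ?_⟩
  have h3 := congrArg μ (hq n)
  rw [hμι, map_sum] at h3
  rw [h3]
  refine Finset.sum_congr rfl fun j _ => ?_
  have h4 : c j * ((s44w_icoeff (b j) n : ℤ) : ℂ) = ((s44w_icoeff (b j) n : ℤ) : K) • c j := by
    rw [Algebra.smul_def, mul_comm]
    congr 1
    show _ = ι _
    rw [map_intCast]
  rw [h4, map_smul, smul_eq_mul, mul_comm]

/-- the integer `q`-expansion of a basis vector, as a Laurent series over any ring. -/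
def s44r_sq_beta (R : Type*) [CommRing R] (j : Fin r) : LaurentSeries R :=
  s44a_sq_ser fun m => ((s44w_icoeff (b j) (m + 1) : ℤ) : R)

theorem s44r_sq_beta_coeff (R : Type*) [CommRing R] (j : Fin r) (n : ℕ) :
    (s44r_sq_beta b R j).coeff n = ((s44w_icoeff (b j) n : ℤ) : R) := by
  rcases Nat.eq_zero_or_pos n with rfl | hn
  · rw [s44r_sq_beta, Nat.cast_zero, s44a_sq_ser_coeff_nonpos _ 0 le_rfl, s44w_icoeff_zero_idx,
      Int.cast_zero]
  · obtain ⟨m, rfl⟩ : ∃ m, n = m + 1 := ⟨n - 1, by omega⟩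
    rw [s44r_sq_beta, Nat.cast_add, Nat.cast_one, s44a_sq_ser_coeff_succ]

theorem s44r_sq_beta_coeff_nonpos (R : Type*) [CommRing R] (j : Fin r) (i : ℤ) (hi : i ≤ 0) :
    (s44r_sq_beta b R j).coeff i = 0 :=
  s44a_sq_ser_coeff_nonpos _ i hi

include ι in
/-- `W` in terms of the `β_j`. -/
theorem s44r_sq_eq_sum (φ : LaurentSeries K) (hφ : φ ∈ s44a_sq_W (s44r_BL K M)) :
    ∃ d : Fin r → K, φ = ∑ j, d j • s44r_sq_beta b K j := by
  obtain ⟨d, hd⟩ := s44r_sq_key ι b φ hφ
  refine ⟨d, ?_⟩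
  ext i
  rw [HahnSeries.coeff_sum]
  by_cases hi : i ≤ 0
  · rw [hφ.1 i hi]
    symm
    refine Finset.sum_eq_zero fun j _ => ?_
    rw [HahnSeries.coeff_smul, s44r_sq_beta_coeff_nonpos b K j i hi, smul_zero]
  · obtain ⟨n, rfl⟩ : ∃ n : ℕ, i = (n : ℤ) := ⟨i.toNat, by omega⟩
    rw [hd n]
    refine Finset.sum_congr rfl fun j _ => ?_
    rw [HahnSeries.coeff_smul, s44r_sq_beta_coeff, smul_eq_mul]

include ι b in
/-- `W` is finite-dimensional. -/
theorem s44r_sq_finite : FiniteDimensional K (s44a_sq_W (s44r_BL K M)) := by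
  have hle : s44a_sq_W (s44r_BL K M) ≤ Submodule.span K (Set.range (s44r_sq_beta b K)) := by
    intro φ hφ
    obtain ⟨d, rfl⟩ := s44r_sq_eq_sum ι b φ hφ
    exact Submodule.sum_mem _ fun j _ => Submodule.smul_mem _ _ (Submodule.subset_span ⟨j, rfl⟩)
  haveI : FiniteDimensional K (Submodule.span K (Set.range (s44r_sq_beta b K))) :=
    FiniteDimensional.span_of_finite K (Set.finite_range _)
  exact Submodule.finiteDimensional_of_le hle

section Final

variable {A k : Type*} [CommRing A] [IsDomain A] [IsDiscreteValuationRing A]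
  [Algebra A K] [IsFractionRing A K] [Field k]

include ι b in
/-- bounded denominators of `W`. -/
theorem s44r_sq_WBD (φ : LaurentSeries K) (hφ : φ ∈ s44a_sq_W (s44r_BL K M)) :
    ∃ c : A, c ≠ 0 ∧ ∃ φ' : LaurentSeries A,
      coeffMap (algebraMap A K) φ' = algebraMap A K c • φ := by
  classical
  obtain ⟨d, hd⟩ := s44r_sq_key ι b φ hφ
  obtain ⟨⟨c, hcmem⟩, hc⟩ := IsLocalization.exist_integer_multiples (nonZeroDivisors A)
    (Finset.univ : Finset (Fin r)) d
  have hc0 : c ≠ 0 := nonZeroDivisors.ne_zero hcmem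
  have hc' : ∀ j, ∃ e : A, algebraMap A K e = algebraMap A K c * d j := by
    intro j
    obtain ⟨e, he⟩ := hc j (Finset.mem_univ j)
    refine ⟨e, ?_⟩
    rw [he]
    show (c • d j : K) = _
    rw [Algebra.smul_def]
  choose e he using hc'
  refine ⟨c, hc0, s44a_sq_ser fun m => ∑ j, e j * ((s44w_icoeff (b j) (m + 1) : ℤ) : A), ?_⟩
  rw [s44a_sq_coeffMap_ser]
  ext i
  rw [HahnSeries.coeff_smul, smul_eq_mul]
  by_cases hi : i ≤ 0
  · rw [s44a_sq_ser_coeff_nonpos _ i hi, hφ.1 i hi, mul_zero]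
  · obtain ⟨m, rfl⟩ : ∃ m : ℕ, i = (m : ℤ) + 1 := ⟨(i - 1).toNat, by omega⟩
    rw [s44a_sq_ser_coeff_succ]
    have h1 := hd (m + 1)
    rw [Nat.cast_add, Nat.cast_one] at h1
    rw [h1, map_sum, Finset.mul_sum]
    refine Finset.sum_congr rfl fun j _ => ?_
    rw [map_mul, he j, map_intCast, mul_assoc]

include ι in
/-- **[SQ-INST]**: the squeeze at `F_K(M)`.  `A` a discrete valuation ring with fraction field `K`
(embedded in `ℂ` by `ι`), `π : A →+* k` onto a field of characteristic `p`; (g1) = `hBD` and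
(g2) = `hB3` are the two halves of [GR].  Every `ψ ∈ q k[[q]]` orthogonal to the reductions of the
integral members of `B` is a `k`-combination of the reductions of finitely many weight two cusp
forms of level `M` with integer `q`-coefficients. -/
theorem s44r_sq_inst (p : ℕ) [Fact p.Prime] [CharP k p] (π : A →+* k)
    (hπ : Function.Surjective π) (ϖ : A) (hϖ : Irreducible ϖ)
    (hBD : ∀ U ∈ s44r_BL K M, ∃ c : A, c ≠ 0 ∧ ∃ y : LaurentSeries A,
      coeffMap (algebraMap A K) y = algebraMap A K c • U)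
    (hB3 : ∀ y : LaurentSeries A, coeffMap (algebraMap A K) y ∈ s44r_BL K M →
      (∀ i : ℤ, i < 0 → π (y.coeff i) = 0) → ∀ i : ℤ, 0 < i → π (y.coeff i) = 0)
    (ψ : LaurentSeries k) (hψ0 : ∀ i : ℤ, i ≤ 0 → ψ.coeff i = 0)
    (hψ : ∀ y : LaurentSeries A, coeffMap (algebraMap A K) y ∈ s44r_BL K M →
      (coeffMap π y * ψ).coeff 0 = 0) :
    ∃ (r : ℕ) (f : Fin r → CuspForm (Gamma0 M) 2) (cf : Fin r → ℕ → ℤ) (v : Fin r → k),
      (∀ j n, qCoeff ⇑(f j) n = ((cf j n : ℤ) : ℂ)) ∧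
      ∀ n : ℕ, ψ.coeff n = ∑ j, v j * ((cf j n : ℤ) : k) := by
  classical
  haveI : Module.Finite ℤ (CuspForm.intLattice M 2) := finite_intLattice M 2
  haveI : Module.Free ℤ (CuspForm.intLattice M 2) := by
    haveI := isAddTorsionFree_cuspForm M 2
    exact Module.free_of_finite_type_torsion_free'
  set b₀ := Module.finBasis ℤ (CuspForm.intLattice M 2) with hb₀
  haveI : FiniteDimensional K (s44a_sq_W (s44r_BL K M)) := s44r_sq_finite ι b₀
  obtain ⟨φ', hφ'W, hφ'ψ⟩ := s44a_sq_laurent π hπ ϖ hϖ (s44r_BL K M) s44r_one_mem_BL hBD hB3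
    (fun φ hφ => s44r_sq_WBD ι b₀ φ hφ) ψ hψ0 hψ
  obtain ⟨d, hd⟩ := s44r_sq_key ι b₀ _ hφ'W
  obtain ⟨a, ha⟩ := s44r_sq_int π hπ (fun j n => s44w_icoeff (b₀ j) n)
    (fun w hw => s44w_inj_field b₀ p k w hw) ϖ hϖ d (fun n => φ'.coeff n)
    (fun n => by rw [← hd n, coeffMap_coeff])
  refine ⟨_, fun j => ((b₀ j : CuspForm.intLattice M 2) : CuspForm (Gamma0 M) 2),
    fun j n => s44w_icoeff (b₀ j) n, fun j => π (a j), fun j n => s44w_icoeff_spec (b₀ j) n,
    fun n => ?_⟩
  have h1 : φ'.coeff n = ∑ j, a j * ((s44w_icoeff (b₀ j) n : ℤ) : A) := by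
    apply IsFractionRing.injective A K
    rw [map_sum]
    have h2 := hd n
    rw [coeffMap_coeff] at h2
    rw [h2]
    refine Finset.sum_congr rfl fun j _ => ?_
    rw [map_mul, ha j, map_intCast]
  rw [← hφ'ψ, coeffMap_coeff, h1, map_sum]
  refine Finset.sum_congr rfl fun j _ => ?_
  rw [map_mul, map_intCast]

end Final

end

end Fermat.Agent.Lib.S44
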