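/-
M-AT-P programme (S44), wall W4′ = [L4b], brick **[GR-DESC]** (owner: helper4; helper1 #2222/#2227), part 3:
the three frozen consumer shapes (g1) ∧ (g2) ∧ (g2′) at every finite level `(L₀, A₀ = 𝔓 ∩ L₀, κ₀)`, with
`B := s44r_BL ↥L₀ M` (helper5), LITERALLY the body of helper3's `s44h_GR` (`Lib/S44/HLat.lean`, #2238), from
the two top-level statements (a), (b) of [GR] (`s44gd_HypA`, `s44gd_HypB`, `GDesc2.lean`).

* `s44gd_GR`        : the statement (same text as `s44h_GR`);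
* `s44gd_gr_level`  : (g1) ∧ (g2) ∧ (g2′) at one level from (a), (b) at `(M, 𝔓)`;
* `s44gd_gr`        : `(∀ M p 𝔓, (a)) → (∀ M p 𝔓, (b)) → s44gd_GR`.
-/
import Fermat.Agent.Lib.S44.GDesc2
import Fermat.Agent.Lib.S44.RSqInst
import Fermat.Agent.Lib.S18.NResidue

set_option autoImplicit false
set_option linter.unusedSectionVars false
set_option linter.style.haveILetI false

noncomputable section

namespace Fermat.Agent.Lib.S44

open ModularCurve AlgebraicCurve HahnSeries Fermat.Agent.Lib.FF Fermat.Agent.Lib.S18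
  Fermat.Agent.Lib.S29 Fermat.Agent.Lib.S33 Fermat.Agent.Lib.S37

local notation "Kb" => AlgebraicClosure ℚ

/-- **[GR]** at the finite levels: (g1) ∧ (g2) ∧ (g2′) for `B := s44r_BL ↥L₀ M` (= helper3's `s44h_GR`). -/
def s44gd_GR : Prop :=
  ∀ (M : ℕ) [NeZero M] (p : ℕ) [Fact p.Prime], 5 ≤ p → ¬ p ∣ M →
  ∀ (P : ValuationSubring Kb), P.LiesOverPrime p →
  ∀ (L₀ : IntermediateField ℚ Kb) [FiniteDimensional ℚ ↥L₀] [Normal ℚ ↥L₀]
    [IsDiscreteValuationRing ↥(s18q_A0 P L₀)],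
    -- (g1)
    (∀ U ∈ s44r_BL ↥L₀ M, ∃ c : ↥(s18q_A0 P L₀), c ≠ 0 ∧ ∃ y : LaurentSeries ↥(s18q_A0 P L₀),
      coeffMap (algebraMap ↥(s18q_A0 P L₀) ↥L₀) y = algebraMap ↥(s18q_A0 P L₀) ↥L₀ c • U) ∧
    -- (g2)
    (∀ y : LaurentSeries ↥(s18q_A0 P L₀),
      coeffMap (algebraMap ↥(s18q_A0 P L₀) ↥L₀) y ∈ s44r_BL ↥L₀ M →
      (∀ i : ℤ, i < 0 → IsLocalRing.residue ↥(s18q_A0 P L₀) (y.coeff i) = 0) →
        ∀ i : ℤ, 0 < i → IsLocalRing.residue ↥(s18q_A0 P L₀) (y.coeff i) = 0) ∧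
    -- (g2′)
    (∀ y : LaurentSeries ↥(s18q_A0 P L₀),
      coeffMap (algebraMap ↥(s18q_A0 P L₀) ↥L₀) y ∈ s44r_BL ↥L₀ M →
      ∃ hmem : coeffMap ((s37r_resMap P L₀).comp (IsLocalRing.residue ↥(s18q_A0 P L₀))) y ∈
          modularFunctionFieldFullC (IsLocalRing.ResidueField ↥P) M,
        ∀ v : Place (IsLocalRing.ResidueField ↥P)
            ↥(modularFunctionFieldFullC (IsLocalRing.ResidueField ↥P) M),
          v ≠ @s44h_fbarInf (IsLocalRing.ResidueField ↥P) _ (s18n_isAlgClosed_residueField P) M _ →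
          (⟨_, hmem⟩ : ↥(modularFunctionFieldFullC (IsLocalRing.ResidueField ↥P) M)) ∈
            v.toValuationSubring)

/-- **(g1) ∧ (g2) ∧ (g2′) at one level** from the top-level (a), (b). -/
theorem s44gd_gr_level (M : ℕ) [NeZero M] (p : ℕ) [Fact p.Prime] (P : ValuationSubring Kb)
    (hP : P.LiesOverPrime p) (L₀ : IntermediateField ℚ Kb) [FiniteDimensional ℚ ↥L₀]
    (ha : s44gd_HypA M P)
    (hb : @s44gd_HypB M _ P (s18n_isAlgClosed_residueField P)) :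
    (∀ U ∈ s44r_BL ↥L₀ M, ∃ c : ↥(s18q_A0 P L₀), c ≠ 0 ∧ ∃ y : LaurentSeries ↥(s18q_A0 P L₀),
      coeffMap (algebraMap ↥(s18q_A0 P L₀) ↥L₀) y = algebraMap ↥(s18q_A0 P L₀) ↥L₀ c • U) ∧
    (∀ y : LaurentSeries ↥(s18q_A0 P L₀),
      coeffMap (algebraMap ↥(s18q_A0 P L₀) ↥L₀) y ∈ s44r_BL ↥L₀ M →
      (∀ i : ℤ, i < 0 → IsLocalRing.residue ↥(s18q_A0 P L₀) (y.coeff i) = 0) →
        ∀ i : ℤ, 0 < i → IsLocalRing.residue ↥(s18q_A0 P L₀) (y.coeff i) = 0) ∧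
    (∀ y : LaurentSeries ↥(s18q_A0 P L₀),
      coeffMap (algebraMap ↥(s18q_A0 P L₀) ↥L₀) y ∈ s44r_BL ↥L₀ M →
      ∃ hmem : coeffMap ((s37r_resMap P L₀).comp (IsLocalRing.residue ↥(s18q_A0 P L₀))) y ∈
          modularFunctionFieldFullC (IsLocalRing.ResidueField ↥P) M,
        ∀ v : Place (IsLocalRing.ResidueField ↥P)
            ↥(modularFunctionFieldFullC (IsLocalRing.ResidueField ↥P) M),
          v ≠ @s44h_fbarInf (IsLocalRing.ResidueField ↥P) _ (s18n_isAlgClosed_residueField P) M _ →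
          (⟨_, hmem⟩ : ↥(modularFunctionFieldFullC (IsLocalRing.ResidueField ↥P) M)) ∈
            v.toValuationSubring) := by
  haveI : IsAlgClosed (IsLocalRing.ResidueField ↥P) := s18n_isAlgClosed_residueField P
  haveI : CharP (IsLocalRing.ResidueField ↥P) p := s18n_charP_residueField P Fact.out hP
  refine ⟨?_, ?_, ?_⟩
  · rintro _ ⟨U₀, hU₀, rfl⟩
    exact s44gd_g1 M P L₀ ha hU₀
  · rintro y ⟨U₀, hU₀, hy⟩ hneg
    exact s44gd_g2 M P L₀ p hb y hU₀ hy.symm hneg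
  · rintro y ⟨U₀, hU₀, hy⟩
    exact s44gd_g2' M P L₀ hb y hU₀ hy.symm

/-- **[GR-DESC]**: [GR] at all finite levels from [GR] at the top level. -/
theorem s44gd_gr
    (hA : ∀ (M : ℕ) [NeZero M] (p : ℕ) [Fact p.Prime], 5 ≤ p → ¬ p ∣ M →
      ∀ (P : ValuationSubring Kb), P.LiesOverPrime p → s44gd_HypA M P)
    (hB : ∀ (M : ℕ) [NeZero M] (p : ℕ) [Fact p.Prime], 5 ≤ p → ¬ p ∣ M →
      ∀ (P : ValuationSubring Kb), P.LiesOverPrime p →
        @s44gd_HypB M _ P (s18n_isAlgClosed_residueField P)) :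
    s44gd_GR := by
  intro M _ p _ h5 hpM P hP L₀ _ _ _
  exact s44gd_gr_level M p P hP L₀ (hA M p h5 hpM P hP) (hB M p h5 hpM P hP)

end Fermat.Agent.Lib.S44
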