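/-
M-AT-P (S44), W4′ [GR] (helper6), part A3-aux: generic lemmas for `Lib/S44/GCusp.lean`:

* two-variable polynomial expressions under ring homomorphisms (`s44g_c_hom_eval₂₂`);
* power series inside Laurent series (`s44g_c_ofPS_map`, `s44g_c_ofPS_of_nonneg`, `s44g_c_psPart`,
  `s44g_c_le_order_ofPS_iff`);
* the expansion `ε_P : O_P →ₐ[K] K⟦X⟧` of a place `P` of a function field over an algebraically
  closed field in a parameter `s` (`ord_P s = 1`), with `Xⁿ ∣ ε_P f ↔ f = 0 ∨ n ≤ ord_P f`.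
-/
import Fermat.Agent.Lib.S44.GExp
import Fermat.Agent.Lib.S37.PValue
import Fermat.Prelude.Def_ModularCurve_LaurentCoeff

set_option autoImplicit false
set_option linter.unusedSectionVars false
set_option linter.style.haveILetI false

noncomputable section

namespace Fermat.Agent.Lib.S44

open AlgebraicCurve Fermat.Agent.Lib.FF Fermat.Agent.Lib.S37 ModularCurve Polynomial

/-! ### two-variable polynomial expressions -/

section Eval

variable {B R R' : Type*} [CommRing B] [CommRing R] [CommRing R']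

theorem s44g_c_comp_eval₂RingHom (φ : R →+* R') (c : B →+* R) (s : R) :
    φ.comp (Polynomial.eval₂RingHom c s) = Polynomial.eval₂RingHom (φ.comp c) (φ s) := by
  apply Polynomial.ringHom_ext
  · intro a
    simp
  · simp

/-- a two-variable polynomial expression `G(s, t)` under a ring homomorphism. -/
theorem s44g_c_hom_eval₂₂ (φ : R →+* R') (c : B →+* R) (s t : R) (G : Polynomial (Polynomial B)) :
    φ (G.eval₂ (Polynomial.eval₂RingHom c s) t) =
      G.eval₂ (Polynomial.eval₂RingHom (φ.comp c) (φ s)) (φ t) := by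
  rw [Polynomial.hom_eval₂, s44g_c_comp_eval₂RingHom]

end Eval

/-! ### power series inside Laurent series -/

section PS

variable {R S : Type*} [CommRing R] [CommRing S]

theorem s44g_c_ofPS_map (f : R →+* S) (Y : PowerSeries R) :
    coeffMap f (HahnSeries.ofPowerSeries ℤ R Y) =
      HahnSeries.ofPowerSeries ℤ S (PowerSeries.map f Y) := by
  ext n
  rw [coeffMap_coeff]
  show f (((Y : PowerSeries R) : LaurentSeries R).coeff n) =
    ((PowerSeries.map f Y : PowerSeries S) : LaurentSeries S).coeff n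
  rw [PowerSeries.coeff_coe, PowerSeries.coeff_coe]
  split_ifs
  · exact map_zero f
  · rw [PowerSeries.coeff_map]

theorem s44g_c_ofPS_of_nonneg (y : LaurentSeries R) (h : ∀ n : ℤ, n < 0 → y.coeff n = 0) :
    HahnSeries.ofPowerSeries ℤ R (PowerSeries.mk fun n : ℕ => y.coeff (n : ℤ)) = y := by
  ext n
  show ((PowerSeries.mk fun n : ℕ => y.coeff (n : ℤ) : PowerSeries R) : LaurentSeries R).coeff n = _
  rw [PowerSeries.coeff_coe]
  split_ifs with hn
  · exact (h n hn).symm
  · rw [PowerSeries.coeff_mk, Int.natAbs_of_nonneg (not_lt.mp hn)]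

/-- the power-series part of a ring homomorphism into Laurent series with no polar parts. -/
def s44g_c_psPart {T : Type*} [CommRing T] (φ : T →+* LaurentSeries R)
    (h : ∀ (f : T) (n : ℤ), n < 0 → (φ f).coeff n = 0) : T →+* PowerSeries R where
  toFun f := PowerSeries.mk fun n : ℕ => (φ f).coeff (n : ℤ)
  map_one' := by
    apply HahnSeries.ofPowerSeries_injective (Γ := ℤ)
    rw [s44g_c_ofPS_of_nonneg _ (h 1), map_one, map_one]
  map_mul' a b := by
    apply HahnSeries.ofPowerSeries_injective (Γ := ℤ)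
    rw [s44g_c_ofPS_of_nonneg _ (h (a * b)), map_mul, map_mul, s44g_c_ofPS_of_nonneg _ (h a),
      s44g_c_ofPS_of_nonneg _ (h b)]
  map_zero' := by
    apply HahnSeries.ofPowerSeries_injective (Γ := ℤ)
    rw [s44g_c_ofPS_of_nonneg _ (h 0), map_zero, map_zero]
  map_add' a b := by
    apply HahnSeries.ofPowerSeries_injective (Γ := ℤ)
    rw [s44g_c_ofPS_of_nonneg _ (h (a + b)), map_add, map_add, s44g_c_ofPS_of_nonneg _ (h a),
      s44g_c_ofPS_of_nonneg _ (h b)]

theorem s44g_c_psPart_spec {T : Type*} [CommRing T] (φ : T →+* LaurentSeries R)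
    (h : ∀ (f : T) (n : ℤ), n < 0 → (φ f).coeff n = 0) (f : T) :
    HahnSeries.ofPowerSeries ℤ R (s44g_c_psPart φ h f) = φ f :=
  s44g_c_ofPS_of_nonneg _ (h f)

theorem s44g_c_psPart_eq {T : Type*} [CommRing T] (φ : T →+* LaurentSeries R)
    (h : ∀ (f : T) (n : ℤ), n < 0 → (φ f).coeff n = 0) (f : T) (Y : PowerSeries R)
    (hY : φ f = HahnSeries.ofPowerSeries ℤ R Y) : s44g_c_psPart φ h f = Y := by
  apply HahnSeries.ofPowerSeries_injective (Γ := ℤ)
  rw [s44g_c_psPart_spec, hY]

/-- `n ≤ order` of a non-zero power series read as a Laurent series. -/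
theorem s44g_c_le_order_ofPS_iff (E : PowerSeries R) (hE : E ≠ 0) (n : ℕ) :
    (n : ℤ) ≤ (HahnSeries.ofPowerSeries ℤ R E).order ↔ (PowerSeries.X : PowerSeries R) ^ n ∣ E := by
  have hE' : HahnSeries.ofPowerSeries ℤ R E ≠ 0 := fun h0 =>
    hE (HahnSeries.ofPowerSeries_injective (Γ := ℤ) (by rw [h0, map_zero]))
  rw [HahnSeries.le_order_iff_forall hE', PowerSeries.X_pow_dvd_iff]
  constructor
  · intro h m hm
    have := h (m : ℤ) (by exact_mod_cast hm)
    rwa [HahnSeries.ofPowerSeries_apply_coeff] at this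
  · intro h j hj
    show ((E : PowerSeries R) : LaurentSeries R).coeff j = 0
    rw [PowerSeries.coeff_coe]
    split_ifs with hj0
    · rfl
    · apply h
      have : (j.natAbs : ℤ) = j := Int.natAbs_of_nonneg (not_lt.mp hj0)
      omega

end PS

/-! ### the model case -/

section Model

variable {K : Type*} [CommRing K] (S u v : PowerSeries K) (huv : u * v = 1)
  (hS : S = PowerSeries.X * u)

include huv hS in
theorem s44g_c_S_pow_dvd_iff (n : ℕ) (E : PowerSeries K) :
    S ^ n ∣ E ↔ (PowerSeries.X : PowerSeries K) ^ n ∣ E := by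
  constructor
  · rintro ⟨g, rfl⟩
    rw [hS, mul_pow, mul_assoc]
    exact Dvd.intro _ rfl
  · rintro ⟨g, rfl⟩
    refine ⟨v ^ n * g, ?_⟩
    rw [hS, mul_pow, ← mul_assoc, mul_assoc (PowerSeries.X ^ n), ← mul_pow, huv, one_pow, mul_one]

/-- `Xⁿ ∣ ε_S E ↔ Xⁿ ∣ E`. -/
theorem s44g_c_psEps_X_pow_dvd_iff (n : ℕ) (E : PowerSeries K) :
    (PowerSeries.X : PowerSeries K) ^ n ∣ s44g_e_psEps S u v huv hS E ↔
      (PowerSeries.X : PowerSeries K) ^ n ∣ E := by
  unfold s44g_e_psEps
  exact (s44g_eps_X_pow_dvd_iff s44g_e_psEv S _ _ _ n E).trans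
    (s44g_c_S_pow_dvd_iff S u v huv hS n E)

/-- `ε_S` is injective. -/
theorem s44g_c_psEps_injective : Function.Injective (s44g_e_psEps S u v huv hS) := by
  unfold s44g_e_psEps
  refine s44g_eps_injective s44g_e_psEv S _ _ _ ?_
  intro f hf
  ext n
  have h1 := (s44g_c_S_pow_dvd_iff S u v huv hS (n + 1) f).mp (hf (n + 1))
  rw [PowerSeries.X_pow_dvd_iff] at h1
  rw [h1 n (Nat.lt_succ_self n), map_zero]

end Model

/-! ### the expansion at a place -/

section Place

variable {K F : Type*} [Field K] [Field F] [Algebra K F] [IsAlgClosed K]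
variable (x : F) [FFGen K x] (P : Place K F)

/-- the value map at a place, as a `K`-algebra homomorphism. -/
def s44g_c_plEv : ↥P.toValuationSubring →ₐ[K] K :=
  { s37pv_ev x P with commutes' := fun c => s37pv_ev_algebraMap x P c }

theorem s44g_c_plEv_apply (f : ↥P.toValuationSubring) : s44g_c_plEv x P f = s37pv_ev x P f := rfl

variable (s : F) (hs : P.ord s = 1)

include hs in
theorem s44g_c_pl_s_ne_zero : s ≠ 0 := by
  rintro rfl
  rw [Place.ord_zero] at hs
  exact zero_ne_one hs

include hs in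
theorem s44g_c_pl_s_mem : s ∈ P.toValuationSubring := by
  rw [ff_mem_iff_ord_nonneg P (s44g_c_pl_s_ne_zero P s hs), hs]
  exact zero_le_one

/-- the parameter as an element of `O_P`. -/
def s44g_c_plS : ↥P.toValuationSubring := ⟨s, s44g_c_pl_s_mem P s hs⟩

/-- **divisibility by `sⁿ` in `O_P`.** -/
theorem s44g_c_pl_pow_dvd_iff (n : ℕ) (f : ↥P.toValuationSubring) :
    s44g_c_plS P s hs ^ n ∣ f ↔ (f : F) = 0 ∨ (n : ℤ) ≤ P.ord (f : F) := by
  have hs0 := s44g_c_pl_s_ne_zero P s hs
  constructor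
  · rintro ⟨g, rfl⟩
    by_cases hg : (g : F) = 0
    · left
      rw [Subring.coe_mul, hg, mul_zero]
    · right
      have h1 : ((s44g_c_plS P s hs ^ n * g : ↥P.toValuationSubring) : F) = s ^ n * (g : F) := by
        rw [Subring.coe_mul, SubmonoidClass.coe_pow]
        rfl
      have h2 : 0 ≤ P.ord (g : F) := (ff_mem_iff_ord_nonneg P hg).mp g.2
      have h3 : P.ord (s ^ n) = n := by
        rw [← zpow_natCast, Place.ord_zpow, hs, mul_one]
      rw [h1, Place.ord_mul P (pow_ne_zero n hs0) hg, h3]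
      omega
  · rintro (h | h)
    · have : f = 0 := Subtype.ext h
      rw [this]
      exact dvd_zero _
    · by_cases hf : (f : F) = 0
      · have : f = 0 := Subtype.ext hf
        rw [this]
        exact dvd_zero _
      · have h3 : P.ord (s ^ n) = n := by
          rw [← zpow_natCast, Place.ord_zpow, hs, mul_one]
        have hg0 : (f : F) * (s ^ n)⁻¹ ≠ 0 := mul_ne_zero hf (inv_ne_zero (pow_ne_zero n hs0))
        have hmem : (f : F) * (s ^ n)⁻¹ ∈ P.toValuationSubring := by
          rw [ff_mem_iff_ord_nonneg P hg0,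
            Place.ord_mul P hf (inv_ne_zero (pow_ne_zero n hs0)), Place.ord_inv, h3]
          omega
        refine ⟨⟨_, hmem⟩, Subtype.ext ?_⟩
        rw [Subring.coe_mul, SubmonoidClass.coe_pow]
        show (f : F) = s ^ n * ((f : F) * (s ^ n)⁻¹)
        field_simp

theorem s44g_c_pl_hdiv (f : ↥P.toValuationSubring) (hf : s44g_c_plEv x P f = 0) :
    ∃ g : ↥P.toValuationSubring, f = s44g_c_plS P s hs * g := by
  have h1 : s44g_c_plS P s hs ^ 1 ∣ f := by
    rw [s44g_c_pl_pow_dvd_iff]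
    rw [s44g_c_plEv_apply, s37pv_ev_coe_eq_iff, map_zero, sub_zero] at hf
    rcases hf with hf | hf
    · exact Or.inl hf
    · right
      have : (1 : ℤ) ≤ P.ord (f : F) := hf
      exact_mod_cast this
  rw [pow_one] at h1
  exact h1

theorem s44g_c_pl_ht (g : ↥P.toValuationSubring) (hg : s44g_c_plS P s hs * g = 0) : g = 0 := by
  rcases mul_eq_zero.mp hg with h | h
  · exfalso
    exact s44g_c_pl_s_ne_zero P s hs (congrArg Subtype.val h)
  · exact h

theorem s44g_c_pl_hevt : s44g_c_plEv x P (s44g_c_plS P s hs) = 0 := by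
  rw [s44g_c_plEv_apply, s37pv_ev_coe_eq_iff]
  right
  rw [map_zero, sub_zero]
  show 0 < P.ord s
  rw [hs]
  exact one_pos

/-- **the expansion `ε_P : O_P →ₐ[K] K⟦X⟧` at a place in the parameter `s`.** -/
def s44g_c_plEps : ↥P.toValuationSubring →ₐ[K] PowerSeries K :=
  s44g_eps (s44g_c_plEv x P) (s44g_c_plS P s hs) (s44g_c_pl_hdiv x P s hs) (s44g_c_pl_ht P s hs)
    (s44g_c_pl_hevt x P s hs)

theorem s44g_c_plEps_s : s44g_c_plEps x P s hs (s44g_c_plS P s hs) = PowerSeries.X :=
  s44g_eps_t _ _ _ _ _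

/-- **`Xⁿ ∣ ε_P f ↔ f = 0 ∨ n ≤ ord_P f`.** -/
theorem s44g_c_plEps_X_pow_dvd_iff (n : ℕ) (f : ↥P.toValuationSubring) :
    (PowerSeries.X : PowerSeries K) ^ n ∣ s44g_c_plEps x P s hs f ↔
      (f : F) = 0 ∨ (n : ℤ) ≤ P.ord (f : F) := by
  rw [← s44g_c_pl_pow_dvd_iff P s hs]
  exact s44g_eps_X_pow_dvd_iff _ _ _ _ _ n f

end Place

end Fermat.Agent.Lib.S44
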