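/-
M-AT-P (S44), W4′ [GR] (helper6), part A: the ABSTRACT layer on top of the two-chart assembly of
`Lib/S37/RTwo` (`K` algebraically closed, `r := s37r_r h₁ h₂`, conservation of number).

* `s44g_ord_le_red`   : for `y ∈ O` with `red y ≠ 0`, regular on the fibre `r⁻¹(Q)`:
                        `ord_P y ≤ ord_Q (red y)` for every `P ∈ r⁻¹(Q)`.
* `s44g_value`        : (GR0) the value lemma: values on `r⁻¹(Q)` lie in `A` and reduce to the value at `Q`.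
* `s44g_fibre_inv`    : on the fibre of a pole `Q` of `w̄`, `w⁻¹` takes values in `A` reducing to `0`.
* `s44g_exists_zero`  : (A1) if `ord_Q w̄ = -1`, the fibre `r⁻¹(Q)` contains exactly one zero `c₀` of
                        `s = w⁻¹`, it is simple, and `s` is a unit at the other places of the fibre.
* `s44g_step`         : (A2) the operator `f ↦ (f − f(c₀)) · w` on functions of `O` regular on the fibre.
-/
import Fermat.Agent.Lib.S37.RTwo

set_option autoImplicit false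
set_option linter.unusedSectionVars false
set_option linter.style.haveILetI false

noncomputable section

namespace Fermat.Agent.Lib.S44

open AlgebraicCurve Fermat.Agent.Lib.FF Fermat.Agent.Lib.S18 Fermat.Agent.Lib.S37 IsDedekindDomain

variable {K F : Type*} [Field K] [Field F] [Algebra K F] [IsAlgClosed K]
  {k Fb : Type*} [Field k] [Field Fb] [Algebra k Fb]
  {D₁ : Type*} [CommRing D₁] [IsDedekindDomain D₁] [Algebra D₁ Fb] [IsFractionRing D₁ Fb]
  [Algebra k D₁] [IsScalarTower k D₁ Fb]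
  {D₂ : Type*} [CommRing D₂] [IsDedekindDomain D₂] [Algebra D₂ Fb] [IsFractionRing D₂ Fb]
  [Algebra k D₂] [IsScalarTower k D₂ Fb]
  {x : F} [FFGen K x] {A : ValuationSubring K} {π : ↥A →+* k}
  {O : ValuationSubring F} {red : ↥O →+* Fb} {w : F}
  {PsiD₁ : ↥(s18_ring O (s18_chart1 (L₀ := K) w)) →+* D₁}
  {PsiD₂ : ↥(s18_ring O (s18_chart1 (L₀ := K) w⁻¹)) →+* D₂}
  (h₁ : s37r_ChartHyp x A π O red w PsiD₁) (h₂ : s37r_ChartHyp x A π O red w⁻¹ PsiD₂)

/-- the divisor of a non-zero function. -/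
def s44g_div (y : F) (hy : y ≠ 0) : Divisor K F :=
  Finsupp.ofSupportFinite (fun P => P.ord y) (h₁.fin y hy)

theorem s44g_div_apply (y : F) (hy : y ≠ 0) (P : Place K F) :
    s44g_div h₁ y hy P = P.ord y := rfl

include h₁ h₂

theorem s44g_ne_zero_of_red {y : F} (hy : y ∈ O) (hy0 : red ⟨y, hy⟩ ≠ 0) : y ≠ 0 := by
  rintro rfl
  apply hy0
  have : (⟨0, hy⟩ : ↥O) = 0 := rfl
  rw [this, map_zero]

open Classical in
/-- conservation of number, as a sum over the fibre. -/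
theorem s44g_ord_red_eq (y : F) (hy : y ∈ O) (hy0 : red ⟨y, hy⟩ ≠ 0) (Q : Place k Fb) :
    Q.ord (red ⟨y, hy⟩) =
      ∑ P ∈ (s44g_div h₁ y (s44g_ne_zero_of_red h₁ h₂ hy hy0)).support with
        s37r_r h₁ h₂ P = Q, P.ord y := by
  rw [← s37r_conservation h₁ h₂ y hy hy0 (s44g_div h₁ y (s44g_ne_zero_of_red h₁ h₂ hy hy0))
    (fun P => rfl) Q, s37r_mapDomain_apply]
  rfl

/-- for `y ∈ O` with non-zero reduction, regular on the fibre of `Q`: `ord_P y ≤ ord_Q (red y)`. -/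
theorem s44g_ord_le_red (y : F) (hy : y ∈ O) (hy0 : red ⟨y, hy⟩ ≠ 0) (Q : Place k Fb)
    (hreg : ∀ P : Place K F, s37r_r h₁ h₂ P = Q → y ∈ P.toValuationSubring)
    (P₀ : Place K F) (hP₀ : s37r_r h₁ h₂ P₀ = Q) : P₀.ord y ≤ Q.ord (red ⟨y, hy⟩) := by
  classical
  have hyne := s44g_ne_zero_of_red h₁ h₂ hy hy0
  rw [s44g_ord_red_eq h₁ h₂ y hy hy0 Q]
  have hnn : ∀ P ∈ (s44g_div h₁ y hyne).support.filter (fun P => s37r_r h₁ h₂ P = Q),
      0 ≤ P.ord y := by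
    intro P hP
    rw [Finset.mem_filter] at hP
    exact (ff_mem_iff_ord_nonneg P hyne).mp (hreg P hP.2)
  by_cases hmem : P₀ ∈ (s44g_div h₁ y hyne).support.filter (fun P => s37r_r h₁ h₂ P = Q)
  · exact Finset.single_le_sum hnn hmem
  · have h0 : P₀.ord y = 0 := by
      by_contra hne
      apply hmem
      rw [Finset.mem_filter, Finsupp.mem_support_iff]
      exact ⟨hne, hP₀⟩
    rw [h0]
    exact Finset.sum_nonneg hnn

/-- the reduction of a function regular on the fibre of `Q` is regular at `Q`. -/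
theorem s44g_red_mem (y : F) (hy : y ∈ O) (Q : Place k Fb)
    (hreg : ∀ P : Place K F, s37r_r h₁ h₂ P = Q → y ∈ P.toValuationSubring) :
    red ⟨y, hy⟩ ∈ Q.toValuationSubring := by
  classical
  by_cases hy0 : red ⟨y, hy⟩ = 0
  · rw [hy0]
    exact Q.toValuationSubring.zero_mem
  · rw [ff_mem_iff_ord_nonneg Q hy0, s44g_ord_red_eq h₁ h₂ y hy hy0 Q]
    refine Finset.sum_nonneg fun P hP => ?_
    rw [Finset.mem_filter] at hP
    exact (ff_mem_iff_ord_nonneg P (s44g_ne_zero_of_red h₁ h₂ hy hy0)).mp (hreg P hP.2)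

/-- a function of `O` with non-zero reduction, regular on the fibre of `Q` and vanishing at a point of
the fibre, has a reduction vanishing at `Q`. -/
theorem s44g_pos_of_ev_zero (g : F) (hg : g ∈ O) (hg0 : red ⟨g, hg⟩ ≠ 0) (Q : Place k Fb)
    (hreg : ∀ P : Place K F, s37r_r h₁ h₂ P = Q → g ∈ P.toValuationSubring)
    (P₀ : Place K F) (hP₀ : s37r_r h₁ h₂ P₀ = Q)
    (hev : s37pv_ev x P₀ ⟨g, hreg P₀ hP₀⟩ = 0) : 0 < Q.ord (red ⟨g, hg⟩) := by
  have hgne := s44g_ne_zero_of_red h₁ h₂ hg hg0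
  have h1 := (s37pv_ev_coe_eq_iff x P₀ ⟨g, hreg P₀ hP₀⟩ 0).mp hev
  rw [map_zero, sub_zero] at h1
  rcases h1 with h1 | h1
  · exact absurd h1 hgne
  · exact lt_of_lt_of_le h1 (s44g_ord_le_red h₁ h₂ g hg hg0 Q hreg P₀ hP₀)

/-- (GR0) **the value lemma**: a function of `O` regular on the fibre `r⁻¹(Q)` takes values in `A` on
the fibre, and these values reduce to the value of the reduction at `Q`. -/
theorem s44g_value (f : F) (hf : f ∈ O) (Q : Place k Fb)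
    (hreg : ∀ P : Place K F, s37r_r h₁ h₂ P = Q → f ∈ P.toValuationSubring)
    (P₀ : Place K F) (hP₀ : s37r_r h₁ h₂ P₀ = Q) :
    ∃ hA : s37pv_ev x P₀ ⟨f, hreg P₀ hP₀⟩ ∈ A,
      red ⟨f, hf⟩ = algebraMap k Fb (π ⟨_, hA⟩) ∨
        0 < Q.ord (red ⟨f, hf⟩ - algebraMap k Fb (π ⟨_, hA⟩)) := by
  set a := s37pv_ev x P₀ ⟨f, hreg P₀ hP₀⟩ with ha
  have haA : a ∈ A := by
    by_contra hnA
    have hainv : a⁻¹ ∈ A := (A.mem_or_inv_mem a).resolve_left hnA
    have hπ : π ⟨a⁻¹, hainv⟩ = 0 := by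
      by_contra hne
      have h3 := h₁.unit_of_ne ⟨a⁻¹, hainv⟩ hne
      simp only [inv_inv] at h3
      exact hnA h3
    have ha0 : a ≠ 0 := fun h0 => hnA (h0 ▸ A.zero_mem)
    set g : F := algebraMap K F a⁻¹ * f - 1 with hg
    have hgO : g ∈ O :=
      sub_mem (O.mul_mem _ _ (h₁.const_mem ⟨a⁻¹, hainv⟩) hf) O.one_mem
    have hredg : red ⟨g, hgO⟩ = -1 := by
      have h4 : (⟨g, hgO⟩ : ↥O) =
          ⟨algebraMap K F a⁻¹, h₁.const_mem ⟨a⁻¹, hainv⟩⟩ * ⟨f, hf⟩ - 1 := rfl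
      rw [h4, map_sub, map_mul, map_one, h₁.red_const ⟨a⁻¹, hainv⟩, hπ, map_zero, zero_mul,
        zero_sub]
    have hregg : ∀ P : Place K F, s37r_r h₁ h₂ P = Q → g ∈ P.toValuationSubring := fun P hP =>
      sub_mem (P.toValuationSubring.mul_mem _ _ (P.algebraMap_mem' _) (hreg P hP))
        P.toValuationSubring.one_mem
    have hev : s37pv_ev x P₀ ⟨g, hregg P₀ hP₀⟩ = 0 := by
      have h4 : (⟨g, hregg P₀ hP₀⟩ : ↥P₀.toValuationSubring) =
          algebraMap K ↥P₀.toValuationSubring a⁻¹ * ⟨f, hreg P₀ hP₀⟩ - 1 := rfl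
      rw [h4, map_sub, map_mul, map_one, s37pv_ev_algebraMap, ← ha, inv_mul_cancel₀ ha0, sub_self]
    have hpos := s44g_pos_of_ev_zero h₁ h₂ g hgO
      (by rw [hredg]; exact neg_ne_zero.mpr one_ne_zero) Q hregg P₀ hP₀ hev
    rw [hredg] at hpos
    have h5 : Q.ord (-1 : Fb) = 0 := by
      have h6 := ff_ord_algebraMap Q (-1 : k)
      rwa [map_neg, map_one] at h6
    omega
  refine ⟨haA, ?_⟩
  set g : F := f - algebraMap K F a with hg
  have hgO : g ∈ O := sub_mem hf (h₁.const_mem ⟨a, haA⟩)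
  have hredg : red ⟨g, hgO⟩ = red ⟨f, hf⟩ - algebraMap k Fb (π ⟨a, haA⟩) := by
    have h4 : (⟨g, hgO⟩ : ↥O) = ⟨f, hf⟩ - ⟨algebraMap K F a, h₁.const_mem ⟨a, haA⟩⟩ := rfl
    rw [h4, map_sub, h₁.red_const ⟨a, haA⟩]
  by_cases hg0 : red ⟨g, hgO⟩ = 0
  · left
    rw [hredg, sub_eq_zero] at hg0
    exact hg0
  · right
    have hregg : ∀ P : Place K F, s37r_r h₁ h₂ P = Q → g ∈ P.toValuationSubring := fun P hP =>
      sub_mem (hreg P hP) (P.algebraMap_mem' _)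
    have hev : s37pv_ev x P₀ ⟨g, hregg P₀ hP₀⟩ = 0 := by
      have h4 : (⟨g, hregg P₀ hP₀⟩ : ↥P₀.toValuationSubring) =
          ⟨f, hreg P₀ hP₀⟩ - algebraMap K ↥P₀.toValuationSubring a := rfl
      rw [h4, map_sub, s37pv_ev_algebraMap, ← ha, sub_self]
    have hpos := s44g_pos_of_ev_zero h₁ h₂ g hgO hg0 Q hregg P₀ hP₀ hev
    rwa [hredg] at hpos

/-- on the fibre of a pole `Q` of `w̄`, the function `w⁻¹` takes values in `A` reducing to `0`. -/
theorem s44g_fibre_inv (Q : Place k Fb) (hQ : (red ⟨w, h₁.w_mem⟩ : Fb) ∉ Q.toValuationSubring)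
    (P : Place K F) (hP : s37r_r h₁ h₂ P = Q) :
    ∃ hInt : s37r_Int x A w⁻¹ P, π ⟨s37pv_ev x P ⟨w⁻¹, hInt.fst⟩, hInt.snd⟩ = 0 := by
  apply s37r_Int_inv_of_not h₁ P
  intro hInt
  apply hQ
  rw [← hP]
  exact s37r_r_regular h₁ h₂ P hInt

theorem s44g_not_mem_of_ord (Q : Place k Fb) (hQ1 : Q.ord (red ⟨w, h₁.w_mem⟩) = -1) :
    (red ⟨w, h₁.w_mem⟩ : Fb) ∉ Q.toValuationSubring := by
  rw [ff_mem_iff_ord_nonneg Q (s37r_red_w_ne_zero h₁), hQ1]
  omega

/-- (A1) **the unique zero of `s = w⁻¹` on the fibre of a simple pole `Q` of `w̄`.** -/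
theorem s44g_exists_zero (Q : Place k Fb) (hQ1 : Q.ord (red ⟨w, h₁.w_mem⟩) = -1) :
    ∃ c₀ : Place K F, s37r_r h₁ h₂ c₀ = Q ∧ c₀.ord w⁻¹ = 1 ∧
      ∀ P : Place K F, s37r_r h₁ h₂ P = Q → P ≠ c₀ → P.ord w⁻¹ = 0 := by
  classical
  have hQ := s44g_not_mem_of_ord h₁ h₂ Q hQ1
  have hs0 : red ⟨w⁻¹, h₂.w_mem⟩ ≠ 0 := s37r_red_w_ne_zero h₂
  have hsne : w⁻¹ ≠ 0 := inv_ne_zero (s37r_w_ne_zero h₁)
  have hsQ : Q.ord (red ⟨w⁻¹, h₂.w_mem⟩) = 1 := by
    rw [s37r_red_inv h₁ h₂, Place.ord_inv, hQ1]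
    rfl
  have hreg : ∀ P : Place K F, s37r_r h₁ h₂ P = Q → w⁻¹ ∈ P.toValuationSubring := fun P hP =>
    (s44g_fibre_inv h₁ h₂ Q hQ P hP).fst.fst
  have hsum := s44g_ord_red_eq h₁ h₂ w⁻¹ h₂.w_mem hs0 Q
  rw [hsQ] at hsum
  set T := (s44g_div h₁ w⁻¹ (s44g_ne_zero_of_red h₁ h₂ h₂.w_mem hs0)).support.filter
    (fun P => s37r_r h₁ h₂ P = Q) with hT
  have hpos : ∀ P ∈ T, 1 ≤ P.ord w⁻¹ := by
    intro P hP
    rw [hT, Finset.mem_filter, Finsupp.mem_support_iff] at hP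
    have h1 : 0 ≤ P.ord w⁻¹ := (ff_mem_iff_ord_nonneg P hsne).mp (hreg P hP.2)
    have h2 : P.ord w⁻¹ ≠ 0 := hP.1
    omega
  have hne : T.Nonempty := by
    by_contra hemp
    rw [Finset.not_nonempty_iff_eq_empty] at hemp
    rw [hemp, Finset.sum_empty] at hsum
    exact one_ne_zero hsum
  obtain ⟨c₀, hc₀⟩ := hne
  have hsplit := Finset.add_sum_erase T (fun P => P.ord w⁻¹) hc₀
  have herase : ((T.erase c₀).card : ℤ) ≤ ∑ P ∈ T.erase c₀, P.ord w⁻¹ := by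
    have h3 : ∑ _P ∈ T.erase c₀, (1 : ℤ) ≤ ∑ P ∈ T.erase c₀, P.ord w⁻¹ :=
      Finset.sum_le_sum fun P hP => hpos P (Finset.mem_of_mem_erase hP)
    simpa using h3
  have h1 := hpos c₀ hc₀
  have hcard : (T.erase c₀).card = 0 := by
    have : (0 : ℤ) ≤ ((T.erase c₀).card : ℤ) := Int.natCast_nonneg _
    omega
  have hempty : T.erase c₀ = ∅ := Finset.card_eq_zero.mp hcard
  have hc₀' := hc₀
  rw [hT, Finset.mem_filter] at hc₀'
  refine ⟨c₀, hc₀'.2, ?_, ?_⟩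
  · rw [hempty, Finset.sum_empty] at hsplit
    omega
  · intro P hP hPc
    by_contra hne0
    have hPT : P ∈ T := by
      rw [hT, Finset.mem_filter, Finsupp.mem_support_iff]
      exact ⟨hne0, hP⟩
    have : P ∈ T.erase c₀ := Finset.mem_erase.mpr ⟨hPc, hPT⟩
    rw [hempty] at this
    exact absurd this (Finset.notMem_empty P)

/-- (A2) **the division step**: for `f ∈ O` regular on the fibre of `Q`, the value `a = f(c₀)` lies
in `A` and `f = a + w⁻¹ · f₁` with `f₁ ∈ O` again regular on the fibre. -/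
theorem s44g_step (Q : Place k Fb) (hQ1 : Q.ord (red ⟨w, h₁.w_mem⟩) = -1)
    (c₀ : Place K F) (hc₀ : s37r_r h₁ h₂ c₀ = Q) (hc1 : c₀.ord w⁻¹ = 1)
    (hc0 : ∀ P : Place K F, s37r_r h₁ h₂ P = Q → P ≠ c₀ → P.ord w⁻¹ = 0)
    (f : F) (hf : f ∈ O)
    (hreg : ∀ P : Place K F, s37r_r h₁ h₂ P = Q → f ∈ P.toValuationSubring) :
    ∃ (a : ↥A) (f₁ : F), (a : K) = s37pv_ev x c₀ ⟨f, hreg c₀ hc₀⟩ ∧ f₁ ∈ O ∧
      (∀ P : Place K F, s37r_r h₁ h₂ P = Q → f₁ ∈ P.toValuationSubring) ∧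
      f = algebraMap K F (a : K) + w⁻¹ * f₁ := by
  obtain ⟨haA, -⟩ := s44g_value h₁ h₂ f hf Q hreg c₀ hc₀
  set a := s37pv_ev x c₀ ⟨f, hreg c₀ hc₀⟩ with ha
  have hw0 : w ≠ 0 := s37r_w_ne_zero h₁
  set g : F := f - algebraMap K F a with hg
  have hgreg : ∀ P : Place K F, s37r_r h₁ h₂ P = Q → g ∈ P.toValuationSubring := fun P hP =>
    sub_mem (hreg P hP) (P.algebraMap_mem' _)
  refine ⟨⟨a, haA⟩, g * w, rfl, ?_, ?_, ?_⟩
  · exact O.mul_mem _ _ (sub_mem hf (h₁.const_mem ⟨a, haA⟩)) h₁.w_mem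
  · intro P hP
    by_cases hPc : P = c₀
    · subst hPc
      by_cases hg0 : g = 0
      · rw [hg0, zero_mul]
        exact P.toValuationSubring.zero_mem
      · have hev : s37pv_ev x P ⟨g, hgreg P hP⟩ = 0 := by
          have h4 : (⟨g, hgreg P hP⟩ : ↥P.toValuationSubring) =
              ⟨f, hreg P hP⟩ - algebraMap K ↥P.toValuationSubring a := rfl
          rw [h4, map_sub, s37pv_ev_algebraMap, ← ha, sub_self]
        have h1 := (s37pv_ev_coe_eq_iff x P ⟨g, hgreg P hP⟩ 0).mp hev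
        rw [map_zero, sub_zero] at h1
        rcases h1 with h1 | h1
        · exact absurd h1 hg0
        · rw [ff_mem_iff_ord_nonneg P (mul_ne_zero hg0 hw0), P.ord_mul hg0 hw0]
          have h2 : P.ord w = -1 := by
            have := P.ord_inv w
            rw [hc1] at this
            omega
          have h3 : (0 : ℤ) < P.ord g := h1
          omega
    · have h2 : P.ord w = 0 := by
        have := P.ord_inv w
        rw [hc0 P hP hPc] at this
        omega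
      exact P.toValuationSubring.mul_mem _ _ (hgreg P hP)
        ((ff_mem_iff_ord_nonneg P hw0).mpr h2.ge)
  · rw [hg]
    field_simp
    ring

end Fermat.Agent.Lib.S44
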