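/-
M-AT-P (S44), W4′ [GR] (helper6), part A′: the ring `R_Q` of functions of `O` regular on the fibre
`r⁻¹(Q)` of a simple pole `Q` of `w̄`, as an `A`-algebra with the value map `ev : R_Q →ₐ[A] A` at the
unique zero `c₀` of `s = w⁻¹` on the fibre, and the division property by `s` — the input data of the
expansion `ε` of `Lib/S44/GExp.lean` ([GR-E]).
-/
import Fermat.Agent.Lib.S44.GAbs

set_option autoImplicit false
set_option linter.unusedSectionVars false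
set_option linter.style.haveILetI false

noncomputable section

namespace Fermat.Agent.Lib.S44

open AlgebraicCurve Fermat.Agent.Lib.FF Fermat.Agent.Lib.S18 Fermat.Agent.Lib.S37 IsDedekindDomain

variable {K F : Type*} [Field K] [Field F] [Algebra K F] [IsAlgClosed K]
  {k Fb : Type*} [Field k] [Field Fb] [Algebra k Fb]
  {D₁ : Type*} [CommRing D₁] [IsDedekindDomain D₁] [Algebra D₁ Fb] [IsFractionRing D₁ Fb]
  [Algebra k D₁] [IsScalarTower k D₁ Fb]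
  {D₂ : Type*} [CommRing D₂] [IsDedekindDomain D₂] [Algebra D₂ Fb] [IsFractionRing D₂ Fb]
  [Algebra k D₂] [IsScalarTower k D₂ Fb]
  {x : F} [FFGen K x] {A : ValuationSubring K} {π : ↥A →+* k}
  {O : ValuationSubring F} {red : ↥O →+* Fb} {w : F}
  {PsiD₁ : ↥(s18_ring O (s18_chart1 (L₀ := K) w)) →+* D₁}
  {PsiD₂ : ↥(s18_ring O (s18_chart1 (L₀ := K) w⁻¹)) →+* D₂}
  (h₁ : s37r_ChartHyp x A π O red w PsiD₁) (h₂ : s37r_ChartHyp x A π O red w⁻¹ PsiD₂)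

/-- **the ring `R_Q`** of functions of `O` regular on the fibre `r⁻¹(Q)`. -/
def s44g_RQ (Q : Place k Fb) : Subring F where
  carrier := {f | f ∈ O ∧ ∀ P : Place K F, s37r_r h₁ h₂ P = Q → f ∈ P.toValuationSubring}
  mul_mem' := fun ha hb => ⟨O.mul_mem _ _ ha.1 hb.1, fun P hP =>
    P.toValuationSubring.mul_mem _ _ (ha.2 P hP) (hb.2 P hP)⟩
  one_mem' := ⟨O.one_mem, fun P _ => P.toValuationSubring.one_mem⟩
  add_mem' := fun ha hb => ⟨O.add_mem _ _ ha.1 hb.1, fun P hP =>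
    P.toValuationSubring.add_mem _ _ (ha.2 P hP) (hb.2 P hP)⟩
  zero_mem' := ⟨O.zero_mem, fun P _ => P.toValuationSubring.zero_mem⟩
  neg_mem' := fun ha => ⟨O.neg_mem _ ha.1, fun P hP => P.toValuationSubring.neg_mem _ (ha.2 P hP)⟩

theorem s44g_mem_RQ (Q : Place k Fb) (f : F) :
    f ∈ s44g_RQ h₁ h₂ Q ↔
      f ∈ O ∧ ∀ P : Place K F, s37r_r h₁ h₂ P = Q → f ∈ P.toValuationSubring := Iff.rfl

/-- integral constants in `R_Q`. -/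
def s44g_RQ_const (Q : Place k Fb) : ↥A →+* ↥(s44g_RQ h₁ h₂ Q) where
  toFun c := ⟨algebraMap K F (c : K), h₁.const_mem c, fun P _ => P.algebraMap_mem' _⟩
  map_one' := Subtype.ext (by simp)
  map_mul' a b := Subtype.ext (by simp)
  map_zero' := Subtype.ext (by simp)
  map_add' a b := Subtype.ext (by simp)

/-- `R_Q` as an `A`-algebra. -/
@[reducible] def s44g_RQ_algebra (Q : Place k Fb) : Algebra ↥A ↥(s44g_RQ h₁ h₂ Q) :=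
  (s44g_RQ_const h₁ h₂ Q).toAlgebra

theorem s44g_RQ_algebraMap_coe (Q : Place k Fb) (c : ↥A) :
    letI := s44g_RQ_algebra h₁ h₂ Q
    ((algebraMap ↥A ↥(s44g_RQ h₁ h₂ Q) c : ↥(s44g_RQ h₁ h₂ Q)) : F) = algebraMap K F (c : K) := rfl

section Zero

variable (Q : Place k Fb) (c₀ : Place K F) (hc₀ : s37r_r h₁ h₂ c₀ = Q)

/-- the value map of `R_Q` at a point `c₀` of the fibre, with values in `A` by the value lemma. -/
def s44g_RQ_ev : ↥(s44g_RQ h₁ h₂ Q) →+* ↥A where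
  toFun f := ⟨s37pv_ev x c₀ ⟨(f : F), f.2.2 c₀ hc₀⟩,
    (s44g_value h₁ h₂ (f : F) f.2.1 Q f.2.2 c₀ hc₀).fst⟩
  map_one' := Subtype.ext (by
    show s37pv_ev x c₀ 1 = 1
    exact map_one _)
  map_mul' a b := Subtype.ext (by
    show s37pv_ev x c₀ (⟨(a : F), a.2.2 c₀ hc₀⟩ * ⟨(b : F), b.2.2 c₀ hc₀⟩) = _
    rw [map_mul]
    rfl)
  map_zero' := Subtype.ext (by
    show s37pv_ev x c₀ 0 = 0
    exact map_zero _)
  map_add' a b := Subtype.ext (by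
    show s37pv_ev x c₀ (⟨(a : F), a.2.2 c₀ hc₀⟩ + ⟨(b : F), b.2.2 c₀ hc₀⟩) = _
    rw [map_add]
    rfl)

theorem s44g_RQ_ev_coe (f : ↥(s44g_RQ h₁ h₂ Q)) :
    ((s44g_RQ_ev h₁ h₂ Q c₀ hc₀ f : ↥A) : K) = s37pv_ev x c₀ ⟨(f : F), f.2.2 c₀ hc₀⟩ := rfl

theorem s44g_RQ_ev_const (c : ↥A) :
    s44g_RQ_ev h₁ h₂ Q c₀ hc₀ (s44g_RQ_const h₁ h₂ Q c) = c := by
  apply Subtype.ext
  rw [s44g_RQ_ev_coe]
  exact s37pv_ev_algebraMap x c₀ (c : K)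

/-- the value map as an `A`-algebra homomorphism. -/
def s44g_RQ_evAlg :
    letI := s44g_RQ_algebra h₁ h₂ Q
    ↥(s44g_RQ h₁ h₂ Q) →ₐ[↥A] ↥A :=
  letI := s44g_RQ_algebra h₁ h₂ Q
  { s44g_RQ_ev h₁ h₂ Q c₀ hc₀ with
    commutes' := fun c => s44g_RQ_ev_const h₁ h₂ Q c₀ hc₀ c }

/-- compatibility of the value map with the reduction: `(red f)(Q) = π (f(c₀))`. -/
theorem s44g_RQ_ev_red (f : ↥(s44g_RQ h₁ h₂ Q)) :
    red ⟨(f : F), f.2.1⟩ = algebraMap k Fb (π (s44g_RQ_ev h₁ h₂ Q c₀ hc₀ f)) ∨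
      0 < Q.ord (red ⟨(f : F), f.2.1⟩ - algebraMap k Fb (π (s44g_RQ_ev h₁ h₂ Q c₀ hc₀ f))) :=
  (s44g_value h₁ h₂ (f : F) f.2.1 Q f.2.2 c₀ hc₀).snd

variable (hQ1 : Q.ord (red ⟨w, h₁.w_mem⟩) = -1) (hc1 : c₀.ord w⁻¹ = 1)
  (hc0 : ∀ P : Place K F, s37r_r h₁ h₂ P = Q → P ≠ c₀ → P.ord w⁻¹ = 0)

include hQ1 in
/-- the parameter `s = w⁻¹` as an element of `R_Q`. -/
def s44g_RQ_s : ↥(s44g_RQ h₁ h₂ Q) :=
  ⟨w⁻¹, h₂.w_mem, fun P hP =>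
    (s44g_fibre_inv h₁ h₂ Q (s44g_not_mem_of_ord h₁ h₂ Q hQ1) P hP).fst.fst⟩

theorem s44g_RQ_s_coe : ((s44g_RQ_s h₁ h₂ Q hQ1 : ↥(s44g_RQ h₁ h₂ Q)) : F) = w⁻¹ := rfl

theorem s44g_RQ_s_ne_zero : s44g_RQ_s h₁ h₂ Q hQ1 ≠ 0 := by
  intro h0
  have := congrArg (fun f : ↥(s44g_RQ h₁ h₂ Q) => (f : F)) h0
  exact inv_ne_zero (s37r_w_ne_zero h₁) this

include hc1 in
theorem s44g_RQ_ev_s : s44g_RQ_ev h₁ h₂ Q c₀ hc₀ (s44g_RQ_s h₁ h₂ Q hQ1) = 0 := by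
  apply Subtype.ext
  rw [s44g_RQ_ev_coe]
  show s37pv_ev x c₀ ⟨w⁻¹, _⟩ = 0
  rw [s37pv_ev_coe_eq_iff]
  right
  rw [map_zero, sub_zero, hc1]
  exact one_pos

include hc1 hc0 in
/-- **division by `s`** in `R_Q`. -/
theorem s44g_RQ_div (f : ↥(s44g_RQ h₁ h₂ Q)) (hf : s44g_RQ_ev h₁ h₂ Q c₀ hc₀ f = 0) :
    ∃ g : ↥(s44g_RQ h₁ h₂ Q), f = s44g_RQ_s h₁ h₂ Q hQ1 * g := by
  obtain ⟨a, f₁, ha, hf₁O, hf₁reg, heq⟩ :=
    s44g_step h₁ h₂ Q hQ1 c₀ hc₀ hc1 hc0 (f : F) f.2.1 f.2.2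
  have ha0 : (a : K) = 0 := by
    rw [ha, ← s44g_RQ_ev_coe h₁ h₂ Q c₀ hc₀ f, hf]
    rfl
  refine ⟨⟨f₁, hf₁O, hf₁reg⟩, Subtype.ext ?_⟩
  rw [Subring.coe_mul, s44g_RQ_s_coe]
  rw [heq, ha0, map_zero, zero_add]

end Zero

end Fermat.Agent.Lib.S44
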