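/-
M-AT-P (S44), W4′ [GR] (helper6), part A3: **the zero `c₀` of `s = w⁻¹` on the fibre `r⁻¹(Q_∞)` is the
cusp `P_∞`** (`s44g_c0_eq`), by comparing `s`-adic expansions (Hensel uniqueness for a test element).
-/
import Fermat.Agent.Lib.S44.GFib
import Fermat.Agent.Lib.S44.GCuspAux

set_option autoImplicit false
set_option linter.unusedSectionVars false
set_option linter.style.haveILetI false

noncomputable section

namespace Fermat.Agent.Lib.S44

open AlgebraicCurve Fermat.Agent.Lib.FF Fermat.Agent.Lib.S18 Fermat.Agent.Lib.S37 IsDedekindDomain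
  ModularCurve

variable {K F : Type*} [Field K] [Field F] [Algebra K F] [IsAlgClosed K]
  {k Fb : Type*} [Field k] [Field Fb] [Algebra k Fb]
  {D₁ : Type*} [CommRing D₁] [IsDedekindDomain D₁] [Algebra D₁ Fb] [IsFractionRing D₁ Fb]
  [Algebra k D₁] [IsScalarTower k D₁ Fb]
  {D₂ : Type*} [CommRing D₂] [IsDedekindDomain D₂] [Algebra D₂ Fb] [IsFractionRing D₂ Fb]
  [Algebra k D₂] [IsScalarTower k D₂ Fb]
  {x : F} [FFGen K x] {A : ValuationSubring K} {π : ↥A →+* k}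
  {O : ValuationSubring F} {red : ↥O →+* Fb} {w : F}
  {PsiD₁ : ↥(s18_ring O (s18_chart1 (L₀ := K) w)) →+* D₁}
  {PsiD₂ : ↥(s18_ring O (s18_chart1 (L₀ := K) w⁻¹)) →+* D₂}
  (h₁ : s37r_ChartHyp x A π O red w PsiD₁) (h₂ : s37r_ChartHyp x A π O red w⁻¹ PsiD₂)

attribute [local instance] s44g_RQ_algebra

section Cusp

variable (Q : Place k Fb) (hQ1 : Q.ord (red ⟨w, h₁.w_mem⟩) = -1)
  (c₀ : Place K F) (hc₀ : s37r_r h₁ h₂ c₀ = Q) (hc1 : c₀.ord w⁻¹ = 1)
  (hc0 : ∀ P : Place K F, s37r_r h₁ h₂ P = Q → P ≠ c₀ → P.ord w⁻¹ = 0)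

/-- **the expansion `ε_Q : R_Q →ₐ[A] A⟦X⟧`** at `c₀` in the parameter `s = w⁻¹`. -/
def s44g_c_epsQ : ↥(s44g_RQ h₁ h₂ Q) →ₐ[↥A] PowerSeries ↥A :=
  s44g_eps (s44g_RQ_evAlg h₁ h₂ Q c₀ hc₀) (s44g_RQ_s h₁ h₂ Q hQ1)
    (fun f hf => s44g_RQ_div h₁ h₂ Q c₀ hc₀ hQ1 hc1 hc0 f hf)
    (fun g hg => (mul_eq_zero.mp hg).resolve_left (s44g_RQ_s_ne_zero h₁ h₂ Q hQ1))
    (s44g_RQ_ev_s h₁ h₂ Q c₀ hc₀ hQ1 hc1)

theorem s44g_c_epsQ_s :
    s44g_c_epsQ h₁ h₂ Q hQ1 c₀ hc₀ hc1 hc0 (s44g_RQ_s h₁ h₂ Q hQ1) = PowerSeries.X :=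
  s44g_eps_t _ _ _ _ _

/-- `R_Q → O`. -/
def s44g_c_toO : ↥(s44g_RQ h₁ h₂ Q) →+* ↥O where
  toFun f := ⟨(f : F), f.2.1⟩
  map_one' := rfl
  map_mul' _ _ := rfl
  map_zero' := rfl
  map_add' _ _ := rfl

/-- `R_Q → O_{c₀}`. -/
def s44g_c_toC : ↥(s44g_RQ h₁ h₂ Q) →+* ↥c₀.toValuationSubring where
  toFun f := ⟨(f : F), f.2.2 c₀ hc₀⟩
  map_one' := rfl
  map_mul' _ _ := rfl
  map_zero' := rfl
  map_add' _ _ := rfl

/-- (sq1) **`ε_Q` is the restriction of `ε_{c₀}`.** -/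
theorem s44g_c_sq1 (f : ↥(s44g_RQ h₁ h₂ Q)) :
    PowerSeries.map A.subtype (s44g_c_epsQ h₁ h₂ Q hQ1 c₀ hc₀ hc1 hc0 f) =
      s44g_c_plEps x c₀ w⁻¹ hc1 (s44g_c_toC h₁ h₂ Q c₀ hc₀ f) := by
  unfold s44g_c_epsQ s44g_c_plEps
  exact s44g_eps_natural _ _ _ _ _ _ _ _ _ _ A.subtype (s44g_c_toC h₁ h₂ Q c₀ hc₀) rfl
    (fun c => rfl) f

/-! ### the residue side -/

variable (ι : F →+* LaurentSeries K) (ιb : Fb →+* LaurentSeries k)
  (hιbC : ∀ c : k, ιb (algebraMap k Fb c) = HahnSeries.C c)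
  (hbr : ∀ (f : F) (hf : f ∈ O) (Y : LaurentSeries ↥A), ι f = coeffMap A.subtype Y →
    ιb (red ⟨f, hf⟩) = coeffMap π Y)
  (hQinf : ∀ g : Fb, g ∈ Q.toValuationSubring → ∀ n : ℤ, n < 0 → (ιb g).coeff n = 0)
  (Sser u v : PowerSeries ↥A) (huv : u * v = 1) (hS : Sser = PowerSeries.X * u)
  (hιs : ι w⁻¹ = coeffMap A.subtype (HahnSeries.ofPowerSeries ℤ ↥A Sser))

/-- **`ρ_κ : R_Q → k⟦q⟧`**: the `q`-expansion of the reduction. -/
def s44g_c_rhoK : ↥(s44g_RQ h₁ h₂ Q) →+* PowerSeries k :=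
  s44g_c_psPart ((ιb.comp red).comp (s44g_c_toO h₁ h₂ Q)) (fun f n hn =>
    hQinf _ (s44g_red_mem h₁ h₂ (f : F) f.2.1 Q f.2.2) n hn)

include hbr in
theorem s44g_c_rhoK_eq (f : ↥(s44g_RQ h₁ h₂ Q)) (Y : PowerSeries ↥A)
    (hY : ι (f : F) = coeffMap A.subtype (HahnSeries.ofPowerSeries ℤ ↥A Y)) :
    s44g_c_rhoK h₁ h₂ Q ιb hQinf f = PowerSeries.map π Y := by
  apply s44g_c_psPart_eq
  show ιb (red ⟨(f : F), f.2.1⟩) = _
  rw [hbr (f : F) f.2.1 _ hY, s44g_c_ofPS_map]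

include hιbC in
theorem s44g_c_rhoK_const (c : ↥A) :
    s44g_c_rhoK h₁ h₂ Q ιb hQinf (algebraMap ↥A ↥(s44g_RQ h₁ h₂ Q) c) =
      algebraMap k (PowerSeries k) (π c) := by
  apply s44g_c_psPart_eq
  show ιb (red ⟨algebraMap K F (c : K), _⟩) = _
  rw [h₁.red_const c, hιbC, PowerSeries.algebraMap_apply, Algebra.algebraMap_self,
    RingHom.id_apply, HahnSeries.ofPowerSeries_C]

include hιbC hbr hιs in
/-- (sq2) **`ε_Q` reduces to the re-expansion of the `q`-expansion of the reduction.** -/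
theorem s44g_c_sq2 (f : ↥(s44g_RQ h₁ h₂ Q)) :
    PowerSeries.map π (s44g_c_epsQ h₁ h₂ Q hQ1 c₀ hc₀ hc1 hc0 f) =
      s44g_e_psEps (PowerSeries.map π Sser) (PowerSeries.map π u) (PowerSeries.map π v)
        (by rw [← map_mul, huv, map_one]) (by rw [hS, map_mul, PowerSeries.map_X])
        (s44g_c_rhoK h₁ h₂ Q ιb hQinf f) := by
  unfold s44g_c_epsQ s44g_e_psEps
  exact s44g_eps_natural _ _ _ _ _ _ _ _ _ _ π (s44g_c_rhoK h₁ h₂ Q ιb hQinf)
    (s44g_c_rhoK_eq h₁ h₂ Q ι ιb hbr hQinf (s44g_RQ_s h₁ h₂ Q hQ1) Sser hιs)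
    (s44g_c_rhoK_const h₁ h₂ Q ιb hιbC hQinf) f

/-! ### the Hensel step -/

theorem s44g_c_psEps_comp_C {Λ : Type*} [CommRing Λ] (S' u' v' : PowerSeries Λ) (huv' : u' * v' = 1)
    (hS' : S' = PowerSeries.X * u') :
    (s44g_e_psEps S' u' v' huv' hS').toRingHom.comp (PowerSeries.C : Λ →+* PowerSeries Λ) =
      PowerSeries.C := by
  ext1 c
  have := (s44g_e_psEps S' u' v' huv' hS').commutes c
  rw [PowerSeries.algebraMap_apply, Algebra.algebraMap_self, RingHom.id_apply] at this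
  exact this

variable (hιC : ∀ c : K, ι (algebraMap K F c) = HahnSeries.C c)
  (t : ↥(s44g_RQ h₁ h₂ Q)) (T : PowerSeries ↥A)
  (hT : ι (t : F) = coeffMap A.subtype (HahnSeries.ofPowerSeries ℤ ↥A T))
  (G : Polynomial (Polynomial ↥A))
  (hG : G.eval₂ (Polynomial.eval₂RingHom ((algebraMap K F).comp A.subtype) w⁻¹) (t : F) = 0)
  (hsep : (Polynomial.derivative G).eval₂
    (Polynomial.eval₂RingHom ((PowerSeries.C : k →+* PowerSeries k).comp π)
      (PowerSeries.map π Sser)) (PowerSeries.map π T) ≠ 0)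

include hG in
theorem s44g_c_root1 :
    G.eval₂ (Polynomial.eval₂RingHom (PowerSeries.C : ↥A →+* PowerSeries ↥A) PowerSeries.X)
      (s44g_c_epsQ h₁ h₂ Q hQ1 c₀ hc₀ hc1 hc0 t) = 0 := by
  have h0 : G.eval₂ (Polynomial.eval₂RingHom (algebraMap ↥A ↥(s44g_RQ h₁ h₂ Q))
      (s44g_RQ_s h₁ h₂ Q hQ1)) t = 0 := by
    apply Subtype.val_injective
    show (Subring.subtype (s44g_RQ h₁ h₂ Q)) _ = (Subring.subtype (s44g_RQ h₁ h₂ Q)) 0
    rw [s44g_c_hom_eval₂₂, map_zero]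
    exact hG
  have h1 := s44g_c_hom_eval₂₂ (s44g_c_epsQ h₁ h₂ Q hQ1 c₀ hc₀ hc1 hc0).toRingHom
    (algebraMap ↥A ↥(s44g_RQ h₁ h₂ Q)) (s44g_RQ_s h₁ h₂ Q hQ1) t G
  rw [h0, map_zero] at h1
  have h2 : (s44g_c_epsQ h₁ h₂ Q hQ1 c₀ hc₀ hc1 hc0).toRingHom.comp
      (algebraMap ↥A ↥(s44g_RQ h₁ h₂ Q)) = (PowerSeries.C : ↥A →+* PowerSeries ↥A) := by
    ext1 c
    have := (s44g_c_epsQ h₁ h₂ Q hQ1 c₀ hc₀ hc1 hc0).commutes c
    rw [PowerSeries.algebraMap_apply, Algebra.algebraMap_self, RingHom.id_apply] at this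
    exact this
  rw [h2] at h1
  have h3 : (s44g_c_epsQ h₁ h₂ Q hQ1 c₀ hc₀ hc1 hc0).toRingHom (s44g_RQ_s h₁ h₂ Q hQ1) =
      PowerSeries.X := s44g_c_epsQ_s h₁ h₂ Q hQ1 c₀ hc₀ hc1 hc0
  rw [h3] at h1
  exact h1.symm

include hιC hιs hT hG in
theorem s44g_c_root2 :
    G.eval₂ (Polynomial.eval₂RingHom (PowerSeries.C : ↥A →+* PowerSeries ↥A) PowerSeries.X)
      (s44g_e_psEps Sser u v huv hS T) = 0 := by
  have h0 : G.eval₂ (Polynomial.eval₂RingHom (PowerSeries.C : ↥A →+* PowerSeries ↥A) Sser) T = 0 := by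
    set Φ : PowerSeries ↥A →+* LaurentSeries K :=
      (coeffMap A.subtype).comp (HahnSeries.ofPowerSeries ℤ ↥A) with hΦ
    have hΦinj : Function.Injective Φ := by
      intro a b hab
      apply HahnSeries.ofPowerSeries_injective (Γ := ℤ)
      ext n
      have := congrArg (fun y : LaurentSeries K => y.coeff n) hab
      simp only [hΦ, RingHom.comp_apply, coeffMap_coeff] at this
      exact this
    apply hΦinj
    rw [s44g_c_hom_eval₂₂, map_zero]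
    have h1 := s44g_c_hom_eval₂₂ ι ((algebraMap K F).comp A.subtype) w⁻¹ (t : F) G
    rw [hG, map_zero] at h1
    have h2 : Φ.comp (PowerSeries.C : ↥A →+* PowerSeries ↥A) =
        ι.comp ((algebraMap K F).comp A.subtype) := by
      ext1 c
      simp only [hΦ, RingHom.comp_apply]
      rw [HahnSeries.ofPowerSeries_C, hιC]
      show coeffMap A.subtype (HahnSeries.single 0 c) = HahnSeries.single 0 (A.subtype c)
      rw [coeffMap_single]
    have h3 : Φ Sser = ι w⁻¹ := hιs.symm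
    have h4 : Φ T = ι (t : F) := hT.symm
    rw [h2, h3, h4]
    exact h1.symm
  have h1 := s44g_c_hom_eval₂₂ (s44g_e_psEps Sser u v huv hS).toRingHom
    (PowerSeries.C : ↥A →+* PowerSeries ↥A) Sser T G
  rw [h0, map_zero, s44g_c_psEps_comp_C] at h1
  have h3 : (s44g_e_psEps Sser u v huv hS).toRingHom Sser = PowerSeries.X :=
    s44g_e_psEps_S Sser u v huv hS
  rw [h3] at h1
  exact h1.symm

include hιbC hbr hιs hT hQinf in
theorem s44g_c_cong :
    PowerSeries.map π (s44g_c_epsQ h₁ h₂ Q hQ1 c₀ hc₀ hc1 hc0 t) =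
      s44g_e_psEps (PowerSeries.map π Sser) (PowerSeries.map π u) (PowerSeries.map π v)
        (by rw [← map_mul, huv, map_one]) (by rw [hS, map_mul, PowerSeries.map_X])
        (PowerSeries.map π T) := by
  rw [s44g_c_sq2 h₁ h₂ Q hQ1 c₀ hc₀ hc1 hc0 ι ιb hιbC hbr hQinf Sser u v huv hS hιs t,
    s44g_c_rhoK_eq h₁ h₂ Q ι ιb hbr hQinf t T hT]

include hιbC hbr hιs hT hsep hQinf huv hS in
theorem s44g_c_der :
    (Polynomial.derivative G).eval₂
      (Polynomial.eval₂RingHom ((PowerSeries.C : k →+* PowerSeries k).comp π) PowerSeries.X)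
      (PowerSeries.map π (s44g_c_epsQ h₁ h₂ Q hQ1 c₀ hc₀ hc1 hc0 t)) ≠ 0 := by
  rw [s44g_c_cong h₁ h₂ Q hQ1 c₀ hc₀ hc1 hc0 ι ιb hιbC hbr hQinf Sser u v huv hS hιs t T hT]
  set εb := s44g_e_psEps (PowerSeries.map π Sser) (PowerSeries.map π u) (PowerSeries.map π v)
    (by rw [← map_mul, huv, map_one]) (by rw [hS, map_mul, PowerSeries.map_X]) with hεb
  have h1 := s44g_c_hom_eval₂₂ εb.toRingHom ((PowerSeries.C : k →+* PowerSeries k).comp π)
    (PowerSeries.map π Sser) (PowerSeries.map π T) (Polynomial.derivative G)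
  have h2 : εb.toRingHom.comp ((PowerSeries.C : k →+* PowerSeries k).comp π) =
      (PowerSeries.C : k →+* PowerSeries k).comp π := by
    rw [← RingHom.comp_assoc, hεb, s44g_c_psEps_comp_C]
  have h3 : εb.toRingHom (PowerSeries.map π Sser) = PowerSeries.X := s44g_e_psEps_S _ _ _ _ _
  rw [h2, h3] at h1
  intro h0
  have h4 : εb.toRingHom ((Polynomial.derivative G).eval₂
      (Polynomial.eval₂RingHom ((PowerSeries.C : k →+* PowerSeries k).comp π)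
        (PowerSeries.map π Sser)) (PowerSeries.map π T)) = 0 := by
    rw [h1]
    exact h0
  apply hsep
  apply s44g_c_psEps_injective (PowerSeries.map π Sser) (PowerSeries.map π u) (PowerSeries.map π v)
    (by rw [← map_mul, huv, map_one]) (by rw [hS, map_mul, PowerSeries.map_X])
  rw [map_zero]
  exact h4

include hιbC hbr hιs hT hsep hιC hG hQinf in
/-- **the Hensel step**: the `s`-adic expansion of `t` at `c₀` is the re-expansion of its
`q`-expansion. -/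
theorem s44g_c_hensel :
    s44g_c_epsQ h₁ h₂ Q hQ1 c₀ hc₀ hc1 hc0 t = s44g_e_psEps Sser u v huv hS T := by
  refine s44g_e_hensel_unique (PowerSeries.map π)
    (G.map (Polynomial.eval₂RingHom (PowerSeries.C : ↥A →+* PowerSeries ↥A) PowerSeries.X)) _ _
    ?_ ?_ ?_ ?_
  · rw [Polynomial.eval_map]
    exact s44g_c_root1 h₁ h₂ Q hQ1 c₀ hc₀ hc1 hc0 t G hG
  · rw [Polynomial.eval_map]
    exact s44g_c_root2 h₁ h₂ Q ι Sser u v huv hS hιs hιC t T hT G hG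
  · rw [s44g_c_cong h₁ h₂ Q hQ1 c₀ hc₀ hc1 hc0 ι ιb hιbC hbr hQinf Sser u v huv hS hιs t T hT,
      s44g_e_psEps_map]
  · rw [Polynomial.map_map, Polynomial.derivative_map, Polynomial.eval_map,
      s44g_c_comp_eval₂RingHom, PowerSeries.map_X]
    have h5 : (PowerSeries.map π).comp (PowerSeries.C : ↥A →+* PowerSeries ↥A) =
        (PowerSeries.C : k →+* PowerSeries k).comp π := by
      ext1 c
      simp
    rw [h5]
    exact s44g_c_der h₁ h₂ Q hQ1 c₀ hc₀ hc1 hc0 ι ιb hιbC hbr hQinf Sser u v huv hS hιs t T hT G hsep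

/-! ### comparison of orders -/

include hιbC hbr hιs hT hsep hιC hG hQinf hQ1 hc₀ hc1 hc0 huv hS in
/-- the expansion of `t` at `c₀` over `K`. -/
theorem s44g_c_eps_t :
    s44g_c_plEps x c₀ w⁻¹ hc1 (s44g_c_toC h₁ h₂ Q c₀ hc₀ t) =
      s44g_e_psEps (PowerSeries.map A.subtype Sser) (PowerSeries.map A.subtype u)
        (PowerSeries.map A.subtype v) (by rw [← map_mul, huv, map_one])
        (by rw [hS, map_mul, PowerSeries.map_X]) (PowerSeries.map A.subtype T) := by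
  rw [← s44g_c_sq1 h₁ h₂ Q hQ1 c₀ hc₀ hc1 hc0 t,
    s44g_c_hensel h₁ h₂ Q hQ1 c₀ hc₀ hc1 hc0 ι ιb hιbC hbr hQinf Sser u v huv hS hιs hιC t T hT G hG
      hsep, s44g_e_psEps_map]

variable (Pinf : Place K F) (hPord : ∀ f : F, f ≠ 0 → Pinf.ord f = (ι f).order)

include hιbC hbr hιs hT hsep hιC hG hQinf hPord hQ1 hc₀ hc1 hc0 huv hS in
/-- `ord_{c₀} = ord_{P_∞}` on polynomial expressions in `s` and `t`. -/
theorem s44g_c_ord_eq_poly (a : Polynomial (Polynomial K))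
    (hg : a.eval₂ (Polynomial.eval₂RingHom (algebraMap K F) w⁻¹) (t : F) ≠ 0) :
    c₀.ord (a.eval₂ (Polynomial.eval₂RingHom (algebraMap K F) w⁻¹) (t : F)) =
      Pinf.ord (a.eval₂ (Polynomial.eval₂RingHom (algebraMap K F) w⁻¹) (t : F)) := by
  set g : F := a.eval₂ (Polynomial.eval₂RingHom (algebraMap K F) w⁻¹) (t : F) with hgdef
  set sC := s44g_c_plS c₀ w⁻¹ hc1 with hsC
  set tC := s44g_c_toC h₁ h₂ Q c₀ hc₀ t with htC
  set gC : ↥c₀.toValuationSubring :=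
    a.eval₂ (Polynomial.eval₂RingHom (algebraMap K ↥c₀.toValuationSubring) sC) tC with hgC
  set SK := PowerSeries.map A.subtype Sser with hSK
  set TK := PowerSeries.map A.subtype T with hTK
  set E : PowerSeries K :=
    a.eval₂ (Polynomial.eval₂RingHom (PowerSeries.C : K →+* PowerSeries K) SK) TK with hE
  set εK := s44g_e_psEps SK (PowerSeries.map A.subtype u) (PowerSeries.map A.subtype v)
    (by rw [← map_mul, huv, map_one]) (by rw [hSK, hS, map_mul, PowerSeries.map_X]) with hεK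
  -- (i)
  have hi : (gC : F) = g := by
    show c₀.toValuationSubring.subtype gC = g
    rw [hgC, s44g_c_hom_eval₂₂]
    rfl
  -- (ii)
  have hii : ι g = HahnSeries.ofPowerSeries ℤ K E := by
    rw [hgdef, hE, s44g_c_hom_eval₂₂, s44g_c_hom_eval₂₂]
    have h1 : ι.comp (algebraMap K F) =
        (HahnSeries.ofPowerSeries ℤ K).comp (PowerSeries.C : K →+* PowerSeries K) := by
      ext1 c
      simp only [RingHom.comp_apply]
      rw [hιC, HahnSeries.ofPowerSeries_C]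
    rw [h1, hιs, hT, s44g_c_ofPS_map, s44g_c_ofPS_map]
  -- (iii)
  have hiii : s44g_c_plEps x c₀ w⁻¹ hc1 gC =
      a.eval₂ (Polynomial.eval₂RingHom (PowerSeries.C : K →+* PowerSeries K) PowerSeries.X)
        (s44g_c_plEps x c₀ w⁻¹ hc1 tC) := by
    have h1 := s44g_c_hom_eval₂₂ (s44g_c_plEps x c₀ w⁻¹ hc1).toRingHom
      (algebraMap K ↥c₀.toValuationSubring) sC tC a
    have h2 : (s44g_c_plEps x c₀ w⁻¹ hc1).toRingHom.comp (algebraMap K ↥c₀.toValuationSubring) =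
        (PowerSeries.C : K →+* PowerSeries K) := by
      ext1 c
      have := (s44g_c_plEps x c₀ w⁻¹ hc1).commutes c
      rw [PowerSeries.algebraMap_apply, Algebra.algebraMap_self, RingHom.id_apply] at this
      exact this
    have h3 : (s44g_c_plEps x c₀ w⁻¹ hc1).toRingHom sC = PowerSeries.X :=
      s44g_c_plEps_s x c₀ w⁻¹ hc1
    rw [h2, h3] at h1
    exact h1
  -- (iv)
  have hiv : εK E =
      a.eval₂ (Polynomial.eval₂RingHom (PowerSeries.C : K →+* PowerSeries K) PowerSeries.X)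
        (εK TK) := by
    have h1 := s44g_c_hom_eval₂₂ εK.toRingHom (PowerSeries.C : K →+* PowerSeries K) SK TK a
    have h3 : εK.toRingHom SK = PowerSeries.X := s44g_e_psEps_S _ _ _ _ _
    rw [hεK, s44g_c_psEps_comp_C, ← hεK, h3] at h1
    exact h1
  have hv : s44g_c_plEps x c₀ w⁻¹ hc1 gC = εK E := by
    rw [hiii, hiv, htC,
      s44g_c_eps_t h₁ h₂ Q hQ1 c₀ hc₀ hc1 hc0 ι ιb hιbC hbr hQinf Sser u v huv hS hιs hιC t T hT G hG
        hsep]
  have hE0 : E ≠ 0 := by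
    intro h0
    apply hg
    have : ι g = 0 := by rw [hii, h0, map_zero]
    exact (map_eq_zero ι).mp this
  have hkey : ∀ n : ℕ, (n : ℤ) ≤ c₀.ord g ↔ (n : ℤ) ≤ Pinf.ord g := by
    intro n
    rw [hPord g hg, hii, s44g_c_le_order_ofPS_iff E hE0,
      ← s44g_c_psEps_X_pow_dvd_iff SK (PowerSeries.map A.subtype u) (PowerSeries.map A.subtype v)
        (by rw [← map_mul, huv, map_one]) (by rw [hSK, hS, map_mul, PowerSeries.map_X]) n E,
      ← hεK, ← hv, s44g_c_plEps_X_pow_dvd_iff, hi]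
    constructor
    · intro h
      exact Or.inr h
    · rintro (h | h)
      · exact absurd h hg
      · exact h
  have h0c : 0 ≤ c₀.ord g := by
    rw [← hi] at hg ⊢
    exact (ff_mem_iff_ord_nonneg c₀ hg).mp gC.2
  have h0P : 0 ≤ Pinf.ord g := by
    have := (hkey 0).mp (by exact_mod_cast h0c)
    exact_mod_cast this
  have h1 := (hkey (c₀.ord g).toNat).mp (by rw [Int.toNat_of_nonneg h0c])
  have h2 := (hkey (Pinf.ord g).toNat).mpr (by rw [Int.toNat_of_nonneg h0P])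
  rw [Int.toNat_of_nonneg h0c] at h1
  rw [Int.toNat_of_nonneg h0P] at h2
  exact le_antisymm h1 h2

variable (hgen : ∀ f : F, ∃ (d : Polynomial K) (a : Polynomial (Polynomial K)),
    Polynomial.aeval w⁻¹ d ≠ 0 ∧
      Polynomial.aeval w⁻¹ d * f = a.eval₂ (Polynomial.eval₂RingHom (algebraMap K F) w⁻¹) (t : F))

include hιbC hbr hιs hT hsep hιC hG hQinf hPord hQ1 hc₀ hc1 hc0 huv hS hgen in
theorem s44g_c_ord_eq (f : F) (hf : f ≠ 0) : c₀.ord f = Pinf.ord f := by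
  obtain ⟨d, a, hd, hda⟩ := hgen f
  have hd' : Polynomial.aeval w⁻¹ d =
      (Polynomial.C d : Polynomial (Polynomial K)).eval₂
        (Polynomial.eval₂RingHom (algebraMap K F) w⁻¹) (t : F) := by
    rw [Polynomial.eval₂_C, Polynomial.coe_eval₂RingHom, Polynomial.aeval_def]
  have h1 := s44g_c_ord_eq_poly h₁ h₂ Q hQ1 c₀ hc₀ hc1 hc0 ι ιb hιbC hbr hQinf Sser u v huv hS hιs hιC
    t T hT G hG hsep Pinf hPord (Polynomial.C d) (by rw [← hd']; exact hd)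
  rw [← hd'] at h1
  have hne : a.eval₂ (Polynomial.eval₂RingHom (algebraMap K F) w⁻¹) (t : F) ≠ 0 := by
    rw [← hda]
    exact mul_ne_zero hd hf
  have h2 := s44g_c_ord_eq_poly h₁ h₂ Q hQ1 c₀ hc₀ hc1 hc0 ι ιb hιbC hbr hQinf Sser u v huv hS hιs hιC
    t T hT G hG hsep Pinf hPord a hne
  rw [← hda, Place.ord_mul c₀ hd hf, Place.ord_mul Pinf hd hf, h1] at h2
  exact add_left_cancel h2

include hιbC hbr hιs hT hsep hιC hG hQinf hPord hQ1 hc₀ hc1 hc0 huv hS hgen in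
/-- (A3) **the zero `c₀` of `s = w⁻¹` on the fibre of `Q_∞` is the cusp `P_∞`.** -/
theorem s44g_c0_eq' : c₀ = Pinf := by
  apply Place.ext
  ext f
  by_cases hf : f = 0
  · rw [hf]
    exact ⟨fun _ => Pinf.toValuationSubring.zero_mem, fun _ => c₀.toValuationSubring.zero_mem⟩
  · rw [ff_mem_iff_ord_nonneg c₀ hf, ff_mem_iff_ord_nonneg Pinf hf,
      s44g_c_ord_eq h₁ h₂ Q hQ1 c₀ hc₀ hc1 hc0 ι ιb hιbC hbr hQinf Sser u v huv hS hιs hιC t T hT G hG
        hsep Pinf hPord hgen f hf]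

end Cusp

/-- (A3) **the cusp theorem**, in the form consumed downstream: the fibre of the simple pole `Q_∞` of
`w̄` contains the cusp `P_∞`, `s = w⁻¹` has a simple zero there and is a unit at the other places of
the fibre. -/
theorem s44g_c0_eq (Q : Place k Fb) (hQ1 : Q.ord (red ⟨w, h₁.w_mem⟩) = -1)
    (ι : F →+* LaurentSeries K) (ιb : Fb →+* LaurentSeries k)
    (hιC : ∀ c : K, ι (algebraMap K F c) = HahnSeries.C c)
    (hιbC : ∀ c : k, ιb (algebraMap k Fb c) = HahnSeries.C c)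
    (hbr : ∀ (f : F) (hf : f ∈ O) (Y : LaurentSeries ↥A), ι f = coeffMap A.subtype Y →
      ιb (red ⟨f, hf⟩) = coeffMap π Y)
    (hQinf : ∀ g : Fb, g ∈ Q.toValuationSubring → ∀ n : ℤ, n < 0 → (ιb g).coeff n = 0)
    (Pinf : Place K F) (hPord : ∀ f : F, f ≠ 0 → Pinf.ord f = (ι f).order)
    (Sser u v : PowerSeries ↥A) (huv : u * v = 1) (hS : Sser = PowerSeries.X * u)
    (hιs : ι w⁻¹ = coeffMap A.subtype (HahnSeries.ofPowerSeries ℤ ↥A Sser))
    (t : F) (ht : t ∈ s44g_RQ h₁ h₂ Q) (T : PowerSeries ↥A)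
    (hT : ι t = coeffMap A.subtype (HahnSeries.ofPowerSeries ℤ ↥A T))
    (G : Polynomial (Polynomial ↥A))
    (hG : G.eval₂ (Polynomial.eval₂RingHom ((algebraMap K F).comp A.subtype) w⁻¹) t = 0)
    (hsep : (Polynomial.derivative G).eval₂
      (Polynomial.eval₂RingHom ((PowerSeries.C : k →+* PowerSeries k).comp π)
        (PowerSeries.map π Sser)) (PowerSeries.map π T) ≠ 0)
    (hgen : ∀ f : F, ∃ (d : Polynomial K) (a : Polynomial (Polynomial K)),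
      Polynomial.aeval w⁻¹ d ≠ 0 ∧
        Polynomial.aeval w⁻¹ d * f = a.eval₂ (Polynomial.eval₂RingHom (algebraMap K F) w⁻¹) t) :
    s37r_r h₁ h₂ Pinf = Q ∧ Pinf.ord w⁻¹ = 1 ∧
      ∀ P : Place K F, s37r_r h₁ h₂ P = Q → P ≠ Pinf → P.ord w⁻¹ = 0 := by
  obtain ⟨c₀, hc₀, hc1, hc0⟩ := s44g_exists_zero h₁ h₂ Q hQ1
  have h := s44g_c0_eq' h₁ h₂ Q hQ1 c₀ hc₀ hc1 hc0 ι ιb hιbC hbr hQinf Sser u v huv hS hιs hιC
    ⟨t, ht⟩ T hT G hG hsep Pinf hPord hgen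
  subst h
  exact ⟨hc₀, hc1, hc0⟩

end Fermat.Agent.Lib.S44
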