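/-
M-AT-P (S44), W4′ [GR] (helper7, prefix `s44gi_`), part (A4), first half: **(GR2) ABSTRACTLY.**

Setting of helper6's `GAbs`/`GFib` (the two-chart assembly of `Lib/S37/RTwo`, `r := s37r_r h₁ h₂`) plus a
`q`-expansion `ι : F →+* K((q))` with `ι c = C c` on constants and `ι w⁻¹ = S(q)`, `S = q · u ∈ A[[q]]`.

If the unique zero `c₀` of `s = w⁻¹` on the fibre `r⁻¹(Q)` of the simple pole `Q` of `w̄` is a place `P∞` at which
regular functions have no polar part in `ι`, then EVERY `f ∈ O` regular on the fibre has an `A`-INTEGRAL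
expansion: `ι f = coeffMap A.subtype (ofPowerSeries Y)`, `Y ∈ A[[q]]` (`s44gi_gr2`).

Proof: `f = a₀ + s f₁` (`s44g_step`, `a₀ = f(c₀) ∈ A` by the value lemma), `f₁` again regular on the fibre; so the
`n`-th coefficient of `ι f` is an `A`-combination of the coefficients `< n` of `ι f₁` — strong induction on `n`.
-/
import Fermat.Agent.Lib.S44.GFib
import Fermat.Prelude.Def_ModularCurve_X0ModL

set_option autoImplicit false
set_option linter.unusedSectionVars false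
set_option linter.style.haveILetI false

noncomputable section

namespace Fermat.Agent.Lib.S44

open AlgebraicCurve ModularCurve Fermat.Agent.Lib.FF Fermat.Agent.Lib.S18 Fermat.Agent.Lib.S37
  IsDedekindDomain

section Series

variable {K : Type*} [Field K]

/-- a Laurent series without polar part is a power series. -/
theorem s44gi_eq_ofPowerSeries (g : LaurentSeries K) (h : ∀ n : ℤ, n < 0 → g.coeff n = 0) :
    g = HahnSeries.ofPowerSeries ℤ K (PowerSeries.mk fun n : ℕ => g.coeff (n : ℤ)) := by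
  ext m
  rcases lt_or_ge m 0 with hm | hm
  · rw [h m hm, ofPowerSeries_coeff_of_neg _ hm]
  · lift m to ℕ using hm
    rw [HahnSeries.ofPowerSeries_apply_coeff, PowerSeries.coeff_mk]

end Series

variable {K F : Type*} [Field K] [Field F] [Algebra K F] [IsAlgClosed K]
  {k Fb : Type*} [Field k] [Field Fb] [Algebra k Fb]
  {D₁ : Type*} [CommRing D₁] [IsDedekindDomain D₁] [Algebra D₁ Fb] [IsFractionRing D₁ Fb]
  [Algebra k D₁] [IsScalarTower k D₁ Fb]
  {D₂ : Type*} [CommRing D₂] [IsDedekindDomain D₂] [Algebra D₂ Fb] [IsFractionRing D₂ Fb]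
  [Algebra k D₂] [IsScalarTower k D₂ Fb]
  {x : F} [FFGen K x] {A : ValuationSubring K} {π : ↥A →+* k}
  {O : ValuationSubring F} {red : ↥O →+* Fb} {w : F}
  {PsiD₁ : ↥(s18_ring O (s18_chart1 (L₀ := K) w)) →+* D₁}
  {PsiD₂ : ↥(s18_ring O (s18_chart1 (L₀ := K) w⁻¹)) →+* D₂}
  (h₁ : s37r_ChartHyp x A π O red w PsiD₁) (h₂ : s37r_ChartHyp x A π O red w⁻¹ PsiD₂)

section GR2

variable (ι : F →+* LaurentSeries K) (hιC : ∀ c : K, ι (algebraMap K F c) = HahnSeries.C c)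
  (Pinf : Place K F)
  (hPinf : ∀ f : F, f ∈ Pinf.toValuationSubring → ∀ n : ℤ, n < 0 → (ι f).coeff n = 0)
  (Q : Place k Fb) (hQ1 : Q.ord (red ⟨w, h₁.w_mem⟩) = -1)
  (hc₀ : s37r_r h₁ h₂ Pinf = Q) (hc1 : Pinf.ord w⁻¹ = 1)
  (hc0 : ∀ P : Place K F, s37r_r h₁ h₂ P = Q → P ≠ Pinf → P.ord w⁻¹ = 0)
  (Sser u : PowerSeries ↥A) (hS : Sser = PowerSeries.X * u)
  (hιs : ι w⁻¹ = coeffMap A.subtype (HahnSeries.ofPowerSeries ℤ ↥A Sser))

include hιC hPinf hQ1 hc₀ hc1 hc0 hS hιs in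
/-- all the coefficients of `ι f`, `f ∈ R_Q`, lie in `A`. -/
theorem s44gi_coeff_mem (n : ℕ) : ∀ f : F, f ∈ s44g_RQ h₁ h₂ Q → (ι f).coeff (n : ℤ) ∈ A := by
  induction n using Nat.strong_induction_on with
  | _ n ih =>
    intro f hf
    obtain ⟨a, f₁, -, hf₁O, hf₁reg, heq⟩ :=
      s44g_step h₁ h₂ Q hQ1 Pinf hc₀ hc1 hc0 f hf.1 hf.2
    have hf₁R : f₁ ∈ s44g_RQ h₁ h₂ Q := ⟨hf₁O, hf₁reg⟩
    set g₁ : PowerSeries K := PowerSeries.mk fun m : ℕ => (ι f₁).coeff (m : ℤ) with hg₁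
    have e₁ : ι f₁ = HahnSeries.ofPowerSeries ℤ K g₁ :=
      s44gi_eq_ofPowerSeries (ι f₁) (hPinf f₁ (hf₁reg Pinf hc₀))
    have es : ι w⁻¹ = HahnSeries.ofPowerSeries ℤ K
        (PowerSeries.X * PowerSeries.map A.subtype u) := by
      rw [hιs, coeffMap_ofPowerSeries, hS, map_mul, PowerSeries.map_X]
    have ef : ι f = HahnSeries.ofPowerSeries ℤ K
        (PowerSeries.C (a : K) + PowerSeries.X * (PowerSeries.map A.subtype u * g₁)) := by
      rw [heq, map_add, map_mul, hιC, e₁, es, map_add, map_mul, map_mul, map_mul,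
        HahnSeries.ofPowerSeries_C]
      ring
    rw [ef, HahnSeries.ofPowerSeries_apply_coeff]
    rcases n with _ | n
    · rw [map_add, PowerSeries.coeff_zero_C, PowerSeries.coeff_zero_X_mul, add_zero]
      exact a.2
    · rw [map_add, PowerSeries.coeff_succ_X_mul, PowerSeries.coeff_C, if_neg (Nat.succ_ne_zero n),
        zero_add, PowerSeries.coeff_mul]
      refine sum_mem fun ij hij => ?_
      have hj : ij.2 < n + 1 := by
        have h2 := Finset.HasAntidiagonal.mem_antidiagonal.mp hij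
        omega
      rw [PowerSeries.coeff_map, hg₁, PowerSeries.coeff_mk]
      exact A.mul_mem _ _ (PowerSeries.coeff ij.1 u).2 (ih ij.2 hj f₁ hf₁R)

include hιC hPinf hQ1 hc₀ hc1 hc0 hS hιs in
/-- **(GR2), abstract form**: every function of `O` regular on the fibre of `Q` has an `A`-integral power series
expansion. -/
theorem s44gi_gr2 (f : F) (hf : f ∈ s44g_RQ h₁ h₂ Q) :
    ∃ Y : PowerSeries ↥A, ι f = coeffMap A.subtype (HahnSeries.ofPowerSeries ℤ ↥A Y) := by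
  refine ⟨PowerSeries.mk fun n : ℕ => ⟨(ι f).coeff (n : ℤ),
    s44gi_coeff_mem h₁ h₂ ι hιC Pinf hPinf Q hQ1 hc₀ hc1 hc0 Sser u hS hιs n f hf⟩, ?_⟩
  ext m
  rw [coeffMap_coeff]
  rcases lt_or_ge m 0 with hm | hm
  · rw [hPinf f (hf.2 Pinf hc₀) m hm, ofPowerSeries_coeff_of_neg _ hm, map_zero]
  · lift m to ℕ using hm
    rw [HahnSeries.ofPowerSeries_apply_coeff, PowerSeries.coeff_mk]
    rfl

include hιC hPinf hQ1 hc₀ hc1 hc0 hS hιs in
/-- (GR2) in helper1's consumer shape (`hint` of helper9's `GTop`). -/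
theorem s44gi_hint_of_mem (f : F) (hf : f ∈ O)
    (hreg : ∀ P : Place K F, s37r_r h₁ h₂ P = Q → f ∈ P.toValuationSubring) :
    ∃ Y : LaurentSeries ↥A, (∀ i : ℤ, i < 0 → Y.coeff i = 0) ∧ coeffMap A.subtype Y = ι f := by
  obtain ⟨Y, hY⟩ := s44gi_gr2 h₁ h₂ ι hιC Pinf hPinf Q hQ1 hc₀ hc1 hc0 Sser u hS hιs f ⟨hf, hreg⟩
  exact ⟨HahnSeries.ofPowerSeries ℤ ↥A Y, fun i hi => ofPowerSeries_coeff_of_neg _ hi, hY.symm⟩

end GR2

section GR2Ord

variable (ι : F →+* LaurentSeries K) (hιC : ∀ c : K, ι (algebraMap K F c) = HahnSeries.C c)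
  (Pinf : Place K F)
  (hPord : ∀ f : F, f ≠ 0 → Pinf.ord f = (ι f).order)
  (Q : Place k Fb) (hQ1 : Q.ord (red ⟨w, h₁.w_mem⟩) = -1)
  (hc₀ : s37r_r h₁ h₂ Pinf = Q) (hc1 : Pinf.ord w⁻¹ = 1)
  (hc0 : ∀ P : Place K F, s37r_r h₁ h₂ P = Q → P ≠ Pinf → P.ord w⁻¹ = 0)
  (Sser u : PowerSeries ↥A) (hS : Sser = PowerSeries.X * u)
  (hιs : ι w⁻¹ = coeffMap A.subtype (HahnSeries.ofPowerSeries ℤ ↥A Sser))

include hPord in
/-- `P∞ = ` the `q`-order place: regular functions have no polar part. -/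
theorem s44gi_no_polar (f : F) (hf : f ∈ Pinf.toValuationSubring) (n : ℤ) (hn : n < 0) :
    (ι f).coeff n = 0 := by
  by_cases hf0 : f = 0
  · rw [hf0, map_zero]
    rfl
  · have h1 : 0 ≤ Pinf.ord f := (ff_mem_iff_ord_nonneg Pinf hf0).mp hf
    rw [hPord f hf0] at h1
    exact HahnSeries.coeff_eq_zero_of_lt_order (lt_of_lt_of_le hn h1)

include hιC hPord hQ1 hc₀ hc1 hc0 hS hιs in
/-- **(GR2), abstract form, with `P∞` the `q`-order place** (`Pinf.ord f = (ι f).order`): every `f ∈ O` regular on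
the fibre of `Q∞` has an `A`-integral `q`-expansion without polar part — verbatim the hypothesis `hint` of the
top-level assembly. -/
theorem s44gi_hint : ∀ f : F, f ∈ O →
    (∀ P : Place K F, s37r_r h₁ h₂ P = Q → f ∈ P.toValuationSubring) →
    ∃ Y : LaurentSeries ↥A, (∀ i : ℤ, i < 0 → Y.coeff i = 0) ∧ coeffMap A.subtype Y = ι f :=
  fun f hf hreg => s44gi_hint_of_mem h₁ h₂ ι hιC Pinf (s44gi_no_polar ι Pinf hPord) Q hQ1 hc₀ hc1 hc0
    Sser u hS hιs f hf hreg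

end GR2Ord

end Fermat.Agent.Lib.S44
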