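/-
M-AT-P programme (S44), wall W4′, brick [GR] 'good reduction of B' (architect helper6), piece **[GR-B2]**
(helper9): THE TOP-LEVEL DELIVERABLE FROM ABSTRACT INPUTS.

Setting (S37 [R]): `A ⊆ ℚ̄` a valuation subring over `ℓ ∤ M`, `κ` its residue field, `F = F_{ℚ̄}(M)`,
`Fb = F_κ(M)`, `O = s37r_OF A M hA`, `red = s37r_redF A M hA hℓM`, a coordinate `w` with the two chart
hypotheses `h₁` (for `w`), `h₂` (for `w⁻¹`), `r = s37r_r h₁ h₂`, `s = w⁻¹`; two places `P∞` of `F`, `Q∞` of `Fb`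
(in the application `s44r_vinf ℚ̄ M` and `s44h_fbarInf κ M`; here they are ARBITRARY).

* `s44g_t_exists_scale` : every `U ∈ F` has a multiple `c U ∈ O`, `0 ≠ c ∈ A`;
* `s44g_t_a` : **(a) bounded denominators**: from (GR2) `hint` (Gauss-integral + regular on `r⁻¹(Q∞)` ⇒ the
  `q`-expansion is in `A[[q]]`), (A1) `hs` (`s` regular on `r⁻¹(Q∞)`), `0 < ord_{P∞} s`, `ι w ∈ A((q))`:
  `U` regular off `P∞` ⇒ `∃ c ∈ A ∖ 0, c · ι U ∈ A((q))`;
* `s44g_t_b` : **(b) good reduction**: from (GR1) `hinf : r P∞ = Q∞`: `y ∈ A((q))` with `ι U = y`, `U` regular off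
  `P∞` ⇒ `ȳ ∈ Fb`, regular off `Q∞` (conservation of number);
* `s44g_t_a_j`, the case `w = j`.
-/
import Fermat.Agent.Lib.S37.RPack
import Fermat.Agent.Lib.S37.RLevel

set_option autoImplicit false
set_option linter.style.haveILetI false
set_option linter.unusedSectionVars false
set_option synthInstance.maxHeartbeats 400000
set_option maxHeartbeats 800000

noncomputable section

namespace Fermat.Agent.Lib.S44

open ModularCurve HahnSeries AlgebraicCurve Fermat.Agent.Lib.S18 Fermat.Agent.Lib.FF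
  Fermat.Agent.Lib.S37

local notation "Qbar" => AlgebraicClosure ℚ

variable (A : ValuationSubring Qbar) (M : ℕ) [NeZero M] {ℓ : ℕ} [Fact ℓ.Prime]
  (hA : A.LiesOverPrime ℓ) (hℓM : ¬ ℓ ∣ M)

include hA in
/-- **scaling into the Gauss ring.** -/
theorem s44g_t_exists_scale (U : ↥(modularFunctionFieldBar M)) :
    ∃ c : ↥A, c ≠ 0 ∧
      algebraMap Qbar ↥(modularFunctionFieldBar M) (c : Qbar) * U ∈ s37r_OF A M hA := by
  classical
  rcases eq_or_ne U 0 with rfl | hU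
  · exact ⟨1, one_ne_zero, by rw [mul_zero]; exact (s37r_OF A M hA).zero_mem⟩
  obtain ⟨L₀, hfd, hL₀⟩ := s18q_exists_field M {U}
  obtain ⟨f₀, hf₀⟩ := hL₀ U (Finset.mem_singleton_self U)
  haveI := hfd
  obtain ⟨_, ϖ, hϖ⟩ := s37r_exists_unif A hA L₀
  have hf₀0 : f₀ ≠ 0 := by
    rintro rfl
    exact hU (by rw [← hf₀, map_zero])
  obtain ⟨n, u, hfu⟩ := s18g_exists_zpow_unitV (s37r_G A L₀ ϖ hϖ) _
    (fun _ hf => s18g_baseChange_mem_Frac (s37r_G A L₀ ϖ hϖ) M hf) f₀ hf₀0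
  set k : ℕ := (-n).toNat with hk
  obtain ⟨m, hm⟩ : ∃ m : ℕ, (k : ℤ) + n = (m : ℤ) := ⟨((k : ℤ) + n).toNat, by omega⟩
  have hϖ0 : ((ϖ : ↥(s18q_A0 A L₀)) : ↥L₀) ≠ 0 := fun h => hϖ.ne_zero (Subtype.ext h)
  refine ⟨s18q_A0_hom A L₀ (ϖ ^ k), ?_, ?_⟩
  · intro h0
    have := s18q_A0_hom_injective A L₀ (h0.trans (map_zero _).symm)
    exact pow_ne_zero k hϖ.ne_zero this
  · have e1 : algebraMap Qbar ↥(modularFunctionFieldBar M)
        ((s18q_A0_hom A L₀ (ϖ ^ k) : ↥A) : Qbar) * U =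
        s18q_incl M L₀ (algebraMap ↥L₀ _ (((ϖ : ↥(s18q_A0 A L₀)) : ↥L₀) ^ k) * f₀) := by
      rw [map_mul, s18q_incl_algebraMap, hf₀]
      rfl
    rw [e1]
    apply (s37r_incl_mem_OF_iff A M hA L₀ ϖ hϖ _).mpr
    have hc0 : algebraMap ↥L₀ ↥(laurentBaseChange ↥L₀ (modularFunctionFieldFull M))
        ((ϖ : ↥(s18q_A0 A L₀)) : ↥L₀) ≠ 0 := (map_ne_zero _).mpr hϖ0
    have e2 : algebraMap ↥L₀ ↥(laurentBaseChange ↥L₀ (modularFunctionFieldFull M))
        (((ϖ : ↥(s18q_A0 A L₀)) : ↥L₀) ^ k) * f₀ =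
        algebraMap ↥L₀ ↥(laurentBaseChange ↥L₀ (modularFunctionFieldFull M))
          ((ϖ : ↥(s18q_A0 A L₀)) : ↥L₀) ^ m *
          ((u : s18g_V (s37r_G A L₀ ϖ hϖ) _
            (fun _ hf => s18g_baseChange_mem_Frac (s37r_G A L₀ ϖ hϖ) M hf)) : _) := by
      have hfu' : f₀ = algebraMap ↥L₀ ↥(laurentBaseChange ↥L₀ (modularFunctionFieldFull M))
          ((ϖ : ↥(s18q_A0 A L₀)) : ↥L₀) ^ n *
          ((u : s18g_V (s37r_G A L₀ ϖ hϖ) _
            (fun _ hf => s18g_baseChange_mem_Frac (s37r_G A L₀ ϖ hϖ) M hf)) : _) := hfu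
      conv_lhs => rw [hfu']
      rw [map_pow, ← zpow_natCast, ← zpow_natCast, ← mul_assoc, ← zpow_add₀ hc0, hm]
    rw [e2]
    refine (s18x_V (s37r_G A L₀ ϖ hϖ) M).mul_mem _ _ ((s18x_V (s37r_G A L₀ ϖ hϖ) M).pow_mem ?_ m)
      (u : s18g_V (s37r_G A L₀ ϖ hϖ) _
        (fun _ hf => s18g_baseChange_mem_Frac (s37r_G A L₀ ϖ hϖ) M hf)).2
    exact (s18g_algebraMap_mem_V_iff (s37r_G A L₀ ϖ hϖ) _
      (fun _ hf => s18g_baseChange_mem_Frac (s37r_G A L₀ ϖ hϖ) M hf) _).mpr ϖ.2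

/-- integral series in `F` reduce into `Fb`, coefficientwise. -/
theorem s44g_t_red_iota (y : LaurentSeries ↥A)
    (hY : coeffMap A.subtype y ∈ modularFunctionFieldBar M) :
    ∃ hk : coeffMap (IsLocalRing.residue ↥A) y ∈
        modularFunctionFieldFullC (IsLocalRing.ResidueField ↥A) M,
      s37r_redF A M hA hℓM ⟨⟨coeffMap A.subtype y, hY⟩, s37r_iota_mem_OF A M hA y hY⟩ =
        ⟨coeffMap (IsLocalRing.residue ↥A) y, hk⟩ := by
  have h1 := s37r_redV_iota A M hA y hY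
  have h2 := s37r_redV_mem_fullC A M hA hℓM
    ⟨⟨coeffMap A.subtype y, hY⟩, s37r_iota_mem_OF A M hA y hY⟩
  rw [h1] at h2
  exact ⟨h2, Subtype.ext h1⟩

/-- **(b) good reduction off `∞`**, for an abstract place reduction `r` with conservation of number. -/
theorem s44g_t_b
    (r : Place Qbar ↥(modularFunctionFieldBar M) →
      Place (IsLocalRing.ResidueField ↥A)
        ↥(modularFunctionFieldFullC (IsLocalRing.ResidueField ↥A) M))
    (hcons : ∀ (y : ↥(modularFunctionFieldBar M)) (hy : y ∈ s37r_OF A M hA),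
      s37r_redF A M hA hℓM ⟨y, hy⟩ ≠ 0 →
      ∀ Dv : Divisor Qbar ↥(modularFunctionFieldBar M), (∀ P, Dv P = P.ord y) →
        ∀ Q, Finsupp.mapDomain r Dv Q = Q.ord (s37r_redF A M hA hℓM ⟨y, hy⟩))
    (Pinf : Place Qbar ↥(modularFunctionFieldBar M))
    (Qinf : Place (IsLocalRing.ResidueField ↥A)
      ↥(modularFunctionFieldFullC (IsLocalRing.ResidueField ↥A) M))
    (hinf : r Pinf = Qinf)
    (y : LaurentSeries ↥A) (U : ↥(modularFunctionFieldBar M))
    (hyU : coeffMap A.subtype y = (U : LaurentSeries Qbar))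
    (hU : ∀ v : Place Qbar ↥(modularFunctionFieldBar M), v ≠ Pinf → U ∈ v.toValuationSubring) :
    ∃ hk : coeffMap (IsLocalRing.residue ↥A) y ∈
        modularFunctionFieldFullC (IsLocalRing.ResidueField ↥A) M,
      ∀ Q : Place (IsLocalRing.ResidueField ↥A)
        ↥(modularFunctionFieldFullC (IsLocalRing.ResidueField ↥A) M), Q ≠ Qinf →
        (⟨coeffMap (IsLocalRing.residue ↥A) y, hk⟩ :
          ↥(modularFunctionFieldFullC (IsLocalRing.ResidueField ↥A) M)) ∈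
          Q.toValuationSubring := by
  classical
  have hY : coeffMap A.subtype y ∈ modularFunctionFieldBar M := hyU ▸ U.2
  have hUeq : U = ⟨coeffMap A.subtype y, hY⟩ := Subtype.ext hyU.symm
  obtain ⟨hk, hred⟩ := s44g_t_red_iota A M hA hℓM y hY
  refine ⟨hk, fun Q hQ => ?_⟩
  by_cases h0 : (⟨coeffMap (IsLocalRing.residue ↥A) y, hk⟩ :
      ↥(modularFunctionFieldFullC (IsLocalRing.ResidueField ↥A) M)) = 0
  · rw [h0]
    exact Q.toValuationSubring.zero_mem
  have hU0 : U ≠ 0 := by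
    rintro rfl
    apply h0
    apply Subtype.ext
    have hy0 : y = 0 := by
      ext k
      have := congrArg (fun z : LaurentSeries Qbar => z.coeff k) hyU
      simp only [coeffMap_coeff, ZeroMemClass.coe_zero, HahnSeries.coeff_zero] at this
      exact this
    show coeffMap (IsLocalRing.residue ↥A) y = 0
    rw [hy0, map_zero]
  obtain ⟨Dv, hDv, -⟩ := (s18r_hasPrincipalDivisors M).exists_divisor U hU0
  have hc := hcons ⟨coeffMap A.subtype y, hY⟩ (s37r_iota_mem_OF A M hA y hY)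
    (by rw [hred]; exact h0) Dv (by rw [← hUeq]; exact hDv) Q
  rw [hred, s37r_mapDomain_apply] at hc
  rw [ff_mem_iff_ord_nonneg Q h0, ← hc]
  refine Finset.sum_nonneg fun P hP => ?_
  rw [Finset.mem_filter] at hP
  have hPne : P ≠ Pinf := by
    rintro rfl
    exact hQ (hP.2.symm.trans hinf)
  rw [hDv P]
  exact (ff_mem_iff_ord_nonneg P hU0).mp (hU P hPne)

include hA in
/-- **(a) bounded denominators**, from (GR2) and (A1). -/
theorem s44g_t_a
    (r : Place Qbar ↥(modularFunctionFieldBar M) →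
      Place (IsLocalRing.ResidueField ↥A)
        ↥(modularFunctionFieldFullC (IsLocalRing.ResidueField ↥A) M))
    (Pinf : Place Qbar ↥(modularFunctionFieldBar M))
    (Qinf : Place (IsLocalRing.ResidueField ↥A)
      ↥(modularFunctionFieldFullC (IsLocalRing.ResidueField ↥A) M))
    (w : ↥(modularFunctionFieldBar M)) (hw0 : w ≠ 0) (hsO : w⁻¹ ∈ s37r_OF A M hA)
    (W : LaurentSeries ↥A) (hW : coeffMap A.subtype W = (w : LaurentSeries Qbar))
    (hsinf : 0 < Pinf.ord w⁻¹)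
    (hs : ∀ P : Place Qbar ↥(modularFunctionFieldBar M), r P = Qinf →
      w⁻¹ ∈ P.toValuationSubring)
    (hint : ∀ f ∈ s37r_OF A M hA,
      (∀ P : Place Qbar ↥(modularFunctionFieldBar M), r P = Qinf → f ∈ P.toValuationSubring) →
      ∃ Y : LaurentSeries ↥A, (∀ i : ℤ, i < 0 → Y.coeff i = 0) ∧
        coeffMap A.subtype Y = (f : LaurentSeries Qbar))
    (U : ↥(modularFunctionFieldBar M))
    (hU : ∀ v : Place Qbar ↥(modularFunctionFieldBar M), v ≠ Pinf → U ∈ v.toValuationSubring) :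
    ∃ c : ↥A, c ≠ 0 ∧ ∃ y : LaurentSeries ↥A,
      coeffMap A.subtype y = HahnSeries.C (c : Qbar) * (U : LaurentSeries Qbar) := by
  rcases eq_or_ne U 0 with rfl | hU0
  · exact ⟨1, one_ne_zero, 0, by rw [map_zero, ZeroMemClass.coe_zero, mul_zero]⟩
  obtain ⟨c, hc0, hcU⟩ := s44g_t_exists_scale A M hA U
  have hcK0 : (c : Qbar) ≠ 0 := fun h => hc0 (Subtype.ext h)
  have hcF0 : algebraMap Qbar ↥(modularFunctionFieldBar M) (c : Qbar) ≠ 0 :=
    (map_ne_zero _).mpr hcK0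
  have hs0 : w⁻¹ ≠ 0 := inv_ne_zero hw0
  set n : ℕ := (-Pinf.ord U).toNat with hn
  set f : ↥(modularFunctionFieldBar M) :=
    algebraMap Qbar ↥(modularFunctionFieldBar M) (c : Qbar) * U * w⁻¹ ^ n with hf
  have hfO : f ∈ s37r_OF A M hA :=
    (s37r_OF A M hA).mul_mem _ _ hcU ((s37r_OF A M hA).pow_mem hsO n)
  have hreg : ∀ P : Place Qbar ↥(modularFunctionFieldBar M), r P = Qinf →
      f ∈ P.toValuationSubring := by
    intro P hP
    by_cases hPinf : P = Pinf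
    · subst hPinf
      have hf0 : f ≠ 0 := mul_ne_zero (mul_ne_zero hcF0 hU0) (pow_ne_zero _ hs0)
      rw [ff_mem_iff_ord_nonneg P hf0, hf, P.ord_mul (mul_ne_zero hcF0 hU0) (pow_ne_zero _ hs0),
        P.ord_mul hcF0 hU0, ff_ord_algebraMap, zero_add, ← zpow_natCast, P.ord_zpow]
      have h1 : (n : ℤ) ≤ (n : ℤ) * P.ord w⁻¹ := by nlinarith
      have h2 : -P.ord U ≤ (n : ℤ) := by rw [hn]; exact Int.self_le_toNat _
      omega
    · exact P.toValuationSubring.mul_mem _ _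
        (P.toValuationSubring.mul_mem _ _ (P.algebraMap_mem' _) (hU P hPinf))
        (P.toValuationSubring.pow_mem (hs P hP) n)
  obtain ⟨Y, -, hY⟩ := hint f hfO hreg
  refine ⟨c, hc0, Y * W ^ n, ?_⟩
  rw [map_mul, map_pow, hY, hW, hf]
  have e1 : ((algebraMap Qbar ↥(modularFunctionFieldBar M) (c : Qbar) * U * w⁻¹ ^ n :
      ↥(modularFunctionFieldBar M)) : LaurentSeries Qbar) * (w : LaurentSeries Qbar) ^ n =
      ((algebraMap Qbar ↥(modularFunctionFieldBar M) (c : Qbar) * U * (w⁻¹ ^ n * w ^ n) :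
        ↥(modularFunctionFieldBar M)) : LaurentSeries Qbar) := by
    push_cast
    ring
  rw [e1, ← mul_pow, inv_mul_cancel₀ hw0, one_pow, mul_one]
  push_cast
  congr 1
  show algebraMap Qbar (LaurentSeries Qbar) (c : Qbar) = HahnSeries.C (c : Qbar)
  rw [algebraMap_laurentSeries_eq_single]
  rfl

include hA in
/-- (a) in scalar-multiplication form (helper1's spelling). -/
theorem s44g_t_a_smul
    (r : Place Qbar ↥(modularFunctionFieldBar M) →
      Place (IsLocalRing.ResidueField ↥A)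
        ↥(modularFunctionFieldFullC (IsLocalRing.ResidueField ↥A) M))
    (Pinf : Place Qbar ↥(modularFunctionFieldBar M))
    (Qinf : Place (IsLocalRing.ResidueField ↥A)
      ↥(modularFunctionFieldFullC (IsLocalRing.ResidueField ↥A) M))
    (w : ↥(modularFunctionFieldBar M)) (hw0 : w ≠ 0) (hsO : w⁻¹ ∈ s37r_OF A M hA)
    (W : LaurentSeries ↥A) (hW : coeffMap A.subtype W = (w : LaurentSeries Qbar))
    (hsinf : 0 < Pinf.ord w⁻¹)
    (hs : ∀ P : Place Qbar ↥(modularFunctionFieldBar M), r P = Qinf →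
      w⁻¹ ∈ P.toValuationSubring)
    (hint : ∀ f ∈ s37r_OF A M hA,
      (∀ P : Place Qbar ↥(modularFunctionFieldBar M), r P = Qinf → f ∈ P.toValuationSubring) →
      ∃ Y : LaurentSeries ↥A, (∀ i : ℤ, i < 0 → Y.coeff i = 0) ∧
        coeffMap A.subtype Y = (f : LaurentSeries Qbar))
    (U : ↥(modularFunctionFieldBar M))
    (hU : ∀ v : Place Qbar ↥(modularFunctionFieldBar M), v ≠ Pinf → U ∈ v.toValuationSubring) :
    ∃ c : ↥A, c ≠ 0 ∧ ∃ y : LaurentSeries ↥A,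
      coeffMap A.subtype y = (c : Qbar) • (U : LaurentSeries Qbar) := by
  obtain ⟨c, hc0, y, hy⟩ := s44g_t_a A M hA r Pinf Qinf w hw0 hsO W hW hsinf hs hint U hU
  exact ⟨c, hc0, y, by rw [hy, HahnSeries.C_mul_eq_smul]⟩

include hA in
/-- (a) for the coordinate `w = j` (`W = j(q) ∈ ℤ((q)) ⊆ A((q))`). -/
theorem s44g_t_a_j
    (r : Place Qbar ↥(modularFunctionFieldBar M) →
      Place (IsLocalRing.ResidueField ↥A)
        ↥(modularFunctionFieldFullC (IsLocalRing.ResidueField ↥A) M))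
    (Pinf : Place Qbar ↥(modularFunctionFieldBar M))
    (Qinf : Place (IsLocalRing.ResidueField ↥A)
      ↥(modularFunctionFieldFullC (IsLocalRing.ResidueField ↥A) M))
    (hsO : (s18g_jF (K := Qbar) M)⁻¹ ∈ s37r_OF A M hA)
    (hsinf : 0 < Pinf.ord (s18g_jF (K := Qbar) M)⁻¹)
    (hs : ∀ P : Place Qbar ↥(modularFunctionFieldBar M), r P = Qinf →
      (s18g_jF (K := Qbar) M)⁻¹ ∈ P.toValuationSubring)
    (hint : ∀ f ∈ s37r_OF A M hA,
      (∀ P : Place Qbar ↥(modularFunctionFieldBar M), r P = Qinf → f ∈ P.toValuationSubring) →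
      ∃ Y : LaurentSeries ↥A, (∀ i : ℤ, i < 0 → Y.coeff i = 0) ∧
        coeffMap A.subtype Y = (f : LaurentSeries Qbar))
    (U : ↥(modularFunctionFieldBar M))
    (hU : ∀ v : Place Qbar ↥(modularFunctionFieldBar M), v ≠ Pinf → U ∈ v.toValuationSubring) :
    ∃ c : ↥A, c ≠ 0 ∧ ∃ y : LaurentSeries ↥A,
      coeffMap A.subtype y = (c : Qbar) • (U : LaurentSeries Qbar) :=
  s44g_t_a_smul A M hA r Pinf Qinf (s18g_jF (K := Qbar) M) (s18g_jF_ne_zero M) hsO
    (jqModC ↥A) (by rw [s18g_coe_jF, coeffMap_jqModC]) hsinf hs hint U hU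

end Fermat.Agent.Lib.S44
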