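/-
M-AT-P programme (S44), wall W4′, brick [GR], piece **[GR-B2]** (helper9), second file: the top-level
deliverables (a), (b) of `GTop.lean` WIRED to the two-chart assembly `r = s37r_r h₁ h₂` (Lib/S37/RTwo) and to
helper7's (GR2) `s44gi_hint` (`GInt.lean`), i.e. from the outputs `hc₀`, `hc1`, `hc0` of helper6's (A1)/(A3).

Inputs: `h₁ h₂ : s37r_ChartHyp …` for `w`, `w⁻¹` at top level; a place `P∞` of `F = F_{ℚ̄}(M)` whose order is the
`q`-order (`hPord`); a place `Q∞` of `Fb = F_κ(M)` which is a simple pole of `w̄` (`hQ1`);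
`hc₀ : r P∞ = Q∞`, `hc1 : ord_{P∞} w⁻¹ = 1`, `hc0 : ord_P w⁻¹ = 0` elsewhere on the fibre; the expansions
`ι w⁻¹ = S(q) = q u ∈ A[[q]]`, `ι w = W ∈ A((q))`.

* `s44g_tw_hint` : (GR2) at top level;
* `s44g_tw_a`    : **(a)** `U` regular off `P∞` ⇒ `∃ c ∈ A ∖ 0, c • ι U ∈ A((q))`;
* `s44g_tw_b`    : **(b)** `ι U = y ∈ A((q))`, `U` regular off `P∞` ⇒ `ȳ ∈ Fb`, regular off `Q∞`;
* `s44g_tw_ab`   : both;
* `s44g_tw_W_j`  : the datum `W = j(q)` for `w = j`.
-/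
import Fermat.Agent.Lib.S44.GTop
import Fermat.Agent.Lib.S44.GInt

set_option autoImplicit false
set_option linter.style.haveILetI false
set_option linter.unusedSectionVars false
set_option synthInstance.maxHeartbeats 400000
set_option maxHeartbeats 800000

noncomputable section

namespace Fermat.Agent.Lib.S44

open ModularCurve HahnSeries AlgebraicCurve Fermat.Agent.Lib.S18 Fermat.Agent.Lib.FF
  Fermat.Agent.Lib.S37

local notation "Qbar" => AlgebraicClosure ℚ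

variable (A : ValuationSubring Qbar) (M : ℕ) [NeZero M] {ℓ : ℕ} [Fact ℓ.Prime]
  (hA : A.LiesOverPrime ℓ) (hℓM : ¬ ℓ ∣ M) [FFGen Qbar (ffd_jBar M)]
  {D₁ : Type*} [CommRing D₁] [IsDedekindDomain D₁]
  [Algebra D₁ ↥(modularFunctionFieldFullC (IsLocalRing.ResidueField ↥A) M)]
  [IsFractionRing D₁ ↥(modularFunctionFieldFullC (IsLocalRing.ResidueField ↥A) M)]
  [Algebra (IsLocalRing.ResidueField ↥A) D₁]
  [IsScalarTower (IsLocalRing.ResidueField ↥A) D₁
    ↥(modularFunctionFieldFullC (IsLocalRing.ResidueField ↥A) M)]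
  {D₂ : Type*} [CommRing D₂] [IsDedekindDomain D₂]
  [Algebra D₂ ↥(modularFunctionFieldFullC (IsLocalRing.ResidueField ↥A) M)]
  [IsFractionRing D₂ ↥(modularFunctionFieldFullC (IsLocalRing.ResidueField ↥A) M)]
  [Algebra (IsLocalRing.ResidueField ↥A) D₂]
  [IsScalarTower (IsLocalRing.ResidueField ↥A) D₂
    ↥(modularFunctionFieldFullC (IsLocalRing.ResidueField ↥A) M)]
  {w : ↥(modularFunctionFieldBar M)}
  {PsiD₁ : ↥(s18_ring (s37r_OF A M hA) (s18_chart1 (L₀ := Qbar) w)) →+* D₁}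
  {PsiD₂ : ↥(s18_ring (s37r_OF A M hA) (s18_chart1 (L₀ := Qbar) w⁻¹)) →+* D₂}
  (h₁ : s37r_ChartHyp (ffd_jBar M) A (IsLocalRing.residue ↥A) (s37r_OF A M hA)
    (s37r_redF A M hA hℓM) w PsiD₁)
  (h₂ : s37r_ChartHyp (ffd_jBar M) A (IsLocalRing.residue ↥A) (s37r_OF A M hA)
    (s37r_redF A M hA hℓM) w⁻¹ PsiD₂)
  (Pinf : Place Qbar ↥(modularFunctionFieldBar M))
  (hPord : ∀ f : ↥(modularFunctionFieldBar M), f ≠ 0 →
    Pinf.ord f = (f : LaurentSeries Qbar).order)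
  (Qinf : Place (IsLocalRing.ResidueField ↥A)
    ↥(modularFunctionFieldFullC (IsLocalRing.ResidueField ↥A) M))
  (hQ1 : Qinf.ord (s37r_redF A M hA hℓM ⟨w, h₁.w_mem⟩) = -1)
  (hc₀ : s37r_r h₁ h₂ Pinf = Qinf) (hc1 : Pinf.ord w⁻¹ = 1)
  (hc0 : ∀ P : Place Qbar ↥(modularFunctionFieldBar M), s37r_r h₁ h₂ P = Qinf → P ≠ Pinf →
    P.ord w⁻¹ = 0)
  (Sser u : PowerSeries ↥A) (hS : Sser = PowerSeries.X * u)
  (hιs : ((w⁻¹ : ↥(modularFunctionFieldBar M)) : LaurentSeries Qbar) =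
    coeffMap A.subtype (HahnSeries.ofPowerSeries ℤ ↥A Sser))

include hPord hQ1 hc₀ hc1 hc0 hS hιs in
/-- **(GR2) at top level** (helper7's `s44gi_hint` at `ι = val`). -/
theorem s44g_tw_hint : ∀ f ∈ s37r_OF A M hA,
    (∀ P : Place Qbar ↥(modularFunctionFieldBar M), s37r_r h₁ h₂ P = Qinf →
      f ∈ P.toValuationSubring) →
    ∃ Y : LaurentSeries ↥A, (∀ i : ℤ, i < 0 → Y.coeff i = 0) ∧
      coeffMap A.subtype Y = (f : LaurentSeries Qbar) :=
  s44gi_hint h₁ h₂ ((modularFunctionFieldBar M).val : ↥(modularFunctionFieldBar M) →+* _)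
    (fun c => by
      show algebraMap Qbar (LaurentSeries Qbar) c = HahnSeries.C c
      rw [algebraMap_laurentSeries_eq_single]
      rfl)
    Pinf hPord Qinf hQ1 hc₀ hc1 hc0 Sser u hS hιs

include hc1 hc0 in
/-- `s = w⁻¹` is regular on the fibre of `Q∞` ((A1)). -/
theorem s44g_tw_hs (P : Place Qbar ↥(modularFunctionFieldBar M))
    (hP : s37r_r h₁ h₂ P = Qinf) : w⁻¹ ∈ P.toValuationSubring := by
  have hs0 : w⁻¹ ≠ 0 := inv_ne_zero (s37r_w_ne_zero h₁)
  rw [ff_mem_iff_ord_nonneg P hs0]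
  by_cases hPinf : P = Pinf
  · subst hPinf
    rw [hc1]
    exact zero_le_one
  · rw [hc0 P hP hPinf]

include hPord hQ1 hc₀ hc1 hc0 hS hιs in
/-- **(a) bounded denominators at top level.** -/
theorem s44g_tw_a (W : LaurentSeries ↥A)
    (hW : coeffMap A.subtype W = (w : LaurentSeries Qbar))
    (U : ↥(modularFunctionFieldBar M))
    (hU : ∀ v : Place Qbar ↥(modularFunctionFieldBar M), v ≠ Pinf → U ∈ v.toValuationSubring) :
    ∃ c : ↥A, c ≠ 0 ∧ ∃ y : LaurentSeries ↥A,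
      coeffMap A.subtype y = (c : Qbar) • (U : LaurentSeries Qbar) :=
  s44g_t_a_smul A M hA (s37r_r h₁ h₂) Pinf Qinf w (s37r_w_ne_zero h₁) h₂.w_mem W hW
    (by rw [hc1]; exact zero_lt_one)
    (s44g_tw_hs A M hA hℓM h₁ h₂ Pinf Qinf hc1 hc0)
    (s44g_tw_hint A M hA hℓM h₁ h₂ Pinf hPord Qinf hQ1 hc₀ hc1 hc0 Sser u hS hιs) U hU

include hc₀ in
/-- **(b) good reduction off `∞` at top level** (needs only `hc₀ : r P∞ = Q∞`). -/
theorem s44g_tw_b (y : LaurentSeries ↥A) (U : ↥(modularFunctionFieldBar M))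
    (hyU : coeffMap A.subtype y = (U : LaurentSeries Qbar))
    (hU : ∀ v : Place Qbar ↥(modularFunctionFieldBar M), v ≠ Pinf → U ∈ v.toValuationSubring) :
    ∃ hk : coeffMap (IsLocalRing.residue ↥A) y ∈
        modularFunctionFieldFullC (IsLocalRing.ResidueField ↥A) M,
      ∀ Q : Place (IsLocalRing.ResidueField ↥A)
        ↥(modularFunctionFieldFullC (IsLocalRing.ResidueField ↥A) M), Q ≠ Qinf →
        (⟨coeffMap (IsLocalRing.residue ↥A) y, hk⟩ :
          ↥(modularFunctionFieldFullC (IsLocalRing.ResidueField ↥A) M)) ∈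
          Q.toValuationSubring :=
  s44g_t_b A M hA hℓM (s37r_r h₁ h₂)
    (fun y hy hy0 Dv hDv Q => s37r_conservation h₁ h₂ y hy hy0 Dv hDv Q) Pinf Qinf hc₀ y U hyU hU

include hPord hQ1 hc₀ hc1 hc0 hS hιs in
/-- **[GR-B2]: (a) and (b) together.** -/
theorem s44g_tw_ab (W : LaurentSeries ↥A)
    (hW : coeffMap A.subtype W = (w : LaurentSeries Qbar)) :
    (∀ U : ↥(modularFunctionFieldBar M),
      (∀ v : Place Qbar ↥(modularFunctionFieldBar M), v ≠ Pinf → U ∈ v.toValuationSubring) →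
      ∃ c : ↥A, c ≠ 0 ∧ ∃ y : LaurentSeries ↥A,
        coeffMap A.subtype y = (c : Qbar) • (U : LaurentSeries Qbar)) ∧
    (∀ (y : LaurentSeries ↥A) (U : ↥(modularFunctionFieldBar M)),
      coeffMap A.subtype y = (U : LaurentSeries Qbar) →
      (∀ v : Place Qbar ↥(modularFunctionFieldBar M), v ≠ Pinf → U ∈ v.toValuationSubring) →
      ∃ hk : coeffMap (IsLocalRing.residue ↥A) y ∈
          modularFunctionFieldFullC (IsLocalRing.ResidueField ↥A) M,
        ∀ Q : Place (IsLocalRing.ResidueField ↥A)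
          ↥(modularFunctionFieldFullC (IsLocalRing.ResidueField ↥A) M), Q ≠ Qinf →
          (⟨coeffMap (IsLocalRing.residue ↥A) y, hk⟩ :
            ↥(modularFunctionFieldFullC (IsLocalRing.ResidueField ↥A) M)) ∈
            Q.toValuationSubring) :=
  ⟨fun U hU => s44g_tw_a A M hA hℓM h₁ h₂ Pinf hPord Qinf hQ1 hc₀ hc1 hc0 Sser u hS hιs W hW U hU,
    fun y U hyU hU => s44g_tw_b A M hA hℓM h₁ h₂ Pinf Qinf hc₀ y U hyU hU⟩

omit [Fact ℓ.Prime] [FFGen Qbar (ffd_jBar M)] in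
/-- the datum `W` for the coordinate `w = j`: `W = j(q) ∈ ℤ((q)) ⊆ A((q))`. -/
theorem s44g_tw_W_j :
    coeffMap A.subtype (jqModC ↥A) =
      ((s18g_jF (K := Qbar) M : ↥(modularFunctionFieldBar M)) : LaurentSeries Qbar) := by
  rw [s18g_coe_jF, coeffMap_jqModC]

end Fermat.Agent.Lib.S44
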