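/-
M-AT-P (S44), W4′ [GR] (helper6), FINAL WIRING, part 1: the abstract cusp theorem (A3) `s44g_c0_eq`
instantiated at the top level `F = F_{ℚ̄}(M)`, `Fb = F_κ(M)`, `P∞ = s44r_vinf ℚ̄ M`,
`Q∞ = s44h_fbarInf κ M`, and the resulting top-level statements (a), (b) (helper9's `s44g_tw_ab`) in
helper4's shapes `s44gd_HypA`, `s44gd_HypB`.
-/
import Fermat.Agent.Lib.S44.GCusp
import Fermat.Agent.Lib.S44.GTopW
import Fermat.Agent.Lib.S44.GDesc2

set_option autoImplicit false
set_option linter.style.haveILetI false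
set_option linter.unusedSectionVars false
set_option synthInstance.maxHeartbeats 400000
set_option maxHeartbeats 800000

noncomputable section

namespace Fermat.Agent.Lib.S44

open ModularCurve HahnSeries AlgebraicCurve Fermat.Agent.Lib.S18 Fermat.Agent.Lib.FF
  Fermat.Agent.Lib.S37 Fermat.Agent.Lib.S29

local notation "Qbar" => AlgebraicClosure ℚ

variable (A : ValuationSubring Qbar) (M : ℕ) [NeZero M] {ℓ : ℕ} [Fact ℓ.Prime]
  (hA : A.LiesOverPrime ℓ) (hℓM : ¬ ℓ ∣ M) [FFGen Qbar (ffd_jBar M)]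
  [IsAlgClosed (IsLocalRing.ResidueField ↥A)]
  {D₁ : Type*} [CommRing D₁] [IsDedekindDomain D₁]
  [Algebra D₁ ↥(modularFunctionFieldFullC (IsLocalRing.ResidueField ↥A) M)]
  [IsFractionRing D₁ ↥(modularFunctionFieldFullC (IsLocalRing.ResidueField ↥A) M)]
  [Algebra (IsLocalRing.ResidueField ↥A) D₁]
  [IsScalarTower (IsLocalRing.ResidueField ↥A) D₁
    ↥(modularFunctionFieldFullC (IsLocalRing.ResidueField ↥A) M)]
  {D₂ : Type*} [CommRing D₂] [IsDedekindDomain D₂]
  [Algebra D₂ ↥(modularFunctionFieldFullC (IsLocalRing.ResidueField ↥A) M)]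
  [IsFractionRing D₂ ↥(modularFunctionFieldFullC (IsLocalRing.ResidueField ↥A) M)]
  [Algebra (IsLocalRing.ResidueField ↥A) D₂]
  [IsScalarTower (IsLocalRing.ResidueField ↥A) D₂
    ↥(modularFunctionFieldFullC (IsLocalRing.ResidueField ↥A) M)]
  {w : ↥(modularFunctionFieldBar M)}
  {PsiD₁ : ↥(s18_ring (s37r_OF A M hA) (s18_chart1 (L₀ := Qbar) w)) →+* D₁}
  {PsiD₂ : ↥(s18_ring (s37r_OF A M hA) (s18_chart1 (L₀ := Qbar) w⁻¹)) →+* D₂}
  (h₁ : s37r_ChartHyp (ffd_jBar M) A (IsLocalRing.residue ↥A) (s37r_OF A M hA)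
    (s37r_redF A M hA hℓM) w PsiD₁)
  (h₂ : s37r_ChartHyp (ffd_jBar M) A (IsLocalRing.residue ↥A) (s37r_OF A M hA)
    (s37r_redF A M hA hℓM) w⁻¹ PsiD₂)
  (hQ1 : (s44h_fbarInf (IsLocalRing.ResidueField ↥A) M).ord
    (s37r_redF A M hA hℓM ⟨w, h₁.w_mem⟩) = -1)
  (Sser u v : PowerSeries ↥A) (huv : u * v = 1) (hS : Sser = PowerSeries.X * u)
  (hιs : ((w⁻¹ : ↥(modularFunctionFieldBar M)) : LaurentSeries Qbar) =
    coeffMap A.subtype (HahnSeries.ofPowerSeries ℤ ↥A Sser))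

include hQ1 huv hS hιs in
/-- **the cusp theorem at top level**: `r(∞) = ∞̃`, and `s = w⁻¹` has a simple zero at `∞` and is a unit
at the other places of the fibre. -/
theorem s44g_f_cusp
    (t : ↥(modularFunctionFieldBar M)) (ht : t ∈ s44g_RQ h₁ h₂ (s44h_fbarInf _ M))
    (T : PowerSeries ↥A)
    (hT : (t : LaurentSeries Qbar) = coeffMap A.subtype (HahnSeries.ofPowerSeries ℤ ↥A T))
    (G : Polynomial (Polynomial ↥A))
    (hG : G.eval₂ (Polynomial.eval₂RingHom
      ((algebraMap Qbar ↥(modularFunctionFieldBar M)).comp A.subtype) w⁻¹) t = 0)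
    (hsep : (Polynomial.derivative G).eval₂
      (Polynomial.eval₂RingHom ((PowerSeries.C : IsLocalRing.ResidueField ↥A →+*
        PowerSeries (IsLocalRing.ResidueField ↥A)).comp (IsLocalRing.residue ↥A))
        (PowerSeries.map (IsLocalRing.residue ↥A) Sser))
      (PowerSeries.map (IsLocalRing.residue ↥A) T) ≠ 0)
    (hgen : ∀ f : ↥(modularFunctionFieldBar M), ∃ (d : Polynomial Qbar)
      (a : Polynomial (Polynomial Qbar)), Polynomial.aeval w⁻¹ d ≠ 0 ∧
        Polynomial.aeval w⁻¹ d * f =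
          a.eval₂ (Polynomial.eval₂RingHom (algebraMap Qbar ↥(modularFunctionFieldBar M)) w⁻¹) t) :
    s37r_r h₁ h₂ (s44r_vinf Qbar M) = s44h_fbarInf _ M ∧ (s44r_vinf Qbar M).ord w⁻¹ = 1 ∧
      ∀ P : Place Qbar ↥(modularFunctionFieldBar M), s37r_r h₁ h₂ P = s44h_fbarInf _ M →
        P ≠ s44r_vinf Qbar M → P.ord w⁻¹ = 0 := by
  refine s44g_c0_eq h₁ h₂ (s44h_fbarInf _ M) hQ1
    ((modularFunctionFieldBar M).val : ↥(modularFunctionFieldBar M) →+* _)
    ((modularFunctionFieldFullC (IsLocalRing.ResidueField ↥A) M).val :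
      ↥(modularFunctionFieldFullC (IsLocalRing.ResidueField ↥A) M) →+* _)
    (fun c => ?_) (fun c => ?_) ?_ ?_ (s44r_vinf Qbar M) (fun f hf => s44r_vinf_ord Qbar M hf)
    Sser u v huv hS hιs t ht T hT G hG hsep hgen
  · show algebraMap Qbar (LaurentSeries Qbar) c = HahnSeries.C c
    rw [algebraMap_laurentSeries_eq_single]
    rfl
  · show algebraMap (IsLocalRing.ResidueField ↥A) (LaurentSeries (IsLocalRing.ResidueField ↥A)) c =
      HahnSeries.C c
    rw [algebraMap_laurentSeries_eq_single]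
    rfl
  · intro f hf Y hfY
    have hY : coeffMap A.subtype Y ∈ modularFunctionFieldBar M := by
      rw [← hfY]
      exact f.2
    obtain ⟨hk, hred⟩ := s44g_t_red_iota A M hA hℓM Y hY
    have hfe : (⟨f, hf⟩ : ↥(s37r_OF A M hA)) =
        ⟨⟨coeffMap A.subtype Y, hY⟩, s37r_iota_mem_OF A M hA Y hY⟩ := by
      apply Subtype.ext
      apply Subtype.ext
      exact hfY
    rw [hfe, hred]
    rfl
  · intro g hg n hn
    exact (s44h_mem_fbarInf _ M g).mp hg n hn

include hQ1 huv hS hιs in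
/-- **(a) and (b) at top level, in helper4's shapes**, from the test data of (A3). -/
theorem s44g_f_ab (W : LaurentSeries ↥A)
    (hW : coeffMap A.subtype W = (w : LaurentSeries Qbar))
    (t : ↥(modularFunctionFieldBar M)) (ht : t ∈ s44g_RQ h₁ h₂ (s44h_fbarInf _ M))
    (T : PowerSeries ↥A)
    (hT : (t : LaurentSeries Qbar) = coeffMap A.subtype (HahnSeries.ofPowerSeries ℤ ↥A T))
    (G : Polynomial (Polynomial ↥A))
    (hG : G.eval₂ (Polynomial.eval₂RingHom
      ((algebraMap Qbar ↥(modularFunctionFieldBar M)).comp A.subtype) w⁻¹) t = 0)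
    (hsep : (Polynomial.derivative G).eval₂
      (Polynomial.eval₂RingHom ((PowerSeries.C : IsLocalRing.ResidueField ↥A →+*
        PowerSeries (IsLocalRing.ResidueField ↥A)).comp (IsLocalRing.residue ↥A))
        (PowerSeries.map (IsLocalRing.residue ↥A) Sser))
      (PowerSeries.map (IsLocalRing.residue ↥A) T) ≠ 0)
    (hgen : ∀ f : ↥(modularFunctionFieldBar M), ∃ (d : Polynomial Qbar)
      (a : Polynomial (Polynomial Qbar)), Polynomial.aeval w⁻¹ d ≠ 0 ∧
        Polynomial.aeval w⁻¹ d * f =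
          a.eval₂ (Polynomial.eval₂RingHom (algebraMap Qbar ↥(modularFunctionFieldBar M)) w⁻¹) t) :
    s44gd_HypA M A ∧ s44gd_HypB M A := by
  obtain ⟨hc₀, hc1, hc0⟩ := s44g_f_cusp A M hA hℓM h₁ h₂ hQ1 Sser u v huv hS hιs t ht T hT G hG
    hsep hgen
  obtain ⟨ha, hb⟩ := s44g_tw_ab A M hA hℓM h₁ h₂ (s44r_vinf Qbar M)
    (fun f hf => s44r_vinf_ord Qbar M hf) (s44h_fbarInf _ M) hQ1 hc₀ hc1 hc0 Sser u hS hιs W hW
  refine ⟨?_, ?_⟩
  · intro U hU
    exact ha U hU
  · intro y U hyU hU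
    exact hb y U hyU hU

end Fermat.Agent.Lib.S44
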