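/-
M-AT-P programme (S44), W4′ [GR-B1] (helper5, prefix `s44g_i`), concrete part.

Top level: `A ⊂ Qbar` a valuation ring over `p ≥ 5`, `p ∤ M`, `κ = A/𝔪`, `F = F_Qbar(M)`,
`Fb = F_κ(M)`, `O = s37r_OF`, `red = s37r_redF`, `j = s18g_jF M`, `s = j⁻¹`.

* `s44g_i_charts` : the two chart packages `h₁ h₂ : s37r_ChartHyp` for `w = j`, `w = j⁻¹`;
* `s44g_i_U/E/S R` : the integral series `S = X·U = 1/j(q)`, `U·E = 1`, over any ring `R`;
  `s44g_i_psEps R : R⟦X⟧ →ₐ[R] R⟦X⟧` the re-expansion in the parameter `S`, natural in `R`;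
* `∞ = s44r_vinf Qbar M`: `¬ s37r_Int`, value = constant coefficient, `s_∞`, `ε_∞`;
* `∞̃ = s44h_fbarInf κ M`: `ord (red j) = -1`, value = constant coefficient, `s̄`, `ε_∞̃`;
* **`s44g_i_integral`** : for `f ∈ F` with `A`-integral power series `q`-expansion `Ỹ`: `f ∈ O_∞`,
  `f ∈ O`, `red f ∈ O_∞̃`, `ε_∞ f = map A.subtype (ε_S Ỹ)`, `ε_∞̃ (red f) = map π (ε_S Ỹ)`.
-/
import Fermat.Agent.Lib.S37.RExists
import Fermat.Agent.Lib.S44.GInf
import Fermat.Agent.Lib.S44.RAnDefs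
import Fermat.Agent.Lib.S44.HResP
import Fermat.Agent.Lib.S18.NResidue

set_option autoImplicit false
set_option linter.style.haveILetI false
set_option linter.unusedSectionVars false
set_option synthInstance.maxHeartbeats 400000
set_option maxHeartbeats 1600000

noncomputable section

namespace Fermat.Agent.Lib.S44

open ModularCurve HahnSeries AlgebraicCurve Fermat.Agent.Lib.S18 Fermat.Agent.Lib.FF Polynomial
  Fermat.Agent.Lib.S37

local notation "Qbar" => AlgebraicClosure ℚ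

/-! ### The parameter `S = 1/j(q)` over an arbitrary ring -/

section Series

variable (R : Type*) [CommRing R]

/-- the inverse of `jNum` in `ℤ⟦X⟧`. -/
def s44g_i_uZ : PowerSeries ℤ := PowerSeries.invOfUnit jNum 1

theorem s44g_i_jNum_mul_uZ : jNum * s44g_i_uZ = 1 :=
  PowerSeries.mul_invOfUnit jNum 1 (by rw [constantCoeff_jNum]; rfl)

/-- `E = q·j(q)`. -/
def s44g_i_E : PowerSeries R := jNum.map (Int.castRingHom R)

/-- `U = 1/E`. -/
def s44g_i_U : PowerSeries R := s44g_i_uZ.map (Int.castRingHom R)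

/-- `S = X·U = 1/j(q)`. -/
def s44g_i_S : PowerSeries R := PowerSeries.X * s44g_i_U R

theorem s44g_i_U_mul_E : s44g_i_U R * s44g_i_E R = 1 := by
  rw [s44g_i_U, s44g_i_E, ← map_mul, mul_comm, s44g_i_jNum_mul_uZ, map_one]

theorem s44g_i_jq_eq : jqModC R = single (-1 : ℤ) 1 * ofPowerSeries ℤ R (s44g_i_E R) := rfl

theorem s44g_i_jq_mul_S : jqModC R * ofPowerSeries ℤ R (s44g_i_S R) = 1 := by
  rw [s44g_i_jq_eq, s44g_i_S, map_mul, ofPowerSeries_X]
  calc single (-1 : ℤ) (1 : R) * ofPowerSeries ℤ R (s44g_i_E R) *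
        (single 1 1 * ofPowerSeries ℤ R (s44g_i_U R))
      = (single (-1 : ℤ) (1 : R) * single 1 1) *
        (ofPowerSeries ℤ R (s44g_i_U R) * ofPowerSeries ℤ R (s44g_i_E R)) := by ring
    _ = 1 := by
        have h1 : ofPowerSeries ℤ R (s44g_i_U R) * ofPowerSeries ℤ R (s44g_i_E R) = 1 := by
          rw [← map_mul, s44g_i_U_mul_E, map_one]
        have h2 : (single (-1 : ℤ) (1 : R) * single 1 1 : LaurentSeries R) = 1 := by
          rw [single_mul_single, mul_one]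
          norm_num
        rw [h1, h2, mul_one]

variable {R}

theorem s44g_i_map_E {R' : Type*} [CommRing R'] (f : R →+* R') :
    (s44g_i_E R).map f = s44g_i_E R' := by
  rw [s44g_i_E, s44g_i_E, ← RingHom.comp_apply (PowerSeries.map f), ← PowerSeries.map_comp,
    RingHom.ext_int (f.comp (Int.castRingHom R)) (Int.castRingHom R')]

theorem s44g_i_map_U {R' : Type*} [CommRing R'] (f : R →+* R') :
    (s44g_i_U R).map f = s44g_i_U R' := by
  rw [s44g_i_U, s44g_i_U, ← RingHom.comp_apply (PowerSeries.map f), ← PowerSeries.map_comp,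
    RingHom.ext_int (f.comp (Int.castRingHom R)) (Int.castRingHom R')]

theorem s44g_i_map_S {R' : Type*} [CommRing R'] (f : R →+* R') :
    (s44g_i_S R).map f = s44g_i_S R' := by
  rw [s44g_i_S, s44g_i_S, map_mul, PowerSeries.map_X, s44g_i_map_U]

theorem s44g_i_psEps_congr {K : Type*} [CommRing K] {S S' u u' v v' : PowerSeries K}
    (hS : S = S') (hu : u = u') (hv : v = v') (huv : u * v = 1) (hSu : S = PowerSeries.X * u)
    (huv' : u' * v' = 1) (hSu' : S' = PowerSeries.X * u') :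
    s44g_e_psEps S u v huv hSu = s44g_e_psEps S' u' v' huv' hSu' := by
  subst hS hu hv
  rfl

variable (R)

/-- **the re-expansion in the parameter `S = 1/j(q)`**, an `R`-algebra endomorphism of `R⟦X⟧` with
`ε S = X`. -/
def s44g_i_psEps : PowerSeries R →ₐ[R] PowerSeries R :=
  s44g_e_psEps (s44g_i_S R) (s44g_i_U R) (s44g_i_E R) (s44g_i_U_mul_E R) rfl

theorem s44g_i_psEps_S : s44g_i_psEps R (s44g_i_S R) = PowerSeries.X :=
  s44g_e_psEps_S _ _ _ _ _

variable {R}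

/-- naturality in the coefficient ring. -/
theorem s44g_i_psEps_map {R' : Type*} [CommRing R'] (f : R →+* R') (P : PowerSeries R) :
    (s44g_i_psEps R P).map f = s44g_i_psEps R' (P.map f) := by
  have h := s44g_e_psEps_map (s44g_i_S R) (s44g_i_U R) (s44g_i_E R) (s44g_i_U_mul_E R) rfl f P
  rw [s44g_i_psEps, h]
  unfold s44g_i_psEps
  rw [s44g_i_psEps_congr (s44g_i_map_S (R := R) f) (s44g_i_map_U (R := R) f)
    (s44g_i_map_E (R := R) f) _ _ (s44g_i_U_mul_E R') rfl]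

end Series


/-! ### The top-level chart packages -/

section Charts

variable (A : ValuationSubring Qbar) (M : ℕ) [NeZero M] {p : ℕ} [Fact p.Prime]
  (hA : A.LiesOverPrime p) (hpM : ¬ p ∣ M)

local notation "κ" => IsLocalRing.ResidueField A

/-- **the two chart packages at the top level** for `w = j` and `w = j⁻¹` (`p ≥ 5`, `p ∤ M`),
keeping the chart hypotheses. -/
theorem s44g_i_charts (h5 : 5 ≤ p) :
    haveI : FFGen Qbar (ffd_jBar M) := s18r_ffGen M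
    ∃ (D₁ : Type) (_ : CommRing D₁) (_ : IsDedekindDomain D₁)
      (_ : Algebra D₁ ↥(modularFunctionFieldFullC κ M))
      (_ : IsFractionRing D₁ ↥(modularFunctionFieldFullC κ M))
      (_ : Algebra κ D₁)
      (_ : IsScalarTower κ D₁ ↥(modularFunctionFieldFullC κ M))
      (PsiD₁ : ↥(s37r_B A M hA (s18g_jF (K := Qbar) M)) →+* D₁)
      (D₂ : Type) (_ : CommRing D₂) (_ : IsDedekindDomain D₂)
      (_ : Algebra D₂ ↥(modularFunctionFieldFullC κ M))
      (_ : IsFractionRing D₂ ↥(modularFunctionFieldFullC κ M))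
      (_ : Algebra κ D₂)
      (_ : IsScalarTower κ D₂ ↥(modularFunctionFieldFullC κ M))
      (PsiD₂ : ↥(s37r_B A M hA (s18g_jF (K := Qbar) M)⁻¹) →+* D₂),
      s37r_ChartHyp (ffd_jBar M) A (IsLocalRing.residue ↥A) (s37r_OF A M hA)
        (s37r_redF A M hA hpM) (s18g_jF (K := Qbar) M) PsiD₁ ∧
      s37r_ChartHyp (ffd_jBar M) A (IsLocalRing.residue ↥A) (s37r_OF A M hA)
        (s37r_redF A M hA hpM) (s18g_jF (K := Qbar) M)⁻¹ PsiD₂ := by
  haveI : FFGen Qbar (ffd_jBar M) := s18r_ffGen M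
  have hlev₁ := s37rl_levelInputs_j A M hA hpM h5
  have hlev₂ := s37rl_levelInputs_j_inv A M hA hpM h5
  obtain ⟨hwO, hred⟩ := s37rl_redF_jF A M hA hpM
  have hcoord₁ : s37b_Coord κ p
      ((s37r_redF A M hA hpM ⟨s18g_jF (K := Qbar) M,
        s37r7_w_mem_OF A M hA (s18g_jF (K := Qbar) M) hlev₁⟩ :
        ↥(modularFunctionFieldFullC κ M)) : LaurentSeries κ) := by
    rw [hred]; exact s37b_coord_jq _ p
  have hcoord₂ : s37b_Coord κ p
      ((s37r_redF A M hA hpM ⟨(s18g_jF (K := Qbar) M)⁻¹,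
        s37r7_w_mem_OF A M hA (s18g_jF (K := Qbar) M)⁻¹ hlev₂⟩ :
        ↥(modularFunctionFieldFullC κ M)) : LaurentSeries κ) := by
    rw [s37rl_redF_inv A M hA hpM (s18g_jF_ne_zero M)
      (s37r7_w_mem_OF A M hA (s18g_jF (K := Qbar) M) hlev₁), IntermediateField.coe_inv]
    exact s37b_coord_inv hcoord₁
  obtain ⟨D₁, i1, i2, i3, i4, i5, i6, PsiD₁, h₁⟩ :=
    s37rp_chartPackage A M hA hpM (s18g_jF (K := Qbar) M) hlev₁ hcoord₁
      (s37r_P3s A M hA hpM _ hlev₁ hcoord₁)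
  obtain ⟨D₂, j1, j2, j3, j4, j5, j6, PsiD₂, h₂⟩ :=
    s37rp_chartPackage A M hA hpM (s18g_jF (K := Qbar) M)⁻¹ hlev₂ hcoord₂
      (s37r_P3s A M hA hpM _ hlev₂ hcoord₂)
  exact ⟨D₁, i1, i2, i3, i4, i5, i6, PsiD₁, D₂, j1, j2, j3, j4, j5, j6, PsiD₂, h₁, h₂⟩

end Charts

/-! ### The place `∞` of `F_K(M)` (characteristic zero) -/

section Inf

variable (K : Type*) [Field K] [Algebra ℚ K] (M : ℕ)

/-- `O_∞ = F ∩ K[[q]]`. -/
theorem s44g_i_hvInf (f : ↥(laurentBaseChange K (modularFunctionFieldFull M))) :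
    f ∈ (s44r_vinf K M).toValuationSubring ↔
      ∀ n : ℤ, n < 0 → (f : LaurentSeries K).coeff n = 0 :=
  s44r_mem_vinf_iff K M f

/-- the `q`-expansion of `s = j⁻¹`. -/
theorem s44g_i_coe_j_inv :
    (((s18g_jF (K := K) M)⁻¹ : ↥(laurentBaseChange K (modularFunctionFieldFull M))) :
      LaurentSeries K) = ofPowerSeries ℤ K (s44g_i_S K) := by
  rw [IntermediateField.coe_inv, s18g_coe_jF]
  exact inv_eq_of_mul_eq_one_right (s44g_i_jq_mul_S K)

/-- `s = j⁻¹` as an element of `O_∞`. -/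
def s44g_i_sInf : ↥(s44r_vinf K M).toValuationSubring :=
  ⟨(s18g_jF (K := K) M)⁻¹,
    s44g_i_mem_of_eq (s44r_vinf K M) (s44g_i_hvInf K M) _ _ (s44g_i_coe_j_inv K M)⟩

theorem s44g_i_rho_sInf :
    s44g_i_rho (s44r_vinf K M) (s44g_i_hvInf K M) (s44g_i_sInf K M) = s44g_i_S K :=
  s44g_i_rho_of_eq _ _ _ _ (s44g_i_coe_j_inv K M)

theorem s44g_i_rho_sInf' :
    s44g_i_rho (s44r_vinf K M) (s44g_i_hvInf K M) (s44g_i_sInf K M) =
      PowerSeries.X * s44g_i_U K := s44g_i_rho_sInf K M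

/-- division by `s` in `O_∞`. -/
theorem s44g_i_hdivInf (f : ↥(s44r_vinf K M).toValuationSubring)
    (hf : s44g_i_ev (s44r_vinf K M) (s44g_i_hvInf K M) f = 0) :
    ∃ g : ↥(s44r_vinf K M).toValuationSubring, f = s44g_i_sInf K M * g :=
  s44g_i_hdiv _ _ _ (s44g_i_U K) (s44g_i_E K) (s44g_i_U_mul_E K) (s44g_i_rho_sInf' K M) f hf

theorem s44g_i_htInf (g : ↥(s44r_vinf K M).toValuationSubring)
    (hg : s44g_i_sInf K M * g = 0) : g = 0 :=
  s44g_i_ht _ _ _ (s44g_i_U K) (s44g_i_E K) (s44g_i_U_mul_E K) (s44g_i_rho_sInf' K M) g hg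

theorem s44g_i_hevtInf :
    s44g_i_ev (s44r_vinf K M) (s44g_i_hvInf K M) (s44g_i_sInf K M) = 0 :=
  s44g_i_hevt _ _ _ (s44g_i_U K) (s44g_i_rho_sInf' K M)

/-- **the `s`-adic expansion at `∞`** `ε_∞ : O_∞ →ₐ[K] K⟦X⟧`. -/
def s44g_i_epsInf : ↥(s44r_vinf K M).toValuationSubring →ₐ[K] PowerSeries K :=
  s44g_eps (s44g_i_ev (s44r_vinf K M) (s44g_i_hvInf K M)) (s44g_i_sInf K M)
    (s44g_i_hdivInf K M) (s44g_i_htInf K M) (s44g_i_hevtInf K M)

/-- `ε_∞` is the re-expansion of the `q`-expansion in the parameter `S = 1/j(q)`. -/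
theorem s44g_i_epsInf_eq (f : ↥(s44r_vinf K M).toValuationSubring) :
    s44g_i_epsInf K M f =
      s44g_i_psEps K (s44g_i_rho (s44r_vinf K M) (s44g_i_hvInf K M) f) :=
  s44g_i_eps_eq' _ _ _ (s44g_i_U K) (s44g_i_E K) (s44g_i_U_mul_E K) (s44g_i_rho_sInf' K M)
    (s44g_i_S K) rfl (s44g_i_rho_sInf K M) _ _ _ f

/-- the same for ANY proofs of the three hypotheses of `s44g_eps`. -/
theorem s44g_i_eps_inf_eq
    (hdiv : ∀ f : ↥(s44r_vinf K M).toValuationSubring,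
      s44g_i_ev (s44r_vinf K M) (s44g_i_hvInf K M) f = 0 → ∃ g, f = s44g_i_sInf K M * g)
    (ht : ∀ g : ↥(s44r_vinf K M).toValuationSubring, s44g_i_sInf K M * g = 0 → g = 0)
    (hevt : s44g_i_ev (s44r_vinf K M) (s44g_i_hvInf K M) (s44g_i_sInf K M) = 0)
    (f : ↥(s44r_vinf K M).toValuationSubring) :
    s44g_eps (s44g_i_ev (s44r_vinf K M) (s44g_i_hvInf K M)) (s44g_i_sInf K M) hdiv ht hevt f =
      s44g_i_psEps K (s44g_i_rho (s44r_vinf K M) (s44g_i_hvInf K M) f) :=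
  s44g_i_epsInf_eq K M f

/-- `j` has a pole at `∞`. -/
theorem s44g_i_j_not_mem : s18g_jF (K := K) M ∉ (s44r_vinf K M).toValuationSubring := by
  intro h
  have h1 := (s44g_i_hvInf K M _).mp h (-1) (by norm_num)
  rw [s18g_coe_jF, coeff_jqModC_neg_one] at h1
  exact one_ne_zero h1

end Inf

/-! ### The place `∞̃` of `F_κ(M)` (`κ` algebraically closed) -/

section InfBar

variable (κ : Type*) [Field κ] [IsAlgClosed κ] (M : ℕ) [NeZero M]

/-- the `q`-expansion of `s̄ = j̄⁻¹`. -/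
theorem s44g_i_coe_jbar_inv :
    (((s18g_jFbar κ M)⁻¹ : ↥(modularFunctionFieldFullC κ M)) : LaurentSeries κ) =
      ofPowerSeries ℤ κ (s44g_i_S κ) := by
  rw [IntermediateField.coe_inv]
  show (jqModC κ)⁻¹ = _
  exact inv_eq_of_mul_eq_one_right (s44g_i_jq_mul_S κ)

/-- `s̄ = j̄⁻¹` as an element of `O_∞̃`. -/
def s44g_i_sBar : ↥(s44h_fbarInf κ M).toValuationSubring :=
  ⟨(s18g_jFbar κ M)⁻¹,
    s44g_i_mem_of_eq (s44h_fbarInf κ M) (s44h_mem_fbarInf κ M) _ _ (s44g_i_coe_jbar_inv κ M)⟩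

theorem s44g_i_rho_sBar :
    s44g_i_rho (s44h_fbarInf κ M) (s44h_mem_fbarInf κ M) (s44g_i_sBar κ M) = s44g_i_S κ :=
  s44g_i_rho_of_eq _ _ _ _ (s44g_i_coe_jbar_inv κ M)

theorem s44g_i_rho_sBar' :
    s44g_i_rho (s44h_fbarInf κ M) (s44h_mem_fbarInf κ M) (s44g_i_sBar κ M) =
      PowerSeries.X * s44g_i_U κ := s44g_i_rho_sBar κ M

theorem s44g_i_hdivBar (f : ↥(s44h_fbarInf κ M).toValuationSubring)
    (hf : s44g_i_ev (s44h_fbarInf κ M) (s44h_mem_fbarInf κ M) f = 0) :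
    ∃ g : ↥(s44h_fbarInf κ M).toValuationSubring, f = s44g_i_sBar κ M * g :=
  s44g_i_hdiv _ _ _ (s44g_i_U κ) (s44g_i_E κ) (s44g_i_U_mul_E κ) (s44g_i_rho_sBar' κ M) f hf

theorem s44g_i_htBar (g : ↥(s44h_fbarInf κ M).toValuationSubring)
    (hg : s44g_i_sBar κ M * g = 0) : g = 0 :=
  s44g_i_ht _ _ _ (s44g_i_U κ) (s44g_i_E κ) (s44g_i_U_mul_E κ) (s44g_i_rho_sBar' κ M) g hg

theorem s44g_i_hevtBar :
    s44g_i_ev (s44h_fbarInf κ M) (s44h_mem_fbarInf κ M) (s44g_i_sBar κ M) = 0 :=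
  s44g_i_hevt _ _ _ (s44g_i_U κ) (s44g_i_rho_sBar' κ M)

/-- **the `s̄`-adic expansion at `∞̃`** `ε_∞̃ : O_∞̃ →ₐ[κ] κ⟦X⟧`. -/
def s44g_i_epsBar : ↥(s44h_fbarInf κ M).toValuationSubring →ₐ[κ] PowerSeries κ :=
  s44g_eps (s44g_i_ev (s44h_fbarInf κ M) (s44h_mem_fbarInf κ M)) (s44g_i_sBar κ M)
    (s44g_i_hdivBar κ M) (s44g_i_htBar κ M) (s44g_i_hevtBar κ M)

theorem s44g_i_epsBar_eq (f : ↥(s44h_fbarInf κ M).toValuationSubring) :
    s44g_i_epsBar κ M f =
      s44g_i_psEps κ (s44g_i_rho (s44h_fbarInf κ M) (s44h_mem_fbarInf κ M) f) :=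
  s44g_i_eps_eq' _ _ _ (s44g_i_U κ) (s44g_i_E κ) (s44g_i_U_mul_E κ) (s44g_i_rho_sBar' κ M)
    (s44g_i_S κ) rfl (s44g_i_rho_sBar κ M) _ _ _ f

/-- the order at `∞̃` is the `q`-order. -/
theorem s44g_i_ordBar {f : ↥(modularFunctionFieldFullC κ M)} (hf : f ≠ 0) :
    (s44h_fbarInf κ M).ord f = (f : LaurentSeries κ).order :=
  s44g_i_ord (s44h_fbarInf κ M) (s44h_mem_fbarInf κ M) (s18g_jFbar κ M)
    (s18t_order_jqModC κ) hf

/-- `j̄` has a simple pole at `∞̃`. -/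
theorem s44g_i_ordBar_jbar : (s44h_fbarInf κ M).ord (s18g_jFbar κ M) = -1 := by
  have h0 : s18g_jFbar κ M ≠ 0 := by
    intro h
    have := congrArg (fun f : ↥(modularFunctionFieldFullC κ M) => (f : LaurentSeries κ)) h
    exact jqModC_ne_zero_of_nontrivial κ this
  rw [s44g_i_ordBar κ M h0]
  exact s18t_order_jqModC κ

/-- over the algebraically closed `κ`, the value at `∞̃` is the constant coefficient. -/
theorem s44g_i_pv_evBar (x : ↥(modularFunctionFieldFullC κ M)) [FFGen κ x]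
    (f : ↥(s44h_fbarInf κ M).toValuationSubring) :
    s37pv_ev x (s44h_fbarInf κ M) f =
      ((f : ↥(modularFunctionFieldFullC κ M)) : LaurentSeries κ).coeff 0 :=
  s44g_i_pv_ev _ (s44h_mem_fbarInf κ M) x f

end InfBar

/-! ### The top level: `A ⊂ Qbar`, `κ = A/𝔪` -/

section Top

variable (A : ValuationSubring Qbar) (M : ℕ) [NeZero M] {p : ℕ} [Fact p.Prime]
  (hA : A.LiesOverPrime p) (hpM : ¬ p ∣ M)

local notation "κ" => IsLocalRing.ResidueField A

/-- `j` takes no value in `A` at `∞` (it has a pole there). -/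
theorem s44g_i_not_int :
    haveI : FFGen Qbar (ffd_jBar M) := s18r_ffGen M
    ¬ s37r_Int (ffd_jBar M) A (s18g_jF (K := Qbar) M) (s44r_vinf Qbar M) :=
  fun ⟨h, _⟩ => s44g_i_j_not_mem Qbar M h

/-- the value map of S37 at `∞` is the constant coefficient of the `q`-expansion. -/
theorem s44g_i_pv_evInf (f : ↥(s44r_vinf Qbar M).toValuationSubring) :
    haveI : FFGen Qbar (ffd_jBar M) := s18r_ffGen M
    s37pv_ev (ffd_jBar M) (s44r_vinf Qbar M) f =
      ((f : ↥(modularFunctionFieldBar M)) : LaurentSeries Qbar).coeff 0 :=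
  haveI : FFGen Qbar (ffd_jBar M) := s18r_ffGen M
  s44g_i_pv_ev _ (s44g_i_hvInf Qbar M) (ffd_jBar M) f

/-- `red j = j̄`. -/
theorem s44g_i_red_j (hwO : s18g_jF (K := Qbar) M ∈ s37r_OF A M hA) :
    s37r_redF A M hA hpM ⟨s18g_jF (K := Qbar) M, hwO⟩ = s18g_jFbar κ M := by
  obtain ⟨hwO', h⟩ := s37rl_redF_jF A M hA hpM
  exact Subtype.ext h

variable [IsAlgClosed (IsLocalRing.ResidueField A)]

/-- **`red j` has a simple pole at `∞̃`.** -/
theorem s44g_i_ord_red_j (hwO : s18g_jF (K := Qbar) M ∈ s37r_OF A M hA) :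
    (s44h_fbarInf κ M).ord (s37r_redF A M hA hpM ⟨s18g_jF (K := Qbar) M, hwO⟩) = -1 := by
  rw [s44g_i_red_j A M hA hpM hwO]
  exact s44g_i_ordBar_jbar κ M

/-- **[GR-B1], integrality at `∞`.**  If `f ∈ F` has an `A`-integral power series `q`-expansion `Y`,
then `f` is regular at `∞` and Gauss-integral, `red f` is regular at `∞̃` with `q`-expansion the
coefficientwise reduction of `Y`, the `s`-adic expansion of `f` at `∞` is the `A`-integral series
`ε_S Y` (so all the iterated values `ev_∞ (𝒟_∞^[n] f)` lie in `A`), and it reduces coefficientwise to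
the `s̄`-adic expansion of `red f` at `∞̃`. -/
theorem s44g_i_integral (f : ↥(modularFunctionFieldBar M)) (Y : PowerSeries ↥A)
    (hfY : (f : LaurentSeries Qbar) = ofPowerSeries ℤ Qbar (Y.map A.subtype)) :
    ∃ (hfI : f ∈ (s44r_vinf Qbar M).toValuationSubring) (hfO : f ∈ s37r_OF A M hA)
      (hr : s37r_redF A M hA hpM ⟨f, hfO⟩ ∈ (s44h_fbarInf κ M).toValuationSubring),
      s44g_i_rho (s44r_vinf Qbar M) (s44g_i_hvInf Qbar M) ⟨f, hfI⟩ = Y.map A.subtype ∧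
      s44g_i_rho (s44h_fbarInf κ M) (s44h_mem_fbarInf κ M) ⟨_, hr⟩ =
        Y.map (IsLocalRing.residue ↥A) ∧
      s44g_i_epsInf Qbar M ⟨f, hfI⟩ = (s44g_i_psEps ↥A Y).map A.subtype ∧
      s44g_i_epsBar κ M ⟨_, hr⟩ = (s44g_i_psEps ↥A Y).map (IsLocalRing.residue ↥A) := by
  have hfI : f ∈ (s44r_vinf Qbar M).toValuationSubring :=
    s44g_i_mem_of_eq _ (s44g_i_hvInf Qbar M) f _ hfY
  have hfY' : (f : LaurentSeries Qbar) = coeffMap A.subtype (ofPowerSeries ℤ ↥A Y) := by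
    rw [hfY, coeffMap_ofPowerSeries]
  obtain ⟨hfO, hred⟩ := s37rl_redF_of_iota A M hA hpM f (ofPowerSeries ℤ ↥A Y) hfY'
  rw [coeffMap_ofPowerSeries] at hred
  have hr : s37r_redF A M hA hpM ⟨f, hfO⟩ ∈ (s44h_fbarInf κ M).toValuationSubring :=
    s44g_i_mem_of_eq _ (s44h_mem_fbarInf κ M) _ _ hred
  have h1 : s44g_i_rho (s44r_vinf Qbar M) (s44g_i_hvInf Qbar M) ⟨f, hfI⟩ = Y.map A.subtype :=
    s44g_i_rho_of_eq _ _ ⟨f, hfI⟩ _ hfY
  have h2 : s44g_i_rho (s44h_fbarInf κ M) (s44h_mem_fbarInf κ M)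
      ⟨s37r_redF A M hA hpM ⟨f, hfO⟩, hr⟩ = Y.map (IsLocalRing.residue ↥A) :=
    s44g_i_rho_of_eq _ _ ⟨_, hr⟩ _ hred
  refine ⟨hfI, hfO, hr, h1, h2, ?_, ?_⟩
  · rw [s44g_i_epsInf_eq, h1, s44g_i_psEps_map]
  · rw [s44g_i_epsBar_eq, h2, s44g_i_psEps_map]

include hA hpM in
/-- the iterated values at `∞` of an `A`-integral function lie in `A`. -/
theorem s44g_i_coeff_mem (f : ↥(modularFunctionFieldBar M)) (Y : PowerSeries ↥A)
    (hfY : (f : LaurentSeries Qbar) = ofPowerSeries ℤ Qbar (Y.map A.subtype))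
    (hfI : f ∈ (s44r_vinf Qbar M).toValuationSubring) (n : ℕ) :
    PowerSeries.coeff n (s44g_i_epsInf Qbar M ⟨f, hfI⟩) ∈ A := by
  obtain ⟨_, _, _, _, _, h, _⟩ := s44g_i_integral A M hA hpM f Y hfY
  rw [h, PowerSeries.coeff_map]
  exact Subtype.mem _

end Top

end Fermat.Agent.Lib.S44
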