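/-
M-AT-P programme (S44), wall W4′, brick [GR-Y] (helper2), ABSTRACT PART (Mathlib only).

* `s44g_y_scale`  : primitive scaling over a valuation subring `A ⊆ K`: a non-zero finite family of
  polynomials over `K` is `λ⁻¹ ·` (a family over `A` with one coefficient equal to `1`).
* `s44g_y_li`     : polynomial-form independence over `k[x]` gives linear independence over `k(x)`.
* `s44g_y_den`    : denominators: if `F = k(x)(S)` is finite over `k(x)` and a subring `𝓛 ⊇ k ∪ {x} ∪ S`,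
  every `z ∈ F` has a multiple `D(x) z ∈ 𝓛`, `D ≠ 0`.
* `s44g_y_exists` : `F / k(x)` finite separable, `θ₁ … θₙ` independent over `k[x]`, `𝓛 ⊆ F` a subring
  such that every `z ∈ F` has a multiple `D(x) z ∈ 𝓛`, `D ≠ 0`.  Then some `ȳ ∈ 𝓛` has
  `1, ȳ, …, ȳ^(n-1)` independent over `k[x]`, and every non-zero polynomial of degree `≤ n` with
  coefficients in `k[x]` vanishing at `ȳ` has non-vanishing derivative at `ȳ`.
-/
import Mathlib

set_option autoImplicit false

namespace Fermat.Agent.Lib.S44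

open Polynomial IntermediateField

section scale

variable {K : Type*} [Field K] (A : ValuationSubring K)

/-- **Primitive scaling.** -/
theorem s44g_y_scale {n : ℕ} (c : Fin n → K[X]) (hc : c ≠ 0) :
    ∃ (lam : K) (C : Fin n → (↥A)[X]), lam ≠ 0 ∧
      (∀ i, (C i).map A.subtype = Polynomial.C lam * c i) ∧
      ∃ (i₀ : Fin n) (k₀ : ℕ), (C i₀).coeff k₀ = 1 := by
  classical
  -- the finite set of all (index, exponent) pairs with non-zero coefficient
  let T : Finset (Fin n × ℕ) := Finset.univ.sigma (fun i => (c i).support) |>.map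
    ⟨fun s => (s.1, s.2), fun a b h => by
      cases a; cases b; simp only [Prod.mk.injEq] at h; obtain ⟨rfl, rfl⟩ := h; rfl⟩
  have hT : ∀ i k, (i, k) ∈ T ↔ (c i).coeff k ≠ 0 := by
    intro i k
    simp only [T, Finset.mem_map, Finset.mem_sigma, Finset.mem_univ, true_and,
      Function.Embedding.coeFn_mk, Prod.mk.injEq, Sigma.exists, Polynomial.mem_support_iff]
    constructor
    · rintro ⟨a, b, hb, rfl, rfl⟩; exact hb
    · intro h; exact ⟨i, k, h, rfl, rfl⟩
  have hne : T.Nonempty := by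
    by_contra hemp
    rw [Finset.not_nonempty_iff_eq_empty] at hemp
    apply hc
    funext i
    ext k
    by_contra hk
    have : (i, k) ∈ T := (hT i k).mpr hk
    rw [hemp] at this
    exact absurd this (Finset.notMem_empty _)
  obtain ⟨⟨i₀, k₀⟩, hmem, hmax⟩ := Finset.exists_max_image T
    (fun s => A.valuation ((c s.1).coeff s.2)) hne
  have ha0 : (c i₀).coeff k₀ ≠ 0 := (hT i₀ k₀).mp hmem
  set a := (c i₀).coeff k₀ with ha
  have hmemA : ∀ i k, a⁻¹ * (c i).coeff k ∈ A := by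
    intro i k
    by_cases h0 : (c i).coeff k = 0
    · rw [h0, mul_zero]; exact A.zero_mem
    · have h1 := hmax (i, k) ((hT i k).mpr h0)
      rw [← A.valuation_le_one_iff, map_mul, map_inv₀]
      have hpos : 0 < A.valuation a := zero_lt_iff.mpr ((Valuation.ne_zero_iff _).mpr ha0)
      rw [inv_mul_le_iff₀ hpos, mul_one]
      exact h1
  refine ⟨a⁻¹, fun i => ∑ k ∈ (c i).support, Polynomial.monomial k ⟨a⁻¹ * (c i).coeff k, hmemA i k⟩,
    inv_ne_zero ha0, ?_, i₀, k₀, ?_⟩
  · intro i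
    ext k
    rw [Polynomial.coeff_map, Polynomial.finsetSum_coeff, Polynomial.coeff_C_mul]
    simp only [Polynomial.coeff_monomial]
    rw [Finset.sum_ite_eq']
    split_ifs with hk
    · rfl
    · rw [Polynomial.mem_support_iff, not_not] at hk
      rw [hk, mul_zero, map_zero]
  · rw [Polynomial.finsetSum_coeff]
    simp only [Polynomial.coeff_monomial]
    rw [Finset.sum_ite_eq', if_pos (Polynomial.mem_support_iff.mpr ha0)]
    apply Subtype.ext
    show a⁻¹ * (c i₀).coeff k₀ = 1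
    exact inv_mul_cancel₀ ha0

end scale

section field

variable {k F : Type*} [Field k] [Field F] [Algebra k F]

open scoped IntermediateField.algebraAdjoinAdjoin in
/-- polynomial-form independence over `k[x]` gives linear independence over `k(x)`. -/
theorem s44g_y_li (x : F) {n : ℕ} (θ : Fin n → F)
    (hind : ∀ P : Fin n → k[X], ∑ i, aeval x (P i) * θ i = 0 → P = 0) :
    LinearIndependent ↥k⟮x⟯ θ := by
  have hliA : LinearIndependent ↥(Algebra.adjoin k {x}) θ := by
    rw [Fintype.linearIndependent_iff]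
    intro g hg i
    have hex : ∀ i, ∃ p : k[X], aeval x p = (g i : F) := fun i => by
      have h : (g i : F) ∈ (aeval x : k[X] →ₐ[k] F).range := by
        rw [← Algebra.adjoin_singleton_eq_range_aeval]
        exact (g i).2
      exact h
    choose p hp using hex
    have h0 := hind p (by
      rw [← hg]
      refine Finset.sum_congr rfl fun i _ => ?_
      rw [hp i]
      rfl)
    apply Subtype.ext
    rw [← hp i, congrFun h0 i]
    simp
  exact (LinearIndependent.iff_fractionRing ↥(Algebra.adjoin k {x}) ↥k⟮x⟯).mp hliA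

/-- the polynomial `Σ_{i<m} a_i Y^i`. -/
noncomputable def s44g_yPoly {E : Type*} [CommRing E] {m : ℕ} (a : Fin m → E) : E[X] :=
  ∑ i : Fin m, Polynomial.monomial (i : ℕ) (a i)

theorem s44g_yPoly_eval {E : Type*} [CommRing E] {m : ℕ} (a : Fin m → E) (y : E) :
    (s44g_yPoly a).eval y = ∑ i : Fin m, a i * y ^ (i : ℕ) := by
  rw [s44g_yPoly, Polynomial.eval_finset_sum]
  refine Finset.sum_congr rfl fun i _ => ?_
  rw [Polynomial.eval_monomial]

theorem s44g_yPoly_deriv_eval {E : Type*} [CommRing E] {m : ℕ} (a : Fin m → E) (y : E) :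
    (Polynomial.derivative (s44g_yPoly a)).eval y
      = ∑ i : Fin m, a i * ((i : ℕ) : E) * y ^ ((i : ℕ) - 1) := by
  rw [s44g_yPoly, Polynomial.derivative_sum, Polynomial.eval_finset_sum]
  refine Finset.sum_congr rfl fun i _ => ?_
  rw [Polynomial.derivative_monomial, Polynomial.eval_monomial]

theorem s44g_yPoly_coeff {E : Type*} [CommRing E] {m : ℕ} (a : Fin m → E) (i : Fin m) :
    (s44g_yPoly a).coeff (i : ℕ) = a i := by
  classical
  rw [s44g_yPoly, Polynomial.finset_sum_coeff]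
  rw [Finset.sum_eq_single i]
  · rw [Polynomial.coeff_monomial, if_pos rfl]
  · intro b _ hb
    rw [Polynomial.coeff_monomial, if_neg]
    exact fun h => hb (Fin.ext h)
  · intro h; exact absurd (Finset.mem_univ i) h

theorem s44g_yPoly_coeff_ge {E : Type*} [CommRing E] {m : ℕ} (a : Fin m → E) (j : ℕ)
    (hj : m ≤ j) : (s44g_yPoly a).coeff j = 0 := by
  classical
  rw [s44g_yPoly, Polynomial.finset_sum_coeff]
  refine Finset.sum_eq_zero fun b _ => ?_
  rw [Polynomial.coeff_monomial, if_neg]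
  have := b.2
  omega

theorem s44g_yPoly_degree_lt {E : Type*} [CommRing E] {m : ℕ} (a : Fin m → E) :
    (s44g_yPoly a).degree < m :=
  (Polynomial.degree_lt_iff_coeff_zero _ _).mpr fun j hj => s44g_yPoly_coeff_ge a j hj

theorem s44g_yPoly_map {E E' : Type*} [CommRing E] [CommRing E'] (φ : E →+* E') {m : ℕ}
    (a : Fin m → E) : (s44g_yPoly a).map φ = s44g_yPoly (fun i => φ (a i)) := by
  rw [s44g_yPoly, s44g_yPoly, Polynomial.map_sum]
  refine Finset.sum_congr rfl fun i _ => ?_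
  rw [Polynomial.map_monomial]

/-- **The test element, abstract form.** -/
theorem s44g_y_exists (x : F) (hxtr : Transcendental k x) [FiniteDimensional ↥k⟮x⟯ F]
    [Algebra.IsSeparable ↥k⟮x⟯ F] {n : ℕ} (θ : Fin n → F)
    (hind : ∀ P : Fin n → k[X], ∑ i, aeval x (P i) * θ i = 0 → P = 0)
    (𝓛 : Subring F) (hden : ∀ z : F, ∃ D : k[X], D ≠ 0 ∧ aeval x D * z ∈ 𝓛) :
    ∃ ybar ∈ 𝓛,
      (∀ P : Fin n → k[X], ∑ i : Fin n, aeval x (P i) * ybar ^ (i : ℕ) = 0 → P = 0) ∧
      (∀ c : Fin (n + 1) → k[X], c ≠ 0 →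
        ∑ i : Fin (n + 1), aeval x (c i) * ybar ^ (i : ℕ) = 0 →
        ∑ i : Fin (n + 1), aeval x (c i) * (((i : ℕ) : F)) * ybar ^ ((i : ℕ) - 1) ≠ 0) := by
  classical
  have hinj : Function.Injective (aeval x : k[X] →ₐ[k] F) := transcendental_iff_injective.mp hxtr
  have hmemK : ∀ p : k[X], aeval x p ∈ k⟮x⟯ := fun p => by
    have h1 : aeval x p ∈ Algebra.adjoin k {x} := by
      rw [Algebra.adjoin_singleton_eq_range_aeval]
      exact ⟨p, rfl⟩
    exact IntermediateField.algebra_adjoin_le_adjoin k _ h1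
  -- a primitive element in `𝓛`
  obtain ⟨α, hα⟩ := Field.exists_primitive_element ↥k⟮x⟯ F
  obtain ⟨D, hD0, hD𝓛⟩ := hden α
  have hd0 : aeval x D ≠ 0 := fun h => hD0 (hinj (by rw [h, map_zero]))
  set ybar : F := aeval x D * α with hy
  have hprim : (↥k⟮x⟯)⟮ybar⟯ = ⊤ := by
    rw [← top_le_iff, ← hα, IntermediateField.adjoin_simple_le_iff]
    have h1 : α = (⟨aeval x D, hmemK D⟩ : ↥k⟮x⟯)⁻¹ • ybar := by
      rw [hy]
      show α = ((⟨aeval x D, hmemK D⟩ : ↥k⟮x⟯)⁻¹ : ↥k⟮x⟯) * (aeval x D * α)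
      push_cast
      rw [← mul_assoc, inv_mul_cancel₀ hd0, one_mul]
    rw [h1]
    exact IntermediateField.smul_mem _ (IntermediateField.mem_adjoin_simple_self _ _)
  have hdeg : (minpoly ↥k⟮x⟯ ybar).natDegree = Module.finrank ↥k⟮x⟯ F :=
    (Field.primitive_element_iff_minpoly_natDegree_eq ↥k⟮x⟯ ybar).mp hprim
  have hn : n ≤ (minpoly ↥k⟮x⟯ ybar).natDegree := by
    rw [hdeg]
    have := (s44g_y_li x θ hind).fintype_card_le_finrank
    rwa [Fintype.card_fin] at this
  have hint : IsIntegral ↥k⟮x⟯ ybar := IsIntegral.of_finite _ _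
  -- polynomials over `k(x)` with coefficients `c_i(x)`
  let Q : ∀ {m : ℕ}, (Fin m → k[X]) → (↥k⟮x⟯)[X] := fun {m} c =>
    s44g_yPoly (fun i => (⟨aeval x (c i), hmemK (c i)⟩ : ↥k⟮x⟯))
  have hq : ∀ {m : ℕ} (c : Fin m → k[X]),
      (Q c).map (algebraMap ↥k⟮x⟯ F) = s44g_yPoly (fun i => aeval x (c i)) := by
    intro m c
    exact s44g_yPoly_map _ _
  have hq0 : ∀ {m : ℕ} (c : Fin m → k[X]), Q c = 0 → c = 0 := by
    intro m c h
    funext i
    have h1 := congrArg (fun p => p.coeff (i : ℕ)) h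
    simp only [Polynomial.coeff_zero, Q] at h1
    rw [s44g_yPoly_coeff] at h1
    have h2 : aeval x (c i) = 0 := congrArg Subtype.val h1
    exact hinj (by rw [h2]; simp)
  have haeval : ∀ {m : ℕ} (c : Fin m → k[X]),
      aeval ybar (Q c) = ∑ i : Fin m, aeval x (c i) * ybar ^ (i : ℕ) := by
    intro m c
    rw [Polynomial.aeval_def, ← Polynomial.eval_map, hq c, s44g_yPoly_eval]
  refine ⟨ybar, hD𝓛, ?_, ?_⟩
  · -- independence of the powers
    intro P hP
    by_contra hne
    have hq_ne : Q P ≠ 0 := fun h => hne (hq0 P h)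
    have h0 : aeval ybar (Q P) = 0 := by
      rw [haeval]
      exact hP
    have h1 := minpoly.degree_le_of_ne_zero ↥k⟮x⟯ ybar hq_ne h0
    have h2 : (Q P).degree < n := s44g_yPoly_degree_lt _
    have h3 : (minpoly ↥k⟮x⟯ ybar).degree = ((minpoly ↥k⟮x⟯ ybar).natDegree : WithBot ℕ) :=
      Polynomial.degree_eq_natDegree (minpoly.ne_zero hint)
    rw [h3] at h1
    have h4 : ((minpoly ↥k⟮x⟯ ybar).natDegree : WithBot ℕ) < (n : WithBot ℕ) := lt_of_le_of_lt h1 h2
    have h5 : (minpoly ↥k⟮x⟯ ybar).natDegree < n := by exact_mod_cast h4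
    omega
  · -- separability
    intro c hc h0
    have hq_ne : Q c ≠ 0 := fun h => hc (hq0 c h)
    have hroot : aeval ybar (Q c) = 0 := by rw [haeval]; exact h0
    obtain ⟨r, hr⟩ := minpoly.dvd ↥k⟮x⟯ ybar hroot
    have hr0 : r ≠ 0 := by
      rintro rfl
      rw [mul_zero] at hr
      exact hq_ne hr
    have hm0 : minpoly ↥k⟮x⟯ ybar ≠ 0 := minpoly.ne_zero hint
    have hdq : (Q c).natDegree < n + 1 := by
      have h2 : (Q c).degree < ((n + 1 : ℕ) : WithBot ℕ) := s44g_yPoly_degree_lt _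
      exact (Polynomial.natDegree_lt_iff_degree_lt hq_ne).mpr h2
    have hdr : r.natDegree = 0 := by
      have h1 : (Q c).natDegree = (minpoly ↥k⟮x⟯ ybar).natDegree + r.natDegree := by
        rw [hr, Polynomial.natDegree_mul hm0 hr0]
      omega
    obtain ⟨a, ha⟩ : ∃ a : ↥k⟮x⟯, r = Polynomial.C a :=
      ⟨r.coeff 0, Polynomial.eq_C_of_natDegree_eq_zero hdr⟩
    have ha0 : a ≠ 0 := by
      rintro rfl
      rw [map_zero] at ha
      exact hr0 ha
    have hsep : (minpoly ↥k⟮x⟯ ybar).Separable := Algebra.IsSeparable.isSeparable ↥k⟮x⟯ ybar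
    have hder := hsep.aeval_derivative_ne_zero (minpoly.aeval ↥k⟮x⟯ ybar)
    rw [← s44g_yPoly_deriv_eval (fun i => aeval x (c i)) ybar, ← hq c, Polynomial.derivative_map,
      Polynomial.eval_map, ← Polynomial.aeval_def, hr, ha, Polynomial.derivative_mul,
      Polynomial.derivative_C, mul_zero, add_zero, map_mul, Polynomial.aeval_C]
    exact mul_ne_zero hder ((map_ne_zero_iff _ (algebraMap ↥k⟮x⟯ F).injective).mpr ha0)

end field

section den

variable {k F : Type*} [Field k] [Field F] [Algebra k F]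

theorem s44g_y_aeval_mem (x : F) (𝓛 : Subring F) (hk : ∀ a : k, algebraMap k F a ∈ 𝓛)
    (hx : x ∈ 𝓛) (D : k[X]) : aeval x D ∈ 𝓛 := by
  rw [Polynomial.aeval_def, Polynomial.eval₂_eq_sum_range]
  exact Subring.sum_mem _ fun i _ => Subring.mul_mem _ (hk _) (Subring.pow_mem _ hx _)

theorem s44g_y_frac (x : F) (a : ↥k⟮x⟯) :
    ∃ N D : k[X], D ≠ 0 ∧ aeval x D * (a : F) = aeval x N := by
  obtain ⟨r, s, hrs⟩ := (IntermediateField.mem_adjoin_simple_iff k (a : F)).mp a.2
  by_cases hs : aeval x s = 0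
  · refine ⟨0, 1, one_ne_zero, ?_⟩
    rw [hrs, hs, div_zero, mul_zero, map_zero]
  · refine ⟨r, s, fun h => hs (by rw [h, map_zero]), ?_⟩
    rw [hrs, mul_div_cancel₀ _ hs]

/-- **Denominators.** -/
theorem s44g_y_den (x : F) [FiniteDimensional ↥k⟮x⟯ F] (S : Set F)
    (htop : IntermediateField.adjoin k (insert x S) = ⊤)
    (𝓛 : Subring F) (hk : ∀ a : k, algebraMap k F a ∈ 𝓛) (hx : x ∈ 𝓛) (hS : S ⊆ 𝓛) :
    ∀ z : F, ∃ D : k[X], D ≠ 0 ∧ aeval x D * z ∈ 𝓛 := by
  intro z
  have h1 : (IntermediateField.adjoin ↥k⟮x⟯ S).restrictScalars k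
      = IntermediateField.adjoin k ({x} ∪ S) := IntermediateField.adjoin_adjoin_left k {x} S
  have h5 : z ∈ Submodule.span ↥k⟮x⟯ (Submonoid.closure S : Set F) := by
    have h2 : z ∈ IntermediateField.adjoin ↥k⟮x⟯ S := by
      have : z ∈ (IntermediateField.adjoin ↥k⟮x⟯ S).restrictScalars k := by
        rw [h1, Set.singleton_union, htop]
        exact IntermediateField.mem_top
      exact this
    have h3 : (IntermediateField.adjoin ↥k⟮x⟯ S).toSubalgebra = Algebra.adjoin ↥k⟮x⟯ S :=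
      IntermediateField.adjoin_toSubalgebra_of_isAlgebraic
        (fun s _ => (IsIntegral.of_finite ↥k⟮x⟯ s).isAlgebraic)
    have h4 : z ∈ Algebra.adjoin ↥k⟮x⟯ S := by
      rw [← h3]
      exact h2
    rw [← Algebra.adjoin_eq_span]
    exact h4
  have hcl : Submonoid.closure S ≤ 𝓛.toSubmonoid := (Submonoid.closure_le).mpr hS
  induction h5 using Submodule.span_induction with
  | mem m hm =>
    refine ⟨1, one_ne_zero, ?_⟩
    rw [map_one, one_mul]
    exact hcl hm
  | zero =>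
    refine ⟨1, one_ne_zero, ?_⟩
    rw [mul_zero]
    exact 𝓛.zero_mem
  | add u v _ _ hu hv =>
    obtain ⟨D₁, hD₁, h₁⟩ := hu
    obtain ⟨D₂, hD₂, h₂⟩ := hv
    refine ⟨D₁ * D₂, mul_ne_zero hD₁ hD₂, ?_⟩
    have : aeval x (D₁ * D₂) * (u + v)
        = aeval x D₂ * (aeval x D₁ * u) + aeval x D₁ * (aeval x D₂ * v) := by
      rw [map_mul]; ring
    rw [this]
    exact 𝓛.add_mem (𝓛.mul_mem (s44g_y_aeval_mem x 𝓛 hk hx D₂) h₁)
      (𝓛.mul_mem (s44g_y_aeval_mem x 𝓛 hk hx D₁) h₂)
  | smul a u _ hu =>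
    obtain ⟨D₁, hD₁, h₁⟩ := hu
    obtain ⟨N, D, hD, hND⟩ := s44g_y_frac x a
    refine ⟨D * D₁, mul_ne_zero hD hD₁, ?_⟩
    have : aeval x (D * D₁) * (a • u) = aeval x N * (aeval x D₁ * u) := by
      rw [map_mul, ← hND, Algebra.smul_def]
      show aeval x D * aeval x D₁ * ((a : F) * u) = _
      ring
    rw [this]
    exact 𝓛.mul_mem (s44g_y_aeval_mem x 𝓛 hk hx N) h₁

end den

end Fermat.Agent.Lib.S44
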