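/-
M-AT-P programme (S44), wall W4′, brick [GR-Y] (helper2), CONCRETE PART.

For `A ⊆ ℚ̄` a valuation subring over `ℓ ∤ M`, `κ` its residue field:
`s44g_y_main` : there are `n`, a Laurent series `Y ∈ A((q))` in the ring `A[j(q^d) : d ∣ M]` and
polynomials `C_0 … C_n ∈ A[J]` such that with `y = ιY ∈ F_{ℚ̄}(M)`, `ȳ = ρY ∈ F_κ(M)`:
(Y3) `Σ C_i(j) yⁱ = 0`; (Y5) `Σ i·C̄_i(j̄) ȳ^(i-1) ≠ 0`; (Y4) every `f ∈ F` satisfies
`a(j) f = Σ_{i<n} c_i(j) yⁱ` with `a ≠ 0`; (Y6) `Y` is integral over `A[j]`.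
`s44g_y_main_gen` is the same for an arbitrary surjection `π : A → κ` onto a perfect field of
characteristic `ℓ`.
-/
import Fermat.Agent.Lib.S44.GPrimAbs
import Fermat.Agent.Lib.S37.BGen
import Fermat.Agent.Lib.S18.TIndepJ
import Fermat.Agent.Lib.S18.GDegree
import Fermat.Agent.Lib.S18.NResidue
import Fermat.Agent.Lib.S18.GInst

set_option autoImplicit false
set_option linter.unusedSectionVars false
set_option linter.style.haveILetI false

noncomputable section

namespace Fermat.Agent.Lib.S44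

open ModularCurve HahnSeries Polynomial Fermat.Agent.Lib.S18 Fermat.Agent.Lib.S28 Fermat.Agent.Lib.S37

local notation "Qbar" => AlgebraicClosure ℚ

section ring

variable {R S : Type*} [CommRing R] [CommRing S] (f : R →+* S)

theorem s44g_y_algebraMap_eq_single (r : R) :
    algebraMap R (LaurentSeries R) r = HahnSeries.single 0 r := by
  have h1 : algebraMap R (PowerSeries R) r = PowerSeries.C r := by
    simp
  rw [HahnSeries.algebraMap_apply', h1, HahnSeries.ofPowerSeries_C]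
  rfl

theorem s44g_y_coeffMap_algebraMap (r : R) :
    coeffMap f (algebraMap R (LaurentSeries R) r) = algebraMap S (LaurentSeries S) (f r) := by
  rw [s44g_y_algebraMap_eq_single, s44g_y_algebraMap_eq_single]
  exact coeffMap_single f 0 r

theorem s44g_y_coeffMap_aeval (w : LaurentSeries R) (p : R[X]) :
    coeffMap f (aeval w p) = aeval (coeffMap f w) (p.map f) := by
  rw [Polynomial.aeval_def, Polynomial.aeval_def, Polynomial.eval₂_map, Polynomial.hom_eval₂]
  congr 1
  refine RingHom.ext fun r => ?_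
  exact s44g_y_coeffMap_algebraMap f r

end ring

section lift

variable (A : ValuationSubring Qbar) (M : ℕ) [NeZero M]

/-- generators of the lift ring: constants and the `j(q^d)`, `d ∣ M`, over `A`. -/
def s44g_y_gens : Set (LaurentSeries ↥A) :=
  Set.range (algebraMap ↥A (LaurentSeries ↥A)) ∪
    {g | ∃ (d : ℕ) (_ : NeZero d), d ∣ M ∧ g = qExpand ↥A d (jqModC ↥A)}

/-- the lift ring `A[j(q^d) : d ∣ M] ⊆ A((q))`. -/
def s44g_y_ring : Subring (LaurentSeries ↥A) := Subring.closure (s44g_y_gens A M)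

theorem s44g_y_const_mem (a : ↥A) : algebraMap ↥A (LaurentSeries ↥A) a ∈ s44g_y_ring A M :=
  Subring.subset_closure (Or.inl ⟨a, rfl⟩)

theorem s44g_y_jd_mem {d : ℕ} [NeZero d] (hd : d ∣ M) :
    qExpand ↥A d (jqModC ↥A) ∈ s44g_y_ring A M :=
  Subring.subset_closure (Or.inr ⟨d, inferInstance, hd, rfl⟩)

theorem s44g_y_j_mem : jqModC ↥A ∈ s44g_y_ring A M := by
  have h := s44g_y_jd_mem A M (one_dvd M)
  rwa [qExpand_one_apply] at h

/-- (a) the lift ring maps into `F_{ℚ̄}(M)`. -/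
theorem s44g_y_iota_mem {Y : LaurentSeries ↥A} (hY : Y ∈ s44g_y_ring A M) :
    coeffMap A.subtype Y ∈ modularFunctionFieldBar M := by
  have hle : s44g_y_ring A M ≤
      (modularFunctionFieldBar M).toSubring.comap (coeffMap A.subtype) := by
    refine Subring.closure_le.mpr ?_
    rintro g (⟨a, rfl⟩ | ⟨d, hd, hdM, rfl⟩)
    · show coeffMap A.subtype _ ∈ modularFunctionFieldBar M
      rw [s44g_y_coeffMap_algebraMap]
      exact (modularFunctionFieldBar M).algebraMap_mem _
    · show coeffMap A.subtype _ ∈ modularFunctionFieldBar M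
      rw [coeffMap_qExpand, coeffMap_jqModC]
      exact s18g_jqN_mem_baseChange M hdM
  exact hle hY

/-- (b) the lift ring reduces into `F_κ(M)`. -/
theorem s44g_y_rho_mem {κ : Type*} [Field κ] (π : ↥A →+* κ) {Y : LaurentSeries ↥A}
    (hY : Y ∈ s44g_y_ring A M) : coeffMap π Y ∈ modularFunctionFieldFullC κ M := by
  have hle : s44g_y_ring A M ≤ (modularFunctionFieldFullC κ M).toSubring.comap (coeffMap π) := by
    refine Subring.closure_le.mpr ?_
    rintro g (⟨a, rfl⟩ | ⟨d, hd, hdM, rfl⟩)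
    · show coeffMap π _ ∈ modularFunctionFieldFullC κ M
      rw [s44g_y_coeffMap_algebraMap]
      exact (modularFunctionFieldFullC κ M).algebraMap_mem _
    · show coeffMap π _ ∈ modularFunctionFieldFullC κ M
      rw [coeffMap_qExpand, coeffMap_jqModC]
      exact jqModCd_mem_full κ M hdM
  exact hle hY

/-- (c) every element of the lift ring is integral over `A[j]`. -/
theorem s44g_y_integral {Y : LaurentSeries ↥A} (hY : Y ∈ s44g_y_ring A M) :
    ((aeval (jqModC ↥A) : (↥A)[X] →ₐ[↥A] LaurentSeries ↥A) :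
      (↥A)[X] →+* LaurentSeries ↥A).IsIntegralElem Y := by
  set φ : (↥A)[X] →+* LaurentSeries ↥A :=
    ((aeval (jqModC ↥A) : (↥A)[X] →ₐ[↥A] LaurentSeries ↥A) : (↥A)[X] →+* LaurentSeries ↥A) with hφ
  induction hY using Subring.closure_induction with
  | mem g hg =>
    rcases hg with ⟨a, rfl⟩ | ⟨d, hd, hdM, rfl⟩
    · have : algebraMap ↥A (LaurentSeries ↥A) a = φ (Polynomial.C a) := by
        rw [hφ]; simp
      rw [this]
      exact φ.isIntegralElem_map
    · letI : Algebra (↥A)[X] (LaurentSeries ↥A) := φ.toAlgebra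
      have h1 : s28d_IntOver (algebraMap (↥A)[X] (LaurentSeries ↥A) Polynomial.X)
          (qExpand ↥A d (jqModC ↥A)) := by
        have : algebraMap (↥A)[X] (LaurentSeries ↥A) Polynomial.X = jqModC ↥A := by
          show φ Polynomial.X = _
          rw [hφ]; simp
        rw [this]
        exact s37b_intOver_jqModC (↥A) d
      exact s37b_isIntegral_of_intOver (Polynomial.X : (↥A)[X]) _ h1
  | zero => exact φ.isIntegralElem_zero
  | one => exact φ.isIntegralElem_one
  | add x y _ _ hx hy => exact RingHom.IsIntegralElem.add φ hx hy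
  | neg x _ hx => exact RingHom.IsIntegralElem.neg φ hx
  | mul x y _ _ hx hy => exact RingHom.IsIntegralElem.mul φ hx hy

end lift

section kappa

variable (A : ValuationSubring Qbar) (M : ℕ) [NeZero M] {κ : Type*} [Field κ] (π : ↥A →+* κ)

/-- the liftable subring of `F_κ(M)`. -/
def s44g_y_L : Subring ↥(modularFunctionFieldFullC κ M) :=
  ((s44g_y_ring A M).map (coeffMap π)).comap
    ((modularFunctionFieldFullC κ M).val : ↥(modularFunctionFieldFullC κ M) →+* LaurentSeries κ)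

theorem s44g_y_mem_L (z : ↥(modularFunctionFieldFullC κ M)) :
    z ∈ s44g_y_L A M π ↔ ∃ Y ∈ s44g_y_ring A M, coeffMap π Y = (z : LaurentSeries κ) :=
  Iff.rfl

/-- coercion of the polynomial-form sums. -/
theorem s44g_y_coe_sum {k : Type*} [Field k] (E : IntermediateField k (LaurentSeries k))
    (x y : ↥E) {m : ℕ} (c : Fin m → k[X]) :
    ((∑ i : Fin m, aeval x (c i) * y ^ (i : ℕ) : ↥E) : LaurentSeries k)
      = ∑ i : Fin m, aeval (x : LaurentSeries k) (c i) * (y : LaurentSeries k) ^ (i : ℕ) := by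
  rw [IntermediateField.coe_sum]
  refine Finset.sum_congr rfl fun i _ => ?_
  rw [IntermediateField.coe_mul, IntermediateField.coe_pow]
  congr 1
  exact (Polynomial.aeval_algHom_apply E.val x (c i)).symm

theorem s44g_y_coe_dsum {k : Type*} [Field k] (E : IntermediateField k (LaurentSeries k))
    (x y : ↥E) {m : ℕ} (c : Fin m → k[X]) :
    ((∑ i : Fin m, aeval x (c i) * (((i : ℕ) : ↥E)) * y ^ ((i : ℕ) - 1) : ↥E) : LaurentSeries k)
      = ∑ i : Fin m, aeval (x : LaurentSeries k) (c i) * (((i : ℕ) : LaurentSeries k)) *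
          (y : LaurentSeries k) ^ ((i : ℕ) - 1) := by
  rw [IntermediateField.coe_sum]
  refine Finset.sum_congr rfl fun i _ => ?_
  rw [IntermediateField.coe_mul, IntermediateField.coe_mul, IntermediateField.coe_pow]
  congr 2
  exact (Polynomial.aeval_algHom_apply E.val x (c i)).symm

variable (hπ : Function.Surjective π) {ℓ : ℕ} [Fact ℓ.Prime] [CharP κ ℓ] [PerfectField κ]
  (hℓM : ¬ ℓ ∣ M)

include hπ hℓM in
/-- **the `κ`-side**: a liftable primitive element. -/
theorem s44g_y_kappa :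
    ∃ (n : ℕ) (Y : LaurentSeries ↥A), dedekindPsi M ≤ n ∧ Y ∈ s44g_y_ring A M ∧
      (∀ P : Fin n → κ[X],
        ∑ i : Fin n, aeval (jqModC κ) (P i) * (coeffMap π Y) ^ (i : ℕ) = 0 → P = 0) ∧
      (∀ c : Fin (n + 1) → κ[X], c ≠ 0 →
        ∑ i : Fin (n + 1), aeval (jqModC κ) (c i) * (coeffMap π Y) ^ (i : ℕ) = 0 →
        ∑ i : Fin (n + 1), aeval (jqModC κ) (c i) * (((i : ℕ) : LaurentSeries κ)) *
          (coeffMap π Y) ^ ((i : ℕ) - 1) ≠ 0) := by
  classical
  obtain ⟨n, θ, hn, hθ, hind⟩ := s18t_indep_j ℓ M hℓM κ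
  set x₁ : ↥(modularFunctionFieldFullC κ M) := ⟨jqModC κ, jqModC_mem_full κ M⟩ with hx₁
  have hcoord : s37b_Coord κ ℓ (x₁ : LaurentSeries κ) := s37b_coord_jq κ ℓ
  haveI : Module.Finite ↥(IntermediateField.adjoin κ {x₁}) ↥(modularFunctionFieldFullC κ M) :=
    s37b_finite κ M x₁ hcoord.2.2
  haveI : Algebra.IsSeparable ↥(IntermediateField.adjoin κ {x₁}) ↥(modularFunctionFieldFullC κ M) :=
    s37b_isSeparable κ M ℓ x₁ hcoord
  have hxtr : Transcendental κ x₁ := s37b_transcendental_of_coe κ M x₁ hcoord.1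
  -- the independent monomials, inside `Fb`
  let θ' : Fin n → ↥(modularFunctionFieldFullC κ M) :=
    fun i => ⟨θ i, s18g_closure_le_fullC M (hθ i)⟩
  have hind' : ∀ P : Fin n → κ[X], ∑ i, aeval x₁ (P i) * θ' i = 0 → P = 0 := by
    intro P hP
    apply hind P
    have h1 := congrArg (fun z : ↥(modularFunctionFieldFullC κ M) => (z : LaurentSeries κ)) hP
    simp only [IntermediateField.coe_sum, IntermediateField.coe_mul, IntermediateField.coe_zero] at h1
    rw [← h1]
    refine Finset.sum_congr rfl fun i _ => ?_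
    congr 1
    exact Polynomial.aeval_algHom_apply (modularFunctionFieldFullC κ M).val x₁ (P i)
  -- denominators
  set S : Set ↥(modularFunctionFieldFullC κ M) :=
    (modularFunctionFieldFullC κ M).val ⁻¹' divisorExpansionsC κ M with hS
  have htop : IntermediateField.adjoin κ (insert x₁ S) = ⊤ := by
    have h0 : IntermediateField.adjoin κ S = ⊤ :=
      s37b_adjoin_preimage_eq_top (k := κ) (divisorExpansionsC κ M)
    rw [eq_top_iff, ← h0]
    exact IntermediateField.adjoin.mono _ _ _ (Set.subset_insert _ _)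
  have hk : ∀ a : κ, algebraMap κ ↥(modularFunctionFieldFullC κ M) a ∈ s44g_y_L A M π := by
    intro a
    obtain ⟨a', rfl⟩ := hπ a
    rw [s44g_y_mem_L]
    refine ⟨algebraMap ↥A (LaurentSeries ↥A) a', s44g_y_const_mem A M a', ?_⟩
    rw [s44g_y_coeffMap_algebraMap]
    rfl
  have hx : x₁ ∈ s44g_y_L A M π := by
    rw [s44g_y_mem_L]
    exact ⟨jqModC ↥A, s44g_y_j_mem A M, coeffMap_jqModC _⟩
  have hS𝓛 : S ⊆ (s44g_y_L A M π : Set ↥(modularFunctionFieldFullC κ M)) := by
    rintro z ⟨d, hd, hdM, hz⟩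
    show z ∈ s44g_y_L A M π
    rw [s44g_y_mem_L]
    refine ⟨qExpand ↥A d (jqModC ↥A), s44g_y_jd_mem A M hdM, ?_⟩
    rw [coeffMap_qExpand, coeffMap_jqModC]
    exact hz.symm
  have hden := s44g_y_den x₁ S htop (s44g_y_L A M π) hk hx hS𝓛
  obtain ⟨ybar, hy𝓛, h1, h2⟩ := s44g_y_exists x₁ hxtr θ' hind' (s44g_y_L A M π) hden
  obtain ⟨Y, hYring, hYy⟩ := (s44g_y_mem_L A M π ybar).mp hy𝓛
  refine ⟨n, Y, hn, hYring, ?_, ?_⟩
  · intro P hP
    apply h1 P
    apply Subtype.ext
    rw [s44g_y_coe_sum, IntermediateField.coe_zero, ← hYy]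
    exact hP
  · intro c hc hc0 hd0
    refine h2 c hc ?_ ?_
    · apply Subtype.ext
      rw [s44g_y_coe_sum, IntermediateField.coe_zero, ← hYy]
      exact hc0
    · apply Subtype.ext
      rw [s44g_y_coe_dsum, IntermediateField.coe_zero, ← hYy]
      exact hd0

end kappa

section char0

variable (A : ValuationSubring Qbar) (M : ℕ) [NeZero M] {κ : Type*} [Field κ] (π : ↥A →+* κ)

/-- **scale + reduce**: a non-trivial `ℚ̄[j]`-relation among the powers of `ιY` gives a non-trivial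
`κ[j̄]`-relation among the powers of `ρY`. -/
theorem s44g_y_reduce (Y : LaurentSeries ↥A) {m : ℕ} (c : Fin m → Qbar[X]) (hc : c ≠ 0)
    (hrel : ∑ i : Fin m, aeval (jqModC Qbar) (c i) * (coeffMap A.subtype Y) ^ (i : ℕ) = 0) :
    ∃ C : Fin m → (↥A)[X],
      (∃ lam : Qbar, lam ≠ 0 ∧ ∀ i, (C i).map A.subtype = Polynomial.C lam * c i) ∧
      (fun i => (C i).map π) ≠ 0 ∧
      ∑ i : Fin m, aeval (jqModC ↥A) (C i) * Y ^ (i : ℕ) = 0 ∧
      ∑ i : Fin m, aeval (jqModC κ) ((C i).map π) * (coeffMap π Y) ^ (i : ℕ) = 0 := by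
  obtain ⟨lam, C, hlam, hC, i₀, k₀, h1⟩ := s44g_y_scale A c hc
  have hrelA : ∑ i : Fin m, aeval (jqModC ↥A) (C i) * Y ^ (i : ℕ) = 0 := by
    apply s28d_coeffMap_injective A.subtype Subtype.val_injective
    rw [map_zero, map_sum]
    have : ∀ i : Fin m, coeffMap A.subtype (aeval (jqModC ↥A) (C i) * Y ^ (i : ℕ))
        = HahnSeries.C lam * (aeval (jqModC Qbar) (c i) * (coeffMap A.subtype Y) ^ (i : ℕ)) := by
      intro i
      rw [map_mul, map_pow, s44g_y_coeffMap_aeval, coeffMap_jqModC, hC i, map_mul,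
        Polynomial.aeval_C, ← mul_assoc]
      congr 2
      rw [s44g_y_algebraMap_eq_single]
      rfl
    rw [Finset.sum_congr rfl fun i _ => this i, ← Finset.mul_sum, hrel, mul_zero]
  refine ⟨C, ⟨lam, hlam, hC⟩, ?_, hrelA, ?_⟩
  · intro h
    have h2 := congrArg (fun p : κ[X] => p.coeff k₀) (congrFun h i₀)
    simp only [Pi.zero_apply, Polynomial.coeff_zero, Polynomial.coeff_map] at h2
    rw [h1, map_one] at h2
    exact one_ne_zero h2
  · have h3 := congrArg (coeffMap π) hrelA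
    rw [map_zero, map_sum] at h3
    rw [← h3]
    refine Finset.sum_congr rfl fun i _ => ?_
    rw [map_mul, map_pow, s44g_y_coeffMap_aeval, coeffMap_jqModC]

variable (hπ : Function.Surjective π) {ℓ : ℕ} [Fact ℓ.Prime] [CharP κ ℓ] [PerfectField κ]
  (hℓM : ¬ ℓ ∣ M)

include hπ hℓM in
/-- **[GR-Y], general residue map.** -/
theorem s44g_y_main_gen :
    ∃ (n : ℕ) (Y : LaurentSeries ↥A) (C : Fin (n + 1) → (↥A)[X]),
      coeffMap A.subtype Y ∈ modularFunctionFieldBar M ∧
      coeffMap π Y ∈ modularFunctionFieldFullC κ M ∧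
      (∑ i : Fin (n + 1), aeval (jqModC Qbar) ((C i).map A.subtype) *
          (coeffMap A.subtype Y) ^ (i : ℕ) = 0) ∧
      (∑ i : Fin (n + 1), aeval (jqModC κ) ((C i).map π) * (((i : ℕ) : LaurentSeries κ)) *
          (coeffMap π Y) ^ ((i : ℕ) - 1) ≠ 0) ∧
      (∀ f ∈ modularFunctionFieldBar M, ∃ (a : Qbar[X]) (c : Fin n → Qbar[X]), a ≠ 0 ∧
        aeval (jqModC Qbar) a * f =
          ∑ i : Fin n, aeval (jqModC Qbar) (c i) * (coeffMap A.subtype Y) ^ (i : ℕ)) ∧
      ((aeval (jqModC ↥A) : (↥A)[X] →ₐ[↥A] LaurentSeries ↥A) :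
        (↥A)[X] →+* LaurentSeries ↥A).IsIntegralElem Y := by
  classical
  obtain ⟨n, Y, hn, hYring, h1, h2⟩ := s44g_y_kappa A M π hπ hℓM
  have hnψ : dedekindPsi M < n + 1 := Nat.lt_succ_of_le hn
  have hyF : coeffMap A.subtype Y ∈ modularFunctionFieldBar M := s44g_y_iota_mem A M hYring
  obtain ⟨c, hc, hrel⟩ := s18g_exists_relation M (RingHom.id Qbar) hnψ
    (fun i : Fin (n + 1) => (coeffMap A.subtype Y) ^ (i : ℕ)) (fun i => pow_mem hyF _)
  obtain ⟨C, ⟨lam, hlam, hC⟩, hCne, hrelA, hrelκ⟩ := s44g_y_reduce A π Y c hc hrel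
  refine ⟨n, Y, C, hyF, s44g_y_rho_mem A M π hYring, ?_, h2 _ hCne hrelκ, ?_,
    s44g_y_integral A M hYring⟩
  · have h3 := congrArg (coeffMap A.subtype) hrelA
    rw [map_zero, map_sum] at h3
    rw [← h3]
    refine Finset.sum_congr rfl fun i _ => ?_
    rw [map_mul, map_pow, s44g_y_coeffMap_aeval, coeffMap_jqModC]
  · intro f hf
    obtain ⟨b, hb, hrelb⟩ := s18g_exists_relation M (RingHom.id Qbar) hnψ
      (Fin.cons f (fun i : Fin n => (coeffMap A.subtype Y) ^ (i : ℕ)))
      (fun i => by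
        refine Fin.cases ?_ (fun j => ?_) i
        · simpa using hf
        · simpa using pow_mem hyF _)
    rw [Fin.sum_univ_succ] at hrelb
    simp only [Fin.cons_zero, Fin.cons_succ] at hrelb
    have hb0 : b 0 ≠ 0 := by
      intro h0
      have hc' : (fun i : Fin n => b i.succ) ≠ 0 := by
        intro h
        apply hb
        funext i
        refine Fin.cases h0 (fun j => congrFun h j) i
      have hrel' : ∑ i : Fin n, aeval (jqModC Qbar) (b i.succ) *
          (coeffMap A.subtype Y) ^ (i : ℕ) = 0 := by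
        rw [h0, map_zero, zero_mul, zero_add] at hrelb
        exact hrelb
      obtain ⟨C', -, hC'ne, -, hrelκ'⟩ := s44g_y_reduce A π Y _ hc' hrel'
      exact hC'ne (h1 _ hrelκ')
    refine ⟨b 0, fun i => - b i.succ, hb0, ?_⟩
    simp only [map_neg, neg_mul, Finset.sum_neg_distrib]
    linear_combination hrelb

end char0

/-- **[GR-Y]**: the test element `y` with poles, its lift `Y ∈ A((q))`, the (non-monic) relation
`G = Σ C_i(J) Yⁱ ∈ A[J][Y]` with `G(j, y) = 0`, separability of the reduction at `ȳ`, the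
polynomial form of `K(j)(y) = F`, and integrality of `Y` over `A[j]`. -/
theorem s44g_y_main (A : ValuationSubring Qbar) (M : ℕ) [NeZero M] {ℓ : ℕ} [Fact ℓ.Prime]
    (hA : A.LiesOverPrime ℓ) (hℓM : ¬ ℓ ∣ M) :
    ∃ (n : ℕ) (Y : LaurentSeries ↥A) (C : Fin (n + 1) → (↥A)[X]),
      coeffMap A.subtype Y ∈ modularFunctionFieldBar M ∧
      coeffMap (IsLocalRing.residue ↥A) Y ∈
        modularFunctionFieldFullC (IsLocalRing.ResidueField ↥A) M ∧
      (∑ i : Fin (n + 1), aeval (jqModC Qbar) ((C i).map A.subtype) *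
          (coeffMap A.subtype Y) ^ (i : ℕ) = 0) ∧
      (∑ i : Fin (n + 1), aeval (jqModC (IsLocalRing.ResidueField ↥A))
          ((C i).map (IsLocalRing.residue ↥A)) *
          (((i : ℕ) : LaurentSeries (IsLocalRing.ResidueField ↥A))) *
          (coeffMap (IsLocalRing.residue ↥A) Y) ^ ((i : ℕ) - 1) ≠ 0) ∧
      (∀ f ∈ modularFunctionFieldBar M, ∃ (a : Qbar[X]) (c : Fin n → Qbar[X]), a ≠ 0 ∧
        aeval (jqModC Qbar) a * f =
          ∑ i : Fin n, aeval (jqModC Qbar) (c i) * (coeffMap A.subtype Y) ^ (i : ℕ)) ∧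
      ((aeval (jqModC ↥A) : (↥A)[X] →ₐ[↥A] LaurentSeries ↥A) :
        (↥A)[X] →+* LaurentSeries ↥A).IsIntegralElem Y := by
  haveI hchar : CharP (IsLocalRing.ResidueField ↥A) ℓ := s18n_charP_residueField A Fact.out hA
  haveI : IsAlgClosed (IsLocalRing.ResidueField ↥A) := s18n_isAlgClosed_residueField A
  exact s44g_y_main_gen A M (IsLocalRing.residue ↥A) IsLocalRing.residue_surjective hℓM

end Fermat.Agent.Lib.S44
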