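/-
M-AT-P (S44), W4′ [GR] (helper7, prefix `s44gt_`): **the [GR-PRIM] TRANSFORMATION, pure algebra** (`import Mathlib`).

`G_y = Yⁿ + Σ_{i<n} g_i(X) Yⁱ ∈ R[X][Y]` monic, `k` with `deg g_i ≤ k (n - i)`.  Put
`G := Yⁿ + Σ_{i<n} (reflect (k (n - i)) g_i)(X) Yⁱ` (`s44gt_G`), again MONIC of degree `n` in `Y`.
For `φ : R →+* B`, `j s y ∈ B` with `j s = 1`:

* `s44gt_eval_G`       : `G(s, y s ^ k) = s ^ (k n) · G_y(j, y)`;
* `s44gt_eval_deriv_G` : `(∂_Y G)(s, y s ^ k) = s ^ (k (n - 1)) · (∂_Y G_y)(j, y)`;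
* `s44gt_clear`        : `a(j, y) · s ^ N = ã(s, y s ^ k)` for `N` large (clearing of denominators in `hgen`).
-/
import Mathlib

set_option autoImplicit false

noncomputable section

namespace Fermat.Agent.Lib.S44

open Polynomial Finset

variable {R B : Type*} [CommRing R] [CommRing B] (φ : R →+* B) (j s : B) (hjs : j * s = 1)

include hjs in
/-- `(reflect N g)(s) = s ^ N · g(1 / s)` for `N ≥ deg g`. -/
theorem s44gt_eval_reflect (g : R[X]) (N : ℕ) (hN : g.natDegree ≤ N) :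
    (g.reflect N).eval₂ φ s = s ^ N * g.eval₂ φ j := by
  letI : Invertible j := ⟨s, by rw [mul_comm]; exact hjs, hjs⟩
  have h := eval₂_reflect_mul_pow φ j N g hN
  have hinv : ⅟j = s := rfl
  rw [hinv] at h
  rw [← h]
  have : s ^ N * (eval₂ φ s (reflect N g) * j ^ N) = eval₂ φ s (reflect N g) * (j * s) ^ N := by
    rw [mul_pow]; ring
  rw [this, hjs, one_pow, mul_one]

/-- the transformed polynomial `G = Yⁿ + Σ_{i<n} (reflect (k (n - i)) g_i) Yⁱ`. -/
def s44gt_G (k : ℕ) (Gy : R[X][X]) : R[X][X] :=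
  X ^ Gy.natDegree + ∑ i ∈ range Gy.natDegree,
    C ((Gy.coeff i).reflect (k * (Gy.natDegree - i))) * X ^ i

theorem s44gt_G_degree_sum_lt [Nontrivial R] (k : ℕ) (Gy : R[X][X]) :
    (∑ i ∈ range Gy.natDegree,
      C ((Gy.coeff i).reflect (k * (Gy.natDegree - i))) * (X : R[X][X]) ^ i).degree <
      ((X : R[X][X]) ^ Gy.natDegree).degree := by
  rw [degree_X_pow]
  refine (degree_sum_le _ _).trans_lt ?_
  rw [Finset.sup_lt_iff (WithBot.bot_lt_coe _)]
  intro i hi
  refine (degree_C_mul_X_pow_le _ _).trans_lt ?_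
  exact_mod_cast mem_range.mp hi

/-- `G` is monic. -/
theorem s44gt_G_monic [Nontrivial R] (k : ℕ) (Gy : R[X][X]) : (s44gt_G k Gy).Monic := by
  rw [s44gt_G]
  exact (monic_X_pow _).add_of_left (s44gt_G_degree_sum_lt k Gy)

theorem s44gt_G_natDegree [Nontrivial R] (k : ℕ) (Gy : R[X][X]) :
    (s44gt_G k Gy).natDegree = Gy.natDegree := by
  rw [s44gt_G, natDegree_add_eq_left_of_degree_lt (s44gt_G_degree_sum_lt k Gy), natDegree_X_pow]

/-- `G_y(j, y)` expanded. -/
theorem s44gt_eval_Gy (Gy : R[X][X]) (hGy : Gy.Monic) (y : B) :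
    Gy.eval₂ (eval₂RingHom φ j) y =
      y ^ Gy.natDegree + ∑ i ∈ range Gy.natDegree, (Gy.coeff i).eval₂ φ j * y ^ i := by
  conv_lhs => rw [hGy.as_sum]
  rw [eval₂_add, eval₂_X_pow, eval₂_finset_sum]
  congr 1
  refine Finset.sum_congr rfl fun i _ => ?_
  rw [eval₂_mul, eval₂_C, eval₂_X_pow, coe_eval₂RingHom]

/-- `(∂_Y G_y)(j, y)` expanded. -/
theorem s44gt_eval_deriv_Gy (Gy : R[X][X]) (hGy : Gy.Monic) (y : B) :
    (derivative Gy).eval₂ (eval₂RingHom φ j) y =
      (Gy.natDegree : B) * y ^ (Gy.natDegree - 1) +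
        ∑ i ∈ range Gy.natDegree, (Gy.coeff i).eval₂ φ j * (i : B) * y ^ (i - 1) := by
  conv_lhs => rw [hGy.as_sum]
  rw [derivative_add, derivative_X_pow, derivative_sum, eval₂_add, eval₂_finset_sum]
  congr 1
  · rw [eval₂_mul, eval₂_C, eval₂_X_pow, map_natCast]
  · refine Finset.sum_congr rfl fun i _ => ?_
    rw [derivative_C_mul_X_pow, eval₂_mul, eval₂_C, eval₂_X_pow, map_mul, map_natCast,
      coe_eval₂RingHom]

include hjs in
/-- **`G(s, y s ^ k) = s ^ (k n) · G_y(j, y)`.** -/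
theorem s44gt_eval_G (k : ℕ) (Gy : R[X][X]) (hGy : Gy.Monic)
    (hk : ∀ i < Gy.natDegree, (Gy.coeff i).natDegree ≤ k * (Gy.natDegree - i)) (y : B) :
    (s44gt_G k Gy).eval₂ (eval₂RingHom φ s) (y * s ^ k) =
      s ^ (k * Gy.natDegree) * Gy.eval₂ (eval₂RingHom φ j) y := by
  rw [s44gt_eval_Gy φ j Gy hGy y, s44gt_G, eval₂_add, eval₂_X_pow, eval₂_finset_sum, mul_add,
    Finset.mul_sum]
  congr 1
  · rw [mul_pow, ← pow_mul]; ring
  · refine Finset.sum_congr rfl fun i hi => ?_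
    have hi' : i < Gy.natDegree := mem_range.mp hi
    rw [eval₂_mul, eval₂_C, eval₂_X_pow, coe_eval₂RingHom,
      s44gt_eval_reflect φ j s hjs _ _ (hk i hi'), mul_pow, ← pow_mul]
    have e : k * Gy.natDegree = k * (Gy.natDegree - i) + k * i := by
      rw [← Nat.mul_add, Nat.sub_add_cancel hi'.le]
    rw [e, pow_add]
    ring

include hjs in
/-- **`(∂_Y G)(s, y s ^ k) = s ^ (k (n - 1)) · (∂_Y G_y)(j, y)`.** -/
theorem s44gt_eval_deriv_G (k : ℕ) (Gy : R[X][X]) (hGy : Gy.Monic)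
    (hk : ∀ i < Gy.natDegree, (Gy.coeff i).natDegree ≤ k * (Gy.natDegree - i)) (y : B) :
    (derivative (s44gt_G k Gy)).eval₂ (eval₂RingHom φ s) (y * s ^ k) =
      s ^ (k * (Gy.natDegree - 1)) * (derivative Gy).eval₂ (eval₂RingHom φ j) y := by
  rw [s44gt_eval_deriv_Gy φ j Gy hGy y, s44gt_G, derivative_add, derivative_X_pow, derivative_sum,
    eval₂_add, eval₂_finset_sum, mul_add, Finset.mul_sum]
  congr 1
  · rw [eval₂_mul, eval₂_C, eval₂_X_pow, mul_pow, ← pow_mul, map_natCast]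
    ring
  · refine Finset.sum_congr rfl fun i hi => ?_
    have hi' : i < Gy.natDegree := mem_range.mp hi
    rw [derivative_C_mul_X_pow, eval₂_mul, eval₂_C, eval₂_X_pow, map_mul, map_natCast,
      coe_eval₂RingHom, s44gt_eval_reflect φ j s hjs _ _ (hk i hi'), mul_pow, ← pow_mul]
    rcases Nat.eq_zero_or_pos i with rfl | hipos
    · simp
    · have e : k * (Gy.natDegree - 1) = k * (Gy.natDegree - i) + k * (i - 1) := by
        rw [← Nat.mul_add]
        congr 1
        omega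
      rw [e, pow_add]
      ring

include hjs in
/-- **clearing denominators**: `s ^ N · a(j, y) = ã(s, y s ^ k)` for every large `N`. -/
theorem s44gt_clear (k : ℕ) (a : R[X][X]) (y : B) :
    ∃ N₀ : ℕ, ∀ N : ℕ, N₀ ≤ N → ∃ a' : R[X][X],
      a'.eval₂ (eval₂RingHom φ s) (y * s ^ k) = s ^ N * a.eval₂ (eval₂RingHom φ j) y := by
  refine ⟨(range (a.natDegree + 1)).sup fun l => k * l + (a.coeff l).natDegree, fun N hN => ?_⟩
  refine ⟨∑ l ∈ range (a.natDegree + 1), C ((a.coeff l).reflect (N - k * l)) * X ^ l, ?_⟩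
  rw [eval₂_finset_sum, eval₂_eq_sum_range, Finset.mul_sum]
  refine Finset.sum_congr rfl fun l hl => ?_
  have hle : k * l + (a.coeff l).natDegree ≤ N :=
    (Finset.le_sup (f := fun l => k * l + (a.coeff l).natDegree) hl).trans hN
  rw [eval₂_mul, eval₂_C, eval₂_X_pow, coe_eval₂RingHom, coe_eval₂RingHom,
    s44gt_eval_reflect φ j s hjs _ _ (by omega), mul_pow, ← pow_mul]
  have e : N = (N - k * l) + k * l := by omega
  conv_rhs => rw [e, pow_add]
  ring

/-! ### The non-monic version -/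

/-- the transformed polynomial `G_s = Σ_{i ≤ n} (reflect (D + k (n - i)) g_i) Yⁱ` of a (not necessarily monic)
`G = Σ_{i ≤ n} g_i Yⁱ`, `deg g_i ≤ D`: `G_s(s, Y) = s ^ (D + k n) · G(1 / s, Y / s ^ k)`. -/
def s44gt_Gs (k D n : ℕ) (G : R[X][X]) : R[X][X] :=
  ∑ i ∈ range (n + 1), C ((G.coeff i).reflect (D + k * (n - i))) * X ^ i

include hjs in
/-- **`G_s(s, y s ^ k) = s ^ (D + k n) · G(j, y)`.** -/
theorem s44gt_eval_Gs (k D n : ℕ) (G : R[X][X]) (hn : G.natDegree ≤ n)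
    (hD : ∀ i ≤ n, (G.coeff i).natDegree ≤ D) (y : B) :
    (s44gt_Gs k D n G).eval₂ (eval₂RingHom φ s) (y * s ^ k) =
      s ^ (D + k * n) * G.eval₂ (eval₂RingHom φ j) y := by
  rw [eval₂_eq_sum_range' (eval₂RingHom φ j) (Nat.lt_succ_of_le hn) y, s44gt_Gs, eval₂_finset_sum,
    Finset.mul_sum]
  refine Finset.sum_congr rfl fun i hi => ?_
  have hi' : i ≤ n := Nat.lt_succ_iff.mp (mem_range.mp hi)
  rw [eval₂_mul, eval₂_C, eval₂_X_pow, coe_eval₂RingHom, coe_eval₂RingHom,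
    s44gt_eval_reflect φ j s hjs _ _ ((hD i hi').trans (Nat.le_add_right _ _)), mul_pow, ← pow_mul]
  have e : D + k * n = (D + k * (n - i)) + k * i := by
    rw [add_assoc, ← Nat.mul_add, Nat.sub_add_cancel hi']
  rw [e, pow_add]
  ring

include hjs in
/-- **`(∂_Y G_s)(s, y s ^ k) = s ^ (D + k (n - 1)) · (∂_Y G)(j, y)`.** -/
theorem s44gt_eval_deriv_Gs (k D n : ℕ) (G : R[X][X]) (hn : G.natDegree ≤ n)
    (hD : ∀ i ≤ n, (G.coeff i).natDegree ≤ D) (y : B) :
    (derivative (s44gt_Gs k D n G)).eval₂ (eval₂RingHom φ s) (y * s ^ k) =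
      s ^ (D + k * (n - 1)) * (derivative G).eval₂ (eval₂RingHom φ j) y := by
  conv_rhs => rw [as_sum_range' G (n + 1) (Nat.lt_succ_of_le hn)]
  rw [s44gt_Gs, derivative_sum, derivative_sum, eval₂_finset_sum, eval₂_finset_sum, Finset.mul_sum]
  refine Finset.sum_congr rfl fun i hi => ?_
  have hi' : i ≤ n := Nat.lt_succ_iff.mp (mem_range.mp hi)
  rw [← C_mul_X_pow_eq_monomial, derivative_C_mul_X_pow, derivative_C_mul_X_pow, eval₂_mul, eval₂_mul,
    eval₂_C, eval₂_C, eval₂_X_pow, eval₂_X_pow, map_mul, map_mul, map_natCast, map_natCast,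
    coe_eval₂RingHom, coe_eval₂RingHom,
    s44gt_eval_reflect φ j s hjs _ _ ((hD i hi').trans (Nat.le_add_right _ _)), mul_pow, ← pow_mul]
  rcases Nat.eq_zero_or_pos i with rfl | hipos
  · simp
  · have e : D + k * (n - 1) = (D + k * (n - i)) + k * (i - 1) := by
      rw [add_assoc, ← Nat.mul_add]
      congr 2
      omega
    rw [e, pow_add]
    ring

/-- a root of a monic polynomial with coefficients in a valuation subring lies in it. -/
theorem s44gt_mem_of_root {F : Type*} [Field F] (V : ValuationSubring F) {R' : Type*} [CommRing R']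
    (ψ : R' →+* F) (hψ : ∀ c, ψ c ∈ V) (G : R'[X]) (hG : G.Monic) (t : F)
    (h : G.eval₂ ψ t = 0) : t ∈ V := by
  have hint : IsIntegral ↥V t := by
    refine ⟨G.map (ψ.codRestrict V.toSubring hψ), hG.map _, ?_⟩
    rw [eval₂_map]
    have : (algebraMap ↥V F).comp (ψ.codRestrict V.toSubring hψ) = ψ := by
      ext c; rfl
    rw [this]
    exact h
  obtain ⟨y, hy⟩ := IsIntegrallyClosed.isIntegral_iff.mp hint
  rw [← hy]
  exact y.2

/-- polynomial expressions in elements of a subring stay in the subring. -/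
theorem s44gt_eval₂_mem {F : Type*} [CommRing F] {S : Type*} [SetLike S F] [SubringClass S F] (V : S)
    {R' : Type*} [CommRing R'] (φ' : R' →+* F) (hφ : ∀ c, φ' c ∈ V) (x : F) (hx : x ∈ V)
    (c : R'[X]) : c.eval₂ φ' x ∈ V := by
  rw [eval₂_eq_sum_range]
  exact sum_mem fun i _ => mul_mem (hφ _) (pow_mem hx i)

section Laurent

variable {R₀ : Type*} [CommRing R₀]

/-- a Laurent series with pole order `≤ k`, multiplied by `q ^ k`, is a power series. -/
theorem s44gt_mul_single (Y : LaurentSeries R₀) (k : ℕ) (hY : ∀ m : ℤ, m < -(k : ℤ) → Y.coeff m = 0) :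
    Y * HahnSeries.single (k : ℤ) (1 : R₀) =
      HahnSeries.ofPowerSeries ℤ R₀ (PowerSeries.mk fun m : ℕ => Y.coeff ((m : ℤ) - k)) := by
  ext m
  have e : m = (m - k) + k := by ring
  conv_lhs => rw [e, HahnSeries.coeff_mul_single_add, mul_one]
  rcases lt_or_ge m 0 with hm | hm
  · rw [hY _ (by omega)]
    rw [HahnSeries.ofPowerSeries_apply]
    symm
    refine HahnSeries.embDomain_notin_range ?_
    rintro ⟨n, rfl⟩
    exact absurd hm (not_lt.mpr (Int.natCast_nonneg n))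
  · lift m to ℕ using hm
    rw [HahnSeries.ofPowerSeries_apply_coeff, PowerSeries.coeff_mk]

/-- a bound for the pole order of a Laurent series. -/
theorem s44gt_exists_pole_bound [Nontrivial R₀] (Y : LaurentSeries R₀) :
    ∃ k : ℕ, ∀ m : ℤ, m < -(k : ℤ) → Y.coeff m = 0 := by
  refine ⟨(-Y.order).toNat, fun m hm => HahnSeries.coeff_eq_zero_of_lt_order ?_⟩
  have := Int.self_le_toNat (-Y.order)
  omega

/-- `Y · (q u) ^ k` is a power series as soon as the pole order of `Y` is `≤ k`. -/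
theorem s44gt_mul_pow (Y : LaurentSeries R₀) (k : ℕ) (hY : ∀ m : ℤ, m < -(k : ℤ) → Y.coeff m = 0)
    (u : PowerSeries R₀) :
    Y * HahnSeries.ofPowerSeries ℤ R₀ (PowerSeries.X * u) ^ k =
      HahnSeries.ofPowerSeries ℤ R₀
        ((PowerSeries.mk fun m : ℕ => Y.coeff ((m : ℤ) - k)) * u ^ k) := by
  have e1 : HahnSeries.ofPowerSeries ℤ R₀ (PowerSeries.X * u) ^ k =
      HahnSeries.single (k : ℤ) (1 : R₀) * HahnSeries.ofPowerSeries ℤ R₀ (u ^ k) := by
    rw [← map_pow, mul_pow, map_mul, HahnSeries.ofPowerSeries_X_pow]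
  rw [e1, ← mul_assoc, s44gt_mul_single Y k hY, ← map_mul]

end Laurent

end Fermat.Agent.Lib.S44
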