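/-
M-AT-P (S44), W4′ [GR] (helper7, prefix `s44gt_`): **the [GR-PRIM] TRANSFORMATION in the two-chart setting** of
helper6's `GAbs`/`GFib` (`r := s37r_r h₁ h₂`, `s = w⁻¹`, `Q` a simple pole of `w̄`).

INPUT (helper2's test element, hypotheses-as-data): `y ∈ F` with `A`-integral expansion `ι y = Ỹ ∈ A((q))`, a MONIC
`G_y ∈ A[X][Y]` with `G_y(w, y) = 0`, separability of the reduction `(∂_Y Ḡ_y)(w̄(q), Ȳ) ≠ 0` in `k((q))`, and
generation `∀ f, d(w) f = a(w, y)`.
OUTPUT (the test data of helper6's (A3) `s44g_c0_eq`): `t := y s ^ k`, `T ∈ A[[q]]`, `G := s44gt_G k G_y` with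
`t ∈ R_Q`, `ι t = T`, `G` monic, `G(s, t) = 0`, `(∂_Y Ḡ)(S̄, T̄) ≠ 0` in `k[[q]]`, `∀ f, d̃(s) f = ã(s, t)`.
-/
import Fermat.Agent.Lib.S44.GFib
import Fermat.Agent.Lib.S44.GTrans
import Fermat.Prelude.Def_ModularCurve_X0ModL

set_option autoImplicit false
set_option linter.unusedSectionVars false
set_option linter.style.haveILetI false

noncomputable section

namespace Fermat.Agent.Lib.S44

open AlgebraicCurve ModularCurve Polynomial Fermat.Agent.Lib.FF Fermat.Agent.Lib.S18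
  Fermat.Agent.Lib.S37 IsDedekindDomain

variable {K F : Type*} [Field K] [Field F] [Algebra K F] [IsAlgClosed K]
  {k Fb : Type*} [Field k] [Field Fb] [Algebra k Fb]
  {D₁ : Type*} [CommRing D₁] [IsDedekindDomain D₁] [Algebra D₁ Fb] [IsFractionRing D₁ Fb]
  [Algebra k D₁] [IsScalarTower k D₁ Fb]
  {D₂ : Type*} [CommRing D₂] [IsDedekindDomain D₂] [Algebra D₂ Fb] [IsFractionRing D₂ Fb]
  [Algebra k D₂] [IsScalarTower k D₂ Fb]
  {x : F} [FFGen K x] {A : ValuationSubring K} {π : ↥A →+* k}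
  {O : ValuationSubring F} {red : ↥O →+* Fb} {w : F}
  {PsiD₁ : ↥(s18_ring O (s18_chart1 (L₀ := K) w)) →+* D₁}
  {PsiD₂ : ↥(s18_ring O (s18_chart1 (L₀ := K) w⁻¹)) →+* D₂}
  (h₁ : s37r_ChartHyp x A π O red w PsiD₁) (h₂ : s37r_ChartHyp x A π O red w⁻¹ PsiD₂)

set_option maxHeartbeats 800000 in
/-- **the [GR-PRIM] transformation** (see the header). -/
theorem s44gt_transform
    (ι : F →+* LaurentSeries K)
    (Q : Place k Fb) (hQ1 : Q.ord (red ⟨w, h₁.w_mem⟩) = -1)
    (Sser u : PowerSeries ↥A) (hS : Sser = PowerSeries.X * u)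
    (hιs : ι w⁻¹ = coeffMap A.subtype (HahnSeries.ofPowerSeries ℤ ↥A Sser))
    -- the test element with poles
    (y : F) (Ytil : LaurentSeries ↥A) (hY : ι y = coeffMap A.subtype Ytil)
    (Gy : (↥A)[X][X]) (hGy : Gy.Monic)
    (hGy0 : Gy.eval₂ (eval₂RingHom ((algebraMap K F).comp A.subtype) w) y = 0)
    (Jb : LaurentSeries k)
    (hJb : Jb * HahnSeries.ofPowerSeries ℤ k (PowerSeries.map π Sser) = 1)
    (hY5 : (derivative Gy).eval₂ (eval₂RingHom ((HahnSeries.C : k →+* LaurentSeries k).comp π) Jb)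
      (coeffMap π Ytil) ≠ 0)
    (hY4 : ∀ f : F, ∃ (d : K[X]) (a : K[X][X]), aeval w d ≠ 0 ∧
      aeval w d * f = a.eval₂ (eval₂RingHom (algebraMap K F) w) y) :
    ∃ (t : F) (T : PowerSeries ↥A) (G : (↥A)[X][X]),
      t ∈ s44g_RQ h₁ h₂ Q ∧
      ι t = coeffMap A.subtype (HahnSeries.ofPowerSeries ℤ ↥A T) ∧
      G.Monic ∧
      G.eval₂ (eval₂RingHom ((algebraMap K F).comp A.subtype) w⁻¹) t = 0 ∧
      (derivative G).eval₂
        (eval₂RingHom ((PowerSeries.C : k →+* PowerSeries k).comp π) (PowerSeries.map π Sser))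
        (PowerSeries.map π T) ≠ 0 ∧
      ∀ f : F, ∃ (d : K[X]) (a : K[X][X]), aeval w⁻¹ d ≠ 0 ∧
        aeval w⁻¹ d * f = a.eval₂ (eval₂RingHom (algebraMap K F) w⁻¹) t := by
  classical
  haveI : Nontrivial ↥A := inferInstance
  have hw0 : w ≠ 0 := s37r_w_ne_zero h₁
  have hs0 : w⁻¹ ≠ 0 := inv_ne_zero hw0
  have hjs : w * w⁻¹ = 1 := mul_inv_cancel₀ hw0
  -- the exponent `k`
  obtain ⟨k₂, hk₂⟩ := s44gt_exists_pole_bound Ytil
  set k₁ : ℕ := (Finset.range Gy.natDegree).sup fun i => (Gy.coeff i).natDegree with hk₁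
  set kk : ℕ := max k₁ k₂ with hkk
  have hk : ∀ i < Gy.natDegree, (Gy.coeff i).natDegree ≤ kk * (Gy.natDegree - i) := by
    intro i hi
    have h1 : (Gy.coeff i).natDegree ≤ k₁ :=
      Finset.le_sup (f := fun i => (Gy.coeff i).natDegree) (Finset.mem_range.mpr hi)
    have h2 : k₁ ≤ kk := le_max_left _ _
    have h3 : 1 ≤ Gy.natDegree - i := by omega
    calc (Gy.coeff i).natDegree ≤ kk * 1 := by omega
      _ ≤ kk * (Gy.natDegree - i) := Nat.mul_le_mul_left _ h3
  have hkY : ∀ m : ℤ, m < -(kk : ℤ) → Ytil.coeff m = 0 := by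
    intro m hm
    apply hk₂
    have : (k₂ : ℤ) ≤ (kk : ℤ) := by exact_mod_cast le_max_right k₁ k₂
    omega
  set φ : ↥A →+* F := (algebraMap K F).comp A.subtype with hφ
  set t : F := y * w⁻¹ ^ kk with ht
  set G : (↥A)[X][X] := s44gt_G kk Gy with hG
  have hGmonic : G.Monic := s44gt_G_monic kk Gy
  have hGt : G.eval₂ (eval₂RingHom φ w⁻¹) t = 0 := by
    rw [hG, ht, s44gt_eval_G φ w w⁻¹ hjs kk Gy hGy hk y, hGy0, mul_zero]
  -- the expansion of `t`
  set T : PowerSeries ↥A :=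
    (PowerSeries.mk fun m : ℕ => Ytil.coeff ((m : ℤ) - kk)) * u ^ kk with hT
  have eT : HahnSeries.ofPowerSeries ℤ ↥A T =
      Ytil * HahnSeries.ofPowerSeries ℤ ↥A Sser ^ kk := by
    rw [hS, s44gt_mul_pow Ytil kk hkY u]
  have hιt : ι t = coeffMap A.subtype (HahnSeries.ofPowerSeries ℤ ↥A T) := by
    rw [ht, map_mul, map_pow, hY, hιs, eT, map_mul, map_pow]
  -- membership in `R_Q`
  have htR : t ∈ s44g_RQ h₁ h₂ Q := by
    refine ⟨?_, fun P hP => ?_⟩
    · refine s44gt_mem_of_root O (eval₂RingHom φ w⁻¹) (fun c => ?_) G hGmonic t hGt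
      rw [coe_eval₂RingHom]
      exact s44gt_eval₂_mem O φ (fun c => h₁.const_mem c) w⁻¹ h₂.w_mem c
    · have hsP : w⁻¹ ∈ P.toValuationSubring :=
        (s44g_fibre_inv h₁ h₂ Q (s44g_not_mem_of_ord h₁ h₂ Q hQ1) P hP).fst.fst
      refine s44gt_mem_of_root P.toValuationSubring (eval₂RingHom φ w⁻¹) (fun c => ?_) G hGmonic t
        hGt
      rw [coe_eval₂RingHom]
      exact s44gt_eval₂_mem P.toValuationSubring φ (fun c => P.algebraMap_mem' _) w⁻¹ hsP c
  refine ⟨t, T, G, htR, hιt, hGmonic, hGt, ?_, ?_⟩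
  · -- separability
    set ofPS : PowerSeries k →+* LaurentSeries k := HahnSeries.ofPowerSeries ℤ k with hofPS
    set sL : LaurentSeries k := ofPS (PowerSeries.map π Sser) with hsL
    set yL : LaurentSeries k := coeffMap π Ytil with hyL
    set φL : ↥A →+* LaurentSeries k := (HahnSeries.C : k →+* LaurentSeries k).comp π with hφL
    have hcomp : ofPS.comp
        (eval₂RingHom ((PowerSeries.C : k →+* PowerSeries k).comp π) (PowerSeries.map π Sser)) =
        eval₂RingHom φL sL := by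
      refine Polynomial.ringHom_ext (fun a => ?_) ?_
      · rw [RingHom.comp_apply, coe_eval₂RingHom, eval₂_C, coe_eval₂RingHom, eval₂_C,
          RingHom.comp_apply, hofPS, HahnSeries.ofPowerSeries_C]
        rfl
      · rw [RingHom.comp_apply, coe_eval₂RingHom, eval₂_X, coe_eval₂RingHom, eval₂_X]
    have eTL : ofPS (PowerSeries.map π T) = yL * sL ^ kk := by
      rw [hofPS, ← coeffMap_ofPowerSeries, eT, map_mul, map_pow, coeffMap_ofPowerSeries]
    intro h0
    have h1 := congrArg ofPS h0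
    rw [Polynomial.hom_eval₂, hcomp, map_zero, eTL, hG,
      s44gt_eval_deriv_G φL Jb sL hJb kk Gy hGy hk yL] at h1
    have hsL0 : sL ≠ 0 := by
      intro h
      rw [h, mul_zero] at hJb
      exact zero_ne_one hJb
    rcases mul_eq_zero.mp h1 with h2 | h2
    · exact pow_ne_zero _ hsL0 h2
    · exact hY5 h2
  · -- generation
    intro f
    obtain ⟨d, a, hd, hda⟩ := hY4 f
    obtain ⟨N₀, hN₀⟩ := s44gt_clear (algebraMap K F) w w⁻¹ hjs kk a y
    set N : ℕ := max N₀ d.natDegree with hN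
    obtain ⟨a', ha'⟩ := hN₀ N (le_max_left _ _)
    have hdN : (d.reflect N).eval₂ (algebraMap K F) w⁻¹ = w⁻¹ ^ N * d.eval₂ (algebraMap K F) w :=
      s44gt_eval_reflect (algebraMap K F) w w⁻¹ hjs d N (le_max_right _ _)
    refine ⟨d.reflect N, a', ?_, ?_⟩
    · rw [aeval_def, hdN]
      exact mul_ne_zero (pow_ne_zero _ hs0) (by rwa [aeval_def] at hd)
    · rw [aeval_def, hdN, ht, ha', mul_assoc]
      rw [aeval_def] at hda
      rw [hda]

set_option maxHeartbeats 800000 in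
/-- **the [GR-PRIM] transformation, general form**: the relation `G_y` need NOT be monic; integrality of `y` over
`A[w]` is given by a separate MONIC `H` (helper2's (Y3) + (Y6)). -/
theorem s44gt_transform_gen
    (ι : F →+* LaurentSeries K)
    (Q : Place k Fb) (hQ1 : Q.ord (red ⟨w, h₁.w_mem⟩) = -1)
    (Sser u : PowerSeries ↥A) (hS : Sser = PowerSeries.X * u)
    (hιs : ι w⁻¹ = coeffMap A.subtype (HahnSeries.ofPowerSeries ℤ ↥A Sser))
    -- the test element with poles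
    (y : F) (Ytil : LaurentSeries ↥A) (hY : ι y = coeffMap A.subtype Ytil)
    (Gy : (↥A)[X][X])
    (hGy0 : Gy.eval₂ (eval₂RingHom ((algebraMap K F).comp A.subtype) w) y = 0)
    (H : (↥A)[X][X]) (hH : H.Monic)
    (hH0 : H.eval₂ (eval₂RingHom ((algebraMap K F).comp A.subtype) w) y = 0)
    (Jb : LaurentSeries k)
    (hJb : Jb * HahnSeries.ofPowerSeries ℤ k (PowerSeries.map π Sser) = 1)
    (hY5 : (derivative Gy).eval₂ (eval₂RingHom ((HahnSeries.C : k →+* LaurentSeries k).comp π) Jb)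
      (coeffMap π Ytil) ≠ 0)
    (hY4 : ∀ f : F, ∃ (d : K[X]) (a : K[X][X]), aeval w d ≠ 0 ∧
      aeval w d * f = a.eval₂ (eval₂RingHom (algebraMap K F) w) y) :
    ∃ (t : F) (T : PowerSeries ↥A) (G : (↥A)[X][X]),
      t ∈ s44g_RQ h₁ h₂ Q ∧
      ι t = coeffMap A.subtype (HahnSeries.ofPowerSeries ℤ ↥A T) ∧
      G.eval₂ (eval₂RingHom ((algebraMap K F).comp A.subtype) w⁻¹) t = 0 ∧
      (derivative G).eval₂
        (eval₂RingHom ((PowerSeries.C : k →+* PowerSeries k).comp π) (PowerSeries.map π Sser))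
        (PowerSeries.map π T) ≠ 0 ∧
      ∀ f : F, ∃ (d : K[X]) (a : K[X][X]), aeval w⁻¹ d ≠ 0 ∧
        aeval w⁻¹ d * f = a.eval₂ (eval₂RingHom (algebraMap K F) w⁻¹) t := by
  classical
  haveI : Nontrivial ↥A := inferInstance
  have hw0 : w ≠ 0 := s37r_w_ne_zero h₁
  have hs0 : w⁻¹ ≠ 0 := inv_ne_zero hw0
  have hjs : w * w⁻¹ = 1 := mul_inv_cancel₀ hw0
  -- the exponents
  obtain ⟨k₂, hk₂⟩ := s44gt_exists_pole_bound Ytil
  set k₁ : ℕ := (Finset.range H.natDegree).sup fun i => (H.coeff i).natDegree with hk₁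
  set kk : ℕ := max k₁ k₂ with hkk
  set n : ℕ := Gy.natDegree with hn
  set D : ℕ := (Finset.range (n + 1)).sup fun i => (Gy.coeff i).natDegree with hD
  have hDle : ∀ i ≤ n, (Gy.coeff i).natDegree ≤ D := fun i hi =>
    Finset.le_sup (f := fun i => (Gy.coeff i).natDegree) (Finset.mem_range.mpr (Nat.lt_succ_of_le hi))
  have hk : ∀ i < H.natDegree, (H.coeff i).natDegree ≤ kk * (H.natDegree - i) := by
    intro i hi
    have h1 : (H.coeff i).natDegree ≤ k₁ :=
      Finset.le_sup (f := fun i => (H.coeff i).natDegree) (Finset.mem_range.mpr hi)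
    have h2 : k₁ ≤ kk := le_max_left _ _
    have h3 : 1 ≤ H.natDegree - i := by omega
    calc (H.coeff i).natDegree ≤ kk * 1 := by omega
      _ ≤ kk * (H.natDegree - i) := Nat.mul_le_mul_left _ h3
  have hkY : ∀ m : ℤ, m < -(kk : ℤ) → Ytil.coeff m = 0 := by
    intro m hm
    apply hk₂
    have : (k₂ : ℤ) ≤ (kk : ℤ) := by exact_mod_cast le_max_right k₁ k₂
    omega
  set φ : ↥A →+* F := (algebraMap K F).comp A.subtype with hφ
  set t : F := y * w⁻¹ ^ kk with ht
  set G : (↥A)[X][X] := s44gt_Gs kk D n Gy with hG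
  set Hs : (↥A)[X][X] := s44gt_G kk H with hHs
  have hHsmonic : Hs.Monic := s44gt_G_monic kk H
  have hGt : G.eval₂ (eval₂RingHom φ w⁻¹) t = 0 := by
    rw [hG, ht, s44gt_eval_Gs φ w w⁻¹ hjs kk D n Gy le_rfl hDle y, hGy0, mul_zero]
  have hHt : Hs.eval₂ (eval₂RingHom φ w⁻¹) t = 0 := by
    rw [hHs, ht, s44gt_eval_G φ w w⁻¹ hjs kk H hH hk y, hH0, mul_zero]
  -- the expansion of `t`
  set T : PowerSeries ↥A :=
    (PowerSeries.mk fun m : ℕ => Ytil.coeff ((m : ℤ) - kk)) * u ^ kk with hT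
  have eT : HahnSeries.ofPowerSeries ℤ ↥A T =
      Ytil * HahnSeries.ofPowerSeries ℤ ↥A Sser ^ kk := by
    rw [hS, s44gt_mul_pow Ytil kk hkY u]
  have hιt : ι t = coeffMap A.subtype (HahnSeries.ofPowerSeries ℤ ↥A T) := by
    rw [ht, map_mul, map_pow, hY, hιs, eT, map_mul, map_pow]
  -- membership in `R_Q`
  have htR : t ∈ s44g_RQ h₁ h₂ Q := by
    refine ⟨?_, fun P hP => ?_⟩
    · refine s44gt_mem_of_root O (eval₂RingHom φ w⁻¹) (fun c => ?_) Hs hHsmonic t hHt
      rw [coe_eval₂RingHom]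
      exact s44gt_eval₂_mem O φ (fun c => h₁.const_mem c) w⁻¹ h₂.w_mem c
    · have hsP : w⁻¹ ∈ P.toValuationSubring :=
        (s44g_fibre_inv h₁ h₂ Q (s44g_not_mem_of_ord h₁ h₂ Q hQ1) P hP).fst.fst
      refine s44gt_mem_of_root P.toValuationSubring (eval₂RingHom φ w⁻¹) (fun c => ?_) Hs hHsmonic t
        hHt
      rw [coe_eval₂RingHom]
      exact s44gt_eval₂_mem P.toValuationSubring φ (fun c => P.algebraMap_mem' _) w⁻¹ hsP c
  refine ⟨t, T, G, htR, hιt, hGt, ?_, ?_⟩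
  · -- separability
    set ofPS : PowerSeries k →+* LaurentSeries k := HahnSeries.ofPowerSeries ℤ k with hofPS
    set sL : LaurentSeries k := ofPS (PowerSeries.map π Sser) with hsL
    set yL : LaurentSeries k := coeffMap π Ytil with hyL
    set φL : ↥A →+* LaurentSeries k := (HahnSeries.C : k →+* LaurentSeries k).comp π with hφL
    have hcomp : ofPS.comp
        (eval₂RingHom ((PowerSeries.C : k →+* PowerSeries k).comp π) (PowerSeries.map π Sser)) =
        eval₂RingHom φL sL := by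
      refine Polynomial.ringHom_ext (fun a => ?_) ?_
      · rw [RingHom.comp_apply, coe_eval₂RingHom, eval₂_C, coe_eval₂RingHom, eval₂_C,
          RingHom.comp_apply, hofPS, HahnSeries.ofPowerSeries_C]
        rfl
      · rw [RingHom.comp_apply, coe_eval₂RingHom, eval₂_X, coe_eval₂RingHom, eval₂_X]
    have eTL : ofPS (PowerSeries.map π T) = yL * sL ^ kk := by
      rw [hofPS, ← coeffMap_ofPowerSeries, eT, map_mul, map_pow, coeffMap_ofPowerSeries]
    intro h0
    have h1 := congrArg ofPS h0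
    rw [Polynomial.hom_eval₂, hcomp, map_zero, eTL, hG,
      s44gt_eval_deriv_Gs φL Jb sL hJb kk D n Gy le_rfl hDle yL] at h1
    have hsL0 : sL ≠ 0 := by
      intro h
      rw [h, mul_zero] at hJb
      exact zero_ne_one hJb
    rcases mul_eq_zero.mp h1 with h2 | h2
    · exact pow_ne_zero _ hsL0 h2
    · exact hY5 h2
  · -- generation
    intro f
    obtain ⟨d, a, hd, hda⟩ := hY4 f
    obtain ⟨N₀, hN₀⟩ := s44gt_clear (algebraMap K F) w w⁻¹ hjs kk a y
    set N : ℕ := max N₀ d.natDegree with hN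
    obtain ⟨a', ha'⟩ := hN₀ N (le_max_left _ _)
    have hdN : (d.reflect N).eval₂ (algebraMap K F) w⁻¹ = w⁻¹ ^ N * d.eval₂ (algebraMap K F) w :=
      s44gt_eval_reflect (algebraMap K F) w w⁻¹ hjs d N (le_max_right _ _)
    refine ⟨d.reflect N, a', ?_, ?_⟩
    · rw [aeval_def, hdN]
      exact mul_ne_zero (pow_ne_zero _ hs0) (by rwa [aeval_def] at hd)
    · rw [aeval_def, hdN, ht, ha', mul_assoc]
      rw [aeval_def] at hda
      rw [hda]

end Fermat.Agent.Lib.S44
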