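/-
M-AT-P (S44), W4′ [GR] (helper7, prefix `s44gt_`): **BRIDGE from helper2's [GR-Y] output (`s44g_y_main`, sum form in
`ℚ̄((q))`, `κ((q))`, `A((q))`) to the input of `s44gt_transform_gen`** at the concrete level
`F = modularFunctionFieldBar M ⊂ ℚ̄((q))`, `w = s18g_jF M` (`= jqModC ℚ̄`), `ι = ` the inclusion.

`s44gt_input_of_y` : from (Y1), (Y3), (Y5), (Y4), (Y6) (the ∃-body of `s44g_y_main`, `π : A →+* k` any ring hom to a
field) the polynomial data `G_y, H ∈ A[X][Y]`, `H` monic, `G_y(w, y) = 0 = H(w, y)` in `F`,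
`(∂_Y Ḡ_y)(j̄(q), ȳ) ≠ 0`, and the generation clause — literally the hypotheses `hGy0 hH hH0 hY5 hY4` of
`s44gt_transform_gen` with `Jb := jqModC k`.
-/
import Fermat.Agent.Lib.S44.GTrans
import Fermat.Agent.Lib.S18.BGen
import Fermat.Prelude.Def_ModularCurve_X0ModL
import Fermat.Prelude.Def_ModularCurve_ArithmeticGalois

set_option autoImplicit false
set_option linter.unusedSectionVars false
set_option linter.style.haveILetI false

noncomputable section

namespace Fermat.Agent.Lib.S44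

open AlgebraicCurve ModularCurve Polynomial Fermat.Agent.Lib.FF Fermat.Agent.Lib.S18

local notation "Qb" => AlgebraicClosure ℚ

section Poly

variable {R E : Type*} [CommRing R] [CommRing E]

/-- the polynomial `Σ_i c_i Yⁱ`. -/
def s44gt_poly {n : ℕ} (c : Fin n → R) : R[X] := ∑ i : Fin n, monomial (i : ℕ) (c i)

theorem s44gt_poly_eval₂ {n : ℕ} (c : Fin n → R) (ψ : R →+* E) (y : E) :
    (s44gt_poly c).eval₂ ψ y = ∑ i : Fin n, ψ (c i) * y ^ (i : ℕ) := by
  rw [s44gt_poly, eval₂_finset_sum]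
  exact Finset.sum_congr rfl fun i _ => eval₂_monomial ψ y

theorem s44gt_poly_deriv_eval₂ {n : ℕ} (c : Fin n → R) (ψ : R →+* E) (y : E) :
    (derivative (s44gt_poly c)).eval₂ ψ y =
      ∑ i : Fin n, ψ (c i) * ((i : ℕ) : E) * y ^ ((i : ℕ) - 1) := by
  rw [s44gt_poly, derivative_sum, eval₂_finset_sum]
  refine Finset.sum_congr rfl fun i _ => ?_
  rw [derivative_monomial, eval₂_monomial, map_mul, map_natCast]

/-- constants of `R((q))`. -/
theorem s44gt_algebraMap_laurent (a : R) : algebraMap R (LaurentSeries R) a = HahnSeries.C a := by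
  rw [HahnSeries.algebraMap_apply', ← HahnSeries.ofPowerSeries_C]
  rfl

end Poly

variable (A : ValuationSubring Qb) (M : ℕ) [NeZero M]

/-- the evaluation `c ↦ c(w)` of `A[X]` in `F`, read in `ℚ̄((q))`. -/
theorem s44gt_coe_eval (c : (↥A)[X]) :
    ((eval₂RingHom ((algebraMap Qb ↥(modularFunctionFieldBar M)).comp A.subtype)
      (s18g_jF (K := Qb) M) c : ↥(modularFunctionFieldBar M)) : LaurentSeries Qb) =
      aeval (jqModC Qb) (c.map A.subtype) := by
  rw [coe_eval₂RingHom, aeval_def, eval₂_map]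
  have h := Polynomial.hom_eval₂ c ((algebraMap Qb ↥(modularFunctionFieldBar M)).comp A.subtype)
    ((modularFunctionFieldBar M).val : ↥(modularFunctionFieldBar M) →+* LaurentSeries Qb)
    (s18g_jF (K := Qb) M)
  exact h

/-- the same over `ℚ̄`. -/
theorem s44gt_coe_eval_K (c : Qb[X]) :
    ((eval₂RingHom (algebraMap Qb ↥(modularFunctionFieldBar M))
      (s18g_jF (K := Qb) M) c : ↥(modularFunctionFieldBar M)) : LaurentSeries Qb) =
      aeval (jqModC Qb) c := by
  rw [coe_eval₂RingHom, aeval_def]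
  have h := Polynomial.hom_eval₂ c (algebraMap Qb ↥(modularFunctionFieldBar M))
    ((modularFunctionFieldBar M).val : ↥(modularFunctionFieldBar M) →+* LaurentSeries Qb)
    (s18g_jF (K := Qb) M)
  exact h

theorem s44gt_coe_aeval (c : Qb[X]) :
    ((aeval (s18g_jF (K := Qb) M) c : ↥(modularFunctionFieldBar M)) : LaurentSeries Qb) =
      aeval (jqModC Qb) c := by
  rw [aeval_def, ← coe_eval₂RingHom]
  exact s44gt_coe_eval_K M c

variable {k : Type*} [Field k] (π : ↥A →+* k)

set_option maxHeartbeats 800000 in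
/-- **the bridge** (see the header). -/
theorem s44gt_input_of_y (n : ℕ) (Y : LaurentSeries ↥A) (C : Fin (n + 1) → (↥A)[X])
    (hY1 : coeffMap A.subtype Y ∈ modularFunctionFieldBar M)
    (hY3 : ∑ i : Fin (n + 1), aeval (jqModC Qb) ((C i).map A.subtype) *
      (coeffMap A.subtype Y) ^ (i : ℕ) = 0)
    (hY5 : ∑ i : Fin (n + 1), aeval (jqModC k) ((C i).map π) * ((i : ℕ) : LaurentSeries k) *
      (coeffMap π Y) ^ ((i : ℕ) - 1) ≠ 0)
    (hY4 : ∀ f ∈ modularFunctionFieldBar M, ∃ (a : Qb[X]) (c : Fin n → Qb[X]), a ≠ 0 ∧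
      aeval (jqModC Qb) a * f =
        ∑ i : Fin n, aeval (jqModC Qb) (c i) * (coeffMap A.subtype Y) ^ (i : ℕ))
    (hY6 : ((aeval (jqModC ↥A) : (↥A)[X] →ₐ[↥A] LaurentSeries ↥A) :
      (↥A)[X] →+* LaurentSeries ↥A).IsIntegralElem Y) :
    ∃ (Gy H : (↥A)[X][X]), H.Monic ∧
      Gy.eval₂ (eval₂RingHom ((algebraMap Qb ↥(modularFunctionFieldBar M)).comp A.subtype)
        (s18g_jF (K := Qb) M)) (⟨coeffMap A.subtype Y, hY1⟩ : ↥(modularFunctionFieldBar M)) = 0 ∧
      H.eval₂ (eval₂RingHom ((algebraMap Qb ↥(modularFunctionFieldBar M)).comp A.subtype)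
        (s18g_jF (K := Qb) M)) (⟨coeffMap A.subtype Y, hY1⟩ : ↥(modularFunctionFieldBar M)) = 0 ∧
      (derivative Gy).eval₂
        (eval₂RingHom ((HahnSeries.C : k →+* LaurentSeries k).comp π) (jqModC k))
        (coeffMap π Y) ≠ 0 ∧
      ∀ f : ↥(modularFunctionFieldBar M), ∃ (d : Qb[X]) (a : Qb[X][X]),
        aeval (s18g_jF (K := Qb) M) d ≠ 0 ∧
        aeval (s18g_jF (K := Qb) M) d * f =
          a.eval₂ (eval₂RingHom (algebraMap Qb ↥(modularFunctionFieldBar M))
            (s18g_jF (K := Qb) M)) (⟨coeffMap A.subtype Y, hY1⟩ : ↥(modularFunctionFieldBar M)) := by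
  obtain ⟨H, hHmonic, hH0⟩ := hY6
  set y : ↥(modularFunctionFieldBar M) := ⟨coeffMap A.subtype Y, hY1⟩ with hy
  -- evaluation of a polynomial of `A[X][Y]` at `(w, y)`, read in `ℚ̄((q))`
  have hcoe : ∀ P : (↥A)[X][X],
      ((P.eval₂ (eval₂RingHom ((algebraMap Qb ↥(modularFunctionFieldBar M)).comp A.subtype)
        (s18g_jF (K := Qb) M)) y : ↥(modularFunctionFieldBar M)) : LaurentSeries Qb) =
      P.eval₂ ((coeffMap A.subtype).comp
        ((aeval (jqModC ↥A) : (↥A)[X] →ₐ[↥A] LaurentSeries ↥A) : (↥A)[X] →+* LaurentSeries ↥A))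
        (coeffMap A.subtype Y) := by
    intro P
    have h := Polynomial.hom_eval₂ P
      (eval₂RingHom ((algebraMap Qb ↥(modularFunctionFieldBar M)).comp A.subtype)
        (s18g_jF (K := Qb) M))
      ((modularFunctionFieldBar M).val : ↥(modularFunctionFieldBar M) →+* LaurentSeries Qb) y
    refine h.trans ?_
    congr 1
    refine RingHom.ext fun c => ?_
    rw [RingHom.comp_apply, RingHom.comp_apply]
    refine (s44gt_coe_eval A M c).trans ?_
    have h2 := Polynomial.hom_eval₂ c (algebraMap ↥A (LaurentSeries ↥A)) (coeffMap A.subtype)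
      (jqModC ↥A)
    rw [coeffMap_jqModC] at h2
    rw [aeval_def, eval₂_map]
    refine Eq.trans ?_ h2.symm
    congr 1
    refine RingHom.ext fun a => ?_
    rw [RingHom.comp_apply, RingHom.comp_apply, s44gt_algebraMap_laurent,
      s44gt_algebraMap_laurent, HahnSeries.C_apply, HahnSeries.C_apply, coeffMap_single]
  refine ⟨s44gt_poly C, H, hHmonic, ?_, ?_, ?_, ?_⟩
  · apply Subtype.ext
    rw [hcoe, s44gt_poly_eval₂]
    rw [ZeroMemClass.coe_zero]
    refine Eq.trans (Finset.sum_congr rfl fun i _ => ?_) hY3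
    congr 1
    rw [RingHom.comp_apply]
    have h2 := Polynomial.hom_eval₂ (C i) (algebraMap ↥A (LaurentSeries ↥A)) (coeffMap A.subtype)
      (jqModC ↥A)
    rw [coeffMap_jqModC] at h2
    rw [aeval_def, eval₂_map]
    refine Eq.trans h2 ?_
    congr 1
    refine RingHom.ext fun a => ?_
    rw [RingHom.comp_apply, RingHom.comp_apply, s44gt_algebraMap_laurent,
      s44gt_algebraMap_laurent, HahnSeries.C_apply, HahnSeries.C_apply, coeffMap_single]
  · apply Subtype.ext
    rw [hcoe, ← Polynomial.hom_eval₂, ZeroMemClass.coe_zero]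
    have : H.eval₂ ((aeval (jqModC ↥A) : (↥A)[X] →ₐ[↥A] LaurentSeries ↥A) :
        (↥A)[X] →+* LaurentSeries ↥A) Y = 0 := hH0
    rw [this, map_zero]
  · rw [s44gt_poly_deriv_eval₂]
    intro h0
    apply hY5
    refine Eq.trans (Finset.sum_congr rfl fun i _ => ?_) h0
    congr 2
    rw [coe_eval₂RingHom, aeval_def, eval₂_map]
    congr 1
    refine RingHom.ext fun a => ?_
    rw [RingHom.comp_apply, RingHom.comp_apply, s44gt_algebraMap_laurent]
  · intro f
    obtain ⟨a, c, ha, hac⟩ := hY4 (f : LaurentSeries Qb) f.2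
    refine ⟨a, s44gt_poly c, ?_, ?_⟩
    · intro h0
      exact ha ((transcendental_iff.mp (s18b_transcendental_jF (K := Qb) M)) a h0)
    · apply Subtype.ext
      have h := Polynomial.hom_eval₂ (s44gt_poly c)
        (eval₂RingHom (algebraMap Qb ↥(modularFunctionFieldBar M)) (s18g_jF (K := Qb) M))
        ((modularFunctionFieldBar M).val : ↥(modularFunctionFieldBar M) →+* LaurentSeries Qb) y
      rw [MulMemClass.coe_mul, s44gt_coe_aeval, hac]
      refine Eq.trans ?_ h.symm
      rw [s44gt_poly_eval₂]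
      refine Finset.sum_congr rfl fun i _ => ?_
      congr 1
      rw [RingHom.comp_apply]
      exact (s44gt_coe_eval_K M (c i)).symm

end Fermat.Agent.Lib.S44
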