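/-
M-AT-P (S44), W4′ [GR] (helper6), FINAL WIRING, part 2: **the top-level statements (a), (b) of [GR]**
(helper4's `s44gd_HypA`, `s44gd_HypB`) for every valuation subring `A ⊆ ℚ̄` above a prime `p ≥ 5`,
`p ∤ M` — from helper5's chart packages (`GInst`), helper3's series `S = 1/j(q)` (`GSser`), helper2's test
element (`GPrim`), helper7's transformation (`GTransI`, `GTransF`), the cusp theorem (`GCusp`, via
`GFinal`) and helper9's `GTopW`; and the resulting `s44h_GR`-shaped statement `s44gd_GR`.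
-/
import Fermat.Agent.Lib.S44.GFinal
import Fermat.Agent.Lib.S44.GInst
import Fermat.Agent.Lib.S44.GSser
import Fermat.Agent.Lib.S44.GPrim
import Fermat.Agent.Lib.S44.GTransI
import Fermat.Agent.Lib.S44.GTransF
import Fermat.Agent.Lib.S44.GDesc3

set_option autoImplicit false
set_option linter.style.haveILetI false
set_option linter.unusedSectionVars false
set_option synthInstance.maxHeartbeats 400000
set_option maxHeartbeats 1600000

noncomputable section

namespace Fermat.Agent.Lib.S44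

open ModularCurve HahnSeries AlgebraicCurve Fermat.Agent.Lib.S18 Fermat.Agent.Lib.FF
  Fermat.Agent.Lib.S37 Fermat.Agent.Lib.S29

local notation "Qbar" => AlgebraicClosure ℚ

/-- **[GR] at top level**: (a) bounded denominators and (b) good reduction off `∞` of the ring
`B = s44r_B ℚ̄ M`, for every valuation subring of `ℚ̄` above a prime `p ≥ 5`, `p ∤ M`. -/
theorem s44g_f_top (A : ValuationSubring Qbar) (M : ℕ) [NeZero M] {p : ℕ} [Fact p.Prime]
    (hA : A.LiesOverPrime p) (hpM : ¬ p ∣ M) (h5 : 5 ≤ p)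
    [IsAlgClosed (IsLocalRing.ResidueField ↥A)] :
    s44gd_HypA M A ∧ s44gd_HypB M A := by
  haveI : FFGen Qbar (ffd_jBar M) := s18r_ffGen M
  obtain ⟨D₁, i1, i2, i3, i4, i5, i6, PsiD₁, D₂, j1, j2, j3, j4, j5, j6, PsiD₂, h₁, h₂⟩ :=
    s44g_i_charts A M hA hpM h5
  have hQ1 := s44g_i_ord_red_j A M hA hpM h₁.w_mem
  obtain ⟨n, Y, C, hY1, -, hY3, hY5, hY4, hY6⟩ := s44g_y_main A M hA hpM
  obtain ⟨Gy, H, hH, hGy0, hH0, hY5', hY4'⟩ :=
    s44gt_input_of_y A M (IsLocalRing.residue ↥A) n Y C hY1 hY3 hY5 hY4 hY6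
  obtain ⟨t, T, G, ht, hT, hG, hsep, hgen⟩ :=
    s44gt_transform_gen h₁ h₂
      ((modularFunctionFieldBar M).val : ↥(modularFunctionFieldBar M) →+* _)
      (s44h_fbarInf (IsLocalRing.ResidueField ↥A) M) hQ1 (s44g_sSer ↥A) (s44g_sUr ↥A)
      (s44g_sSer_eq ↥A) (s44g_s_iota A M) ⟨coeffMap A.subtype Y, hY1⟩ Y rfl Gy hGy0 H hH hH0
      (jqModC (IsLocalRing.ResidueField ↥A)) (s44g_s_Jb A (IsLocalRing.residue ↥A)) hY5' hY4'
  exact s44g_f_ab A M hA hpM h₁ h₂ hQ1 (s44g_sSer ↥A) (s44g_sUr ↥A) (s44g_sVr ↥A)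
    (s44g_sUr_mul_sVr ↥A) (s44g_sSer_eq ↥A) (s44g_s_iota A M) (jqModC ↥A) (s44g_tw_W_j A M)
    t ht T hT G hG hsep hgen

/-- **[GR] at all finite levels** (`s44gd_GR` = the body of helper3's `s44h_GR`). -/
theorem s44g_f_gr : s44gd_GR :=
  s44gd_gr
    (fun M _ p _ h5 hpM P hP =>
      haveI := s18n_isAlgClosed_residueField P
      (s44g_f_top P M hP hpM h5).1)
    (fun M _ p _ h5 hpM P hP =>
      haveI := s18n_isAlgClosed_residueField P
      (s44g_f_top P M hP hpM h5).2)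

end Fermat.Agent.Lib.S44
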