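/-
M-AT-P programme (S44), W4, brick (d), part 1 (helper3): formal glue for the final assembly.

* `s44h_coeffMap_theta`, `s44h_coeffMap_dlog` : `θ` and `dlog` commute with coefficientwise field maps;
* `s44h_eig_coeff`  : the series identity `U_ℓ Φ + ℓ · V_ℓ Φ = a · Φ` read on coefficients:
                      `Φ_{nℓ} + [ℓ ∣ n] ℓ Φ_{n/ℓ} = a Φ_n`;
* `s44h_eig_descend`: the coefficient identity descends along an injective coefficient map.
-/
import Fermat.Agent.Lib.S44.HThetaLog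

set_option autoImplicit false
set_option linter.style.haveILetI false
set_option linter.unusedSectionVars false

noncomputable section

open HahnSeries ModularCurve Fermat.Agent.Lib.FF Fermat.Agent.Lib.S33

namespace Fermat.Agent.Lib.S44

section CoeffMap

variable {κ₀ κ : Type*} [Field κ₀] [Field κ] (ψ : κ₀ →+* κ)

theorem s44h_coeffMap_theta (Y : LaurentSeries κ₀) :
    coeffMap ψ (ffd_theta Y) = ffd_theta (coeffMap ψ Y) := by
  ext n
  rw [coeffMap_coeff, ffd_theta_coeff, ffd_theta_coeff, coeffMap_coeff, map_mul, map_intCast]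

theorem s44h_coeffMap_dlog (Y : LaurentSeries κ₀) :
    coeffMap ψ (s44h_dlog Y) = s44h_dlog (coeffMap ψ Y) := by
  unfold s44h_dlog
  rw [map_mul, map_inv₀, s44h_coeffMap_theta]

end CoeffMap

section Eig

variable {k : Type*} [Field k] (ℓ : ℕ) [NeZero ℓ]

/-- the eigen-equation on coefficients. -/
theorem s44h_eig_coeff (Φ : LaurentSeries k) (a : k)
    (h : s33t_U ℓ Φ + HahnSeries.C ((ℓ : ℕ) : k) * qExpand k ℓ Φ = HahnSeries.C a * Φ) (n : ℕ) :
    Φ.coeff (((n * ℓ : ℕ) : ℤ)) +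
        (if ℓ ∣ n then ((ℓ : ℕ) : k) * Φ.coeff (((n / ℓ : ℕ) : ℤ)) else 0) =
      a * Φ.coeff ((n : ℕ) : ℤ) := by
  have h1 := congrArg (fun s : LaurentSeries k => s.coeff ((n : ℕ) : ℤ)) h
  simp only [HahnSeries.coeff_add, s33t_U_coeff, HahnSeries.C_mul_eq_smul, HahnSeries.coeff_smul,
    smul_eq_mul] at h1
  rw [← h1]
  congr 1
  · congr 1
    push_cast
    ring
  · by_cases hd : ℓ ∣ n
    · rw [if_pos hd]
      obtain ⟨m, rfl⟩ := hd
      congr 1
      have hℓ : 0 < ℓ := Nat.pos_of_ne_zero (NeZero.ne ℓ)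
      rw [Nat.mul_div_cancel_left m hℓ]
      push_cast
      rw [qExpand_coeff_mul]
    · rw [if_neg hd, qExpand_coeff_of_not_dvd, mul_zero]
      intro hdvd
      exact hd (by exact_mod_cast hdvd)

/-- the coefficient identity descends along an injective coefficient map. -/
theorem s44h_eig_descend {κ₀ : Type*} [Field κ₀] (ψ : κ₀ →+* k) (Ψ : LaurentSeries κ₀) (a : ℤ)
    (h : s33t_U ℓ (coeffMap ψ Ψ) + HahnSeries.C ((ℓ : ℕ) : k) * qExpand k ℓ (coeffMap ψ Ψ) =
      HahnSeries.C ((a : ℤ) : k) * coeffMap ψ Ψ) (n : ℕ) :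
    Ψ.coeff (((n * ℓ : ℕ) : ℤ)) +
        (if ℓ ∣ n then ((ℓ : ℕ) : κ₀) * Ψ.coeff (((n / ℓ : ℕ) : ℤ)) else 0) =
      ((a : ℤ) : κ₀) * Ψ.coeff ((n : ℕ) : ℤ) := by
  apply ψ.injective
  have := s44h_eig_coeff ℓ (coeffMap ψ Ψ) ((a : ℤ) : k) h n
  simp only [coeffMap_coeff] at this
  rw [map_add, map_mul, map_intCast]
  by_cases hd : ℓ ∣ n
  · rw [if_pos hd] at this ⊢
    rw [map_mul, map_natCast]
    exact this
  · rw [if_neg hd] at this ⊢
    rw [map_zero]
    exact this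

end Eig

end Fermat.Agent.Lib.S44
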