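/-
M-AT-P programme (S44), brick (E-J) (helper3, prefix s44h_): the logarithmic derivative
`dlog Y = θ(Y)/Y` (`θ = q d/dq`) on `k((q))` turns the Kummer-side Hecke operator
`N_ℓ(Y)(q) = Y(q^ℓ) ∏_b Y(ζ^b q^{1/ℓ})` into the weight-2 Hecke operator `T_ℓ = U_ℓ + ℓ V_ℓ` on
`q`-expansions:

* `s44h_dlog_N`       : `dlog (N_ℓ Y) = U_ℓ (dlog Y) + ℓ · (dlog Y)(q^ℓ)`;
* `s44h_dlog_pow_char`: `dlog (u^p) = 0` in characteristic `p`;
* `s44h_Tl_dlog_of_eigen` : `N_ℓ Y = c · Y^a · u^p` (char `p`) ⇒ `T_ℓ (dlog Y) = a · dlog Y`.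
-/
import Fermat.Agent.Lib.S44.HTauCong
import Fermat.Agent.Lib.FF.LaurentDeriv

set_option autoImplicit false
set_option linter.style.haveILetI false
set_option linter.unusedSectionVars false

namespace Fermat.Agent.Lib.S44

open ModularCurve HahnSeries Fermat.Agent.Lib.FF Fermat.Agent.Lib.S28 Fermat.Agent.Lib.S37
  Fermat.Agent.Lib.S33

noncomputable section

variable {k : Type*} [Field k]

/-! ### `θ` and the series operators -/

theorem s44h_theta_C (c : k) : ffd_theta (HahnSeries.C c : LaurentSeries k) = 0 := by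
  ext n
  rw [ffd_theta_coeff, HahnSeries.coeff_zero]
  by_cases hn : n = 0
  · subst hn; simp
  · rw [HahnSeries.C_apply, HahnSeries.coeff_single_of_ne hn, mul_zero]

theorem s44h_theta_one : ffd_theta (1 : LaurentSeries k) = 0 := by
  have := s44h_theta_C (1 : k)
  rwa [map_one] at this

theorem s44h_theta_C_mul (c : k) (f : LaurentSeries k) :
    ffd_theta (HahnSeries.C c * f) = HahnSeries.C c * ffd_theta f := by
  rw [ffd_theta_mul, s44h_theta_C, mul_zero, add_zero]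

theorem s44h_theta_qExpand (n : ℕ) [NeZero n] (f : LaurentSeries k) :
    ffd_theta (qExpand k n f) = HahnSeries.C (n : k) * qExpand k n (ffd_theta f) := by
  ext m
  rw [ffd_theta_coeff, HahnSeries.C_mul_eq_smul, HahnSeries.coeff_smul, smul_eq_mul]
  by_cases hm : (n : ℤ) ∣ m
  · obtain ⟨j, rfl⟩ := hm
    rw [qExpand_coeff_mul, qExpand_coeff_mul, ffd_theta_coeff]
    push_cast
    ring
  · rw [qExpand_coeff_of_not_dvd n _ hm, qExpand_coeff_of_not_dvd n _ hm, mul_zero, mul_zero]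

theorem s44h_theta_tw (c : kˣ) (f : LaurentSeries k) :
    ffd_theta (s28m_tw c f) = s28m_tw c (ffd_theta f) := by
  ext m
  rw [ffd_theta_coeff, s28m_tw_coeff, s28m_tw_coeff, ffd_theta_coeff]
  ring

/-! ### The logarithmic derivative -/

/-- `dlog Y = θ(Y)/Y`. -/
def s44h_dlog (Y : LaurentSeries k) : LaurentSeries k := ffd_theta Y * Y⁻¹

theorem s44h_dlog_mul {Y Y' : LaurentSeries k} (hY : Y ≠ 0) (hY' : Y' ≠ 0) :
    s44h_dlog (Y * Y') = s44h_dlog Y + s44h_dlog Y' := by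
  unfold s44h_dlog
  rw [ffd_theta_mul, mul_inv]
  field_simp
  ring

theorem s44h_dlog_C (c : k) : s44h_dlog (HahnSeries.C c : LaurentSeries k) = 0 := by
  unfold s44h_dlog
  rw [s44h_theta_C, zero_mul]

theorem s44h_dlog_one : s44h_dlog (1 : LaurentSeries k) = 0 := by
  unfold s44h_dlog
  rw [s44h_theta_one, zero_mul]

theorem s44h_dlog_pow {Y : LaurentSeries k} (hY : Y ≠ 0) (n : ℕ) :
    s44h_dlog (Y ^ n) = HahnSeries.C (n : k) * s44h_dlog Y := by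
  induction n with
  | zero => rw [pow_zero, s44h_dlog_one, Nat.cast_zero, map_zero, zero_mul]
  | succ n ih =>
    rw [pow_succ, s44h_dlog_mul (pow_ne_zero n hY) hY, ih, Nat.cast_succ, map_add, map_one]
    ring

theorem s44h_dlog_inv {Y : LaurentSeries k} (hY : Y ≠ 0) :
    s44h_dlog Y⁻¹ = - s44h_dlog Y := by
  have h := s44h_dlog_mul hY (inv_ne_zero hY)
  rw [mul_inv_cancel₀ hY, s44h_dlog_one] at h
  exact eq_neg_of_add_eq_zero_right h.symm

theorem s44h_dlog_zpow {Y : LaurentSeries k} (hY : Y ≠ 0) (n : ℤ) :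
    s44h_dlog (Y ^ n) = HahnSeries.C (n : k) * s44h_dlog Y := by
  cases n with
  | ofNat m =>
    simp only [Int.ofNat_eq_natCast, zpow_natCast, Int.cast_natCast]
    exact s44h_dlog_pow hY m
  | negSucc m =>
    rw [zpow_negSucc, s44h_dlog_inv (pow_ne_zero _ hY), s44h_dlog_pow hY, Int.cast_negSucc,
      map_neg]
    ring

theorem s44h_dlog_prod {ι : Type*} [DecidableEq ι] (s : Finset ι) (f : ι → LaurentSeries k)
    (hf : ∀ i ∈ s, f i ≠ 0) : s44h_dlog (∏ i ∈ s, f i) = ∑ i ∈ s, s44h_dlog (f i) := by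
  induction s using Finset.induction_on with
  | empty => simp [s44h_dlog_one]
  | insert a s ha ih =>
    rw [Finset.prod_insert ha, Finset.sum_insert ha,
      s44h_dlog_mul (hf a (Finset.mem_insert_self a s))
        (Finset.prod_ne_zero_iff.mpr fun i hi => hf i (Finset.mem_insert_of_mem hi)),
      ih fun i hi => hf i (Finset.mem_insert_of_mem hi)]

theorem s44h_dlog_qExpand (n : ℕ) [NeZero n] (Y : LaurentSeries k) :
    s44h_dlog (qExpand k n Y) = HahnSeries.C (n : k) * qExpand k n (s44h_dlog Y) := by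
  unfold s44h_dlog
  rw [s44h_theta_qExpand, map_mul, map_inv₀, mul_assoc]

theorem s44h_dlog_tw (c : kˣ) (Y : LaurentSeries k) :
    s44h_dlog (s28m_tw c Y) = s28m_tw c (s44h_dlog Y) := by
  unfold s44h_dlog
  rw [s44h_theta_tw, map_mul, map_inv₀]

/-- in characteristic `p`, `dlog (u^p) = 0`. -/
theorem s44h_dlog_pow_char (p : ℕ) [CharP k p] {u : LaurentSeries k} (hu : u ≠ 0) :
    s44h_dlog (u ^ p) = 0 := by
  rw [s44h_dlog_pow hu, CharP.cast_eq_zero, map_zero, zero_mul]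

/-! ### `dlog` of the norm -/

section Norm

variable (ℓ : ℕ) [NeZero ℓ] (ζ : kˣ)

theorem s44h_dlog_P {Y : LaurentSeries k} (hY : Y ≠ 0) :
    s44h_dlog (s33t_P ℓ ζ Y) =
      HahnSeries.C ((ℓ * ℓ : ℕ) : k) * qExpand k (ℓ * ℓ) (s44h_dlog Y) +
        ∑ b ∈ Finset.range ℓ, s28m_tw (ζ ^ b) (s44h_dlog Y) := by
  classical
  unfold s33t_P s37e_prodTw
  have h1 : qExpand k (ℓ * ℓ) Y ≠ 0 := fun h =>
    hY (qExpand_injective (ℓ * ℓ) (by rw [h, map_zero]))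
  have h2 : ∀ b ∈ Finset.range ℓ, s28m_tw (ζ ^ b) Y ≠ 0 := fun b _ h =>
    hY (s28m_tw_injective (ζ ^ b) (by rw [h, map_zero]))
  rw [s44h_dlog_mul h1 (Finset.prod_ne_zero_iff.mpr h2), s44h_dlog_qExpand,
    s44h_dlog_prod _ _ h2]
  congr 1
  exact Finset.sum_congr rfl fun b _ => s44h_dlog_tw _ _

/-- **(E-J)**: `dlog (N_ℓ Y) = U_ℓ (dlog Y) + ℓ · V_ℓ (dlog Y)`. -/
theorem s44h_dlog_N (hζ : IsPrimitiveRoot (ζ : k) ℓ) {Y : LaurentSeries k} (hY : Y ≠ 0) :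
    s44h_dlog (s33t_N ℓ ζ Y) =
      s33t_U ℓ (s44h_dlog Y) + HahnSeries.C (ℓ : k) * qExpand k ℓ (s44h_dlog Y) := by
  haveI : NeZero ((ℓ : ℕ) : k) := hζ.neZero'
  have hℓ0 : (HahnSeries.C (ℓ : k) : LaurentSeries k) ≠ 0 := by
    intro h
    have := (map_eq_zero_iff (HahnSeries.C : k →+* LaurentSeries k) HahnSeries.C_injective).mp h
    exact NeZero.ne ((ℓ : ℕ) : k) this
  have hP := s44h_P_eq_qExpand_N ℓ ζ hζ Y
  have hA := s44h_dlog_qExpand ℓ (s33t_N ℓ ζ Y)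
  rw [← hP, s44h_dlog_P ℓ ζ hY, s33t_sum_tw ℓ ζ hζ] at hA
  -- `C(ℓℓ) V_{ℓℓ} φ + C ℓ · V_ℓ U φ = C ℓ · V_ℓ (dlog N)`
  have hB : HahnSeries.C (ℓ : k) * qExpand k ℓ
      (s33t_U ℓ (s44h_dlog Y) + HahnSeries.C (ℓ : k) * qExpand k ℓ (s44h_dlog Y)) =
      HahnSeries.C (ℓ : k) * qExpand k ℓ (s44h_dlog (s33t_N ℓ ζ Y)) := by
    rw [← hA, map_add, map_mul, qExpand_C, qExpand_qExpand, Nat.cast_mul, map_mul]
    ring
  exact (qExpand_injective ℓ (mul_left_cancel₀ hℓ0 hB)).symm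

/-- **Kummer-eigen ⇒ Hecke-eigen**: if `N_ℓ Y = c · Y^a · u^p` in characteristic `p`, then
`T_ℓ (dlog Y) = a · dlog Y`. -/
theorem s44h_Tl_dlog_of_eigen (p : ℕ) [CharP k p] (hζ : IsPrimitiveRoot (ζ : k) ℓ)
    {Y u : LaurentSeries k} (hY : Y ≠ 0) (hu : u ≠ 0) {c : k} (hc : c ≠ 0) (a : ℤ)
    (h : s33t_N ℓ ζ Y = HahnSeries.C c * Y ^ a * u ^ p) :
    s33t_U ℓ (s44h_dlog Y) + HahnSeries.C (ℓ : k) * qExpand k ℓ (s44h_dlog Y) =
      HahnSeries.C (a : k) * s44h_dlog Y := by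
  have hc0 : (HahnSeries.C c : LaurentSeries k) ≠ 0 := by
    intro h0
    exact hc ((map_eq_zero_iff (HahnSeries.C : k →+* LaurentSeries k)
      HahnSeries.C_injective).mp h0)
  rw [← s44h_dlog_N ℓ ζ hζ hY, h,
    s44h_dlog_mul (mul_ne_zero hc0 (zpow_ne_zero a hY)) (pow_ne_zero p hu),
    s44h_dlog_mul hc0 (zpow_ne_zero a hY), s44h_dlog_C, s44h_dlog_pow_char p hu,
    s44h_dlog_zpow hY, zero_add, add_zero]

end Norm

end

end Fermat.Agent.Lib.S44
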