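/-
M-AT-P programme (S44), W4, brick (c-glue) (helper3): from the divisibility of the orders of `g̃₀` on
`F_{κ₀}(M)` (brick [DIV-p]) to the orthogonality `φ̄ ⊥ B̃` over `κ̄`.

* `s44h_dvd_ord_of_comap` : divisibility of all orders passes through an extension of function fields
                            `F₀/K₀ → F/K` (restriction of places; `s29bp_exists_place_of_valuation`);
* `s44h_fbarMap ψ`        : `F_{κ₀}(M) →+* F_κ(M)`, coefficientwise;
* `s44h_dlog_coeff_neg`   : `dlog Y` has no polar part;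
* `s44h_orth`             : `p ∣ div g̃` ⇒ `coeff₀ (ū · dlog g̃) = 0` for `ū` regular off `∞̃`;
* `s44h_dlog_coeff_nonpos`: and `(dlog g̃).coeff n = 0` for `n ≤ 0`.
-/
import Fermat.Agent.Lib.S44.HResP
import Fermat.Agent.Lib.S44.HThetaLog
import Fermat.Agent.Lib.S29.BPPlace
import Fermat.Agent.Lib.S37.EFrob

set_option autoImplicit false
set_option linter.style.haveILetI false
set_option linter.unusedSectionVars false

noncomputable section

open AlgebraicCurve Module HahnSeries ModularCurve WithZero Fermat.Agent.Lib.FF Fermat.Agent.Lib.S18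
  Fermat.Agent.Lib.S29 Fermat.Agent.Lib.S37

namespace Fermat.Agent.Lib.S44

/-! ### Restriction of places -/

section Comap

variable {K₀ F₀ K F : Type*} [Field K₀] [Field F₀] [Algebra K₀ F₀] [Field K] [Field F] [Algebra K F]

/-- if `n` divides the order of `f` at every place of `F₀/K₀`, it divides the order of the image of `f`
at every place of an extension `F/K`. -/
theorem s44h_dvd_ord_of_comap (ψ : K₀ →+* K) (ι : F₀ →+* F)
    (hcomp : ∀ c : K₀, ι (algebraMap K₀ F₀ c) = algebraMap K F (ψ c))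
    (n : ℤ) (f : F₀) (hf : f ≠ 0) (hdvd : ∀ v₀ : Place K₀ F₀, n ∣ v₀.ord f) (v : Place K F) :
    n ∣ v.ord (ι f) := by
  set w : Valuation F₀ ℤᵐ⁰ := v.adicValuation.comap ι with hw
  have hord : ∀ y : F₀, v.ord (ι y) = ffi_ord w y := fun y => rfl
  have hK : ∀ c : K₀, w (algebraMap K₀ F₀ c) ≤ 1 := by
    intro c
    rw [hw, Valuation.comap_apply, hcomp]
    by_cases hc : ψ c = 0
    · rw [hc, map_zero, map_zero]; exact zero_le_one
    · have hne : algebraMap K F (ψ c) ≠ 0 := by rwa [Ne, map_eq_zero]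
      have hmem : algebraMap K F (ψ c) ∈ v.toValuationSubring := v.algebraMap_mem' _
      have h0 := (ffs_mem_iff_ord_nonneg v hne).mp hmem
      unfold Place.ord at h0
      have h1 : WithZero.log (v.adicValuation (algebraMap K F (ψ c))) ≤ 0 := by omega
      have hv0 : v.adicValuation (algebraMap K F (ψ c)) ≠ 0 := v.adicValuation_ne_zero hne
      rw [← WithZero.log_one] at h1
      exact (WithZero.log_le_log hv0 one_ne_zero).mp h1
  by_cases hex : ∃ t : F₀, t ≠ 0 ∧ w t < 1
  · obtain ⟨t, ht0, ht⟩ := hex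
    obtain ⟨v₀, m, -, hm⟩ := s29bp_exists_place_of_valuation (K := K₀) w hK ht0 ht
    rw [hord, hm f hf]
    exact Dvd.dvd.mul_left (hdvd v₀) m
  · push Not at hex
    have h1 : w f = 1 := by
      have ha := hex f hf
      have hb := hex f⁻¹ (inv_ne_zero hf)
      rw [map_inv₀] at hb
      have hw0 : w f ≠ 0 := (Valuation.ne_zero_iff w).mpr hf
      have hc : w f ≤ 1 := by
        have := mul_le_mul_left hb (w f)
        rwa [one_mul, inv_mul_cancel₀ hw0] at this
      exact le_antisymm hc ha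
    rw [hord]
    unfold ffi_ord
    rw [h1, WithZero.log_one, neg_zero]
    exact dvd_zero n

end Comap

/-! ### The coefficientwise map of special fibres -/

section FbarMap

variable {κ₀ κ : Type*} [Field κ₀] [Field κ] (ψ : κ₀ →+* κ) (M : ℕ) [NeZero M]

/-- `F_{κ₀}(M) →+* F_κ(M)`, coefficientwise. -/
def s44h_fbarMap : ↥(modularFunctionFieldFullC κ₀ M) →+* ↥(modularFunctionFieldFullC κ M) :=
  ((coeffMap ψ).comp (modularFunctionFieldFullC κ₀ M).val.toRingHom).codRestrict
    (modularFunctionFieldFullC κ M) (fun y => s37e_coeffMap_mem_fullC M ψ y.2)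

@[simp] theorem s44h_coe_fbarMap (y : ↥(modularFunctionFieldFullC κ₀ M)) :
    ((s44h_fbarMap ψ M y : ↥(modularFunctionFieldFullC κ M)) : LaurentSeries κ) =
      coeffMap ψ (y : LaurentSeries κ₀) := rfl

theorem s44h_fbarMap_algebraMap (c : κ₀) :
    s44h_fbarMap ψ M (algebraMap κ₀ ↥(modularFunctionFieldFullC κ₀ M) c) =
      algebraMap κ ↥(modularFunctionFieldFullC κ M) (ψ c) := by
  apply Subtype.ext
  rw [s44h_coe_fbarMap]
  exact s18q_coeffMap_algebraMap ψ c

/-- **divisibility of orders passes from `F_{κ₀}(M)` to `F_κ(M)`.** -/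
theorem s44h_fbar_dvd_ord (n : ℤ) (f : ↥(modularFunctionFieldFullC κ₀ M)) (hf : f ≠ 0)
    (hdvd : ∀ v₀ : Place κ₀ ↥(modularFunctionFieldFullC κ₀ M), n ∣ v₀.ord f)
    (v : Place κ ↥(modularFunctionFieldFullC κ M)) : n ∣ v.ord (s44h_fbarMap ψ M f) :=
  s44h_dvd_ord_of_comap ψ (s44h_fbarMap ψ M) (s44h_fbarMap_algebraMap ψ M) n f hf hdvd v

end FbarMap

/-! ### The polar part of a logarithmic derivative -/

section Polar

variable {k : Type*} [Field k]

theorem s44h_order_le_order_theta {Y : LaurentSeries k} (h : ffd_theta Y ≠ 0) :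
    Y.order ≤ (ffd_theta Y).order := by
  apply HahnSeries.order_le_of_coeff_ne_zero
  intro h0
  have h1 : (ffd_theta Y).coeff (ffd_theta Y).order ≠ 0 :=
    fun h2 => h (HahnSeries.coeff_order_eq_zero.mp h2)
  rw [ffd_theta_coeff, h0, mul_zero] at h1
  exact h1 rfl

/-- `dlog Y` has no polar part. -/
theorem s44h_dlog_coeff_neg (Y : LaurentSeries k) {n : ℤ} (hn : n < 0) :
    (s44h_dlog Y).coeff n = 0 := by
  unfold s44h_dlog
  by_cases hθ : ffd_theta Y = 0
  · rw [hθ, zero_mul, HahnSeries.coeff_zero]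
  have hY : Y ≠ 0 := by
    rintro rfl
    apply hθ
    ext m
    rw [ffd_theta_coeff, HahnSeries.coeff_zero, mul_zero]
  have hYi : Y⁻¹ ≠ 0 := inv_ne_zero hY
  apply HahnSeries.coeff_eq_zero_of_lt_order
  rw [HahnSeries.order_mul hθ hYi]
  have h1 : Y.order + (Y⁻¹).order = 0 := by
    rw [← HahnSeries.order_mul hY hYi, mul_inv_cancel₀ hY, HahnSeries.order_one]
  have h2 := s44h_order_le_order_theta hθ
  omega

end Polar

/-! ### Orthogonality -/

section Orth

variable (κ : Type*) [Field κ] [IsAlgClosed κ] (M : ℕ) [NeZero M] (p : ℕ) [hp : Fact p.Prime]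
  [CharP κ p]

/-- **`φ̄ = dlog g̃ ⊥ B̃`.** -/
theorem s44h_orth (u g : ↥(modularFunctionFieldFullC κ M)) (hg : g ≠ 0)
    (hu : ∀ v : Place κ ↥(modularFunctionFieldFullC κ M), v ≠ s44h_fbarInf κ M →
      u ∈ v.toValuationSubring)
    (hdvd : ∀ v : Place κ ↥(modularFunctionFieldFullC κ M), (p : ℤ) ∣ v.ord g) :
    ((u : LaurentSeries κ) * s44h_dlog (g : LaurentSeries κ)).coeff 0 = 0 := by
  have := s44h_res_p κ M p u g hg hu hdvd
  unfold s44h_dlog
  rw [mul_comm (ffd_theta _), ← mul_assoc]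
  exact this

/-- the coefficients of index `≤ 0` of `φ̄` vanish. -/
theorem s44h_dlog_coeff_nonpos (g : ↥(modularFunctionFieldFullC κ M)) (hg : g ≠ 0)
    (hdvd : ∀ v : Place κ ↥(modularFunctionFieldFullC κ M), (p : ℤ) ∣ v.ord g)
    {n : ℤ} (hn : n ≤ 0) : (s44h_dlog (g : LaurentSeries κ)).coeff n = 0 := by
  rcases lt_or_eq_of_le hn with h | h
  · exact s44h_dlog_coeff_neg _ h
  · subst h
    have := s44h_orth κ M p 1 g hg (fun v _ => v.toValuationSubring.one_mem) hdvd
    rwa [OneMemClass.coe_one, one_mul] at this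

end Orth

end Fermat.Agent.Lib.S44
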