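/-
M-AT-P (S44), W4 [S49-WIRE] (helper6): the statement of `Lib/S44/WOcc.lean` with the conclusion spelled as
`s44i_LevelOcc M p a B` of the interface.
-/
import Fermat.Agent.Lib.S44.Iface
import Fermat.Agent.Lib.S44.WOcc

set_option autoImplicit false
set_option linter.unusedSectionVars false

open ModularFormClass

namespace Fermat.Agent.Lib.S44

/-- **[S49-WIRE]** (interface form): a non-zero mod-`p` `q`-expansion `φ` over a field `k` of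
characteristic `p`, in the `k`-span of the reductions of weight two cusp forms `f j` of level `M` with
integer `q`-coefficients `cf j n`, satisfying the `T_ℓ`-eigen-equation with eigenvalue `a ℓ` for all primes
`ℓ ∉ B ⊇ {q ∣ M}`: the eigensystem `a` occurs modulo `p` at level `M`. -/
theorem s44w_levelocc_iface (M : ℕ) [NeZero M] (p : ℕ) [Fact p.Prime] (k : Type*) [Field k]
    [CharP k p] (a : ℕ → ℤ) (B : Finset ℕ) (hB : ∀ q : ℕ, q.Prime → q ∣ M → q ∈ B)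
    (φ : ℕ → k) (hφ0 : ∃ n, φ n ≠ 0)
    {ι : Type*} [Fintype ι] (f : ι → CuspForm (CongruenceSubgroup.Gamma0 M) 2) (cf : ι → ℕ → ℤ)
    (v : ι → k)
    (hf : ∀ j n, qCoeff ⇑(f j) n = ((cf j n : ℤ) : ℂ))
    (hφ : ∀ n, φ n = ∑ j, v j * ((cf j n : ℤ) : k))
    (heig : ∀ ℓ : ℕ, ℓ.Prime → ℓ ∉ B → ∀ n : ℕ, 1 ≤ n →
      φ (n * ℓ) + (if ℓ ∣ n then (ℓ : k) * φ (n / ℓ) else 0) = ((a ℓ : ℤ) : k) * φ n) :
    s44i_LevelOcc M p a B :=
  s44w_levelocc M p k a B hB φ hφ0 f cf v hf hφ heig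

/-- the same with the hypothesis on `B` in the shape used by the leaves (`q ∣ M * p → q ∈ B`). -/
theorem s44w_levelocc_iface' (M : ℕ) [NeZero M] (p : ℕ) [Fact p.Prime] (k : Type*) [Field k]
    [CharP k p] (a : ℕ → ℤ) (B : Finset ℕ) (hB : ∀ q : ℕ, q.Prime → q ∣ M * p → q ∈ B)
    (φ : ℕ → k) (hφ0 : ∃ n, φ n ≠ 0)
    {ι : Type*} [Fintype ι] (f : ι → CuspForm (CongruenceSubgroup.Gamma0 M) 2) (cf : ι → ℕ → ℤ)
    (v : ι → k)
    (hf : ∀ j n, qCoeff ⇑(f j) n = ((cf j n : ℤ) : ℂ))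
    (hφ : ∀ n, φ n = ∑ j, v j * ((cf j n : ℤ) : k))
    (heig : ∀ ℓ : ℕ, ℓ.Prime → ℓ ∉ B → ∀ n : ℕ, 1 ≤ n →
      φ (n * ℓ) + (if ℓ ∣ n then (ℓ : k) * φ (n / ℓ) else 0) = ((a ℓ : ℤ) : k) * φ n) :
    s44i_LevelOcc M p a B :=
  s44w_levelocc_iface M p k a B (fun q hq h => hB q hq (Dvd.dvd.mul_right h p)) φ hφ0 f cf v hf hφ heig

end Fermat.Agent.Lib.S44
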