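/-
M-AT-P programme (S44), W4, brick [RED-T_ℓ] (helper3), TOP-LEVEL form: the reduction of the Kummer-side
Hecke operator on the top-level Gauss ring `s37r_O A π ⊆ L((q))` / `s37r_OF A N hA ⊆ F_{ℚ̄}(N)`, and the
eigen-equation for the logarithmic derivative of the reduction of a Kummer generator.

* `s44h_zetaT A ℓ ζ₀ hζ₀ : (↥A)ˣ`, `s44h_top_zeta_prim`;
* `s44h_top_N_mem_O`  : `N_ℓ(ζ₀)` preserves the top-level Gauss ring;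
* `s44h_top_red_N`    : `red (N_ℓ(ζ₀) Y) = N_ℓ(ζ̄) (red Y)`;
* `s44h_coe_normAlpha_beta` : the `q`-expansion of `Nm_α (β y)` is `N_ℓ(ζ) y` (over `ℚ̄`);
* `s44h_top_eigen`    : `T_ℓ z = a₀ • z`, `H` a Kummer generator (exponent `p`) of `z` which is a Gauss unit
                         ⇒ `N_ℓ(ζ̄)(red H) = C c̄ · (red H)^a₀ · ū^p`, `c̄ ≠ 0`, `ū ≠ 0`;
* `s44h_top_eigen_dlog` : hence `U_ℓ φ̄ + ℓ · V_ℓ φ̄ = a₀ · φ̄` for `φ̄ = dlog (red H)`.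
-/
import Fermat.Agent.Lib.S44.HThetaLog
import Fermat.Agent.Lib.S44.CoreHRel
import Fermat.Agent.Lib.S33.DescRedTop

set_option autoImplicit false
set_option linter.style.haveILetI false
set_option linter.unusedSectionVars false
set_option synthInstance.maxHeartbeats 400000

namespace Fermat.Agent.Lib.S44

open ModularCurve HahnSeries AlgebraicCurve Fermat.Agent.Lib.FF Fermat.Agent.Lib.S18
  Fermat.Agent.Lib.S28 Fermat.Agent.Lib.S29 Fermat.Agent.Lib.S37 Fermat.Agent.Lib.S34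
  Fermat.Agent.Lib.S33

noncomputable section

local notation "Kb" => AlgebraicClosure ℚ

/-! ### Series level -/

section TopSeries

variable {L : Type*} [Field L] (A : ValuationSubring L) {k : Type*} [Field k] (π : A →+* k)
variable (ℓ : ℕ) [NeZero ℓ] (ζ₀ : Lˣ)

/-- the primitive root `ζ₀ ∈ L` as a unit of the valuation ring `A`. -/
def s44h_zetaT (hζ₀ : IsPrimitiveRoot (ζ₀ : L) ℓ) : (↥A)ˣ :=
  Units.mkOfMulEqOne
    (⟨(ζ₀ : L), s44h_mem_of_pow_eq_one A (NeZero.ne ℓ) hζ₀.pow_eq_one⟩ : A)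
    ((⟨(ζ₀ : L), s44h_mem_of_pow_eq_one A (NeZero.ne ℓ) hζ₀.pow_eq_one⟩ : A) ^ (ℓ - 1))
    (by
      rw [← pow_succ', Nat.sub_add_cancel (Nat.one_le_iff_ne_zero.mpr (NeZero.ne ℓ))]
      exact Subtype.ext hζ₀.pow_eq_one)

theorem s44h_zetaT_map (hζ₀ : IsPrimitiveRoot (ζ₀ : L) ℓ) :
    Units.map ((A.subtype : A →+* L) : A →* L) (s44h_zetaT A ℓ ζ₀ hζ₀) = ζ₀ :=
  Units.ext rfl

theorem s44h_zetaT_prim (hζ₀ : IsPrimitiveRoot (ζ₀ : L) ℓ) :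
    IsPrimitiveRoot ((s44h_zetaT A ℓ ζ₀ hζ₀ : (↥A)ˣ) : A) ℓ :=
  IsPrimitiveRoot.of_map_of_injective (f := A.subtype) (by exact hζ₀) Subtype.val_injective

/-- the reduction of the root of unity. -/
def s44h_zetaTK (hζ₀ : IsPrimitiveRoot (ζ₀ : L) ℓ) : kˣ := Units.map ((π : A →+* k) : A →* k) (s44h_zetaT A ℓ ζ₀ hζ₀)

/-- the reduction of a primitive `ℓ`-th root of unity is primitive (`ℓ` prime, `ℓ ≠ 0` in `k`). -/
theorem s44h_top_zeta_prim (hζ₀ : IsPrimitiveRoot (ζ₀ : L) ℓ) (hℓ : ℓ.Prime) (hℓk : (ℓ : k) ≠ 0) :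
    IsPrimitiveRoot ((s44h_zetaTK A π ℓ ζ₀ hζ₀ : kˣ) : k) ℓ := by
  set z : A := ((s44h_zetaT A ℓ ζ₀ hζ₀ : (↥A)ˣ) : A) with hz
  have hzprim : IsPrimitiveRoot z ℓ := s44h_zetaT_prim A ℓ ζ₀ hζ₀
  have hpow : (π z) ^ ℓ = 1 := by rw [← map_pow, hzprim.pow_eq_one, map_one]
  have hne1 : π z ≠ 1 := by
    intro h1
    have hsum := hzprim.geom_sum_eq_zero hℓ.one_lt
    have := congrArg π hsum
    rw [map_sum, map_zero] at this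
    simp only [map_pow, h1, one_pow, Finset.sum_const, Finset.card_range, nsmul_eq_mul,
      mul_one] at this
    exact hℓk this
  show IsPrimitiveRoot (π z) ℓ
  have hord : orderOf (π z) = ℓ := by
    have hdvd : orderOf (π z) ∣ ℓ := orderOf_dvd_of_pow_eq_one hpow
    rcases (Nat.dvd_prime hℓ).mp hdvd with h | h
    · exact absurd (orderOf_eq_one_iff.mp h) hne1
    · exact h
  have := IsPrimitiveRoot.orderOf (π z)
  rwa [hord] at this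

theorem s44h_top_iota_N (hζ₀ : IsPrimitiveRoot (ζ₀ : L) ℓ) (Q : LaurentSeries A) :
    coeffMap A.subtype (s33t_N ℓ (s44h_zetaT A ℓ ζ₀ hζ₀) Q) =
      s33t_N ℓ ζ₀ (coeffMap A.subtype Q) := by
  rw [s33t_coeffMap_N', s44h_zetaT_map]

/-- the reduction of `N_A(Q)` is non-zero when the reduction of `Q` is. -/
theorem s44h_top_rho_N_ne_zero (hζ₀ : IsPrimitiveRoot (ζ₀ : L) ℓ) {Q : LaurentSeries A}
    (hQ : coeffMap π Q ≠ 0) : coeffMap π (s33t_N ℓ (s44h_zetaT A ℓ ζ₀ hζ₀) Q) ≠ 0 := by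
  intro h0
  have h1 := s44h_P_eq_qExpand_N ℓ (s44h_zetaT A ℓ ζ₀ hζ₀) (s44h_zetaT_prim A ℓ ζ₀ hζ₀) Q
  have h2 := congrArg (coeffMap π) h1
  rw [s33t_coeffMap_P', coeffMap_qExpand] at h2
  rw [h0, map_zero] at h2
  exact s44h_P_ne_zero ℓ _ hQ h2

/-- **`N` preserves the top-level Gauss ring.** -/
theorem s44h_top_N_mem_O (hζ₀ : IsPrimitiveRoot (ζ₀ : L) ℓ) {Y : LaurentSeries L} (hY : Y ∈ s37r_O A π) :
    s33t_N ℓ ζ₀ Y ∈ s37r_O A π := by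
  obtain ⟨P, Q, hQ, h⟩ := hY
  refine ⟨s33t_N ℓ (s44h_zetaT A ℓ ζ₀ hζ₀) P, s33t_N ℓ (s44h_zetaT A ℓ ζ₀ hζ₀) Q,
    s44h_top_rho_N_ne_zero A π ℓ ζ₀ hζ₀ hQ, ?_⟩
  rw [s44h_top_iota_N, s44h_top_iota_N, ← s44h_N_mul ℓ ζ₀ hζ₀, h]

/-- **`red (N_ℓ(ζ₀) Y) = N_ℓ(ζ̄) (red Y)`** at the top level. -/
theorem s44h_top_red_N (hζ₀ : IsPrimitiveRoot (ζ₀ : L) ℓ) (hζκ : IsPrimitiveRoot ((s44h_zetaTK A π ℓ ζ₀ hζ₀ : kˣ) : k) ℓ)
    {Y : LaurentSeries L} (hY : Y ∈ s37r_O A π) :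
    s37r_red A π ⟨s33t_N ℓ ζ₀ Y, s44h_top_N_mem_O A π ℓ ζ₀ hζ₀ hY⟩ =
      s33t_N ℓ (s44h_zetaTK A π ℓ ζ₀ hζ₀) (s37r_red A π ⟨Y, hY⟩) := by
  have hY' := hY
  obtain ⟨P, Q, hQ, h⟩ := hY'
  have hQ' : coeffMap π (s33t_N ℓ (s44h_zetaT A ℓ ζ₀ hζ₀) Q) ≠ 0 :=
    s44h_top_rho_N_ne_zero A π ℓ ζ₀ hζ₀ hQ
  have hrel : coeffMap A.subtype (s33t_N ℓ (s44h_zetaT A ℓ ζ₀ hζ₀) Q) * s33t_N ℓ ζ₀ Y =
      coeffMap A.subtype (s33t_N ℓ (s44h_zetaT A ℓ ζ₀ hζ₀) P) := by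
    rw [s44h_top_iota_N, s44h_top_iota_N, ← s44h_N_mul ℓ ζ₀ hζ₀, h]
  have r1 := s37r_red_eq A π ⟨s33t_N ℓ ζ₀ Y, s44h_top_N_mem_O A π ℓ ζ₀ hζ₀ hY⟩
    (s33t_N ℓ (s44h_zetaT A ℓ ζ₀ hζ₀) P) (s33t_N ℓ (s44h_zetaT A ℓ ζ₀ hζ₀) Q) hQ' hrel
  have r2 := s37r_red_eq A π ⟨Y, hY⟩ P Q hQ h
  rw [r1, r2]
  have e1 : ∀ T : LaurentSeries A, coeffMap π (s33t_N ℓ (s44h_zetaT A ℓ ζ₀ hζ₀) T) =
      s33t_N ℓ (s44h_zetaTK A π ℓ ζ₀ hζ₀) (coeffMap π T) := by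
    intro T
    exact s33t_coeffMap_N' ℓ (s44h_zetaT A ℓ ζ₀ hζ₀) π T
  rw [e1, e1]
  have hmul := s44h_N_mul ℓ (s44h_zetaTK A π ℓ ζ₀ hζ₀) hζκ (coeffMap π P / coeffMap π Q)
    (coeffMap π Q)
  rw [div_mul_cancel₀ _ hQ] at hmul
  rw [e1] at hQ'
  rw [hmul, mul_div_assoc, div_self hQ', mul_one]

end TopSeries

/-! ### Function field level (over `ℚ̄`) -/

section TopFF

variable (N : ℕ) [NeZero N] (ℓ : ℕ) [hℓ : Fact ℓ.Prime]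

/-- the `q`-expansion of `Nm_α (β y)` is `N_ℓ(ζ) y`, over `ℚ̄`. -/
theorem s44h_coe_normAlpha_beta (hℓN : ¬ ℓ ∣ N) (ζ : Kbˣ) (hζ : IsPrimitiveRoot (ζ : Kb) ℓ)
    (y : ↥(modularFunctionFieldBar N)) :
    haveI : NeZero ℓ := ⟨hℓ.out.ne_zero⟩
    ((s37e_normAlpha N ℓ (heckeBetaBar Kb N ℓ y) : ↥(modularFunctionFieldBar N)) :
      LaurentSeries Kb) = s33t_N ℓ ζ (y : LaurentSeries Kb) := by
  haveI : NeZero ℓ := ⟨hℓ.out.ne_zero⟩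
  have h := s37e_hW N ℓ hℓ.out hℓN ζ hζ y
  exact (s33t_N_eq_of_qExpand_eq ℓ ζ _ _ h).symm

variable (p : ℕ) [hp : Fact p.Prime] (A : ValuationSubring Kb) (hA : A.LiesOverPrime p)

/-- reduction of an integer power of a Gauss unit. -/
theorem s44h_redV_zpow (H : ffi_F N) (hH : H ∈ s37r_OF A N hA) (hH' : H⁻¹ ∈ s37r_OF A N hA)
    (hH0 : H ≠ 0) (a : ℤ) :
    ∃ h : H ^ a ∈ s37r_OF A N hA, (H ^ a)⁻¹ ∈ s37r_OF A N hA ∧
      s37r_redV A N hA ⟨H ^ a, h⟩ = (s37r_redV A N hA ⟨H, hH⟩) ^ a := by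
  have hredinv : s37r_redV A N hA ⟨H⁻¹, hH'⟩ = (s37r_redV A N hA ⟨H, hH⟩)⁻¹ := by
    have h1 : (⟨H, hH⟩ : ↥(s37r_OF A N hA)) * ⟨H⁻¹, hH'⟩ = 1 :=
      Subtype.ext (mul_inv_cancel₀ hH0)
    have := congrArg (s37r_redV A N hA) h1
    rw [map_mul, map_one] at this
    exact eq_inv_of_mul_eq_one_right this
  obtain ⟨n, rfl | rfl⟩ := Int.eq_nat_or_neg a
  · refine ⟨by rw [zpow_natCast]; exact pow_mem hH n,
      by rw [zpow_natCast, ← inv_pow]; exact pow_mem hH' n, ?_⟩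
    have e : (⟨H ^ (n : ℤ), by rw [zpow_natCast]; exact pow_mem hH n⟩ : ↥(s37r_OF A N hA)) =
        ⟨H, hH⟩ ^ n := Subtype.ext (by
      rw [SubmonoidClass.coe_pow]
      exact zpow_natCast H n)
    rw [e, map_pow, zpow_natCast]
  · refine ⟨by rw [zpow_neg, zpow_natCast, ← inv_pow]; exact pow_mem hH' n,
      by rw [zpow_neg, zpow_natCast, inv_inv]; exact pow_mem hH n, ?_⟩
    have e : (⟨H ^ (-(n : ℤ)), by rw [zpow_neg, zpow_natCast, ← inv_pow]; exact pow_mem hH' n⟩ :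
        ↥(s37r_OF A N hA)) = ⟨H⁻¹, hH'⟩ ^ n :=
      Subtype.ext (by
        rw [SubmonoidClass.coe_pow]
        show H ^ (-(n : ℤ)) = H⁻¹ ^ n
        rw [zpow_neg, zpow_natCast, inv_pow])
    rw [e, map_pow, hredinv, zpow_neg, zpow_natCast, inv_pow]

/-- the Hecke relation over `ℚ̄` for a Kummer generator of an eigen-class:
`Nm_α (β H) = c · w^p · H^a₀`. -/
theorem s44h_top_rel_of_eigen (hℓN : ¬ ℓ ∣ N)
    (z : JZero N) (a₀ : ℤ) (hz : heckeOperatorBar N ⟨ℓ, hℓ.out⟩ z = a₀ • z)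
    (H : ffi_F N) (hgen : s33d_IsKumGen p z H) :
    ∃ (c : Kb) (w : ffi_F N), c ≠ 0 ∧ w ≠ 0 ∧
      s37e_normAlpha N ℓ (heckeBetaBar Kb N ℓ H) = algebraMap Kb (ffi_F N) c * w ^ p * H ^ a₀ := by
  have h1 : s33d_IsKumGen p (a₀ • z) (H ^ a₀) := s44c_isKumGen_zpow N p hgen a₀
  have h2 : s33d_IsKumGen p (a₀ • z) (s37e_normAlpha N ℓ (heckeBetaBar Kb N ℓ H)) := by
    rw [← hz]
    exact s44c_isKumGen_hecke N ℓ hℓN p z H hgen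
  exact s33d_kumGen_unique (s33d_constOfOrdZero_bar N) h1 h2

/-- **the reduced Hecke relation**: if `Nm_α (β H) = c · w^p · H^a₀` over `ℚ̄` and `H` is a Gauss unit
at the top level, then `N_ℓ(ζ̄)(red H) = C c̄ · (red H)^a₀ · ū^p`. -/
theorem s44h_top_eigen (hℓN : ¬ ℓ ∣ N) (hℓp : ℓ ≠ p) (ζ : Kbˣ) (hζ : IsPrimitiveRoot (ζ : Kb) ℓ)
    (a₀ : ℤ) (H : ffi_F N) (hH0 : H ≠ 0)
    (hH : H ∈ s37r_OF A N hA) (hH' : H⁻¹ ∈ s37r_OF A N hA)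
    (c : Kb) (w : ffi_F N) (hc : c ≠ 0) (hw : w ≠ 0)
    (hrel : s37e_normAlpha N ℓ (heckeBetaBar Kb N ℓ H) =
      algebraMap Kb (ffi_F N) c * w ^ p * H ^ a₀) :
    haveI : NeZero ℓ := ⟨hℓ.out.ne_zero⟩
    ∃ (c : IsLocalRing.ResidueField ↥A) (u : LaurentSeries (IsLocalRing.ResidueField ↥A)),
      c ≠ 0 ∧ u ≠ 0 ∧
      s33t_N ℓ (s44h_zetaTK A (IsLocalRing.residue ↥A) ℓ ζ hζ) (s37r_redV A N hA ⟨H, hH⟩) =
        HahnSeries.C c * (s37r_redV A N hA ⟨H, hH⟩) ^ a₀ * u ^ p := by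
  haveI : NeZero ℓ := ⟨hℓ.out.ne_zero⟩
  haveI hchar : CharP (IsLocalRing.ResidueField ↥A) p := s18n_charP_residueField A hp.out hA
  have hℓk : ((ℓ : ℕ) : IsLocalRing.ResidueField ↥A) ≠ 0 := by
    intro h0
    have := (CharP.cast_eq_zero_iff (IsLocalRing.ResidueField ↥A) p ℓ).mp h0
    exact hℓp ((Nat.prime_dvd_prime_iff_eq hp.out hℓ.out).mp this).symm
  have hζκ := s44h_top_zeta_prim A (IsLocalRing.residue ↥A) ℓ ζ hζ hℓ.out hℓk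
  -- normalise `w`
  obtain ⟨d, u, hd, hu, hu', hwu⟩ := s33d_exists_gauss_unit A N hA w hw
  have hu0 : u ≠ 0 := by
    rintro rfl
    rw [mul_zero] at hwu
    exact hw hwu
  set T : ffi_F N := s37e_normAlpha N ℓ (heckeBetaBar Kb N ℓ H) with hT
  have hTcoe : ((T : ffi_F N) : LaurentSeries Kb) = s33t_N ℓ ζ ((H : ffi_F N) : LaurentSeries Kb) :=
    s44h_coe_normAlpha_beta N ℓ hℓN ζ hζ H
  have hTmem : T ∈ s37r_OF A N hA := by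
    rw [s37r_mem_OF_iff, hTcoe]
    exact s44h_top_N_mem_O A _ ℓ ζ hζ hH
  -- `T = C(c d^p) · u^p · H^a₀`
  have hrel2 : T = algebraMap Kb (ffi_F N) (c * d ^ p) * (u ^ p * H ^ a₀) := by
    rw [hrel, hwu, mul_pow, map_mul, map_pow]
    ring
  -- `u^p H^a₀` is a Gauss unit
  obtain ⟨hHa1, hHa2, hredHa⟩ := s44h_redV_zpow N p A hA H hH hH' hH0 a₀
  set W : ffi_F N := u ^ p * H ^ a₀ with hW
  have hWmem : W ∈ s37r_OF A N hA := (s37r_OF A N hA).mul_mem _ _ (pow_mem hu p) hHa1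
  have hWmem' : W⁻¹ ∈ s37r_OF A N hA := by
    rw [hW, mul_inv, ← inv_pow]
    exact (s37r_OF A N hA).mul_mem _ _ (pow_mem hu' p) hHa2
  have hW0 : W ≠ 0 := mul_ne_zero (pow_ne_zero p hu0) (zpow_ne_zero a₀ hH0)
  have hT0 : T ≠ 0 := by
    rw [hrel]
    exact mul_ne_zero (mul_ne_zero (by rwa [Ne, map_eq_zero]) (pow_ne_zero p hw))
      (zpow_ne_zero a₀ hH0)
  -- `T⁻¹ ∈ O_F`: `T` is `N(H)` and `N(H⁻¹) = T⁻¹`
  have hTmem' : T⁻¹ ∈ s37r_OF A N hA := by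
    have hTinv : ((T⁻¹ : ffi_F N) : LaurentSeries Kb) =
        s33t_N ℓ ζ ((H⁻¹ : ffi_F N) : LaurentSeries Kb) := by
      have hmul := s44h_N_mul ℓ ζ hζ ((H : ffi_F N) : LaurentSeries Kb)
        ((H⁻¹ : ffi_F N) : LaurentSeries Kb)
      have hone : ((H : ffi_F N) : LaurentSeries Kb) * ((H⁻¹ : ffi_F N) : LaurentSeries Kb) = 1 := by
        rw [← MulMemClass.coe_mul, mul_inv_cancel₀ hH0, OneMemClass.coe_one]
      rw [hone] at hmul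
      have hN1 : s33t_N ℓ ζ (1 : LaurentSeries Kb) = 1 := by
        have := s33t_N_C ℓ ζ (1 : Kb)
        rwa [one_pow, map_one] at this
      rw [hN1, ← hTcoe] at hmul
      have hT0' : ((T : ffi_F N) : LaurentSeries Kb) ≠ 0 := fun h => hT0 (Subtype.ext h)
      rw [IntermediateField.coe_inv]
      exact (eq_inv_of_mul_eq_one_right hmul.symm).symm ▸ rfl
    rw [s37r_mem_OF_iff, hTinv]
    exact s44h_top_N_mem_O A _ ℓ ζ hζ hH'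
  obtain ⟨hcd, hcd'⟩ := s33d_gauss_const A N hA hW0 hT0 hWmem hWmem' hTmem hTmem' hrel2.symm
  -- reduce
  set cA : A := ⟨c * d ^ p, hcd⟩ with hcA
  have hcAunit : IsUnit cA := by
    refine IsUnit.of_mul_eq_one (⟨(c * d ^ p)⁻¹, hcd'⟩ : A) (Subtype.ext ?_)
    show (c * d ^ p) * (c * d ^ p)⁻¹ = 1
    exact mul_inv_cancel₀ (mul_ne_zero hc (pow_ne_zero p hd))
  have hCmem : algebraMap Kb (ffi_F N) ((cA : A) : Kb) ∈ s37r_OF A N hA :=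
    (s33d_algebraMap_mem_OF_iff A N hA _).mpr hcd
  have hred : s37r_redV A N hA ⟨T, hTmem⟩ =
      HahnSeries.C (IsLocalRing.residue ↥A cA) *
        ((s37r_redV A N hA ⟨u, hu⟩) ^ p * s37r_redV A N hA ⟨H ^ a₀, hHa1⟩) := by
    have e : (⟨T, hTmem⟩ : ↥(s37r_OF A N hA)) =
        ⟨algebraMap Kb (ffi_F N) ((cA : A) : Kb), hCmem⟩ * (⟨u, hu⟩ ^ p * ⟨H ^ a₀, hHa1⟩) :=
      Subtype.ext hrel2
    rw [e, map_mul (s37r_redV A N hA), map_mul (s37r_redV A N hA), map_pow,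
      s33d_redV_algebraMap A N hA cA hCmem]
  -- `red T = N̄ (red H)`
  have hredT : s37r_redV A N hA ⟨T, hTmem⟩ =
      s33t_N ℓ (s44h_zetaTK A (IsLocalRing.residue ↥A) ℓ ζ hζ) (s37r_redV A N hA ⟨H, hH⟩) := by
    have := s44h_top_red_N A (IsLocalRing.residue ↥A) ℓ ζ hζ hζκ
      ((s37r_mem_OF_iff A N hA H).mp hH)
    refine Eq.trans ?_ this
    show s37r_red A _ (s37r_OFtoO A N hA ⟨T, hTmem⟩) = _
    congr 1
    exact Subtype.ext hTcoe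
  -- `red (H^a₀) = (red H)^a₀`
  have hredH0 : s37r_redV A N hA ⟨H, hH⟩ ≠ 0 := by
    intro h0
    have h1 : (⟨H, hH⟩ : ↥(s37r_OF A N hA)) * ⟨H⁻¹, hH'⟩ = 1 :=
      Subtype.ext (mul_inv_cancel₀ hH0)
    have := congrArg (s37r_redV A N hA) h1
    rw [map_mul, h0, zero_mul, map_one] at this
    exact zero_ne_one this
  have hredu0 : s37r_redV A N hA ⟨u, hu⟩ ≠ 0 := by
    intro h0
    have h1 : (⟨u, hu⟩ : ↥(s37r_OF A N hA)) * ⟨u⁻¹, hu'⟩ = 1 :=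
      Subtype.ext (mul_inv_cancel₀ hu0)
    have := congrArg (s37r_redV A N hA) h1
    rw [map_mul, h0, zero_mul, map_one] at this
    exact zero_ne_one this
  refine ⟨IsLocalRing.residue ↥A cA, s37r_redV A N hA ⟨u, hu⟩, ?_, hredu0, ?_⟩
  · intro h0
    exact ((IsLocalRing.residue_eq_zero_iff _).mp h0) hcAunit
  · rw [← hredT, hred, hredHa]
    ring

/-- **the Hecke eigen-equation for `φ̄ = dlog (red H)`**: `U_ℓ φ̄ + ℓ · V_ℓ φ̄ = a₀ · φ̄`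
(relation form). -/
theorem s44h_top_eigen_dlog_rel (hℓN : ¬ ℓ ∣ N) (hℓp : ℓ ≠ p)
    (a₀ : ℤ) (H : ffi_F N) (hH0 : H ≠ 0)
    (hH : H ∈ s37r_OF A N hA) (hH' : H⁻¹ ∈ s37r_OF A N hA)
    (c : Kb) (w : ffi_F N) (hc : c ≠ 0) (hw : w ≠ 0)
    (hrel : s37e_normAlpha N ℓ (heckeBetaBar Kb N ℓ H) =
      algebraMap Kb (ffi_F N) c * w ^ p * H ^ a₀) :
    haveI : NeZero ℓ := ⟨hℓ.out.ne_zero⟩
    s33t_U ℓ (s44h_dlog (s37r_redV A N hA ⟨H, hH⟩)) +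
        HahnSeries.C ((ℓ : ℕ) : IsLocalRing.ResidueField ↥A) *
          qExpand (IsLocalRing.ResidueField ↥A) ℓ (s44h_dlog (s37r_redV A N hA ⟨H, hH⟩)) =
      HahnSeries.C ((a₀ : ℤ) : IsLocalRing.ResidueField ↥A) *
        s44h_dlog (s37r_redV A N hA ⟨H, hH⟩) := by
  haveI : NeZero ℓ := ⟨hℓ.out.ne_zero⟩
  haveI hchar : CharP (IsLocalRing.ResidueField ↥A) p := s18n_charP_residueField A hp.out hA
  obtain ⟨ζ', hζ'⟩ := HasEnoughRootsOfUnity.exists_primitiveRoot Kb ℓ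
  set ζ : Kbˣ := (hζ'.isUnit (NeZero.ne ℓ)).unit with hζdef
  have hζ : IsPrimitiveRoot (ζ : Kb) ℓ := by
    rw [hζdef, IsUnit.unit_spec]
    exact hζ'
  have hℓk : ((ℓ : ℕ) : IsLocalRing.ResidueField ↥A) ≠ 0 := by
    intro h0
    have := (CharP.cast_eq_zero_iff (IsLocalRing.ResidueField ↥A) p ℓ).mp h0
    exact hℓp ((Nat.prime_dvd_prime_iff_eq hp.out hℓ.out).mp this).symm
  have hζκ := s44h_top_zeta_prim A (IsLocalRing.residue ↥A) ℓ ζ hζ hℓ.out hℓk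
  obtain ⟨c', u, hc', hu, hrel'⟩ :=
    s44h_top_eigen N ℓ p A hA hℓN hℓp ζ hζ a₀ H hH0 hH hH' c w hc hw hrel
  have hredH0 : s37r_redV A N hA ⟨H, hH⟩ ≠ 0 := by
    intro h0
    have h1 : (⟨H, hH⟩ : ↥(s37r_OF A N hA)) * ⟨H⁻¹, hH'⟩ = 1 :=
      Subtype.ext (mul_inv_cancel₀ hH0)
    have := congrArg (s37r_redV A N hA) h1
    rw [map_mul, h0, zero_mul, map_one] at this
    exact zero_ne_one this
  exact s44h_Tl_dlog_of_eigen ℓ _ p hζκ hredH0 hu hc' a₀ hrel'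

/-- **the Hecke eigen-equation for `φ̄ = dlog (red H)`**, `H` a Kummer generator of an eigen-class. -/
theorem s44h_top_eigen_dlog (hℓN : ¬ ℓ ∣ N) (hℓp : ℓ ≠ p)
    (z : JZero N) (a₀ : ℤ) (hz : heckeOperatorBar N ⟨ℓ, hℓ.out⟩ z = a₀ • z)
    (H : ffi_F N) (hgen : s33d_IsKumGen p z H)
    (hH : H ∈ s37r_OF A N hA) (hH' : H⁻¹ ∈ s37r_OF A N hA) :
    haveI : NeZero ℓ := ⟨hℓ.out.ne_zero⟩
    s33t_U ℓ (s44h_dlog (s37r_redV A N hA ⟨H, hH⟩)) +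
        HahnSeries.C ((ℓ : ℕ) : IsLocalRing.ResidueField ↥A) *
          qExpand (IsLocalRing.ResidueField ↥A) ℓ (s44h_dlog (s37r_redV A N hA ⟨H, hH⟩)) =
      HahnSeries.C ((a₀ : ℤ) : IsLocalRing.ResidueField ↥A) *
        s44h_dlog (s37r_redV A N hA ⟨H, hH⟩) := by
  obtain ⟨c, w, hc, hw, hrel⟩ := s44h_top_rel_of_eigen N ℓ p hℓN z a₀ hz H hgen
  exact s44h_top_eigen_dlog_rel N ℓ p A hA hℓN hℓp a₀ H hgen.1 hH hH' c w hc hw hrel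

end TopFF

end

end Fermat.Agent.Lib.S44
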