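/-
M-AT-P programme (S44), wall W3 = (★)-core, INSTANCE SIDE, generic part (owner: helper4).

Setting = helper8's generic two-component chart of `Lib/S33/SSModel.lean`: `O : Bool → ValuationSubring 𝓕`
(`true ↦ V_∞`, `false ↦ V_0`), both discrete with uniformiser `π`, reductions `red i : V_∞ ⊓ V_0 →+* Fb`
with kernel `π O i`, a chart `S` with chart ring `B = s34x_ring (s34x_infRing O) S`, a Dedekind domain `D`
with fraction field `Fb`, `ρ i : B →+* D` surjective with `algebraMap D Fb ∘ ρ i = red i` on `B`.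

* `s44c_glue_at`        : **per-node [GLUE]**: `y ∈ V_∞ ⊓ V_0` regular at the places of the chart through ONE
                          prime `𝔫` ⇒ `(red_∞ y, red_0 y)` is glued at `𝔫` (re-run of `s33s_glue`).
* `s44c_frac_one_sided` : **one-sided Hartogs**: `𝔪` a prime of `B` NOT containing the other component
                          `𝔭_{!i}`; `y ∈ O i` (only!) regular at the places through `𝔪` ⇒ `c · y = β` with
                          `c ∈ B ∖ 𝔪`, `β ∈ B`.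
* `s44c_reg_mem_W`      : **one-sided [REG]**: for every extension `R : O i →+* Fb` of `red i`, `R y` lies in the
                          branch `s33s_W (ρ i) 𝔪` (the valuation ring of the closed point `ρ i (𝔪)`).
* `s44c_mem_range_of_forall_W` : a function of `Fb` lying in the valuation rings of all closed points
                          `ρ (𝔪)` of a chart of a component, except those where it is integral for another reason,
                          lies in `D`.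
-/
import Fermat.Agent.Lib.S33.SSModel

set_option autoImplicit false
set_option linter.style.haveILetI false
set_option linter.unusedSectionVars false

noncomputable section

namespace Fermat.Agent.Lib.S44

open AlgebraicCurve Fermat.Agent.Lib.FF Fermat.Agent.Lib.S18 Fermat.Agent.Lib.S34
  Fermat.Agent.Lib.S33

section Generic

variable {L₀ 𝓕 : Type*} [Field L₀] [Field 𝓕] [Algebra L₀ 𝓕]
  {D Fb : Type*} [CommRing D] [IsDedekindDomain D] [Field Fb] [Algebra D Fb] [IsFractionRing D Fb]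

variable (O : Bool → ValuationSubring 𝓕) (π : 𝓕) (S : Set (Place L₀ 𝓕))
  (red : Bool → (s34x_infRing O →+* Fb))
  (ρ : Bool → (s34x_ring (s34x_infRing O) S →+* D))

/-- the places of the chart `S` through the prime `𝔫` of the chart ring. -/
def s44c_thr (𝔫 : Ideal (s34x_ring (s34x_infRing O) S)) : Set (Place L₀ 𝓕) :=
  {Q | Q ∈ S ∧ s34f_through (s34x_infRing O) S 𝔫 Q}

/-- **the closed points of the chart `S` on the component `i` outside the nodes**: the maximal ideals of the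
chart ring containing the component prime `𝔭_i` but not `𝔭_{!i}`. -/
abbrev s44c_Pt (i : Bool) : Type _ :=
  {𝔪 : Ideal (s34x_ring (s34x_infRing O) S) //
    𝔪.IsMaximal ∧ s33s_comp O π S i ≤ 𝔪 ∧ ¬ s33s_comp O π S (!i) ≤ 𝔪}

theorem s44c_finite_poles
    (hfin : ∀ y : 𝓕, y ≠ 0 → {Q : Place L₀ 𝓕 | Q ∈ S ∧ Q.ord y ≠ 0}.Finite) (y : 𝓕) :
    {Q : Place L₀ 𝓕 | Q ∈ S ∧ Q.ord y < 0}.Finite := by
  by_cases hy0 : y = 0
  · have : {Q : Place L₀ 𝓕 | Q ∈ S ∧ Q.ord y < 0} = ∅ := by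
      ext Q
      simp [hy0]
    rw [this]
    exact Set.finite_empty
  · exact (hfin y hy0).subset (fun Q hQ => ⟨hQ.1, ne_of_lt hQ.2⟩)

/-- **per-node [GLUE]**. -/
theorem s44c_glue_at
    (hfin : ∀ y : 𝓕, y ≠ 0 → {Q : Place L₀ 𝓕 | Q ∈ S ∧ Q.ord y ≠ 0}.Finite)
    (hρ : ∀ i b, algebraMap D Fb (ρ i b) = red i ⟨(b : 𝓕), b.2.1⟩)
    (y : 𝓕) (hyO : y ∈ s34x_infRing O)
    (𝔫 : Ideal (s34x_ring (s34x_infRing O) S)) [𝔫.IsPrime]
    (hreg : ∀ Q ∈ s44c_thr O S 𝔫, y ∈ Q.toValuationSubring) :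
    s33s_GluedAt (ρ true) (ρ false) 𝔫 (red true ⟨y, hyO⟩) (red false ⟨y, hyO⟩) := by
  obtain ⟨s, hs, hsy⟩ := s33s_frac_of_reg (s34x_infRing O) S 𝔫 y hyO (s44c_finite_poles S hfin y)
    (fun Q hQ hth => hreg Q ⟨hQ, hth⟩)
  refine s33s_gluedAt_of_frac (ρ true) (ρ false) 𝔫 (s := s) (β := ⟨(s : 𝓕) * y, hsy⟩) hs ?_ ?_
  · rw [s33s_r_eq_red O S red ρ hρ, s33s_r_eq_red O S red ρ hρ, ← map_mul]
    rfl
  · rw [s33s_r_eq_red O S red ρ hρ, s33s_r_eq_red O S red ρ hρ, ← map_mul]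
    rfl

/-- **one-sided Hartogs**. -/
theorem s44c_frac_one_sided (hπ0 : π ≠ 0) (hπO : ∀ i, π ∈ O i)
    (hUi : ∀ i, ∀ U : 𝓕, U ≠ 0 → ∃ (n : ℤ) (u : 𝓕), u ∈ O i ∧ u⁻¹ ∈ O i ∧ U = π ^ n * u)
    (hfin : ∀ y : 𝓕, y ≠ 0 → {Q : Place L₀ 𝓕 | Q ∈ S ∧ Q.ord y ≠ 0}.Finite)
    (i : Bool) (𝔪 : Ideal (s34x_ring (s34x_infRing O) S)) [h𝔪 : 𝔪.IsPrime]
    (hnot : ¬ s33s_comp O π S (!i) ≤ 𝔪)
    (y : 𝓕) (hy : y ∈ O i) (hreg : ∀ Q ∈ s44c_thr O S 𝔪, y ∈ Q.toValuationSubring) :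
    ∃ c β : s34x_ring (s34x_infRing O) S, c ∉ 𝔪 ∧ (c : 𝓕) * y = (β : 𝓕) := by
  have h1 : (1 : s34x_ring (s34x_infRing O) S) ∉ 𝔪 :=
    fun h => h𝔪.ne_top ((Ideal.eq_top_iff_one _).mpr h)
  rcases eq_or_ne y 0 with rfl | hy0
  · exact ⟨1, 0, h1, by simp⟩
  -- `s₀ ∈ 𝔭_{!i} ∖ 𝔪`
  obtain ⟨s₀, hs₀, hs₀𝔪⟩ := Set.not_subset.mp hnot
  obtain ⟨z, hz, ez⟩ := (s33s_mem_comp O π S (!i) s₀).mp hs₀
  -- the `O (!i)`-valuation of `y`
  obtain ⟨n, u, hu, -, e⟩ := hUi (!i) y hy0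
  set k : ℕ := (-n).toNat with hk
  have hx_i : ∀ j : Bool, (s₀ : 𝓕) ^ k * y ∈ O j := by
    intro j
    by_cases hj : j = i
    · subst hj
      exact (O j).mul_mem _ _ ((O j).pow_mem (s33s_ring_mem O S j s₀) k) hy
    · have hj' : j = !i := by
        cases j <;> cases i <;> simp_all
      subst hj'
      obtain ⟨m, hm⟩ : ∃ m : ℕ, (k : ℤ) + n = (m : ℤ) := ⟨((k : ℤ) + n).toNat, by omega⟩
      have : (s₀ : 𝓕) ^ k * y = π ^ m * (z ^ k * u) := by
        rw [e, ez, mul_pow, ← zpow_natCast π m, ← hm, zpow_add₀ hπ0, zpow_natCast]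
        ring
      rw [this]
      exact (O (!i)).mul_mem _ _ ((O (!i)).pow_mem (hπO _) m)
        ((O (!i)).mul_mem _ _ ((O (!i)).pow_mem hz k) hu)
  have hxO : (s₀ : 𝓕) ^ k * y ∈ s34x_infRing O := (s34x_mem_infRing O _).mpr hx_i
  have hxreg : ∀ Q ∈ S, s34f_through (s34x_infRing O) S 𝔪 Q →
      (s₀ : 𝓕) ^ k * y ∈ Q.toValuationSubring := fun Q hQ hth =>
    Q.toValuationSubring.mul_mem _ _ (Q.toValuationSubring.pow_mem (s₀.2.2 Q hQ) k)
      (hreg Q ⟨hQ, hth⟩)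
  obtain ⟨s, hs, hsx⟩ := s33s_frac_of_reg (s34x_infRing O) S 𝔪 _ hxO
    (s44c_finite_poles S hfin _) hxreg
  refine ⟨s * s₀ ^ k, ⟨_, hsx⟩, ?_, ?_⟩
  · intro hmem
    rcases h𝔪.mem_or_mem hmem with h | h
    · exact hs h
    · exact hs₀𝔪 (h𝔪.mem_of_pow_mem k h)
  · push_cast
    ring

/-- **one-sided [REG]**. -/
theorem s44c_reg_mem_W (hπ0 : π ≠ 0) (hπO : ∀ i, π ∈ O i)
    (hUi : ∀ i, ∀ U : 𝓕, U ≠ 0 → ∃ (n : ℤ) (u : 𝓕), u ∈ O i ∧ u⁻¹ ∈ O i ∧ U = π ^ n * u)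
    (hfin : ∀ y : 𝓕, y ≠ 0 → {Q : Place L₀ 𝓕 | Q ∈ S ∧ Q.ord y ≠ 0}.Finite)
    (i : Bool) (hsurj : Function.Surjective (ρ i)) (hD : ¬ IsField D)
    (𝔪 : Ideal (s34x_ring (s34x_infRing O) S)) [h𝔪 : 𝔪.IsMaximal]
    (hk : RingHom.ker (ρ i) ≤ 𝔪) (hnot : ¬ s33s_comp O π S (!i) ≤ 𝔪)
    (R : O i →+* Fb)
    (hR : ∀ b : s34x_ring (s34x_infRing O) S,
      R ⟨(b : 𝓕), s33s_ring_mem O S i b⟩ = s33s_r (ρ i) b)
    (y : 𝓕) (hy : y ∈ O i) (hreg : ∀ Q ∈ s44c_thr O S 𝔪, y ∈ Q.toValuationSubring) :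
    R ⟨y, hy⟩ ∈ s33s_W (Fb := Fb) (ρ i) hsurj hD 𝔪 hk := by
  haveI : 𝔪.IsPrime := h𝔪.isPrime
  obtain ⟨c, β, hc, e⟩ := s44c_frac_one_sided O π S hπ0 hπO hUi hfin i 𝔪 hnot y hy hreg
  rw [s33s_mem_W_iff]
  refine ⟨c, β, hc, ?_⟩
  rw [← hR, ← hR, ← map_mul]
  exact congrArg R (Subtype.ext e)

end Generic

section Range

open IsDedekindDomain

variable {B D Fb : Type*} [CommRing B] [CommRing D] [IsDedekindDomain D] [Field Fb]
  [Algebra D Fb] [IsFractionRing D Fb]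

/-- **`⋂ W_𝔪 = D`** (with an escape clause): if `φ ∈ Fb` lies in the valuation ring of every closed point
`v` of `Spec D` for which `good v` fails to give integrality directly, then `φ ∈ D`.  Here the closed points
are presented as `ρ (𝔪)`, `𝔪` a maximal ideal of `B` containing `ker ρ`. -/
theorem s44c_mem_range_of_forall_W (ρ : B →+* D) (hsurj : Function.Surjective ρ) (hD : ¬ IsField D)
    (φ : Fb)
    (h : ∀ (𝔪 : Ideal B) [𝔪.IsMaximal] (hk : RingHom.ker ρ ≤ 𝔪),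
      φ ∈ s33s_W (Fb := Fb) ρ hsurj hD 𝔪 hk) :
    ∃ d : D, algebraMap D Fb d = φ := by
  have hall : ∀ v : HeightOneSpectrum D, v.valuation Fb φ ≤ 1 := by
    intro v
    haveI hvmax : v.asIdeal.IsMaximal := v.isMaximal
    haveI : (Ideal.comap ρ v.asIdeal).IsMaximal := Ideal.comap_isMaximal_of_surjective ρ hsurj
    have hk : RingHom.ker ρ ≤ Ideal.comap ρ v.asIdeal := by
      intro b hb
      rw [Ideal.mem_comap, (RingHom.mem_ker).mp hb]
      exact v.asIdeal.zero_mem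
    have hmem := h (Ideal.comap ρ v.asIdeal) hk
    rw [s33s_W, Valuation.mem_valuationSubring_iff] at hmem
    have hv : s33s_vNode ρ hsurj hD (Ideal.comap ρ v.asIdeal) hk = v := by
      ext1
      exact Ideal.map_comap_of_surjective ρ hsurj v.asIdeal
    rwa [hv] at hmem
  obtain ⟨d, hd⟩ := HeightOneSpectrum.mem_integers_of_valuation_le_one Fb φ hall
  exact ⟨d, hd⟩

end Range

end Fermat.Agent.Lib.S44
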