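/-
M-AT-P programme (S44), wall W4′, brick [DIV-p] (helper9), generic part.

Setting = helper4's `CoreGlue.lean` (two discrete valuation rings `O true = V_∞`, `O false = V_0` of `𝓕` with
common uniformiser `π`, a chart `S` with chart ring `B`, a Dedekind domain `D` with fraction field `Fb`,
`ρ i : B →+* D` surjective with kernel the component prime `𝔭_i`, `R : O i →+* Fb` an extension of
`r_i = algebraMap D Fb ∘ ρ i`).

* `s44q_centre`   : a place `v₀` of `Fb` whose valuation ring contains `D` has a centre `𝔮` on `D`, a maximal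
                    ideal, and the elements of `D ∖ 𝔮` are units of `O_{v₀}`;
* `s44q_divp_gen` : **[DIV-p], generic form**: `f` a unit of both `O i`, without zero or pole at the node places
                    of the chart, with the exact (Q4) `ord_Q f = p · ord_Q Φ` at every closed point of the
                    component `i` of the chart ⇒ `p ∣ ord_{v₀} (R f)` for every place `v₀ ⊇ D`.
-/
import Fermat.Agent.Lib.S44.CoreGlue

set_option autoImplicit false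
set_option linter.style.haveILetI false
set_option linter.unusedSectionVars false

noncomputable section

namespace Fermat.Agent.Lib.S44

open AlgebraicCurve Fermat.Agent.Lib.FF Fermat.Agent.Lib.S18 Fermat.Agent.Lib.S34
  Fermat.Agent.Lib.S33

section Centre

variable {D Fb : Type*} [CommRing D] [IsDedekindDomain D] [Field Fb] [Algebra D Fb]
  [IsFractionRing D Fb] {κ : Type*} [Field κ] [Algebra κ Fb]

/-- **the centre on `D`** of a place whose valuation ring contains `D`. -/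
theorem s44q_centre (v₀ : Place κ Fb)
    (hDv : ∀ d : D, algebraMap D Fb d ∈ v₀.toValuationSubring) :
    ∃ 𝔮 : Ideal D, 𝔮.IsMaximal ∧
      ∀ d : D, d ∉ 𝔮 → (algebraMap D Fb d)⁻¹ ∈ v₀.toValuationSubring := by
  set ψ : D →+* v₀.toValuationSubring :=
    (algebraMap D Fb).codRestrict v₀.toValuationSubring.toSubring hDv with hψ
  set 𝔮 : Ideal D := Ideal.comap ψ (IsLocalRing.maximalIdeal v₀.toValuationSubring) with h𝔮
  have hunit : ∀ d : D, d ∉ 𝔮 → (algebraMap D Fb d)⁻¹ ∈ v₀.toValuationSubring := by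
    intro d hd
    have h1 : ψ d ∉ IsLocalRing.maximalIdeal v₀.toValuationSubring := hd
    have h2 : IsUnit (ψ d) := by
      by_contra hnu
      exact h1 ((IsLocalRing.mem_maximalIdeal _).mpr hnu)
    obtain ⟨u, hu⟩ := h2
    have h4 : (u : v₀.toValuationSubring) *
        ((u⁻¹ : (v₀.toValuationSubring)ˣ) : v₀.toValuationSubring) = 1 := u.mul_inv
    have h3 : ((u : v₀.toValuationSubring) : Fb) *
        ((u⁻¹ : (v₀.toValuationSubring)ˣ) : v₀.toValuationSubring) = 1 :=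
      congrArg Subtype.val h4
    have h5 : ((u : v₀.toValuationSubring) : Fb) = algebraMap D Fb d := by
      rw [hu]
      rfl
    rw [← h5, inv_eq_of_mul_eq_one_right h3]
    exact Subtype.mem _
  haveI hprime : 𝔮.IsPrime := Ideal.comap_isPrime ψ _
  have hne : 𝔮 ≠ ⊥ := by
    intro hbot
    apply v₀.ne_top'
    refine SetLike.ext fun x => ⟨fun _ => ValuationSubring.mem_top x, fun _ => ?_⟩
    obtain ⟨a, b, hb, rfl⟩ := IsFractionRing.div_surjective (A := D) x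
    have hb0 : b ≠ 0 := nonZeroDivisors.ne_zero hb
    have hb𝔮 : b ∉ 𝔮 := by
      rw [hbot, Ideal.mem_bot]
      exact hb0
    rw [div_eq_mul_inv]
    exact v₀.toValuationSubring.mul_mem _ _ (hDv a) (hunit b hb𝔮)
  exact ⟨𝔮, hprime.isMaximal hne, hunit⟩

end Centre

section Generic

variable {L₀ 𝓕 : Type*} [Field L₀] [Field 𝓕] [Algebra L₀ 𝓕]
  {D Fb : Type*} [CommRing D] [IsDedekindDomain D] [Field Fb] [Algebra D Fb] [IsFractionRing D Fb]
  {κ : Type*} [Field κ] [Algebra κ Fb]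

variable (O : Bool → ValuationSubring 𝓕) (π : 𝓕) (S : Set (Place L₀ 𝓕))
  (ρ : Bool → (s34x_ring (s34x_infRing O) S →+* D))

/-- **[DIV-p], generic form.** -/
theorem s44q_divp_gen (v₀ : Place κ Fb)
    (hDv : ∀ d : D, algebraMap D Fb d ∈ v₀.toValuationSubring)
    (hπ0 : π ≠ 0) (hπO : ∀ i, π ∈ O i)
    (hUi : ∀ i, ∀ U : 𝓕, U ≠ 0 → ∃ (n : ℤ) (u : 𝓕), u ∈ O i ∧ u⁻¹ ∈ O i ∧ U = π ^ n * u)
    (hfin : ∀ y : 𝓕, y ≠ 0 → {Q : Place L₀ 𝓕 | Q ∈ S ∧ Q.ord y ≠ 0}.Finite)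
    (hπS : ∀ Q ∈ S, Q.ord π = 0)
    (i : Bool) (hsurj : Function.Surjective (ρ i)) (hD : ¬ IsField D)
    (hker : RingHom.ker (ρ i) = s33s_comp O π S i)
    (R : O i →+* Fb)
    (hR : ∀ b : s34x_ring (s34x_infRing O) S,
      R ⟨(b : 𝓕), s33s_ring_mem O S i b⟩ = s33s_r (ρ i) b)
    (p : ℕ) (f : 𝓕) (hf0 : f ≠ 0) (hfO : ∀ j, f ∈ O j) (hfO' : ∀ j, f⁻¹ ∈ O j)
    (hnode : ∀ Q ∈ s33s_nodePlaces O π S, Q.ord f = 0)
    (hQ4 : ∀ 𝔫 : Ideal (s34x_ring (s34x_infRing O) S), 𝔫.IsMaximal → s33s_comp O π S i ≤ 𝔫 →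
      ∃ Φ : 𝓕, Φ ≠ 0 ∧ ∀ Q ∈ S, s34f_through (s34x_infRing O) S 𝔫 Q →
        Q.ord f = (p : ℤ) * Q.ord Φ) :
    (p : ℤ) ∣ v₀.ord (R ⟨f, hfO i⟩) := by
  classical
  obtain ⟨𝔮, h𝔮max, h𝔮⟩ := s44q_centre v₀ hDv
  haveI := h𝔮max
  set 𝔪 : Ideal (s34x_ring (s34x_infRing O) S) := Ideal.comap (ρ i) 𝔮 with h𝔪def
  haveI h𝔪max : 𝔪.IsMaximal := Ideal.comap_isMaximal_of_surjective (ρ i) hsurj
  haveI h𝔪prime : 𝔪.IsPrime := h𝔪max.isPrime
  have hk : RingHom.ker (ρ i) ≤ 𝔪 := by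
    intro b hb
    rw [h𝔪def, Ideal.mem_comap, (RingHom.mem_ker).mp hb]
    exact 𝔮.zero_mem
  have hcomp : s33s_comp O π S i ≤ 𝔪 := by
    rw [← hker]
    exact hk
  -- the branch `W_𝔪` lies in `O_{v₀}`
  have hW : ∀ x : Fb, x ∈ s33s_W (Fb := Fb) (ρ i) hsurj hD 𝔪 hk → x ∈ v₀.toValuationSubring := by
    intro x hx
    obtain ⟨c, b, hc, e⟩ := (s33s_mem_W_iff (ρ i) hsurj hD 𝔪 hk x).mp hx
    have hc' : ρ i c ∉ 𝔮 := hc
    have h1 := h𝔮 _ hc'
    have hne : algebraMap D Fb (ρ i c) ≠ 0 := by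
      intro h0
      apply hc'
      have : ρ i c = 0 := (map_eq_zero_iff _ (IsFractionRing.injective D Fb)).mp h0
      rw [this]
      exact 𝔮.zero_mem
    have hx' : x = (algebraMap D Fb (ρ i c))⁻¹ * algebraMap D Fb (ρ i b) := by
      rw [s33s_r_apply, s33s_r_apply] at e
      rw [← e, ← mul_assoc, inv_mul_cancel₀ hne, one_mul]
    rw [hx']
    exact v₀.toValuationSubring.mul_mem _ _ h1 (hDv _)
  have hord0 : ∀ x : Fb, x ≠ 0 → x ∈ s33s_W (Fb := Fb) (ρ i) hsurj hD 𝔪 hk →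
      x⁻¹ ∈ s33s_W (Fb := Fb) (ρ i) hsurj hD 𝔪 hk → v₀.ord x = 0 := by
    intro x hx0 h1 h2
    have a1 := (ff_mem_iff_ord_nonneg v₀ hx0).mp (hW x h1)
    have a2 := (ff_mem_iff_ord_nonneg v₀ (inv_ne_zero hx0)).mp (hW _ h2)
    rw [v₀.ord_inv] at a2
    omega
  -- `R` of an inverse
  have hRinv : ∀ (y : 𝓕) (hy0 : y ≠ 0) (hy : y ∈ O i) (hy' : y⁻¹ ∈ O i),
      R ⟨y⁻¹, hy'⟩ = (R ⟨y, hy⟩)⁻¹ ∧ R ⟨y, hy⟩ ≠ 0 := by
    intro y hy0 hy hy'
    have h1 : R ⟨y, hy⟩ * R ⟨y⁻¹, hy'⟩ = 1 := by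
      rw [← map_mul]
      have : (⟨y, hy⟩ * ⟨y⁻¹, hy'⟩ : O i) = 1 := Subtype.ext (mul_inv_cancel₀ hy0)
      rw [this, map_one]
    exact ⟨eq_inv_of_mul_eq_one_right h1, left_ne_zero_of_mul_eq_one h1⟩
  by_cases hnot : s33s_comp O π S (!i) ≤ 𝔪
  · -- a node: `f` and `1 / f` are regular there
    have hn : s33s_IsNode O π S 𝔪 := by
      cases i
      · exact ⟨h𝔪max, hnot, hcomp⟩
      · exact ⟨h𝔪max, hcomp, hnot⟩
    have key : ∀ (y : 𝓕) (hy0 : y ≠ 0) (hyO : ∀ j, y ∈ O j)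
        (hyn : ∀ Q ∈ s33s_nodePlaces O π S, Q.ord y = 0),
        R ⟨y, hyO i⟩ ∈ s33s_W (Fb := Fb) (ρ i) hsurj hD 𝔪 hk := by
      intro y hy0 hyO hyn
      have hyinf : y ∈ s34x_infRing O := (s34x_mem_infRing O y).mpr hyO
      have hreg : ∀ Q ∈ S, s34f_through (s34x_infRing O) S 𝔪 Q → y ∈ Q.toValuationSubring := by
        intro Q hQ hth
        rw [ff_mem_iff_ord_nonneg Q hy0, hyn Q ⟨hQ, 𝔪, hn, hth⟩]
      obtain ⟨s, hs, hsy⟩ := s33s_frac_of_reg (s34x_infRing O) S 𝔪 y hyinf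
        (s44c_finite_poles S hfin y) hreg
      rw [s33s_mem_W_iff]
      refine ⟨s, ⟨(s : 𝓕) * y, hsy⟩, hs, ?_⟩
      rw [← hR, ← hR, ← map_mul]
      exact congrArg R (Subtype.ext rfl)
    have h1 := key f hf0 hfO hnode
    have h2 := key f⁻¹ (inv_ne_zero hf0) hfO' (fun Q hQ => by rw [Q.ord_inv, hnode Q hQ, neg_zero])
    obtain ⟨e1, e2⟩ := hRinv f hf0 (hfO i) (hfO' i)
    rw [e1] at h2
    rw [hord0 _ e2 h1 h2]
    exact dvd_zero _
  · -- a smooth point of the component `i`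
    obtain ⟨Φ, hΦ0, hΦ⟩ := hQ4 𝔪 h𝔪max hcomp
    obtain ⟨n, u, hu, hu', e⟩ := hUi i Φ hΦ0
    have hu0 : u ≠ 0 := by
      rintro rfl
      apply hΦ0
      rw [e, mul_zero]
    have hup0 : u ^ p ≠ 0 := pow_ne_zero _ hu0
    have hE : f * (u ^ p)⁻¹ ∈ O i := by
      rw [← inv_pow]
      exact (O i).mul_mem _ _ (hfO i) ((O i).pow_mem hu' p)
    have hE' : (f * (u ^ p)⁻¹)⁻¹ ∈ O i := by
      rw [mul_inv, inv_inv]
      exact (O i).mul_mem _ _ (hfO' i) ((O i).pow_mem hu p)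
    have hE0 : f * (u ^ p)⁻¹ ≠ 0 := mul_ne_zero hf0 (inv_ne_zero hup0)
    have hordE : ∀ Q ∈ s44c_thr O S 𝔪, Q.ord (f * (u ^ p)⁻¹) = 0 := by
      rintro Q ⟨hQ, hth⟩
      have h1 : Q.ord Φ = Q.ord u := by
        rw [e, Q.ord_mul (zpow_ne_zero _ hπ0) hu0, Q.ord_zpow, hπS Q hQ, mul_zero, zero_add]
      rw [Q.ord_mul hf0 (inv_ne_zero hup0), Q.ord_inv, ← zpow_natCast, Q.ord_zpow, hΦ Q hQ hth, h1]
      ring
    have hregE : ∀ Q ∈ s44c_thr O S 𝔪, f * (u ^ p)⁻¹ ∈ Q.toValuationSubring := by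
      intro Q hQ
      rw [ff_mem_iff_ord_nonneg Q hE0, hordE Q hQ]
    have hregE' : ∀ Q ∈ s44c_thr O S 𝔪, (f * (u ^ p)⁻¹)⁻¹ ∈ Q.toValuationSubring := by
      intro Q hQ
      rw [ff_mem_iff_ord_nonneg Q (inv_ne_zero hE0), Q.ord_inv, hordE Q hQ, neg_zero]
    have h1 := s44c_reg_mem_W O π S ρ hπ0 hπO hUi hfin i hsurj hD 𝔪 hk hnot R hR _ hE hregE
    have h2 := s44c_reg_mem_W O π S ρ hπ0 hπO hUi hfin i hsurj hD 𝔪 hk hnot R hR _ hE' hregE'
    obtain ⟨e1, e2⟩ := hRinv _ hE0 hE hE'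
    rw [e1] at h2
    have h3 := hord0 _ e2 h1 h2
    obtain ⟨-, hRu0⟩ := hRinv u hu0 hu hu'
    have hfac : R ⟨f, hfO i⟩ = R ⟨f * (u ^ p)⁻¹, hE⟩ * R ⟨u, hu⟩ ^ p := by
      rw [← map_pow, ← map_mul]
      refine congrArg R (Subtype.ext ?_)
      show f = f * (u ^ p)⁻¹ * u ^ p
      rw [mul_assoc, inv_mul_cancel₀ hup0, mul_one]
    rw [hfac, v₀.ord_mul e2 (pow_ne_zero _ hRu0), h3, zero_add, ← zpow_natCast, v₀.ord_zpow]
    exact dvd_mul_right _ _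

end Generic

end Fermat.Agent.Lib.S44
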