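/-
M-AT-P programme (S44), wall W4′, brick [DIV-p] (helper9), modular instance, chart level and coordinate level.

* `s44q_divp_chart_true/_false` : [DIV-p] for the two Gauss valuations of `X_0(M p)`, any chart `S` with the
  hypotheses of helper8's `s33s_datumD` (one Dedekind domain `D` with fraction field `F̄_M`, …), at the places
  `v₀` of `F̄_M` whose valuation ring contains `D`;
* `s44q_divp_w_true/_false`     : the same for the chart `{α w regular}` of a coordinate `w` of level `M`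
  (`D = integralClosure κ[w̄] F̄_M`), at the places `v₀` with `w̄ ∈ O_{v₀}`.
-/
import Fermat.Agent.Lib.S44.QDivGen
import Fermat.Agent.Lib.S44.CoreInstW

set_option autoImplicit false
set_option linter.unusedSectionVars false
set_option linter.style.haveILetI false

noncomputable section

namespace Fermat.Agent.Lib.S44

open ModularCurve AlgebraicCurve HahnSeries Polynomial Fermat.Agent.Lib.FF Fermat.Agent.Lib.S18
  Fermat.Agent.Lib.S34 Fermat.Agent.Lib.S37 Fermat.Agent.Lib.S33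

local notation "Kb" => AlgebraicClosure ℚ

section Chart

variable {K₀ : Type} [Field K₀] [CharZero K₀] [Algebra ℚ K₀] {κ : Type} [Field κ]
  (G : s18g_GaussData K₀ κ) (φ : K₀ →+* Kb) (M p : ℕ) [NeZero M] [hp : Fact p.Prime]
  (hpM : ¬ p ∣ M) [CharP κ p] [PerfectRing κ p]
  (hdeg : s34m_HDeg K₀ M p) (hT : s18g_HT κ M) (hdegM : s18g_HDeg K₀ M)
  (S : Set (Place K₀ (s34m_F K₀ (M * p))))

local notation "FbM" => modularFunctionFieldFullC κ M
local notation "OO" => s34m_VV G φ M p hp.out hpM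
local notation "ϖF" => s34m_unif G (M * p)
local notation "BS" => s34x_ring (s34x_infRing (s34m_VV G φ M p hp.out hpM)) S

variable {D : Type*} [CommRing D] [IsDedekindDomain D] [Algebra D ↥(modularFunctionFieldFullC κ M)]
  [IsFractionRing D ↥(modularFunctionFieldFullC κ M)] (hD : ¬ IsField D)
  (hF : ∀ i y, s33s_redL G φ M p hp.out hpM i y ∈ modularFunctionFieldFullC κ M)
  (hint : ∀ (i : Bool) (b : s34x_ring (s34x_infRing (s34m_VV G φ M p hp.out hpM)) S),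
    ∃ d : D, algebraMap D ↥(modularFunctionFieldFullC κ M) d =
      s33s_redO G φ M p hp.out hpM (modularFunctionFieldFullC κ M) hF i
        ⟨(b : s34m_F K₀ (M * p)), b.2.1⟩)
  (BM : Set (s34m_F K₀ M)) (hBMV : ∀ g ∈ BM, g ∈ s34m_Vinf G M)
  (hαB : ∀ g ∈ BM, heckeAlphaBar K₀ M p g ∈
    s34x_ring (s34x_infRing (s34m_VV G φ M p hp.out hpM)) S)
  (hβB : ∀ g ∈ BM, ∃ b' ∈ s34x_ring (s34x_infRing (s34m_VV G φ M p hp.out hpM)) S,
    ∃ z, z ∈ s34m_Vinf G (M * p) ∧ z ∈ s34m_Vzero G φ M p hp.out hpM ∧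
      b' - heckeBetaBar K₀ M p g = s34m_unif G (M * p) * z)
  (hlift : ∀ d : D, ∃ g, ∃ hg : g ∈ BM,
    s34m_redInf G M ⟨g, hBMV g hg⟩ =
      ((algebraMap D ↥(modularFunctionFieldFullC κ M) d : ↥(modularFunctionFieldFullC κ M)) :
        LaurentSeries κ))
  (htw : ∀ d : D, ∃ d' : D, qExpand κ p
    ((algebraMap D ↥(modularFunctionFieldFullC κ M) d : ↥(modularFunctionFieldFullC κ M)) :
      LaurentSeries κ) =
    ((algebraMap D ↥(modularFunctionFieldFullC κ M) d' : ↥(modularFunctionFieldFullC κ M)) :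
      LaurentSeries κ) ^ p)

local notation "ρρ" => s33s_rhoD G φ M p hp.out hpM (modularFunctionFieldFullC κ M) S hF hint

/-- the uniformiser, as a constant of the chart ring. -/
local notation "ϖB" => s34x_const (s34x_infRing (s34m_VV G φ M p hp.out hpM)) S
  ((G.ϖ : G.A) : K₀)
  (s34x_inf_const_mem (s34m_VV G φ M p hp.out hpM) G.A (s34c_const_mem_VV G φ M p hp.out hpM) G.ϖ)

/-- the uniformiser lies in every component prime. -/
theorem s44q_unif_mem_comp (i : Bool) : ϖB ∈ s33s_comp OO ϖF S i := by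
  rw [s33s_mem_comp]
  refine ⟨1, (OO i).one_mem, ?_⟩
  rw [mul_one]
  rfl

/-- the uniformiser has order `0` at every place. -/
theorem s44q_ord_unif (Q : Place K₀ (s34m_F K₀ (M * p))) : Q.ord ϖF = 0 :=
  ff_ord_algebraMap Q _

include hF hint hαB hβB hlift htw hD in
/-- **[DIV-p], chart level, `∞`-component.** -/
theorem s44q_divp_chart_true (v₀ : Place κ ↥FbM)
    (hDv : ∀ d : D, algebraMap D ↥FbM d ∈ v₀.toValuationSubring)
    (f : s34m_F K₀ (M * p)) (hf0 : f ≠ 0)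
    (hfI : f ∈ s34m_Vinf G (M * p)) (hfI' : f⁻¹ ∈ s34m_Vinf G (M * p))
    (hfZ : f ∈ s34m_Vzero G φ M p hp.out hpM) (hfZ' : f⁻¹ ∈ s34m_Vzero G φ M p hp.out hpM)
    (hnode : ∀ Q ∈ s33s_nodePlaces OO ϖF S, Q.ord f = 0)
    (hQ4 : ∀ 𝔫 : Ideal BS, 𝔫.IsMaximal → ϖB ∈ 𝔫 →
      ∃ Φ : s34m_F K₀ (M * p), Φ ≠ 0 ∧ ∀ Q ∈ S, s34f_through (s34x_infRing OO) S 𝔫 Q →
        Q.ord f = ((p : ℕ) : ℤ) * Q.ord Φ) :
    (p : ℤ) ∣ v₀.ord (s33y_redI G φ M p hpM hdeg hT hdegM ⟨f, hfI⟩) := by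
  have hfO : ∀ j, f ∈ OO j := by
    intro j
    cases j
    · exact hfZ
    · exact hfI
  have hfO' : ∀ j, f⁻¹ ∈ OO j := by
    intro j
    cases j
    · exact hfZ'
    · exact hfI'
  exact s44q_divp_gen OO ϖF S ρρ v₀ hDv (s34m_unif_ne_zero G (M * p))
    (s34m_unif_mem_VV G φ M p hp.out hpM)
    (fun i U hU => s34m_exists_zpow_VV G φ M p hp.out hpM i U hU) (s33s_inst_hfin φ M p S)
    (fun Q _ => s44q_ord_unif G M p Q) true
    (s33s_inst_rho_surjective G φ M p hpM S hF hint BM hBMV hαB hβB hlift htw true) hD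
    (s44c_ker_rho G φ M p hpM S hF hint true)
    (s33y_redI G φ M p hpM hdeg hT hdegM)
    (s44c_redI_ring G φ M p hpM hdeg hT hdegM S hF hint) p f hf0 hfO hfO' hnode
    (fun 𝔫 h𝔫 hle => hQ4 𝔫 h𝔫 (hle (s44q_unif_mem_comp G φ M p hpM S true)))

include hF hint hαB hβB hlift htw hD in
/-- **[DIV-p], chart level, `0`-component.** -/
theorem s44q_divp_chart_false (v₀ : Place κ ↥FbM)
    (hDv : ∀ d : D, algebraMap D ↥FbM d ∈ v₀.toValuationSubring)
    (f : s34m_F K₀ (M * p)) (hf0 : f ≠ 0)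
    (hfI : f ∈ s34m_Vinf G (M * p)) (hfI' : f⁻¹ ∈ s34m_Vinf G (M * p))
    (hfZ : f ∈ s34m_Vzero G φ M p hp.out hpM) (hfZ' : f⁻¹ ∈ s34m_Vzero G φ M p hp.out hpM)
    (hnode : ∀ Q ∈ s33s_nodePlaces OO ϖF S, Q.ord f = 0)
    (hQ4 : ∀ 𝔫 : Ideal BS, 𝔫.IsMaximal → ϖB ∈ 𝔫 →
      ∃ Φ : s34m_F K₀ (M * p), Φ ≠ 0 ∧ ∀ Q ∈ S, s34f_through (s34x_infRing OO) S 𝔫 Q →
        Q.ord f = ((p : ℕ) : ℤ) * Q.ord Φ) :
    (p : ℤ) ∣ v₀.ord (s33y_redZ G φ M p hpM hdeg hT hdegM ⟨f, hfZ⟩) := by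
  have hfO : ∀ j, f ∈ OO j := by
    intro j
    cases j
    · exact hfZ
    · exact hfI
  have hfO' : ∀ j, f⁻¹ ∈ OO j := by
    intro j
    cases j
    · exact hfZ'
    · exact hfI'
  exact s44q_divp_gen OO ϖF S ρρ v₀ hDv (s34m_unif_ne_zero G (M * p))
    (s34m_unif_mem_VV G φ M p hp.out hpM)
    (fun i U hU => s34m_exists_zpow_VV G φ M p hp.out hpM i U hU) (s33s_inst_hfin φ M p S)
    (fun Q _ => s44q_ord_unif G M p Q) false
    (s33s_inst_rho_surjective G φ M p hpM S hF hint BM hBMV hαB hβB hlift htw false) hD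
    (s44c_ker_rho G φ M p hpM S hF hint false)
    (s33y_redZ G φ M p hpM hdeg hT hdegM)
    (s44c_redZ_ring G φ M p hpM hdeg hT hdegM S hF hint) p f hf0 hfO hfO' hnode
    (fun 𝔫 h𝔫 hle => hQ4 𝔫 h𝔫 (hle (s44q_unif_mem_comp G φ M p hpM S false)))

end Chart

section Wrap

variable {K₀ : Type} [Field K₀] [CharZero K₀] [Algebra ℚ K₀] {κ : Type} [Field κ]
  (G : s18g_GaussData K₀ κ) (φ : K₀ →+* Kb) (M p : ℕ) [NeZero M] [hp : Fact p.Prime]
  (hpM : ¬ p ∣ M) [CharP κ p] [PerfectField κ]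

local notation "𝓕M" => laurentBaseChange K₀ (modularFunctionFieldFull M)
local notation "𝓕N" => laurentBaseChange K₀ (modularFunctionFieldFull (M * p))
local notation "hFM" => (fun (f : LaurentSeries K₀)
  (hf : f ∈ laurentBaseChange K₀ (modularFunctionFieldFull M)) => s18g_baseChange_mem_Frac G M hf)
local notation "FbM" => modularFunctionFieldFullC κ M
local notation "OO" => s34m_VV G φ M p hp.out hpM
local notation "ϖF" => s34m_unif G (M * p)

variable (hdeg : s34m_HDeg K₀ M p) (hT : s18g_HT κ M) (hdegM : s18g_HDeg K₀ M)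

variable [IsDiscreteValuationRing G.A] (w : ↥(laurentBaseChange K₀ (modularFunctionFieldFull M))) (hwV : w ∈ s18g_V G (laurentBaseChange K₀ (modularFunctionFieldFull M)) (fun (f : LaurentSeries K₀) (hf : f ∈ laurentBaseChange K₀ (modularFunctionFieldFull M)) => s18g_baseChange_mem_Frac G M hf))
    (hcoord : s37b_Coord κ p
      ((s18g_redF G M (fun (f : LaurentSeries K₀) (hf : f ∈ laurentBaseChange K₀ (modularFunctionFieldFull M)) => s18g_baseChange_mem_Frac G M hf) hT hdegM ⟨w, hwV⟩ : ↥(modularFunctionFieldFullC κ M)) : LaurentSeries κ))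
    (hwtw : ∀ τ : κ ≃+* κ, ModularCurve.coeffMap (τ : κ →+* κ)
      ((s18g_redF G M (fun (f : LaurentSeries K₀) (hf : f ∈ laurentBaseChange K₀ (modularFunctionFieldFull M)) => s18g_baseChange_mem_Frac G M hf) hT hdegM ⟨w, hwV⟩ : ↥(modularFunctionFieldFullC κ M)) : LaurentSeries κ) =
      ((s18g_redF G M (fun (f : LaurentSeries K₀) (hf : f ∈ laurentBaseChange K₀ (modularFunctionFieldFull M)) => s18g_baseChange_mem_Frac G M hf) hT hdegM ⟨w, hwV⟩ : ↥(modularFunctionFieldFullC κ M)) : LaurentSeries κ))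
    (hmain : letI := s18f_algF G M hT hdegM w hwV
      ∀ z : ↥(modularFunctionFieldFullC κ M), IsIntegral κ[X] z →
        ∃ (b : ↥(laurentBaseChange K₀ (modularFunctionFieldFull M))) (hb : b ∈ s18_ring (L₀ := K₀) (s18g_V G (laurentBaseChange K₀ (modularFunctionFieldFull M)) (fun (f : LaurentSeries K₀) (hf : f ∈ laurentBaseChange K₀ (modularFunctionFieldFull M)) => s18g_baseChange_mem_Frac G M hf)) (s18_chart1 w)),
          s18g_redF G M (fun (f : LaurentSeries K₀) (hf : f ∈ laurentBaseChange K₀ (modularFunctionFieldFull M)) => s18g_baseChange_mem_Frac G M hf) hT hdegM ⟨b, hb.1⟩ = z)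
    (wN : ↥(laurentBaseChange K₀ (modularFunctionFieldFull (M * p)))) (hwN : heckeAlphaBar K₀ M p w = wN) [FFGen K₀ wN]
    (hαN : ∀ y ∈ s34x_infRing (s34m_VV G φ M p hp.out hpM), ∃ s : G.A[X], s.map G.π ≠ 0 ∧
      (s18b_ev G (laurentBaseChange K₀ (modularFunctionFieldFull (M * p))) wN).IsIntegralElem (s18b_ev G (laurentBaseChange K₀ (modularFunctionFieldFull (M * p))) wN s * y))
    (hαB : ∀ g ∈ (s18_ring (L₀ := K₀) (s34m_Vinf G M) (s18_chart1 w) : Set (s34m_F K₀ M)),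
      heckeAlphaBar K₀ M p g ∈ s34x_ring (s34x_infRing (s34m_VV G φ M p hp.out hpM))
        (s18_chart1 (L₀ := K₀) wN))
    (hβB : ∀ g ∈ (s18_ring (L₀ := K₀) (s34m_Vinf G M) (s18_chart1 w) : Set (s34m_F K₀ M)),
      ∃ b' ∈ s34x_ring (s34x_infRing (s34m_VV G φ M p hp.out hpM)) (s18_chart1 (L₀ := K₀) wN),
      ∃ z, z ∈ s34m_Vinf G (M * p) ∧ z ∈ s34m_Vzero G φ M p hp.out hpM ∧
        b' - heckeBetaBar K₀ M p g = s34m_unif G (M * p) * z)

/-- the valuation ring of a place of `F̄_M` containing `w̄` contains `D = integralClosure κ[w̄] F̄_M`. -/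
theorem s44q_D_le_place (v₀ : Place κ ↥FbM)
    (hwv : s18g_redF G M hFM hT hdegM ⟨w, hwV⟩ ∈ v₀.toValuationSubring) :
    letI := s18f_algF G M hT hdegM w hwV
    ∀ d : ↥(integralClosure κ[X] ↥(modularFunctionFieldFullC κ M)),
      algebraMap ↥(integralClosure κ[X] ↥(modularFunctionFieldFullC κ M))
        ↥(modularFunctionFieldFullC κ M) d ∈ v₀.toValuationSubring := by
  letI := s18f_algF G M hT hdegM w hwV
  intro d
  exact s33i_mem_of_isIntegral_adjoin v₀.toValuationSubring v₀.algebraMap_mem' hwv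
    (s33i_isIntegral_adjoin_of_poly _ (s18f_algF_apply G M hT hdegM w hwV) d.2)

include hcoord hwtw hmain hwN hαN hαB hβB in
/-- **[DIV-p] for the chart `{α w regular}`, `∞`-component**, at the places `v₀` with `w̄ ∈ O_{v₀}`. -/
theorem s44q_divp_w_true (v₀ : Place κ ↥FbM)
    (hwv : s18g_redF G M hFM hT hdegM ⟨w, hwV⟩ ∈ v₀.toValuationSubring)
    (f : s34m_F K₀ (M * p)) (hf0 : f ≠ 0)
    (hfI : f ∈ s34m_Vinf G (M * p)) (hfI' : f⁻¹ ∈ s34m_Vinf G (M * p))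
    (hfZ : f ∈ s34m_Vzero G φ M p hp.out hpM) (hfZ' : f⁻¹ ∈ s34m_Vzero G φ M p hp.out hpM)
    (hnode : ∀ Q ∈ s33s_nodePlaces OO ϖF (s18_chart1 (L₀ := K₀) wN), Q.ord f = 0)
    (hQ4 : ∀ 𝔫 : Ideal (s34x_ring (s34x_infRing OO) (s18_chart1 (L₀ := K₀) wN)), 𝔫.IsMaximal →
      s34x_const (s34x_infRing OO) (s18_chart1 (L₀ := K₀) wN) ((G.ϖ : G.A) : K₀)
        (s34x_inf_const_mem OO G.A (s34c_const_mem_VV G φ M p hp.out hpM) G.ϖ) ∈ 𝔫 →
      ∃ Φ : s34m_F K₀ (M * p), Φ ≠ 0 ∧ ∀ Q ∈ s18_chart1 (L₀ := K₀) wN,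
        s34f_through (s34x_infRing OO) (s18_chart1 (L₀ := K₀) wN) 𝔫 Q →
        Q.ord f = ((p : ℕ) : ℤ) * Q.ord Φ) :
    (p : ℤ) ∣ v₀.ord (s33y_redI G φ M p hpM hdeg hT hdegM ⟨f, hfI⟩) := by
  letI := s18f_algF G M hT hdegM w hwV
  haveI := (s37b_dedekind_of_coord κ p M (s18g_redF G M hFM hT hdegM ⟨w, hwV⟩) hcoord
    (s18f_algF_apply G M hT hdegM w hwV)).1
  haveI := (s37b_dedekind_of_coord κ p M (s18g_redF G M hFM hT hdegM ⟨w, hwV⟩) hcoord
    (s18f_algF_apply G M hT hdegM w hwV)).2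
  exact s44q_divp_chart_true G φ M p hpM hdeg hT hdegM (s18_chart1 (L₀ := K₀) wN)
    (D := ↥(integralClosure κ[X] ↥(modularFunctionFieldFullC κ M)))
    (s33s_w_hD G M p hT hdegM w hwV hcoord)
    (s33s_w_hF G φ M p hpM hdeg hT hdegM)
    (s33s_w_hint G φ M p hpM hdeg hT hdegM w hwV hwtw wN hwN hαN)
    (s18_ring (L₀ := K₀) (s34m_Vinf G M) (s18_chart1 w) : Set (s34m_F K₀ M))
    (fun _ hg => hg.1) hαB hβB
    (s33s_w_hlift G M hT hdegM w hwV hmain)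
    (s33s_w_htw G M p hT hdegM w hwV hwtw)
    v₀ (s44q_D_le_place G M hT hdegM w hwV v₀ hwv) f hf0 hfI hfI' hfZ hfZ' hnode hQ4

include hcoord hwtw hmain hwN hαN hαB hβB in
/-- **[DIV-p] for the chart `{α w regular}`, `0`-component**, at the places `v₀` with `w̄ ∈ O_{v₀}`. -/
theorem s44q_divp_w_false (v₀ : Place κ ↥FbM)
    (hwv : s18g_redF G M hFM hT hdegM ⟨w, hwV⟩ ∈ v₀.toValuationSubring)
    (f : s34m_F K₀ (M * p)) (hf0 : f ≠ 0)
    (hfI : f ∈ s34m_Vinf G (M * p)) (hfI' : f⁻¹ ∈ s34m_Vinf G (M * p))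
    (hfZ : f ∈ s34m_Vzero G φ M p hp.out hpM) (hfZ' : f⁻¹ ∈ s34m_Vzero G φ M p hp.out hpM)
    (hnode : ∀ Q ∈ s33s_nodePlaces OO ϖF (s18_chart1 (L₀ := K₀) wN), Q.ord f = 0)
    (hQ4 : ∀ 𝔫 : Ideal (s34x_ring (s34x_infRing OO) (s18_chart1 (L₀ := K₀) wN)), 𝔫.IsMaximal →
      s34x_const (s34x_infRing OO) (s18_chart1 (L₀ := K₀) wN) ((G.ϖ : G.A) : K₀)
        (s34x_inf_const_mem OO G.A (s34c_const_mem_VV G φ M p hp.out hpM) G.ϖ) ∈ 𝔫 →
      ∃ Φ : s34m_F K₀ (M * p), Φ ≠ 0 ∧ ∀ Q ∈ s18_chart1 (L₀ := K₀) wN,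
        s34f_through (s34x_infRing OO) (s18_chart1 (L₀ := K₀) wN) 𝔫 Q →
        Q.ord f = ((p : ℕ) : ℤ) * Q.ord Φ) :
    (p : ℤ) ∣ v₀.ord (s33y_redZ G φ M p hpM hdeg hT hdegM ⟨f, hfZ⟩) := by
  letI := s18f_algF G M hT hdegM w hwV
  haveI := (s37b_dedekind_of_coord κ p M (s18g_redF G M hFM hT hdegM ⟨w, hwV⟩) hcoord
    (s18f_algF_apply G M hT hdegM w hwV)).1
  haveI := (s37b_dedekind_of_coord κ p M (s18g_redF G M hFM hT hdegM ⟨w, hwV⟩) hcoord
    (s18f_algF_apply G M hT hdegM w hwV)).2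
  exact s44q_divp_chart_false G φ M p hpM hdeg hT hdegM (s18_chart1 (L₀ := K₀) wN)
    (D := ↥(integralClosure κ[X] ↥(modularFunctionFieldFullC κ M)))
    (s33s_w_hD G M p hT hdegM w hwV hcoord)
    (s33s_w_hF G φ M p hpM hdeg hT hdegM)
    (s33s_w_hint G φ M p hpM hdeg hT hdegM w hwV hwtw wN hwN hαN)
    (s18_ring (L₀ := K₀) (s34m_Vinf G M) (s18_chart1 w) : Set (s34m_F K₀ M))
    (fun _ hg => hg.1) hαB hβB
    (s33s_w_hlift G M hT hdegM w hwV hmain)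
    (s33s_w_htw G M p hT hdegM w hwV hwtw)
    v₀ (s44q_D_le_place G M hT hdegM w hwV v₀ hwv) f hf0 hfI hfI' hfZ hfZ' hnode hQ4

end Wrap

end Fermat.Agent.Lib.S44
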