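/-
M-AT-P programme (S44), wall W4′, brick **[DIV-p]** (helper9, for helper3 #2195/#2202), `p ≥ 5`.

`s44q_div_p` : for a Gauss datum `G` over a number field `K₀` (DVR, residue field `κ` perfect of characteristic
`p ≥ 5`, `p ∤ M`) and `f ∈ 𝓕_{K₀}(M p)`, `f ≠ 0`, a unit of `V_∞` and of `V_0`, without zero or pole at the node
places of the chart `{j regular}`, satisfying the exact (Q4) `ord_Q f = p · ord_Q Φ_𝔫` at every closed point
`𝔫 ∋ ϖ` of the chart rings of `{j regular}` and of `{1 / j regular}` (the literal conclusion of `s44q_Q4_big`):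

  `∀ v₀ : Place κ F̄_M, p ∣ ord_{v₀} (red_∞ f)`   and   `∀ v₀ : Place κ F̄_M, p ∣ ord_{v₀} (red_0 f)`.
-/
import Fermat.Agent.Lib.S44.QDivInst
import Fermat.Agent.Lib.S44.CoreFive

set_option autoImplicit false
set_option linter.unusedSectionVars false
set_option linter.style.haveILetI false

noncomputable section

namespace Fermat.Agent.Lib.S44

open ModularCurve AlgebraicCurve HahnSeries Polynomial Fermat.Agent.Lib.FF Fermat.Agent.Lib.S18
  Fermat.Agent.Lib.S34 Fermat.Agent.Lib.S37 Fermat.Agent.Lib.S33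

local notation "Kb" => AlgebraicClosure ℚ

section Five

variable (M p : ℕ) [NeZero M] [hp : Fact p.Prime] (hpM : ¬ p ∣ M) (h5 : 5 ≤ p)
  (K₀ : Type) [Field K₀] [NumberField K₀] (φ : K₀ →+* Kb)
  (κ : Type) [Field κ] [CharP κ p] [PerfectField κ]
  (G : s18g_GaussData K₀ κ) [IsDiscreteValuationRing G.A]
  (hdeg : s34m_HDeg K₀ M p) (hT : s18g_HT κ M) (hdegM : s18g_HDeg K₀ M)
  (hπ : Function.Surjective G.π)

local notation "hFM" => (fun (f : LaurentSeries K₀)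
  (hf : f ∈ laurentBaseChange K₀ (modularFunctionFieldFull M)) => s18g_baseChange_mem_Frac G M hf)
local notation "FbM" => modularFunctionFieldFullC κ M
local notation "OO" => s34m_VV G φ M p hp.out hpM
local notation "ϖF" => s34m_unif G (M * p)
local notation "jM" => s18g_jF (K := K₀) M
local notation "jN" => s18g_jF (K := K₀) (M * p)
local notation "S₁" => s18_chart1 (L₀ := K₀) (s18g_jF (K := K₀) (M * p))
local notation "S₂" => s18_chart2 (L₀ := K₀) (s18g_jF (K := K₀) (M * p))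

include h5 hπ in
/-- **[DIV-p]** (both components). -/
theorem s44q_div_p (f : s34m_F K₀ (M * p)) (hf0 : f ≠ 0)
    (hfI : f ∈ s34m_Vinf G (M * p)) (hfI' : f⁻¹ ∈ s34m_Vinf G (M * p))
    (hfZ : f ∈ s34m_Vzero G φ M p hp.out hpM) (hfZ' : f⁻¹ ∈ s34m_Vzero G φ M p hp.out hpM)
    (hnode : ∀ Q ∈ s33s_nodePlaces OO ϖF S₁, Q.ord f = 0)
    (hQ4₁ : ∀ 𝔫 : Ideal (s34x_ring (s34x_infRing OO) S₁), 𝔫.IsMaximal →
      s34x_const (s34x_infRing OO) S₁ ((G.ϖ : G.A) : K₀)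
        (s34x_inf_const_mem OO G.A (s34c_const_mem_VV G φ M p hp.out hpM) G.ϖ) ∈ 𝔫 →
      ∃ Φ : s34m_F K₀ (M * p), Φ ≠ 0 ∧ ∀ Q ∈ S₁,
        s34f_through (s34x_infRing OO) S₁ 𝔫 Q → Q.ord f = ((p : ℕ) : ℤ) * Q.ord Φ)
    (hQ4₂ : ∀ 𝔫 : Ideal (s34x_ring (s34x_infRing OO) S₂), 𝔫.IsMaximal →
      s34x_const (s34x_infRing OO) S₂ ((G.ϖ : G.A) : K₀)
        (s34x_inf_const_mem OO G.A (s34c_const_mem_VV G φ M p hp.out hpM) G.ϖ) ∈ 𝔫 →
      ∃ Φ : s34m_F K₀ (M * p), Φ ≠ 0 ∧ ∀ Q ∈ S₂,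
        s34f_through (s34x_infRing OO) S₂ 𝔫 Q → Q.ord f = ((p : ℕ) : ℤ) * Q.ord Φ) :
    (∀ v₀ : Place κ ↥FbM, (p : ℤ) ∣ v₀.ord (s33y_redI G φ M p hpM hdeg hT hdegM ⟨f, hfI⟩)) ∧
    (∀ v₀ : Place κ ↥FbM, (p : ℤ) ∣ v₀.ord (s33y_redZ G φ M p hpM hdeg hT hdegM ⟨f, hfZ⟩)) := by
  haveI := s44c_ffGen1 M p K₀ φ
  haveI := s44c_ffGen2 M p K₀ φ
  have hinv : s18g_redF G M hFM hT hdegM ⟨jM⁻¹, s18g_jF_inv_mem_V G M hFM⟩ =
      (s18g_redF G M hFM hT hdegM ⟨jM, s18g_jF_mem_V G M hFM⟩)⁻¹ :=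
    s18f_redF_inv G M hT hdegM _ (s18g_jF_ne_zero M) (s18g_jF_mem_V G M hFM) _
  have hnode₂ : ∀ Q ∈ s33s_nodePlaces OO ϖF (s18_chart1 (L₀ := K₀) jN⁻¹), Q.ord f = 0 :=
    fun Q hQ => hnode Q (s33n_nodePlaces_chart2_subset G φ M p hp.out hpM hQ)
  constructor
  · intro v₀
    rcases v₀.toValuationSubring.mem_or_inv_mem
      (s18g_redF G M hFM hT hdegM ⟨jM, s18g_jF_mem_V G M hFM⟩) with hj | hj
    · exact s44q_divp_w_true G φ M p hpM hdeg hT hdegM jM (s18g_jF_mem_V G M hFM)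
        (by rw [s44c_hred1]; exact s37b_coord_jq κ p)
        (by intro τ; rw [s44c_hred1]; exact coeffMap_jqModC _)
        (s34df_hmain_five M p h5 K₀ φ κ G hπ hT hdegM).1
        jN (s34m_alpha_jF M p)
        (s34f_alpha_j G φ M p hp.out hpM)
        (fun g hg => s34d_alpha_liftJ₁ G φ M p hp.out hpM g hg)
        (fun g hg => s34d_beta_liftJ₁ G φ M p hp.out hpM g hg)
        v₀ hj f hf0 hfI hfI' hfZ hfZ' hnode hQ4₁
    · rw [← hinv] at hj
      exact s44q_divp_w_true G φ M p hpM hdeg hT hdegM jM⁻¹ (s18g_jF_inv_mem_V G M hFM)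
        (by rw [s44c_hred2]; exact s37b_coord_inv (s37b_coord_jq κ p))
        (by intro τ; rw [s44c_hred2, map_inv₀, coeffMap_jqModC])
        (s34df_hmain_five M p h5 K₀ φ κ G hπ hT hdegM).2
        jN⁻¹ (by rw [map_inv₀, s34m_alpha_jF])
        (s34f_alpha_inv G φ M p hp.out hpM)
        (fun g hg => s34d_alpha_liftJ₂ G φ M p hp.out hpM g hg)
        (fun g hg => s34d_beta_liftJ₂ G φ M p hp.out hpM g hg)
        v₀ hj f hf0 hfI hfI' hfZ hfZ' hnode₂ hQ4₂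
  · intro v₀
    rcases v₀.toValuationSubring.mem_or_inv_mem
      (s18g_redF G M hFM hT hdegM ⟨jM, s18g_jF_mem_V G M hFM⟩) with hj | hj
    · exact s44q_divp_w_false G φ M p hpM hdeg hT hdegM jM (s18g_jF_mem_V G M hFM)
        (by rw [s44c_hred1]; exact s37b_coord_jq κ p)
        (by intro τ; rw [s44c_hred1]; exact coeffMap_jqModC _)
        (s34df_hmain_five M p h5 K₀ φ κ G hπ hT hdegM).1
        jN (s34m_alpha_jF M p)
        (s34f_alpha_j G φ M p hp.out hpM)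
        (fun g hg => s34d_alpha_liftJ₁ G φ M p hp.out hpM g hg)
        (fun g hg => s34d_beta_liftJ₁ G φ M p hp.out hpM g hg)
        v₀ hj f hf0 hfI hfI' hfZ hfZ' hnode hQ4₁
    · rw [← hinv] at hj
      exact s44q_divp_w_false G φ M p hpM hdeg hT hdegM jM⁻¹ (s18g_jF_inv_mem_V G M hFM)
        (by rw [s44c_hred2]; exact s37b_coord_inv (s37b_coord_jq κ p))
        (by intro τ; rw [s44c_hred2, map_inv₀, coeffMap_jqModC])
        (s34df_hmain_five M p h5 K₀ φ κ G hπ hT hdegM).2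
        jN⁻¹ (by rw [map_inv₀, s34m_alpha_jF])
        (s34f_alpha_inv G φ M p hp.out hpM)
        (fun g hg => s34d_alpha_liftJ₂ G φ M p hp.out hpM g hg)
        (fun g hg => s34d_beta_liftJ₂ G φ M p hp.out hpM g hg)
        v₀ hj f hf0 hfI hfI' hfZ hfZ' hnode₂ hQ4₂

end Five

end Fermat.Agent.Lib.S44
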