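/-
M-AT-P programme (S44), wall W4′ (helper9, for helper3 #2214): **(Q4) is stable under `f ↦ c · g ^ p · f`**
(two Kummer generators of the same class): if `ord_Q f = p · ord_Q Φ` at the places of the chart through `𝔫`,
then `ord_Q (c g^p f) = p · ord_Q (g Φ)` there.  Stated for one prime `𝔫` of any chart ring, so that the
literal `hQ4` shape follows by `fun 𝔫 h1 h2 => s44q_Q4_mul_pow … (h 𝔫 h1 h2)`.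
-/
import Fermat.Agent.Lib.S34.FIface
import Fermat.Agent.Lib.FF.FFBasicPlace

set_option autoImplicit false

noncomputable section

namespace Fermat.Agent.Lib.S44

open AlgebraicCurve Fermat.Agent.Lib.FF Fermat.Agent.Lib.S18 Fermat.Agent.Lib.S34

variable {L₀ 𝓕 : Type*} [Field L₀] [Field 𝓕] [Algebra L₀ 𝓕]

/-- **(Q4) for `f` ⇒ (Q4) for `c · g ^ p · f`** (`Φ ↦ g Φ`). -/
theorem s44q_Q4_mul_pow (O : Subring 𝓕) (S : Set (Place L₀ 𝓕)) (𝔫 : Ideal (s34x_ring O S))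
    (p : ℕ) (f : 𝓕) (hf : f ≠ 0) (c : L₀) (hc : c ≠ 0) (g : 𝓕) (hg : g ≠ 0)
    (h : ∃ Φ : 𝓕, Φ ≠ 0 ∧ ∀ Q ∈ S, s34f_through O S 𝔫 Q → Q.ord f = ((p : ℕ) : ℤ) * Q.ord Φ) :
    ∃ Φ : 𝓕, Φ ≠ 0 ∧ ∀ Q ∈ S, s34f_through O S 𝔫 Q →
      Q.ord (algebraMap L₀ 𝓕 c * g ^ p * f) = ((p : ℕ) : ℤ) * Q.ord Φ := by
  obtain ⟨Φ, hΦ0, hΦ⟩ := h
  refine ⟨g * Φ, mul_ne_zero hg hΦ0, fun Q hQ hth => ?_⟩
  have hc0 : algebraMap L₀ 𝓕 c ≠ 0 := (map_ne_zero _).mpr hc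
  have hgp : g ^ p ≠ 0 := pow_ne_zero _ hg
  rw [Q.ord_mul (mul_ne_zero hc0 hgp) hf, Q.ord_mul hc0 hgp, ff_ord_algebraMap, zero_add,
    ← zpow_natCast, Q.ord_zpow, hΦ Q hQ hth, Q.ord_mul hg hΦ0]
  ring

/-- the same in the other direction (`f = c · g ^ p · f'` given (Q4) for `f`): (Q4) for `f'`. -/
theorem s44q_Q4_of_mul_pow (O : Subring 𝓕) (S : Set (Place L₀ 𝓕)) (𝔫 : Ideal (s34x_ring O S))
    (p : ℕ) (f : 𝓕) (hf : f ≠ 0) (c : L₀) (hc : c ≠ 0) (g : 𝓕) (hg : g ≠ 0)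
    (h : ∃ Φ : 𝓕, Φ ≠ 0 ∧ ∀ Q ∈ S, s34f_through O S 𝔫 Q →
      Q.ord (algebraMap L₀ 𝓕 c * g ^ p * f) = ((p : ℕ) : ℤ) * Q.ord Φ) :
    ∃ Φ : 𝓕, Φ ≠ 0 ∧ ∀ Q ∈ S, s34f_through O S 𝔫 Q → Q.ord f = ((p : ℕ) : ℤ) * Q.ord Φ := by
  obtain ⟨Φ, hΦ0, hΦ⟩ := h
  refine ⟨g⁻¹ * Φ, mul_ne_zero (inv_ne_zero hg) hΦ0, fun Q hQ hth => ?_⟩
  have hc0 : algebraMap L₀ 𝓕 c ≠ 0 := (map_ne_zero _).mpr hc
  have hgp : g ^ p ≠ 0 := pow_ne_zero _ hg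
  have h1 := hΦ Q hQ hth
  rw [Q.ord_mul (mul_ne_zero hc0 hgp) hf, Q.ord_mul hc0 hgp, ff_ord_algebraMap, zero_add,
    ← zpow_natCast, Q.ord_zpow] at h1
  rw [Q.ord_mul (inv_ne_zero hg) hΦ0, Q.ord_inv]
  linarith

end Fermat.Agent.Lib.S44
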