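/-
M-AT-P programme (S44), wall W1 [RAT] (helper9), variant for W4 (helper3's request #2195): **(Q4) OVER
EVERY BIG FINITE NORMAL FIELD.**  For `f ∈ 𝓕_L(M p)`, `p ∣ div f`, there is a number field `L₂` such that
over every finite normal `L₁ ⊇ L, L₂` the exact (Q4) holds for `f` at EVERY closed point `𝔫 ∋ ϖ` (nodes
included) of both charts of `j` over `A ∩ L₁`.  (= `s44q_Q4_inst` with `Z = L₀ = L₁`: the trivial group.)
-/
import Fermat.Agent.Lib.S44.QTopInst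

set_option autoImplicit false
set_option linter.style.haveILetI false
set_option linter.unusedSectionVars false
set_option synthInstance.maxHeartbeats 400000

noncomputable section

namespace Fermat.Agent.Lib.S44

open ModularCurve HahnSeries AlgebraicCurve Fermat.Agent.Lib.S18 Fermat.Agent.Lib.FF
  Fermat.Agent.Lib.S34 Fermat.Agent.Lib.S37 IsLocalRing

local notation "Qbar" => AlgebraicClosure ℚ

set_option maxHeartbeats 2000000 in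
/-- **(Q4) over every big finite normal field.** -/
theorem s44q_Q4_big (M p : ℕ) [NeZero M] [NeZero p] (hp : p.Prime) (hpM : ¬ p ∣ M) (h5 : 5 ≤ p)
    (P : ValuationSubring Qbar) (hP : P.LiesOverPrime p)
    (L : IntermediateField ℚ Qbar) (f : s34m_F ↥L (M * p)) (hf : f ≠ 0)
    (hdiv : ∀ Q : Place ↥L (s34m_F ↥L (M * p)), (p : ℤ) ∣ Q.ord f) :
    ∃ L₂ : IntermediateField ℚ Qbar, FiniteDimensional ℚ L₂ ∧
      ∀ (L₁ : IntermediateField ℚ Qbar) [FiniteDimensional ℚ ↥L₁] [Normal ℚ ↥L₁]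
        (hLL : L ≤ L₁), L₂ ≤ L₁ →
      ∀ [IsDiscreteValuationRing ↥(s18q_A0 P L₁)]
        (ϖ : ↥(s18q_A0 P L₁)) (hϖ : Irreducible ϖ),
    (∀ 𝔫 : Ideal (s34x_ring (s34x_infRing
        (s34m_VV (s37r_G P L₁ ϖ hϖ) (algebraMap ↥L₁ Qbar) M p hp hpM))
        (s18_chart1 (L₀ := ↥L₁) (s18g_jF (K := ↥L₁) (M * p)))), 𝔫.IsMaximal →
      s34x_const (s34x_infRing (s34m_VV (s37r_G P L₁ ϖ hϖ) (algebraMap ↥L₁ Qbar) M p hp hpM))
        (s18_chart1 (L₀ := ↥L₁) (s18g_jF (K := ↥L₁) (M * p)))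
        (((s37r_G P L₁ ϖ hϖ).ϖ : (s37r_G P L₁ ϖ hϖ).A) : ↥L₁)
        (s34x_inf_const_mem (s34m_VV (s37r_G P L₁ ϖ hϖ) (algebraMap ↥L₁ Qbar) M p hp hpM)
          (s37r_G P L₁ ϖ hϖ).A
          (s34c_const_mem_VV (s37r_G P L₁ ϖ hϖ) (algebraMap ↥L₁ Qbar) M p hp hpM)
          (s37r_G P L₁ ϖ hϖ).ϖ) ∈ 𝔫 →
      ∃ Φ : s34m_F ↥L₁ (M * p), Φ ≠ 0 ∧
        ∀ Q ∈ s18_chart1 (L₀ := ↥L₁) (s18g_jF (K := ↥L₁) (M * p)),
          s34f_through (s34x_infRing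
            (s34m_VV (s37r_G P L₁ ϖ hϖ) (algebraMap ↥L₁ Qbar) M p hp hpM))
            (s18_chart1 (L₀ := ↥L₁) (s18g_jF (K := ↥L₁) (M * p))) 𝔫 Q →
          Q.ord (s44q_up (M * p) hLL f) = ((p : ℕ) : ℤ) * Q.ord Φ) ∧
    (∀ 𝔫 : Ideal (s34x_ring (s34x_infRing
        (s34m_VV (s37r_G P L₁ ϖ hϖ) (algebraMap ↥L₁ Qbar) M p hp hpM))
        (s18_chart2 (L₀ := ↥L₁) (s18g_jF (K := ↥L₁) (M * p)))), 𝔫.IsMaximal →
      s34x_const (s34x_infRing (s34m_VV (s37r_G P L₁ ϖ hϖ) (algebraMap ↥L₁ Qbar) M p hp hpM))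
        (s18_chart2 (L₀ := ↥L₁) (s18g_jF (K := ↥L₁) (M * p)))
        (((s37r_G P L₁ ϖ hϖ).ϖ : (s37r_G P L₁ ϖ hϖ).A) : ↥L₁)
        (s34x_inf_const_mem (s34m_VV (s37r_G P L₁ ϖ hϖ) (algebraMap ↥L₁ Qbar) M p hp hpM)
          (s37r_G P L₁ ϖ hϖ).A
          (s34c_const_mem_VV (s37r_G P L₁ ϖ hϖ) (algebraMap ↥L₁ Qbar) M p hp hpM)
          (s37r_G P L₁ ϖ hϖ).ϖ) ∈ 𝔫 →
      ∃ Φ : s34m_F ↥L₁ (M * p), Φ ≠ 0 ∧
        ∀ Q ∈ s18_chart2 (L₀ := ↥L₁) (s18g_jF (K := ↥L₁) (M * p)),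
          s34f_through (s34x_infRing
            (s34m_VV (s37r_G P L₁ ϖ hϖ) (algebraMap ↥L₁ Qbar) M p hp hpM))
            (s18_chart2 (L₀ := ↥L₁) (s18g_jF (K := ↥L₁) (M * p))) 𝔫 Q →
          Q.ord (s44q_up (M * p) hLL f) = ((p : ℕ) : ℤ) * Q.ord Φ) := by
  classical
  obtain ⟨L₂, hfd, hL₂⟩ := s44q_rat_tower (M * p) L f hf
  refine ⟨L₂, hfd, ?_⟩
  intro L₁ hfd₁ hnorm hLL hle hdvr ϖ hϖ
  have halg : Algebra.IsAlgebraic ℚ ↥L₁ := Algebra.IsAlgebraic.of_finite ℚ _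
  obtain ⟨hdeg, hunif⟩ := hL₂ L₁ L₁ hLL le_rfl hle halg
  have hf' : s44q_up (M * p) hLL f ≠ 0 := (map_ne_zero _).mpr hf
  have hdiv' : ∀ Q : Place ↥L₁ (s34m_F ↥L₁ (M * p)),
      (p : ℤ) ∣ Q.ord (s44q_up (M * p) hLL f) := by
    intro Q
    obtain ⟨ρ, -, hρ⟩ := s18q_restrict_gen (IntermediateField.inclusion hLL).toRingHom
      (modularFunctionFieldFull (M * p))
    have : Q.ord (s44q_up (M * p) hLL f) = (ρ Q).ord f := hρ Q f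
    rw [this]
    exact hdiv _
  refine s44q_Q4_inst M p hp hpM h5 P hP L₁ L₁ le_rfl ϖ hϖ ?_
    (s44q_up (M * p) hLL f) hf' hdiv' hdeg hunif
  intro γ hγ a ha
  have h1 : γ a = a := hγ a a.2
  rw [h1, sub_self]
  refine ⟨ha, ?_⟩
  rw [ValuationSubring.mem_nonunits_iff_or]
  exact Or.inl rfl

end Fermat.Agent.Lib.S44
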