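/-
M-AT-P programme (S44), **W4 = [L4b] = `s44i_LiftOcc`** (helper3): the final assembly, modulo [LAT].

`s44h_liftOcc : s44h_Lat → s44i_LiftOcc`.

Chain: `s44i_Finite` gives a first generator `h_a` over a normal `L_a`; helper9's `s44q_Q4_big` gives the field
`L₂` over which (Q4) holds for `h_a`; the negation of `s44i_RedTriv` at `Lx = Lf ⊔ L_a ⊔ L₂` gives `(L₀, ϖ)` and
(by `s44i_Finite` again) a generator `h` over `L₀`, unit of `V_∞` and `V_0`, node-avoiding, NOT congruent to a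
constant times a `p`-th power; (Q4) for `h` from (Q4) for `up h_a` (`s33d_kum0_of_same_class`, helper9's
`s44q_Q4_mul_pow`); helper9's [DIV-p] `s44q_div_p` gives `p ∣ div (red h)`; `HNonzero` gives `φ̄ = dlog (red h) ≠ 0`;
`HTauTop` the eigen-equations; `HLiftCore` ([RES-p] + [LAT] + helper6's Deligne–Serre wiring) concludes.
-/
import Fermat.Agent.Lib.S44.HLiftCore
import Fermat.Agent.Lib.S44.HTauTop
import Fermat.Agent.Lib.S44.HNonzero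
import Fermat.Agent.Lib.S44.QDivFive
import Fermat.Agent.Lib.S44.QTopBig
import Fermat.Agent.Lib.S44.QDivMul
import Fermat.Agent.Lib.S33.TPDict

set_option autoImplicit false
set_option linter.style.haveILetI false
set_option linter.unusedSectionVars false
set_option synthInstance.maxHeartbeats 400000

noncomputable section

namespace Fermat.Agent.Lib.S44

open ModularCurve HahnSeries AlgebraicCurve Fermat.Agent.Lib.FF Fermat.Agent.Lib.S18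
  Fermat.Agent.Lib.S28 Fermat.Agent.Lib.S29 Fermat.Agent.Lib.S37 Fermat.Agent.Lib.S34
  Fermat.Agent.Lib.S33

local notation "Kb" => AlgebraicClosure ℚ

/-! ### `w_p` and the Hecke relation -/

section RelAl

variable (M p ℓ : ℕ) [NeZero M] [hp : Fact p.Prime] [hℓ : Fact ℓ.Prime] (hpM : ¬ p ∣ M)
  (hℓN : ¬ ℓ ∣ M * p)

include hℓN in
/-- the Hecke relation is stable under the Atkin–Lehner involution `w_p`. -/
theorem s44h_top_rel_al (H w : ffi_F (M * p)) (c : Kb) (a₀ : ℤ)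
    (hrel : s37e_normAlpha (M * p) ℓ (heckeBetaBar Kb (M * p) ℓ H) =
      algebraMap Kb (ffi_F (M * p)) c * w ^ p * H ^ a₀) :
    s37e_normAlpha (M * p) ℓ (heckeBetaBar Kb (M * p) ℓ (s37w_al M p hp.out hpM H)) =
      algebraMap Kb (ffi_F (M * p)) c * (s37w_al M p hp.out hpM w) ^ p *
        (s37w_al M p hp.out hpM H) ^ a₀ := by
  haveI : NeZero p := ⟨hp.out.ne_zero⟩
  haveI : NeZero ℓ := ⟨hℓ.out.ne_zero⟩
  rw [s44h_tauBar_al M p ℓ hp.out hpM (s44h_not_dvd_mul M p hpM ℓ hℓN) H, hrel, map_mul, map_mul,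
    map_pow, map_zpow₀, AlgEquiv.commutes]

end RelAl

/-! ### The two components -/

section Components

variable (hLat : s44h_Lat) (M p : ℕ) [NeZero M] [hp : Fact p.Prime] (h5 : 5 ≤ p) (hpM : ¬ p ∣ M)
  (P : ValuationSubring Kb) (hP : P.LiesOverPrime p)
  (a : ℕ → ℤ) (B : Finset ℕ) (hB : ∀ q : ℕ, q.Prime → q ∣ M * p → q ∈ B)
  (x : JZero (M * p)) (hE : s44i_Eig (M * p) p a B x)
  (L₀ : IntermediateField ℚ Kb) [FiniteDimensional ℚ ↥L₀] [Normal ℚ ↥L₀]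
  [IsDiscreteValuationRing ↥(s18q_A0 P L₀)] (ϖ : ↥(s18q_A0 P L₀)) (hϖ : Irreducible ϖ)
  (h : s34m_F ↥L₀ (M * p)) (hgen : s33d_IsKumGen p x (s18q_incl (M * p) L₀ h))
  (hI : h ∈ s34m_Vinf (s37r_G P L₀ ϖ hϖ) (M * p))
  (hI' : h⁻¹ ∈ s34m_Vinf (s37r_G P L₀ ϖ hϖ) (M * p))
  (hZ : h ∈ s34m_Vzero (s37r_G P L₀ ϖ hϖ) (algebraMap ↥L₀ Kb) M p hp.out hpM)
  (hZ' : h⁻¹ ∈ s34m_Vzero (s37r_G P L₀ ϖ hϖ) (algebraMap ↥L₀ Kb) M p hp.out hpM)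
  (hnode : ∀ Q ∈ s33t_nodeN M p hpM P L₀ ϖ hϖ, Q.ord h = 0)
  (hQ4₁ : ∀ 𝔫 : Ideal (s34x_ring (s34x_infRing
        (s34m_VV (s37r_G P L₀ ϖ hϖ) (algebraMap ↥L₀ Kb) M p hp.out hpM))
        (s18_chart1 (L₀ := ↥L₀) (s18g_jF (K := ↥L₀) (M * p)))), 𝔫.IsMaximal →
      s34x_const (s34x_infRing (s34m_VV (s37r_G P L₀ ϖ hϖ) (algebraMap ↥L₀ Kb) M p hp.out hpM))
        (s18_chart1 (L₀ := ↥L₀) (s18g_jF (K := ↥L₀) (M * p)))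
        (((s37r_G P L₀ ϖ hϖ).ϖ : (s37r_G P L₀ ϖ hϖ).A) : ↥L₀)
        (s34x_inf_const_mem (s34m_VV (s37r_G P L₀ ϖ hϖ) (algebraMap ↥L₀ Kb) M p hp.out hpM)
          (s37r_G P L₀ ϖ hϖ).A
          (s34c_const_mem_VV (s37r_G P L₀ ϖ hϖ) (algebraMap ↥L₀ Kb) M p hp.out hpM)
          (s37r_G P L₀ ϖ hϖ).ϖ) ∈ 𝔫 →
      ∃ Φ : s34m_F ↥L₀ (M * p), Φ ≠ 0 ∧
        ∀ Q ∈ s18_chart1 (L₀ := ↥L₀) (s18g_jF (K := ↥L₀) (M * p)),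
          s34f_through (s34x_infRing
            (s34m_VV (s37r_G P L₀ ϖ hϖ) (algebraMap ↥L₀ Kb) M p hp.out hpM))
            (s18_chart1 (L₀ := ↥L₀) (s18g_jF (K := ↥L₀) (M * p))) 𝔫 Q →
          Q.ord h = ((p : ℕ) : ℤ) * Q.ord Φ)
  (hQ4₂ : ∀ 𝔫 : Ideal (s34x_ring (s34x_infRing
        (s34m_VV (s37r_G P L₀ ϖ hϖ) (algebraMap ↥L₀ Kb) M p hp.out hpM))
        (s18_chart2 (L₀ := ↥L₀) (s18g_jF (K := ↥L₀) (M * p)))), 𝔫.IsMaximal →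
      s34x_const (s34x_infRing (s34m_VV (s37r_G P L₀ ϖ hϖ) (algebraMap ↥L₀ Kb) M p hp.out hpM))
        (s18_chart2 (L₀ := ↥L₀) (s18g_jF (K := ↥L₀) (M * p)))
        (((s37r_G P L₀ ϖ hϖ).ϖ : (s37r_G P L₀ ϖ hϖ).A) : ↥L₀)
        (s34x_inf_const_mem (s34m_VV (s37r_G P L₀ ϖ hϖ) (algebraMap ↥L₀ Kb) M p hp.out hpM)
          (s37r_G P L₀ ϖ hϖ).A
          (s34c_const_mem_VV (s37r_G P L₀ ϖ hϖ) (algebraMap ↥L₀ Kb) M p hp.out hpM)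
          (s37r_G P L₀ ϖ hϖ).ϖ) ∈ 𝔫 →
      ∃ Φ : s34m_F ↥L₀ (M * p), Φ ≠ 0 ∧
        ∀ Q ∈ s18_chart2 (L₀ := ↥L₀) (s18g_jF (K := ↥L₀) (M * p)),
          s34f_through (s34x_infRing
            (s34m_VV (s37r_G P L₀ ϖ hϖ) (algebraMap ↥L₀ Kb) M p hp.out hpM))
            (s18_chart2 (L₀ := ↥L₀) (s18g_jF (K := ↥L₀) (M * p))) 𝔫 Q →
          Q.ord h = ((p : ℕ) : ℤ) * Q.ord Φ)

include hLat h5 hP hB hE hgen hI hI' hZ hZ' hnode hQ4₁ hQ4₂ in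
/-- **the component `C_∞`.** -/
theorem s44h_levelocc_inf
    (hneg : ¬ ∃ (c : ↥L₀) (a y : s34m_F ↥L₀ (M * p)), c ≠ 0 ∧
      (a ∈ s34m_Vinf (s37r_G P L₀ ϖ hϖ) (M * p) ∧ a⁻¹ ∈ s34m_Vinf (s37r_G P L₀ ϖ hϖ) (M * p) ∧
        y ∈ s34m_Vinf (s37r_G P L₀ ϖ hϖ) (M * p)) ∧
      h - algebraMap ↥L₀ (s34m_F ↥L₀ (M * p)) c * a ^ p =
        s34m_unif (s37r_G P L₀ ϖ hϖ) (M * p) * y) :
    s44i_LevelOcc M p a B := by
  classical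
  haveI : NumberField ↥L₀ := ⟨⟩
  haveI hchar₀ : CharP (IsLocalRing.ResidueField ↥(s18q_A0 P L₀)) p := s37rl_charP P hP L₀
  haveI hperf₀ : PerfectField (IsLocalRing.ResidueField ↥(s18q_A0 P L₀)) :=
    s37rl_perfectField P hP L₀
  haveI : PerfectRing (IsLocalRing.ResidueField ↥(s18q_A0 P L₀)) p := PerfectField.toPerfectRing p
  have hT : s18g_HT (IsLocalRing.ResidueField ↥(s18q_A0 P L₀)) M := s18t_indep_j p M hpM _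
  have hdegM : s18g_HDeg ↥L₀ M := fun n b hb hn =>
    s18g_exists_relation M (algebraMap ↥L₀ Kb) hn b hb
  have hdeg : s34m_HDeg ↥L₀ M p := s34r_deg_HDeg (algebraMap ↥L₀ Kb) M p hp.out hpM
  have hπ : Function.Surjective (s37r_G P L₀ ϖ hϖ).π := IsLocalRing.residue_surjective
  haveI : IsDiscreteValuationRing (s37r_G P L₀ ϖ hϖ).A := ‹_›
  have hh0 : h ≠ 0 := (s33d_kum_of_gen (M * p) p L₀ hgen).1
  obtain ⟨hdivI, -⟩ := s44q_div_p M p hpM h5 ↥L₀ (algebraMap ↥L₀ Kb)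
    (IsLocalRing.ResidueField ↥(s18q_A0 P L₀)) (s37r_G P L₀ ϖ hϖ) hdeg hT hdegM hπ h hh0 hI hI'
    hZ hZ' hnode hQ4₁ hQ4₂
  have hred0 : s34m_redInf (s37r_G P L₀ ϖ hϖ) (M * p) ⟨h, hI⟩ ≠ 0 := by
    intro h0
    have h1 : (⟨h, hI⟩ : s34m_Vinf (s37r_G P L₀ ϖ hϖ) (M * p)) * ⟨h⁻¹, hI'⟩ = 1 :=
      Subtype.ext (mul_inv_cancel₀ hh0)
    have := congrArg (s34m_redInf (s37r_G P L₀ ϖ hϖ) (M * p)) h1
    rw [map_mul, h0, zero_mul, map_one] at this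
    exact zero_ne_one this
  have hnz := s44h_dlog_gI_ne_zero M p hpM P hP L₀ ϖ hϖ h hI hI' hh0 hneg
  refine s44h_levelocc_core hLat M p h5 hpM P hP a B hB L₀
    (s34m_redInf (s37r_G P L₀ ϖ hϖ) (M * p) ⟨h, hI⟩)
    (s33y_redInf_mem_fullC (s37r_G P L₀ ϖ hϖ) (algebraMap ↥L₀ Kb) M p hpM hdeg hT hdegM ⟨h, hI⟩)
    hred0 (fun v₀ => hdivI v₀) hnz ?_
  intro ℓ _ hℓ hℓB
  haveI : Fact ℓ.Prime := ⟨hℓ⟩
  have hℓN : ¬ ℓ ∣ M * p := fun hd => hℓB (hB ℓ hℓ hd)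
  have hℓp : ℓ ≠ p := by
    rintro rfl
    exact hℓN (dvd_mul_left _ _)
  have hz : heckeOperatorBar (M * p) ⟨ℓ, hℓ⟩ x = a ℓ • x := hE.2 ⟨ℓ, hℓ⟩ hℓB
  have hH : s18q_incl (M * p) L₀ h ∈ s37r_OF P (M * p) hP :=
    (s37r_incl_mem_OF_iff P (M * p) hP L₀ ϖ hϖ h).mpr hI
  have hH' : (s18q_incl (M * p) L₀ h)⁻¹ ∈ s37r_OF P (M * p) hP := by
    rw [← map_inv₀]
    exact (s37r_incl_mem_OF_iff P (M * p) hP L₀ ϖ hϖ h⁻¹).mpr hI'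
  have key := s44h_top_eigen_dlog (M * p) ℓ p P hP hℓN hℓp x (a ℓ) hz
    (s18q_incl (M * p) L₀ h) hgen hH hH'
  have e : s37r_redV P (M * p) hP ⟨s18q_incl (M * p) L₀ h, hH⟩ =
      coeffMap (s37r_resMap P L₀) (s34m_redInf (s37r_G P L₀ ϖ hϖ) (M * p) ⟨h, hI⟩) :=
    s37r_redV_incl P (M * p) hP L₀ ϖ hϖ h hI hH
  rw [e] at key
  exact key

include hLat h5 hP hB hE hgen hI hI' hZ hZ' hnode hQ4₁ hQ4₂ in
/-- **the component `C_0`.** -/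
theorem s44h_levelocc_zero
    (hneg : ¬ ∃ (c : ↥L₀) (a y : s34m_F ↥L₀ (M * p)), c ≠ 0 ∧
      (a ∈ s34m_Vzero (s37r_G P L₀ ϖ hϖ) (algebraMap ↥L₀ Kb) M p hp.out hpM ∧
        a⁻¹ ∈ s34m_Vzero (s37r_G P L₀ ϖ hϖ) (algebraMap ↥L₀ Kb) M p hp.out hpM ∧
        y ∈ s34m_Vzero (s37r_G P L₀ ϖ hϖ) (algebraMap ↥L₀ Kb) M p hp.out hpM) ∧
      h - algebraMap ↥L₀ (s34m_F ↥L₀ (M * p)) c * a ^ p =
        s34m_unif (s37r_G P L₀ ϖ hϖ) (M * p) * y) :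
    s44i_LevelOcc M p a B := by
  classical
  haveI : NumberField ↥L₀ := ⟨⟩
  haveI hchar₀ : CharP (IsLocalRing.ResidueField ↥(s18q_A0 P L₀)) p := s37rl_charP P hP L₀
  haveI hperf₀ : PerfectField (IsLocalRing.ResidueField ↥(s18q_A0 P L₀)) :=
    s37rl_perfectField P hP L₀
  haveI : PerfectRing (IsLocalRing.ResidueField ↥(s18q_A0 P L₀)) p := PerfectField.toPerfectRing p
  have hT : s18g_HT (IsLocalRing.ResidueField ↥(s18q_A0 P L₀)) M := s18t_indep_j p M hpM _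
  have hdegM : s18g_HDeg ↥L₀ M := fun n b hb hn =>
    s18g_exists_relation M (algebraMap ↥L₀ Kb) hn b hb
  have hdeg : s34m_HDeg ↥L₀ M p := s34r_deg_HDeg (algebraMap ↥L₀ Kb) M p hp.out hpM
  have hπ : Function.Surjective (s37r_G P L₀ ϖ hϖ).π := IsLocalRing.residue_surjective
  haveI : IsDiscreteValuationRing (s37r_G P L₀ ϖ hϖ).A := ‹_›
  have hh0 : h ≠ 0 := (s33d_kum_of_gen (M * p) p L₀ hgen).1
  obtain ⟨-, hdivZ⟩ := s44q_div_p M p hpM h5 ↥L₀ (algebraMap ↥L₀ Kb)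
    (IsLocalRing.ResidueField ↥(s18q_A0 P L₀)) (s37r_G P L₀ ϖ hϖ) hdeg hT hdegM hπ h hh0 hI hI'
    hZ hZ' hnode hQ4₁ hQ4₂
  set V0 := s34m_Vzero (s37r_G P L₀ ϖ hϖ) (algebraMap ↥L₀ Kb) M p hp.out hpM with hV0
  have hred0 : s34m_redZero (s37r_G P L₀ ϖ hϖ) (algebraMap ↥L₀ Kb) M p hp.out hpM ⟨h, hZ⟩ ≠ 0 := by
    intro h0
    have h1 : (⟨h, hZ⟩ : V0) * ⟨h⁻¹, hZ'⟩ = 1 := Subtype.ext (mul_inv_cancel₀ hh0)
    have := congrArg (s34m_redZero (s37r_G P L₀ ϖ hϖ) (algebraMap ↥L₀ Kb) M p hp.out hpM) h1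
    rw [map_mul, h0, zero_mul, map_one] at this
    exact zero_ne_one this
  have hnz := s44h_dlog_gZ_ne_zero M p hpM P hP L₀ ϖ hϖ h hZ hZ' hh0 hneg
  refine s44h_levelocc_core hLat M p h5 hpM P hP a B hB L₀
    (s34m_redZero (s37r_G P L₀ ϖ hϖ) (algebraMap ↥L₀ Kb) M p hp.out hpM ⟨h, hZ⟩)
    (s33y_redZero_mem_fullC (s37r_G P L₀ ϖ hϖ) (algebraMap ↥L₀ Kb) M p hpM hdeg hT hdegM ⟨h, hZ⟩)
    hred0 (fun v₀ => hdivZ v₀) hnz ?_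
  intro ℓ _ hℓ hℓB
  haveI : Fact ℓ.Prime := ⟨hℓ⟩
  have hℓN : ¬ ℓ ∣ M * p := fun hd => hℓB (hB ℓ hℓ hd)
  have hℓp : ℓ ≠ p := by
    rintro rfl
    exact hℓN (dvd_mul_left _ _)
  have hz : heckeOperatorBar (M * p) ⟨ℓ, hℓ⟩ x = a ℓ • x := hE.2 ⟨ℓ, hℓ⟩ hℓB
  -- the relation for `incl h`, transported by `w_p`
  obtain ⟨c, w, hc, hw, hrel⟩ := s44h_top_rel_of_eigen (M * p) ℓ p hℓN x (a ℓ) hz
    (s18q_incl (M * p) L₀ h) hgen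
  have hrel' := s44h_top_rel_al M p ℓ hpM hℓN (s18q_incl (M * p) L₀ h) w c (a ℓ) hrel
  set h' : s34m_F ↥L₀ (M * p) := s34m_al (algebraMap ↥L₀ Kb) M p hp.out hpM h with hh'
  have e1 : s18q_incl (M * p) L₀ h' = s37w_al M p hp.out hpM (s18q_incl (M * p) L₀ h) :=
    s34m_iota_al (algebraMap ↥L₀ Kb) M p hp.out hpM h
  have hI₂ : h' ∈ s34m_Vinf (s37r_G P L₀ ϖ hϖ) (M * p) :=
    (s34m_mem_Vzero (s37r_G P L₀ ϖ hϖ) (algebraMap ↥L₀ Kb) M p hp.out hpM h).mp hZ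
  have hI₂' : h'⁻¹ ∈ s34m_Vinf (s37r_G P L₀ ϖ hϖ) (M * p) := by
    have := (s34m_mem_Vzero (s37r_G P L₀ ϖ hϖ) (algebraMap ↥L₀ Kb) M p hp.out hpM h⁻¹).mp hZ'
    rwa [map_inv₀] at this
  have hh'0 : s18q_incl (M * p) L₀ h' ≠ 0 := by
    rw [Ne, map_eq_zero, hh', map_eq_zero]
    exact hh0
  have hH : s18q_incl (M * p) L₀ h' ∈ s37r_OF P (M * p) hP :=
    (s37r_incl_mem_OF_iff P (M * p) hP L₀ ϖ hϖ h').mpr hI₂
  have hH' : (s18q_incl (M * p) L₀ h')⁻¹ ∈ s37r_OF P (M * p) hP := by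
    rw [← map_inv₀]
    exact (s37r_incl_mem_OF_iff P (M * p) hP L₀ ϖ hϖ h'⁻¹).mpr hI₂'
  have hw' : s37w_al M p hp.out hpM w ≠ 0 := by
    rwa [Ne, map_eq_zero]
  have key := s44h_top_eigen_dlog_rel (M * p) ℓ p P hP hℓN hℓp (a ℓ)
    (s18q_incl (M * p) L₀ h') hh'0 hH hH' c (s37w_al M p hp.out hpM w) hc hw'
    (by rw [e1]; exact hrel')
  have e : s37r_redV P (M * p) hP ⟨s18q_incl (M * p) L₀ h', hH⟩ =
      coeffMap (s37r_resMap P L₀)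
        (s34m_redZero (s37r_G P L₀ ϖ hϖ) (algebraMap ↥L₀ Kb) M p hp.out hpM ⟨h, hZ⟩) :=
    s37r_redV_incl P (M * p) hP L₀ ϖ hϖ h' hI₂ hH
  rw [e] at key
  exact key

end Components

/-! ### The leaf -/

/-- **[L4b] = W4, modulo [LAT].** -/
theorem s44h_liftOcc (hLat : s44h_Lat) : s44i_LiftOcc := by
  intro M _ p hp h5 hpM hsq P hP a B hB x hE hα hβ hfin hnt
  classical
  haveI : NeZero p := ⟨hp.out.ne_zero⟩
  obtain ⟨Lf, hLffd, hLf⟩ := hfin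
  haveI := hLffd
  obtain ⟨La, hLfLa, hLafd, hLanorm⟩ := s33t_exists_normal_ge Lf
  haveI := hLafd
  haveI := hLanorm
  haveI hdvra : IsDiscreteValuationRing ↥(s18q_A0 P La) := s18q_A0_dvr P La hP
  obtain ⟨ϖa, hϖa⟩ := IsDiscreteValuationRing.exists_irreducible ↥(s18q_A0 P La)
  obtain ⟨ha, hagen, -⟩ := hLf La ϖa hϖa hLfLa
  obtain ⟨ha0, hadiv⟩ := s33d_kum_of_gen (M * p) p La hagen
  obtain ⟨L₂, hL₂fd, hL₂⟩ := s44q_Q4_big M p hp.out hpM h5 P hP La ha ha0 hadiv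
  haveI := hL₂fd
  haveI hfdx : FiniteDimensional ℚ ↥(Lf ⊔ La ⊔ L₂) := inferInstance
  -- the common part: over a big `L₀`, a preamble generator with (Q4)
  have hcommon : ∀ (L₀ : IntermediateField ℚ Kb) [FiniteDimensional ℚ ↥L₀] [Normal ℚ ↥L₀]
      [IsDiscreteValuationRing ↥(s18q_A0 P L₀)] (ϖ : ↥(s18q_A0 P L₀)) (hϖ : Irreducible ϖ),
      Lf ⊔ La ⊔ L₂ ≤ L₀ → ∀ h : s34m_F ↥L₀ (M * p),
      s33d_IsKumGen p x (s18q_incl (M * p) L₀ h) →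
      (∀ 𝔫 : Ideal (s34x_ring (s34x_infRing
        (s34m_VV (s37r_G P L₀ ϖ hϖ) (algebraMap ↥L₀ Kb) M p hp.out hpM))
        (s18_chart1 (L₀ := ↥L₀) (s18g_jF (K := ↥L₀) (M * p)))), 𝔫.IsMaximal →
      s34x_const (s34x_infRing (s34m_VV (s37r_G P L₀ ϖ hϖ) (algebraMap ↥L₀ Kb) M p hp.out hpM))
        (s18_chart1 (L₀ := ↥L₀) (s18g_jF (K := ↥L₀) (M * p)))
        (((s37r_G P L₀ ϖ hϖ).ϖ : (s37r_G P L₀ ϖ hϖ).A) : ↥L₀)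
        (s34x_inf_const_mem (s34m_VV (s37r_G P L₀ ϖ hϖ) (algebraMap ↥L₀ Kb) M p hp.out hpM)
          (s37r_G P L₀ ϖ hϖ).A
          (s34c_const_mem_VV (s37r_G P L₀ ϖ hϖ) (algebraMap ↥L₀ Kb) M p hp.out hpM)
          (s37r_G P L₀ ϖ hϖ).ϖ) ∈ 𝔫 →
      ∃ Φ : s34m_F ↥L₀ (M * p), Φ ≠ 0 ∧
        ∀ Q ∈ s18_chart1 (L₀ := ↥L₀) (s18g_jF (K := ↥L₀) (M * p)),
          s34f_through (s34x_infRing
            (s34m_VV (s37r_G P L₀ ϖ hϖ) (algebraMap ↥L₀ Kb) M p hp.out hpM))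
            (s18_chart1 (L₀ := ↥L₀) (s18g_jF (K := ↥L₀) (M * p))) 𝔫 Q →
          Q.ord h = ((p : ℕ) : ℤ) * Q.ord Φ) ∧
      (∀ 𝔫 : Ideal (s34x_ring (s34x_infRing
        (s34m_VV (s37r_G P L₀ ϖ hϖ) (algebraMap ↥L₀ Kb) M p hp.out hpM))
        (s18_chart2 (L₀ := ↥L₀) (s18g_jF (K := ↥L₀) (M * p)))), 𝔫.IsMaximal →
      s34x_const (s34x_infRing (s34m_VV (s37r_G P L₀ ϖ hϖ) (algebraMap ↥L₀ Kb) M p hp.out hpM))
        (s18_chart2 (L₀ := ↥L₀) (s18g_jF (K := ↥L₀) (M * p)))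
        (((s37r_G P L₀ ϖ hϖ).ϖ : (s37r_G P L₀ ϖ hϖ).A) : ↥L₀)
        (s34x_inf_const_mem (s34m_VV (s37r_G P L₀ ϖ hϖ) (algebraMap ↥L₀ Kb) M p hp.out hpM)
          (s37r_G P L₀ ϖ hϖ).A
          (s34c_const_mem_VV (s37r_G P L₀ ϖ hϖ) (algebraMap ↥L₀ Kb) M p hp.out hpM)
          (s37r_G P L₀ ϖ hϖ).ϖ) ∈ 𝔫 →
      ∃ Φ : s34m_F ↥L₀ (M * p), Φ ≠ 0 ∧
        ∀ Q ∈ s18_chart2 (L₀ := ↥L₀) (s18g_jF (K := ↥L₀) (M * p)),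
          s34f_through (s34x_infRing
            (s34m_VV (s37r_G P L₀ ϖ hϖ) (algebraMap ↥L₀ Kb) M p hp.out hpM))
            (s18_chart2 (L₀ := ↥L₀) (s18g_jF (K := ↥L₀) (M * p))) 𝔫 Q →
          Q.ord h = ((p : ℕ) : ℤ) * Q.ord Φ) := by
    intro L₀ _ _ _ ϖ hϖ hle h hgen
    have hLaL₀ : La ≤ L₀ := le_trans (le_trans le_sup_right le_sup_left) hle
    have hL₂L₀ : L₂ ≤ L₀ := le_trans le_sup_right hle
    obtain ⟨q1, q2⟩ := hL₂ L₀ hLaL₀ hL₂L₀ ϖ hϖ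
    set u := s44q_up (M * p) hLaL₀ ha with hu
    have hugen : s33d_IsKumGen p x (s18q_incl (M * p) L₀ u) := by
      rw [hu, s44q_incl_up]
      exact hagen
    have hu0 : u ≠ 0 := (s33d_kum_of_gen (M * p) p L₀ hugen).1
    obtain ⟨c₀, g, hc₀, hg, e⟩ := s33d_kum0_of_same_class (M * p) p L₀ hugen hgen
    constructor
    · intro 𝔫 h1 h2
      have := s44q_Q4_mul_pow _ _ 𝔫 p u hu0 c₀ hc₀ g hg (q1 𝔫 h1 h2)
      rwa [← e] at this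
    · intro 𝔫 h1 h2
      have := s44q_Q4_mul_pow _ _ 𝔫 p u hu0 c₀ hc₀ g hg (q2 𝔫 h1 h2)
      rwa [← e] at this
  by_contra hcon
  rcases hnt with hnt | hnt
  · apply hnt
    unfold s44i_RedTriv
    refine ⟨Lf ⊔ La ⊔ L₂, hfdx, ?_⟩
    intro L₀ _ _ _ ϖ hϖ hle
    have hLfL₀ : Lf ≤ L₀ := le_trans (le_trans le_sup_left le_sup_left) hle
    obtain ⟨h, hgen, hI, hI', hZ, hZ', hnode⟩ := hLf L₀ ϖ hϖ hLfL₀
    refine ⟨h, hgen, hI, hI', hZ, hZ', hnode, ?_⟩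
    by_contra hneg
    apply hcon
    obtain ⟨hQ4₁, hQ4₂⟩ := hcommon L₀ ϖ hϖ hle h hgen
    refine s44h_levelocc_inf hLat M p h5 hpM P hP a B hB x hE L₀ ϖ hϖ h hgen hI hI' hZ hZ' hnode
      hQ4₁ hQ4₂ ?_
    simpa using hneg
  · apply hnt
    unfold s44i_RedTriv
    refine ⟨Lf ⊔ La ⊔ L₂, hfdx, ?_⟩
    intro L₀ _ _ _ ϖ hϖ hle
    have hLfL₀ : Lf ≤ L₀ := le_trans (le_trans le_sup_left le_sup_left) hle
    obtain ⟨h, hgen, hI, hI', hZ, hZ', hnode⟩ := hLf L₀ ϖ hϖ hLfL₀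
    refine ⟨h, hgen, hI, hI', hZ, hZ', hnode, ?_⟩
    by_contra hneg
    apply hcon
    obtain ⟨hQ4₁, hQ4₂⟩ := hcommon L₀ ϖ hϖ hle h hgen
    refine s44h_levelocc_zero hLat M p h5 hpM P hP a B hB x hE L₀ ϖ hϖ h hgen hI hI' hZ hZ' hnode
      hQ4₁ hQ4₂ ?_
    simpa using hneg

end Fermat.Agent.Lib.S44
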