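/-
M-AT-P programme (S44), W4′ [SQ-INST] (helper5): the instance at a finite level
`(L₀, A₀ = P ∩ L₀, κ₀ = A₀/𝔪)` in the concrete types used by the rest of W4′.
-/
import Fermat.Agent.Lib.S44.RSqInst
import Fermat.Agent.Lib.S18.QDvr
set_option autoImplicit false
open ModularFormClass
namespace Fermat.Agent.Lib.S44
open UpperHalfPlane hiding I
open AlgebraicCurve ModularCurve CongruenceSubgroup ModularForm
open Fermat.Agent.Lib.FF Fermat.Agent.Lib.S29 Fermat.Agent.Lib.S18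

noncomputable section

/-- [SQ-INST] at a finite level `(L₀, A₀ = P ∩ L₀, κ₀)`. -/
theorem s44r_sq_inst_L0 (M : ℕ) [NeZero M] (p : ℕ) [Fact p.Prime]
    (P : ValuationSubring (AlgebraicClosure ℚ)) (L₀ : IntermediateField ℚ (AlgebraicClosure ℚ))
    [IsDiscreteValuationRing ↥(s18q_A0 P L₀)]
    [CharP (IsLocalRing.ResidueField ↥(s18q_A0 P L₀)) p] (ι : ↥L₀ →+* ℂ)
    (ϖ : ↥(s18q_A0 P L₀)) (hϖ : Irreducible ϖ)
    (hBD : ∀ U ∈ s44r_BL ↥L₀ M, ∃ c : ↥(s18q_A0 P L₀), c ≠ 0 ∧ ∃ y : LaurentSeries ↥(s18q_A0 P L₀),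
      coeffMap (algebraMap ↥(s18q_A0 P L₀) ↥L₀) y = algebraMap ↥(s18q_A0 P L₀) ↥L₀ c • U)
    (hB3 : ∀ y : LaurentSeries ↥(s18q_A0 P L₀),
      coeffMap (algebraMap ↥(s18q_A0 P L₀) ↥L₀) y ∈ s44r_BL ↥L₀ M →
      (∀ i : ℤ, i < 0 → IsLocalRing.residue ↥(s18q_A0 P L₀) (y.coeff i) = 0) →
        ∀ i : ℤ, 0 < i → IsLocalRing.residue ↥(s18q_A0 P L₀) (y.coeff i) = 0)
    (ψ : LaurentSeries (IsLocalRing.ResidueField ↥(s18q_A0 P L₀)))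
    (hψ0 : ∀ i : ℤ, i ≤ 0 → ψ.coeff i = 0)
    (hψ : ∀ y : LaurentSeries ↥(s18q_A0 P L₀),
      coeffMap (algebraMap ↥(s18q_A0 P L₀) ↥L₀) y ∈ s44r_BL ↥L₀ M →
      (coeffMap (IsLocalRing.residue ↥(s18q_A0 P L₀)) y * ψ).coeff 0 = 0) :
    ∃ (r : ℕ) (f : Fin r → CuspForm (Gamma0 M) 2) (cf : Fin r → ℕ → ℤ)
      (v : Fin r → IsLocalRing.ResidueField ↥(s18q_A0 P L₀)),
      (∀ j n, qCoeff ⇑(f j) n = ((cf j n : ℤ) : ℂ)) ∧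
      ∀ n : ℕ, ψ.coeff n = ∑ j, v j * ((cf j n : ℤ) : IsLocalRing.ResidueField ↥(s18q_A0 P L₀)) :=
  s44r_sq_inst ι p (IsLocalRing.residue ↥(s18q_A0 P L₀)) IsLocalRing.residue_surjective ϖ hϖ
    hBD hB3 ψ hψ0 hψ

end
end Fermat.Agent.Lib.S44
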