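/-
M-AT-P programme (S44), W4 = [L4b], brick (d), part 3 (helper3): [LAT] from [GR].

`s44h_GR` is the statement of [GR] at a finite level `(L₀, A₀ = 𝔓 ∩ L₀, κ₀)`, in the three frozen consumer
shapes (helper1 #2227) with `B := s44r_BL ↥L₀ M` (helper5):
 (g1)  every `U ∈ B` has an `A₀`-integral non-zero `A₀`-multiple;
 (g2)  an `A₀`-integral member of `B` whose polar part reduces to zero reduces to a constant;
 (g2′) an `A₀`-integral member of `B` reduces to a function of `F_κ̄(M)` regular off `∞̃`.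

* `s44h_lat_of_gr : s44h_GR → s44h_Lat` (with helper5's [SQ-INST] `s44r_sq_inst_L0`);
* `s44h_liftOcc_of_gr : s44h_GR → s44i_LiftOcc` = leaf [L4b] modulo [GR].
-/
import Fermat.Agent.Lib.S44.HLiftOcc
import Fermat.Agent.Lib.S44.RSqInstL

set_option autoImplicit false
set_option linter.style.haveILetI false
set_option linter.unusedSectionVars false
set_option synthInstance.maxHeartbeats 400000

noncomputable section

namespace Fermat.Agent.Lib.S44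

open ModularCurve HahnSeries AlgebraicCurve Fermat.Agent.Lib.FF Fermat.Agent.Lib.S18
  Fermat.Agent.Lib.S28 Fermat.Agent.Lib.S29 Fermat.Agent.Lib.S37 Fermat.Agent.Lib.S34
  Fermat.Agent.Lib.S33

local notation "Kb" => AlgebraicClosure ℚ

/-- **[GR]** at the finite levels, as a statement: (g1) ∧ (g2) ∧ (g2′) for `B := s44r_BL ↥L₀ M`. -/
def s44h_GR : Prop :=
  ∀ (M : ℕ) [NeZero M] (p : ℕ) [Fact p.Prime], 5 ≤ p → ¬ p ∣ M →
  ∀ (P : ValuationSubring Kb), P.LiesOverPrime p →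
  ∀ (L₀ : IntermediateField ℚ Kb) [FiniteDimensional ℚ ↥L₀] [Normal ℚ ↥L₀]
    [IsDiscreteValuationRing ↥(s18q_A0 P L₀)],
    -- (g1)
    (∀ U ∈ s44r_BL ↥L₀ M, ∃ c : ↥(s18q_A0 P L₀), c ≠ 0 ∧ ∃ y : LaurentSeries ↥(s18q_A0 P L₀),
      coeffMap (algebraMap ↥(s18q_A0 P L₀) ↥L₀) y = algebraMap ↥(s18q_A0 P L₀) ↥L₀ c • U) ∧
    -- (g2)
    (∀ y : LaurentSeries ↥(s18q_A0 P L₀),
      coeffMap (algebraMap ↥(s18q_A0 P L₀) ↥L₀) y ∈ s44r_BL ↥L₀ M →
      (∀ i : ℤ, i < 0 → IsLocalRing.residue ↥(s18q_A0 P L₀) (y.coeff i) = 0) →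
        ∀ i : ℤ, 0 < i → IsLocalRing.residue ↥(s18q_A0 P L₀) (y.coeff i) = 0) ∧
    -- (g2′)
    (∀ y : LaurentSeries ↥(s18q_A0 P L₀),
      coeffMap (algebraMap ↥(s18q_A0 P L₀) ↥L₀) y ∈ s44r_BL ↥L₀ M →
      ∃ hmem : coeffMap ((s37r_resMap P L₀).comp (IsLocalRing.residue ↥(s18q_A0 P L₀))) y ∈
          modularFunctionFieldFullC (IsLocalRing.ResidueField ↥P) M,
        ∀ v : Place (IsLocalRing.ResidueField ↥P)
            ↥(modularFunctionFieldFullC (IsLocalRing.ResidueField ↥P) M),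
          v ≠ @s44h_fbarInf (IsLocalRing.ResidueField ↥P) _ (s18n_isAlgClosed_residueField P) M _ →
          (⟨_, hmem⟩ : ↥(modularFunctionFieldFullC (IsLocalRing.ResidueField ↥P) M)) ∈
            v.toValuationSubring)

/-- **[LAT] from [GR]** (and helper5's [SQ-INST]). -/
theorem s44h_lat_of_gr (hGR : s44h_GR) : s44h_Lat := by
  intro M _ p hp h5 hpM P hP L₀ _ _ _
  haveI hchar₀ : CharP (IsLocalRing.ResidueField ↥(s18q_A0 P L₀)) p := s37rl_charP P hP L₀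
  obtain ⟨h1, h2, h2'⟩ := hGR M p h5 hpM P hP L₀
  obtain ⟨ϖ, hϖ⟩ := IsDiscreteValuationRing.exists_irreducible ↥(s18q_A0 P L₀)
  refine ⟨(s44r_BL ↥L₀ M : Set (LaurentSeries ↥L₀)), fun y hy => h2' y hy, fun ψ hψ0 hψ => ?_⟩
  exact s44r_sq_inst_L0 M p P L₀ (((IsAlgClosed.lift : Kb →ₐ[ℚ] ℂ) : Kb →+* ℂ).comp (algebraMap ↥L₀ Kb)) ϖ hϖ h1 h2 ψ hψ0 hψ

/-- **leaf [L4b] modulo [GR].** -/
theorem s44h_liftOcc_of_gr (hGR : s44h_GR) : s44i_LiftOcc :=
  s44h_liftOcc (s44h_lat_of_gr hGR)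

end Fermat.Agent.Lib.S44
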