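/-
M-AT-P programme (S44), W4 = [L4b], brick (d), part 5 (helper3): leaf [L4b] from the two TOP-LEVEL [GR]
statements (helper4's [GR-DESC] `s44gd_gr`, hypotheses `s44gd_HypA`, `s44gd_HypB` = helper9's (a), (b)).

* `s44h_gr_of_top hA hB : s44h_GR`;
* `s44h_liftOcc_of_top hA hB : s44i_LiftOcc`.
-/
import Fermat.Agent.Lib.S44.HLat
import Fermat.Agent.Lib.S44.GDesc3

set_option autoImplicit false
set_option linter.style.haveILetI false
set_option linter.unusedSectionVars false
set_option synthInstance.maxHeartbeats 400000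

noncomputable section

namespace Fermat.Agent.Lib.S44

open ModularCurve HahnSeries AlgebraicCurve Fermat.Agent.Lib.FF Fermat.Agent.Lib.S18
  Fermat.Agent.Lib.S28 Fermat.Agent.Lib.S29 Fermat.Agent.Lib.S37 Fermat.Agent.Lib.S34
  Fermat.Agent.Lib.S33

local notation "Kb" => AlgebraicClosure ℚ

/-- [GR] at the finite levels from the two top-level statements (a), (b). -/
theorem s44h_gr_of_top
    (hA : ∀ (M : ℕ) [NeZero M] (p : ℕ) [Fact p.Prime], 5 ≤ p → ¬ p ∣ M →
      ∀ P : ValuationSubring Kb, P.LiesOverPrime p → s44gd_HypA M P)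
    (hB : ∀ (M : ℕ) [NeZero M] (p : ℕ) [Fact p.Prime], 5 ≤ p → ¬ p ∣ M →
      ∀ P : ValuationSubring Kb, P.LiesOverPrime p →
        @s44gd_HypB M _ P (s18n_isAlgClosed_residueField P)) : s44h_GR :=
  s44gd_gr hA hB

/-- **leaf [L4b]** from the two top-level [GR] statements (a), (b). -/
theorem s44h_liftOcc_of_top
    (hA : ∀ (M : ℕ) [NeZero M] (p : ℕ) [Fact p.Prime], 5 ≤ p → ¬ p ∣ M →
      ∀ P : ValuationSubring Kb, P.LiesOverPrime p → s44gd_HypA M P)
    (hB : ∀ (M : ℕ) [NeZero M] (p : ℕ) [Fact p.Prime], 5 ≤ p → ¬ p ∣ M →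
      ∀ P : ValuationSubring Kb, P.LiesOverPrime p →
        @s44gd_HypB M _ P (s18n_isAlgClosed_residueField P)) : s44i_LiftOcc :=
  s44h_liftOcc_of_gr (s44h_gr_of_top hA hB)

end Fermat.Agent.Lib.S44
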