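/-
M-AT-P (S44), helper1: FINAL ASSEMBLY.  `s44_final` = the S44 conclusion, unconditionally:
`s44_asm` (closed leaves + `s44k_star`) fed with leaf [L4b]
`s44h_liftOcc_of_top` (helper3) at the two top-level forms (a), (b) of [GR] (`s44g_f_top`, helper6).
-/
import Fermat.Agent.Lib.S44.Asm
import Fermat.Agent.Lib.S44.HLatTop
import Fermat.Agent.Lib.S44.GFinalTop

set_option autoImplicit false

namespace Fermat.Agent.Lib.S44

open WeierstrassCurve WeierstrassCurve.Affine WeierstrassCurve.Affine.Point FreyPackage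
open Fermat.Agent.Lib.S18

/-- leaf [L4b] = W4, unconditionally. -/
theorem s44_liftOcc : s44i_LiftOcc :=
  s44h_liftOcc_of_top
    (fun M _ p _ h5 hpM P hP =>
      haveI := s18n_isAlgClosed_residueField P
      (s44g_f_top P M hP hpM h5).1)
    (fun M _ p _ h5 hpM P hP =>
      haveI := s18n_isAlgClosed_residueField P
      (s44g_f_top P M hP hpM h5).2)

/-- **S44**, in the library namespace. -/
theorem s44_final (P : FreyPackage) {N : ℕ} (hcond : P.IsConductorLevel N) (hpN : P.p ∣ N)
    (hirr : GaloisRepIsIrreducible (K := AlgebraicClosure ℚ) ℚ P.freyCurve P.p)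
    (hmod : P.ModularRepOfLevel N) :
    ∃ M : ℕ, M ∣ N ∧ ¬ P.p ∣ M ∧ P.ModularRepOfLevel M :=
  s44_asm s44_liftOcc P hcond hpN hirr hmod

end Fermat.Agent.Lib.S44
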