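/-
M-AT-P programme (S44), wall W3 = (★)-core, INSTANCE SIDE, modular part (owner: helper4).

For the two Gauss valuations `V_∞`, `V_0` of `X_0(M p)` and ANY chart `S` with the hypotheses of helper8's
`s33s_datumD` (`Lib/S33/SSDatum.lean`) EXCEPT the existence of a node (so that the chart `{1 / j regular}` is
allowed also when it has no supersingular point):

* `s44c_ptW i z`          : the valuation ring of the closed point `z : s44c_Pt … i` on the component `i`;
* `s44c_Wn_eq`            : the branches `s33s_Wn` of the nodes are of the same form;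
* `s44c_reg_ptW_true/_false` : **[REG]** at the closed points outside the nodes, for `s33y_Ci.red`, `s33y_Cz.red`;
* `s44c_ptsI`, `s44c_ptsZ` : the families `s44c_Pts` of one chart;
* `s44c_glueAt_datumD`    : **per-node [GLUE]** for `s33s_datumD` (hence for `s33s_datum_five`);
* `s44c_chart_mem_range`  : a function regular at all branches of nodes and at all other closed points of the
                            chart on the component `i` lies in `D`.
-/
import Fermat.Agent.Lib.S44.CoreRoot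
import Fermat.Agent.Lib.S44.CoreGlue
import Fermat.Agent.Lib.S33.SSDatum

set_option autoImplicit false
set_option linter.unusedSectionVars false
set_option linter.style.haveILetI false

noncomputable section

namespace Fermat.Agent.Lib.S44

open ModularCurve AlgebraicCurve HahnSeries Fermat.Agent.Lib.FF Fermat.Agent.Lib.S18
  Fermat.Agent.Lib.S34 Fermat.Agent.Lib.S37 Fermat.Agent.Lib.S33

local notation "Kb" => AlgebraicClosure ℚ

section Chart

variable {K₀ : Type} [Field K₀] [CharZero K₀] [Algebra ℚ K₀] {κ : Type} [Field κ]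
  (G : s18g_GaussData K₀ κ) (φ : K₀ →+* Kb) (M p : ℕ) [NeZero M] [hp : Fact p.Prime]
  (hpM : ¬ p ∣ M) [CharP κ p] [PerfectRing κ p]
  (hdeg : s34m_HDeg K₀ M p) (hT : s18g_HT κ M) (hdegM : s18g_HDeg K₀ M)
  (hπ : Function.Surjective G.π)
  (S : Set (Place K₀ (s34m_F K₀ (M * p))))

local notation "FbM" => modularFunctionFieldFullC κ M
local notation "OO" => s34m_VV G φ M p hp.out hpM
local notation "ϖF" => s34m_unif G (M * p)
local notation "BS" => s34x_ring (s34x_infRing (s34m_VV G φ M p hp.out hpM)) S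

variable {D : Type*} [CommRing D] [IsDedekindDomain D] [Algebra D ↥(modularFunctionFieldFullC κ M)]
  [IsFractionRing D ↥(modularFunctionFieldFullC κ M)] (hD : ¬ IsField D)
  (hF : ∀ i y, s33s_redL G φ M p hp.out hpM i y ∈ modularFunctionFieldFullC κ M)
  (hint : ∀ (i : Bool) (b : s34x_ring (s34x_infRing (s34m_VV G φ M p hp.out hpM)) S),
    ∃ d : D, algebraMap D ↥(modularFunctionFieldFullC κ M) d =
      s33s_redO G φ M p hp.out hpM (modularFunctionFieldFullC κ M) hF i
        ⟨(b : s34m_F K₀ (M * p)), b.2.1⟩)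
  (BM : Set (s34m_F K₀ M)) (hBMV : ∀ g ∈ BM, g ∈ s34m_Vinf G M)
  (hαB : ∀ g ∈ BM, heckeAlphaBar K₀ M p g ∈
    s34x_ring (s34x_infRing (s34m_VV G φ M p hp.out hpM)) S)
  (hβB : ∀ g ∈ BM, ∃ b' ∈ s34x_ring (s34x_infRing (s34m_VV G φ M p hp.out hpM)) S,
    ∃ z, z ∈ s34m_Vinf G (M * p) ∧ z ∈ s34m_Vzero G φ M p hp.out hpM ∧
      b' - heckeBetaBar K₀ M p g = s34m_unif G (M * p) * z)
  (hlift : ∀ d : D, ∃ g, ∃ hg : g ∈ BM,
    s34m_redInf G M ⟨g, hBMV g hg⟩ =
      ((algebraMap D ↥(modularFunctionFieldFullC κ M) d : ↥(modularFunctionFieldFullC κ M)) :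
        LaurentSeries κ))
  (htw : ∀ d : D, ∃ d' : D, qExpand κ p
    ((algebraMap D ↥(modularFunctionFieldFullC κ M) d : ↥(modularFunctionFieldFullC κ M)) :
      LaurentSeries κ) =
    ((algebraMap D ↥(modularFunctionFieldFullC κ M) d' : ↥(modularFunctionFieldFullC κ M)) :
      LaurentSeries κ) ^ p)

local notation "ρρ" => s33s_rhoD G φ M p hp.out hpM (modularFunctionFieldFullC κ M) S hF hint

/-- `ker ρ_i = 𝔭_i`. -/
theorem s44c_ker_rho (i : Bool) : RingHom.ker (ρρ i) = s33s_comp OO ϖF S i := by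
  ext b
  rw [RingHom.mem_ker]
  exact s33s_rho_eq_zero_iff OO ϖF S
    (s33s_redO G φ M p hp.out hpM (modularFunctionFieldFullC κ M) hF) ρρ
    (s33s_redO_eq_zero_iff G φ M p hp.out hpM (modularFunctionFieldFullC κ M) hF)
    (s33s_rhoD_spec G φ M p hp.out hpM (modularFunctionFieldFullC κ M) S hF hint) i b

/-- **the valuation ring of a maximal ideal `𝔪 ⊇ 𝔭_i` of the chart ring** on the component `i`. -/
def s44c_W (i : Bool) (𝔪 : Ideal BS) [𝔪.IsMaximal] (hk : s33s_comp OO ϖF S i ≤ 𝔪) :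
    ValuationSubring ↥FbM :=
  s33s_W (Fb := ↥FbM) (ρρ i)
    (s33s_inst_rho_surjective G φ M p hpM S hF hint BM hBMV hαB hβB hlift htw i) hD 𝔪
    (by rw [s44c_ker_rho]; exact hk)

theorem s44c_mem_W_iff (i : Bool) (𝔪 : Ideal BS) [𝔪.IsMaximal] (hk : s33s_comp OO ϖF S i ≤ 𝔪)
    (ψ : ↥FbM) :
    ψ ∈ s44c_W G φ M p hpM S hD hF hint BM hBMV hαB hβB hlift htw i 𝔪 hk ↔
      ∃ c b : BS, c ∉ 𝔪 ∧ s33s_r (ρρ i) c * ψ = s33s_r (ρρ i) b :=
  s33s_mem_W_iff _ _ _ _ _ ψ

/-- the branches of the nodes are of this form. -/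
theorem s44c_Wn_eq (i : Bool) (s : s33s_Node OO ϖF S) :
    s33s_Wn G φ M p hpM S hD hF hint BM hBMV hαB hβB hlift htw i s =
      s44c_W G φ M p hpM S hD hF hint BM hBMV hαB hβB hlift htw i s.1
        (by cases i; exact s.2.2.2; exact s.2.2.1) := rfl

/-- **the valuation ring of a closed point outside the nodes.** -/
def s44c_ptW (i : Bool) (z : s44c_Pt OO ϖF S i) : ValuationSubring ↥FbM :=
  haveI := z.2.1
  s44c_W G φ M p hpM S hD hF hint BM hBMV hαB hβB hlift htw i z.1 z.2.2.1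

include hπ in
/-- the constants lie in all these valuation rings. -/
theorem s44c_W_const (i : Bool) (𝔪 : Ideal BS) [h𝔪 : 𝔪.IsMaximal]
    (hk : s33s_comp OO ϖF S i ≤ 𝔪) (c : κ) :
    algebraMap κ ↥FbM c ∈ s44c_W G φ M p hpM S hD hF hint BM hBMV hαB hβB hlift htw i 𝔪 hk := by
  obtain ⟨a, rfl⟩ := hπ c
  rw [s44c_mem_W_iff]
  refine ⟨1, s34f_constHom G.A (s34x_infRing OO)
    (s34x_inf_const_mem OO G.A (s34c_const_mem_VV G φ M p hp.out hpM)) S a,
    fun h => h𝔪.ne_top ((Ideal.eq_top_iff_one _).mpr h), ?_⟩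
  rw [map_one, one_mul, s33s_inst_r_const]

/-- `red_∞` on the chart ring is `r_∞`. -/
theorem s44c_redI_ring (b : BS) :
    s33y_redI G φ M p hpM hdeg hT hdegM ⟨(b : s34m_F K₀ (M * p)), s33s_ring_mem OO S true b⟩ =
      s33s_r (ρρ true) b := by
  rw [s33s_r_apply, s33s_rhoD_spec]
  exact Subtype.ext rfl

/-- `red_0` on the chart ring is `r_0`. -/
theorem s44c_redZ_ring (b : BS) :
    s33y_redZ G φ M p hpM hdeg hT hdegM ⟨(b : s34m_F K₀ (M * p)), s33s_ring_mem OO S false b⟩ =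
      s33s_r (ρρ false) b := by
  rw [s33s_r_apply, s33s_rhoD_spec]
  exact Subtype.ext rfl

/-- **[REG]** on the `∞`-component at a closed point outside the nodes. -/
theorem s44c_reg_ptW_true (z : s44c_Pt OO ϖF S true) (y : s34m_F K₀ (M * p))
    (hy : y ∈ s34m_Vinf G (M * p))
    (hreg : ∀ Q ∈ s44c_thr OO S z.1, y ∈ Q.toValuationSubring) :
    s33y_redI G φ M p hpM hdeg hT hdegM ⟨y, hy⟩ ∈
      s44c_ptW G φ M p hpM S hD hF hint BM hBMV hαB hβB hlift htw true z := by
  haveI := z.2.1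
  exact s44c_reg_mem_W OO ϖF S ρρ (s34m_unif_ne_zero G (M * p)) (s34m_unif_mem_VV G φ M p hp.out hpM)
    (fun i U hU => s34m_exists_zpow_VV G φ M p hp.out hpM i U hU) (s33s_inst_hfin φ M p S) true
    (s33s_inst_rho_surjective G φ M p hpM S hF hint BM hBMV hαB hβB hlift htw true) hD z.1
    (by rw [s44c_ker_rho]; exact z.2.2.1) z.2.2.2
    (s33y_redI G φ M p hpM hdeg hT hdegM)
    (s44c_redI_ring G φ M p hpM hdeg hT hdegM S hF hint) y hy hreg

/-- **[REG]** on the `0`-component at a closed point outside the nodes. -/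
theorem s44c_reg_ptW_false (z : s44c_Pt OO ϖF S false) (y : s34m_F K₀ (M * p))
    (hy : y ∈ s34m_Vzero G φ M p hp.out hpM)
    (hreg : ∀ Q ∈ s44c_thr OO S z.1, y ∈ Q.toValuationSubring) :
    s33y_redZ G φ M p hpM hdeg hT hdegM ⟨y, hy⟩ ∈
      s44c_ptW G φ M p hpM S hD hF hint BM hBMV hαB hβB hlift htw false z := by
  haveI := z.2.1
  exact s44c_reg_mem_W OO ϖF S ρρ (s34m_unif_ne_zero G (M * p)) (s34m_unif_mem_VV G φ M p hp.out hpM)
    (fun i U hU => s34m_exists_zpow_VV G φ M p hp.out hpM i U hU) (s33s_inst_hfin φ M p S) false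
    (s33s_inst_rho_surjective G φ M p hpM S hF hint BM hBMV hαB hβB hlift htw false) hD z.1
    (by rw [s44c_ker_rho]; exact z.2.2.1) z.2.2.2
    (s33y_redZ G φ M p hpM hdeg hT hdegM)
    (s44c_redZ_ring G φ M p hpM hdeg hT hdegM S hF hint) y hy hreg

/-- **a function regular at all closed points of the chart on the component `i` lies in `D`.** -/
theorem s44c_chart_mem_range (i : Bool) (ψ : ↥FbM)
    (hnode : ∀ s : s33s_Node OO ϖF S,
      ψ ∈ s33s_Wn G φ M p hpM S hD hF hint BM hBMV hαB hβB hlift htw i s)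
    (hpt : ∀ z : s44c_Pt OO ϖF S i,
      ψ ∈ s44c_ptW G φ M p hpM S hD hF hint BM hBMV hαB hβB hlift htw i z) :
    ∃ d : D, algebraMap D ↥FbM d = ψ := by
  apply s44c_mem_range_of_forall_W (ρρ i)
    (s33s_inst_rho_surjective G φ M p hpM S hF hint BM hBMV hαB hβB hlift htw i) hD ψ
  intro 𝔪 h𝔪 hk
  have hk' : s33s_comp OO ϖF S i ≤ 𝔪 := by rw [← s44c_ker_rho G φ M p hpM S hF hint]; exact hk
  by_cases hnot : s33s_comp OO ϖF S (!i) ≤ 𝔪
  · have hn : s33s_IsNode OO ϖF S 𝔪 := by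
      cases i
      · exact ⟨h𝔪, hnot, hk'⟩
      · exact ⟨h𝔪, hk', hnot⟩
    exact hnode ⟨𝔪, hn⟩
  · exact hpt ⟨𝔪, h𝔪, hk', hnot⟩

/-! ### The families of closed points of one chart, and per-node [GLUE] -/

variable (e : ℕ) (ε : K₀) (he : 0 < e) (hε : ε ∈ G.A) (hεinv : ε⁻¹ ∈ G.A) (hε0 : ε ≠ 0)
  (hpe : (p : K₀) = ε * ((G.ϖ : G.A) : K₀) ^ e) (hperf : ∀ c : κ, ∃ d : κ, d ^ p = c)

/-- **the closed points of the chart `S` on the `∞`-component outside the nodes.** -/
def s44c_ptsI :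
    s44c_Pts (s33y_Ci G φ M p hpM hdeg hT hdegM hπ e ε he hε hεinv hε0 hpe hperf)
      (s44c_Pt OO ϖF S true) where
  V := s44c_ptW G φ M p hpM S hD hF hint BM hBMV hαB hβB hlift htw true
  N := fun z => s44c_thr OO S z.1
  reg := fun z y hy hreg =>
    s44c_reg_ptW_true G φ M p hpM hdeg hT hdegM S hD hF hint BM hBMV hαB hβB hlift htw z y hy hreg

/-- **the closed points of the chart `S` on the `0`-component outside the nodes.** -/
def s44c_ptsZ :
    s44c_Pts (s33y_Cz G φ M p hpM hdeg hT hdegM hπ e ε he hε hεinv hε0 hpe hperf)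
      (s44c_Pt OO ϖF S false) where
  V := s44c_ptW G φ M p hpM S hD hF hint BM hBMV hαB hβB hlift htw false
  N := fun z => s44c_thr OO S z.1
  reg := fun z y hy hreg =>
    s44c_reg_ptW_false G φ M p hpM hdeg hT hdegM S hD hF hint BM hBMV hαB hβB hlift htw z y hy hreg

variable (hnode : ∃ 𝔫, s33s_IsNode (s34m_VV G φ M p hp.out hpM) (s34m_unif G (M * p)) S 𝔫)

/-- **per-node [GLUE]** for helper8's Σ-datum `s33s_datumD` on the chart `S`, with
`Ns s = the places of the chart through the node s`. -/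
theorem s44c_glueAt_datumD :
    s44c_GlueAt (s33s_datumD G φ M p hpM hdeg hT hdegM hπ e ε he hε hεinv hε0 hpe hperf S hD hF hint
      BM hBMV hαB hβB hlift htw hnode) (fun s => s44c_thr OO S s.1) := by
  intro s y hi hz hreg
  have hyO : y ∈ s34x_infRing OO := (s34df_mem_O_iff G φ M p hp.out hpM y).mpr ⟨hi, hz⟩
  haveI : (s.1).IsPrime := s.2.1.isPrime
  exact (s33s_gluedAt_iff_evn G φ M p hpM hπ S hD hF hint BM hBMV hαB hβB hlift htw s _ _).mp
    (s44c_glue_at OO S (s33s_redO G φ M p hp.out hpM (modularFunctionFieldFullC κ M) hF) ρρ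
      (s33s_inst_hfin φ M p S)
      (s33s_rhoD_spec G φ M p hp.out hpM (modularFunctionFieldFullC κ M) S hF hint) y hyO s.1 hreg)

end Chart

end Fermat.Agent.Lib.S44
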