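/-
M-AT-P programme (S44), wall W3 = (★)-core, step (iii) REPAIRED: THE GLOBAL `p`-TH ROOT AT DEPTH `b`
(owner: helper4).  ABSTRACT: no modular curve in this file; the setting is the semistable Σ-datum
`s33z_Datum` of `Lib/S33/CritSs` (two Gauss valuations `O_∞`, `O_0` of `𝓕` with the same residue function
field `Fb`, nodes `s : ι` with branches `Wi s`, `Wz s` and evaluations into `k s ⊇ κ`).

## The statement

`a ∈ 𝓕` is the GLOBAL `p`-th root: `a ^ p = c · (τ f / f) / h_y`, where `div f = p D` (`x = [D]` a point of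
order `p`), `τ` a wild inertia element of SUB-critical lower break `b` (`(p - 1) b < e`), `y = τ x - x`, and
`h_y` a node-avoiding Kummer generator of `y` with `h_y ≡ 1 mod ϖ ^ (p b + 1)` (from (U) + (M) + Deepen).
What the geometry gives about `a` is recorded in two LOCAL predicates:

* `s44c_NodeDec` (at every node `s`): `a = g_s · w_s`, `w_s` a unit at the places `Ns s` through `s`,
  `g_s ≡ 1 mod ϖ ^ b` in both components with CONSTANT leading pair `(li s, lz s) ∈ κ × κ`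
  (`g_s = τ φ_s / φ_s`, first-order wild congruence (ii): `(li s, lz s) = c̄_τ · (V_∞ φ_s, V_0 φ_s)`);
* `s44c_SmoothDec` (at every other closed point `z` of the component `C`): `a ^ p = g_z · w_z`, `w_z` a unit at
  the places `N z` through `z`, `g_z ≡ 1 mod ϖ ^ (p b + 1)` in `C`
  (`g_z = (τ φ_z / φ_z) ^ p / h_y`, `V_C (φ_z) = 0`).

Both predicates are stable under multiplication of `a` by a non-zero constant.

**`s44c_slope_const`** : per-node [GLUE] (`s44c_GlueAt`), regularity of reductions at the other closed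
points (`s44c_Pts.reg`), "regular everywhere ⇒ constant" on both complete components, `1 ≤ b`,
`(p - 1) b < e`, `a ≡ 1 mod ϖ`, `NodeDec`, `SmoothDec` on both components
`⇒ ∃ Δ : κ, ∀ s, lz s - li s = Δ`.

Proof: induction on the depth `t = 1, …, b`.  If `a ≡ 1 mod ϖ ^ t` (`t ≤ b`) then the leading pair
`(ᾱ_∞, ᾱ_0)` of `a` at depth `t` consists of functions regular EVERYWHERE on the two complete components:
at a node `s` because `ᾱ = lead_t (g_s) + lead_t (w_s)`, a constant plus a glued pair; at another closed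
point `z` because `ᾱ ^ p = lead_{p t} (a ^ p) = lead_{p t} (w_z)` (sub-critical, `p t < p b + 1`), and `w_z` is a
unit at `z`.  So `ᾱ_∞ = A_∞`, `ᾱ_0 = A_0` are constants, and gluing at the node `s` says
`A_∞ - [t = b] li s = A_0 - [t = b] lz s`.  For `t < b` this gives `A_∞ = A_0`, `a` is divided by the constant
`1 + ϖ ^ t Ã` and the depth increases; for `t = b` it is the claim with `Δ = A_0 - A_∞`.
-/
import Fermat.Agent.Lib.S33.CritSs

set_option autoImplicit false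
set_option linter.style.haveILetI false

noncomputable section

namespace Fermat.Agent.Lib.S44

open AlgebraicCurve Fermat.Agent.Lib.FF Fermat.Agent.Lib.S33

variable {L₀ 𝓕' κ Fb : Type*} [Field L₀] [Field 𝓕'] [Algebra L₀ 𝓕'] [Field κ] [Field Fb] [Algebra κ Fb]
variable {D' : s33f_Datum L₀ 𝓕' κ Fb} {𝓕 : Type*} [Field 𝓕] [Algebra L₀ 𝓕]

/-! ### Units at a set of places -/

/-- `w` has neither a zero nor a pole at the places of `T`. -/
def s44c_Unit (T : Set (Place L₀ 𝓕)) (w : 𝓕) : Prop := w ≠ 0 ∧ ∀ Q ∈ T, Q.ord w = 0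

section UnitAPI

variable {T : Set (Place L₀ 𝓕)}

theorem s44c_unit_const {c : L₀} (hc : c ≠ 0) : s44c_Unit T (algebraMap L₀ 𝓕 c) :=
  ⟨(map_ne_zero_iff _ (algebraMap L₀ 𝓕).injective).mpr hc, fun Q _ => ff_ord_algebraMap Q c⟩

theorem s44c_Unit.mul {f g : 𝓕} (hf : s44c_Unit T f) (hg : s44c_Unit T g) : s44c_Unit T (f * g) :=
  ⟨mul_ne_zero hf.1 hg.1, fun Q hQ => by rw [Q.ord_mul hf.1 hg.1, hf.2 Q hQ, hg.2 Q hQ, add_zero]⟩

theorem s44c_Unit.inv {f : 𝓕} (hf : s44c_Unit T f) : s44c_Unit T f⁻¹ :=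
  ⟨inv_ne_zero hf.1, fun Q hQ => by rw [Q.ord_inv, hf.2 Q hQ, neg_zero]⟩

theorem s44c_Unit.pow {f : 𝓕} (hf : s44c_Unit T f) (n : ℕ) : s44c_Unit T (f ^ n) := by
  induction n with
  | zero => rw [pow_zero]; exact ⟨one_ne_zero, fun Q _ => Q.ord_one⟩
  | succ n ih => rw [pow_succ]; exact ih.mul hf

theorem s44c_Unit.mem {f : 𝓕} (hf : s44c_Unit T f) {Q : Place L₀ 𝓕} (hQ : Q ∈ T) :
    f ∈ Q.toValuationSubring := (ff_mem_iff_ord_nonneg Q hf.1).mpr (by rw [hf.2 Q hQ])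

/-- for a unit `w` at `T` the quotient `(w - 1) / c`, `c` a non-zero constant, is regular at `T`. -/
theorem s44c_Unit.reg_of_eq {w y : 𝓕} (hw : s44c_Unit T w) {c : L₀} (hc : c ≠ 0)
    (e : w - 1 = algebraMap L₀ 𝓕 c * y) : ∀ Q ∈ T, y ∈ Q.toValuationSubring := by
  intro Q hQ
  have h0 : algebraMap L₀ 𝓕 c ≠ 0 := (map_ne_zero_iff _ (algebraMap L₀ 𝓕).injective).mpr hc
  have : y = algebraMap L₀ 𝓕 c⁻¹ * (w - 1) := by
    rw [e, map_inv₀, ← mul_assoc, inv_mul_cancel₀ h0, one_mul]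
  rw [this]
  exact Q.toValuationSubring.mul_mem _ _ (Q.algebraMap_mem' _)
    (Q.toValuationSubring.toSubring.sub_mem (hw.mem hQ) Q.toValuationSubring.one_mem)

end UnitAPI

/-! ### One component: the closed points outside the nodes -/

/-- **A family of closed points of a component** `C`: the valuation ring `V z ⊂ Fb` of the point, the set
`N z` of places of the generic fibre through it, and **[REG]**: the reduction of a function of `O_C` which is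
regular at the places through `z` is regular at `z`. -/
structure s44c_Pts (C : s33z_Comp D' 𝓕) (P : Type*) where
  /-- the valuation ring of the point on the component -/
  V : P → ValuationSubring Fb
  /-- the places of the generic fibre through the point -/
  N : P → Set (Place L₀ 𝓕)
  reg : ∀ (z : P) (y : 𝓕) (hy : y ∈ C.O), (∀ Q ∈ N z, y ∈ Q.toValuationSubring) →
    C.red ⟨y, hy⟩ ∈ V z

/-- **the smooth-point decomposition** of `a ^ p` (see the header). -/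
def s44c_SmoothDec (C : s33z_Comp D' 𝓕) {P : Type*} (X : s44c_Pts C P) (b : ℕ) (a : 𝓕) : Prop :=
  ∀ z : P, ∃ g w : 𝓕, a ^ D'.p = g * w ∧ s44c_Unit (X.N z) w ∧
    s33f_Cong C.datum (D'.p * b + 1) g 1

theorem s44c_SmoothDec.const_mul {C : s33z_Comp D' 𝓕} {P : Type*} {X : s44c_Pts C P} {b : ℕ} {a : 𝓕}
    (h : s44c_SmoothDec C X b a) {c : L₀} (hc : c ≠ 0) :
    s44c_SmoothDec C X b (algebraMap L₀ 𝓕 c * a) := by
  intro z
  obtain ⟨g, w, e, hw, hg⟩ := h z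
  refine ⟨g, algebraMap L₀ 𝓕 (c ^ D'.p) * w, ?_, (s44c_unit_const (pow_ne_zero _ hc)).mul hw, hg⟩
  rw [mul_pow, e, map_pow]
  ring

/-- sub-critical arithmetic: `(p - 1) b < e`, `t ≤ b` ⇒ `p t` is sub-critical. -/
theorem s44c_subCrit_mul (D : s33f_Datum L₀ 𝓕 κ Fb) {b t : ℕ} (htb : t ≤ b)
    (hsub : (D.p - 1) * b < D.e) : s33f_SubCrit D (D.p * t) := by
  unfold s33f_SubCrit
  have h1 : (D.p - 1) * t ≤ (D.p - 1) * b := Nat.mul_le_mul_left _ htb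
  have h2 : (D.p - 1) * (D.p * t) = D.p * ((D.p - 1) * t) := by ring
  rw [h2]
  exact Nat.mul_lt_mul_of_pos_left (lt_of_le_of_lt h1 hsub) D.p_prime.pos

/-- **regularity of the leading term at a closed point outside the nodes** (the `p`-th power trick). -/
theorem s44c_lead_mem_smooth (C : s33z_Comp D' 𝓕) {P : Type*} (X : s44c_Pts C P) (z : P)
    {b t : ℕ} (ht : 1 ≤ t) (htb : t ≤ b) (hsub : (D'.p - 1) * b < D'.e) {a g w : 𝓕}
    (ha : s33f_Cong C.datum t a 1) (e : a ^ D'.p = g * w) (hw : s44c_Unit (X.N z) w)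
    (hg : s33f_Cong C.datum (D'.p * b + 1) g 1) : s33f_lead C.datum t a ∈ X.V z := by
  have hp := D'.p_prime
  have hsc : s33f_SubCrit C.datum (D'.p * t) := s44c_subCrit_mul C.datum htb hsub
  have hns := s33z_not_superCrit_of_subCrit hsc
  have hnc := s33z_not_crit_of_subCrit hsc
  obtain ⟨x, hx, rfl, elead⟩ := ha.exists_eq
  obtain ⟨hc0, hl0⟩ := s33f_lead_pow (D := C.datum) (m := t) (a := D'.p * t) ht rfl hns hx
  have hc : s33f_Cong C.datum (D'.p * t) ((1 + s33f_pi C.datum ^ t * x) ^ D'.p) 1 := hc0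
  have hl : s33f_lead C.datum (D'.p * t) ((1 + s33f_pi C.datum ^ t * x) ^ D'.p) =
      s33f_phi C.datum (D'.p * t) (s33f_redX C.datum x) := hl0
  have hphi : s33f_phi C.datum (D'.p * t) (s33f_redX C.datum x) = s33f_redX C.datum x ^ D'.p := by
    unfold s33f_phi
    rw [if_neg hnc]
    rfl
  have hpt1 : 1 ≤ D'.p * t := Nat.mul_pos hp.pos ht
  have hle : D'.p * t + 1 ≤ D'.p * b + 1 := by
    have := Nat.mul_le_mul_left D'.p htb
    omega
  have hg1 : s33f_Cong C.datum (D'.p * t + 1) g 1 := hg.mono hle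
  have hg0 : s33f_Cong C.datum (D'.p * t) g 1 := hg1.mono (Nat.le_succ _)
  have hgne : g ≠ 0 := s33f_ne_zero_of_cong_one hpt1 hg0
  have hw_eq : w = (1 + s33f_pi C.datum ^ t * x) ^ D'.p * g⁻¹ := by
    have : (1 + s33f_pi C.datum ^ t * x) ^ D'.p = g * w := e
    rw [this]
    field_simp
  have hwc : s33f_Cong C.datum (D'.p * t) w 1 := by
    rw [hw_eq]
    exact hc.mul₁ (hg0.inv₁ hpt1)
  have hwl : s33f_lead C.datum (D'.p * t) w = s33f_redX C.datum x ^ D'.p := by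
    rw [hw_eq, s33f_lead_mul hpt1 hc (hg0.inv₁ hpt1), s33f_lead_inv hpt1 hg0,
      s33f_lead_of_cong_succ hg1, hl, hphi]
    ring
  -- the quotient `(w - 1) / ϖ ^ (p t)` is regular at the places through `z`
  obtain ⟨y, hy, ey⟩ := hwc
  have hreg : ∀ Q ∈ X.N z, y ∈ Q.toValuationSubring := by
    have e' : w - 1 = algebraMap L₀ 𝓕 (D'.ϖ ^ (D'.p * t)) * y := by
      rw [ey, map_pow]
      rfl
    exact hw.reg_of_eq (pow_ne_zero _ D'.ϖ_ne_zero) e'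
  have hmem := X.reg z y hy hreg
  have hwl' : s33f_lead C.datum (D'.p * t) w = C.red ⟨y, hy⟩ := by
    rw [s33f_lead_eq ey]
    exact s33f_redX_of_mem C.datum hy
  rw [elead]
  apply s33z_mem_of_pow_mem (X.V z) hp.one_le
  rw [← hwl, hwl']
  exact hmem

/-! ### The nodes -/

variable {ι : Type*} {k : ι → Type*} [∀ s, Field (k s)] [∀ s, Algebra κ (k s)]
variable (Z : s33z_Datum D' 𝓕 ι k)

/-- **per-node [GLUE]**: a function of `O_∞ ⊓ O_0` which is regular at the places `Ns s` through the node `s`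
has glued reductions at `s`. -/
def s44c_GlueAt (Ns : ι → Set (Place L₀ 𝓕)) : Prop :=
  ∀ (s : ι) (y : 𝓕) (hi : y ∈ Z.Ci.O) (hz : y ∈ Z.Cz.O), (∀ Q ∈ Ns s, y ∈ Q.toValuationSubring) →
    ∃ (h1 : Z.Ci.red ⟨y, hi⟩ ∈ Z.Wi s) (h2 : Z.Cz.red ⟨y, hz⟩ ∈ Z.Wz s),
      Z.evi s ⟨_, h1⟩ = Z.evz s ⟨_, h2⟩

/-- **the node decomposition** of `a` (see the header). -/
def s44c_NodeDec (Ns : ι → Set (Place L₀ 𝓕)) (b : ℕ) (li lz : ι → κ) (a : 𝓕) : Prop :=
  ∀ s : ι, ∃ g w : 𝓕, a = g * w ∧ s44c_Unit (Ns s) w ∧ s33z_Cong Z b g ∧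
    s33f_lead Z.Di b g = algebraMap κ Fb (li s) ∧ s33f_lead Z.Dz b g = algebraMap κ Fb (lz s)

variable {Z}

theorem s44c_NodeDec.const_mul {Ns : ι → Set (Place L₀ 𝓕)} {b : ℕ} {li lz : ι → κ} {a : 𝓕}
    (h : s44c_NodeDec Z Ns b li lz a) {c : L₀} (hc : c ≠ 0) :
    s44c_NodeDec Z Ns b li lz (algebraMap L₀ 𝓕 c * a) := by
  intro s
  obtain ⟨g, w, e, hw, hg, h1, h2⟩ := h s
  refine ⟨g, algebraMap L₀ 𝓕 c * w, ?_, (s44c_unit_const hc).mul hw, hg, h1, h2⟩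
  rw [e]
  ring

/-- **the leading pair of a unit at the node `s` is glued at `s`** (per-node `s33z_glued_lead`). -/
theorem s44c_glued_lead_at {Ns : ι → Set (Place L₀ 𝓕)} (hglue : s44c_GlueAt Z Ns) (s : ι) {t : ℕ}
    {w : 𝓕} (hw : s44c_Unit (Ns s) w) (h : s33z_Cong Z t w) :
    ∃ (h1 : s33f_lead Z.Di t w ∈ Z.Wi s) (h2 : s33f_lead Z.Dz t w ∈ Z.Wz s),
      Z.evi s ⟨_, h1⟩ = Z.evz s ⟨_, h2⟩ := by
  obtain ⟨y, hi, hz, e⟩ := h.exists_eq
  have hr : ∀ Q ∈ Ns s, y ∈ Q.toValuationSubring := by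
    have e' : w - 1 = algebraMap L₀ 𝓕 (D'.ϖ ^ t) * y := by
      rw [e, map_pow]
      rfl
    exact hw.reg_of_eq (pow_ne_zero _ D'.ϖ_ne_zero) e'
  have e1 : s33f_lead Z.Di t w = Z.Ci.red ⟨y, hi⟩ := by
    rw [s33f_lead_eq (D := Z.Di) (by rw [s33z_pi_i]; exact e)]
    exact s33f_redX_of_mem Z.Di hi
  have e2 : s33f_lead Z.Dz t w = Z.Cz.red ⟨y, hz⟩ := by
    rw [s33f_lead_eq (D := Z.Dz) (by rw [s33z_pi_z]; exact e)]
    exact s33f_redX_of_mem Z.Dz hz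
  obtain ⟨h1, h2, ev⟩ := hglue s y hi hz hr
  refine ⟨e1 ▸ h1, e2 ▸ h2, ?_⟩
  have a1 : (⟨s33f_lead Z.Di t w, e1 ▸ h1⟩ : Z.Wi s) = ⟨Z.Ci.red ⟨y, hi⟩, h1⟩ := Subtype.ext e1
  have a2 : (⟨s33f_lead Z.Dz t w, e2 ▸ h2⟩ : Z.Wz s) = ⟨Z.Cz.red ⟨y, hz⟩, h2⟩ := Subtype.ext e2
  rw [a1, a2]
  exact ev

/-- **the node step**: `a = g w`, `w` a unit at the node `s`, `a ≡ g ≡ 1 mod ϖ ^ t`: the pair
`lead_t a - lead_t g` is glued at `s`. -/
theorem s44c_node_step {Ns : ι → Set (Place L₀ 𝓕)} (hglue : s44c_GlueAt Z Ns) (s : ι) {t : ℕ}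
    (ht : 1 ≤ t) {a g w : 𝓕} (ha : s33z_Cong Z t a) (e : a = g * w) (hw : s44c_Unit (Ns s) w)
    (hg : s33z_Cong Z t g) :
    ∃ (h1 : s33f_lead Z.Di t a - s33f_lead Z.Di t g ∈ Z.Wi s)
      (h2 : s33f_lead Z.Dz t a - s33f_lead Z.Dz t g ∈ Z.Wz s),
      Z.evi s ⟨_, h1⟩ = Z.evz s ⟨_, h2⟩ := by
  have hg0 : g ≠ 0 := s33f_ne_zero_of_cong_one ht hg.1
  have hw_eq : w = a * g⁻¹ := by
    rw [e]
    field_simp
  have hwc : s33z_Cong Z t w := by
    rw [hw_eq]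
    exact ha.mul (hg.inv ht)
  have l1 : s33f_lead Z.Di t w = s33f_lead Z.Di t a - s33f_lead Z.Di t g := by
    rw [hw_eq, s33f_lead_mul ht ha.1 (hg.1.inv₁ ht), s33f_lead_inv ht hg.1]
    ring
  have l2 : s33f_lead Z.Dz t w = s33f_lead Z.Dz t a - s33f_lead Z.Dz t g := by
    rw [hw_eq, s33f_lead_mul ht ha.2 (hg.2.inv₁ ht), s33f_lead_inv ht hg.2]
    ring
  obtain ⟨h1, h2, ev⟩ := s44c_glued_lead_at hglue s hw hwc
  refine ⟨l1 ▸ h1, l2 ▸ h2, ?_⟩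
  have a1 : (⟨s33f_lead Z.Di t a - s33f_lead Z.Di t g, l1 ▸ h1⟩ : Z.Wi s) =
      ⟨s33f_lead Z.Di t w, h1⟩ := Subtype.ext l1.symm
  have a2 : (⟨s33f_lead Z.Dz t a - s33f_lead Z.Dz t g, l2 ▸ h2⟩ : Z.Wz s) =
      ⟨s33f_lead Z.Dz t w, h2⟩ := Subtype.ext l2.symm
  rw [a1, a2]
  exact ev

/-! ### The induction on the depth -/

section Main

variable {Pi Pz : Type*} {Ns : ι → Set (Place L₀ 𝓕)}

/-- "regular everywhere on the complete `∞`-component ⇒ constant". -/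
def s44c_ConstI (Z : s33z_Datum D' 𝓕 ι k) (Xi : s44c_Pts Z.Ci Pi) : Prop :=
  ∀ φ : Fb, (∀ s, φ ∈ Z.Wi s) → (∀ z, φ ∈ Xi.V z) → ∃ c : κ, φ = algebraMap κ Fb c

/-- "regular everywhere on the complete `0`-component ⇒ constant". -/
def s44c_ConstZ (Z : s33z_Datum D' 𝓕 ι k) (Xz : s44c_Pts Z.Cz Pz) : Prop :=
  ∀ φ : Fb, (∀ s, φ ∈ Z.Wz s) → (∀ z, φ ∈ Xz.V z) → ∃ c : κ, φ = algebraMap κ Fb c

/-- the data at one node and one depth `t ≤ b`: the leading pair of `a` minus a pair of constants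
`(γi, γz)` (`= 0` for `t < b`, `= (li s, lz s)` for `t = b`) is glued at `s`. -/
theorem s44c_node_data (hglue : s44c_GlueAt Z Ns) {b t : ℕ} (ht : 1 ≤ t) (htb : t ≤ b)
    {li lz : ι → κ} {a : 𝓕} (ha : s33z_Cong Z t a) (hnode : s44c_NodeDec Z Ns b li lz a) (s : ι) :
    ∃ γi γz : κ, (t < b → γi = 0 ∧ γz = 0) ∧ (t = b → γi = li s ∧ γz = lz s) ∧
      ∃ (h1 : s33f_lead Z.Di t a - algebraMap κ Fb γi ∈ Z.Wi s)
        (h2 : s33f_lead Z.Dz t a - algebraMap κ Fb γz ∈ Z.Wz s),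
        Z.evi s ⟨_, h1⟩ = Z.evz s ⟨_, h2⟩ := by
  obtain ⟨g, w, e, hw, hg, l1, l2⟩ := hnode s
  obtain ⟨h1, h2, ev⟩ := s44c_node_step hglue s ht ha e hw (hg.mono htb)
  rcases Nat.lt_or_ge t b with hlt | hge
  · have z1 : s33f_lead Z.Di t g = 0 := s33f_lead_of_cong_succ (hg.1.mono hlt)
    have z2 : s33f_lead Z.Dz t g = 0 := s33f_lead_of_cong_succ (hg.2.mono hlt)
    refine ⟨0, 0, fun _ => ⟨rfl, rfl⟩, fun h => absurd h (Nat.ne_of_lt hlt), ?_⟩
    have e1 : s33f_lead Z.Di t a - algebraMap κ Fb 0 = s33f_lead Z.Di t a - s33f_lead Z.Di t g := by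
      rw [z1, map_zero]
    have e2 : s33f_lead Z.Dz t a - algebraMap κ Fb 0 = s33f_lead Z.Dz t a - s33f_lead Z.Dz t g := by
      rw [z2, map_zero]
    refine ⟨e1 ▸ h1, e2 ▸ h2, ?_⟩
    have a1 : (⟨s33f_lead Z.Di t a - algebraMap κ Fb 0, e1 ▸ h1⟩ : Z.Wi s) =
        ⟨s33f_lead Z.Di t a - s33f_lead Z.Di t g, h1⟩ := Subtype.ext e1
    have a2 : (⟨s33f_lead Z.Dz t a - algebraMap κ Fb 0, e2 ▸ h2⟩ : Z.Wz s) =
        ⟨s33f_lead Z.Dz t a - s33f_lead Z.Dz t g, h2⟩ := Subtype.ext e2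
    rw [a1, a2]
    exact ev
  · have hbt : t = b := le_antisymm htb hge
    subst hbt
    refine ⟨li s, lz s, fun h => absurd h (lt_irrefl _), fun _ => ⟨rfl, rfl⟩, ?_⟩
    have e1 : s33f_lead Z.Di t a - algebraMap κ Fb (li s) =
        s33f_lead Z.Di t a - s33f_lead Z.Di t g := by rw [l1]
    have e2 : s33f_lead Z.Dz t a - algebraMap κ Fb (lz s) =
        s33f_lead Z.Dz t a - s33f_lead Z.Dz t g := by rw [l2]
    refine ⟨e1 ▸ h1, e2 ▸ h2, ?_⟩
    have a1 : (⟨s33f_lead Z.Di t a - algebraMap κ Fb (li s), e1 ▸ h1⟩ : Z.Wi s) =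
        ⟨s33f_lead Z.Di t a - s33f_lead Z.Di t g, h1⟩ := Subtype.ext e1
    have a2 : (⟨s33f_lead Z.Dz t a - algebraMap κ Fb (lz s), e2 ▸ h2⟩ : Z.Wz s) =
        ⟨s33f_lead Z.Dz t a - s33f_lead Z.Dz t g, h2⟩ := Subtype.ext e2
    rw [a1, a2]
    exact ev

/-- **one depth**: for `1 ≤ t ≤ b` the leading pair of `a ≡ 1 mod ϖ ^ t` is a pair of CONSTANTS
`(Ai, Az)`, equal if `t < b`, and with `Ai - li s = Az - lz s` at every node if `t = b`. -/
theorem s44c_step (hglue : s44c_GlueAt Z Ns) (Xi : s44c_Pts Z.Ci Pi) (Xz : s44c_Pts Z.Cz Pz)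
    (hci : s44c_ConstI Z Xi) (hcz : s44c_ConstZ Z Xz) {b t : ℕ} (ht : 1 ≤ t) (htb : t ≤ b)
    (hsub : (D'.p - 1) * b < D'.e) {li lz : ι → κ} {a : 𝓕} (ha : s33z_Cong Z t a)
    (hnode : s44c_NodeDec Z Ns b li lz a) (hsi : s44c_SmoothDec Z.Ci Xi b a)
    (hsz : s44c_SmoothDec Z.Cz Xz b a) :
    ∃ Ai Az : κ, s33f_lead Z.Di t a = algebraMap κ Fb Ai ∧
      s33f_lead Z.Dz t a = algebraMap κ Fb Az ∧
      (t < b → Ai = Az) ∧ (t = b → ∀ s, Ai - li s = Az - lz s) := by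
  have hnd := s44c_node_data hglue ht htb ha hnode
  -- regular everywhere
  have hWi : ∀ s, s33f_lead Z.Di t a ∈ Z.Wi s := by
    intro s
    obtain ⟨γi, -, -, -, h1, -, -⟩ := hnd s
    have : s33f_lead Z.Di t a = (s33f_lead Z.Di t a - algebraMap κ Fb γi) + algebraMap κ Fb γi := by
      ring
    rw [this]
    exact (Z.Wi s).add_mem _ _ h1 (Z.Wi_const s γi)
  have hWz : ∀ s, s33f_lead Z.Dz t a ∈ Z.Wz s := by
    intro s
    obtain ⟨-, γz, -, -, -, h2, -⟩ := hnd s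
    have : s33f_lead Z.Dz t a = (s33f_lead Z.Dz t a - algebraMap κ Fb γz) + algebraMap κ Fb γz := by
      ring
    rw [this]
    exact (Z.Wz s).add_mem _ _ h2 (Z.Wz_const s γz)
  have hVi : ∀ z, s33f_lead Z.Di t a ∈ Xi.V z := by
    intro z
    obtain ⟨g, w, e, hw, hg⟩ := hsi z
    exact s44c_lead_mem_smooth Z.Ci Xi z ht htb hsub ha.1 e hw hg
  have hVz : ∀ z, s33f_lead Z.Dz t a ∈ Xz.V z := by
    intro z
    obtain ⟨g, w, e, hw, hg⟩ := hsz z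
    exact s44c_lead_mem_smooth Z.Cz Xz z ht htb hsub ha.2 e hw hg
  obtain ⟨Ai, eAi⟩ := hci _ hWi hVi
  obtain ⟨Az, eAz⟩ := hcz _ hWz hVz
  -- the gluing relation between the constants
  have hrel : ∀ s, ∀ γi γz : κ,
      (∃ (h1 : s33f_lead Z.Di t a - algebraMap κ Fb γi ∈ Z.Wi s)
        (h2 : s33f_lead Z.Dz t a - algebraMap κ Fb γz ∈ Z.Wz s),
        Z.evi s ⟨_, h1⟩ = Z.evz s ⟨_, h2⟩) → Ai - γi = Az - γz := by
    rintro s γi γz ⟨h1, h2, ev⟩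
    have a1 : (⟨s33f_lead Z.Di t a - algebraMap κ Fb γi, h1⟩ : Z.Wi s) =
        ⟨algebraMap κ Fb (Ai - γi), Z.Wi_const s _⟩ := Subtype.ext (by
      change s33f_lead Z.Di t a - algebraMap κ Fb γi = algebraMap κ Fb (Ai - γi)
      rw [eAi, map_sub])
    have a2 : (⟨s33f_lead Z.Dz t a - algebraMap κ Fb γz, h2⟩ : Z.Wz s) =
        ⟨algebraMap κ Fb (Az - γz), Z.Wz_const s _⟩ := Subtype.ext (by
      change s33f_lead Z.Dz t a - algebraMap κ Fb γz = algebraMap κ Fb (Az - γz)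
      rw [eAz, map_sub])
    rw [a1, a2, Z.evi_const, Z.evz_const] at ev
    exact (algebraMap κ (k s)).injective ev
  refine ⟨Ai, Az, eAi, eAz, ?_, ?_⟩
  · intro hlt
    obtain ⟨s⟩ := Z.nonempty
    obtain ⟨γi, γz, h0, -, hex⟩ := hnd s
    obtain ⟨rfl, rfl⟩ := h0 hlt
    have := hrel s 0 0 hex
    rwa [sub_zero, sub_zero] at this
  · intro hbt s
    obtain ⟨γi, γz, -, h0, hex⟩ := hnd s
    obtain ⟨rfl, rfl⟩ := h0 hbt
    exact hrel s _ _ hex

/-- **the slope defect at depth `b`, with explicit constants**: if `a ≡ 1 mod ϖ ^ b` already, the leading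
pair of `a` at depth `b` is a pair of constants `(Ai, Az)` and `lz s - li s = Az - Ai` at every node. -/
theorem s44c_slope_at_b (hglue : s44c_GlueAt Z Ns) (Xi : s44c_Pts Z.Ci Pi) (Xz : s44c_Pts Z.Cz Pz)
    (hci : s44c_ConstI Z Xi) (hcz : s44c_ConstZ Z Xz) {b : ℕ} (hb : 1 ≤ b)
    (hsub : (D'.p - 1) * b < D'.e) {li lz : ι → κ} {a : 𝓕} (ha : s33z_Cong Z b a)
    (hnode : s44c_NodeDec Z Ns b li lz a) (hsi : s44c_SmoothDec Z.Ci Xi b a)
    (hsz : s44c_SmoothDec Z.Cz Xz b a) :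
    ∃ Ai Az : κ, s33f_lead Z.Di b a = algebraMap κ Fb Ai ∧
      s33f_lead Z.Dz b a = algebraMap κ Fb Az ∧ ∀ s, lz s - li s = Az - Ai := by
  obtain ⟨Ai, Az, e1, e2, -, h⟩ := s44c_step hglue Xi Xz hci hcz hb le_rfl hsub ha hnode hsi hsz
  refine ⟨Ai, Az, e1, e2, fun s => ?_⟩
  have := h rfl s
  linear_combination this

/-- **deepening by constants**: if `a ≡ 1 mod ϖ`, some constant multiple of `a` is `≡ 1 mod ϖ ^ b`
(and it still has the decompositions, by `const_mul`). -/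
theorem s44c_deepen_to_b (hglue : s44c_GlueAt Z Ns) (Xi : s44c_Pts Z.Ci Pi) (Xz : s44c_Pts Z.Cz Pz)
    (hci : s44c_ConstI Z Xi) (hcz : s44c_ConstZ Z Xz) {b : ℕ} (hb : 1 ≤ b)
    (hsub : (D'.p - 1) * b < D'.e) {li lz : ι → κ} {a : 𝓕} (ha : s33z_Cong Z 1 a)
    (hnode : s44c_NodeDec Z Ns b li lz a) (hsi : s44c_SmoothDec Z.Ci Xi b a)
    (hsz : s44c_SmoothDec Z.Cz Xz b a) :
    ∃ c : L₀, c ≠ 0 ∧ s33z_Cong Z b (algebraMap L₀ 𝓕 c * a) := by
  have key : ∀ n t : ℕ, t + n = b → 1 ≤ t → ∀ a : 𝓕, s33z_Cong Z t a →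
      s44c_NodeDec Z Ns b li lz a → s44c_SmoothDec Z.Ci Xi b a → s44c_SmoothDec Z.Cz Xz b a →
      ∃ c : L₀, c ≠ 0 ∧ s33z_Cong Z b (algebraMap L₀ 𝓕 c * a) := by
    intro n
    induction n with
    | zero =>
      intro t htn ht a ha _ _ _
      have htb : t = b := by omega
      subst htb
      exact ⟨1, one_ne_zero, by rwa [map_one, one_mul]⟩
    | succ n ih =>
      intro t htn ht a ha hnode hsi hsz
      have hlt : t < b := by omega
      obtain ⟨Ai, Az, eAi, eAz, h, -⟩ := s44c_step hglue Xi Xz hci hcz ht (le_of_lt hlt) hsub ha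
        hnode hsi hsz
      have hA := h hlt
      subst hA
      obtain ⟨c₀, rfl⟩ := D'.resA_surjective Ai
      have hC0 : (1 + D'.ϖ ^ t * (c₀ : L₀)) ≠ 0 := (s33z_const_corr Z.Di ht c₀).2.2
      obtain ⟨-, bi⟩ := s33z_deepen_comp_const Z.Di ht c₀ ha.1 eAi
      obtain ⟨-, bz⟩ := s33z_deepen_comp_const Z.Dz ht c₀ ha.2 eAz
      have hinv : (algebraMap L₀ 𝓕 (1 + D'.ϖ ^ t * (c₀ : L₀)))⁻¹ =
          algebraMap L₀ 𝓕 (1 + D'.ϖ ^ t * (c₀ : L₀))⁻¹ := (map_inv₀ _ _).symm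
      have hC0' : (1 + D'.ϖ ^ t * (c₀ : L₀))⁻¹ ≠ 0 := inv_ne_zero hC0
      obtain ⟨c, hc, hcong⟩ := ih (t + 1) (by omega) (by omega)
        (algebraMap L₀ 𝓕 (1 + D'.ϖ ^ t * (c₀ : L₀))⁻¹ * a) (by rw [← hinv]; exact ⟨bi, bz⟩)
        (hnode.const_mul hC0') (hsi.const_mul hC0') (hsz.const_mul hC0')
      refine ⟨c * (1 + D'.ϖ ^ t * (c₀ : L₀))⁻¹, mul_ne_zero hc hC0', ?_⟩
      rw [map_mul, mul_assoc]
      exact hcong
  exact key (b - 1) 1 (by omega) le_rfl a ha hnode hsi hsz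

/-- **(★)-core, step (iii)**: THE SLOPE DEFECT `lz s - li s` DOES NOT DEPEND ON THE NODE `s`. -/
theorem s44c_slope_const (hglue : s44c_GlueAt Z Ns) (Xi : s44c_Pts Z.Ci Pi) (Xz : s44c_Pts Z.Cz Pz)
    (hci : s44c_ConstI Z Xi) (hcz : s44c_ConstZ Z Xz) {b : ℕ} (hb : 1 ≤ b)
    (hsub : (D'.p - 1) * b < D'.e) {li lz : ι → κ} {a : 𝓕} (ha : s33z_Cong Z 1 a)
    (hnode : s44c_NodeDec Z Ns b li lz a) (hsi : s44c_SmoothDec Z.Ci Xi b a)
    (hsz : s44c_SmoothDec Z.Cz Xz b a) : ∃ Δ : κ, ∀ s, lz s - li s = Δ := by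
  -- induction on `n = b - t`
  have key : ∀ n t : ℕ, t + n = b → 1 ≤ t → ∀ a : 𝓕, s33z_Cong Z t a →
      s44c_NodeDec Z Ns b li lz a → s44c_SmoothDec Z.Ci Xi b a → s44c_SmoothDec Z.Cz Xz b a →
      ∃ Δ : κ, ∀ s, lz s - li s = Δ := by
    intro n
    induction n with
    | zero =>
      intro t htn ht a ha hnode hsi hsz
      have htb : t = b := by omega
      obtain ⟨Ai, Az, -, -, -, h⟩ := s44c_step hglue Xi Xz hci hcz ht (le_of_eq htb) hsub ha hnode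
        hsi hsz
      refine ⟨Az - Ai, fun s => ?_⟩
      have := h htb s
      linear_combination this
    | succ n ih =>
      intro t htn ht a ha hnode hsi hsz
      have hlt : t < b := by omega
      obtain ⟨Ai, Az, eAi, eAz, h, -⟩ := s44c_step hglue Xi Xz hci hcz ht (le_of_lt hlt) hsub ha
        hnode hsi hsz
      have hA := h hlt
      subst hA
      obtain ⟨c₀, rfl⟩ := D'.resA_surjective Ai
      have hC0 : (1 + D'.ϖ ^ t * (c₀ : L₀)) ≠ 0 := (s33z_const_corr Z.Di ht c₀).2.2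
      obtain ⟨-, bi⟩ := s33z_deepen_comp_const Z.Di ht c₀ ha.1 eAi
      obtain ⟨-, bz⟩ := s33z_deepen_comp_const Z.Dz ht c₀ ha.2 eAz
      have hinv : (algebraMap L₀ 𝓕 (1 + D'.ϖ ^ t * (c₀ : L₀)))⁻¹ =
          algebraMap L₀ 𝓕 (1 + D'.ϖ ^ t * (c₀ : L₀))⁻¹ := (map_inv₀ _ _).symm
      have hC0' : (1 + D'.ϖ ^ t * (c₀ : L₀))⁻¹ ≠ 0 := inv_ne_zero hC0
      refine ih (t + 1) (by omega) (by omega)
        (algebraMap L₀ 𝓕 (1 + D'.ϖ ^ t * (c₀ : L₀))⁻¹ * a) ?_ (hnode.const_mul hC0')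
        (hsi.const_mul hC0') (hsz.const_mul hC0')
      rw [← hinv]
      exact ⟨bi, bz⟩
  exact key (b - 1) 1 (by omega) le_rfl a ha hnode hsi hsz

end Main

end Fermat.Agent.Lib.S44
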