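/-
M-AT-P programme (S44), wall W2 (helper8, prefix `s44e_`), part 6: **(G6) GLOBALISATION OVER THE SEMI-LOCAL
RING OF THE NODES.**  ABSTRACT (S34 X″ vocabulary + `Lib/S33/SSModel`): `O : Bool → ValuationSubring 𝓕`
(`true ↦ V_∞`, `false ↦ V_0`), both discrete with uniformiser `π`, a chart `S` with chart ring
`B = s34x_ring (s34x_infRing O) S`, FINITELY MANY nodes `𝔫 s` (`s33s_IsNode`), `T_s` := the places of `S`
through `𝔫 s`.  (One place may pass through SEVERAL nodes: the base field is not henselian.)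

* `s44e_UnitAt O S 𝔫 x` : `x` is a unit of `V_∞`, of `V_0` and has order `0` at the places through `𝔫`
  (`= x ∈ B_𝔫ˣ`, by Hartogs); `s44e_RegAt O S 𝔫 x` : `x ∈ V_∞ ⊓ V_0` regular at the places through `𝔫`;
* `s44e_unitAt_of_not_mem` : `d ∈ B ∖ 𝔫` is a unit at `𝔫`;
* `s44e_unitAt_frac`       : a unit at `𝔫` is `b / c`, `b, c ∈ B ∖ 𝔫`;
* `s44e_unitAt_add_sum`    : `unit + Σ n_k r_k` (`n_k ∈ 𝔫`, `r_k` regular at `𝔫`) is a unit at `𝔫` (`B_𝔫` is local);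
* `s44e_glob_G`            : LOCALLY PRINCIPAL ⇒ PRINCIPAL: `g s` with `g s / g s'` a unit of `V_∞`, `V_0` and
  `ord_Q (g s) = ord_Q (g s')` at the places through `𝔫 s` and `𝔫 s'` ⇒ `∃ G, ∀ s, G / g s` is a unit at `𝔫 s`;
* **`s44e_glob`**          : `f = g_s ^ p · υ_s` at every node `s` (`υ_s = π ^ a_s · unit` at `𝔫 s`) ⇒
  `f = G ^ p · π ^ a · h` with `h` a unit of `V_∞`, of `V_0`, of order `0` at all places through all nodes.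
-/
import Fermat.Agent.Lib.S33.SSModel

set_option autoImplicit false
set_option linter.unusedSectionVars false
set_option linter.style.haveILetI false

noncomputable section

namespace Fermat.Agent.Lib.S44

open AlgebraicCurve Fermat.Agent.Lib.FF Fermat.Agent.Lib.S18 Fermat.Agent.Lib.S34
  Fermat.Agent.Lib.S33

section CRT

/-- CRT idempotents for finitely many distinct maximal ideals. -/
theorem s44e_crt {R : Type*} [CommRing R] {ι : Type*} [Finite ι] (I : ι → Ideal R)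
    (hmax : ∀ s, (I s).IsMaximal) (hinj : Function.Injective I) :
    ∃ e : ι → R, ∀ s, e s - 1 ∈ I s ∧ ∀ s', s' ≠ s → e s ∈ I s' := by
  classical
  have hcop : Pairwise (Function.onFun IsCoprime I) := by
    intro s s' hss'
    show IsCoprime (I s) (I s')
    rw [Ideal.isCoprime_iff_sup_eq]
    exact (hmax s).coprime_of_ne (hmax s') (fun h => hss' (hinj h))
  have key : ∀ s, ∃ r : R, r - 1 ∈ I s ∧ ∀ s', s' ≠ s → r ∈ I s' := by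
    intro s
    obtain ⟨r, hr⟩ := Ideal.exists_forall_sub_mem_ideal hcop (fun s' => if s' = s then 1 else 0)
    refine ⟨r, ?_, fun s' hs' => ?_⟩
    · have := hr s
      rwa [if_pos rfl] at this
    · have := hr s'
      rwa [if_neg hs', sub_zero] at this
  choose e he using key
  exact ⟨e, he⟩

end CRT

section Glob

variable {L₀ 𝓕 : Type*} [Field L₀] [Field 𝓕] [Algebra L₀ 𝓕]
variable (O : Bool → ValuationSubring 𝓕) (π : 𝓕) (S : Set (Place L₀ 𝓕))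

/-- `x` is a unit at the node `𝔫`: a unit of `V_∞` and `V_0` of order `0` at the places through `𝔫`. -/
def s44e_UnitAt (𝔫 : Ideal (s34x_ring (s34x_infRing O) S)) (x : 𝓕) : Prop :=
  x ≠ 0 ∧ (∀ i, x ∈ O i ∧ x⁻¹ ∈ O i) ∧
    ∀ Q ∈ S, s34f_through (s34x_infRing O) S 𝔫 Q → Q.ord x = 0

/-- `x` is regular at the node `𝔫`. -/
def s44e_RegAt (𝔫 : Ideal (s34x_ring (s34x_infRing O) S)) (x : 𝓕) : Prop :=
  (∀ i, x ∈ O i) ∧ ∀ Q ∈ S, s34f_through (s34x_infRing O) S 𝔫 Q → x ∈ Q.toValuationSubring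

variable {O S}

theorem s44e_UnitAt.mul {𝔫 : Ideal (s34x_ring (s34x_infRing O) S)} {x y : 𝓕}
    (hx : s44e_UnitAt O S 𝔫 x) (hy : s44e_UnitAt O S 𝔫 y) : s44e_UnitAt O S 𝔫 (x * y) := by
  refine ⟨mul_ne_zero hx.1 hy.1, fun i => ⟨(O i).mul_mem _ _ (hx.2.1 i).1 (hy.2.1 i).1, ?_⟩,
    fun Q hQ hth => ?_⟩
  · rw [mul_inv]
    exact (O i).mul_mem _ _ (hx.2.1 i).2 (hy.2.1 i).2
  · rw [Q.ord_mul hx.1 hy.1, hx.2.2 Q hQ hth, hy.2.2 Q hQ hth, add_zero]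

theorem s44e_UnitAt.inv {𝔫 : Ideal (s34x_ring (s34x_infRing O) S)} {x : 𝓕}
    (hx : s44e_UnitAt O S 𝔫 x) : s44e_UnitAt O S 𝔫 x⁻¹ := by
  refine ⟨inv_ne_zero hx.1, fun i => ⟨(hx.2.1 i).2, ?_⟩, fun Q hQ hth => ?_⟩
  · rw [inv_inv]
    exact (hx.2.1 i).1
  · rw [Q.ord_inv, hx.2.2 Q hQ hth, neg_zero]

theorem s44e_UnitAt.pow {𝔫 : Ideal (s34x_ring (s34x_infRing O) S)} {x : 𝓕}
    (hx : s44e_UnitAt O S 𝔫 x) (n : ℕ) : s44e_UnitAt O S 𝔫 (x ^ n) := by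
  induction n with
  | zero =>
    rw [pow_zero]
    refine ⟨one_ne_zero, fun i => ⟨(O i).one_mem, ?_⟩, fun Q _ _ => Q.ord_one⟩
    rw [inv_one]
    exact (O i).one_mem
  | succ n ih =>
    rw [pow_succ]
    exact ih.mul hx

theorem s44e_UnitAt.regAt {𝔫 : Ideal (s34x_ring (s34x_infRing O) S)} {x : 𝓕}
    (hx : s44e_UnitAt O S 𝔫 x) : s44e_RegAt O S 𝔫 x :=
  ⟨fun i => (hx.2.1 i).1, fun Q hQ hth =>
    (ff_mem_iff_ord_nonneg Q hx.1).mpr (le_of_eq (hx.2.2 Q hQ hth).symm)⟩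

variable (O S)

/-- **an element of the chart ring outside the node is a unit at the node.** -/
theorem s44e_unitAt_of_not_mem (hπ0 : π ≠ 0) (hπO : ∀ i, π ∈ O i)
    (hUi : ∀ i, ∀ U : 𝓕, U ≠ 0 → ∃ (n : ℤ) (u : 𝓕), u ∈ O i ∧ u⁻¹ ∈ O i ∧ U = π ^ n * u)
    (𝔫 : Ideal (s34x_ring (s34x_infRing O) S)) (h𝔫 : s33s_IsNode O π S 𝔫)
    (d : s34x_ring (s34x_infRing O) S) (hd : d ∉ 𝔫) : s44e_UnitAt O S 𝔫 (d : 𝓕) := by
  have hd0 : (d : 𝓕) ≠ 0 := by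
    intro h0
    apply hd
    have : d = 0 := Subtype.ext h0
    rw [this]
    exact 𝔫.zero_mem
  refine ⟨hd0, fun i => ⟨s33s_ring_mem O S i d, ?_⟩, fun Q hQ hth =>
    s33s_ord_eq_zero_of_not_mem (s34x_infRing O) S 𝔫 d hd Q hQ hth⟩
  refine s33s_inv_mem_of_not_dvd (O i) π hπ0 (hπO i) (hUi i) (d : 𝓕) hd0 ?_
  rintro ⟨z, hz, e⟩
  apply hd
  have hmem : d ∈ s33s_comp O π S i := (s33s_mem_comp O π S i d).mpr ⟨z, hz, e⟩
  cases i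
  · exact h𝔫.2.2 hmem
  · exact h𝔫.2.1 hmem

/-- Hartogs at a node. -/
theorem s44e_regAt_frac
    (hfin : ∀ y : 𝓕, y ≠ 0 → {Q : Place L₀ 𝓕 | Q ∈ S ∧ Q.ord y ≠ 0}.Finite)
    (𝔫 : Ideal (s34x_ring (s34x_infRing O) S)) [h𝔫 : 𝔫.IsPrime] (x : 𝓕)
    (hx : s44e_RegAt O S 𝔫 x) :
    ∃ c : s34x_ring (s34x_infRing O) S, c ∉ 𝔫 ∧ (c : 𝓕) * x ∈ s34x_ring (s34x_infRing O) S := by
  have hfin' : {Q : Place L₀ 𝓕 | Q ∈ S ∧ Q.ord x < 0}.Finite := by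
    by_cases hx0 : x = 0
    · have : {Q : Place L₀ 𝓕 | Q ∈ S ∧ Q.ord x < 0} = ∅ := by
        ext Q
        simp [hx0]
      rw [this]
      exact Set.finite_empty
    · exact (hfin x hx0).subset (fun Q hQ => ⟨hQ.1, ne_of_lt hQ.2⟩)
  exact s33s_frac_of_reg (s34x_infRing O) S 𝔫 x ((s34x_mem_infRing O x).mpr hx.1) hfin' hx.2

/-- **a unit at the node is a quotient of two elements of the chart ring outside the node.** -/
theorem s44e_unitAt_frac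
    (hfin : ∀ y : 𝓕, y ≠ 0 → {Q : Place L₀ 𝓕 | Q ∈ S ∧ Q.ord y ≠ 0}.Finite)
    (𝔫 : Ideal (s34x_ring (s34x_infRing O) S)) [h𝔫 : 𝔫.IsPrime] (u : 𝓕)
    (hu : s44e_UnitAt O S 𝔫 u) :
    ∃ b c : s34x_ring (s34x_infRing O) S, b ∉ 𝔫 ∧ c ∉ 𝔫 ∧ (c : 𝓕) * u = (b : 𝓕) := by
  obtain ⟨c, hc, hcu⟩ := s44e_regAt_frac O S hfin 𝔫 u hu.regAt
  obtain ⟨c', hc', hcu'⟩ := s44e_regAt_frac O S hfin 𝔫 u⁻¹ hu.inv.regAt
  refine ⟨⟨_, hcu⟩, c, ?_, hc, rfl⟩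
  intro hb
  have hprod : (⟨_, hcu⟩ : s34x_ring (s34x_infRing O) S) * ⟨_, hcu'⟩ = c * c' := by
    apply Subtype.ext
    show (c : 𝓕) * u * ((c' : 𝓕) * u⁻¹) = (c : 𝓕) * (c' : 𝓕)
    have := hu.1
    field_simp
  have : c * c' ∈ 𝔫 := by
    rw [← hprod]
    exact 𝔫.mul_mem_right _ hb
  rcases h𝔫.mem_or_mem this with h | h
  · exact hc h
  · exact hc' h

/-- `unit + n r` is a unit at the node (`n ∈ 𝔫`, `r` regular at `𝔫`). -/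
theorem s44e_unitAt_add (hπ0 : π ≠ 0) (hπO : ∀ i, π ∈ O i)
    (hUi : ∀ i, ∀ U : 𝓕, U ≠ 0 → ∃ (n : ℤ) (u : 𝓕), u ∈ O i ∧ u⁻¹ ∈ O i ∧ U = π ^ n * u)
    (hfin : ∀ y : 𝓕, y ≠ 0 → {Q : Place L₀ 𝓕 | Q ∈ S ∧ Q.ord y ≠ 0}.Finite)
    (𝔫 : Ideal (s34x_ring (s34x_infRing O) S)) (h𝔫 : s33s_IsNode O π S 𝔫) (u : 𝓕)
    (hu : s44e_UnitAt O S 𝔫 u) (n : s34x_ring (s34x_infRing O) S) (hn : n ∈ 𝔫) (r : 𝓕)
    (hr : s44e_RegAt O S 𝔫 r) : s44e_UnitAt O S 𝔫 (u + (n : 𝓕) * r) := by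
  haveI := h𝔫.1
  haveI : 𝔫.IsPrime := h𝔫.1.isPrime
  obtain ⟨b, c, hb, hc, hcu⟩ := s44e_unitAt_frac O S hfin 𝔫 u hu
  obtain ⟨c', hc', hcr⟩ := s44e_regAt_frac O S hfin 𝔫 r hr
  set b' : s34x_ring (s34x_infRing O) S := ⟨_, hcr⟩ with hb'
  have hnum : b * c' + n * c * b' ∉ 𝔫 := by
    intro h
    have h1 : n * c * b' ∈ 𝔫 := by
      rw [mul_assoc]
      exact 𝔫.mul_mem_right _ hn
    have h2 : b * c' ∈ 𝔫 := by
      have := 𝔫.sub_mem h h1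
      rwa [add_sub_cancel_right] at this
    rcases ‹𝔫.IsPrime›.mem_or_mem h2 with h | h
    · exact hb h
    · exact hc' h
  have hden : c * c' ∉ 𝔫 := by
    intro h
    rcases ‹𝔫.IsPrime›.mem_or_mem h with h | h
    · exact hc h
    · exact hc' h
  have hN := s44e_unitAt_of_not_mem O π S hπ0 hπO hUi 𝔫 h𝔫 _ hnum
  have hD := s44e_unitAt_of_not_mem O π S hπ0 hπO hUi 𝔫 h𝔫 _ hden
  have e : u + (n : 𝓕) * r =
      ((b * c' + n * c * b' : s34x_ring (s34x_infRing O) S) : 𝓕) *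
        ((c * c' : s34x_ring (s34x_infRing O) S) : 𝓕)⁻¹ := by
    have hD0 := hD.1
    rw [eq_mul_inv_iff_mul_eq₀ hD0]
    push_cast
    rw [hb']
    show (u + (n : 𝓕) * r) * ((c : 𝓕) * (c' : 𝓕)) =
      (b : 𝓕) * (c' : 𝓕) + (n : 𝓕) * (c : 𝓕) * ((c' : 𝓕) * r)
    rw [← hcu]
    ring
  rw [e]
  exact hN.mul hD.inv

/-- `unit + Σ n_k r_k` is a unit at the node. -/
theorem s44e_unitAt_add_sum (hπ0 : π ≠ 0) (hπO : ∀ i, π ∈ O i)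
    (hUi : ∀ i, ∀ U : 𝓕, U ≠ 0 → ∃ (n : ℤ) (u : 𝓕), u ∈ O i ∧ u⁻¹ ∈ O i ∧ U = π ^ n * u)
    (hfin : ∀ y : 𝓕, y ≠ 0 → {Q : Place L₀ 𝓕 | Q ∈ S ∧ Q.ord y ≠ 0}.Finite)
    (𝔫 : Ideal (s34x_ring (s34x_infRing O) S)) (h𝔫 : s33s_IsNode O π S 𝔫) (u : 𝓕)
    (hu : s44e_UnitAt O S 𝔫 u) {ι : Type*} (T : Finset ι)
    (n : ι → s34x_ring (s34x_infRing O) S) (r : ι → 𝓕) (hn : ∀ k ∈ T, n k ∈ 𝔫)
    (hr : ∀ k ∈ T, s44e_RegAt O S 𝔫 (r k)) :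
    s44e_UnitAt O S 𝔫 (u + ∑ k ∈ T, (n k : 𝓕) * r k) := by
  classical
  induction T using Finset.induction_on with
  | empty =>
    rw [Finset.sum_empty, add_zero]
    exact hu
  | insert a T ha ih =>
    have e : u + ∑ k ∈ insert a T, (n k : 𝓕) * r k =
        (u + ∑ k ∈ T, (n k : 𝓕) * r k) + (n a : 𝓕) * r a := by
      rw [Finset.sum_insert ha]
      ring
    rw [e]
    have h1 := ih (fun k hk => hn k (Finset.mem_insert_of_mem hk))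
      (fun k hk => hr k (Finset.mem_insert_of_mem hk))
    exact s44e_unitAt_add O π S hπ0 hπO hUi hfin 𝔫 h𝔫 _ h1 (n a)
      (hn a (Finset.mem_insert_self _ _)) (r a) (hr a (Finset.mem_insert_self _ _))

/-- the pole killer: for the node `s` there is `d ∈ B ∖ 𝔫 s` with `d · g s / g s'` regular at `𝔫 s'` for
every `s'`. -/
theorem s44e_pole_killer
    (hfin : ∀ y : 𝓕, y ≠ 0 → {Q : Place L₀ 𝓕 | Q ∈ S ∧ Q.ord y ≠ 0}.Finite)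
    {ι : Type*} [Fintype ι] (𝔫 : ι → Ideal (s34x_ring (s34x_infRing O) S))
    (h𝔫 : ∀ s, s33s_IsNode O π S (𝔫 s)) (g : ι → 𝓕) (hg0 : ∀ s, g s ≠ 0)
    (hgO : ∀ s s' i, g s * (g s')⁻¹ ∈ O i)
    (hgQ : ∀ s s' Q, Q ∈ S → s34f_through (s34x_infRing O) S (𝔫 s) Q →
      s34f_through (s34x_infRing O) S (𝔫 s') Q → Q.ord (g s) = Q.ord (g s')) (s : ι) :
    ∃ d : s34x_ring (s34x_infRing O) S, d ∉ 𝔫 s ∧
      ∀ s', s44e_RegAt O S (𝔫 s') ((d : 𝓕) * (g s * (g s')⁻¹)) := by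
  classical
  haveI := (h𝔫 s).1
  haveI : (𝔫 s).IsPrime := (h𝔫 s).1.isPrime
  have hy0 : ∀ s', g s * (g s')⁻¹ ≠ 0 := fun s' => mul_ne_zero (hg0 s) (inv_ne_zero (hg0 s'))
  have hfinneg : ∀ s', {Q : Place L₀ 𝓕 | Q ∈ S ∧ Q.ord (g s * (g s')⁻¹) < 0}.Finite :=
    fun s' => (hfin _ (hy0 s')).subset (fun Q hQ => ⟨hQ.1, ne_of_lt hQ.2⟩)
  set T : Finset (Place L₀ 𝓕) := Finset.univ.biUnion (fun s' =>
    (hfinneg s').toFinset.filter (fun Q => s34f_through (s34x_infRing O) S (𝔫 s') Q)) with hT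
  set nn : Place L₀ 𝓕 → ℤ := fun Q => ∑ s', |Q.ord (g s * (g s')⁻¹)| with hnn
  obtain ⟨d, hd, hd0, hdT⟩ := s34x_exists_kill_places (s34x_infRing O) S (𝔫 s) nn T (by
    intro Q hQ
    rw [hT, Finset.mem_biUnion] at hQ
    obtain ⟨s', -, hQ⟩ := hQ
    rw [Finset.mem_filter, Set.Finite.mem_toFinset] at hQ
    obtain ⟨⟨hQS, hneg⟩, hth⟩ := hQ
    refine ⟨hQS, ?_⟩
    by_contra hcon
    push Not at hcon
    have hths : s34f_through (s34x_infRing O) S (𝔫 s) Q := fun b hb0 hbpos => hcon b hb0 hbpos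
    have := hgQ s s' Q hQS hths hth
    rw [Q.ord_mul (hg0 s) (inv_ne_zero (hg0 s')), Q.ord_inv, this] at hneg
    omega)
  refine ⟨d, hd, fun s' => ⟨fun i => (O i).mul_mem _ _ (s33s_ring_mem O S i d) (hgO s s' i),
    fun Q hQ hth => ?_⟩⟩
  rw [ff_mem_iff_ord_nonneg Q (mul_ne_zero hd0 (hy0 s')), Q.ord_mul hd0 (hy0 s')]
  have hdnn : 0 ≤ Q.ord (d : 𝓕) := s34x_ord_nonneg_of_mem_ring (s34x_infRing O) S d Q hQ
  by_cases hneg : Q.ord (g s * (g s')⁻¹) < 0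
  · have hQT : Q ∈ T := by
      rw [hT, Finset.mem_biUnion]
      refine ⟨s', Finset.mem_univ _, ?_⟩
      rw [Finset.mem_filter, Set.Finite.mem_toFinset]
      exact ⟨⟨hQ, hneg⟩, hth⟩
    have h1 := hdT Q hQT
    have h2 : |Q.ord (g s * (g s')⁻¹)| ≤ nn Q :=
      Finset.single_le_sum (f := fun s' => |Q.ord (g s * (g s')⁻¹)|)
        (fun _ _ => abs_nonneg _) (Finset.mem_univ s')
    have h3 := neg_abs_le (Q.ord (g s * (g s')⁻¹))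
    omega
  · omega

/-- **LOCALLY PRINCIPAL ⇒ PRINCIPAL over the semi-local ring of the nodes.** -/
theorem s44e_glob_G (hπ0 : π ≠ 0) (hπO : ∀ i, π ∈ O i)
    (hUi : ∀ i, ∀ U : 𝓕, U ≠ 0 → ∃ (n : ℤ) (u : 𝓕), u ∈ O i ∧ u⁻¹ ∈ O i ∧ U = π ^ n * u)
    (hfin : ∀ y : 𝓕, y ≠ 0 → {Q : Place L₀ 𝓕 | Q ∈ S ∧ Q.ord y ≠ 0}.Finite)
    {ι : Type*} [Fintype ι] (𝔫 : ι → Ideal (s34x_ring (s34x_infRing O) S))
    (h𝔫 : ∀ s, s33s_IsNode O π S (𝔫 s)) (hinj : Function.Injective 𝔫)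
    (g : ι → 𝓕) (hg0 : ∀ s, g s ≠ 0)
    (hgO : ∀ s s' i, g s * (g s')⁻¹ ∈ O i)
    (hgQ : ∀ s s' Q, Q ∈ S → s34f_through (s34x_infRing O) S (𝔫 s) Q →
      s34f_through (s34x_infRing O) S (𝔫 s') Q → Q.ord (g s) = Q.ord (g s')) :
    ∃ G : 𝓕, ∀ s, s44e_UnitAt O S (𝔫 s) (G * (g s)⁻¹) := by
  classical
  have key := s44e_pole_killer O π S hfin 𝔫 h𝔫 g hg0 hgO hgQ
  choose d hd hdreg using key
  obtain ⟨e, he⟩ := s44e_crt 𝔫 (fun s => (h𝔫 s).1) hinj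
  refine ⟨∑ s, (e s : 𝓕) * ((d s : 𝓕) * g s), fun s' => ?_⟩
  have hes' : e s' ∉ 𝔫 s' := by
    intro h
    have h1 : (1 : s34x_ring (s34x_infRing O) S) ∈ 𝔫 s' := by
      have := (𝔫 s').sub_mem h (he s').1
      rwa [sub_sub_cancel] at this
    exact (h𝔫 s').1.ne_top ((Ideal.eq_top_iff_one _).mpr h1)
  haveI : (𝔫 s').IsPrime := (h𝔫 s').1.isPrime
  have hu : e s' * d s' ∉ 𝔫 s' := by
    intro h
    rcases ‹(𝔫 s').IsPrime›.mem_or_mem h with h | h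
    · exact hes' h
    · exact hd s' h
  have hU := s44e_unitAt_of_not_mem O π S hπ0 hπO hUi (𝔫 s') (h𝔫 s') _ hu
  have e1 : (∑ s, (e s : 𝓕) * ((d s : 𝓕) * g s)) * (g s')⁻¹ =
      ((e s' * d s' : s34x_ring (s34x_infRing O) S) : 𝓕) +
        ∑ s ∈ Finset.univ.erase s', (e s : 𝓕) * ((d s : 𝓕) * (g s * (g s')⁻¹)) := by
    rw [Finset.sum_mul, ← Finset.add_sum_erase Finset.univ _ (Finset.mem_univ s')]
    congr 1
    · push_cast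
      have := hg0 s'
      field_simp
    · refine Finset.sum_congr rfl (fun s _ => ?_)
      ring
  rw [e1]
  refine s44e_unitAt_add_sum O π S hπ0 hπO hUi hfin (𝔫 s') (h𝔫 s') _ hU _ e
    (fun s => (d s : 𝓕) * (g s * (g s')⁻¹)) (fun s hs => ?_) (fun s _ => hdreg s s')
  exact (he s).2 s' (Finset.ne_of_mem_erase hs).symm

/-- a power of a non-unit `π` which is a unit is trivial. -/
theorem s44e_zpow_unit (V : ValuationSubring 𝓕) (hπ0 : π ≠ 0) (hπV : π ∈ V) (hπnu : π⁻¹ ∉ V)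
    (k : ℤ) (h1 : π ^ k ∈ V) (h2 : (π ^ k)⁻¹ ∈ V) : k = 0 := by
  by_contra hk
  apply hπnu
  rcases lt_or_gt_of_ne hk with hlt | hgt
  · obtain ⟨j, hj⟩ : ∃ j : ℕ, k = -((j : ℤ) + 1) := ⟨(-k - 1).toNat, by omega⟩
    have e : π⁻¹ = π ^ k * π ^ j := by
      rw [hj, zpow_neg, zpow_add₀ hπ0, zpow_one, zpow_natCast]
      field_simp
    rw [e]
    exact V.mul_mem _ _ h1 (pow_mem hπV j)
  · obtain ⟨j, hj⟩ : ∃ j : ℕ, k = (j : ℤ) + 1 := ⟨(k - 1).toNat, by omega⟩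
    have e : π⁻¹ = (π ^ k)⁻¹ * π ^ j := by
      rw [hj, zpow_add₀ hπ0, zpow_one, zpow_natCast]
      field_simp
    rw [e]
    exact V.mul_mem _ _ h2 (pow_mem hπV j)

/-- the exponent of a `p`-th root. -/
theorem s44e_root_exponent (V : ValuationSubring 𝓕) (hπ0 : π ≠ 0) (hπV : π ∈ V)
    (hπnu : π⁻¹ ∉ V)
    (hU : ∀ U : 𝓕, U ≠ 0 → ∃ (n : ℤ) (u : 𝓕), u ∈ V ∧ u⁻¹ ∈ V ∧ U = π ^ n * u)
    (p : ℕ) (x : 𝓕) (hx : x ≠ 0) (m : ℤ) (w : 𝓕) (hw : w ∈ V) (hw' : w⁻¹ ∈ V)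
    (e : x ^ p = π ^ m * w) :
    ∃ n : ℤ, (p : ℤ) * n = m ∧ x * π ^ (-n) ∈ V ∧ (x * π ^ (-n))⁻¹ ∈ V := by
  obtain ⟨n, u, hu, hu', rfl⟩ := hU x hx
  have hu0 : u ≠ 0 := right_ne_zero_of_mul hx
  have hw0 : w ≠ 0 := by
    rintro rfl
    rw [mul_zero] at e
    exact pow_ne_zero p hx e
  have hn0 : π ^ n ≠ 0 := zpow_ne_zero _ hπ0
  have hm0 : π ^ m ≠ 0 := zpow_ne_zero _ hπ0
  have e1 : π ^ ((p : ℤ) * n - m) = w * (u ^ p)⁻¹ := by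
    have hup : u ^ p ≠ 0 := pow_ne_zero p hu0
    rw [zpow_sub₀ hπ0, mul_comm (p : ℤ) n, zpow_mul, zpow_natCast, eq_mul_inv_iff_mul_eq₀ hup,
      div_mul_eq_mul_div, div_eq_iff hm0, ← mul_pow, e]
    ring
  have h0 := s44e_zpow_unit π V hπ0 hπV hπnu ((p : ℤ) * n - m)
    (by rw [e1, ← inv_pow]; exact V.mul_mem _ _ hw (pow_mem hu' p))
    (by rw [e1, mul_inv, inv_inv]; exact V.mul_mem _ _ hw' (pow_mem hu p))
  have e2 : π ^ n * u * π ^ (-n) = u := by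
    rw [zpow_neg]
    field_simp
  refine ⟨n, by omega, ?_, ?_⟩
  · rw [e2]; exact hu
  · rw [e2]; exact hu'

/-- **(G6) GLOBALISATION.**  If at every node `s` the function `f` is a `p`-th power times
`π ^ a_s ·` (a unit at `𝔫 s`), then `f = G ^ p · π ^ a · h` with `h` a unit of `V_∞`, of `V_0` and of order `0`
at every place through every node. -/
theorem s44e_glob (hπ0 : π ≠ 0) (hπO : ∀ i, π ∈ O i) (hπnu : ∀ i, π⁻¹ ∉ O i)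
    (hUi : ∀ i, ∀ U : 𝓕, U ≠ 0 → ∃ (n : ℤ) (u : 𝓕), u ∈ O i ∧ u⁻¹ ∈ O i ∧ U = π ^ n * u)
    (hfin : ∀ y : 𝓕, y ≠ 0 → {Q : Place L₀ 𝓕 | Q ∈ S ∧ Q.ord y ≠ 0}.Finite)
    (hπS : ∀ Q ∈ S, Q.ord π = 0)
    {ι : Type*} [Fintype ι] [Nonempty ι] (𝔫 : ι → Ideal (s34x_ring (s34x_infRing O) S))
    (h𝔫 : ∀ s, s33s_IsNode O π S (𝔫 s)) (hinj : Function.Injective 𝔫)
    (p : ℕ) (hp : p ≠ 0) (f : 𝓕) (hf : f ≠ 0)
    (hloc : ∀ s, ∃ (g υ : 𝓕) (a : ℤ), f = g ^ p * υ ∧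
      (∀ i, υ * π ^ (-a) ∈ O i ∧ (υ * π ^ (-a))⁻¹ ∈ O i) ∧
      ∀ Q ∈ S, s34f_through (s34x_infRing O) S (𝔫 s) Q → Q.ord υ = 0) :
    ∃ (G h : 𝓕) (a : ℤ), G ≠ 0 ∧ f = G ^ p * (π ^ a * h) ∧ (∀ i, h ∈ O i ∧ h⁻¹ ∈ O i) ∧
      ∀ s, ∀ Q ∈ S, s34f_through (s34x_infRing O) S (𝔫 s) Q → Q.ord h = 0 := by
  classical
  choose g υ a hfg hυO hυQ using hloc
  have hg0 : ∀ s, g s ≠ 0 := by
    intro s h0
    have := hfg s
    rw [h0, zero_pow hp, zero_mul] at this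
    exact hf this
  have hυ0 : ∀ s, υ s ≠ 0 := by
    intro s h0
    have := hfg s
    rw [h0, mul_zero] at this
    exact hf this
  set s₀ : ι := Classical.arbitrary ι with hs₀
  -- the exponents
  have hexp : ∀ s, ∃ n : ℤ, (p : ℤ) * n = a s₀ - a s ∧
      ∀ i, g s * (g s₀)⁻¹ * π ^ (-n) ∈ O i ∧ (g s * (g s₀)⁻¹ * π ^ (-n))⁻¹ ∈ O i := by
    intro s
    have hx0 : g s * (g s₀)⁻¹ ≠ 0 := mul_ne_zero (hg0 s) (inv_ne_zero (hg0 s₀))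
    have e : (g s * (g s₀)⁻¹) ^ p =
        π ^ (a s₀ - a s) * ((υ s₀ * π ^ (-a s₀)) * (υ s * π ^ (-a s))⁻¹) := by
      have h1 := hfg s
      have h2 := hfg s₀
      have hgp : g s₀ ^ p ≠ 0 := pow_ne_zero p (hg0 s₀)
      have hυs := hυ0 s
      have ha1 : π ^ (a s₀) ≠ 0 := zpow_ne_zero _ hπ0
      have ha2 : π ^ (a s) ≠ 0 := zpow_ne_zero _ hπ0
      rw [mul_pow, inv_pow, zpow_sub₀ hπ0, zpow_neg, zpow_neg]
      have h3 : g s ^ p * υ s = g s₀ ^ p * υ s₀ := by rw [← h1, ← h2]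
      field_simp
      linear_combination h3
    have hw : ∀ i, (υ s₀ * π ^ (-a s₀)) * (υ s * π ^ (-a s))⁻¹ ∈ O i ∧
        ((υ s₀ * π ^ (-a s₀)) * (υ s * π ^ (-a s))⁻¹)⁻¹ ∈ O i := by
      intro i
      refine ⟨(O i).mul_mem _ _ (hυO s₀ i).1 (hυO s i).2, ?_⟩
      rw [mul_inv, inv_inv]
      exact (O i).mul_mem _ _ (hυO s₀ i).2 (hυO s i).1
    obtain ⟨nt, hnt, ht1, ht2⟩ := s44e_root_exponent π (O true) hπ0 (hπO true) (hπnu true)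
      (hUi true) p _ hx0 _ _ (hw true).1 (hw true).2 e
    obtain ⟨nf, hnf, hf1, hf2⟩ := s44e_root_exponent π (O false) hπ0 (hπO false) (hπnu false)
      (hUi false) p _ hx0 _ _ (hw false).1 (hw false).2 e
    have hnn : nt = nf := by
      have hp' : (p : ℤ) ≠ 0 := by exact_mod_cast hp
      have : (p : ℤ) * nt = (p : ℤ) * nf := by rw [hnt, hnf]
      exact mul_left_cancel₀ hp' this
    refine ⟨nt, hnt, fun i => ?_⟩
    cases i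
    · rw [hnn]; exact ⟨hf1, hf2⟩
    · exact ⟨ht1, ht2⟩
  choose n hn hnO using hexp
  -- the normalised local roots
  set g' : ι → 𝓕 := fun s => g s * π ^ (-n s) with hg'
  have hg'0 : ∀ s, g' s ≠ 0 := fun s => mul_ne_zero (hg0 s) (zpow_ne_zero _ hπ0)
  have hg'e : ∀ s, g' s * (g s₀)⁻¹ = g s * (g s₀)⁻¹ * π ^ (-n s) := by
    intro s
    rw [hg']
    ring
  have hg'O : ∀ s s' i, g' s * (g' s')⁻¹ ∈ O i := by
    intro s s' i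
    have e : g' s * (g' s')⁻¹ = (g' s * (g s₀)⁻¹) * (g' s' * (g s₀)⁻¹)⁻¹ := by
      have := hg0 s₀
      have := hg'0 s'
      field_simp
    rw [e, hg'e, hg'e]
    exact (O i).mul_mem _ _ (hnO s i).1 (hnO s' i).2
  have hg'ord : ∀ s Q, Q ∈ S → Q.ord (g' s) = Q.ord (g s) := by
    intro s Q hQ
    rw [hg', Q.ord_mul (hg0 s) (zpow_ne_zero _ hπ0), Q.ord_zpow, hπS Q hQ, mul_zero, add_zero]
  have hgord : ∀ s Q, Q ∈ S → s34f_through (s34x_infRing O) S (𝔫 s) Q →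
      Q.ord f = (p : ℤ) * Q.ord (g s) := by
    intro s Q hQ hth
    rw [hfg s, Q.ord_mul (pow_ne_zero p (hg0 s)) (hυ0 s), hυQ s Q hQ hth, add_zero,
      ← zpow_natCast, Q.ord_zpow]
  have hg'Q : ∀ s s' Q, Q ∈ S → s34f_through (s34x_infRing O) S (𝔫 s) Q →
      s34f_through (s34x_infRing O) S (𝔫 s') Q → Q.ord (g' s) = Q.ord (g' s') := by
    intro s s' Q hQ hth hth'
    rw [hg'ord s Q hQ, hg'ord s' Q hQ]
    have h1 := hgord s Q hQ hth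
    have h2 := hgord s' Q hQ hth'
    have hp' : (p : ℤ) ≠ 0 := by exact_mod_cast hp
    exact mul_left_cancel₀ hp' (by rw [← h1, ← h2])
  obtain ⟨G, hG⟩ := s44e_glob_G O π S hπ0 hπO hUi hfin 𝔫 h𝔫 hinj g' hg'0 hg'O hg'Q
  have hG0 : G ≠ 0 := left_ne_zero_of_mul (hG s₀).1
  -- the local shape of `h`
  have hshape : ∀ s, f * (G ^ p * π ^ (a s₀))⁻¹ =
      ((G * (g' s)⁻¹)⁻¹) ^ p * (υ s * π ^ (-a s)) := by
    intro s
    have h1 := hfg s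
    have hgs := hg0 s
    have ha1 : π ^ (a s₀) ≠ 0 := zpow_ne_zero _ hπ0
    have ha2 : π ^ (a s) ≠ 0 := zpow_ne_zero _ hπ0
    have hns : π ^ (n s) ≠ 0 := zpow_ne_zero _ hπ0
    have hpn : π ^ (a s₀) = (π ^ (n s)) ^ p * π ^ (a s) := by
      rw [← zpow_natCast, ← zpow_mul, ← zpow_add₀ hπ0]
      congr 1
      have := hn s
      rw [mul_comm]
      omega
    show f * (G ^ p * π ^ (a s₀))⁻¹ =
      ((G * (g s * π ^ (-n s))⁻¹)⁻¹) ^ p * (υ s * π ^ (-a s))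
    rw [h1, zpow_neg, zpow_neg, hpn, inv_pow, mul_pow, inv_pow, mul_pow, inv_pow]
    field_simp
  refine ⟨G, f * (G ^ p * π ^ (a s₀))⁻¹, a s₀, hG0, ?_, fun i => ?_, fun s Q hQ hth => ?_⟩
  · have ha1 : π ^ (a s₀) ≠ 0 := zpow_ne_zero _ hπ0
    field_simp
  · rw [hshape s₀]
    have hU := ((hG s₀).inv.pow p)
    refine ⟨(O i).mul_mem _ _ (hU.2.1 i).1 (hυO s₀ i).1, ?_⟩
    rw [mul_inv]
    exact (O i).mul_mem _ _ (hU.2.1 i).2 (hυO s₀ i).2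
  · rw [hshape s]
    have hU := ((hG s).inv.pow p)
    rw [Q.ord_mul hU.1 (mul_ne_zero (hυ0 s) (zpow_ne_zero _ hπ0)), hU.2.2 Q hQ hth,
      Q.ord_mul (hυ0 s) (zpow_ne_zero _ hπ0), hυQ s Q hQ hth, Q.ord_zpow, hπS Q hQ]
    ring

end Glob

end Fermat.Agent.Lib.S44
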