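/-
M-AT-P programme (S44), wall W2 (helper8, prefix `s44e_`), part 7: **THE SET OF NODES IS FINITE.**

* `s44e_finite_nodes_abs` : `B` a commutative ring, `D` a Dedekind domain which is not a field,
  `ρ₁ ρ₂ : B →+* D` with the Kronecker lift `hα` (`q ≥ 2`): only finitely many maximal ideals of `B` contain
  both kernels (they all contain `U = g - b ^ q`, `ρ₂ U = 0`, `ρ₁ U = d - (ρ₁ b) ^ q ≠ 0` for `d` not a `q`-th
  power, and `𝔫 ↦ ρ₁ 𝔫` is injective into the divisors of `(ρ₁ U)`).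
-/
import Fermat.Agent.Lib.S33.SSGlue

set_option autoImplicit false
set_option linter.unusedSectionVars false
set_option linter.style.haveILetI false

noncomputable section

namespace Fermat.Agent.Lib.S44

open Fermat.Agent.Lib.S33 Fermat.Agent.Lib.S34

section Abs

variable {B D : Type*} [CommRing B] [CommRing D] [IsDedekindDomain D]

/-- a Dedekind domain which is not a field has an element which is not a `q`-th power (`q ≥ 2`). -/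
theorem s44e_exists_not_pow (hD : ¬ IsField D) (q : ℕ) (hq : 2 ≤ q) :
    ∃ d : D, ∀ c : D, d ≠ c ^ q := by
  obtain ⟨𝔪, h𝔪⟩ := Ideal.exists_maximal D
  have hbot : 𝔪 ≠ ⊥ := Ring.ne_bot_of_isMaximal_of_not_isField h𝔪 hD
  haveI : 𝔪.IsPrime := h𝔪.isPrime
  have hlt := Ideal.pow_succ_lt_pow hbot 1
  obtain ⟨d, hd1, hd2⟩ := Set.exists_of_ssubset hlt
  rw [pow_one] at hd1
  refine ⟨d, fun c hc => hd2 ?_⟩
  have hc𝔪 : c ∈ 𝔪 := by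
    rw [hc] at hd1
    exact ‹𝔪.IsPrime›.mem_of_pow_mem _ hd1
  obtain ⟨k, rfl⟩ : ∃ k, q = 2 + k := ⟨q - 2, by omega⟩
  show d ∈ 𝔪 ^ (1 + 1)
  rw [hc, pow_add c 2 k]
  exact Ideal.mul_mem_right _ _ (Ideal.pow_mem_pow hc𝔪 2)

/-- **finitely many nodes.** -/
theorem s44e_finite_nodes_abs (hD : ¬ IsField D) (ρ₁ ρ₂ : B →+* D) (q : ℕ) (hq : 2 ≤ q)
    (hα : ∀ d : D, ∃ g b : B, ρ₁ g = d ∧ ρ₂ g = ρ₂ b ^ q) :
    {𝔫 : Ideal B | 𝔫.IsMaximal ∧ RingHom.ker ρ₁ ≤ 𝔫 ∧ RingHom.ker ρ₂ ≤ 𝔫}.Finite := by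
  classical
  have hsurj : Function.Surjective ρ₁ := fun d => by
    obtain ⟨g, -, hg, -⟩ := hα d
    exact ⟨g, hg⟩
  obtain ⟨d, hd⟩ := s44e_exists_not_pow hD q hq
  obtain ⟨g, b, hg1, hg2⟩ := hα d
  set U : B := g - b ^ q with hU
  have hU2 : ρ₂ U = 0 := by rw [hU, map_sub, map_pow, hg2, sub_self]
  have hU1 : ρ₁ U ≠ 0 := by
    rw [hU, map_sub, map_pow, hg1, sub_ne_zero]
    exact hd _
  have hI : Ideal.span {ρ₁ U} ≠ (0 : Ideal D) := by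
    rw [Ne, Ideal.zero_eq_bot, Ideal.span_singleton_eq_bot]
    exact hU1
  haveI : Fintype {x : Ideal D // x ∣ Ideal.span {ρ₁ U}} := UniqueFactorizationMonoid.fintypeSubtypeDvd _ hI
  rw [← Set.finite_coe_iff]
  refine Finite.of_injective
    (fun 𝔫 : {𝔫 : Ideal B | 𝔫.IsMaximal ∧ RingHom.ker ρ₁ ≤ 𝔫 ∧ RingHom.ker ρ₂ ≤ 𝔫} =>
      (⟨Ideal.map ρ₁ 𝔫.1, by
        rw [Ideal.dvd_iff_le, Ideal.span_singleton_le_iff_mem]
        exact Ideal.mem_map_of_mem ρ₁ (𝔫.2.2.2 hU2)⟩ : {x : Ideal D // x ∣ Ideal.span {ρ₁ U}})) ?_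
  intro 𝔫 𝔫' h
  have h' : Ideal.map ρ₁ 𝔫.1 = Ideal.map ρ₁ 𝔫'.1 := congrArg Subtype.val h
  have key : ∀ 𝔪 : {𝔫 : Ideal B | 𝔫.IsMaximal ∧ RingHom.ker ρ₁ ≤ 𝔫 ∧ RingHom.ker ρ₂ ≤ 𝔫},
      Ideal.comap ρ₁ (Ideal.map ρ₁ 𝔪.1) = 𝔪.1 := by
    intro 𝔪
    rw [Ideal.comap_map_of_surjective ρ₁ hsurj]
    exact sup_eq_left.mpr 𝔪.2.2.1
  apply Subtype.ext
  rw [← key 𝔫, ← key 𝔫', h']

end Abs

end Fermat.Agent.Lib.S44
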