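/-
M-AT-P programme (S44), wall W2 (helper8, prefix `s44e_`), part 8: **(G6) FOR THE MODULAR Σ-DATUM.**

* `s44e_finite_node_D`, `s44e_finite_node_W`, `s44e_finite_node_five` : the type of nodes
  `s33s_Node (s34m_VV …) (s34m_unif …) S` of the Σ-datum (`s33s_datumD`, `s33s_datumW`, `s33s_datum_five`)
  is FINITE;
* `s44e_glob_modular` : (G6) for the modular datum, any chart `S` with finitely many nodes;
* **`s44e_glob_five`** : (G6) for `X_0(M p)`, `p ≥ 5`, chart `{j regular}`: local `p`-th power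
  factorisations at all nodes ⇒ `f = G ^ p · ϖ ^ a · h`, `h` a unit of `V_∞` and of `V_0` of order `0` at
  ALL the node places `s33s_nodePlaces`.
-/
import Fermat.Agent.Lib.S33.SSFive
import Fermat.Agent.Lib.S44.EGlob
import Fermat.Agent.Lib.S44.ENodes

set_option autoImplicit false
set_option linter.unusedSectionVars false
set_option linter.style.haveILetI false

noncomputable section

namespace Fermat.Agent.Lib.S44

open ModularCurve AlgebraicCurve HahnSeries Polynomial Fermat.Agent.Lib.FF Fermat.Agent.Lib.S18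
  Fermat.Agent.Lib.S34 Fermat.Agent.Lib.S37 Fermat.Agent.Lib.S33

local notation "Kb" => AlgebraicClosure ℚ

section Build

variable {K₀ : Type} [Field K₀] [CharZero K₀] [Algebra ℚ K₀] {κ : Type} [Field κ]
  (G : s18g_GaussData K₀ κ) (φ : K₀ →+* Kb) (M p : ℕ) [NeZero M] [hp : Fact p.Prime]
  (hpM : ¬ p ∣ M)
  (S : Set (Place K₀ (s34m_F K₀ (M * p))))

variable {D : Type*} [CommRing D] [IsDedekindDomain D] [Algebra D ↥(modularFunctionFieldFullC κ M)]
  [IsFractionRing D ↥(modularFunctionFieldFullC κ M)] (hD : ¬ IsField D)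
  (hF : ∀ i y, s33s_redL G φ M p hp.out hpM i y ∈ modularFunctionFieldFullC κ M)
  (hint : ∀ (i : Bool) (b : s34x_ring (s34x_infRing (s34m_VV G φ M p hp.out hpM)) S),
    ∃ d : D, algebraMap D ↥(modularFunctionFieldFullC κ M) d =
      s33s_redO G φ M p hp.out hpM (modularFunctionFieldFullC κ M) hF i
        ⟨(b : s34m_F K₀ (M * p)), b.2.1⟩)
  (BM : Set (s34m_F K₀ M)) (hBMV : ∀ g ∈ BM, g ∈ s34m_Vinf G M)
  (hαB : ∀ g ∈ BM, heckeAlphaBar K₀ M p g ∈
    s34x_ring (s34x_infRing (s34m_VV G φ M p hp.out hpM)) S)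
  (hβB : ∀ g ∈ BM, ∃ b' ∈ s34x_ring (s34x_infRing (s34m_VV G φ M p hp.out hpM)) S,
    ∃ z, z ∈ s34m_Vinf G (M * p) ∧ z ∈ s34m_Vzero G φ M p hp.out hpM ∧
      b' - heckeBetaBar K₀ M p g = s34m_unif G (M * p) * z)
  (hlift : ∀ d : D, ∃ g, ∃ hg : g ∈ BM,
    s34m_redInf G M ⟨g, hBMV g hg⟩ =
      ((algebraMap D ↥(modularFunctionFieldFullC κ M) d : ↥(modularFunctionFieldFullC κ M)) :
        LaurentSeries κ))
  (htw : ∀ d : D, ∃ d' : D, qExpand κ p
    ((algebraMap D ↥(modularFunctionFieldFullC κ M) d : ↥(modularFunctionFieldFullC κ M)) :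
      LaurentSeries κ) =
    ((algebraMap D ↥(modularFunctionFieldFullC κ M) d' : ↥(modularFunctionFieldFullC κ M)) :
      LaurentSeries κ) ^ p)

include hD hF hint hBMV hαB hβB hlift htw in
/-- **the nodes of the chart `S` are finite in number** (hypotheses of `s33s_datumD`). -/
theorem s44e_finite_node_D :
    Finite (s33s_Node (s34m_VV G φ M p hp.out hpM) (s34m_unif G (M * p)) S) := by
  have hk := (s33s_inst_kronecker G φ M p hp.out hpM (modularFunctionFieldFullC κ M) S hF hint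
    BM hBMV hαB hβB hlift htw).1
  have h := s44e_finite_nodes_abs hD
    (s33s_rhoD G φ M p hp.out hpM (modularFunctionFieldFullC κ M) S hF hint true)
    (s33s_rhoD G φ M p hp.out hpM (modularFunctionFieldFullC κ M) S hF hint false) p
    hp.out.two_le hk
  have hset : {𝔫 : Ideal (s34x_ring (s34x_infRing (s34m_VV G φ M p hp.out hpM)) S) |
      s33s_IsNode (s34m_VV G φ M p hp.out hpM) (s34m_unif G (M * p)) S 𝔫}.Finite := by
    refine h.subset (fun 𝔫 h𝔫 => ?_)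
    exact (s33s_inst_isNode_iff G φ M p hp.out hpM (modularFunctionFieldFullC κ M) S hF hint 𝔫).mp
      h𝔫
  exact hset.to_subtype

end Build

section Modular

variable {K₀ : Type} [Field K₀] [CharZero K₀] [Algebra ℚ K₀] {κ : Type} [Field κ]
  (G : s18g_GaussData K₀ κ) (φ : K₀ →+* Kb) (M p : ℕ) [NeZero M] [hp : Fact p.Prime]
  (hpM : ¬ p ∣ M)
  (S : Set (Place K₀ (s34m_F K₀ (M * p))))

/-- `ϖ⁻¹ ∉ V_i`. -/
theorem s44e_unif_inv_not_mem (i : Bool) :
    (s34m_unif G (M * p))⁻¹ ∉ s34m_VV G φ M p hp.out hpM i := by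
  have h0 : s34m_unif G (M * p) ≠ 0 := s34m_unif_ne_zero G (M * p)
  intro hinv
  cases i
  · exact s33y_unif_nonunit_zero G φ M p hpM ⟨_, hinv, (mul_inv_cancel₀ h0).symm⟩
  · exact s33y_unif_nonunit_inf G (M * p) ⟨_, hinv, (mul_inv_cancel₀ h0).symm⟩

/-- **(G6) for the modular datum**, any chart with finitely many nodes (at least one). -/
theorem s44e_glob_modular
    [Finite (s33s_Node (s34m_VV G φ M p hp.out hpM) (s34m_unif G (M * p)) S)]
    (hnode : ∃ 𝔫, s33s_IsNode (s34m_VV G φ M p hp.out hpM) (s34m_unif G (M * p)) S 𝔫)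
    (n : ℕ) (hn : n ≠ 0) (f : s34m_F K₀ (M * p)) (hf : f ≠ 0)
    (hloc : ∀ s : s33s_Node (s34m_VV G φ M p hp.out hpM) (s34m_unif G (M * p)) S,
      ∃ (g υ : s34m_F K₀ (M * p)) (a : ℤ), f = g ^ n * υ ∧
        (∀ i, υ * s34m_unif G (M * p) ^ (-a) ∈ s34m_VV G φ M p hp.out hpM i ∧
          (υ * s34m_unif G (M * p) ^ (-a))⁻¹ ∈ s34m_VV G φ M p hp.out hpM i) ∧
        ∀ Q ∈ S, s34f_through (s34x_infRing (s34m_VV G φ M p hp.out hpM)) S s.1 Q →
          Q.ord υ = 0) :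
    ∃ (Gg h : s34m_F K₀ (M * p)) (a : ℤ), Gg ≠ 0 ∧
      f = Gg ^ n * (s34m_unif G (M * p) ^ a * h) ∧
      (∀ i, h ∈ s34m_VV G φ M p hp.out hpM i ∧ h⁻¹ ∈ s34m_VV G φ M p hp.out hpM i) ∧
      ∀ Q ∈ s33s_nodePlaces (s34m_VV G φ M p hp.out hpM) (s34m_unif G (M * p)) S,
        Q.ord h = 0 := by
  haveI : Fintype (s33s_Node (s34m_VV G φ M p hp.out hpM) (s34m_unif G (M * p)) S) :=
    Fintype.ofFinite _
  haveI : Nonempty (s33s_Node (s34m_VV G φ M p hp.out hpM) (s34m_unif G (M * p)) S) := by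
    obtain ⟨𝔫, h𝔫⟩ := hnode
    exact ⟨⟨𝔫, h𝔫⟩⟩
  obtain ⟨Gg, h, a, hG0, e, hO, hQ⟩ := s44e_glob (s34m_VV G φ M p hp.out hpM)
    (s34m_unif G (M * p)) S (s34m_unif_ne_zero G (M * p)) (s34m_unif_mem_VV G φ M p hp.out hpM)
    (s44e_unif_inv_not_mem G φ M p hpM)
    (fun i U hU => s34m_exists_zpow_VV G φ M p hp.out hpM i U hU)
    (s33s_inst_hfin φ M p S)
    (fun Q _ => ff_ord_algebraMap Q _)
    (fun s : s33s_Node (s34m_VV G φ M p hp.out hpM) (s34m_unif G (M * p)) S => s.1)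
    (fun s => s.2) Subtype.val_injective n hn f hf hloc
  refine ⟨Gg, h, a, hG0, e, hO, ?_⟩
  rintro Q ⟨hQS, 𝔫, h𝔫, hth⟩
  exact hQ ⟨𝔫, h𝔫⟩ Q hQS hth

end Modular

section Wrap

variable {K₀ : Type} [Field K₀] [CharZero K₀] [Algebra ℚ K₀] {κ : Type} [Field κ]
  (G : s18g_GaussData K₀ κ) (φ : K₀ →+* Kb) (M p : ℕ) [NeZero M] [hp : Fact p.Prime]
  (hpM : ¬ p ∣ M) [CharP κ p] [PerfectField κ]

local notation "𝓕M" => laurentBaseChange K₀ (modularFunctionFieldFull M)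
local notation "𝓕N" => laurentBaseChange K₀ (modularFunctionFieldFull (M * p))
local notation "hFM" => (fun (f : LaurentSeries K₀)
  (hf : f ∈ laurentBaseChange K₀ (modularFunctionFieldFull M)) => s18g_baseChange_mem_Frac G M hf)

variable (hdeg : s34m_HDeg K₀ M p) (hT : s18g_HT κ M) (hdegM : s18g_HDeg K₀ M)

include hdeg in
/-- **finitely many nodes** for a coordinate `w` of level `M` (hypotheses of `s33s_datumW`). -/
theorem s44e_finite_node_W [IsDiscreteValuationRing G.A] (w : ↥𝓕M)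
    (hwV : w ∈ s18g_V G 𝓕M hFM)
    (hcoord : s37b_Coord κ p
      ((s18g_redF G M hFM hT hdegM ⟨w, hwV⟩ : ↥(modularFunctionFieldFullC κ M)) : LaurentSeries κ))
    (hwtw : ∀ τ : κ ≃+* κ, ModularCurve.coeffMap (τ : κ →+* κ)
      ((s18g_redF G M hFM hT hdegM ⟨w, hwV⟩ : ↥(modularFunctionFieldFullC κ M)) : LaurentSeries κ) =
      ((s18g_redF G M hFM hT hdegM ⟨w, hwV⟩ : ↥(modularFunctionFieldFullC κ M)) : LaurentSeries κ))
    (hmain : letI := s18f_algF G M hT hdegM w hwV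
      ∀ z : ↥(modularFunctionFieldFullC κ M), IsIntegral κ[X] z →
        ∃ (b : ↥𝓕M) (hb : b ∈ s18_ring (L₀ := K₀) (s18g_V G 𝓕M hFM) (s18_chart1 w)),
          s18g_redF G M hFM hT hdegM ⟨b, hb.1⟩ = z)
    (wN : ↥𝓕N) (hwN : heckeAlphaBar K₀ M p w = wN) [FFGen K₀ wN]
    (hαN : ∀ y ∈ s34x_infRing (s34m_VV G φ M p hp.out hpM), ∃ s : G.A[X], s.map G.π ≠ 0 ∧
      (s18b_ev G 𝓕N wN).IsIntegralElem (s18b_ev G 𝓕N wN s * y))
    (hαB : ∀ g ∈ (s18_ring (L₀ := K₀) (s34m_Vinf G M) (s18_chart1 w) : Set (s34m_F K₀ M)),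
      heckeAlphaBar K₀ M p g ∈ s34x_ring (s34x_infRing (s34m_VV G φ M p hp.out hpM))
        (s18_chart1 (L₀ := K₀) wN))
    (hβB : ∀ g ∈ (s18_ring (L₀ := K₀) (s34m_Vinf G M) (s18_chart1 w) : Set (s34m_F K₀ M)),
      ∃ b' ∈ s34x_ring (s34x_infRing (s34m_VV G φ M p hp.out hpM)) (s18_chart1 (L₀ := K₀) wN),
      ∃ z, z ∈ s34m_Vinf G (M * p) ∧ z ∈ s34m_Vzero G φ M p hp.out hpM ∧
        b' - heckeBetaBar K₀ M p g = s34m_unif G (M * p) * z) :
    Finite (s33s_Node (s34m_VV G φ M p hp.out hpM) (s34m_unif G (M * p))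
      (s18_chart1 (L₀ := K₀) wN)) :=
  letI := s18f_algF G M hT hdegM w hwV
  haveI := (s37b_dedekind_of_coord κ p M (s18g_redF G M hFM hT hdegM ⟨w, hwV⟩) hcoord
    (s18f_algF_apply G M hT hdegM w hwV)).1
  haveI := (s37b_dedekind_of_coord κ p M (s18g_redF G M hFM hT hdegM ⟨w, hwV⟩) hcoord
    (s18f_algF_apply G M hT hdegM w hwV)).2
  s44e_finite_node_D G φ M p hpM (s18_chart1 (L₀ := K₀) wN)
    (D := ↥(integralClosure κ[X] ↥(modularFunctionFieldFullC κ M)))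
    (s33s_w_hD G M p hT hdegM w hwV hcoord)
    (s33s_w_hF G φ M p hpM hdeg hT hdegM)
    (s33s_w_hint G φ M p hpM hdeg hT hdegM w hwV hwtw wN hwN hαN)
    (s18_ring (L₀ := K₀) (s34m_Vinf G M) (s18_chart1 w) : Set (s34m_F K₀ M))
    (fun _ hg => hg.1) hαB hβB
    (s33s_w_hlift G M hT hdegM w hwV hmain)
    (s33s_w_htw G M p hT hdegM w hwV hwtw)

end Wrap

section Five

variable (M p : ℕ) [NeZero M] [hp : Fact p.Prime] (hpM : ¬ p ∣ M) (h5 : 5 ≤ p)
  (K₀ : Type) [Field K₀] [NumberField K₀] (φ : K₀ →+* Kb)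
  (κ : Type) [Field κ] [CharP κ p] [PerfectField κ]
  (G : s18g_GaussData K₀ κ) [IsDiscreteValuationRing G.A]
  (hdeg : s34m_HDeg K₀ M p) (hT : s18g_HT κ M) (hdegM : s18g_HDeg K₀ M)
  (hπ : Function.Surjective G.π)

include h5 hdeg hT hdegM hπ in
/-- **finitely many nodes** for `X_0(M p)`, `p ≥ 5`, chart `{j regular}` (hypotheses of
`s33s_datum_five`). -/
theorem s44e_finite_node_five :
    Finite (s33s_Node (s34m_VV G φ M p hp.out hpM) (s34m_unif G (M * p))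
      (s18_chart1 (L₀ := K₀) (s18g_jF (K := K₀) (M * p)))) :=
  haveI : FFGen K₀ (s18g_jF (K := K₀) (M * p)) :=
    s18b_ffGen_jF (M * p) (fun n b hb hn => s18g_exists_relation (M * p) φ hn b hb)
  s44e_finite_node_W G φ M p hpM hdeg hT hdegM
    (s18g_jF (K := K₀) M)
    (s18g_jF_mem_V G M (fun _ hf => s18g_baseChange_mem_Frac G M hf))
    (by
      have hred1 : ((s18g_redF G M (fun _ hf => s18g_baseChange_mem_Frac G M hf) hT hdegM
          ⟨s18g_jF (K := K₀) M,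
            s18g_jF_mem_V G M (fun _ hf => s18g_baseChange_mem_Frac G M hf)⟩ :
          ↥(modularFunctionFieldFullC κ M)) : LaurentSeries κ) = jqModC κ := by
        rw [s18g_coe_redF]
        exact s18g_red_jq G
      rw [hred1]
      exact s37b_coord_jq κ p)
    (by
      have hred1 : ((s18g_redF G M (fun _ hf => s18g_baseChange_mem_Frac G M hf) hT hdegM
          ⟨s18g_jF (K := K₀) M,
            s18g_jF_mem_V G M (fun _ hf => s18g_baseChange_mem_Frac G M hf)⟩ :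
          ↥(modularFunctionFieldFullC κ M)) : LaurentSeries κ) = jqModC κ := by
        rw [s18g_coe_redF]
        exact s18g_red_jq G
      intro τ
      rw [hred1]
      exact coeffMap_jqModC _)
    (s34df_hmain_five M p h5 K₀ φ κ G hπ hT hdegM).1
    (s18g_jF (K := K₀) (M * p)) (s34m_alpha_jF M p)
    (s34f_alpha_j G φ M p hp.out hpM)
    (fun g hg => s34d_alpha_liftJ₁ G φ M p hp.out hpM g hg)
    (fun g hg => s34d_beta_liftJ₁ G φ M p hp.out hpM g hg)

include h5 hdeg hT hdegM hπ in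
/-- **(G6) FOR `X_0(M p)`, `p ≥ 5`.**  If at every node `s` of the chart `{j regular}` the function `f` is an
`n`-th power times `ϖ ^ a_s ·` (a unit at the node: unit of `V_∞`, of `V_0`, of order `0` at the places through
`s`), then `f = G ^ n · ϖ ^ a · h` with `h` a unit of `V_∞` and of `V_0` of order `0` at ALL node places. -/
theorem s44e_glob_five (n : ℕ) (hn : n ≠ 0) (f : s34m_F K₀ (M * p)) (hf : f ≠ 0)
    (hloc : ∀ s : s33s_Node (s34m_VV G φ M p hp.out hpM) (s34m_unif G (M * p))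
        (s18_chart1 (L₀ := K₀) (s18g_jF (K := K₀) (M * p))),
      ∃ (g υ : s34m_F K₀ (M * p)) (a : ℤ), f = g ^ n * υ ∧
        (∀ i, υ * s34m_unif G (M * p) ^ (-a) ∈ s34m_VV G φ M p hp.out hpM i ∧
          (υ * s34m_unif G (M * p) ^ (-a))⁻¹ ∈ s34m_VV G φ M p hp.out hpM i) ∧
        ∀ Q ∈ s18_chart1 (L₀ := K₀) (s18g_jF (K := K₀) (M * p)),
          s34f_through (s34x_infRing (s34m_VV G φ M p hp.out hpM))
            (s18_chart1 (L₀ := K₀) (s18g_jF (K := K₀) (M * p))) s.1 Q → Q.ord υ = 0) :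
    ∃ (Gg h : s34m_F K₀ (M * p)) (a : ℤ), Gg ≠ 0 ∧
      f = Gg ^ n * (s34m_unif G (M * p) ^ a * h) ∧
      (∀ i, h ∈ s34m_VV G φ M p hp.out hpM i ∧ h⁻¹ ∈ s34m_VV G φ M p hp.out hpM i) ∧
      ∀ Q ∈ s33s_nodePlaces (s34m_VV G φ M p hp.out hpM) (s34m_unif G (M * p))
        (s18_chart1 (L₀ := K₀) (s18g_jF (K := K₀) (M * p))), Q.ord h = 0 :=
  haveI := s44e_finite_node_five M p hpM h5 K₀ φ κ G hdeg hT hdegM hπ
  s44e_glob_modular G φ M p hpM _ (s33s_inst_exists_node G φ M p hp.out hpM) n hn f hf hloc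

end Five

end Fermat.Agent.Lib.S44
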