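/-
M-AT-P programme (S44), W4, brick (P) (helper3): on the special fibre `Fb = F_κ(M)`, `κ` algebraically
closed of characteristic `p`, **a function with `θ g = 0` is a `p`-th power IN `Fb`**
(`Fb ∩ κ((q^p)) = Fb^p`).

Proof: if `g` is not a `p`-th power it is a separating element (`s44rq_sep_of_not_pow`, helper5), and a
derivation killing `κ(g)` kills every element separable over it — but `θ j̄ ≠ 0`.

* `s44h_theta_eval₂`        : `θ (m(y)) = m'(y) · θ y` for a polynomial `m` whose coefficients are killed by `θ`;
* `s44h_exists_pth_root`    : `θ g = 0 ⇒ ∃ y ∈ Fb, y ^ p = g`;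
* `s44h_dlog_ne_zero_of_not_pow` : `g ≠ 0` not a `p`-th power ⇒ `dlog g ≠ 0`.
-/
import Fermat.Agent.Lib.S44.HThetaLog
import Fermat.Agent.Lib.S44.RSepDiv

set_option autoImplicit false
set_option linter.style.haveILetI false
set_option linter.unusedSectionVars false

noncomputable section

open AlgebraicCurve Module HahnSeries ModularCurve Fermat.Agent.Lib.FF Polynomial

namespace Fermat.Agent.Lib.S44

section Elementary

variable {κ : Type*} [Field κ]

/-- `θ (m(y)) = m'(y) · θ y` for a polynomial whose coefficients are killed by `θ`. -/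
theorem s44h_theta_eval₂ {R : Type*} [CommRing R] (ψ : R →+* LaurentSeries κ)
    (h0 : ∀ c : R, ffd_theta (ψ c) = 0) (m : R[X]) (y : LaurentSeries κ) :
    ffd_theta (m.eval₂ ψ y) = (derivative m).eval₂ ψ y * ffd_theta y := by
  induction m using Polynomial.induction_on' with
  | add a b ha hb =>
    rw [eval₂_add, ffd_theta_add, ha, hb, derivative_add, eval₂_add, add_mul]
  | monomial n c =>
    rw [eval₂_monomial, ffd_theta_mul, h0, mul_zero, add_zero, derivative_monomial,
      eval₂_monomial]
    have hpow : ∀ k : ℕ, ffd_theta (y ^ k) = ((k : ℕ) : LaurentSeries κ) * y ^ (k - 1) * ffd_theta y := by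
      intro k
      induction k with
      | zero => rw [pow_zero, s44h_theta_one, Nat.cast_zero, zero_mul, zero_mul]
      | succ k ih =>
        rw [pow_succ, ffd_theta_mul, ih, Nat.add_sub_cancel]
        rcases k with _ | k
        · simp
        · rw [Nat.add_sub_cancel, pow_succ]
          push_cast
          ring
    rw [hpow, map_mul, map_natCast]
    ring

theorem s44h_theta_j_ne_zero : ffd_theta (jqModC κ) ≠ 0 := by
  intro h0
  have := congrArg (fun s => HahnSeries.coeff s (-1 : ℤ)) h0
  simp only [ffd_theta_coeff, HahnSeries.coeff_zero, ModularCurve.coeff_jqModC_neg_one] at this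
  simp at this

end Elementary

section Fbar

variable (κ : Type*) [Field κ] [IsAlgClosed κ] (M : ℕ) [NeZero M] (p : ℕ) [hp : Fact p.Prime]
  [CharP κ p]

/-- `θ` kills `κ(g)` when it kills `g`. -/
theorem s44h_theta_adjoin (g : ↥(modularFunctionFieldFullC κ M))
    (hθ : ffd_theta (g : LaurentSeries κ) = 0) (c : ↥(modularFunctionFieldFullC κ M))
    (hc : c ∈ IntermediateField.adjoin κ {g}) : ffd_theta (c : LaurentSeries κ) = 0 := by
  induction hc using IntermediateField.adjoin_induction with
  | mem x hx =>
    rw [Set.mem_singleton_iff] at hx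
    rw [hx]; exact hθ
  | algebraMap x =>
    exact ffd_theta_algebraMap x
  | add x y _ _ hx hy =>
    rw [AddMemClass.coe_add, ffd_theta_add, hx, hy, add_zero]
  | inv x _ hx =>
    rw [IntermediateField.coe_inv]
    have := (ffd_thetaDeriv (K := κ)).leibniz_inv (x : LaurentSeries κ)
    rw [ffd_thetaDeriv_apply, ffd_thetaDeriv_apply, hx, smul_zero] at this
    exact this
  | mul x y _ _ hx hy =>
    rw [MulMemClass.coe_mul, ffd_theta_mul, hx, hy, mul_zero, mul_zero, add_zero]

/-- **(P)**: a function of the special fibre killed by `θ` is a `p`-th power. -/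
theorem s44h_exists_pth_root (g : ↥(modularFunctionFieldFullC κ M))
    (hθ : ffd_theta (g : LaurentSeries κ) = 0) :
    ∃ y : ↥(modularFunctionFieldFullC κ M), y ^ p = g := by
  by_contra hcon
  push Not at hcon
  haveI := s44rq_jbar_ffGen κ M
  obtain ⟨hgen, hsep⟩ := s44rq_sep_of_not_pow (K := κ) (s44rq_jbar κ M) p hcon
  -- `θ j̄ = 0`, contradiction
  apply s44h_theta_j_ne_zero (κ := κ)
  set y : ↥(modularFunctionFieldFullC κ M) := s44rq_jbar κ M with hy
  have hysep : IsSeparable ↥(IntermediateField.adjoin κ {g}) y := Algebra.IsSeparable.isSeparable _ y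
  set m := minpoly ↥(IntermediateField.adjoin κ {g}) y with hm
  have hmsep : m.Separable := hysep
  set φ : ↥(modularFunctionFieldFullC κ M) →+* LaurentSeries κ :=
    (modularFunctionFieldFullC κ M).val.toRingHom with hφ
  set ψ : ↥(IntermediateField.adjoin κ {g}) →+* LaurentSeries κ :=
    φ.comp (algebraMap ↥(IntermediateField.adjoin κ {g}) ↥(modularFunctionFieldFullC κ M)) with hψ
  have h0 : ∀ c : ↥(IntermediateField.adjoin κ {g}), ffd_theta (ψ c) = 0 := fun c =>
    s44h_theta_adjoin κ M g hθ (c : ↥(modularFunctionFieldFullC κ M)) c.2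
  have hroot : m.eval₂ ψ (φ y) = 0 := by
    rw [hψ, ← Polynomial.hom_eval₂, ← aeval_def, hm, minpoly.aeval, map_zero]
  have hder : (derivative m).eval₂ ψ (φ y) ≠ 0 := hmsep.eval₂_derivative_ne_zero ψ hroot
  have key := s44h_theta_eval₂ ψ h0 m (φ y)
  rw [hroot] at key
  have hθ0 : ffd_theta (0 : LaurentSeries κ) = 0 := by
    have := ffd_theta_algebraMap (K := κ) 0
    rwa [map_zero] at this
  rw [hθ0] at key
  rcases mul_eq_zero.mp key.symm with h | h
  · exact absurd h hder
  · exact h

/-- a non-zero function which is not a `p`-th power has non-zero logarithmic derivative. -/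
theorem s44h_dlog_ne_zero_of_not_pow (g : ↥(modularFunctionFieldFullC κ M)) (hg : g ≠ 0)
    (hpow : ∀ y : ↥(modularFunctionFieldFullC κ M), y ^ p ≠ g) :
    s44h_dlog (g : LaurentSeries κ) ≠ 0 := by
  intro h0
  unfold s44h_dlog at h0
  have hg' : (g : LaurentSeries κ) ≠ 0 := fun h => hg (Subtype.ext h)
  rcases mul_eq_zero.mp h0 with h | h
  · obtain ⟨y, hy⟩ := s44h_exists_pth_root κ M p g h
    exact hpow y hy
  · exact hg' (inv_eq_zero.mp h)

end Fbar

end Fermat.Agent.Lib.S44
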