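/-
M-AT-P programme (S44), W4, brick (b) (helper3): **non-triviality of the reduction ⇒ `φ̄ ≠ 0`.**

Setting: `L₀ ≤ ℚ̄` finite, `A₀ = 𝔓 ∩ L₀` a DVR with uniformiser `ϖ`, `G = s37r_G 𝔓 L₀ ϖ hϖ`, `κ₀` its (finite)
residue field, `κ̄` the residue field of `𝔓`.  For a unit `h` of `V_∞` (resp. `V_0`) which is NOT congruent
modulo `ϖ V_∞` (resp. `ϖ V_0`) to a constant times a `p`-th power of a unit — the negation of the inner clause
of `s44i_RedTriv` — the logarithmic derivative of the reduction of `h`, pushed to `κ̄((q))`, is non-zero.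

* `s44h_gI`, `s44h_gZ`          : the two reductions of `h`, pushed to `κ̄((q))`;
* `s44h_gI_mem`, `s44h_gZ_mem`  : they lie in `F_κ̄(M)`;
* `s44h_dlog_gI_ne_zero`, `s44h_dlog_gZ_ne_zero`.
-/
import Fermat.Agent.Lib.S44.HPth
import Fermat.Agent.Lib.S33.SsComp
import Fermat.Agent.Lib.S33.DescRedTop
import Fermat.Agent.Lib.S34.RDegH

set_option autoImplicit false
set_option linter.style.haveILetI false
set_option linter.unusedSectionVars false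
set_option synthInstance.maxHeartbeats 400000

noncomputable section

namespace Fermat.Agent.Lib.S44

open ModularCurve HahnSeries AlgebraicCurve Fermat.Agent.Lib.FF Fermat.Agent.Lib.S18
  Fermat.Agent.Lib.S28 Fermat.Agent.Lib.S29 Fermat.Agent.Lib.S37 Fermat.Agent.Lib.S34
  Fermat.Agent.Lib.S33

local notation "Kb" => AlgebraicClosure ℚ

variable (M p : ℕ) [NeZero M] [hp : Fact p.Prime] (hpM : ¬ p ∣ M)
variable (P : ValuationSubring Kb) (hP : P.LiesOverPrime p)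
variable (L₀ : IntermediateField ℚ Kb) [FiniteDimensional ℚ ↥L₀]
  [IsDiscreteValuationRing ↥(s18q_A0 P L₀)] (ϖ : ↥(s18q_A0 P L₀)) (hϖ : Irreducible ϖ)

/-- the reduction of `h ∈ V_∞` on the component `C_∞`, pushed to `κ̄((q))`. -/
def s44h_gI (h : s34m_Vinf (s37r_G P L₀ ϖ hϖ) (M * p)) :
    LaurentSeries (IsLocalRing.ResidueField ↥P) :=
  coeffMap (s37r_resMap P L₀) (s34m_redInf (s37r_G P L₀ ϖ hϖ) (M * p) h)

/-- the reduction of `h ∈ V_0` on the component `C_0`, pushed to `κ̄((q))`. -/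
def s44h_gZ (h : s34m_Vzero (s37r_G P L₀ ϖ hϖ) (algebraMap ↥L₀ Kb) M p hp.out hpM) :
    LaurentSeries (IsLocalRing.ResidueField ↥P) :=
  coeffMap (s37r_resMap P L₀)
    (s34m_redZero (s37r_G P L₀ ϖ hϖ) (algebraMap ↥L₀ Kb) M p hp.out hpM h)

include hP hpM in
theorem s44h_gI_mem (h : s34m_Vinf (s37r_G P L₀ ϖ hϖ) (M * p)) :
    s44h_gI M p P L₀ ϖ hϖ h ∈ modularFunctionFieldFullC (IsLocalRing.ResidueField ↥P) M := by
  haveI hchar₀ : CharP (IsLocalRing.ResidueField ↥(s18q_A0 P L₀)) p := s37rl_charP P hP L₀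
  have hT : s18g_HT (IsLocalRing.ResidueField ↥(s18q_A0 P L₀)) M := s18t_indep_j p M hpM _
  have hdegM : s18g_HDeg ↥L₀ M := fun n b hb hn =>
    s18g_exists_relation M (algebraMap ↥L₀ Kb) hn b hb
  have hdeg : s34m_HDeg ↥L₀ M p := s34r_deg_HDeg (algebraMap ↥L₀ Kb) M p hp.out hpM
  exact s37e_coeffMap_mem_fullC M (s37r_resMap P L₀)
    (s33y_redInf_mem_fullC (s37r_G P L₀ ϖ hϖ) (algebraMap ↥L₀ Kb) M p hpM hdeg hT hdegM h)

include hP in
theorem s44h_gZ_mem (h : s34m_Vzero (s37r_G P L₀ ϖ hϖ) (algebraMap ↥L₀ Kb) M p hp.out hpM) :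
    s44h_gZ M p hpM P L₀ ϖ hϖ h ∈ modularFunctionFieldFullC (IsLocalRing.ResidueField ↥P) M := by
  haveI hchar₀ : CharP (IsLocalRing.ResidueField ↥(s18q_A0 P L₀)) p := s37rl_charP P hP L₀
  haveI hperf₀ : PerfectField (IsLocalRing.ResidueField ↥(s18q_A0 P L₀)) :=
    s37rl_perfectField P hP L₀
  haveI : PerfectRing (IsLocalRing.ResidueField ↥(s18q_A0 P L₀)) p := PerfectField.toPerfectRing p
  have hT : s18g_HT (IsLocalRing.ResidueField ↥(s18q_A0 P L₀)) M := s18t_indep_j p M hpM _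
  have hdegM : s18g_HDeg ↥L₀ M := fun n b hb hn =>
    s18g_exists_relation M (algebraMap ↥L₀ Kb) hn b hb
  have hdeg : s34m_HDeg ↥L₀ M p := s34r_deg_HDeg (algebraMap ↥L₀ Kb) M p hp.out hpM
  exact s37e_coeffMap_mem_fullC M (s37r_resMap P L₀)
    (s33y_redZero_mem_fullC (s37r_G P L₀ ϖ hϖ) (algebraMap ↥L₀ Kb) M p hpM hdeg hT hdegM h)

/-- abstract core: an element `g₀ ≠ 0` of `F_{κ₀}(M)` whose push to `κ̄((q))` has `dlog = 0` is a `p`-th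
power in `F_{κ₀}(M)`. -/
theorem s44h_pth_of_dlog_eq_zero
    {κ₀ k : Type*} [Field κ₀] [Field k] [Algebra κ₀ k] [Algebra.IsAlgebraic κ₀ k] [IsAlgClosed k]
    [CharP κ₀ p] [CharP k p] [PerfectRing κ₀ p]
    (g₀ : LaurentSeries κ₀) (hg₀ : g₀ ∈ modularFunctionFieldFullC κ₀ M) (hg₀0 : g₀ ≠ 0)
    (hd : s44h_dlog (coeffMap (algebraMap κ₀ k) g₀) = 0) :
    ∃ b₀ : LaurentSeries κ₀, b₀ ∈ modularFunctionFieldFullC κ₀ M ∧ b₀ ≠ 0 ∧ g₀ = b₀ ^ p := by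
  have hinj : Function.Injective (coeffMap (algebraMap κ₀ k)) := by
    intro y y' hyy
    ext n
    apply (algebraMap κ₀ k).injective
    rw [← coeffMap_coeff, ← coeffMap_coeff, hyy]
  have hgk : coeffMap (algebraMap κ₀ k) g₀ ∈ modularFunctionFieldFullC k M :=
    s37e_coeffMap_mem_fullC M (algebraMap κ₀ k) hg₀
  have hgk0 : coeffMap (algebraMap κ₀ k) g₀ ≠ 0 := fun h => hg₀0 (hinj (by rw [h, map_zero]))
  set g : ↥(modularFunctionFieldFullC k M) := ⟨coeffMap (algebraMap κ₀ k) g₀, hgk⟩ with hg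
  have hg0 : g ≠ 0 := fun h => hgk0 (congrArg Subtype.val h)
  -- `g` is a `p`-th power over `k`
  obtain ⟨y, hy⟩ : ∃ y : ↥(modularFunctionFieldFullC k M), y ^ p = g := by
    by_contra hcon
    push Not at hcon
    exact s44h_dlog_ne_zero_of_not_pow k M p g hg0 hcon hd
  -- descend
  have hx : coeffMap (algebraMap κ₀ k) g₀ =
      algebraMap k (LaurentSeries k) 1 * (y : LaurentSeries k) ^ p := by
    rw [map_one, one_mul, ← SubmonoidClass.coe_pow, hy]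
  obtain ⟨a₀, v₀, hv₀, ha₀, hv₀0, e⟩ :=
    s33d_kum0_descent_charP M p g₀ hg₀ hg₀0 (1 : k) (y : LaurentSeries k) y.2 hx
  obtain ⟨d, hd'⟩ := surjective_frobenius κ₀ p a₀
  rw [frobenius_def] at hd'
  have hd0 : d ≠ 0 := by
    rintro rfl
    rw [zero_pow hp.out.ne_zero] at hd'
    exact ha₀ hd'.symm
  refine ⟨algebraMap κ₀ (LaurentSeries κ₀) d * v₀,
    mul_mem ((modularFunctionFieldFullC κ₀ M).algebraMap_mem d) hv₀, ?_, ?_⟩
  · refine mul_ne_zero ?_ hv₀0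
    rwa [Ne, map_eq_zero]
  · rw [mul_pow, ← map_pow, hd', e]

include hP hpM in
/-- **(b), component `C_∞`**: a unit `h` of `V_∞` not congruent mod `ϖ V_∞` to a constant times a `p`-th
power of a unit has `dlog (red_∞ h) ≠ 0` (over `κ̄`). -/
theorem s44h_dlog_gI_ne_zero (h : s34m_F ↥L₀ (M * p))
    (hh : h ∈ s34m_Vinf (s37r_G P L₀ ϖ hϖ) (M * p))
    (hh' : h⁻¹ ∈ s34m_Vinf (s37r_G P L₀ ϖ hϖ) (M * p)) (hh0 : h ≠ 0)
    (hneg : ¬ ∃ (c : ↥L₀) (a y : s34m_F ↥L₀ (M * p)), c ≠ 0 ∧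
      (a ∈ s34m_Vinf (s37r_G P L₀ ϖ hϖ) (M * p) ∧ a⁻¹ ∈ s34m_Vinf (s37r_G P L₀ ϖ hϖ) (M * p) ∧
        y ∈ s34m_Vinf (s37r_G P L₀ ϖ hϖ) (M * p)) ∧
      h - algebraMap ↥L₀ (s34m_F ↥L₀ (M * p)) c * a ^ p =
        s34m_unif (s37r_G P L₀ ϖ hϖ) (M * p) * y) :
    s44h_dlog (s44h_gI M p P L₀ ϖ hϖ ⟨h, hh⟩) ≠ 0 := by
  intro hd
  set G := s37r_G P L₀ ϖ hϖ with hG
  haveI hchar₀ : CharP (IsLocalRing.ResidueField ↥(s18q_A0 P L₀)) p := s37rl_charP P hP L₀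
  haveI hperf₀ : PerfectField (IsLocalRing.ResidueField ↥(s18q_A0 P L₀)) :=
    s37rl_perfectField P hP L₀
  haveI : PerfectRing (IsLocalRing.ResidueField ↥(s18q_A0 P L₀)) p := PerfectField.toPerfectRing p
  have hT : s18g_HT (IsLocalRing.ResidueField ↥(s18q_A0 P L₀)) M := s18t_indep_j p M hpM _
  have hdegM : s18g_HDeg ↥L₀ M := fun n b hb hn =>
    s18g_exists_relation M (algebraMap ↥L₀ Kb) hn b hb
  have hdeg : s34m_HDeg ↥L₀ M p := s34r_deg_HDeg (algebraMap ↥L₀ Kb) M p hp.out hpM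
  have hπ : Function.Surjective G.π := IsLocalRing.residue_surjective
  haveI : CharP (IsLocalRing.ResidueField ↥P) p := s18n_charP_residueField P hp.out hP
  haveI : IsAlgClosed (IsLocalRing.ResidueField ↥P) := s18n_isAlgClosed_residueField P
  letI : Algebra (IsLocalRing.ResidueField ↥(s18q_A0 P L₀)) (IsLocalRing.ResidueField ↥P) :=
    (s37r_resMap P L₀).toAlgebra
  haveI : Algebra.IsAlgebraic (IsLocalRing.ResidueField ↥(s18q_A0 P L₀))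
      (IsLocalRing.ResidueField ↥P) := s33d_resMap_isAlgebraic P hP L₀
  -- the reduction is non-zero
  have hred0 : s34m_redInf G (M * p) ⟨h, hh⟩ ≠ 0 := by
    intro h0
    have h1 : (⟨h, hh⟩ : s34m_Vinf G (M * p)) * ⟨h⁻¹, hh'⟩ = 1 :=
      Subtype.ext (mul_inv_cancel₀ hh0)
    have := congrArg (s34m_redInf G (M * p)) h1
    rw [map_mul, h0, zero_mul, map_one] at this
    exact zero_ne_one this
  obtain ⟨b₀, hb₀, hb₀0, e⟩ := s44h_pth_of_dlog_eq_zero M p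
    (s34m_redInf G (M * p) ⟨h, hh⟩)
    (s33y_redInf_mem_fullC G (algebraMap ↥L₀ Kb) M p hpM hdeg hT hdegM ⟨h, hh⟩) hred0 hd
  -- lift `b₀`
  obtain ⟨a, ha⟩ := s33y_redI_surjective G (algebraMap ↥L₀ Kb) M p hpM hdeg hT hdegM hπ ⟨b₀, hb₀⟩
  have ha' : s34m_redInf G (M * p) a = b₀ := by
    have := congrArg Subtype.val ha
    rwa [s33y_coe_redI] at this
  have hainv : ((a : s34m_F ↥L₀ (M * p)))⁻¹ ∈ s34m_Vinf G (M * p) :=
    s33y_inv_mem_inf G (M * p) a (by rw [ha']; exact hb₀0)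
  -- `h - a^p ∈ ϖ V_∞`
  have hmem : h - (a : s34m_F ↥L₀ (M * p)) ^ p ∈ s34m_Vinf G (M * p) :=
    (s34m_Vinf G (M * p)).sub_mem hh ((s34m_Vinf G (M * p)).pow_mem a.2 p)
  have hz : s34m_redInf G (M * p) ⟨h - (a : s34m_F ↥L₀ (M * p)) ^ p, hmem⟩ = 0 := by
    have e1 : (⟨h - (a : s34m_F ↥L₀ (M * p)) ^ p, hmem⟩ : s34m_Vinf G (M * p)) =
        ⟨h, hh⟩ - a ^ p := Subtype.ext rfl
    rw [e1, map_sub, map_pow, ha', e, sub_self]
  obtain ⟨z, hz', ez⟩ := (s34m_redInf_eq_zero_iff G (M * p) _).mp hz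
  exact hneg ⟨1, a, z, one_ne_zero, ⟨a.2, hainv, hz'⟩, by rw [map_one, one_mul]; exact ez⟩

include hP in
/-- **(b), component `C_0`**: a unit `h` of `V_0` not congruent mod `ϖ V_0` to a constant times a `p`-th
power of a unit has `dlog (red_0 h) ≠ 0` (over `κ̄`). -/
theorem s44h_dlog_gZ_ne_zero (h : s34m_F ↥L₀ (M * p))
    (hh : h ∈ s34m_Vzero (s37r_G P L₀ ϖ hϖ) (algebraMap ↥L₀ Kb) M p hp.out hpM)
    (hh' : h⁻¹ ∈ s34m_Vzero (s37r_G P L₀ ϖ hϖ) (algebraMap ↥L₀ Kb) M p hp.out hpM) (hh0 : h ≠ 0)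
    (hneg : ¬ ∃ (c : ↥L₀) (a y : s34m_F ↥L₀ (M * p)), c ≠ 0 ∧
      (a ∈ s34m_Vzero (s37r_G P L₀ ϖ hϖ) (algebraMap ↥L₀ Kb) M p hp.out hpM ∧
        a⁻¹ ∈ s34m_Vzero (s37r_G P L₀ ϖ hϖ) (algebraMap ↥L₀ Kb) M p hp.out hpM ∧
        y ∈ s34m_Vzero (s37r_G P L₀ ϖ hϖ) (algebraMap ↥L₀ Kb) M p hp.out hpM) ∧
      h - algebraMap ↥L₀ (s34m_F ↥L₀ (M * p)) c * a ^ p =
        s34m_unif (s37r_G P L₀ ϖ hϖ) (M * p) * y) :
    s44h_dlog (s44h_gZ M p hpM P L₀ ϖ hϖ ⟨h, hh⟩) ≠ 0 := by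
  intro hd
  set G := s37r_G P L₀ ϖ hϖ with hG
  haveI hchar₀ : CharP (IsLocalRing.ResidueField ↥(s18q_A0 P L₀)) p := s37rl_charP P hP L₀
  haveI hperf₀ : PerfectField (IsLocalRing.ResidueField ↥(s18q_A0 P L₀)) :=
    s37rl_perfectField P hP L₀
  haveI : PerfectRing (IsLocalRing.ResidueField ↥(s18q_A0 P L₀)) p := PerfectField.toPerfectRing p
  have hT : s18g_HT (IsLocalRing.ResidueField ↥(s18q_A0 P L₀)) M := s18t_indep_j p M hpM _
  have hdegM : s18g_HDeg ↥L₀ M := fun n b hb hn =>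
    s18g_exists_relation M (algebraMap ↥L₀ Kb) hn b hb
  have hdeg : s34m_HDeg ↥L₀ M p := s34r_deg_HDeg (algebraMap ↥L₀ Kb) M p hp.out hpM
  have hπ : Function.Surjective G.π := IsLocalRing.residue_surjective
  haveI : CharP (IsLocalRing.ResidueField ↥P) p := s18n_charP_residueField P hp.out hP
  haveI : IsAlgClosed (IsLocalRing.ResidueField ↥P) := s18n_isAlgClosed_residueField P
  letI : Algebra (IsLocalRing.ResidueField ↥(s18q_A0 P L₀)) (IsLocalRing.ResidueField ↥P) :=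
    (s37r_resMap P L₀).toAlgebra
  haveI : Algebra.IsAlgebraic (IsLocalRing.ResidueField ↥(s18q_A0 P L₀))
      (IsLocalRing.ResidueField ↥P) := s33d_resMap_isAlgebraic P hP L₀
  set V0 := s34m_Vzero G (algebraMap ↥L₀ Kb) M p hp.out hpM with hV0
  -- the reduction is non-zero
  have hred0 : s34m_redZero G (algebraMap ↥L₀ Kb) M p hp.out hpM ⟨h, hh⟩ ≠ 0 := by
    intro h0
    have h1 : (⟨h, hh⟩ : V0) * ⟨h⁻¹, hh'⟩ = 1 := Subtype.ext (mul_inv_cancel₀ hh0)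
    have := congrArg (s34m_redZero G (algebraMap ↥L₀ Kb) M p hp.out hpM) h1
    rw [map_mul, h0, zero_mul, map_one] at this
    exact zero_ne_one this
  obtain ⟨b₀, hb₀, hb₀0, e⟩ := s44h_pth_of_dlog_eq_zero M p
    (s34m_redZero G (algebraMap ↥L₀ Kb) M p hp.out hpM ⟨h, hh⟩)
    (s33y_redZero_mem_fullC G (algebraMap ↥L₀ Kb) M p hpM hdeg hT hdegM ⟨h, hh⟩) hred0 hd
  -- lift `b₀`
  obtain ⟨a, ha⟩ := s33y_redZ_surjective G (algebraMap ↥L₀ Kb) M p hpM hdeg hT hdegM hπ ⟨b₀, hb₀⟩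
  have ha' : s34m_redZero G (algebraMap ↥L₀ Kb) M p hp.out hpM a = b₀ := by
    have := congrArg Subtype.val ha
    rwa [s33y_coe_redZ] at this
  have hainv : ((a : s34m_F ↥L₀ (M * p)))⁻¹ ∈ V0 :=
    s33y_inv_mem_zero G (algebraMap ↥L₀ Kb) M p hpM a (by rw [ha']; exact hb₀0)
  -- `h - a^p ∈ ϖ V_0`
  have hmem : h - (a : s34m_F ↥L₀ (M * p)) ^ p ∈ V0 := V0.sub_mem hh (V0.pow_mem a.2 p)
  have hz : s34m_redZero G (algebraMap ↥L₀ Kb) M p hp.out hpM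
      ⟨h - (a : s34m_F ↥L₀ (M * p)) ^ p, hmem⟩ = 0 := by
    have e1 : (⟨h - (a : s34m_F ↥L₀ (M * p)) ^ p, hmem⟩ : V0) = ⟨h, hh⟩ - a ^ p :=
      Subtype.ext rfl
    rw [e1, map_sub, map_pow, ha', e, sub_self]
  obtain ⟨z, hz', ez⟩ := (s34m_redZero_eq_zero_iff G (algebraMap ↥L₀ Kb) M p hp.out hpM _).mp hz
  exact hneg ⟨1, a, z, one_ne_zero, ⟨a.2, hainv, hz'⟩, by rw [map_one, one_mul]; exact ez⟩

end Fermat.Agent.Lib.S44
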