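/-
M-AT-P programme (S44), wall W1 [RAT] (helper9), brick [Q-ALMOST]: "at most one place of degree one
through a closed point of the special fibre has no local equation" (`s34f_AlmostAll`), for the two
charts of `j` at level `M q`, `q ≥ 5`, over an arbitrary number field with a Gauss datum — extracted
from the S34 chart contract (`s34df_contract_five`, `s34f_chartContract_j1/_j2`).
-/
import Fermat.Agent.Lib.S34.FFive
import Fermat.Agent.Lib.S34.DFibreFive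

set_option autoImplicit false
set_option linter.style.haveILetI false
set_option linter.unusedSectionVars false
set_option synthInstance.maxHeartbeats 400000

noncomputable section

namespace Fermat.Agent.Lib.S44

open ModularCurve AlgebraicCurve Fermat.Agent.Lib.S18 Fermat.Agent.Lib.FF
  Fermat.Agent.Lib.S34 IsLocalRing

local notation "Qbar" => AlgebraicClosure ℚ

/-- The uniformiser of a Gauss datum is irreducible. -/
theorem s44q_irreducible_unif {K₀ : Type*} [Field K₀] {κ : Type*} [Field κ]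
    (G : s18g_GaussData K₀ κ) : Irreducible G.ϖ := by
  have hker : RingHom.ker G.π = Ideal.span {G.ϖ} := by
    ext x
    rw [RingHom.mem_ker, G.π_eq_zero_iff, Ideal.mem_span_singleton]
  have hprime : (Ideal.span {G.ϖ}).IsPrime := hker ▸ RingHom.ker_isPrime G.π
  exact ((Ideal.span_singleton_prime G.ϖ_ne_zero).mp hprime).irreducible

/-- `s34f_AlmostAll` from the chart contract. -/
theorem s44q_almostAll_of_contract {K₀ : Type*} [Field K₀] [Algebra ℚ K₀] {κ : Type*} [Field κ]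
    (G : s18g_GaussData K₀ κ) [IsDiscreteValuationRing G.A]
    (φ : K₀ →+* Qbar) (M q : ℕ) [NeZero M] [NeZero q] (hq : q.Prime) (hqM : ¬ q ∣ M)
    (S : Set (Place K₀ (s34m_F K₀ (M * q)))) (g : SemilinearAut K₀ (s34m_F K₀ (M * q)))
    (hC : s34f_ChartContract G.A (s34m_VV G φ M q hq hqM) (s34c_const_mem_VV G φ M q hq hqM) G.ϖ S
      g)
    (𝔫 : Ideal (s34x_ring (s34x_infRing (s34m_VV G φ M q hq hqM)) S)) [h𝔫 : 𝔫.IsMaximal]
    (hπ𝔫 : s34x_const (s34x_infRing (s34m_VV G φ M q hq hqM)) S ((G.ϖ : G.A) : K₀)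
      (s34x_inf_const_mem (s34m_VV G φ M q hq hqM) G.A (s34c_const_mem_VV G φ M q hq hqM)
        G.ϖ) ∈ 𝔫) :
    s34f_AlmostAll (s34x_infRing (s34m_VV G φ M q hq hqM)) S 𝔫 := by
  obtain ⟨hnoeth, F1, F2, -, -, hstruct⟩ := hC
  haveI := hnoeth
  haveI : 𝔫.IsPrime := h𝔫.isPrime
  have hirr := s44q_irreducible_unif G
  have hπ𝔫' : s34f_constHom G.A (s34x_infRing (s34m_VV G φ M q hq hqM))
      (s34x_inf_const_mem (s34m_VV G φ M q hq hqM) G.A (s34c_const_mem_VV G φ M q hq hqM)) S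
      G.ϖ ∈ 𝔫 := hπ𝔫
  rcases hstruct 𝔫 hπ𝔫' with ⟨t, hm⟩ | ⟨u, w, h0, hm⟩
  · exact s34f_almostAll_of_smooth G.A (s34x_infRing (s34m_VV G φ M q hq hqM))
      (s34x_inf_const_mem (s34m_VV G φ M q hq hqM) G.A (s34c_const_mem_VV G φ M q hq hqM)) S G.ϖ
      hirr 𝔫 hπ𝔫' F1 F2 t hm
  · exact s34f_almostAll_of_node G.A (s34x_infRing (s34m_VV G φ M q hq hqM))
      (s34x_inf_const_mem (s34m_VV G φ M q hq hqM) G.A (s34c_const_mem_VV G φ M q hq hqM)) S G.ϖ
      hirr 𝔫 hπ𝔫' F1 F2 u w hm h0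

/-- **`s34f_AlmostAll` on the chart `j ≠ ∞`**, level `M q`, `q ≥ 5`. -/
theorem s44q_almostAll_j1 (M q : ℕ) [NeZero M] [NeZero q] (hq : q.Prime) (hqM : ¬ q ∣ M)
    (h5 : 5 ≤ q) (K₀ : Type) [Field K₀] [NumberField K₀] (φ : K₀ →+* Qbar)
    (κ : Type) [Field κ] [CharP κ q] [PerfectField κ]
    (G : s18g_GaussData K₀ κ) [IsDiscreteValuationRing G.A] (hπ : Function.Surjective G.π)
    (𝔫 : Ideal (s34x_ring (s34x_infRing (s34m_VV G φ M q hq hqM))
      (s18_chart1 (L₀ := K₀) (s18g_jF (K := K₀) (M * q))))) [h𝔫 : 𝔫.IsMaximal]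
    (hπ𝔫 : s34x_const (s34x_infRing (s34m_VV G φ M q hq hqM))
      (s18_chart1 (L₀ := K₀) (s18g_jF (K := K₀) (M * q))) ((G.ϖ : G.A) : K₀)
      (s34x_inf_const_mem (s34m_VV G φ M q hq hqM) G.A (s34c_const_mem_VV G φ M q hq hqM)
        G.ϖ) ∈ 𝔫) :
    s34f_AlmostAll (s34x_infRing (s34m_VV G φ M q hq hqM))
      (s18_chart1 (L₀ := K₀) (s18g_jF (K := K₀) (M * q))) 𝔫 := by
  have hdegN : s18g_HDeg K₀ (M * q) := fun n b hb hn => s18g_exists_relation (M * q) φ hn b hb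
  haveI : FFGen K₀ (s18g_jF (K := K₀) (M * q)) := s18b_ffGen_jF (M * q) hdegN
  obtain ⟨h1, -⟩ := s34df_contract_five M q hq hqM h5 K₀ φ κ G hπ
  have hC := s34f_chartContract_j1 G φ M q hq hqM (s34f_alpha_j G φ M q hq hqM) 1 h1
  exact s44q_almostAll_of_contract G φ M q hq hqM _ _ hC 𝔫 hπ𝔫

/-- **`s34f_AlmostAll` on the chart `j ≠ 0`**, level `M q`, `q ≥ 5`. -/
theorem s44q_almostAll_j2 (M q : ℕ) [NeZero M] [NeZero q] (hq : q.Prime) (hqM : ¬ q ∣ M)
    (h5 : 5 ≤ q) (K₀ : Type) [Field K₀] [NumberField K₀] (φ : K₀ →+* Qbar)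
    (κ : Type) [Field κ] [CharP κ q] [PerfectField κ]
    (G : s18g_GaussData K₀ κ) [IsDiscreteValuationRing G.A] (hπ : Function.Surjective G.π)
    (𝔫 : Ideal (s34x_ring (s34x_infRing (s34m_VV G φ M q hq hqM))
      (s18_chart2 (L₀ := K₀) (s18g_jF (K := K₀) (M * q))))) [h𝔫 : 𝔫.IsMaximal]
    (hπ𝔫 : s34x_const (s34x_infRing (s34m_VV G φ M q hq hqM))
      (s18_chart2 (L₀ := K₀) (s18g_jF (K := K₀) (M * q))) ((G.ϖ : G.A) : K₀)
      (s34x_inf_const_mem (s34m_VV G φ M q hq hqM) G.A (s34c_const_mem_VV G φ M q hq hqM)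
        G.ϖ) ∈ 𝔫) :
    s34f_AlmostAll (s34x_infRing (s34m_VV G φ M q hq hqM))
      (s18_chart2 (L₀ := K₀) (s18g_jF (K := K₀) (M * q))) 𝔫 := by
  have hdegN : s18g_HDeg K₀ (M * q) := fun n b hb hn => s18g_exists_relation (M * q) φ hn b hb
  haveI : FFGen K₀ (s18g_jF (K := K₀) (M * q)) := s18b_ffGen_jF (M * q) hdegN
  obtain ⟨-, h2⟩ := s34df_contract_five M q hq hqM h5 K₀ φ κ G hπ
  have hC := s34f_chartContract_j2 G φ M q hq hqM (s34f_alpha_inv G φ M q hq hqM) 1 h2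
  exact s44q_almostAll_of_contract G φ M q hq hqM _ _ hC 𝔫 hπ𝔫

end Fermat.Agent.Lib.S44
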