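/-
M-AT-P programme (S44), wall W1 [RAT] (helper9), brick [Q-BC], part 1: DESCENT OF INVARIANTS.

`K / K₀` algebraic fields of characteristic zero, a finite group `Γ` acting on `K` through
`r : Γ →* (K ≃ₐ[ℚ] K)`, trivially on `K₀`, with `K^Γ = K₀`.  Then the `Γ`-invariant elements of the
function field `laurentBaseChange K F₀` (coefficientwise action `arithmeticGalois`) are exactly the
image of `laurentBaseChange K₀ F₀`.

* `s44q_rho r` : the action `Γ →* SemilinearAut K (laurentBaseChange K F₀)`;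
* `s44q_rho_map` : the image of `laurentBaseChange K₀ F₀` is fixed;
* **`s44q_inv_descent`** : invariant elements descend.
-/
import Fermat.Agent.Lib.S34.RDeg
import Fermat.Agent.Lib.S34.RDesc

set_option autoImplicit false
set_option linter.style.haveILetI false
set_option linter.unusedSectionVars false

noncomputable section

namespace Fermat.Agent.Lib.S44

open AlgebraicCurve ModularCurve Fermat.Agent.Lib.S18 Fermat.Agent.Lib.S34

variable {K₀ K : Type*} [Field K₀] [Field K] [Algebra ℚ K₀] [Algebra ℚ K] [Algebra K₀ K]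
variable (F₀ : IntermediateField ℚ (LaurentSeries ℚ))
variable {Γ : Type*} [Group Γ] (r : Γ →* (K ≃ₐ[ℚ] K))

/-- The coefficientwise action of `Γ` on the function field over `K`. -/
def s44q_rho : Γ →* SemilinearAut K ↥(laurentBaseChange K F₀) :=
  (arithmeticGalois F₀).comp r

theorem s44q_rho_apply (g : Γ) : s44q_rho F₀ r g = arithmeticGalois F₀ (r g) := rfl

theorem s44q_coe_rho_smul (g : Γ) (y : ↥(laurentBaseChange K F₀)) :
    ((s44q_rho F₀ r g • y : ↥(laurentBaseChange K F₀)) : LaurentSeries K) =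
      coeffMap ((r g : K ≃ₐ[ℚ] K) : K →+* K) (y : LaurentSeries K) := rfl

variable {r}

/-- Functions defined over `K₀` are invariant. -/
theorem s44q_rho_map (hK₀ : ∀ g : Γ, ∀ a : K₀, r g (algebraMap K₀ K a) = algebraMap K₀ K a)
    (g : Γ) (y₀ : ↥(laurentBaseChange K₀ F₀)) :
    s44q_rho F₀ r g • s18q_map (algebraMap K₀ K) F₀ y₀ = s18q_map (algebraMap K₀ K) F₀ y₀ := by
  have h := s34q_map_smul F₀ (algebraMap K₀ K) (1 : K₀ ≃ₐ[ℚ] K₀) (r g)
    (fun a => (hK₀ g a).symm) y₀
  rw [map_one, one_smul] at h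
  exact h.symm

/-- The action on a constant multiple. -/
theorem s44q_rho_smul_const (g : Γ) (c : K) (y : ↥(laurentBaseChange K F₀)) :
    s44q_rho F₀ r g • (algebraMap K ↥(laurentBaseChange K F₀) c * y) =
      algebraMap K ↥(laurentBaseChange K F₀) (r g c) * s44q_rho F₀ r g • y := by
  rw [smul_mul', s44q_rho_apply, SemilinearAut.smul_algebraMap]
  rfl

variable [Fintype Γ]

/-- The trace of a constant lies in `K₀`. -/
theorem s44q_trace_mem (hfix : ∀ a : K, (∀ g : Γ, r g a = a) → ∃ a₀ : K₀, algebraMap K₀ K a₀ = a)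
    (c : K) : ∃ t : K₀, algebraMap K₀ K t = ∑ g : Γ, r g c := by
  apply hfix
  intro h
  rw [map_sum]
  refine Fintype.sum_equiv (Equiv.mulLeft h) _ _ (fun g => ?_)
  show r h (r g c) = r (h * g) c
  rw [map_mul]
  rfl

/-- **DESCENT OF INVARIANTS.** -/
theorem s44q_inv_descent [Algebra.IsAlgebraic K₀ K]
    (hK₀ : ∀ g : Γ, ∀ a : K₀, r g (algebraMap K₀ K a) = algebraMap K₀ K a)
    (hfix : ∀ a : K, (∀ g : Γ, r g a = a) → ∃ a₀ : K₀, algebraMap K₀ K a₀ = a)
    (y : ↥(laurentBaseChange K F₀)) (hy : ∀ g : Γ, s44q_rho F₀ r g • y = y) :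
    ∃ y₀ : ↥(laurentBaseChange K₀ F₀), s18q_map (algebraMap K₀ K) F₀ y₀ = y := by
  classical
  haveI : CharZero K := algebraRat.charZero K
  set ι := s18q_map (algebraMap K₀ K) F₀ with hι
  -- the traces of constant multiples of elements of the span descend
  have key : ∀ z ∈ Submodule.span K (Set.range ι), ∀ c : K,
      ∃ z₀ : ↥(laurentBaseChange K₀ F₀),
        ι z₀ = ∑ g : Γ, s44q_rho F₀ r g • (algebraMap K ↥(laurentBaseChange K F₀) c * z) := by
    intro z hz
    induction hz using Submodule.span_induction with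
    | mem z hz =>
      intro c
      obtain ⟨z₁, rfl⟩ := hz
      obtain ⟨t, ht⟩ := s44q_trace_mem hfix c
      refine ⟨algebraMap K₀ ↥(laurentBaseChange K₀ F₀) t * z₁, ?_⟩
      rw [map_mul, hι, s18q_map_algebraMap, ht, map_sum, Finset.sum_mul]
      refine Finset.sum_congr rfl (fun g _ => ?_)
      rw [s44q_rho_smul_const, s44q_rho_map F₀ hK₀]
    | zero =>
      intro c
      exact ⟨0, by simp⟩
    | add a b _ _ ha hb =>
      intro c
      obtain ⟨a₀, ha₀⟩ := ha c
      obtain ⟨b₀, hb₀⟩ := hb c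
      refine ⟨a₀ + b₀, ?_⟩
      rw [map_add, ha₀, hb₀, ← Finset.sum_add_distrib]
      refine Finset.sum_congr rfl (fun g _ => ?_)
      rw [← smul_add, mul_add]
    | smul c' a _ ha =>
      intro c
      obtain ⟨a₀, ha₀⟩ := ha (c * c')
      refine ⟨a₀, ?_⟩
      rw [ha₀]
      refine Finset.sum_congr rfl (fun g _ => ?_)
      rw [Algebra.smul_def, map_mul, mul_assoc]
  obtain ⟨z₀, hz₀⟩ := key y (s34r_deg_span F₀ y) 1
  have hsum : ∑ g : Γ, s44q_rho F₀ r g • (algebraMap K ↥(laurentBaseChange K F₀) 1 * y) =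
      (Fintype.card Γ : ℕ) • y := by
    rw [map_one, one_mul, Finset.sum_congr rfl (fun g _ => hy g), Finset.sum_const,
      Finset.card_univ]
  rw [hsum] at hz₀
  haveI : CharZero K₀ := algebraRat.charZero K₀
  have hcard : ((Fintype.card Γ : ℕ) : K) ≠ 0 := by
    rw [Nat.cast_ne_zero]
    exact Fintype.card_ne_zero
  refine ⟨algebraMap K₀ ↥(laurentBaseChange K₀ F₀) ((Fintype.card Γ : K₀)⁻¹) * z₀, ?_⟩
  rw [map_mul, hι, s18q_map_algebraMap, ← hι, hz₀, map_inv₀, map_natCast, nsmul_eq_mul,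
    ← mul_assoc]
  have h1 : algebraMap K ↥(laurentBaseChange K F₀) ((Fintype.card Γ : K)⁻¹) *
      ((Fintype.card Γ : ℕ) : ↥(laurentBaseChange K F₀)) = 1 := by
    rw [← map_natCast (algebraMap K ↥(laurentBaseChange K F₀)), ← map_mul,
      inv_mul_cancel₀ hcard, map_one]
  rw [h1, one_mul]

end Fermat.Agent.Lib.S44
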