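/-
M-AT-P programme (S44), wall W1 [RAT] (helper9), brick [Q-NORM]: NORM DESCENT of local equations.

Generic in the function field `F / K`.  A finite group `G` acts on `F` through semilinear
automorphisms (`ρ : G →* SemilinearAut K F`; in the application `G = Gal(L₀/Z)` is the decomposition
group, acting coefficientwise on `F = 𝓕_{L₀}`).  `T` is a `G`-stable set of places ("the places
through the closed point `𝔫₀` of the special fibre").

* `s44q_LocEqOn T Q φ` : `φ` is a local equation of `Q` relative to `T` (order one at `Q`, order zero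
  at the other places of `T`);
* `s44q_orbProd ρ Q φ` : the product of the transported equations over the orbit of `Q`
  (the norm from the residue field of the closed point under `Q`), for a `φ` fixed by the stabiliser
  of `Q`; it is `G`-invariant (`s44q_orbProd_smul`) and has order `1` on the orbit and `0` on the
  rest of `T` (`s44q_ord_orbProd`);
* **`s44q_norm_descent`** : a `G`-invariant `f` whose orders on `T` are divisible by `m`, all of
  whose zeros and poles in `T` have stabiliser-invariant local equations, has a `G`-INVARIANT local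
  `m`-th root `Φ` on `T`:  `Q.ord f = m * Q.ord Φ` for all `Q ∈ T`.
-/
import Fermat.Agent.Lib.S34.RTop

set_option autoImplicit false

noncomputable section

namespace Fermat.Agent.Lib.S44

open AlgebraicCurve Fermat.Agent.Lib.S34

variable {K F : Type*} [Field K] [Field F] [Algebra K F]
variable {G : Type*} [Group G] [Fintype G] (ρ : G →* SemilinearAut K F)

/-- `T` is stable under the action. -/
def s44q_Stable (T : Set (Place K F)) : Prop := ∀ g : G, ∀ Q ∈ T, ρ g • Q ∈ T

/-- `φ` is a local equation of `Q` relative to the set `T` of places. -/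
def s44q_LocEqOn (T : Set (Place K F)) (Q : Place K F) (φ : F) : Prop :=
  φ ≠ 0 ∧ Q.ord φ = 1 ∧ ∀ Q' ∈ T, Q' ≠ Q → Q'.ord φ = 0

variable {ρ}

omit [Fintype G] in
theorem s44q_Stable.inv_mem {T : Set (Place K F)} (hT : s44q_Stable ρ T) (g : G) {Q : Place K F}
    (hQ : Q ∈ T) : (ρ g)⁻¹ • Q ∈ T := by
  have h := hT g⁻¹ Q hQ
  rwa [map_inv] at h

/-- The order of a finite product. -/
theorem s44q_ord_prod {α : Type*} (Q : Place K F) (s : Finset α) (y : α → F)
    (hy : ∀ a ∈ s, y a ≠ 0) : Q.ord (∏ a ∈ s, y a) = ∑ a ∈ s, Q.ord (y a) := by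
  classical
  induction s using Finset.induction_on with
  | empty => simp [Place.ord_one]
  | insert a s ha ih =>
    rw [Finset.prod_insert ha, Finset.sum_insert ha,
      Q.ord_mul (hy a (Finset.mem_insert_self a s))
        (Finset.prod_ne_zero_iff.mpr (fun b hb => hy b (Finset.mem_insert_of_mem hb))),
      ih (fun b hb => hy b (Finset.mem_insert_of_mem hb))]

omit [Fintype G] in
/-- Transport of a local equation. -/
theorem s44q_LocEqOn.smul {T : Set (Place K F)} (hT : s44q_Stable ρ T) {Q : Place K F} {φ : F}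
    (h : s44q_LocEqOn T Q φ) (g : G) : s44q_LocEqOn T (ρ g • Q) (ρ g • φ) := by
  obtain ⟨h0, h1, h2⟩ := h
  refine ⟨s34r_smul_ne_zero _ h0, ?_, ?_⟩
  · rw [SemilinearAut.ord_smul, h1]
  · intro Q' hQ' hne
    rw [s34r_ord_smul]
    apply h2 _ (hT.inv_mem g hQ')
    intro heq
    apply hne
    rw [← heq, smul_inv_smul]

section Orbit

open Classical in
/-- The orbit of `Q`, as a finset. -/
def s44q_orbit (ρ : G →* SemilinearAut K F) (Q : Place K F) : Finset (Place K F) :=
  Finset.univ.image (fun g : G => ρ g • Q)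

theorem s44q_mem_orbit {Q Q' : Place K F} : Q' ∈ s44q_orbit ρ Q ↔ ∃ g : G, ρ g • Q = Q' := by
  classical
  simp [s44q_orbit]

theorem s44q_self_mem_orbit (Q : Place K F) : Q ∈ s44q_orbit ρ Q :=
  s44q_mem_orbit.mpr ⟨1, by rw [map_one, one_smul]⟩

theorem s44q_smul_mem_orbit {Q Q' : Place K F} (h : Q' ∈ s44q_orbit ρ Q) (g : G) :
    ρ g • Q' ∈ s44q_orbit ρ Q := by
  obtain ⟨g', rfl⟩ := s44q_mem_orbit.mp h
  exact s44q_mem_orbit.mpr ⟨g * g', by rw [map_mul, mul_smul]⟩

open Classical in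
/-- The transported equation at a point of the orbit. -/
def s44q_eqAt (ρ : G →* SemilinearAut K F) (Q : Place K F) (φ : F) (Q' : Place K F) : F :=
  if h : ∃ g : G, ρ g • Q = Q' then ρ h.choose • φ else 1

variable {Q : Place K F} {φ : F}

/-- Well-definedness of the transported equation. -/
theorem s44q_eqAt_smul (hstab : ∀ g : G, ρ g • Q = Q → ρ g • φ = φ) (g : G) :
    s44q_eqAt ρ Q φ (ρ g • Q) = ρ g • φ := by
  have h : ∃ g' : G, ρ g' • Q = ρ g • Q := ⟨g, rfl⟩
  rw [s44q_eqAt, dif_pos h]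
  have h1 : ρ (g⁻¹ * h.choose) • Q = Q := by
    rw [map_mul, mul_smul, h.choose_spec, ← mul_smul, ← map_mul, inv_mul_cancel, map_one, one_smul]
  have h2 := hstab _ h1
  rw [map_mul, mul_smul] at h2
  have h3 : ρ g • (ρ g⁻¹ • ρ h.choose • φ) = ρ g • φ := congrArg (fun y => ρ g • y) h2
  rw [← mul_smul, ← map_mul, mul_inv_cancel, map_one, one_smul] at h3
  exact h3

/-- The product of the transported equations over the orbit. -/
def s44q_orbProd (ρ : G →* SemilinearAut K F) (Q : Place K F) (φ : F) : F :=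
  ∏ Q' ∈ s44q_orbit ρ Q, s44q_eqAt ρ Q φ Q'

theorem s44q_eqAt_ne_zero (hφ : φ ≠ 0) (Q' : Place K F) : s44q_eqAt ρ Q φ Q' ≠ 0 := by
  classical
  rw [s44q_eqAt]
  split_ifs with h
  · exact s34r_smul_ne_zero _ hφ
  · exact one_ne_zero

theorem s44q_orbProd_ne_zero (hφ : φ ≠ 0) : s44q_orbProd ρ Q φ ≠ 0 :=
  Finset.prod_ne_zero_iff.mpr (fun Q' _ => s44q_eqAt_ne_zero hφ Q')

/-- **The orbit product is invariant.** -/
theorem s44q_orbProd_smul (hstab : ∀ g : G, ρ g • Q = Q → ρ g • φ = φ) (h : G) :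
    ρ h • s44q_orbProd ρ Q φ = s44q_orbProd ρ Q φ := by
  classical
  rw [s44q_orbProd, SemilinearAut.smul_def, map_prod]
  refine Finset.prod_bij (fun Q' _ => ρ h • Q') (fun Q' hQ' => s44q_smul_mem_orbit hQ' h) ?_ ?_ ?_
  · intro Q₁ _ Q₂ _ heq
    have := congrArg ((ρ h)⁻¹ • ·) heq
    simpa using this
  · intro Q' hQ'
    refine ⟨(ρ h)⁻¹ • Q', ?_, by rw [smul_inv_smul]⟩
    have := s44q_smul_mem_orbit hQ' h⁻¹
    rwa [map_inv] at this
  · intro Q' hQ'
    obtain ⟨g, rfl⟩ := s44q_mem_orbit.mp hQ'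
    rw [s44q_eqAt_smul hstab g, ← SemilinearAut.smul_def, ← mul_smul, ← mul_smul, ← map_mul,
      s44q_eqAt_smul hstab (h * g)]

open Classical in
/-- **Orders of the orbit product** on a stable set `T` on which `φ` is a local equation of `Q`. -/
theorem s44q_ord_orbProd {T : Set (Place K F)} (hT : s44q_Stable ρ T)
    (hstab : ∀ g : G, ρ g • Q = Q → ρ g • φ = φ) (hφ : s44q_LocEqOn T Q φ)
    {Q'' : Place K F} (hQ'' : Q'' ∈ T) :
    Q''.ord (s44q_orbProd ρ Q φ) = if Q'' ∈ s44q_orbit ρ Q then 1 else 0 := by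
  classical
  rw [s44q_orbProd, s44q_ord_prod _ _ _ (fun Q' _ => s44q_eqAt_ne_zero hφ.1 Q')]
  have hterm : ∀ Q' ∈ s44q_orbit ρ Q,
      Q''.ord (s44q_eqAt ρ Q φ Q') = if Q'' = Q' then 1 else 0 := by
    intro Q' hQ'
    obtain ⟨g, rfl⟩ := s44q_mem_orbit.mp hQ'
    rw [s44q_eqAt_smul hstab g]
    obtain ⟨-, h1, h2⟩ := hφ.smul hT g
    split_ifs with heq
    · rw [heq, h1]
    · exact h2 Q'' hQ'' heq
  rw [Finset.sum_congr rfl hterm, Finset.sum_ite_eq]

end Orbit

/-- The action commutes with integer powers. -/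
theorem s44q_smul_zpow (g : SemilinearAut K F) (y : F) (n : ℤ) : g • y ^ n = (g • y) ^ n := by
  rw [SemilinearAut.smul_def, SemilinearAut.smul_def, map_zpow₀]

omit [Fintype G] in
/-- Orders of an invariant function are constant on orbits. -/
theorem s44q_ord_smul_of_inv {f : F} (hinv : ∀ g : G, ρ g • f = f) (g : G) (Q : Place K F) :
    (ρ g • Q).ord f = Q.ord f := by
  have h := SemilinearAut.ord_smul (ρ g) Q f
  rwa [hinv g] at h

/-- **NORM DESCENT.**  A `G`-invariant function whose orders on the stable set `T` are divisible by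
`m` and whose zeros and poles in `T` have stabiliser-invariant local equations (relative to `T`) has
a `G`-invariant local `m`-th root on `T`. -/
theorem s44q_norm_descent {T : Set (Place K F)} (hT : s44q_Stable ρ T) (E : Set (Place K F))
    (hE : ∀ Q ∈ E, ∃ φ : F, s44q_LocEqOn T Q φ ∧ ∀ g : G, ρ g • Q = Q → ρ g • φ = φ)
    (m : ℤ) (f : F) (hf : f ≠ 0) (hinv : ∀ g : G, ρ g • f = f)
    (hfin : {Q : Place K F | Q ∈ T ∧ Q.ord f ≠ 0}.Finite)
    (hsupp : ∀ Q ∈ T, Q.ord f ≠ 0 → Q ∈ E) (hdiv : ∀ Q ∈ T, m ∣ Q.ord f) :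
    ∃ Φ : F, Φ ≠ 0 ∧ (∀ g : G, ρ g • Φ = Φ) ∧ ∀ Q ∈ T, Q.ord f = m * Q.ord Φ := by
  classical
  induction' hn : hfin.toFinset.card using Nat.strong_induction_on with n ih generalizing f
  by_cases hempty : hfin.toFinset = ∅
  · refine ⟨1, one_ne_zero, fun g => smul_one _, ?_⟩
    intro Q hQ
    rw [Place.ord_one, mul_zero]
    by_contra hne
    have : Q ∈ hfin.toFinset := by
      rw [Set.Finite.mem_toFinset]
      exact ⟨hQ, hne⟩
    rw [hempty] at this
    exact absurd this (Finset.notMem_empty Q)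
  · obtain ⟨Q₁, hQ₁⟩ := Finset.nonempty_iff_ne_empty.mpr hempty
    rw [Set.Finite.mem_toFinset] at hQ₁
    obtain ⟨hQ₁T, hQ₁f⟩ := hQ₁
    obtain ⟨φ, hφ, hstab⟩ := hE Q₁ (hsupp Q₁ hQ₁T hQ₁f)
    obtain ⟨r, hr⟩ := hdiv Q₁ hQ₁T
    set Ψ := s44q_orbProd ρ Q₁ φ with hΨ
    have hΨ0 : Ψ ≠ 0 := s44q_orbProd_ne_zero hφ.1
    have hΨinv : ∀ g : G, ρ g • Ψ = Ψ := s44q_orbProd_smul hstab
    have hΨord : ∀ Q ∈ T, Q.ord Ψ = if Q ∈ s44q_orbit ρ Q₁ then 1 else 0 :=
      fun Q hQ => s44q_ord_orbProd hT hstab hφ hQ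
    -- the corrected function
    set f' := f * (Ψ ^ (Q₁.ord f))⁻¹ with hf'
    have hf'0 : f' ≠ 0 := mul_ne_zero hf (inv_ne_zero (zpow_ne_zero _ hΨ0))
    have hf'inv : ∀ g : G, ρ g • f' = f' := by
      intro g
      rw [hf', smul_mul', smul_inv'', s44q_smul_zpow, hinv g, hΨinv g]
    have hord_orbit : ∀ Q ∈ s44q_orbit ρ Q₁, Q.ord f = Q₁.ord f := by
      intro Q hQ
      obtain ⟨g, rfl⟩ := s44q_mem_orbit.mp hQ
      exact s44q_ord_smul_of_inv hinv g Q₁
    have hf'ord : ∀ Q ∈ T, Q.ord f' = if Q ∈ s44q_orbit ρ Q₁ then 0 else Q.ord f := by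
      intro Q hQ
      rw [hf', Q.ord_mul hf (inv_ne_zero (zpow_ne_zero _ hΨ0)), Place.ord_inv, Place.ord_zpow,
        hΨord Q hQ]
      split_ifs with h
      · rw [hord_orbit Q h]; ring
      · ring
    have hfin' : {Q : Place K F | Q ∈ T ∧ Q.ord f' ≠ 0}.Finite := by
      refine hfin.subset ?_
      rintro Q ⟨hQ, hne⟩
      refine ⟨hQ, ?_⟩
      rw [hf'ord Q hQ] at hne
      split_ifs at hne with h
      · exact absurd rfl hne
      · exact hne
    have hsub : hfin'.toFinset ⊂ hfin.toFinset := by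
      rw [Finset.ssubset_iff_of_subset]
      · refine ⟨Q₁, ?_, ?_⟩
        · rw [Set.Finite.mem_toFinset]; exact ⟨hQ₁T, hQ₁f⟩
        · rw [Set.Finite.mem_toFinset]
          rintro ⟨-, hne⟩
          rw [hf'ord Q₁ hQ₁T, if_pos (s44q_self_mem_orbit Q₁)] at hne
          exact hne rfl
      · intro Q hQ
        rw [Set.Finite.mem_toFinset] at hQ ⊢
        obtain ⟨hQT, hne⟩ := hQ
        refine ⟨hQT, ?_⟩
        rw [hf'ord Q hQT] at hne
        split_ifs at hne with h
        · exact absurd rfl hne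
        · exact hne
    have hsupp' : ∀ Q ∈ T, Q.ord f' ≠ 0 → Q ∈ E := by
      intro Q hQ hne
      apply hsupp Q hQ
      rw [hf'ord Q hQ] at hne
      split_ifs at hne with h
      · exact absurd rfl hne
      · exact hne
    have hdiv' : ∀ Q ∈ T, m ∣ Q.ord f' := by
      intro Q hQ
      rw [hf'ord Q hQ]
      split_ifs
      · exact dvd_zero m
      · exact hdiv Q hQ
    obtain ⟨Φ', hΦ'0, hΦ'inv, hΦ'ord⟩ := ih hfin'.toFinset.card
      (by rw [← hn]; exact Finset.card_lt_card hsub) f' hf'0 hf'inv hfin' hsupp' hdiv' rfl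
    refine ⟨Φ' * Ψ ^ r, mul_ne_zero hΦ'0 (zpow_ne_zero _ hΨ0), ?_, ?_⟩
    · intro g
      rw [smul_mul', s44q_smul_zpow, hΦ'inv g, hΨinv g]
    · intro Q hQ
      rw [Q.ord_mul hΦ'0 (zpow_ne_zero _ hΨ0), Place.ord_zpow, hΨord Q hQ, mul_add,
        ← hΦ'ord Q hQ, hf'ord Q hQ]
      split_ifs with h
      · rw [hord_orbit Q h, hr]; ring
      · ring

end Fermat.Agent.Lib.S44
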