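/-
M-AT-P programme (S44), wall W1 [RAT] (helper9), brick [Q-BC], part 2: PLACES under a finite
Galois constant field extension.

* `s44q_exists_sep_pair`, `s44q_exists_sep_finset`, `s44q_exists_unit_sep` : weak approximation
  (generic): a function with a zero at `v` which is a unit at finitely many other places;
* `s44q_restrict_smul` : restriction of places is invariant under the group;
* **`s44q_exists_smul_of_restrict_eq`** : the group is transitive on the fibres of restriction;
* `s44q_eq_of_restrict_eq_of_fixed` : a fixed place is the only place above its restriction;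
* **`s44q_deg_restrict_eq_one`** : a fixed place of degree one restricts to a place of degree one.
-/
import Fermat.Agent.Lib.S44.QNorm
import Fermat.Agent.Lib.S44.QInv
import Fermat.Agent.Lib.S34.RDescRat
import Fermat.Agent.Lib.S18.UOrd

set_option autoImplicit false
set_option linter.style.haveILetI false
set_option linter.unusedSectionVars false

noncomputable section

namespace Fermat.Agent.Lib.S44

open AlgebraicCurve ModularCurve Fermat.Agent.Lib.S18 Fermat.Agent.Lib.S34 Fermat.Agent.Lib.FF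

/-! ### Weak approximation (generic) -/

section Approx

variable {K F : Type*} [Field K] [Field F] [Algebra K F]

/-- Two distinct places are separated by a function: a zero at `v`, a pole at `w`. -/
theorem s44q_exists_sep_pair {v w : Place K F} (h : v ≠ w) :
    ∃ z : F, z ≠ 0 ∧ 0 < v.ord z ∧ w.ord z < 0 := by
  have h1 : ¬ v.toValuationSubring ≤ w.toValuationSubring := fun hle => h (ff_place_eq_of_le hle)
  have h2 : ¬ w.toValuationSubring ≤ v.toValuationSubring :=
    fun hle => h (ff_place_eq_of_le hle).symm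
  obtain ⟨a, hav, haw⟩ := SetLike.not_le_iff_exists.mp h1
  obtain ⟨b, hbw, hbv⟩ := SetLike.not_le_iff_exists.mp h2
  have ha0 : a ≠ 0 := fun h0 => haw (h0 ▸ w.toValuationSubring.zero_mem)
  have hb0 : b ≠ 0 := fun h0 => hbv (h0 ▸ v.toValuationSubring.zero_mem)
  have e1 : 0 ≤ v.ord a := (ff_mem_iff_ord_nonneg v ha0).mp hav
  have e2 : ¬ 0 ≤ w.ord a := fun hh => haw ((ff_mem_iff_ord_nonneg w ha0).mpr hh)
  have e3 : 0 ≤ w.ord b := (ff_mem_iff_ord_nonneg w hb0).mp hbw
  have e4 : ¬ 0 ≤ v.ord b := fun hh => hbv ((ff_mem_iff_ord_nonneg v hb0).mpr hh)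
  refine ⟨a * b⁻¹, mul_ne_zero ha0 (inv_ne_zero hb0), ?_, ?_⟩
  · rw [v.ord_mul ha0 (inv_ne_zero hb0), v.ord_inv]; omega
  · rw [w.ord_mul ha0 (inv_ne_zero hb0), w.ord_inv]; omega

/-- A function with a zero at `v` and poles at finitely many other places. -/
theorem s44q_exists_sep_finset (v : Place K F) (s : Finset (Place K F)) (hs : v ∉ s) :
    ∃ x : F, x ≠ 0 ∧ 0 < v.ord x ∧ ∀ w ∈ s, w.ord x < 0 := by
  classical
  induction s using Finset.induction_on with
  | empty =>
    obtain ⟨π, hπ0, hπ⟩ := ff_exists_ord_eq_one v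
    exact ⟨π, hπ0, by omega, fun w hw => absurd hw (Finset.notMem_empty w)⟩
  | insert w s hws ih =>
    have hvs : v ∉ s := fun h => hs (Finset.mem_insert_of_mem h)
    have hvw : v ≠ w := fun h => hs (h ▸ Finset.mem_insert_self _ _)
    obtain ⟨x, hx0, hxv, hxs⟩ := ih hvs
    by_cases hxw : w.ord x < 0
    · refine ⟨x, hx0, hxv, fun w' hw' => ?_⟩
      rcases Finset.mem_insert.mp hw' with rfl | h'
      · exact hxw
      · exact hxs w' h'
    · obtain ⟨u, hu0, huv, huw⟩ := s44q_exists_sep_pair hvw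
      -- choose the exponent
      set B : Finset ℕ := insert 0 (s.image (fun w' => (w'.ord x / w'.ord u).toNat)) with hB
      obtain ⟨r, hr⟩ := Infinite.exists_notMem_finset B
      have hr0 : r ≠ 0 := fun h => hr (h ▸ Finset.mem_insert_self _ _)
      have hrs : ∀ w' ∈ s, (r : ℤ) * w'.ord u ≠ w'.ord x := by
        intro w' hw' heq
        apply hr
        refine Finset.mem_insert_of_mem (Finset.mem_image.mpr ⟨w', hw', ?_⟩)
        have hx' := hxs w' hw'
        have hu' : w'.ord u ≠ 0 := by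
          intro h0
          rw [h0, mul_zero] at heq
          omega
        show (w'.ord x / w'.ord u).toNat = r
        rw [← heq, Int.mul_ediv_cancel _ hu']
        simp
      have hur0 : u ^ r ≠ 0 := pow_ne_zero _ hu0
      have hordur : ∀ w' : Place K F, w'.ord (u ^ r) = (r : ℤ) * w'.ord u := by
        intro w'
        have := w'.ord_zpow u (r : ℤ)
        rwa [zpow_natCast] at this
      have hrpos : (0 : ℤ) < r := by omega
      -- the order at `w`
      have hw1 : w.ord (u ^ r + x) = w.ord (u ^ r) := by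
        apply s18u_ord_add_eq w hur0 hx0
        rw [hordur]
        have : (r : ℤ) * w.ord u < 0 := mul_neg_of_pos_of_neg hrpos huw
        omega
      have hw2 : w.ord (u ^ r + x) < 0 := by
        rw [hw1, hordur]
        exact mul_neg_of_pos_of_neg hrpos huw
      have hsum0 : u ^ r + x ≠ 0 := by
        intro h0
        rw [h0, Place.ord_zero] at hw2
        exact lt_irrefl _ hw2
      refine ⟨u ^ r + x, hsum0, ?_, ?_⟩
      · have h1 := ff_ord_add_ge v hur0 hx0 hsum0
        have h2 : 0 < v.ord (u ^ r) := by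
          rw [hordur]; exact mul_pos hrpos huv
        exact lt_of_lt_of_le (lt_min h2 hxv) h1
      · intro w' hw'
        rcases Finset.mem_insert.mp hw' with rfl | h'
        · exact hw2
        · have hx' := hxs w' h'
          have hne := hrs w' h'
          rcases lt_or_gt_of_ne hne with hlt | hgt
          · have := s18u_ord_add_eq w' hur0 hx0 (by rw [hordur]; exact hlt)
            rw [this, hordur]
            omega
          · have := s18u_ord_add_eq w' hx0 hur0 (by rw [hordur]; exact hgt)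
            rw [add_comm, this]
            exact hx'

/-- **Weak approximation**: a function with a zero at `v` which is a unit at finitely many other
places. -/
theorem s44q_exists_unit_sep (v : Place K F) (s : Finset (Place K F)) (hs : v ∉ s) :
    ∃ y : F, y ≠ 0 ∧ 0 < v.ord y ∧ ∀ w ∈ s, w.ord y = 0 := by
  obtain ⟨x, hx0, hxv, hxs⟩ := s44q_exists_sep_finset v s hs
  have h1v : v.ord (1 + x) = 0 := by
    have := s18u_ord_add_eq v (one_ne_zero) hx0 (by rw [Place.ord_one]; exact hxv)
    rw [this, Place.ord_one]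
  have h10 : (1 : F) + x ≠ 0 := by
    intro h0
    have hx1 : x = -1 := eq_neg_of_add_eq_zero_right h0
    have : v.ord x = 0 := by
      rw [hx1]
      have := ff_ord_algebraMap v (-1 : K)
      simpa using this
    omega
  refine ⟨x * (1 + x)⁻¹, mul_ne_zero hx0 (inv_ne_zero h10), ?_, ?_⟩
  · rw [v.ord_mul hx0 (inv_ne_zero h10), v.ord_inv, h1v]
    omega
  · intro w hw
    have hxw := hxs w hw
    have h1w : w.ord (1 + x) = w.ord x := by
      rw [add_comm]
      exact s18u_ord_add_eq w hx0 one_ne_zero (by rw [Place.ord_one]; exact hxw)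
    rw [w.ord_mul hx0 (inv_ne_zero h10), w.ord_inv, h1w]
    omega

end Approx

/-! ### Restriction of places and the group action -/

section Restrict

variable (K₀ : Type*) {K : Type*} [Field K₀] [Field K] [Algebra ℚ K₀] [Algebra ℚ K] [Algebra K₀ K]
  [Algebra.IsAlgebraic K₀ K]
variable (F₀ : IntermediateField ℚ (LaurentSeries ℚ))
variable {Γ : Type*} [Group Γ] {r : Γ →* (K ≃ₐ[ℚ] K)}

local notation "E₀" => (laurentBaseChange K₀ F₀)
local notation "E" => (laurentBaseChange K F₀)
local notation "ι" => (s18q_map (algebraMap K₀ K) F₀)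

/-- Restriction of places is invariant under the group. -/
theorem s44q_restrict_smul
    (hK₀ : ∀ g : Γ, ∀ a : K₀, r g (algebraMap K₀ K a) = algebraMap K₀ K a) (g : Γ)
    (Q : Place K ↥E) :
    s18q_restrictGen K₀ F₀ (s44q_rho F₀ r g • Q) = s18q_restrictGen K₀ F₀ Q := by
  apply Place.ext
  ext y
  rw [s18q_mem_restrictGen, s18q_mem_restrictGen]
  rcases eq_or_ne y 0 with rfl | hy
  · simp
  have hy' : ι y ≠ 0 := (map_ne_zero _).mpr hy
  rw [ff_mem_iff_ord_nonneg _ hy', ff_mem_iff_ord_nonneg _ hy']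
  have h := SemilinearAut.ord_smul (s44q_rho F₀ r g) Q (ι y)
  rw [s44q_rho_map F₀ hK₀] at h
  rw [h]

variable [Fintype Γ]

/-- **Transitivity**: two places with the same restriction are conjugate. -/
theorem s44q_exists_smul_of_restrict_eq
    (hK₀ : ∀ g : Γ, ∀ a : K₀, r g (algebraMap K₀ K a) = algebraMap K₀ K a)
    (hfix : ∀ a : K, (∀ g : Γ, r g a = a) → ∃ a₀ : K₀, algebraMap K₀ K a₀ = a)
    (Q Q' : Place K ↥E)
    (h : s18q_restrictGen K₀ F₀ Q = s18q_restrictGen K₀ F₀ Q') :
    ∃ g : Γ, s44q_rho F₀ r g • Q = Q' := by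
  classical
  by_contra hcon
  push Not at hcon
  set ρ := s44q_rho F₀ r with hρ
  set s : Finset (Place K ↥E) := s44q_orbit ρ Q ∪ (s44q_orbit ρ Q').erase Q' with hs
  have hQ's : Q' ∉ s := by
    rw [hs, Finset.mem_union, not_or]
    refine ⟨fun hmem => ?_, fun hmem => (Finset.mem_erase.mp hmem).1 rfl⟩
    obtain ⟨g, hg⟩ := s44q_mem_orbit.mp hmem
    exact hcon g hg
  obtain ⟨y, hy0, hyQ', hys⟩ := s44q_exists_unit_sep Q' s hQ's
  -- the norm
  set N : ↥E := ∏ g : Γ, ρ g • y with hN
  have hgy0 : ∀ g : Γ, ρ g • y ≠ 0 := fun g => s34r_smul_ne_zero _ hy0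
  have hN0 : N ≠ 0 := Finset.prod_ne_zero_iff.mpr (fun g _ => hgy0 g)
  have hNinv : ∀ g : Γ, ρ g • N = N := by
    intro g
    rw [hN, Finset.smul_prod']
    refine Fintype.prod_equiv (Equiv.mulLeft g) _ _ (fun k => ?_)
    show ρ g • ρ k • y = ρ (g * k) • y
    rw [map_mul, mul_smul]
  obtain ⟨n₀, hn₀⟩ := s44q_inv_descent F₀ hK₀ hfix N hNinv
  have hordN : ∀ P : Place K ↥E, P.ord N = ∑ g : Γ, ((ρ g)⁻¹ • P).ord y := by
    intro P
    rw [hN, s44q_ord_prod P _ _ (fun g _ => hgy0 g)]
    exact Finset.sum_congr rfl (fun g _ => s34r_ord_smul _ _ _)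
  -- order at `Q`: zero
  have hQ : Q.ord N = 0 := by
    rw [hordN]
    refine Finset.sum_eq_zero (fun g _ => hys _ ?_)
    rw [hs, Finset.mem_union]
    left
    refine s44q_mem_orbit.mpr ⟨g⁻¹, ?_⟩
    rw [map_inv]
  -- order at `Q'`: positive
  have hQ' : 0 < Q'.ord N := by
    rw [hordN]
    have hnonneg : ∀ g ∈ (Finset.univ : Finset Γ), 0 ≤ ((ρ g)⁻¹ • Q').ord y := by
      intro g _
      by_cases hgq : (ρ g)⁻¹ • Q' = Q'
      · rw [hgq]; exact hyQ'.le
      · have : (ρ g)⁻¹ • Q' ∈ s := by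
          rw [hs, Finset.mem_union]
          right
          refine Finset.mem_erase.mpr ⟨hgq, s44q_mem_orbit.mpr ⟨g⁻¹, ?_⟩⟩
          rw [map_inv]
        rw [hys _ this]
    have h1 : ((ρ (1 : Γ))⁻¹ • Q').ord y ≤ ∑ g : Γ, ((ρ g)⁻¹ • Q').ord y :=
      Finset.single_le_sum hnonneg (Finset.mem_univ 1)
    have h2 : ((ρ (1 : Γ))⁻¹ • Q').ord y = Q'.ord y := by
      rw [map_one, inv_one, one_smul]
    omega
  -- contradiction through the restriction
  have e1 := s18q_ord_restrictGen K₀ F₀ Q n₀
  have e2 := s18q_ord_restrictGen K₀ F₀ Q' n₀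
  rw [hn₀] at e1 e2
  rw [h] at e1
  omega

/-- A place fixed by the group is the only place above its restriction. -/
theorem s44q_eq_of_restrict_eq_of_fixed
    (hK₀ : ∀ g : Γ, ∀ a : K₀, r g (algebraMap K₀ K a) = algebraMap K₀ K a)
    (hfix : ∀ a : K, (∀ g : Γ, r g a = a) → ∃ a₀ : K₀, algebraMap K₀ K a₀ = a)
    (Q Q' : Place K ↥E) (hQ : ∀ g : Γ, s44q_rho F₀ r g • Q = Q)
    (h : s18q_restrictGen K₀ F₀ Q = s18q_restrictGen K₀ F₀ Q') : Q' = Q := by
  obtain ⟨g, hg⟩ := s44q_exists_smul_of_restrict_eq K₀ F₀ hK₀ hfix Q Q' h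
  rw [← hg, hQ g]

/-- **A fixed place of degree one restricts to a place of degree one.** -/
theorem s44q_deg_restrict_eq_one
    (hK₀ : ∀ g : Γ, ∀ a : K₀, r g (algebraMap K₀ K a) = algebraMap K₀ K a)
    (hfix : ∀ a : K, (∀ g : Γ, r g a = a) → ∃ a₀ : K₀, algebraMap K₀ K a₀ = a)
    (Q : Place K ↥E) (hdeg : Q.deg = 1) (hQ : ∀ g : Γ, s44q_rho F₀ r g • Q = Q) :
    (s18q_restrictGen K₀ F₀ Q).deg = 1 := by
  apply s34q_deg_eq_one_of_const
  intro y hy
  have hy' : ι y ∈ Q.toValuationSubring := (s18q_mem_restrictGen K₀ F₀ Q y).mp hy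
  obtain ⟨c, hc⟩ := s34q_exists_const_of_deg_one Q hdeg (ι y) hy'
  -- `c` is fixed by the group
  have hcfix : ∀ g : Γ, r g c = c := by
    intro g
    have hgy := s44q_rho_map F₀ hK₀ g y
    have hgc : s44q_rho F₀ r g • algebraMap K ↥E c = algebraMap K ↥E (r g c) := by
      rw [s44q_rho_apply, SemilinearAut.smul_algebraMap]
      rfl
    rcases hc with hc | hc
    · have h1 : algebraMap K ↥E (r g c) = algebraMap K ↥E c := by
        rw [← hgc, ← hc, hgy]
      exact (algebraMap K ↥E).injective h1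
    · have h1 := SemilinearAut.ord_smul (s44q_rho F₀ r g) Q (ι y - algebraMap K ↥E c)
      rw [hQ g, smul_sub, hgy, hgc] at h1
      have h2 : 0 < Q.ord (ι y - algebraMap K ↥E (r g c)) := by
        rw [h1]; exact hc
      exact ff_ord_sub_pos_unique Q h2 hc
  obtain ⟨c₀, hc₀⟩ := hfix c hcfix
  refine ⟨c₀, ?_⟩
  have hcc : ι (algebraMap K₀ ↥E₀ c₀) = algebraMap K ↥E c := by
    rw [s18q_map_algebraMap, hc₀]
  rcases hc with hc | hc
  · left
    apply s18q_map_injective (algebraMap K₀ K) F₀
    rw [hcc]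
    exact hc
  · right
    rw [← s18q_ord_restrictGen, map_sub, hcc]
    exact hc

end Restrict

end Fermat.Agent.Lib.S44
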