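/-
M-AT-P programme (S44), wall W1 [RAT] (helper9), brick [Q-CHART]: CHART RINGS under a finite Galois
constant field extension `K / K₀` with group `Γ` (abstract form).

`O₀ i ⊂ 𝓕_{K₀}`, `O i ⊂ 𝓕_K` compatible vertical valuation rings, `S₀`, `S` compatible charts,
`B₀ = s34x_ring (⨅ O₀) S₀`, `B = s34x_ring (⨅ O) S` the chart rings, `Γ` acting on `𝓕_K` with
`(𝓕_K)^Γ = 𝓕_{K₀}`, stabilising the `O i`, and acting trivially modulo a constant `π` ("inertia").

* `s44q_chartHom` : `B₀ →+* B`; it is integral (`s44q_chartHom_isIntegral`), `B^Γ = B₀`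
  (`s44q_ring_inv_descent`);
* `s44q_exists_over` : a maximal ideal of `B` over a given maximal ideal of `B₀`;
* `s44q_smul_mem_ideal` : ideals of `B` containing `π` are `Γ`-stable;
* **`s44q_through_iff`** : for `𝔫' ∋ π` maximal over `𝔫`: `Q` passes through `𝔫'` iff its restriction
  passes through `𝔫` (so there is exactly one closed point above `𝔫`).
-/
import Fermat.Agent.Lib.S44.QPlaces
import Fermat.Agent.Lib.S34.FIface

set_option autoImplicit false
set_option linter.style.haveILetI false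
set_option linter.unusedSectionVars false

noncomputable section

namespace Fermat.Agent.Lib.S44

open AlgebraicCurve ModularCurve Fermat.Agent.Lib.S18 Fermat.Agent.Lib.S34 Fermat.Agent.Lib.FF

section Def

variable (K₀ : Type*) {K : Type*} [Field K₀] [Field K] [Algebra ℚ K₀] [Algebra ℚ K] [Algebra K₀ K]
  [Algebra.IsAlgebraic K₀ K]
variable (F₀ : IntermediateField ℚ (LaurentSeries ℚ))
variable {Γ : Type*} [Group Γ] [Fintype Γ] (r : Γ →* (K ≃ₐ[ℚ] K))

/-- The compatibility data of the two levels. -/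
structure s44q_ChartData (O₀ : Bool → ValuationSubring ↥(laurentBaseChange K₀ F₀))
    (O : Bool → ValuationSubring ↥(laurentBaseChange K F₀))
    (S₀ : Set (Place K₀ ↥(laurentBaseChange K₀ F₀))) (S : Set (Place K ↥(laurentBaseChange K F₀)))
    (π : K) : Prop where
  hK₀ : ∀ g : Γ, ∀ a : K₀, r g (algebraMap K₀ K a) = algebraMap K₀ K a
  hfix : ∀ a : K, (∀ g : Γ, r g a = a) → ∃ a₀ : K₀, algebraMap K₀ K a₀ = a
  hO : ∀ i, ∀ y : ↥(laurentBaseChange K₀ F₀),
    y ∈ O₀ i ↔ s18q_map (algebraMap K₀ K) F₀ y ∈ O i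
  hS : ∀ Q : Place K ↥(laurentBaseChange K F₀), Q ∈ S ↔ s18q_restrictGen K₀ F₀ Q ∈ S₀
  hOst : ∀ g : Γ, ∀ i, ∀ y ∈ O i, s44q_rho F₀ r g • y ∈ O i
  hπ0 : π ≠ 0
  hin : ∀ g : Γ, ∀ i, ∀ y ∈ O i, ∃ z ∈ O i,
    s44q_rho F₀ r g • y - y = algebraMap K ↥(laurentBaseChange K F₀) π * z

end Def

variable {K₀ : Type*} {K : Type*} [Field K₀] [Field K] [Algebra ℚ K₀] [Algebra ℚ K] [Algebra K₀ K]
  [Algebra.IsAlgebraic K₀ K]
variable {F₀ : IntermediateField ℚ (LaurentSeries ℚ)}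
variable {Γ : Type*} [Group Γ] [Fintype Γ] {r : Γ →* (K ≃ₐ[ℚ] K)}

local notation "E₀" => (laurentBaseChange K₀ F₀)
local notation "E" => (laurentBaseChange K F₀)
local notation "ι" => (s18q_map (algebraMap K₀ K) F₀)
local notation "ρ" => (s44q_rho F₀ r)

variable {O₀ : Bool → ValuationSubring ↥(laurentBaseChange K₀ F₀)}
  {O : Bool → ValuationSubring ↥(laurentBaseChange K F₀)}
  {S₀ : Set (Place K₀ ↥(laurentBaseChange K₀ F₀))} {S : Set (Place K ↥(laurentBaseChange K F₀))}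
  {π : K}

/-- the constant `π` in the chart ring upstairs. -/
def s44q_piB (O : Bool → ValuationSubring ↥(laurentBaseChange K F₀))
    (S : Set (Place K ↥(laurentBaseChange K F₀))) (π : K)
    (hπO : ∀ i, algebraMap K ↥(laurentBaseChange K F₀) π ∈ O i) :
    ↥(s34x_ring (s34x_infRing O) S) :=
  ⟨algebraMap K ↥(laurentBaseChange K F₀) π, (s34x_mem_infRing O _).mpr hπO,
    fun Q _ => Q.algebraMap_mem' _⟩

namespace s44q_ChartData

variable (D : s44q_ChartData K₀ F₀ r O₀ O S₀ S π)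
include D

/-- `ι` maps `B₀` into `B`. -/
theorem map_mem_ring {y : ↥E₀} (hy : y ∈ s34x_ring (s34x_infRing O₀) S₀) :
    ι y ∈ s34x_ring (s34x_infRing O) S := by
  refine ⟨(s34x_mem_infRing O _).mpr (fun i => (D.hO i y).mp ((s34x_mem_infRing O₀ y).mp hy.1 i)),
    fun Q hQ => ?_⟩
  exact (s18q_mem_restrictGen K₀ F₀ Q y).mp (hy.2 _ ((D.hS Q).mp hQ))

/-- `B ∩ ι 𝓕_{K₀} = ι B₀`. -/
theorem mem_ring_of_map {y : ↥E₀} (hy : ι y ∈ s34x_ring (s34x_infRing O) S) :
    y ∈ s34x_ring (s34x_infRing O₀) S₀ := by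
  refine ⟨(s34x_mem_infRing O₀ _).mpr (fun i => (D.hO i y).mpr ((s34x_mem_infRing O _).mp hy.1 i)),
    fun Q₀ hQ₀ => ?_⟩
  obtain ⟨Q, rfl⟩ := s18q_restrictGen_surjective K₀ (K := K) F₀ Q₀
  exact (s18q_mem_restrictGen K₀ F₀ Q y).mpr (hy.2 Q ((D.hS Q).mpr hQ₀))

/-- the chart upstairs is stable. -/
theorem smul_mem_chart (g : Γ) {Q : Place K ↥E} (hQ : Q ∈ S) : ρ g • Q ∈ S := by
  rw [D.hS, s44q_restrict_smul K₀ F₀ D.hK₀]
  exact (D.hS Q).mp hQ

/-- the chart ring upstairs is stable. -/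
theorem smul_mem_ring (g : Γ) {b : ↥E} (hb : b ∈ s34x_ring (s34x_infRing O) S) :
    ρ g • b ∈ s34x_ring (s34x_infRing O) S := by
  refine ⟨(s34x_mem_infRing O _).mpr (fun i => D.hOst g i b ((s34x_mem_infRing O b).mp hb.1 i)),
    fun Q hQ => ?_⟩
  have h1 : ρ g⁻¹ • Q ∈ S := D.smul_mem_chart g⁻¹ hQ
  have h2 := hb.2 _ h1
  have h3 := ValuationSubring.smul_mem_pointwise_smul (ρ g) _ (ρ g⁻¹ • Q).toValuationSubring h2
  rw [← SemilinearAut.smul_toValuationSubring, ← mul_smul, ← map_mul, mul_inv_cancel, map_one,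
    one_smul] at h3
  exact h3

/-- **`B^Γ = ι B₀`.** -/
theorem ring_inv_descent {b : ↥E} (hb : b ∈ s34x_ring (s34x_infRing O) S)
    (hinv : ∀ g : Γ, ρ g • b = b) :
    ∃ b₀ : ↥E₀, b₀ ∈ s34x_ring (s34x_infRing O₀) S₀ ∧ ι b₀ = b := by
  obtain ⟨b₀, hb₀⟩ := s44q_inv_descent F₀ D.hK₀ D.hfix b hinv
  exact ⟨b₀, D.mem_ring_of_map (by rw [hb₀]; exact hb), hb₀⟩

/-- The homomorphism of chart rings. -/
def chartHom : ↥(s34x_ring (s34x_infRing O₀) S₀) →+* ↥(s34x_ring (s34x_infRing O) S) :=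
  ((ι : ↥E₀ →+* ↥E).comp (s34x_ring (s34x_infRing O₀) S₀).subtype).codRestrict
    (s34x_ring (s34x_infRing O) S) (fun y => D.map_mem_ring y.2)

theorem chartHom_coe (y : ↥(s34x_ring (s34x_infRing O₀) S₀)) :
    ((D.chartHom y : ↥(s34x_ring (s34x_infRing O) S)) : ↥E) = ι (y : ↥E₀) := rfl

/-- The action of `Γ` on the chart ring upstairs. -/
def smulB (g : Γ) (b : ↥(s34x_ring (s34x_infRing O) S)) : ↥(s34x_ring (s34x_infRing O) S) :=
  ⟨ρ g • (b : ↥E), D.smul_mem_ring g b.2⟩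

theorem smulB_coe (g : Γ) (b : ↥(s34x_ring (s34x_infRing O) S)) :
    ((D.smulB g b : ↥(s34x_ring (s34x_infRing O) S)) : ↥E) = ρ g • (b : ↥E) := rfl

/-- The chart ring upstairs is integral over the chart ring downstairs. -/
theorem chartHom_isIntegral : (D.chartHom).IsIntegral := by
  classical
  letI : MulSemiringAction Γ ↥(s34x_ring (s34x_infRing O) S) :=
    { smul := D.smulB
      one_smul := fun b => Subtype.ext (by show ρ (1 : Γ) • (b : ↥E) = b; rw [map_one, one_smul])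
      mul_smul := fun g h b => Subtype.ext (by
        show ρ (g * h) • (b : ↥E) = ρ g • ρ h • (b : ↥E)
        rw [map_mul, mul_smul])
      smul_zero := fun g => Subtype.ext (by show ρ g • (0 : ↥E) = 0; exact smul_zero _)
      smul_add := fun g a b => Subtype.ext (by
        show ρ g • ((a : ↥E) + b) = ρ g • (a : ↥E) + ρ g • (b : ↥E)
        exact smul_add _ _ _)
      smul_one := fun g => Subtype.ext (by show ρ g • (1 : ↥E) = 1; exact smul_one _)
      smul_mul := fun g a b => Subtype.ext (by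
        show ρ g • ((a : ↥E) * b) = ρ g • (a : ↥E) * ρ g • (b : ↥E)
        exact smul_mul' _ _ _) }
  letI : Algebra ↥(s34x_ring (s34x_infRing O₀) S₀) ↥(s34x_ring (s34x_infRing O) S) :=
    (D.chartHom).toAlgebra
  haveI : Algebra.IsInvariant ↥(s34x_ring (s34x_infRing O₀) S₀)
      ↥(s34x_ring (s34x_infRing O) S) Γ := by
    refine ⟨fun b hb => ?_⟩
    have hb' : ∀ g : Γ, ρ g • (b : ↥E) = b := fun g => congrArg Subtype.val (hb g)
    obtain ⟨b₀, hb₀, e⟩ := D.ring_inv_descent b.2 hb'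
    exact ⟨⟨b₀, hb₀⟩, Subtype.ext e⟩
  have h := Algebra.IsInvariant.isIntegral ↥(s34x_ring (s34x_infRing O₀) S₀)
    ↥(s34x_ring (s34x_infRing O) S) Γ
  exact h.isIntegral

theorem chartHom_injective : Function.Injective D.chartHom := by
  intro a b hab
  apply Subtype.ext
  apply s18q_map_injective (algebraMap K₀ K) F₀
  exact congrArg Subtype.val hab

/-- **Lying over**: a maximal ideal upstairs over a given maximal ideal downstairs. -/
theorem exists_over (𝔫 : Ideal ↥(s34x_ring (s34x_infRing O₀) S₀)) [h𝔫 : 𝔫.IsMaximal] :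
    ∃ 𝔫' : Ideal ↥(s34x_ring (s34x_infRing O) S), 𝔫'.IsMaximal ∧ 𝔫'.comap D.chartHom = 𝔫 := by
  letI : Algebra ↥(s34x_ring (s34x_infRing O₀) S₀) ↥(s34x_ring (s34x_infRing O) S) :=
    (D.chartHom).toAlgebra
  haveI : Algebra.IsIntegral ↥(s34x_ring (s34x_infRing O₀) S₀)
      ↥(s34x_ring (s34x_infRing O) S) := ⟨D.chartHom_isIntegral⟩
  have hker : RingHom.ker (algebraMap ↥(s34x_ring (s34x_infRing O₀) S₀)
      ↥(s34x_ring (s34x_infRing O) S)) ≤ 𝔫 := by
    have : RingHom.ker (algebraMap ↥(s34x_ring (s34x_infRing O₀) S₀)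
        ↥(s34x_ring (s34x_infRing O) S)) = ⊥ :=
      (RingHom.injective_iff_ker_eq_bot _).mp D.chartHom_injective
    rw [this]
    exact bot_le
  exact Ideal.exists_ideal_over_maximal_of_isIntegral 𝔫 hker

/-- **Inertia**: an ideal upstairs containing `π` is stable under the group. -/
theorem smul_mem_ideal (hπO : ∀ i, algebraMap K ↥E π ∈ O i)
    (𝔫' : Ideal ↥(s34x_ring (s34x_infRing O) S)) (hπ𝔫 : s44q_piB O S π hπO ∈ 𝔫') (g : Γ)
    {b : ↥(s34x_ring (s34x_infRing O) S)} (hb : b ∈ 𝔫') : D.smulB g b ∈ 𝔫' := by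
  have hπE : algebraMap K ↥E π ≠ 0 := by
    rw [Ne, map_eq_zero]; exact D.hπ0
  -- the quotient `z = (g b - b) / π` lies in `B`
  set z : ↥E := (ρ g • (b : ↥E) - b) * (algebraMap K ↥E π)⁻¹ with hz
  have hzeq : ρ g • (b : ↥E) - b = algebraMap K ↥E π * z := by
    rw [hz, mul_comm, mul_assoc, inv_mul_cancel₀ hπE, mul_one]
  have hzO : z ∈ s34x_infRing O := by
    rw [s34x_mem_infRing]
    intro i
    obtain ⟨z', hz', e⟩ := D.hin g i b ((s34x_mem_infRing O _).mp b.2.1 i)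
    have : z = z' := by
      rw [hz, e, mul_comm, ← mul_assoc, inv_mul_cancel₀ hπE, one_mul]
    rw [this]
    exact hz'
  have hzS : ∀ Q ∈ S, z ∈ Q.toValuationSubring := by
    intro Q hQ
    have h1 : ρ g • (b : ↥E) - b ∈ Q.toValuationSubring :=
      sub_mem ((D.smul_mem_ring g b.2).2 Q hQ) (b.2.2 Q hQ)
    have h2 : (algebraMap K ↥E π)⁻¹ ∈ Q.toValuationSubring := by
      rw [← map_inv₀]
      exact Q.algebraMap_mem' _
    exact Q.toValuationSubring.mul_mem _ _ h1 h2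
  have hzB : z ∈ s34x_ring (s34x_infRing O) S := ⟨hzO, hzS⟩
  have e : D.smulB g b = b + s44q_piB O S π hπO * ⟨z, hzB⟩ := by
    apply Subtype.ext
    show ρ g • (b : ↥E) = b + algebraMap K ↥E π * z
    rw [← hzeq]; ring
  rw [e]
  exact 𝔫'.add_mem hb (𝔫'.mul_mem_right _ hπ𝔫)

/-- **One closed point above `𝔫`**: `Q` passes through `𝔫'` iff its restriction passes through
`𝔫 = 𝔫' ∩ B₀`. -/
theorem through_iff (hπO : ∀ i, algebraMap K ↥E π ∈ O i)
    (𝔫' : Ideal ↥(s34x_ring (s34x_infRing O) S)) [h𝔫' : 𝔫'.IsPrime] (hπ𝔫 : s44q_piB O S π hπO ∈ 𝔫')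
    (Q : Place K ↥E) (hQ : Q ∈ S) :
    s34f_through (s34x_infRing O) S 𝔫' Q ↔
      s34f_through (s34x_infRing O₀) S₀ (𝔫'.comap D.chartHom) (s18q_restrictGen K₀ F₀ Q) := by
  classical
  constructor
  · intro hth b₀ hb₀0 hb₀
    rw [Ideal.mem_comap]
    apply hth (D.chartHom b₀)
    · rw [D.chartHom_coe]
      exact (map_ne_zero _).mpr hb₀0
    · rw [D.chartHom_coe, s18q_ord_restrictGen]
      exact hb₀
  · intro hth b hb0 hb
    -- the norm of `b`
    set N : ↥(s34x_ring (s34x_infRing O) S) := ∏ g : Γ, D.smulB g b with hN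
    have hNcoe : (N : ↥E) = ∏ g : Γ, ρ g • (b : ↥E) := by
      rw [hN]
      have h := map_prod (s34x_ring (s34x_infRing O) S).subtype (fun g => D.smulB g b) Finset.univ
      simpa only [Subring.coe_subtype, D.smulB_coe] using h
    have hgb0 : ∀ g : Γ, ρ g • (b : ↥E) ≠ 0 := fun g => s34r_smul_ne_zero _ hb0
    have hN0 : (N : ↥E) ≠ 0 := by
      rw [hNcoe]; exact Finset.prod_ne_zero_iff.mpr (fun g _ => hgb0 g)
    have hNinv : ∀ g : Γ, ρ g • (N : ↥E) = N := by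
      intro g
      rw [hNcoe, Finset.smul_prod']
      refine Fintype.prod_equiv (Equiv.mulLeft g) _ _ (fun k => ?_)
      show ρ g • ρ k • (b : ↥E) = ρ (g * k) • (b : ↥E)
      rw [map_mul, mul_smul]
    obtain ⟨n₀, hn₀B, hn₀⟩ := D.ring_inv_descent N.2 hNinv
    have hordN : 0 < Q.ord (N : ↥E) := by
      rw [hNcoe, s44q_ord_prod Q _ _ (fun g _ => hgb0 g)]
      have hnonneg : ∀ g ∈ (Finset.univ : Finset Γ), 0 ≤ Q.ord (ρ g • (b : ↥E)) := by
        intro g _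
        exact (ff_mem_iff_ord_nonneg Q (hgb0 g)).mp ((D.smul_mem_ring g b.2).2 Q hQ)
      have h1 : Q.ord (ρ (1 : Γ) • (b : ↥E)) ≤ ∑ g : Γ, Q.ord (ρ g • (b : ↥E)) :=
        Finset.single_le_sum hnonneg (Finset.mem_univ 1)
      rw [map_one, one_smul] at h1
      omega
    have hn₀0 : n₀ ≠ 0 := by
      rintro rfl
      rw [map_zero] at hn₀
      exact hN0 hn₀.symm
    have hn₀mem : (⟨n₀, hn₀B⟩ : ↥(s34x_ring (s34x_infRing O₀) S₀)) ∈ 𝔫'.comap D.chartHom := by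
      apply hth ⟨n₀, hn₀B⟩ hn₀0
      show 0 < (s18q_restrictGen K₀ F₀ Q).ord n₀
      rw [← s18q_ord_restrictGen, hn₀]
      exact hordN
    have hNmem : N ∈ 𝔫' := by
      have : D.chartHom ⟨n₀, hn₀B⟩ = N := Subtype.ext hn₀
      rw [← this]
      exact hn₀mem
    rw [hN] at hNmem
    obtain ⟨g, -, hg⟩ := (Ideal.IsPrime.prod_mem_iff).mp hNmem
    have := D.smul_mem_ideal hπO 𝔫' hπ𝔫 g⁻¹ hg
    have e : D.smulB g⁻¹ (D.smulB g b) = b := by
      apply Subtype.ext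
      show ρ g⁻¹ • ρ g • (b : ↥E) = b
      rw [map_inv, inv_smul_smul]
    rwa [e] at this

end s44q_ChartData

end Fermat.Agent.Lib.S44
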