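/-
M-AT-P programme (S44), wall W1 [RAT] (helper9), brick [Q-B2]: THE GEOMETRIC INPUT (B2) OF THE ABSTRACT
TOP THEOREM from chart data and the "almost all" contract downstairs.

`D : s44q_ChartData K₀ F₀ r O₀ O S₀ S π` (a finite Galois constant field extension `K / K₀` with group
`Γ` acting as inertia), `𝔫' ∋ π` a prime of the chart ring upstairs, `𝔫₀ = 𝔫' ∩ B₀`,
`T = {Q ∈ S | Q through 𝔫'}`.  If downstairs at most one place of degree one through `𝔫₀` has no local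
equation (`s34f_AlmostAll`), then upstairs at most one `Γ`-FIXED place of degree one of `T` has no
`Γ`-INVARIANT local equation relative to `T`.
-/
import Fermat.Agent.Lib.S44.QChart
import Fermat.Agent.Lib.S34.FContract

set_option autoImplicit false
set_option linter.style.haveILetI false
set_option linter.unusedSectionVars false

noncomputable section

namespace Fermat.Agent.Lib.S44

open AlgebraicCurve ModularCurve Fermat.Agent.Lib.S18 Fermat.Agent.Lib.S34 Fermat.Agent.Lib.FF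

variable {K₀ : Type*} {K : Type*} [Field K₀] [Field K] [Algebra ℚ K₀] [Algebra ℚ K] [Algebra K₀ K]
  [Algebra.IsAlgebraic K₀ K]
variable {F₀ : IntermediateField ℚ (LaurentSeries ℚ)}
variable {Γ : Type*} [Group Γ] [Fintype Γ] {r : Γ →* (K ≃ₐ[ℚ] K)}

local notation "E₀" => (laurentBaseChange K₀ F₀)
local notation "E" => (laurentBaseChange K F₀)
local notation "ι" => (s18q_map (algebraMap K₀ K) F₀)
local notation "ρ" => (s44q_rho F₀ r)

variable {O₀ : Bool → ValuationSubring ↥(laurentBaseChange K₀ F₀)}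
  {O : Bool → ValuationSubring ↥(laurentBaseChange K F₀)}
  {S₀ : Set (Place K₀ ↥(laurentBaseChange K₀ F₀))} {S : Set (Place K ↥(laurentBaseChange K F₀))}
  {π : K}

namespace s44q_ChartData

variable (D : s44q_ChartData K₀ F₀ r O₀ O S₀ S π)
include D

/-- A local equation downstairs of the restriction of a fixed place gives an invariant local
equation upstairs. -/
theorem locEqOn_of_locEq (hπO : ∀ i, algebraMap K ↥E π ∈ O i)
    (𝔫' : Ideal ↥(s34x_ring (s34x_infRing O) S)) [h𝔫' : 𝔫'.IsPrime]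
    (hπ𝔫 : s44q_piB O S π hπO ∈ 𝔫')
    (Q : Place K ↥E) (hfix : ∀ g : Γ, ρ g • Q = Q)
    (hle : s34f_LocEq (s34x_infRing O₀) S₀ (𝔫'.comap D.chartHom) (s18q_restrictGen K₀ F₀ Q)) :
    ∃ φ : ↥E, s44q_LocEqOn {Q' | Q' ∈ S ∧ s34f_through (s34x_infRing O) S 𝔫' Q'} Q φ ∧
      ∀ g : Γ, ρ g • φ = φ := by
  obtain ⟨φ₀, hφ0, hφ1, hφ⟩ := hle
  refine ⟨ι φ₀, ⟨(map_ne_zero _).mpr hφ0, ?_, ?_⟩, fun g => s44q_rho_map F₀ D.hK₀ g φ₀⟩
  · rw [s18q_ord_restrictGen]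
    exact hφ1
  · rintro Q' ⟨hQ'S, hQ'th⟩ hne
    rw [s18q_ord_restrictGen]
    refine hφ _ ((D.hS Q').mp hQ'S) ?_ ((D.through_iff hπO 𝔫' hπ𝔫 Q' hQ'S).mp hQ'th)
    intro heq
    exact hne (s44q_eq_of_restrict_eq_of_fixed K₀ F₀ D.hK₀ D.hfix Q Q' hfix heq.symm)

/-- **(B2) from the contract downstairs.** -/
theorem b2_of_almostAll (hπO : ∀ i, algebraMap K ↥E π ∈ O i)
    (𝔫' : Ideal ↥(s34x_ring (s34x_infRing O) S)) [h𝔫' : 𝔫'.IsPrime]
    (hπ𝔫 : s44q_piB O S π hπO ∈ 𝔫')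
    (hAA : s34f_AlmostAll (s34x_infRing O₀) S₀ (𝔫'.comap D.chartHom))
    (Q Q' : Place K ↥E) (hQ : Q ∈ S) (hQ' : Q' ∈ S)
    (hth : s34f_through (s34x_infRing O) S 𝔫' Q) (hth' : s34f_through (s34x_infRing O) S 𝔫' Q')
    (hdeg : Q.deg = 1) (hdeg' : Q'.deg = 1)
    (hfix : ∀ g : Γ, ρ g • Q = Q) (hfix' : ∀ g : Γ, ρ g • Q' = Q')
    (hno : ¬ ∃ φ : ↥E, s44q_LocEqOn {Q' | Q' ∈ S ∧ s34f_through (s34x_infRing O) S 𝔫' Q'} Q φ ∧
      ∀ g : Γ, ρ g • φ = φ)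
    (hno' : ¬ ∃ φ : ↥E, s44q_LocEqOn {Q' | Q' ∈ S ∧ s34f_through (s34x_infRing O) S 𝔫' Q'} Q' φ ∧
      ∀ g : Γ, ρ g • φ = φ) :
    Q = Q' := by
  have h1 : s18q_restrictGen K₀ F₀ Q = s18q_restrictGen K₀ F₀ Q' :=
    hAA _ ((D.hS Q).mp hQ) _ ((D.hS Q').mp hQ')
      ((D.through_iff hπO 𝔫' hπ𝔫 Q hQ).mp hth) ((D.through_iff hπO 𝔫' hπ𝔫 Q' hQ').mp hth')
      (s44q_deg_restrict_eq_one K₀ F₀ D.hK₀ D.hfix Q hdeg hfix)
      (s44q_deg_restrict_eq_one K₀ F₀ D.hK₀ D.hfix Q' hdeg' hfix')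
      (fun hle => hno (D.locEqOn_of_locEq hπO 𝔫' hπ𝔫 Q hfix hle))
      (fun hle => hno' (D.locEqOn_of_locEq hπO 𝔫' hπ𝔫 Q' hfix' hle))
  exact (s44q_eq_of_restrict_eq_of_fixed K₀ F₀ D.hK₀ D.hfix Q Q' hfix h1).symm

end s44q_ChartData

end Fermat.Agent.Lib.S44
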