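/-
M-AT-P programme (S44), wall W1 [RAT] (helper9), brick [Q-NORM2]: TWO-STAGE NORM DESCENT.

`QNorm.lean` needs a stabiliser-invariant local equation at every zero and pole.  In the application
such equations come from the chart contract over the stabiliser field, which may fail at one
"exceptional" (bad) place.  Here:

* stage 1: descent over a subgroup `P` (a Sylow `p`-subgroup in the application) away from an
  exceptional set `Exc` of `P`-fixed places;
* stage 2: the coset norm `∏_{c ∈ G/P} c Φ_P` and Bézout (`[G : P]` prime to `p`).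

* `s44q_cosetNorm`, `s44q_cosetNorm_smul`, `s44q_ord_cosetNorm` : the coset norm;
* **`s44q_norm_descent_two`** : the two-stage descent;
* `s44q_fixed_of_normalizer` : in a finite `p`-group a self-normalising stabiliser is everything.
-/
import Fermat.Agent.Lib.S44.QNorm

set_option autoImplicit false
set_option linter.style.haveILetI false

noncomputable section

namespace Fermat.Agent.Lib.S44

open AlgebraicCurve Fermat.Agent.Lib.S34

variable {K F : Type*} [Field K] [Field F] [Algebra K F]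
variable {G : Type*} [Group G] [Fintype G] {ρ : G →* SemilinearAut K F}

/-! ### The coset norm -/

section Coset

variable (P : Subgroup G) (ρ)

/-- The product of the translates of `y` over representatives of the left cosets of `P`. -/
def s44q_cosetNorm (y : F) : F :=
  letI : Fintype (G ⧸ P) := Fintype.ofFinite _
  ∏ c : G ⧸ P, ρ (Quotient.out c) • y

variable {P ρ}

theorem s44q_cosetNorm_ne_zero {y : F} (hy : y ≠ 0) : s44q_cosetNorm ρ P y ≠ 0 := by
  unfold s44q_cosetNorm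
  exact Finset.prod_ne_zero_iff.mpr (fun c _ => s34r_smul_ne_zero _ hy)

omit [Fintype G] in
/-- translates by elements of the same left coset agree on a `P`-invariant element. -/
theorem s44q_smul_eq_of_coset {y : F} (hy : ∀ g ∈ P, ρ g • y = y) {a b : G}
    (hab : (a : G ⧸ P) = (b : G ⧸ P)) : ρ a • y = ρ b • y := by
  have h1 : a⁻¹ * b ∈ P := QuotientGroup.eq.mp hab
  have h2 : b = a * (a⁻¹ * b) := by group
  rw [h2, map_mul, mul_smul, hy _ h1]

/-- The coset norm of a `P`-invariant element is `G`-invariant. -/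
theorem s44q_cosetNorm_smul {y : F} (hy : ∀ g ∈ P, ρ g • y = y) (g : G) :
    ρ g • s44q_cosetNorm ρ P y = s44q_cosetNorm ρ P y := by
  classical
  letI : Fintype (G ⧸ P) := Fintype.ofFinite _
  unfold s44q_cosetNorm
  rw [Finset.smul_prod']
  have hstep : ∀ c : G ⧸ P, ρ g • ρ (Quotient.out c) • y = ρ (Quotient.out (g • c)) • y := by
    intro c
    rw [← mul_smul, ← map_mul]
    apply s44q_smul_eq_of_coset hy
    have h1 : ((Quotient.out (g • c) : G) : G ⧸ P) = g • c := QuotientGroup.out_eq' _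
    have h2 : ((g * Quotient.out c : G) : G ⧸ P) = g • c := by
      conv_rhs => rw [← QuotientGroup.out_eq' c]
      rfl
    rw [h1, h2]
  have hconv : ∀ c : G ⧸ P, ρ g • ρ (Quotient.out c) • y =
      (fun d : G ⧸ P => ρ (Quotient.out d) • y) (g • c) := hstep
  calc ∏ c : G ⧸ P, ρ g • ρ (Quotient.out c) • y
      = ∏ c : G ⧸ P, (fun d : G ⧸ P => ρ (Quotient.out d) • y) (g • c) :=
        Finset.prod_congr rfl (fun c _ => hconv c)
    _ = ∏ d : G ⧸ P, ρ (Quotient.out d) • y :=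
        Fintype.prod_equiv (MulAction.toPerm g) _ _ (fun c => rfl)

/-- The order of the coset norm. -/
theorem s44q_ord_cosetNorm {y : F} (hy : y ≠ 0) (Q : Place K F) :
    letI : Fintype (G ⧸ P) := Fintype.ofFinite _
    Q.ord (s44q_cosetNorm ρ P y) = ∑ c : G ⧸ P, ((ρ (Quotient.out c))⁻¹ • Q).ord y := by
  classical
  letI : Fintype (G ⧸ P) := Fintype.ofFinite _
  unfold s44q_cosetNorm
  rw [s44q_ord_prod Q _ _ (fun c _ => s34r_smul_ne_zero _ hy)]
  exact Finset.sum_congr rfl (fun c _ => s34r_ord_smul _ _ _)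

end Coset

/-! ### The two-stage descent -/

/-- **TWO-STAGE NORM DESCENT.**  `P ≤ G` of index prime to `p`; `Exc` a set of `P`-fixed places;
every zero or pole of the `G`-invariant `f` in `T` outside `Exc` has a local equation relative to
`T ∖ Exc`, invariant under its stabiliser in `P`.  Then `f` has a `G`-invariant local `p`-th root
on the places of `T` whose `G`-orbit avoids `Exc`. -/
theorem s44q_norm_descent_two {T : Set (Place K F)} (hT : s44q_Stable ρ T) (P : Subgroup G)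
    (p : ℕ) (hcop : Nat.Coprime P.index p) (Exc : Place K F → Prop)
    (hExcFix : ∀ Q ∈ T, Exc Q → ∀ g ∈ P, ρ g • Q = Q)
    (f : F) (hf : f ≠ 0) (hinv : ∀ g : G, ρ g • f = f)
    (hfin : {Q : Place K F | Q ∈ T ∧ Q.ord f ≠ 0}.Finite)
    (hdiv : ∀ Q ∈ T, (p : ℤ) ∣ Q.ord f)
    (hloc : ∀ Q ∈ T, Q.ord f ≠ 0 → ¬ Exc Q →
      ∃ φ : F, s44q_LocEqOn {Q' | Q' ∈ T ∧ ¬ Exc Q'} Q φ ∧
        ∀ g ∈ P, ρ g • Q = Q → ρ g • φ = φ) :
    ∃ Φ : F, Φ ≠ 0 ∧ (∀ g : G, ρ g • Φ = Φ) ∧
      ∀ Q ∈ T, (∀ g : G, ¬ Exc (ρ g • Q)) → Q.ord f = (p : ℤ) * Q.ord Φ := by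
  classical
  letI : Fintype (G ⧸ P) := Fintype.ofFinite _
  -- stage 1: descent over `P` on `T' = T ∖ Exc`
  set ρP : ↥P →* SemilinearAut K F := ρ.comp P.subtype with hρP
  set T' : Set (Place K F) := {Q' | Q' ∈ T ∧ ¬ Exc Q'} with hT'
  have hT'st : s44q_Stable ρP T' := by
    intro g Q hQ
    refine ⟨hT g.1 Q hQ.1, fun hexc => hQ.2 ?_⟩
    change Exc (ρ g.1 • Q) at hexc
    have hfix := hExcFix (ρ g.1 • Q) (hT g.1 Q hQ.1) hexc g.1⁻¹ (P.inv_mem g.2)
    rw [map_inv, inv_smul_smul] at hfix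
    rw [hfix]
    exact hexc
  obtain ⟨ΦP, hΦP0, hΦPinv, hΦPord⟩ := s44q_norm_descent (ρ := ρP) hT'st
    {Q | Q ∈ T' ∧ Q.ord f ≠ 0}
    (by
      rintro Q ⟨⟨hQT, hQE⟩, hQf⟩
      obtain ⟨φ, hφ, hst⟩ := hloc Q hQT hQf hQE
      exact ⟨φ, hφ, fun g hg => hst g.1 g.2 hg⟩)
    (p : ℤ) f hf (fun g => hinv g.1)
    (hfin.subset (fun Q hQ => ⟨hQ.1.1, hQ.2⟩))
    (fun Q hQ hQf => ⟨hQ, hQf⟩) (fun Q hQ => hdiv Q hQ.1)
  have hΦPinv' : ∀ g ∈ P, ρ g • ΦP = ΦP := fun g hg => hΦPinv ⟨g, hg⟩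
  -- stage 2: coset norm and Bézout
  set N := s44q_cosetNorm ρ P ΦP with hN
  have hN0 : N ≠ 0 := s44q_cosetNorm_ne_zero hΦP0
  have hNinv : ∀ g : G, ρ g • N = N := s44q_cosetNorm_smul hΦPinv'
  have hNord : ∀ Q ∈ T, (∀ g : G, ¬ Exc (ρ g • Q)) →
      (p : ℤ) * Q.ord N = (P.index : ℤ) * Q.ord f := by
    intro Q hQ hQE
    rw [hN, s44q_ord_cosetNorm hΦP0, Finset.mul_sum]
    have hterm : ∀ c : G ⧸ P, (p : ℤ) * ((ρ (Quotient.out c))⁻¹ • Q).ord ΦP = Q.ord f := by
      intro c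
      have hmem : (ρ (Quotient.out c))⁻¹ • Q ∈ T' := by
        refine ⟨hT.inv_mem _ hQ, ?_⟩
        have := hQE (Quotient.out c)⁻¹
        rwa [map_inv] at this
      rw [← hΦPord _ hmem]
      have h := s44q_ord_smul_of_inv hinv (Quotient.out c)⁻¹ Q
      rwa [map_inv] at h
    rw [Finset.sum_congr rfl (fun c _ => hterm c), Finset.sum_const, Finset.card_univ,
      nsmul_eq_mul]
    congr 1
    rw [Subgroup.index, Nat.card_eq_fintype_card]
  -- Bézout
  have hcop' : IsCoprime (P.index : ℤ) (p : ℤ) := Nat.isCoprime_iff_coprime.mpr hcop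
  obtain ⟨a, b, hab⟩ := hcop'
  refine ⟨N ^ a * f ^ b, mul_ne_zero (zpow_ne_zero _ hN0) (zpow_ne_zero _ hf), ?_, ?_⟩
  · intro g
    rw [smul_mul', s44q_smul_zpow, s44q_smul_zpow, hNinv g, hinv g]
  · intro Q hQ hQE
    rw [Q.ord_mul (zpow_ne_zero _ hN0) (zpow_ne_zero _ hf), Place.ord_zpow, Place.ord_zpow]
    have h1 := hNord Q hQ hQE
    calc Q.ord f = (a * (P.index : ℤ) + b * (p : ℤ)) * Q.ord f := by rw [hab, one_mul]
      _ = a * ((P.index : ℤ) * Q.ord f) + (p : ℤ) * (b * Q.ord f) := by ring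
      _ = a * ((p : ℤ) * Q.ord N) + (p : ℤ) * (b * Q.ord f) := by rw [h1]
      _ = (p : ℤ) * (a * Q.ord N + b * Q.ord f) := by ring

/-! ### Self-normalising stabilisers in `p`-groups -/

omit [Fintype G] in
/-- In a finite `p`-group `P`, a place whose stabiliser in `P` is self-normalising is fixed by all
of `P`. -/
theorem s44q_fixed_of_normalizer [Finite G] (P : Subgroup G) (p : ℕ) [Fact p.Prime]
    (hP : IsPGroup p ↥P) (Q : Place K F)
    (hnorm : ∀ g ∈ P, (∀ h ∈ P, ρ h • Q = Q → ρ (g * h * g⁻¹) • Q = Q) →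
      (∀ h ∈ P, ρ h • Q = Q → ρ (g⁻¹ * h * g) • Q = Q) → ρ g • Q = Q) :
    ∀ g ∈ P, ρ g • Q = Q := by
  classical
  set S : Subgroup ↥P :=
    { carrier := {g | ρ g.1 • Q = Q}
      one_mem' := by simp
      mul_mem' := by
        intro a b ha hb
        show ρ (a * b : ↥P).1 • Q = Q
        rw [Subgroup.coe_mul, map_mul, mul_smul, hb, ha]
      inv_mem' := by
        intro a ha
        show ρ (a⁻¹ : ↥P).1 • Q = Q
        rw [Subgroup.coe_inv, map_inv]
        conv_lhs => rw [← ha]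
        rw [inv_smul_smul] } with hS
  have hnil : Group.IsNilpotent ↥P := hP.isNilpotent
  have hNC : NormalizerCondition ↥P := Group.normalizerCondition_of_isNilpotent
  have htop : S = ⊤ := by
    by_contra hne
    have hlt : S < ⊤ := lt_top_iff_ne_top.mpr hne
    have h1 := hNC S hlt
    obtain ⟨g, hgN, hgS⟩ := SetLike.exists_of_lt h1
    apply hgS
    rw [Subgroup.mem_normalizer_iff] at hgN
    show ρ g.1 • Q = Q
    apply hnorm g.1 g.2
    · intro h hh hfix
      have := (hgN ⟨h, hh⟩).mp hfix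
      exact this
    · intro h hh hfix
      have h2 := (hgN (g⁻¹ * ⟨h, hh⟩ * g)).mpr
      apply h2
      show ρ ((g * (g⁻¹ * ⟨h, hh⟩ * g) * g⁻¹ : ↥P) : G) • Q = Q
      have : (g * (g⁻¹ * ⟨h, hh⟩ * g) * g⁻¹ : ↥P) = ⟨h, hh⟩ := by group
      rw [this]
      exact hfix
  intro g hg
  have : (⟨g, hg⟩ : ↥P) ∈ S := by rw [htop]; trivial
  exact this

end Fermat.Agent.Lib.S44
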