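/-
M-AT-P programme (S44), wall W1 [RAT] (helper9), brick [Q-EXACT]: REALISATION OF INVARIANT LOCAL
DIVISORS and the EXACT two-stage descent (helper7's repair of the exceptional place, #2160).

* **`s44q_realise`** : an invariant, finitely supported integer function `n` on a stable set `T` of
  places, all of whose support points have stabiliser-invariant local equations relative to `T`, is
  the order function on `T` of an invariant function.
* **`s44q_exact_descent`** : `P ≤ G` of index prime to `p`, `Exc` a set of `P`-fixed places with at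
  most one element in `T`; the `G`-invariant `f` (orders on `T` divisible by `p`) and an auxiliary
  `G`-invariant `u` of order `1` at the exceptional place have local equations at all their zeros and
  poles in `T ∖ Exc`.  Then `f` has a `G`-invariant EXACT local `p`-th root on ALL of `T`.
-/
import Fermat.Agent.Lib.S44.QNorm2

set_option autoImplicit false
set_option linter.style.haveILetI false
set_option linter.unusedSectionVars false

noncomputable section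

namespace Fermat.Agent.Lib.S44

open AlgebraicCurve Fermat.Agent.Lib.S34

variable {K F : Type*} [Field K] [Field F] [Algebra K F]
variable {G : Type*} [Group G] [Fintype G] {ρ : G →* SemilinearAut K F}

/-- membership in an orbit is invariant. -/
theorem s44q_smul_mem_orbit_iff {Q Q' : Place K F} (g : G) :
    ρ g • Q' ∈ s44q_orbit ρ Q ↔ Q' ∈ s44q_orbit ρ Q := by
  constructor
  · intro h
    have := s44q_smul_mem_orbit h g⁻¹
    rwa [map_inv, inv_smul_smul] at this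
  · intro h
    exact s44q_smul_mem_orbit h g

/-- **REALISATION.** -/
theorem s44q_realise {T : Set (Place K F)} (hT : s44q_Stable ρ T) (n : Place K F → ℤ)
    (hninv : ∀ g : G, ∀ Q ∈ T, n (ρ g • Q) = n Q)
    (hfin : {Q : Place K F | Q ∈ T ∧ n Q ≠ 0}.Finite)
    (hE : ∀ Q ∈ T, n Q ≠ 0 →
      ∃ φ : F, s44q_LocEqOn T Q φ ∧ ∀ g : G, ρ g • Q = Q → ρ g • φ = φ) :
    ∃ Φ : F, Φ ≠ 0 ∧ (∀ g : G, ρ g • Φ = Φ) ∧ ∀ Q ∈ T, Q.ord Φ = n Q := by
  classical
  induction' hc : hfin.toFinset.card using Nat.strong_induction_on with k ih generalizing n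
  by_cases hempty : hfin.toFinset = ∅
  · refine ⟨1, one_ne_zero, fun g => smul_one _, ?_⟩
    intro Q hQ
    rw [Place.ord_one]
    by_contra hne
    have : Q ∈ hfin.toFinset := by
      rw [Set.Finite.mem_toFinset]
      exact ⟨hQ, fun h => hne h.symm⟩
    rw [hempty] at this
    exact absurd this (Finset.notMem_empty Q)
  · obtain ⟨Q₁, hQ₁⟩ := Finset.nonempty_iff_ne_empty.mpr hempty
    rw [Set.Finite.mem_toFinset] at hQ₁
    obtain ⟨hQ₁T, hQ₁n⟩ := hQ₁
    obtain ⟨φ, hφ, hstab⟩ := hE Q₁ hQ₁T hQ₁n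
    set Ψ := s44q_orbProd ρ Q₁ φ with hΨ
    have hΨ0 : Ψ ≠ 0 := s44q_orbProd_ne_zero hφ.1
    have hΨinv : ∀ g : G, ρ g • Ψ = Ψ := s44q_orbProd_smul hstab
    have hΨord : ∀ Q ∈ T, Q.ord Ψ = if Q ∈ s44q_orbit ρ Q₁ then 1 else 0 :=
      fun Q hQ => s44q_ord_orbProd hT hstab hφ hQ
    have hn_orbit : ∀ Q ∈ s44q_orbit ρ Q₁, n Q = n Q₁ := by
      intro Q hQ
      obtain ⟨g, rfl⟩ := s44q_mem_orbit.mp hQ
      exact hninv g Q₁ hQ₁T
    set n' : Place K F → ℤ := fun Q => if Q ∈ s44q_orbit ρ Q₁ then 0 else n Q with hn'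
    have hn'inv : ∀ g : G, ∀ Q ∈ T, n' (ρ g • Q) = n' Q := by
      intro g Q hQ
      simp only [hn', s44q_smul_mem_orbit_iff, hninv g Q hQ]
    have hn'ne : ∀ Q, n' Q ≠ 0 → n Q ≠ 0 ∧ Q ∉ s44q_orbit ρ Q₁ := by
      intro Q hne
      simp only [hn'] at hne
      split_ifs at hne with h
      · exact absurd rfl hne
      · exact ⟨hne, h⟩
    have hfin' : {Q : Place K F | Q ∈ T ∧ n' Q ≠ 0}.Finite :=
      hfin.subset (fun Q hQ => ⟨hQ.1, (hn'ne Q hQ.2).1⟩)
    have hsub : hfin'.toFinset ⊂ hfin.toFinset := by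
      rw [Finset.ssubset_iff_of_subset]
      · refine ⟨Q₁, ?_, ?_⟩
        · rw [Set.Finite.mem_toFinset]; exact ⟨hQ₁T, hQ₁n⟩
        · rw [Set.Finite.mem_toFinset]
          rintro ⟨-, hne⟩
          exact (hn'ne Q₁ hne).2 (s44q_self_mem_orbit Q₁)
      · intro Q hQ
        rw [Set.Finite.mem_toFinset] at hQ ⊢
        exact ⟨hQ.1, (hn'ne Q hQ.2).1⟩
    obtain ⟨Φ', hΦ'0, hΦ'inv, hΦ'ord⟩ := ih hfin'.toFinset.card
      (by rw [← hc]; exact Finset.card_lt_card hsub) n' hn'inv hfin'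
      (fun Q hQ hne => hE Q hQ (hn'ne Q hne).1) rfl
    refine ⟨Φ' * Ψ ^ (n Q₁), mul_ne_zero hΦ'0 (zpow_ne_zero _ hΨ0), ?_, ?_⟩
    · intro g
      rw [smul_mul', s44q_smul_zpow, hΦ'inv g, hΨinv g]
    · intro Q hQ
      rw [Q.ord_mul hΦ'0 (zpow_ne_zero _ hΨ0), Place.ord_zpow, hΨord Q hQ, hΦ'ord Q hQ]
      simp only [hn']
      split_ifs with h
      · rw [hn_orbit Q h]; ring
      · ring

/-! ### The exact two-stage descent -/

/-- **EXACT TWO-STAGE DESCENT.** -/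
theorem s44q_exact_descent {T : Set (Place K F)} (hT : s44q_Stable ρ T) (P : Subgroup G)
    (p : ℕ) (hp0 : p ≠ 0) (hcop : Nat.Coprime P.index p) (Exc : Place K F → Prop)
    (hExcFix : ∀ Q ∈ T, Exc Q → ∀ g ∈ P, ρ g • Q = Q)
    (hExcUniq : ∀ Q ∈ T, ∀ Q' ∈ T, Exc Q → Exc Q' → Q = Q')
    (f : F) (hf : f ≠ 0) (hinv : ∀ g : G, ρ g • f = f)
    (hfin : {Q : Place K F | Q ∈ T ∧ Q.ord f ≠ 0}.Finite)
    (hdiv : ∀ Q ∈ T, (p : ℤ) ∣ Q.ord f)
    (u : F) (hu : u ≠ 0) (huinv : ∀ g : G, ρ g • u = u)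
    (hufin : {Q : Place K F | Q ∈ T ∧ Q.ord u ≠ 0}.Finite)
    (hu1 : ∀ Q ∈ T, Exc Q → Q.ord f ≠ 0 → Q.ord u = 1)
    (hloc : ∀ Q ∈ T, (Q.ord f ≠ 0 ∨ Q.ord u ≠ 0) → ¬ Exc Q →
      ∃ φ : F, s44q_LocEqOn T Q φ ∧ ∀ g ∈ P, ρ g • Q = Q → ρ g • φ = φ) :
    ∃ Φ : F, Φ ≠ 0 ∧ (∀ g : G, ρ g • Φ = Φ) ∧ ∀ Q ∈ T, Q.ord f = (p : ℤ) * Q.ord Φ := by
  classical
  letI : Fintype (G ⧸ P) := Fintype.ofFinite _
  have hpz : (p : ℤ) ≠ 0 := by exact_mod_cast hp0
  set ρP : ↥P →* SemilinearAut K F := ρ.comp P.subtype with hρP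
  have hTP : s44q_Stable ρP T := fun g Q hQ => hT g.1 Q hQ
  -- `Exc` is `P`-stable on `T`
  have hExcP : ∀ g : ↥P, ∀ Q ∈ T, (Exc (ρP g • Q) ↔ Exc Q) := by
    intro g Q hQ
    constructor
    · intro hexc
      change Exc (ρ g.1 • Q) at hexc
      have hfix := hExcFix (ρ g.1 • Q) (hT g.1 Q hQ) hexc g.1⁻¹ (P.inv_mem g.2)
      rw [map_inv, inv_smul_smul] at hfix
      rw [hfix]
      exact hexc
    · intro hexc
      have hfix := hExcFix Q hQ hexc g.1 g.2
      change Exc (ρ g.1 • Q)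
      rw [hfix]
      exact hexc
  -- the two local divisors
  set nf : Place K F → ℤ := fun Q => if Exc Q then 0 else Q.ord f / (p : ℤ) with hnf
  set nu : Place K F → ℤ := fun Q => if Exc Q then 0 else Q.ord u with hnu
  have hnfinv : ∀ g : ↥P, ∀ Q ∈ T, nf (ρP g • Q) = nf Q := by
    intro g Q hQ
    have h1 : (ρP g • Q).ord f = Q.ord f := s44q_ord_smul_of_inv hinv g.1 Q
    simp only [hnf, hExcP g Q hQ, h1]
  have hnuinv : ∀ g : ↥P, ∀ Q ∈ T, nu (ρP g • Q) = nu Q := by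
    intro g Q hQ
    have h1 : (ρP g • Q).ord u = Q.ord u := s44q_ord_smul_of_inv huinv g.1 Q
    simp only [hnu, hExcP g Q hQ, h1]
  have hnfne : ∀ Q, nf Q ≠ 0 → ¬ Exc Q ∧ Q.ord f ≠ 0 := by
    intro Q hne
    simp only [hnf] at hne
    split_ifs at hne with h
    · exact absurd rfl hne
    · refine ⟨h, fun h0 => hne ?_⟩
      rw [h0, Int.zero_ediv]
  have hnune : ∀ Q, nu Q ≠ 0 → ¬ Exc Q ∧ Q.ord u ≠ 0 := by
    intro Q hne
    simp only [hnu] at hne
    split_ifs at hne with h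
    · exact absurd rfl hne
    · exact ⟨h, hne⟩
  obtain ⟨Φf, hΦf0, hΦfinv, hΦford⟩ := s44q_realise (ρ := ρP) hTP nf hnfinv
    (hfin.subset (fun Q hQ => ⟨hQ.1, (hnfne Q hQ.2).2⟩))
    (by
      intro Q hQ hne
      obtain ⟨φ, hφ, hst⟩ := hloc Q hQ (Or.inl (hnfne Q hne).2) (hnfne Q hne).1
      exact ⟨φ, hφ, fun g hg => hst g.1 g.2 hg⟩)
  obtain ⟨Φu, hΦu0, hΦuinv, hΦuord⟩ := s44q_realise (ρ := ρP) hTP nu hnuinv
    (hufin.subset (fun Q hQ => ⟨hQ.1, (hnune Q hQ.2).2⟩))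
    (by
      intro Q hQ hne
      obtain ⟨φ, hφ, hst⟩ := hloc Q hQ (Or.inr (hnune Q hne).2) (hnune Q hne).1
      exact ⟨φ, hφ, fun g hg => hst g.1 g.2 hg⟩)
  have hΦfinv' : ∀ g ∈ P, ρ g • Φf = Φf := fun g hg => hΦfinv ⟨g, hg⟩
  have hΦuinv' : ∀ g ∈ P, ρ g • Φu = Φu := fun g hg => hΦuinv ⟨g, hg⟩
  -- coset norms
  set Nf := s44q_cosetNorm ρ P Φf with hNf
  set Nu := s44q_cosetNorm ρ P Φu with hNu
  have hNf0 : Nf ≠ 0 := s44q_cosetNorm_ne_zero hΦf0
  have hNu0 : Nu ≠ 0 := s44q_cosetNorm_ne_zero hΦu0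
  have hNfinv : ∀ g : G, ρ g • Nf = Nf := s44q_cosetNorm_smul hΦfinv'
  have hNuinv : ∀ g : G, ρ g • Nu = Nu := s44q_cosetNorm_smul hΦuinv'
  -- the defect: number of cosets moving `Q` into `Exc`
  set d : Place K F → ℤ := fun Q =>
    ∑ c : G ⧸ P, (if Exc ((ρ (Quotient.out c))⁻¹ • Q) then (1 : ℤ) else 0) with hd
  have hidx : (P.index : ℤ) = ∑ _c : G ⧸ P, (1 : ℤ) := by
    rw [Finset.sum_const, Finset.card_univ, nsmul_eq_mul, mul_one, Subgroup.index,
      Nat.card_eq_fintype_card]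
  have hNford : ∀ Q ∈ T, (p : ℤ) * Q.ord Nf = ((P.index : ℤ) - d Q) * Q.ord f := by
    intro Q hQ
    rw [hNf, s44q_ord_cosetNorm hΦf0, hidx, hd, ← Finset.sum_sub_distrib, Finset.mul_sum,
      Finset.sum_mul]
    refine Finset.sum_congr rfl (fun c _ => ?_)
    have hmem : (ρ (Quotient.out c))⁻¹ • Q ∈ T := hT.inv_mem _ hQ
    have hordc : ((ρ (Quotient.out c))⁻¹ • Q).ord f = Q.ord f := by
      have h := s44q_ord_smul_of_inv hinv (Quotient.out c)⁻¹ Q
      rwa [map_inv] at h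
    rw [hΦford _ hmem]
    simp only [hnf, hordc]
    split_ifs with h
    · ring
    · obtain ⟨k, hk⟩ := hdiv Q hQ
      rw [hk, Int.mul_ediv_cancel_left _ hpz]
      ring
  have hNuord : ∀ Q ∈ T, Q.ord Nu = ((P.index : ℤ) - d Q) * Q.ord u := by
    intro Q hQ
    rw [hNu, s44q_ord_cosetNorm hΦu0, hidx, hd, ← Finset.sum_sub_distrib, Finset.sum_mul]
    refine Finset.sum_congr rfl (fun c _ => ?_)
    have hmem : (ρ (Quotient.out c))⁻¹ • Q ∈ T := hT.inv_mem _ hQ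
    have hordc : ((ρ (Quotient.out c))⁻¹ • Q).ord u = Q.ord u := by
      have h := s44q_ord_smul_of_inv huinv (Quotient.out c)⁻¹ Q
      rwa [map_inv] at h
    rw [hΦuord _ hmem]
    simp only [hnu, hordc]
    split_ifs with h
    · ring
    · ring
  -- Bézout
  have hcop' : IsCoprime (P.index : ℤ) (p : ℤ) := Nat.isCoprime_iff_coprime.mpr hcop
  obtain ⟨a, b, hab⟩ := hcop'
  -- the correction exponent
  obtain ⟨k, hk⟩ : ∃ k : ℤ, ∀ Q ∈ T, d Q ≠ 0 → (p : ℤ) * k * Q.ord u = a * Q.ord f := by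
    by_cases hex : ∃ Qb ∈ T, Exc Qb
    · obtain ⟨Qb, hQbT, hQbE⟩ := hex
      refine ⟨a * (Qb.ord f / (p : ℤ)), ?_⟩
      intro Q hQ hdQ
      -- some coset moves `Q` to `Qb`
      have : ∃ c : G ⧸ P, Exc ((ρ (Quotient.out c))⁻¹ • Q) := by
        by_contra hno
        push Not at hno
        apply hdQ
        rw [hd]
        exact Finset.sum_eq_zero (fun c _ => if_neg (hno c))
      obtain ⟨c, hc⟩ := this
      have hmem : (ρ (Quotient.out c))⁻¹ • Q ∈ T := hT.inv_mem _ hQ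
      have heq : (ρ (Quotient.out c))⁻¹ • Q = Qb := hExcUniq _ hmem _ hQbT hc hQbE
      have hordf : Q.ord f = Qb.ord f := by
        have h := s44q_ord_smul_of_inv hinv (Quotient.out c)⁻¹ Q
        rw [map_inv, heq] at h
        exact h.symm
      have hordu : Q.ord u = Qb.ord u := by
        have h := s44q_ord_smul_of_inv huinv (Quotient.out c)⁻¹ Q
        rw [map_inv, heq] at h
        exact h.symm
      rw [hordf, hordu]
      obtain ⟨m, hm⟩ := hdiv Qb hQbT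
      by_cases hf0 : Qb.ord f = 0
      · rw [hf0, Int.zero_ediv]; ring
      · rw [hu1 Qb hQbT hQbE hf0, hm, Int.mul_ediv_cancel_left _ hpz]
        ring
    · refine ⟨0, ?_⟩
      intro Q hQ hdQ
      exfalso
      apply hdQ
      rw [hd]
      refine Finset.sum_eq_zero (fun c _ => if_neg ?_)
      intro hc
      exact hex ⟨_, hT.inv_mem _ hQ, hc⟩
  -- the function
  set t := u ^ (P.index : ℤ) * Nu⁻¹ with ht
  have ht0 : t ≠ 0 := mul_ne_zero (zpow_ne_zero _ hu) (inv_ne_zero hNu0)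
  have htinv : ∀ g : G, ρ g • t = t := by
    intro g
    rw [ht, smul_mul', s44q_smul_zpow, smul_inv'', huinv g, hNuinv g]
  have htord : ∀ Q ∈ T, Q.ord t = d Q * Q.ord u := by
    intro Q hQ
    rw [ht, Q.ord_mul (zpow_ne_zero _ hu) (inv_ne_zero hNu0), Place.ord_zpow, Place.ord_inv,
      hNuord Q hQ]
    ring
  refine ⟨Nf ^ a * f ^ b * t ^ k,
    mul_ne_zero (mul_ne_zero (zpow_ne_zero _ hNf0) (zpow_ne_zero _ hf)) (zpow_ne_zero _ ht0), ?_, ?_⟩
  · intro g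
    rw [smul_mul', smul_mul', s44q_smul_zpow, s44q_smul_zpow, s44q_smul_zpow, hNfinv g, hinv g,
      htinv g]
  · intro Q hQ
    rw [Q.ord_mul (mul_ne_zero (zpow_ne_zero _ hNf0) (zpow_ne_zero _ hf)) (zpow_ne_zero _ ht0),
      Q.ord_mul (zpow_ne_zero _ hNf0) (zpow_ne_zero _ hf), Place.ord_zpow, Place.ord_zpow,
      Place.ord_zpow, htord Q hQ]
    have h1 := hNford Q hQ
    have h2 : (p : ℤ) * k * (d Q * Q.ord u) = a * d Q * Q.ord f := by
      by_cases hdQ : d Q = 0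
      · rw [hdQ]; ring
      · have := hk Q hQ hdQ
        calc (p : ℤ) * k * (d Q * Q.ord u) = d Q * ((p : ℤ) * k * Q.ord u) := by ring
          _ = d Q * (a * Q.ord f) := by rw [this]
          _ = a * d Q * Q.ord f := by ring
    calc Q.ord f = (a * (P.index : ℤ) + b * (p : ℤ)) * Q.ord f := by rw [hab, one_mul]
      _ = a * (((P.index : ℤ) - d Q) * Q.ord f) + (p : ℤ) * (b * Q.ord f)
            + a * d Q * Q.ord f := by ring
      _ = a * ((p : ℤ) * Q.ord Nf) + (p : ℤ) * (b * Q.ord f)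
            + (p : ℤ) * k * (d Q * Q.ord u) := by rw [h1, h2]
      _ = (p : ℤ) * (a * Q.ord Nf + b * Q.ord f + k * (d Q * Q.ord u)) := by ring

end Fermat.Agent.Lib.S44
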