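/-
M-AT-P programme (S44), wall W1 [RAT] (helper9), brick [Q-LEVEL]: the Gauss valuation rings of an
ABSTRACT level `φ₀ : K₀ →+* ℚ̄` (Gauss datum `ofResidue (A.comap φ₀) ϖ₀`) are cut out by the top-level
Gauss ring `s37r_O A` of `ℚ̄((q))`:

  `s44q_mem_Vinf_iff : y ∈ V_∞(K₀) ↔ coeffMap φ₀ y ∈ s37r_O A`

(generic form of `s37r_level_mem_O` / `s37r_level_mem_V_of_mem_O` of `Lib/S37/RTop.lean`, which treat
the intermediate fields of `ℚ̄`), and the resulting compatibility of `V_∞`, `V_0` between two levels.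
-/
import Fermat.Agent.Lib.S37.RTop
import Fermat.Agent.Lib.S34.MVal

set_option autoImplicit false
set_option linter.style.haveILetI false
set_option linter.unusedSectionVars false

noncomputable section

namespace Fermat.Agent.Lib.S44

open ModularCurve HahnSeries AlgebraicCurve Fermat.Agent.Lib.S18 Fermat.Agent.Lib.FF
  Fermat.Agent.Lib.S34 Fermat.Agent.Lib.S37

local notation "Qbar" => AlgebraicClosure ℚ

variable (A : ValuationSubring Qbar)

section Level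

variable {K₀ : Type*} [Field K₀] [Algebra ℚ K₀] (φ₀ : K₀ →+* Qbar)

/-- the homomorphism `A ∩ K₀ → A` is local. -/
instance s44q_isLocalHom_comapHom : IsLocalHom (s37r_comapHom A φ₀) where
  map_nonunit x hx := by
    by_contra hnu
    have h1 : x ∈ IsLocalRing.maximalIdeal ↥(A.comap φ₀) := hnu
    have h2 := (s18q_comapHom_mem_maximalIdeal φ₀ A x).mpr h1
    exact h2 hx

/-- the inclusion of residue fields. -/
def s44q_resMap : IsLocalRing.ResidueField ↥(A.comap φ₀) →+* IsLocalRing.ResidueField ↥A :=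
  IsLocalRing.ResidueField.map (s37r_comapHom A φ₀)

theorem s44q_resMap_comp :
    (IsLocalRing.residue ↥A).comp (s37r_comapHom A φ₀) =
      (s44q_resMap A φ₀).comp (IsLocalRing.residue ↥(A.comap φ₀)) := by
  refine RingHom.ext fun x => ?_
  rfl

variable [IsDiscreteValuationRing ↥(A.comap φ₀)] (ϖ₀ : ↥(A.comap φ₀)) (hϖ₀ : Irreducible ϖ₀)

/-- the Gauss datum of the abstract level. -/
abbrev s44q_G : s18g_GaussData K₀ (IsLocalRing.ResidueField ↥(A.comap φ₀)) :=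
  s18g_GaussData.ofResidue (A.comap φ₀) ϖ₀ hϖ₀

theorem s44q_level_mem_O {f : LaurentSeries K₀} (hf : f ∈ s18g_O (s44q_G A φ₀ ϖ₀ hϖ₀)) :
    coeffMap φ₀ f ∈ s37r_O A (IsLocalRing.residue ↥A) :=
  s37r_mem_O_of_level A (IsLocalRing.residue ↥A) φ₀
    (IsLocalRing.residue ↥(A.comap φ₀)) (s44q_resMap A φ₀) (s44q_resMap_comp A φ₀) hf

include hϖ₀ in
theorem s44q_unif_mem_maximalIdeal :
    s37r_comapHom A φ₀ ϖ₀ ∈ IsLocalRing.maximalIdeal ↥A := by
  have h := (s18q_comapHom_mem_maximalIdeal φ₀ A ϖ₀).mpr hϖ₀.not_isUnit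
  exact h

/-- conversely. -/
theorem s44q_level_mem_V_of_mem_O (N : ℕ)
    (f₀ : ↥(laurentBaseChange K₀ (modularFunctionFieldFull N)))
    (hf : coeffMap φ₀ (f₀ : LaurentSeries K₀) ∈ s37r_O A (IsLocalRing.residue ↥A)) :
    f₀ ∈ s18x_V (s44q_G A φ₀ ϖ₀ hϖ₀) N := by
  set G := s44q_G A φ₀ ϖ₀ hϖ₀ with hG
  set V := s18x_V G N with hV
  by_contra hnot
  have hinv : f₀⁻¹ ∈ V := (V.mem_or_inv_mem f₀).resolve_left hnot
  have hf0 : f₀ ≠ 0 := fun h => hnot (h ▸ V.zero_mem)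
  have hnu : ¬ IsUnit (⟨f₀⁻¹, hinv⟩ : V) := by
    intro hu
    obtain ⟨v, hv⟩ := hu.exists_right_inv
    apply hnot
    have h1 : f₀⁻¹ * (v : ↥(laurentBaseChange K₀ (modularFunctionFieldFull N))) = 1 :=
      congrArg Subtype.val hv
    have : (v : ↥(laurentBaseChange K₀ (modularFunctionFieldFull N))) = f₀ := by
      have := congrArg (fun z => f₀ * z) h1
      simp only [mul_one] at this
      rw [← mul_assoc, mul_inv_cancel₀ hf0, one_mul] at this
      exact this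
    rw [← this]
    exact v.2
  obtain ⟨g, hg⟩ := s18g_unifV_dvd_of_not_isUnit G _ _ ⟨f₀⁻¹, hinv⟩ hnu
  have hgO : ((g : ↥(laurentBaseChange K₀ (modularFunctionFieldFull N))) :
      LaurentSeries K₀) ∈ s18g_O G := g.2
  have hg' : coeffMap φ₀
      ((g : ↥(laurentBaseChange K₀ (modularFunctionFieldFull N))) : LaurentSeries K₀) ∈
      s37r_O A (IsLocalRing.residue ↥A) := s44q_level_mem_O A φ₀ ϖ₀ hϖ₀ hgO
  have hrel : (f₀⁻¹ : ↥(laurentBaseChange K₀ (modularFunctionFieldFull N))) =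
      algebraMap K₀ _ ((ϖ₀ : ↥(A.comap φ₀)) : K₀) * (g : _) := by
    have := congrArg Subtype.val hg
    rw [MulMemClass.coe_mul] at this
    exact this
  have hone : (1 : LaurentSeries Qbar) =
      coeffMap φ₀ (f₀ : LaurentSeries K₀) *
        (coeffMap A.subtype (HahnSeries.C (s37r_comapHom A φ₀ ϖ₀)) *
          coeffMap φ₀
            ((g : ↥(laurentBaseChange K₀ (modularFunctionFieldFull N))) : LaurentSeries K₀)) := by
    have h1 : (1 : ↥(laurentBaseChange K₀ (modularFunctionFieldFull N))) =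
        f₀ * (algebraMap K₀ _ ((ϖ₀ : ↥(A.comap φ₀)) : K₀) * (g : _)) := by
      rw [← hrel, mul_inv_cancel₀ hf0]
    have h2 := congrArg (fun z : ↥(laurentBaseChange K₀ (modularFunctionFieldFull N)) =>
      coeffMap φ₀ (z : LaurentSeries K₀)) h1
    simp only [OneMemClass.coe_one, map_one, MulMemClass.coe_mul, map_mul] at h2
    rw [h2]
    congr 2
    have : ((algebraMap K₀ ↥(laurentBaseChange K₀ (modularFunctionFieldFull N))
        ((ϖ₀ : ↥(A.comap φ₀)) : K₀) : ↥(laurentBaseChange K₀ (modularFunctionFieldFull N))) :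
        LaurentSeries K₀) = HahnSeries.C ((ϖ₀ : ↥(A.comap φ₀)) : K₀) := by
      rw [← s18g_coe_algebraMap]
    rw [this, HahnSeries.C_apply, HahnSeries.C_apply, coeffMap_single, coeffMap_single]
    rfl
  have hCmem : coeffMap A.subtype (HahnSeries.C (s37r_comapHom A φ₀ ϖ₀)) ∈
      s37r_O A (IsLocalRing.residue ↥A) := s37r_iota_mem_O A _ _
  have hred := congrArg (s37r_red A (IsLocalRing.residue ↥A))
    (show (1 : s37r_O A (IsLocalRing.residue ↥A)) = ⟨_, hf⟩ * (⟨_, hCmem⟩ * ⟨_, hg'⟩) from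
      Subtype.ext hone)
  rw [map_one, map_mul, map_mul, s37r_red_iota] at hred
  have hC0 : coeffMap (IsLocalRing.residue ↥A) (HahnSeries.C (s37r_comapHom A φ₀ ϖ₀)) = 0 := by
    rw [HahnSeries.C_apply, coeffMap_single,
      (IsLocalRing.residue_eq_zero_iff _).mpr (s44q_unif_mem_maximalIdeal A φ₀ ϖ₀ hϖ₀),
      HahnSeries.single_eq_zero]
  rw [hC0, zero_mul, mul_zero] at hred
  exact one_ne_zero hred

/-- **`V_∞` of an abstract level is cut out by the top-level Gauss ring.** -/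
theorem s44q_mem_Vinf_iff (N : ℕ) [NeZero N] (y : s34m_F K₀ N) :
    y ∈ s34m_Vinf (s44q_G A φ₀ ϖ₀ hϖ₀) N ↔
      coeffMap φ₀ (y : LaurentSeries K₀) ∈ s37r_O A (IsLocalRing.residue ↥A) :=
  ⟨fun h => s44q_level_mem_O A φ₀ ϖ₀ hϖ₀ h, fun h => s44q_level_mem_V_of_mem_O A φ₀ ϖ₀ hϖ₀ N y h⟩

end Level

/-! ### Two levels -/

section Two

variable {K₀ K : Type*} [Field K₀] [Field K] [Algebra ℚ K₀] [Algebra ℚ K]
  (φ₀ : K₀ →+* Qbar) (φ : K →+* Qbar) (j : K₀ →+* K) (hj : ∀ a, φ (j a) = φ₀ a)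
  [IsDiscreteValuationRing ↥(A.comap φ₀)] (ϖ₀ : ↥(A.comap φ₀)) (hϖ₀ : Irreducible ϖ₀)
  [IsDiscreteValuationRing ↥(A.comap φ)] (ϖ : ↥(A.comap φ)) (hϖ : Irreducible ϖ)
  (M q : ℕ) [NeZero M] [NeZero q] (hq : q.Prime) (hqM : ¬ q ∣ M)

include hj in
theorem s44q_coeffMap_comp (x : LaurentSeries K₀) : coeffMap φ (coeffMap j x) = coeffMap φ₀ x := by
  rw [coeffMap_coeffMap]
  exact coeffMap_congr (RingHom.ext hj) x

include hj in
/-- `V_∞` is compatible between two levels. -/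
theorem s44q_mem_Vinf_map_iff (N : ℕ) [NeZero N] (y : s34m_F K₀ N) :
    y ∈ s34m_Vinf (s44q_G A φ₀ ϖ₀ hϖ₀) N ↔
      s18q_map j (modularFunctionFieldFull N) y ∈ s34m_Vinf (s44q_G A φ ϖ hϖ) N := by
  rw [s44q_mem_Vinf_iff, s44q_mem_Vinf_iff, s18q_map_coe, s44q_coeffMap_comp φ₀ φ j hj]

include hj in
/-- The Atkin–Lehner involutions of the two levels are compatible. -/
theorem s44q_map_al (y : s34m_F K₀ (M * q)) :
    s18q_map j (modularFunctionFieldFull (M * q)) (s34m_al φ₀ M q hq hqM y) =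
      s34m_al φ M q hq hqM (s18q_map j (modularFunctionFieldFull (M * q)) y) := by
  apply s34m_iota_injective φ
  have hcomp : ∀ z : s34m_F K₀ (M * q),
      s34m_iota φ (M * q) (s18q_map j (modularFunctionFieldFull (M * q)) z) =
        s34m_iota φ₀ (M * q) z := by
    intro z
    have e : φ.comp j = φ₀ := RingHom.ext hj
    show s18q_map φ _ (s18q_map j _ z) = s18q_map φ₀ _ z
    rw [s18q_map_comp, e]
  rw [hcomp, s34m_iota_al, s34m_iota_al, hcomp]

include hj in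
/-- **(E-a)**: the vertical valuation rings `V_∞`, `V_0` are compatible between two levels. -/
theorem s44q_mem_VV_map_iff (i : Bool) (y : s34m_F K₀ (M * q)) :
    y ∈ s34m_VV (s44q_G A φ₀ ϖ₀ hϖ₀) φ₀ M q hq hqM i ↔
      s18q_map j (modularFunctionFieldFull (M * q)) y ∈
        s34m_VV (s44q_G A φ ϖ hϖ) φ M q hq hqM i := by
  cases i
  · show y ∈ s34m_Vzero _ φ₀ M q hq hqM ↔ _ ∈ s34m_Vzero _ φ M q hq hqM
    rw [s34m_mem_Vzero, s34m_mem_Vzero, ← s44q_map_al φ₀ φ j hj M q hq hqM]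
    exact s44q_mem_Vinf_map_iff A φ₀ φ j hj ϖ₀ hϖ₀ ϖ hϖ (M * q) _
  · exact s44q_mem_Vinf_map_iff A φ₀ φ j hj ϖ₀ hϖ₀ ϖ hϖ (M * q) y

end Two

end Fermat.Agent.Lib.S44
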