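/-
M-AT-P programme (S44), wall W1 [RAT] (helper9), brick [Q-INST]: THE MODULAR INSTANCE of the chart
data `s44q_ChartData` for a tower of abstract levels `K₀ ⊆ K` (`φ₀ : K₀ →+* ℚ̄`, `φ : K →+* ℚ̄`,
Gauss data `ofResidue (A.comap _) _`), a finite group `Γ` of automorphisms of `K` with fixed field
`K₀`, contained in the inertia group of `A ∩ K`, the two vertical valuation rings `V_∞`, `V_0` of level
`M q`, and the chart `{t₀ regular}` of a function `t₀` of the lower level.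
-/
import Fermat.Agent.Lib.S44.QLevel
import Fermat.Agent.Lib.S44.QB2
import Fermat.Agent.Lib.S34.CChart

set_option autoImplicit false
set_option linter.style.haveILetI false
set_option linter.unusedSectionVars false

noncomputable section

namespace Fermat.Agent.Lib.S44

open ModularCurve HahnSeries AlgebraicCurve Fermat.Agent.Lib.S18 Fermat.Agent.Lib.FF
  Fermat.Agent.Lib.S34 Fermat.Agent.Lib.S37 IsLocalRing

local notation "Qbar" => AlgebraicClosure ℚ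

variable (A : ValuationSubring Qbar)

section Inertia

variable {K : Type*} [Field K] [Algebra ℚ K] (φ : K →+* Qbar)
  [IsDiscreteValuationRing ↥(A.comap φ)] (ϖ : ↥(A.comap φ)) (hϖ : Irreducible ϖ)

/-- `σ` lies in the inertia group of `A ∩ K`. -/
def s44q_IsInertia (σ : K ≃ₐ[ℚ] K) : Prop :=
  ∀ a ∈ A.comap φ, σ a ∈ A.comap φ ∧ σ a - a ∈ (A.comap φ).nonunits

variable {A φ}

theorem s44q_IsInertia.mem {σ : K ≃ₐ[ℚ] K} (h : s44q_IsInertia A φ σ) :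
    ∀ a : K, a ∈ (s44q_G A φ ϖ hϖ).A → (σ : K ≃+* K) a ∈ (s44q_G A φ ϖ hϖ).A :=
  fun a ha => (h a ha).1

theorem s44q_IsInertia.res {σ : K ≃ₐ[ℚ] K} (h : s44q_IsInertia A φ σ)
    (a : (s44q_G A φ ϖ hϖ).A) :
    (s44q_G A φ ϖ hϖ).π (s34m_sigmaA (s44q_G A φ ϖ hϖ) (σ : K ≃+* K) (h.mem ϖ hϖ) a) =
      (s44q_G A φ ϖ hϖ).π a := by
  have hsub := (h (a : K) a.2).2
  obtain ⟨hmem, hmax⟩ := ((A.comap φ).mem_nonunits_iff_exists_mem_maximalIdeal).mp hsub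
  have e : s34m_sigmaA (s44q_G A φ ϖ hϖ) (σ : K ≃+* K) (h.mem ϖ hϖ) a - a =
      (⟨σ (a : K) - a, hmem⟩ : (s44q_G A φ ϖ hϖ).A) := Subtype.ext rfl
  have h0 : (s44q_G A φ ϖ hϖ).π
      (s34m_sigmaA (s44q_G A φ ϖ hϖ) (σ : K ≃+* K) (h.mem ϖ hϖ) a - a) = 0 := by
    rw [e]
    exact (residue_eq_zero_iff _).mpr hmax
  rw [map_sub, sub_eq_zero] at h0
  exact h0

end Inertia

section Data

variable {K₀ K : Type*} [Field K₀] [Field K] [Algebra ℚ K₀] [Algebra ℚ K] [Algebra K₀ K]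
  [Algebra.IsAlgebraic K₀ K]
  (φ₀ : K₀ →+* Qbar) (φ : K →+* Qbar) (hj : ∀ a, φ (algebraMap K₀ K a) = φ₀ a)
  [IsDiscreteValuationRing ↥(A.comap φ₀)] (ϖ₀ : ↥(A.comap φ₀)) (hϖ₀ : Irreducible ϖ₀)
  [IsDiscreteValuationRing ↥(A.comap φ)] (ϖ : ↥(A.comap φ)) (hϖ : Irreducible ϖ)
  (M q : ℕ) [NeZero M] [NeZero q] (hq : q.Prime) (hqM : ¬ q ∣ M)
  {Γ : Type*} [Group Γ] [Fintype Γ] (r : Γ →* (K ≃ₐ[ℚ] K))
  (hK₀ : ∀ g : Γ, ∀ a : K₀, r g (algebraMap K₀ K a) = algebraMap K₀ K a)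
  (hfix : ∀ a : K, (∀ g : Γ, r g a = a) → ∃ a₀ : K₀, algebraMap K₀ K a₀ = a)
  (hin : ∀ g : Γ, s44q_IsInertia A φ (r g))

include hj hK₀ hfix hin in
/-- **The chart data of the tower**, on the chart of a function `t₀` of the lower level. -/
theorem s44q_chartData_inst (t₀ : s34m_F K₀ (M * q)) :
    s44q_ChartData K₀ (modularFunctionFieldFull (M * q)) r
      (s34m_VV (s44q_G A φ₀ ϖ₀ hϖ₀) φ₀ M q hq hqM) (s34m_VV (s44q_G A φ ϖ hϖ) φ M q hq hqM)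
      (s18_chart1 (L₀ := K₀) t₀)
      (s18_chart1 (L₀ := K) (s18q_map (algebraMap K₀ K) (modularFunctionFieldFull (M * q)) t₀))
      ((ϖ : ↥(A.comap φ)) : K) where
  hK₀ := hK₀
  hfix := hfix
  hO := fun i y => s44q_mem_VV_map_iff A φ₀ φ (algebraMap K₀ K) hj ϖ₀ hϖ₀ ϖ hϖ M q hq hqM i y
  hS := fun Q => by
    show _ ∈ Q.toValuationSubring ↔ t₀ ∈ (s18q_restrictGen K₀ _ Q).toValuationSubring
    rw [s18q_mem_restrictGen]
  hOst := fun g i y hy => by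
    have h := s34m_galois_mem_VV (s44q_G A φ ϖ hϖ) φ M q (r g) ((hin g).mem ϖ hϖ)
      ((hin g).res ϖ hϖ) hq hqM i hy
    exact h
  hπ0 := fun h => hϖ.ne_zero (Subtype.ext h)
  hin := fun g i y hy => by
    obtain ⟨z, hz, e⟩ := s34m_galois_sub_mem_VV (s44q_G A φ ϖ hϖ) φ M q (r g)
      ((hin g).mem ϖ hϖ) ((hin g).res ϖ hϖ) hq hqM i hy
    exact ⟨z, hz, e⟩

end Data

end Fermat.Agent.Lib.S44
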