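/-
M-AT-P programme (S44), wall W1 [RAT] (helper9), brick [Q-RAT-TOWER]: THE CHOICE OF THE BIG FIELD.

For `f ≠ 0` in `𝓕_L(N)` (`L ⊆ ℚ̄` any intermediate field) there is a number field `L₂ ⊆ ℚ̄` such that for
EVERY tower `L ≤ Z ≤ L₀` with `L₂ ≤ L₀`:
* the zeros and poles of `f` over `L₀` are places of degree one (`hdeg` of `s44q_Q4`);
* at every zero or pole `Q₀` of `f` over `Z` there is `u ∈ 𝓕_Z`, of order one at `Q₀`, whose zeros and
  poles over `L₀` are places of degree one (`hunif` of `s44q_Q4`).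
The uniformisers are chosen over `L` (one per zero or pole of `f` over `L`) BEFORE `L₂`.
-/
import Fermat.Agent.Lib.S34.RDescRat
import Fermat.Agent.Lib.S34.XDict
import Fermat.Agent.Lib.S18.BGen
import Fermat.Agent.Lib.S18.GDegree

set_option autoImplicit false
set_option linter.style.haveILetI false
set_option linter.unusedSectionVars false
set_option synthInstance.maxHeartbeats 400000

noncomputable section

namespace Fermat.Agent.Lib.S44

open ModularCurve AlgebraicCurve Fermat.Agent.Lib.S18 Fermat.Agent.Lib.FF Fermat.Agent.Lib.S34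

local notation "Qbar" => AlgebraicClosure ℚ

variable (N : ℕ) [NeZero N]

/-- A nonzero function over any subfield of `ℚ̄` has finitely many zeros and poles. -/
theorem s44q_finite_support (L : IntermediateField ℚ Qbar)
    (f : ↥(laurentBaseChange ↥L (modularFunctionFieldFull N))) (hf : f ≠ 0) :
    {Q : Place ↥L ↥(laurentBaseChange ↥L (modularFunctionFieldFull N)) | Q.ord f ≠ 0}.Finite := by
  have hdegN : s18g_HDeg ↥L N := fun n b hb hn =>
    s18g_exists_relation N (algebraMap ↥L Qbar) hn b hb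
  haveI : FFGen ↥L (s18g_jF (K := ↥L) N) := s18b_ffGen_jF N hdegN
  have h1 := s34x_finite_ord_ne_zero1 (L₀ := ↥L) (s18g_jF (K := ↥L) N) hf
  have h2 := s34x_finite_ord_ne_zero1 (L₀ := ↥L) (s18g_jF (K := ↥L) N)⁻¹ hf
  refine (h1.union h2).subset ?_
  intro Q hQ
  rcases Q.toValuationSubring.mem_or_inv_mem (s18g_jF (K := ↥L) N) with h | h
  · exact Or.inl ⟨h, hQ⟩
  · exact Or.inr ⟨h, hQ⟩

/-- Simultaneous rationality of the supports of finitely many functions. -/
theorem s44q_exists_field_rat_finset (L : IntermediateField ℚ Qbar)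
    (s : Finset ↥(laurentBaseChange ↥L (modularFunctionFieldFull N))) (hs : ∀ g ∈ s, g ≠ 0) :
    ∃ L₂ : IntermediateField ℚ Qbar, FiniteDimensional ℚ L₂ ∧
      ∀ L₀ : IntermediateField ℚ Qbar, L₂ ≤ L₀ → ∀ g ∈ s,
        ∀ f₀ : ↥(laurentBaseChange ↥L₀ (modularFunctionFieldFull N)),
          s18q_incl N L₀ f₀ = s18q_incl N L g →
          ∀ Q : Place ↥L₀ ↥(laurentBaseChange ↥L₀ (modularFunctionFieldFull N)),
            Q.ord f₀ ≠ 0 → Q.deg = 1 := by
  classical
  induction s using Finset.induction_on with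
  | empty =>
    exact ⟨⊥, inferInstance, fun L₀ _ g hg => absurd hg (Finset.notMem_empty g)⟩
  | insert g s hgs ih =>
    obtain ⟨L₂, hfd, hL₂⟩ := ih (fun g' hg' => hs g' (Finset.mem_insert_of_mem hg'))
    have hg0 : s18q_incl N L g ≠ 0 :=
      (map_ne_zero _).mpr (hs g (Finset.mem_insert_self g s))
    obtain ⟨L₃, hfd₃, hL₃⟩ := s34q_exists_field_rat N (s18q_incl N L g) hg0
    refine ⟨L₂ ⊔ L₃, inferInstance, ?_⟩
    intro L₀ hle g' hg' f₀ hf₀ Q hQ
    rcases Finset.mem_insert.mp hg' with rfl | hg'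
    · exact hL₃ L₀ (le_trans le_sup_right hle) f₀ hf₀ Q hQ
    · exact hL₂ L₀ (le_trans le_sup_left hle) g' hg' f₀ hf₀ Q hQ

/-- The base change `𝓕_{L₁} → 𝓕_{L₂}` for `L₁ ≤ L₂`. -/
abbrev s44q_up {L₁ L₂ : IntermediateField ℚ Qbar} (h : L₁ ≤ L₂) :
    ↥(laurentBaseChange ↥L₁ (modularFunctionFieldFull N)) →+*
      ↥(laurentBaseChange ↥L₂ (modularFunctionFieldFull N)) :=
  s18q_map (IntermediateField.inclusion h).toRingHom (modularFunctionFieldFull N)

theorem s44q_incl_up {L₁ L₂ : IntermediateField ℚ Qbar} (h : L₁ ≤ L₂)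
    (x : ↥(laurentBaseChange ↥L₁ (modularFunctionFieldFull N))) :
    s18q_incl N L₂ (s44q_up N h x) = s18q_incl N L₁ x := by
  rw [s18q_incl, s18q_incl, s44q_up, s18q_map_comp]
  rfl

theorem s44q_up_up {L₁ L₂ L₃ : IntermediateField ℚ Qbar} (h12 : L₁ ≤ L₂) (h23 : L₂ ≤ L₃)
    (x : ↥(laurentBaseChange ↥L₁ (modularFunctionFieldFull N))) :
    s44q_up N h23 (s44q_up N h12 x) = s44q_up N (le_trans h12 h23) x := by
  rw [s44q_up, s44q_up, s44q_up, s18q_map_comp]
  rfl

/-- **THE CHOICE OF THE BIG FIELD.** -/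
theorem s44q_rat_tower (L : IntermediateField ℚ Qbar)
    (f : ↥(laurentBaseChange ↥L (modularFunctionFieldFull N))) (hf : f ≠ 0) :
    ∃ L₂ : IntermediateField ℚ Qbar, FiniteDimensional ℚ L₂ ∧
      ∀ (Z L₀ : IntermediateField ℚ Qbar) (hLZ : L ≤ Z) (hZ : Z ≤ L₀), L₂ ≤ L₀ →
        Algebra.IsAlgebraic ℚ ↥Z →
        (∀ Q : Place ↥L₀ ↥(laurentBaseChange ↥L₀ (modularFunctionFieldFull N)),
          Q.ord (s44q_up N hZ (s44q_up N hLZ f)) ≠ 0 → Q.deg = 1) ∧
        ∀ Q₀ : Place ↥Z ↥(laurentBaseChange ↥Z (modularFunctionFieldFull N)),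
          Q₀.ord (s44q_up N hLZ f) ≠ 0 →
          ∃ u : ↥(laurentBaseChange ↥Z (modularFunctionFieldFull N)), u ≠ 0 ∧ Q₀.ord u = 1 ∧
            ∀ Q : Place ↥L₀ ↥(laurentBaseChange ↥L₀ (modularFunctionFieldFull N)),
              Q.ord (s44q_up N hZ u) ≠ 0 → Q.deg = 1 := by
  classical
  -- the uniformisers over `L`
  have hfin := s44q_finite_support N L f hf
  choose unif hunif0 hunif1 using
    fun Q : Place ↥L ↥(laurentBaseChange ↥L (modularFunctionFieldFull N)) => ff_exists_ord_eq_one Q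
  set s : Finset ↥(laurentBaseChange ↥L (modularFunctionFieldFull N)) :=
    insert f (hfin.toFinset.image unif) with hs
  have hs0 : ∀ g ∈ s, g ≠ 0 := by
    intro g hg
    rcases Finset.mem_insert.mp hg with rfl | hg
    · exact hf
    · obtain ⟨Q, -, rfl⟩ := Finset.mem_image.mp hg
      exact hunif0 Q
  obtain ⟨L₂, hfd, hL₂⟩ := s44q_exists_field_rat_finset N L s hs0
  refine ⟨L₂, hfd, ?_⟩
  intro Z L₀ hLZ hZ hle halg
  constructor
  · intro Q hQ
    refine hL₂ L₀ hle f (Finset.mem_insert_self _ _) _ ?_ Q hQ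
    rw [s44q_incl_up, s44q_incl_up]
  · intro Q₀ hQ₀
    obtain ⟨ρ, -, hρ⟩ := s18q_restrict_gen (IntermediateField.inclusion hLZ).toRingHom
      (modularFunctionFieldFull N)
    have h1 : (ρ Q₀).ord f ≠ 0 := by
      rw [← hρ]
      exact hQ₀
    have hmem : unif (ρ Q₀) ∈ s := by
      refine Finset.mem_insert_of_mem (Finset.mem_image.mpr ⟨ρ Q₀, ?_, rfl⟩)
      rw [Set.Finite.mem_toFinset]
      exact h1
    refine ⟨s44q_up N hLZ (unif (ρ Q₀)), (map_ne_zero _).mpr (hunif0 _), ?_, ?_⟩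
    · show Q₀.ord (s18q_map _ _ (unif (ρ Q₀))) = 1
      rw [hρ]
      exact hunif1 _
    · intro Q hQ
      refine hL₂ L₀ hle _ hmem _ ?_ Q hQ
      rw [s44q_incl_up, s44q_incl_up]

end Fermat.Agent.Lib.S44
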