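/-
M-AT-P programme (S44), wall W1 [RAT] (helper9), brick [Q-TOP-LEVEL]: THE GEOMETRIC INPUT (B2) for one
level `K₀ ⊆ K` of the tower (`K₀` the fixed field of a group `Γ` of inertia automorphisms of `K`), at a
closed point `𝔫' ∋ ϖ` of either chart of `j` of `X₀(M q)` over `A ∩ K`, `q ≥ 5`:
at most one `Γ`-fixed place of degree one through `𝔫'` has no `Γ`-invariant local equation.
-/
import Fermat.Agent.Lib.S44.QInst
import Fermat.Agent.Lib.S44.QAlmost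
import Fermat.Agent.Lib.S34.RDescNF

set_option autoImplicit false
set_option linter.style.haveILetI false
set_option linter.unusedSectionVars false
set_option synthInstance.maxHeartbeats 400000

noncomputable section

namespace Fermat.Agent.Lib.S44

open ModularCurve HahnSeries AlgebraicCurve Fermat.Agent.Lib.S18 Fermat.Agent.Lib.FF
  Fermat.Agent.Lib.S34 Fermat.Agent.Lib.S37 IsLocalRing

local notation "Qbar" => AlgebraicClosure ℚ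

section Chart

variable (K : Type*) [Field K] [Algebra ℚ K] (N : ℕ)

/-- the chart function: `j` (`b = true`, chart `j ≠ ∞`) or `j⁻¹` (`b = false`, chart `j ≠ 0`). -/
def s44q_tj (b : Bool) : ↥(laurentBaseChange K (modularFunctionFieldFull N)) :=
  cond b (s18g_jF (K := K) N) (s18g_jF (K := K) N)⁻¹

variable {K}

theorem s44q_map_jF {K' : Type*} [Field K'] [Algebra ℚ K'] (j : K →+* K') :
    s18q_map j (modularFunctionFieldFull N) (s18g_jF (K := K) N) = s18g_jF (K := K') N := by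
  apply Subtype.ext
  rw [s18q_map_coe, s18g_coe_jF, s18g_coe_jF, coeffMap_jqModC]

theorem s44q_map_tj {K' : Type*} [Field K'] [Algebra ℚ K'] (j : K →+* K') (b : Bool) :
    s18q_map j (modularFunctionFieldFull N) (s44q_tj K N b) = s44q_tj K' N b := by
  cases b
  · show s18q_map j _ (s18g_jF (K := K) N)⁻¹ = (s18g_jF (K := K') N)⁻¹
    rw [map_inv₀, s44q_map_jF]
  · exact s44q_map_jF N j

end Chart

/-- A field algebraic over `ℚ` is algebraic over any subfield. -/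
theorem s44q_isAlgebraic_of_rat (K₀ K : Type*) [Field K₀] [Field K] [Algebra ℚ K₀] [Algebra ℚ K]
    [Algebra K₀ K] [Algebra.IsAlgebraic ℚ K] : Algebra.IsAlgebraic K₀ K := by
  refine ⟨fun c => ?_⟩
  obtain ⟨p, hp0, hp⟩ := Algebra.IsAlgebraic.isAlgebraic (R := ℚ) c
  refine ⟨p.map (algebraMap ℚ K₀), (Polynomial.map_ne_zero_iff (algebraMap ℚ K₀).injective).mpr hp0,
    ?_⟩
  rw [Polynomial.aeval_def, Polynomial.eval₂_map]
  have h1 : (algebraMap K₀ K).comp (algebraMap ℚ K₀) = algebraMap ℚ K := Subsingleton.elim _ _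
  rw [h1, ← Polynomial.aeval_def]
  exact hp

section Unif

variable (A : ValuationSubring Qbar) {K₀ K : Type*} [Field K₀] [Field K] [Algebra K₀ K]
  (φ₀ : K₀ →+* Qbar) (φ : K →+* Qbar) (hj : ∀ a, φ (algebraMap K₀ K a) = φ₀ a)
  [IsDiscreteValuationRing ↥(A.comap φ₀)] (ϖ₀ : ↥(A.comap φ₀)) (hϖ₀ : Irreducible ϖ₀)
  [IsDiscreteValuationRing ↥(A.comap φ)] (ϖ : ↥(A.comap φ)) (hϖ : Irreducible ϖ)

include hj hϖ₀ hϖ in
/-- the uniformiser of the lower level is divisible by the uniformiser of the upper level. -/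
theorem s44q_unif_dvd :
    ∃ c : ↥(A.comap φ), algebraMap K₀ K (ϖ₀ : K₀) = (ϖ : K) * (c : K) := by
  have h0 : (ϖ₀ : K₀) ∈ (A.comap φ₀).nonunits :=
    ((A.comap φ₀).mem_nonunits_iff_exists_mem_maximalIdeal).mpr
      ⟨ϖ₀.2, (IsLocalRing.mem_maximalIdeal _).mpr hϖ₀.not_isUnit⟩
  have h1 : algebraMap K₀ K (ϖ₀ : K₀) ∈ (A.comap φ).nonunits := by
    rw [s34q_mem_nonunits_comap, hj]
    rwa [s34q_mem_nonunits_comap] at h0
  obtain ⟨hmem, hmax⟩ := ((A.comap φ).mem_nonunits_iff_exists_mem_maximalIdeal).mp h1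
  rw [hϖ.maximalIdeal_eq, Ideal.mem_span_singleton] at hmax
  obtain ⟨c, hc⟩ := hmax
  exact ⟨c, congrArg Subtype.val hc⟩

end Unif

/-- `s34f_AlmostAll` on either chart of `j`. -/
theorem s44q_almostAll_tj (M q : ℕ) [NeZero M] [NeZero q] (hq : q.Prime) (hqM : ¬ q ∣ M)
    (h5 : 5 ≤ q) (K₀ : Type) [Field K₀] [NumberField K₀] (φ : K₀ →+* Qbar)
    (κ : Type) [Field κ] [CharP κ q] [PerfectField κ]
    (G : s18g_GaussData K₀ κ) [IsDiscreteValuationRing G.A] (hπ : Function.Surjective G.π)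
    (b : Bool)
    (𝔫 : Ideal (s34x_ring (s34x_infRing (s34m_VV G φ M q hq hqM))
      (s18_chart1 (L₀ := K₀) (s44q_tj K₀ (M * q) b)))) [h𝔫 : 𝔫.IsMaximal]
    (hπ𝔫 : s34x_const (s34x_infRing (s34m_VV G φ M q hq hqM))
      (s18_chart1 (L₀ := K₀) (s44q_tj K₀ (M * q) b)) ((G.ϖ : G.A) : K₀)
      (s34x_inf_const_mem (s34m_VV G φ M q hq hqM) G.A (s34c_const_mem_VV G φ M q hq hqM)
        G.ϖ) ∈ 𝔫) :
    s34f_AlmostAll (s34x_infRing (s34m_VV G φ M q hq hqM))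
      (s18_chart1 (L₀ := K₀) (s44q_tj K₀ (M * q) b)) 𝔫 := by
  cases b
  · exact s44q_almostAll_j2 M q hq hqM h5 K₀ φ κ G hπ 𝔫 (h𝔫 := h𝔫) hπ𝔫
  · exact s44q_almostAll_j1 M q hq hqM h5 K₀ φ κ G hπ 𝔫 (h𝔫 := h𝔫) hπ𝔫

set_option maxHeartbeats 1000000 in
/-- **(B2) for one level of the tower.** -/
theorem s44q_b2_level (M q : ℕ) [NeZero M] [NeZero q] (hq : q.Prime) (hqM : ¬ q ∣ M) (h5 : 5 ≤ q)
    (A : ValuationSubring Qbar) (hA : A.LiesOverPrime q)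
    (K₀ K : Type) [Field K₀] [NumberField K₀] [Field K] [NumberField K] [Algebra K₀ K]
    [Algebra.IsAlgebraic K₀ K]
    (φ₀ : K₀ →+* Qbar) (φ : K →+* Qbar) (hj : ∀ a, φ (algebraMap K₀ K a) = φ₀ a)
    [IsDiscreteValuationRing ↥(A.comap φ)] (ϖ : ↥(A.comap φ)) (hϖ : Irreducible ϖ)
    {Γ : Type*} [Group Γ] [Fintype Γ] (r : Γ →* (K ≃ₐ[ℚ] K))
    (hK₀ : ∀ g : Γ, ∀ a : K₀, r g (algebraMap K₀ K a) = algebraMap K₀ K a)
    (hfix : ∀ a : K, (∀ g : Γ, r g a = a) → ∃ a₀ : K₀, algebraMap K₀ K a₀ = a)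
    (hin : ∀ g : Γ, s44q_IsInertia A φ (r g)) (b : Bool)
    (𝔫' : Ideal ↥(s34x_ring (s34x_infRing (s34m_VV (s44q_G A φ ϖ hϖ) φ M q hq hqM))
      (s18_chart1 (L₀ := K) (s44q_tj K (M * q) b)))) [h𝔫' : 𝔫'.IsMaximal]
    (hπ𝔫 : s34x_const (s34x_infRing (s34m_VV (s44q_G A φ ϖ hϖ) φ M q hq hqM))
      (s18_chart1 (L₀ := K) (s44q_tj K (M * q) b)) ((ϖ : ↥(A.comap φ)) : K)
      (s34x_inf_const_mem (s34m_VV (s44q_G A φ ϖ hϖ) φ M q hq hqM) (s44q_G A φ ϖ hϖ).A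
        (s34c_const_mem_VV (s44q_G A φ ϖ hϖ) φ M q hq hqM) (s44q_G A φ ϖ hϖ).ϖ) ∈ 𝔫')
    (Q Q' : Place K (s34m_F K (M * q)))
    (hQ : Q ∈ s18_chart1 (L₀ := K) (s44q_tj K (M * q) b))
    (hQ' : Q' ∈ s18_chart1 (L₀ := K) (s44q_tj K (M * q) b))
    (hth : s34f_through (s34x_infRing (s34m_VV (s44q_G A φ ϖ hϖ) φ M q hq hqM))
      (s18_chart1 (L₀ := K) (s44q_tj K (M * q) b)) 𝔫' Q)
    (hth' : s34f_through (s34x_infRing (s34m_VV (s44q_G A φ ϖ hϖ) φ M q hq hqM))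
      (s18_chart1 (L₀ := K) (s44q_tj K (M * q) b)) 𝔫' Q')
    (hdeg : Q.deg = 1) (hdeg' : Q'.deg = 1)
    (hfixQ : ∀ g : Γ, s44q_rho (modularFunctionFieldFull (M * q)) r g • Q = Q)
    (hfixQ' : ∀ g : Γ, s44q_rho (modularFunctionFieldFull (M * q)) r g • Q' = Q')
    (hno : ¬ ∃ φ' : s34m_F K (M * q),
      s44q_LocEqOn {Q' | Q' ∈ s18_chart1 (L₀ := K) (s44q_tj K (M * q) b) ∧
        s34f_through (s34x_infRing (s34m_VV (s44q_G A φ ϖ hϖ) φ M q hq hqM))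
          (s18_chart1 (L₀ := K) (s44q_tj K (M * q) b)) 𝔫' Q'} Q φ' ∧
      ∀ g : Γ, s44q_rho (modularFunctionFieldFull (M * q)) r g • φ' = φ')
    (hno' : ¬ ∃ φ' : s34m_F K (M * q),
      s44q_LocEqOn {Q' | Q' ∈ s18_chart1 (L₀ := K) (s44q_tj K (M * q) b) ∧
        s34f_through (s34x_infRing (s34m_VV (s44q_G A φ ϖ hϖ) φ M q hq hqM))
          (s18_chart1 (L₀ := K) (s44q_tj K (M * q) b)) 𝔫' Q'} Q' φ' ∧
      ∀ g : Γ, s44q_rho (modularFunctionFieldFull (M * q)) r g • φ' = φ') :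
    Q = Q' := by
  classical
  haveI : Fact q.Prime := ⟨hq⟩
  haveI hdvr₀ : IsDiscreteValuationRing ↥(A.comap φ₀) := s18q_comap_dvr φ₀ A q hq.ne_zero hA
  obtain ⟨ϖ₀, hϖ₀⟩ := IsDiscreteValuationRing.exists_irreducible ↥(A.comap φ₀)
  -- the chart data
  have D0 := s44q_chartData_inst A φ₀ φ hj ϖ₀ hϖ₀ ϖ hϖ M q hq hqM r hK₀ hfix hin
    (s44q_tj K₀ (M * q) b)
  rw [s44q_map_tj] at D0
  have hπO : ∀ i, algebraMap K (s34m_F K (M * q)) ((ϖ : ↥(A.comap φ)) : K) ∈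
      s34m_VV (s44q_G A φ ϖ hϖ) φ M q hq hqM i := fun i =>
    s34c_const_mem_VV (s44q_G A φ ϖ hϖ) φ M q hq hqM i (s44q_G A φ ϖ hϖ).ϖ
  have hπ𝔫' : s44q_piB _ _ ((ϖ : ↥(A.comap φ)) : K) hπO ∈ 𝔫' := hπ𝔫
  haveI : 𝔫'.IsPrime := h𝔫'.isPrime
  -- the closed point downstairs
  haveI h𝔫₀max : (𝔫'.comap D0.chartHom).IsMaximal :=
    Ideal.isMaximal_comap_of_isIntegral_of_isMaximal' _ D0.chartHom_isIntegral 𝔫'
  have hπ𝔫₀ : s34x_const (s34x_infRing (s34m_VV (s44q_G A φ₀ ϖ₀ hϖ₀) φ₀ M q hq hqM))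
      (s18_chart1 (L₀ := K₀) (s44q_tj K₀ (M * q) b)) ((ϖ₀ : ↥(A.comap φ₀)) : K₀)
      (s34x_inf_const_mem (s34m_VV (s44q_G A φ₀ ϖ₀ hϖ₀) φ₀ M q hq hqM) (s44q_G A φ₀ ϖ₀ hϖ₀).A
        (s34c_const_mem_VV (s44q_G A φ₀ ϖ₀ hϖ₀) φ₀ M q hq hqM) (s44q_G A φ₀ ϖ₀ hϖ₀).ϖ) ∈
      𝔫'.comap D0.chartHom := by
    rw [Ideal.mem_comap]
    obtain ⟨c, hc⟩ := s44q_unif_dvd A φ₀ φ hj ϖ₀ hϖ₀ ϖ hϖ
    have hcB : algebraMap K (s34m_F K (M * q)) (c : K) ∈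
        s34x_ring (s34x_infRing (s34m_VV (s44q_G A φ ϖ hϖ) φ M q hq hqM))
          (s18_chart1 (L₀ := K) (s44q_tj K (M * q) b)) :=
      ⟨s34x_inf_const_mem (s34m_VV (s44q_G A φ ϖ hϖ) φ M q hq hqM) (s44q_G A φ ϖ hϖ).A
        (s34c_const_mem_VV (s44q_G A φ ϖ hϖ) φ M q hq hqM) c, fun Q _ => Q.algebraMap_mem' _⟩
    have e : D0.chartHom (s34x_const (s34x_infRing (s34m_VV (s44q_G A φ₀ ϖ₀ hϖ₀) φ₀ M q hq hqM))
        (s18_chart1 (L₀ := K₀) (s44q_tj K₀ (M * q) b)) ((ϖ₀ : ↥(A.comap φ₀)) : K₀)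
        (s34x_inf_const_mem (s34m_VV (s44q_G A φ₀ ϖ₀ hϖ₀) φ₀ M q hq hqM) (s44q_G A φ₀ ϖ₀ hϖ₀).A
          (s34c_const_mem_VV (s44q_G A φ₀ ϖ₀ hϖ₀) φ₀ M q hq hqM) (s44q_G A φ₀ ϖ₀ hϖ₀).ϖ)) =
        s44q_piB _ _ ((ϖ : ↥(A.comap φ)) : K) hπO * ⟨_, hcB⟩ := by
      apply Subtype.ext
      rw [D0.chartHom_coe]
      show s18q_map (algebraMap K₀ K) _ (algebraMap K₀ _ ((ϖ₀ : ↥(A.comap φ₀)) : K₀)) =
        algebraMap K _ ((ϖ : ↥(A.comap φ)) : K) * algebraMap K _ (c : K)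
      rw [s18q_map_algebraMap, hc, map_mul]
    rw [e]
    exact 𝔫'.mul_mem_right _ hπ𝔫'
  -- the contract downstairs
  have hAA : s34f_AlmostAll (s34x_infRing (s34m_VV (s44q_G A φ₀ ϖ₀ hϖ₀) φ₀ M q hq hqM))
      (s18_chart1 (L₀ := K₀) (s44q_tj K₀ (M * q) b)) (𝔫'.comap D0.chartHom) := by
    have hq0 : ((q : ℕ) : K₀) ∈ (A.comap φ₀).nonunits := by
      rw [s34q_mem_nonunits_comap, map_natCast]
      exact hA
    haveI : CharP (ResidueField ↥(A.comap φ₀)) q := s18x_charP_residueField (A.comap φ₀) hq hq0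
    haveI : Algebra.IsAlgebraic ℚ K₀ := Algebra.IsAlgebraic.of_finite ℚ K₀
    haveI : PerfectField (ResidueField ↥(A.comap φ₀)) :=
      s18x_perfectField_residue (A.comap φ₀) hq hq0
    haveI : IsDiscreteValuationRing (s44q_G A φ₀ ϖ₀ hϖ₀).A := hdvr₀
    exact s44q_almostAll_tj M q hq hqM h5 K₀ φ₀ (ResidueField ↥(A.comap φ₀))
      (s44q_G A φ₀ ϖ₀ hϖ₀) residue_surjective b _ hπ𝔫₀
  exact D0.b2_of_almostAll hπO 𝔫' hπ𝔫' hAA Q Q' hQ hQ' hth hth' hdeg hdeg' hfixQ hfixQ' hno hno'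

end Fermat.Agent.Lib.S44
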