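/-
M-AT-P programme (S44), wall W1 [RAT] (helper9): **THE RATIONALITY WALL, TOP THEOREM (Q4).**

`K₀ ⊆ K` number fields with embeddings into `ℚ̄` (`K / ℚ` Galois), `A ⊂ ℚ̄` a valuation ring over
`p ≥ 5`, `p ∤ M`, such that EVERY automorphism of `K` over `K₀` lies in the inertia group of `A ∩ K`
(`K₀` contains the inertia field).  `f ≠ 0` in `𝓕_{K₀}(M p)` with `p ∣ div f`, whose zeros and poles
become rational (degree one) over `K`, and which has at each of its zeros and poles `Q₀` a function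
`u` of order one at `Q₀` whose zeros and poles become rational over `K`.  Then for every closed point
`𝔫 ∋ ϖ₀` of either chart of `j` over `A ∩ K₀` there is `Φ ≠ 0` in `𝓕_{K₀}` with

  `ord_Q f = p · ord_Q Φ`  for EVERY place `Q` of the chart through `𝔫`

— NO rationality over `K₀` of the support of `f` is assumed.  This is the hypothesis `hQ4` of
helper7's `s44k_unip_wild` (`KUnipW.lean`) on the chart `j ≠ ∞` (`b = true`), and its analogue on the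
chart `j ≠ 0` (`b = false`).

Proof: `s44q_top_abs` (`QTopAbs.lean`) for the group `I = Gal(K/K₀)` acting on `𝓕_K`, a Sylow
`p`-subgroup `P`, the set `T` of places through the unique closed point `𝔫'` above `𝔫`
(`QChart.lean`), the input (B2) from `s44q_b2_level` over the fixed field of each subgroup of `P`
(`QTopLevel.lean`), and Galois descent of the invariant root (`QInv.lean`).
-/
import Fermat.Agent.Lib.S44.QTopLevel
import Fermat.Agent.Lib.S44.QTopAbs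

set_option autoImplicit false
set_option linter.style.haveILetI false
set_option linter.unusedSectionVars false
set_option synthInstance.maxHeartbeats 400000

noncomputable section

namespace Fermat.Agent.Lib.S44

open ModularCurve HahnSeries AlgebraicCurve Fermat.Agent.Lib.S18 Fermat.Agent.Lib.FF
  Fermat.Agent.Lib.S34 Fermat.Agent.Lib.S37 IsLocalRing

local notation "Qbar" => AlgebraicClosure ℚ

set_option maxHeartbeats 4000000 in
/-- **(Q4): the rationality wall.** -/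
theorem s44q_Q4 (M p : ℕ) [NeZero M] [NeZero p] (hp : p.Prime) (hpM : ¬ p ∣ M) (h5 : 5 ≤ p)
    (A : ValuationSubring Qbar) (hA : A.LiesOverPrime p)
    (K₀ K : Type) [Field K₀] [NumberField K₀] [Field K] [NumberField K] [Algebra K₀ K]
    [IsGalois ℚ K]
    (φ₀ : K₀ →+* Qbar) (φ : K →+* Qbar) (hj : ∀ a, φ (algebraMap K₀ K a) = φ₀ a)
    [IsDiscreteValuationRing ↥(A.comap φ₀)] (ϖ₀ : ↥(A.comap φ₀)) (hϖ₀ : Irreducible ϖ₀)
    (hinert : ∀ σ : K ≃ₐ[ℚ] K, (∀ a : K₀, σ (algebraMap K₀ K a) = algebraMap K₀ K a) →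
      s44q_IsInertia A φ σ)
    (f : s34m_F K₀ (M * p)) (hf : f ≠ 0)
    (hdiv : ∀ Q : Place K₀ (s34m_F K₀ (M * p)), (p : ℤ) ∣ Q.ord f)
    (hdeg : ∀ Q : Place K (s34m_F K (M * p)),
      Q.ord (s18q_map (algebraMap K₀ K) (modularFunctionFieldFull (M * p)) f) ≠ 0 → Q.deg = 1)
    (hunif : ∀ Q₀ : Place K₀ (s34m_F K₀ (M * p)), Q₀.ord f ≠ 0 →
      ∃ u : s34m_F K₀ (M * p), u ≠ 0 ∧ Q₀.ord u = 1 ∧
        ∀ Q : Place K (s34m_F K (M * p)),
          Q.ord (s18q_map (algebraMap K₀ K) (modularFunctionFieldFull (M * p)) u) ≠ 0 → Q.deg = 1)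
    (b : Bool)
    (𝔫 : Ideal ↥(s34x_ring (s34x_infRing (s34m_VV (s44q_G A φ₀ ϖ₀ hϖ₀) φ₀ M p hp hpM))
      (s18_chart1 (L₀ := K₀) (s44q_tj K₀ (M * p) b)))) [h𝔫 : 𝔫.IsMaximal]
    (hπ𝔫 : s34x_const (s34x_infRing (s34m_VV (s44q_G A φ₀ ϖ₀ hϖ₀) φ₀ M p hp hpM))
      (s18_chart1 (L₀ := K₀) (s44q_tj K₀ (M * p) b)) ((ϖ₀ : ↥(A.comap φ₀)) : K₀)
      (s34x_inf_const_mem (s34m_VV (s44q_G A φ₀ ϖ₀ hϖ₀) φ₀ M p hp hpM) (s44q_G A φ₀ ϖ₀ hϖ₀).A
        (s34c_const_mem_VV (s44q_G A φ₀ ϖ₀ hϖ₀) φ₀ M p hp hpM) (s44q_G A φ₀ ϖ₀ hϖ₀).ϖ) ∈ 𝔫) :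
    ∃ Φ : s34m_F K₀ (M * p), Φ ≠ 0 ∧
      ∀ Q ∈ s18_chart1 (L₀ := K₀) (s44q_tj K₀ (M * p) b),
        s34f_through (s34x_infRing (s34m_VV (s44q_G A φ₀ ϖ₀ hϖ₀) φ₀ M p hp hpM))
          (s18_chart1 (L₀ := K₀) (s44q_tj K₀ (M * p) b)) 𝔫 Q →
        Q.ord f = (p : ℤ) * Q.ord Φ := by
  classical
  haveI : Fact p.Prime := ⟨hp⟩
  haveI hdvr : IsDiscreteValuationRing ↥(A.comap φ) := s18q_comap_dvr φ A p hp.ne_zero hA
  obtain ⟨ϖ, hϖ⟩ := IsDiscreteValuationRing.exists_irreducible ↥(A.comap φ)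
  haveI : Algebra.IsAlgebraic ℚ K := Algebra.IsAlgebraic.of_finite ℚ K
  haveI : Algebra.IsAlgebraic K₀ K := s44q_isAlgebraic_of_rat K₀ K
  set F₀ := modularFunctionFieldFull (M * p) with hF₀
  -- the group `I = Gal(K / K₀)`
  set E : IntermediateField ℚ K := (algebraMap K₀ K).toRatAlgHom.fieldRange with hE
  set I : Subgroup (K ≃ₐ[ℚ] K) := E.fixingSubgroup with hI
  letI : Fintype ↥I := Fintype.ofFinite _
  have hK₀ : ∀ g : ↥I, ∀ a : K₀, I.subtype g (algebraMap K₀ K a) = algebraMap K₀ K a := by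
    intro g a
    have := (IntermediateField.mem_fixingSubgroup_iff E g.1).mp g.2 (algebraMap K₀ K a)
      ⟨a, rfl⟩
    exact this
  have hfix : ∀ a : K, (∀ g : ↥I, I.subtype g a = a) → ∃ a₀ : K₀, algebraMap K₀ K a₀ = a := by
    intro a ha
    have h1 : a ∈ IntermediateField.fixedField I :=
      (IntermediateField.mem_fixedField_iff I a).mpr (fun σ hσ => ha ⟨σ, hσ⟩)
    rw [hI, IsGalois.fixedField_fixingSubgroup E] at h1
    obtain ⟨a₀, ha₀⟩ := h1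
    exact ⟨a₀, ha₀⟩
  have hin : ∀ g : ↥I, s44q_IsInertia A φ (I.subtype g) := fun g =>
    hinert g.1 (fun a => hK₀ g a)
  -- the chart data of `K / K₀`
  have D := s44q_chartData_inst A φ₀ φ hj ϖ₀ hϖ₀ ϖ hϖ M p hp hpM I.subtype hK₀ hfix hin
    (s44q_tj K₀ (M * p) b)
  rw [s44q_map_tj] at D
  have hπO : ∀ i, algebraMap K (s34m_F K (M * p)) ((ϖ : ↥(A.comap φ)) : K) ∈
      s34m_VV (s44q_G A φ ϖ hϖ) φ M p hp hpM i := fun i =>
    s34c_const_mem_VV (s44q_G A φ ϖ hϖ) φ M p hp hpM i (s44q_G A φ ϖ hϖ).ϖ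
  -- the closed point upstairs
  obtain ⟨𝔫', h𝔫'max, hcomap⟩ := D.exists_over 𝔫
  haveI := h𝔫'max
  haveI h𝔫'prime : 𝔫'.IsPrime := h𝔫'max.isPrime
  have hπ𝔫' : s44q_piB _ _ ((ϖ : ↥(A.comap φ)) : K) hπO ∈ 𝔫' := by
    -- `ϖ₀ = unit * ϖ ^ e`
    have hx0 : algebraMap K₀ K ((ϖ₀ : ↥(A.comap φ₀)) : K₀) ∈ A.comap φ := by
      show φ (algebraMap K₀ K ((ϖ₀ : ↥(A.comap φ₀)) : K₀)) ∈ A
      rw [hj]
      exact ϖ₀.2
    set x : ↥(A.comap φ) := ⟨algebraMap K₀ K ((ϖ₀ : ↥(A.comap φ₀)) : K₀), hx0⟩ with hx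
    have hxne : x ≠ 0 := by
      intro h
      have h1 : algebraMap K₀ K ((ϖ₀ : ↥(A.comap φ₀)) : K₀) = 0 := congrArg Subtype.val h
      rw [map_eq_zero] at h1
      exact hϖ₀.ne_zero (Subtype.ext h1)
    obtain ⟨n, u, hu⟩ := IsDiscreteValuationRing.eq_unit_mul_pow_irreducible hxne hϖ
    set cH := s34f_constHom (s44q_G A φ ϖ hϖ).A
      (s34x_infRing (s34m_VV (s44q_G A φ ϖ hϖ) φ M p hp hpM))
      (s34x_inf_const_mem (s34m_VV (s44q_G A φ ϖ hϖ) φ M p hp hpM) (s44q_G A φ ϖ hϖ).A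
        (s34c_const_mem_VV (s44q_G A φ ϖ hϖ) φ M p hp hpM))
      (s18_chart1 (L₀ := K) (s44q_tj K (M * p) b)) with hcH
    have hmem : cH x ∈ 𝔫' := by
      have h1 : s34x_const (s34x_infRing (s34m_VV (s44q_G A φ₀ ϖ₀ hϖ₀) φ₀ M p hp hpM))
          (s18_chart1 (L₀ := K₀) (s44q_tj K₀ (M * p) b)) ((ϖ₀ : ↥(A.comap φ₀)) : K₀)
          (s34x_inf_const_mem (s34m_VV (s44q_G A φ₀ ϖ₀ hϖ₀) φ₀ M p hp hpM)
            (s44q_G A φ₀ ϖ₀ hϖ₀).A
            (s34c_const_mem_VV (s44q_G A φ₀ ϖ₀ hϖ₀) φ₀ M p hp hpM) (s44q_G A φ₀ ϖ₀ hϖ₀).ϖ) ∈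
          𝔫'.comap D.chartHom := by
        rw [hcomap]
        exact hπ𝔫
      rw [Ideal.mem_comap] at h1
      have e : cH x = D.chartHom (s34x_const
          (s34x_infRing (s34m_VV (s44q_G A φ₀ ϖ₀ hϖ₀) φ₀ M p hp hpM))
          (s18_chart1 (L₀ := K₀) (s44q_tj K₀ (M * p) b)) ((ϖ₀ : ↥(A.comap φ₀)) : K₀)
          (s34x_inf_const_mem (s34m_VV (s44q_G A φ₀ ϖ₀ hϖ₀) φ₀ M p hp hpM)
            (s44q_G A φ₀ ϖ₀ hϖ₀).A
            (s34c_const_mem_VV (s44q_G A φ₀ ϖ₀ hϖ₀) φ₀ M p hp hpM)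
            (s44q_G A φ₀ ϖ₀ hϖ₀).ϖ)) := by
        apply Subtype.ext
        rw [D.chartHom_coe]
        show algebraMap K _ (algebraMap K₀ K ((ϖ₀ : ↥(A.comap φ₀)) : K₀)) =
          s18q_map (algebraMap K₀ K) _ (algebraMap K₀ _ ((ϖ₀ : ↥(A.comap φ₀)) : K₀))
        rw [s18q_map_algebraMap]
      rw [e]
      exact h1
    have e2 : cH x = cH (u : ↥(A.comap φ)) * cH ϖ ^ n := by
      rw [hu]
      exact (map_mul cH _ _).trans (congrArg _ (map_pow cH _ _))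
    rw [e2] at hmem
    have hunit : IsUnit (cH (u : ↥(A.comap φ))) := (Units.isUnit u).map cH
    have h2 : cH ϖ ^ n ∈ 𝔫' := by
      rcases h𝔫'prime.mem_or_mem hmem with h | h
      · exact absurd (𝔫'.eq_top_of_isUnit_mem h hunit) h𝔫'prime.ne_top
      · exact h
    exact h𝔫'prime.mem_of_pow_mem n h2
  have hπ𝔫'c : s34x_const (s34x_infRing (s34m_VV (s44q_G A φ ϖ hϖ) φ M p hp hpM))
      (s18_chart1 (L₀ := K) (s44q_tj K (M * p) b)) ((ϖ : ↥(A.comap φ)) : K)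
      (s34x_inf_const_mem (s34m_VV (s44q_G A φ ϖ hϖ) φ M p hp hpM) (s44q_G A φ ϖ hϖ).A
        (s34c_const_mem_VV (s44q_G A φ ϖ hϖ) φ M p hp hpM) (s44q_G A φ ϖ hϖ).ϖ) ∈ 𝔫' := hπ𝔫'
  -- the action, the set `T` of places through `𝔫'`, the rational places
  set ρ := s44q_rho F₀ I.subtype with hρ
  set T : Set (Place K (s34m_F K (M * p))) :=
    {Q | Q ∈ s18_chart1 (L₀ := K) (s44q_tj K (M * p) b) ∧
      s34f_through (s34x_infRing (s34m_VV (s44q_G A φ ϖ hϖ) φ M p hp hpM))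
        (s18_chart1 (L₀ := K) (s44q_tj K (M * p) b)) 𝔫' Q} with hTdef
  have hT : s44q_Stable ρ T := by
    intro g Q hQ
    have hgS := D.smul_mem_chart g hQ.1
    refine ⟨hgS, (D.through_iff hπO 𝔫' hπ𝔫' _ hgS).mpr ?_⟩
    rw [s44q_restrict_smul K₀ F₀ D.hK₀]
    exact (D.through_iff hπO 𝔫' hπ𝔫' Q hQ.1).mp hQ.2
  set R : Set (Place K (s34m_F K (M * p))) := {Q | Q.deg = 1} with hRdef
  have hR : ∀ g : ↥I, ∀ Q ∈ R, ρ g • Q ∈ R := by
    intro g Q hQ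
    show (ρ g • Q).deg = 1
    rw [SemilinearAut.deg_smul]
    exact hQ
  -- a Sylow subgroup
  obtain ⟨P⟩ : Nonempty (Sylow p ↥I) := inferInstance
  have hP : IsPGroup p ↥(P : Subgroup ↥I) := P.isPGroup'
  have hcop : Nat.Coprime (P : Subgroup ↥I).index p :=
    ((Nat.Prime.coprime_iff_not_dvd hp).mpr P.not_dvd_index).symm
  -- finiteness of supports on the chart
  have hdegN : s18g_HDeg K (M * p) := fun n b hb hn => s18g_exists_relation (M * p) φ hn b hb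
  haveI : FFGen K (s18g_jF (K := K) (M * p)) := s18b_ffGen_jF (M * p) hdegN
  haveI : FFGen K (s44q_tj K (M * p) b) := by
    cases b
    · exact ff_gen_inv
    · exact inferInstanceAs (FFGen K (s18g_jF (K := K) (M * p)))
  have hfinT : ∀ y : s34m_F K (M * p), y ≠ 0 → {Q | Q ∈ T ∧ Q.ord y ≠ 0}.Finite := by
    intro y hy
    refine (s34x_finite_ord_ne_zero1 (s44q_tj K (M * p) b) hy).subset ?_
    rintro Q ⟨hQT, hQy⟩
    exact ⟨hQT.1, hQy⟩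
  have hι0 : ∀ y : s34m_F K₀ (M * p), y ≠ 0 → s18q_map (algebraMap K₀ K) F₀ y ≠ 0 :=
    fun y hy => (map_ne_zero _).mpr hy
  -- (B2)
  have hB2 : ∀ H : Subgroup ↥I, H ≤ (P : Subgroup ↥I) → ∀ Q ∈ T, ∀ Q' ∈ T, Q ∈ R → Q' ∈ R →
      (∀ g ∈ H, ρ g • Q = Q) → (∀ g ∈ H, ρ g • Q' = Q') →
      ¬ s44q_LocInv ρ T H Q → ¬ s44q_LocInv ρ T H Q' → Q = Q' := by
    intro H _ Q hQT Q' hQ'T hQR hQ'R hfixQ hfixQ' hno hno'
    set H' : Subgroup (K ≃ₐ[ℚ] K) := H.map I.subtype with hH'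
    set E' : IntermediateField ℚ K := IntermediateField.fixedField H' with hE'
    haveI : NumberField ↥E' := ⟨⟩
    haveI : Algebra.IsAlgebraic ↥E' K := s44q_isAlgebraic_of_rat ↥E' K
    letI : Fintype ↥H := Fintype.ofFinite _
    refine s44q_b2_level M p hp hpM h5 A hA ↥E' K (φ.comp (algebraMap ↥E' K)) φ (fun a => rfl)
      ϖ hϖ (I.subtype.comp H.subtype) ?_ ?_ (fun g => hin g.1) b 𝔫' hπ𝔫'c Q Q' hQT.1 hQ'T.1
      hQT.2 hQ'T.2 hQR hQ'R (fun g => hfixQ g.1 g.2) (fun g => hfixQ' g.1 g.2) ?_ ?_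
    · intro g a
      have ha : (a : K) ∈ IntermediateField.fixedField H' := a.2
      rw [IntermediateField.mem_fixedField_iff] at ha
      exact ha _ (Subgroup.mem_map_of_mem I.subtype g.2)
    · intro a ha
      have h1 : a ∈ IntermediateField.fixedField H' := by
        rw [IntermediateField.mem_fixedField_iff]
        intro σ hσ
        obtain ⟨g, hg, rfl⟩ := Subgroup.mem_map.mp hσ
        exact ha ⟨g, hg⟩
      exact ⟨⟨a, h1⟩, rfl⟩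
    · rintro ⟨φ', h1, h2⟩
      exact hno ⟨φ', h1, fun g hg => h2 ⟨g, hg⟩⟩
    · rintro ⟨φ', h1, h2⟩
      exact hno' ⟨φ', h1, fun g hg => h2 ⟨g, hg⟩⟩
  -- the abstract top theorem
  obtain ⟨Φ, hΦ0, hΦinv, hΦ⟩ := s44q_top_abs hT R hR (P : Subgroup ↥I) p hP hcop hB2
    (s18q_map (algebraMap K₀ K) F₀ f) (hι0 f hf) (fun g => s44q_rho_map F₀ hK₀ g f)
    (hfinT _ (hι0 f hf))
    (fun Q _ => by rw [s18q_ord_restrictGen]; exact hdiv _)
    (fun Q _ hQ => hdeg Q hQ)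
    (by
      intro Q _ hQf
      rw [s18q_ord_restrictGen] at hQf
      obtain ⟨u, hu0, hu1, hudeg⟩ := hunif _ hQf
      refine ⟨s18q_map (algebraMap K₀ K) F₀ u, hι0 u hu0, fun g => s44q_rho_map F₀ hK₀ g u, ?_,
        hfinT _ (hι0 u hu0), fun Q' _ hQ' => hudeg Q' hQ'⟩
      rw [s18q_ord_restrictGen]
      exact hu1)
  -- Galois descent of the root
  obtain ⟨Φ₀, hΦ₀⟩ := s44q_inv_descent F₀ hK₀ hfix Φ hΦinv
  refine ⟨Φ₀, ?_, ?_⟩
  · rintro rfl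
    rw [map_zero] at hΦ₀
    exact hΦ0 hΦ₀.symm
  · intro Q₀ hQ₀S hQ₀th
    obtain ⟨Q, rfl⟩ := s18q_restrictGen_surjective K₀ (K := K) F₀ Q₀
    have hQS : Q ∈ s18_chart1 (L₀ := K) (s44q_tj K (M * p) b) := (D.hS Q).mpr hQ₀S
    have hQth : s34f_through (s34x_infRing (s34m_VV (s44q_G A φ ϖ hϖ) φ M p hp hpM))
        (s18_chart1 (L₀ := K) (s44q_tj K (M * p) b)) 𝔫' Q := by
      rw [D.through_iff hπO 𝔫' hπ𝔫' Q hQS, hcomap]
      exact hQ₀th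
    have h := hΦ Q ⟨hQS, hQth⟩
    rw [← hΦ₀, s18q_ord_restrictGen, s18q_ord_restrictGen] at h
    exact h

end Fermat.Agent.Lib.S44
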