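/-
M-AT-P programme (S44), wall W1 [RAT] (helper9), brick [Q-TOP-ABS]: THE ABSTRACT TOP THEOREM of the
rationality wall.

Generic in the function field `F / K`.  A finite group `G` acts on `F` through semilinear
automorphisms; `T` is a `G`-stable set of places, `R` a `G`-stable set of ("rational") places,
`P ≤ G` a `p`-subgroup of index prime to `p`.

* `s44q_LocInv ρ T H Q` : `Q` has a local equation relative to `T` which is invariant under the
  subgroup `H`;
* the geometric input (B2) `hB2`: for every subgroup `H ≤ P`, AT MOST ONE `H`-fixed rational place of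
  `T` has no `H`-invariant local equation (this is the chart contract over the fixed field of `H`);
* **`s44q_top_abs`** : a `G`-invariant `f` with orders on `T` divisible by `p` and rational support,
  having `G`-invariant rational "uniformisers" at the places of its support, has a `G`-invariant
  EXACT local `p`-th root on `T`.

The normaliser argument (`s44q_fixed_of_normalizer`) is formal here: "no `H`-invariant local
equation" is stable under the normaliser of `H`.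
-/
import Fermat.Agent.Lib.S44.QExact

set_option autoImplicit false
set_option linter.style.haveILetI false
set_option linter.unusedSectionVars false

noncomputable section

namespace Fermat.Agent.Lib.S44

open AlgebraicCurve Fermat.Agent.Lib.S34

variable {K F : Type*} [Field K] [Field F] [Algebra K F]
variable {G : Type*} [Group G] [Fintype G] (ρ : G →* SemilinearAut K F)

/-- `Q` has an `H`-invariant local equation relative to `T`. -/
def s44q_LocInv (T : Set (Place K F)) (H : Subgroup G) (Q : Place K F) : Prop :=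
  ∃ φ : F, s44q_LocEqOn T Q φ ∧ ∀ g ∈ H, ρ g • φ = φ

variable {ρ}

omit [Fintype G] in
theorem s44q_LocInv.mono {T : Set (Place K F)} {H H' : Subgroup G} (h : H ≤ H') {Q : Place K F}
    (hQ : s44q_LocInv ρ T H' Q) : s44q_LocInv ρ T H Q := by
  obtain ⟨φ, hφ, hinv⟩ := hQ
  exact ⟨φ, hφ, fun g hg => hinv g (h hg)⟩

omit [Fintype G] in
/-- Transport of an invariant local equation by an element normalising the subgroup. -/
theorem s44q_LocInv.of_smul {T : Set (Place K F)} (hT : s44q_Stable ρ T) {H : Subgroup G} (g : G)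
    (hg : ∀ h ∈ H, g * h * g⁻¹ ∈ H) {Q : Place K F}
    (hQ : s44q_LocInv ρ T H (ρ g • Q)) : s44q_LocInv ρ T H Q := by
  obtain ⟨φ, ⟨hφ0, hφ1, hφ⟩, hinv⟩ := hQ
  refine ⟨ρ g⁻¹ • φ, ⟨s34r_smul_ne_zero _ hφ0, ?_, ?_⟩, ?_⟩
  · have h := SemilinearAut.ord_smul (ρ g⁻¹) (ρ g • Q) φ
    rw [← mul_smul, ← map_mul, inv_mul_cancel, map_one, one_smul] at h
    rw [h]
    exact hφ1
  · intro Q' hQ' hne
    have h := SemilinearAut.ord_smul (ρ g⁻¹) (ρ g • Q') φ
    rw [← mul_smul, ← map_mul, inv_mul_cancel, map_one, one_smul] at h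
    rw [h]
    refine hφ _ (hT g Q' hQ') ?_
    intro heq
    apply hne
    have := congrArg (fun X => ρ g⁻¹ • X) heq
    simpa only [← mul_smul, ← map_mul, inv_mul_cancel, map_one, one_smul] using this
  · intro h hh
    have h1 := hinv _ (hg h hh)
    have h2 : ρ h • ρ g⁻¹ • φ = ρ g⁻¹ • ρ (g * h * g⁻¹) • φ := by
      rw [← mul_smul, ← mul_smul, ← map_mul, ← map_mul]
      congr 2
      group
    rw [h2, h1]

/-- **THE ABSTRACT TOP THEOREM OF THE RATIONALITY WALL.** -/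
theorem s44q_top_abs {T : Set (Place K F)} (hT : s44q_Stable ρ T) (R : Set (Place K F))
    (hR : ∀ g : G, ∀ Q ∈ R, ρ g • Q ∈ R)
    (P : Subgroup G) (p : ℕ) [Fact p.Prime] (hP : IsPGroup p ↥P)
    (hcop : Nat.Coprime P.index p)
    (hB2 : ∀ H : Subgroup G, H ≤ P → ∀ Q ∈ T, ∀ Q' ∈ T, Q ∈ R → Q' ∈ R →
      (∀ g ∈ H, ρ g • Q = Q) → (∀ g ∈ H, ρ g • Q' = Q') →
      ¬ s44q_LocInv ρ T H Q → ¬ s44q_LocInv ρ T H Q' → Q = Q')
    (f : F) (hf : f ≠ 0) (hinv : ∀ g : G, ρ g • f = f)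
    (hfin : {Q : Place K F | Q ∈ T ∧ Q.ord f ≠ 0}.Finite)
    (hdiv : ∀ Q ∈ T, (p : ℤ) ∣ Q.ord f)
    (hfR : ∀ Q ∈ T, Q.ord f ≠ 0 → Q ∈ R)
    (hunif : ∀ Q ∈ T, Q.ord f ≠ 0 → ∃ u : F, u ≠ 0 ∧ (∀ g : G, ρ g • u = u) ∧ Q.ord u = 1 ∧
      {Q' : Place K F | Q' ∈ T ∧ Q'.ord u ≠ 0}.Finite ∧ ∀ Q' ∈ T, Q'.ord u ≠ 0 → Q' ∈ R) :
    ∃ Φ : F, Φ ≠ 0 ∧ (∀ g : G, ρ g • Φ = Φ) ∧ ∀ Q ∈ T, Q.ord f = (p : ℤ) * Q.ord Φ := by
  classical
  have hp0 : p ≠ 0 := (Fact.out : p.Prime).ne_zero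
  -- the exceptional places
  set Exc : Place K F → Prop := fun Q =>
    (∀ g ∈ P, ρ g • Q = Q) ∧ Q ∈ R ∧ ¬ s44q_LocInv ρ T P Q with hExc
  have hExcFix : ∀ Q ∈ T, Exc Q → ∀ g ∈ P, ρ g • Q = Q := fun Q _ h => h.1
  have hExcUniq : ∀ Q ∈ T, ∀ Q' ∈ T, Exc Q → Exc Q' → Q = Q' := by
    intro Q hQ Q' hQ' h h'
    exact hB2 P le_rfl Q hQ Q' hQ' h.2.1 h'.2.1 h.1 h'.1 h.2.2 h'.2.2
  -- the auxiliary function
  obtain ⟨u, hu0, huinv, hufin, huR, hu1⟩ : ∃ u : F, u ≠ 0 ∧ (∀ g : G, ρ g • u = u) ∧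
      {Q' : Place K F | Q' ∈ T ∧ Q'.ord u ≠ 0}.Finite ∧ (∀ Q' ∈ T, Q'.ord u ≠ 0 → Q' ∈ R) ∧
      ∀ Q ∈ T, Exc Q → Q.ord f ≠ 0 → Q.ord u = 1 := by
    by_cases hex : ∃ Q ∈ T, Exc Q ∧ Q.ord f ≠ 0
    · obtain ⟨Q, hQ, hQE, hQf⟩ := hex
      obtain ⟨u, hu0, huinv, hu1, hufin, huR⟩ := hunif Q hQ hQf
      refine ⟨u, hu0, huinv, hufin, huR, ?_⟩
      intro Q' hQ' hQ'E _
      rw [← hExcUniq Q hQ Q' hQ' hQE hQ'E]
      exact hu1
    · refine ⟨1, one_ne_zero, fun g => smul_one _, ?_, ?_, ?_⟩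
      · refine Set.Finite.subset Set.finite_empty ?_
        rintro Q ⟨-, h⟩
        exact absurd (Place.ord_one Q) h
      · intro Q' _ h
        exact absurd (Place.ord_one Q') h
      · intro Q hQ hQE hQf
        exact absurd ⟨Q, hQ, hQE, hQf⟩ hex
  -- local equations away from the exceptional place
  have hloc : ∀ Q ∈ T, (Q.ord f ≠ 0 ∨ Q.ord u ≠ 0) → ¬ Exc Q →
      ∃ φ : F, s44q_LocEqOn T Q φ ∧ ∀ g ∈ P, ρ g • Q = Q → ρ g • φ = φ := by
    intro Q hQ hsupp hnE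
    have hQR : Q ∈ R := by
      rcases hsupp with h | h
      · exact hfR Q hQ h
      · exact huR Q hQ h
    -- the stabiliser of `Q` in `P`
    set H : Subgroup G :=
      { carrier := {g | g ∈ P ∧ ρ g • Q = Q}
        one_mem' := ⟨P.one_mem, by rw [map_one, one_smul]⟩
        mul_mem' := by
          rintro a b ⟨ha, ha'⟩ ⟨hb, hb'⟩
          exact ⟨P.mul_mem ha hb, by rw [map_mul, mul_smul, hb', ha']⟩
        inv_mem' := by
          rintro a ⟨ha, ha'⟩
          refine ⟨P.inv_mem ha, ?_⟩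
          rw [map_inv]
          conv_lhs => rw [← ha']
          rw [inv_smul_smul] } with hH
    have hHP : H ≤ P := fun g hg => hg.1
    have hHfix : ∀ g ∈ H, ρ g • Q = Q := fun g hg => hg.2
    by_cases hLI : s44q_LocInv ρ T H Q
    · obtain ⟨φ, hφ, hφinv⟩ := hLI
      exact ⟨φ, hφ, fun g hg hgQ => hφinv g ⟨hg, hgQ⟩⟩
    · exfalso
      apply hnE
      -- `Q` is fixed by `P`
      have hfixP : ∀ g ∈ P, ρ g • Q = Q := by
        apply s44q_fixed_of_normalizer P p hP Q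
        intro g hg hn1 hn2
        have hgH : ∀ h ∈ H, g * h * g⁻¹ ∈ H := fun h hh =>
          ⟨P.mul_mem (P.mul_mem hg hh.1) (P.inv_mem hg), hn1 h hh.1 hh.2⟩
        have hgH' : ∀ h ∈ H, g⁻¹ * h * g ∈ H := fun h hh =>
          ⟨P.mul_mem (P.mul_mem (P.inv_mem hg) hh.1) hg, hn2 h hh.1 hh.2⟩
        have hfix' : ∀ h ∈ H, ρ h • ρ g • Q = ρ g • Q := by
          intro h hh
          have h1 := (hgH' h hh).2
          have h2 : ρ h • ρ g • Q = ρ g • ρ (g⁻¹ * h * g) • Q := by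
            rw [← mul_smul, ← mul_smul, ← map_mul, ← map_mul]
            congr 2
            group
          rw [h2, h1]
        have hnLI' : ¬ s44q_LocInv ρ T H (ρ g • Q) := fun h =>
          hLI (s44q_LocInv.of_smul hT g hgH h)
        exact (hB2 H hHP Q hQ (ρ g • Q) (hT g Q hQ) hQR (hR g Q hQR) hHfix hfix' hLI hnLI').symm
      exact ⟨hfixP, hQR, fun h => hLI (h.mono hHP)⟩
  exact s44q_exact_descent hT P p hp0 hcop Exc hExcFix hExcUniq f hf hinv hfin hdiv u hu0 huinv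
    hufin hu1 hloc

end Fermat.Agent.Lib.S44
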