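/-
M-AT-P programme (S44), wall W1 [RAT] (helper9): (Q4) INSTANTIATED at intermediate fields `Z ≤ L₀` of
`ℚ̄`, in the literal shape of the hypothesis `hQ4` of helper7's `s44k_unip_wild` / `s44k_star_field`
(`K₀ := ↥Z`, `φ := algebraMap ↥Z ℚ̄`, `G := s37r_G P Z ϖ hϖ`, charts `s18_chart1 j`, `s18_chart2 j`).
-/
import Fermat.Agent.Lib.S44.QTop
import Fermat.Agent.Lib.S44.QRat

set_option autoImplicit false
set_option linter.style.haveILetI false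
set_option linter.unusedSectionVars false
set_option synthInstance.maxHeartbeats 400000

noncomputable section

namespace Fermat.Agent.Lib.S44

open ModularCurve HahnSeries AlgebraicCurve Fermat.Agent.Lib.S18 Fermat.Agent.Lib.FF
  Fermat.Agent.Lib.S34 Fermat.Agent.Lib.S37 IsLocalRing

local notation "Qbar" => AlgebraicClosure ℚ

set_option maxHeartbeats 2000000 in
/-- **(Q4) over an intermediate field `Z` containing the inertia field of `L₀`.** -/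
theorem s44q_Q4_inst (M p : ℕ) [NeZero M] [NeZero p] (hp : p.Prime) (hpM : ¬ p ∣ M) (h5 : 5 ≤ p)
    (P : ValuationSubring Qbar) (hP : P.LiesOverPrime p)
    (Z L₀ : IntermediateField ℚ Qbar) (hZ : Z ≤ L₀) [FiniteDimensional ℚ ↥L₀] [Normal ℚ ↥L₀]
    [IsDiscreteValuationRing ↥(s18q_A0 P Z)] (ϖ : ↥(s18q_A0 P Z)) (hϖ : Irreducible ϖ)
    (hinert : ∀ γ : ↥L₀ ≃ₐ[ℚ] ↥L₀, (∀ y : ↥L₀, (y : Qbar) ∈ Z → γ y = y) →
      ∀ a ∈ s18q_A0 P L₀, γ a ∈ s18q_A0 P L₀ ∧ γ a - a ∈ (s18q_A0 P L₀).nonunits)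
    (f : s34m_F ↥Z (M * p)) (hf : f ≠ 0)
    (hdiv : ∀ Q : Place ↥Z (s34m_F ↥Z (M * p)), (p : ℤ) ∣ Q.ord f)
    (hdeg : ∀ Q : Place ↥L₀ (s34m_F ↥L₀ (M * p)), Q.ord (s44q_up (M * p) hZ f) ≠ 0 → Q.deg = 1)
    (hunif : ∀ Q₀ : Place ↥Z (s34m_F ↥Z (M * p)), Q₀.ord f ≠ 0 →
      ∃ u : s34m_F ↥Z (M * p), u ≠ 0 ∧ Q₀.ord u = 1 ∧
        ∀ Q : Place ↥L₀ (s34m_F ↥L₀ (M * p)), Q.ord (s44q_up (M * p) hZ u) ≠ 0 → Q.deg = 1) :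
    (∀ 𝔫 : Ideal (s34x_ring (s34x_infRing
        (s34m_VV (s37r_G P Z ϖ hϖ) (algebraMap ↥Z Qbar) M p hp hpM))
        (s18_chart1 (L₀ := ↥Z) (s18g_jF (K := ↥Z) (M * p)))), 𝔫.IsMaximal →
      s34x_const (s34x_infRing (s34m_VV (s37r_G P Z ϖ hϖ) (algebraMap ↥Z Qbar) M p hp hpM))
        (s18_chart1 (L₀ := ↥Z) (s18g_jF (K := ↥Z) (M * p)))
        (((s37r_G P Z ϖ hϖ).ϖ : (s37r_G P Z ϖ hϖ).A) : ↥Z)
        (s34x_inf_const_mem (s34m_VV (s37r_G P Z ϖ hϖ) (algebraMap ↥Z Qbar) M p hp hpM)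
          (s37r_G P Z ϖ hϖ).A
          (s34c_const_mem_VV (s37r_G P Z ϖ hϖ) (algebraMap ↥Z Qbar) M p hp hpM)
          (s37r_G P Z ϖ hϖ).ϖ) ∈ 𝔫 →
      ∃ Φ : s34m_F ↥Z (M * p), Φ ≠ 0 ∧
        ∀ Q ∈ s18_chart1 (L₀ := ↥Z) (s18g_jF (K := ↥Z) (M * p)),
          s34f_through (s34x_infRing
            (s34m_VV (s37r_G P Z ϖ hϖ) (algebraMap ↥Z Qbar) M p hp hpM))
            (s18_chart1 (L₀ := ↥Z) (s18g_jF (K := ↥Z) (M * p))) 𝔫 Q →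
          Q.ord f = ((p : ℕ) : ℤ) * Q.ord Φ) ∧
    (∀ 𝔫 : Ideal (s34x_ring (s34x_infRing
        (s34m_VV (s37r_G P Z ϖ hϖ) (algebraMap ↥Z Qbar) M p hp hpM))
        (s18_chart2 (L₀ := ↥Z) (s18g_jF (K := ↥Z) (M * p)))), 𝔫.IsMaximal →
      s34x_const (s34x_infRing (s34m_VV (s37r_G P Z ϖ hϖ) (algebraMap ↥Z Qbar) M p hp hpM))
        (s18_chart2 (L₀ := ↥Z) (s18g_jF (K := ↥Z) (M * p)))
        (((s37r_G P Z ϖ hϖ).ϖ : (s37r_G P Z ϖ hϖ).A) : ↥Z)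
        (s34x_inf_const_mem (s34m_VV (s37r_G P Z ϖ hϖ) (algebraMap ↥Z Qbar) M p hp hpM)
          (s37r_G P Z ϖ hϖ).A
          (s34c_const_mem_VV (s37r_G P Z ϖ hϖ) (algebraMap ↥Z Qbar) M p hp hpM)
          (s37r_G P Z ϖ hϖ).ϖ) ∈ 𝔫 →
      ∃ Φ : s34m_F ↥Z (M * p), Φ ≠ 0 ∧
        ∀ Q ∈ s18_chart2 (L₀ := ↥Z) (s18g_jF (K := ↥Z) (M * p)),
          s34f_through (s34x_infRing
            (s34m_VV (s37r_G P Z ϖ hϖ) (algebraMap ↥Z Qbar) M p hp hpM))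
            (s18_chart2 (L₀ := ↥Z) (s18g_jF (K := ↥Z) (M * p))) 𝔫 Q →
          Q.ord f = ((p : ℕ) : ℤ) * Q.ord Φ) := by
  classical
  letI : Algebra ↥Z ↥L₀ := (IntermediateField.inclusion hZ).toRingHom.toAlgebra
  haveI : FiniteDimensional ℚ ↥Z :=
    FiniteDimensional.of_injective (IntermediateField.inclusion hZ).toLinearMap
      (IntermediateField.inclusion hZ).injective
  haveI : NumberField ↥Z := ⟨⟩
  haveI : NumberField ↥L₀ := ⟨⟩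
  haveI : IsGalois ℚ ↥L₀ := ⟨⟩
  haveI : IsDiscreteValuationRing ↥(P.comap (algebraMap ↥Z Qbar)) :=
    ‹IsDiscreteValuationRing ↥(s18q_A0 P Z)›
  have hj : ∀ a : ↥Z, algebraMap ↥L₀ Qbar (algebraMap ↥Z ↥L₀ a) = algebraMap ↥Z Qbar a :=
    fun a => rfl
  have hinert' : ∀ σ : ↥L₀ ≃ₐ[ℚ] ↥L₀,
      (∀ a : ↥Z, σ (algebraMap ↥Z ↥L₀ a) = algebraMap ↥Z ↥L₀ a) →
      s44q_IsInertia P (algebraMap ↥L₀ Qbar) σ := by
    intro σ hσ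
    exact hinert σ (fun y hy => hσ ⟨(y : Qbar), hy⟩)
  constructor
  · intro 𝔫 h𝔫 hπ𝔫
    exact s44q_Q4 M p hp hpM h5 P hP ↥Z ↥L₀ (algebraMap ↥Z Qbar) (algebraMap ↥L₀ Qbar) hj ϖ hϖ
      hinert' f hf hdiv hdeg hunif true 𝔫 (h𝔫 := h𝔫) hπ𝔫
  · intro 𝔫 h𝔫 hπ𝔫
    exact s44q_Q4 M p hp hpM h5 P hP ↥Z ↥L₀ (algebraMap ↥Z Qbar) (algebraMap ↥L₀ Qbar) hj ϖ hϖ
      hinert' f hf hdiv hdeg hunif false 𝔫 (h𝔫 := h𝔫) hπ𝔫

end Fermat.Agent.Lib.S44
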