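/-
M-AT-P programme (S44), wall W1 [RAT] (helper9): **(Q4) OVER THE INERTIA FIELD** `Z = s44s_Z P L L₀`
(helper2's [Q-DEC], `SoftDec.lean`) of a big finite normal `L₀ ⊇ L`, for a function `f ∈ 𝓕_L(M p)` with
`p ∣ div f` — the complete rationality wall: no hypothesis on the support of `f`.

  `s44q_Q4_Z : ∃ L₂ (number field), ∀ L₀ ⊇ L, L₂ finite normal, ∀ uniformiser ϖ of A ∩ Z,
     (Q4) holds for `f` over `Z` at every closed point of both charts of `j`.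
-/
import Fermat.Agent.Lib.S44.QTopInst
import Fermat.Agent.Lib.S44.SoftDec

set_option autoImplicit false
set_option linter.style.haveILetI false
set_option linter.unusedSectionVars false
set_option synthInstance.maxHeartbeats 400000

noncomputable section

namespace Fermat.Agent.Lib.S44

open ModularCurve HahnSeries AlgebraicCurve Fermat.Agent.Lib.S18 Fermat.Agent.Lib.FF
  Fermat.Agent.Lib.S34 Fermat.Agent.Lib.S37 IsLocalRing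

local notation "Qbar" => AlgebraicClosure ℚ

set_option maxHeartbeats 2000000 in
/-- **THE RATIONALITY WALL over the inertia field.** -/
theorem s44q_Q4_Z (M p : ℕ) [NeZero M] [NeZero p] (hp : p.Prime) (hpM : ¬ p ∣ M) (h5 : 5 ≤ p)
    (P : ValuationSubring Qbar) (hP : P.LiesOverPrime p)
    (L : IntermediateField ℚ Qbar) (f : s34m_F ↥L (M * p)) (hf : f ≠ 0)
    (hdiv : ∀ Q : Place ↥L (s34m_F ↥L (M * p)), (p : ℤ) ∣ Q.ord f) :
    ∃ L₂ : IntermediateField ℚ Qbar, FiniteDimensional ℚ L₂ ∧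
      ∀ (L₀ : IntermediateField ℚ Qbar) [FiniteDimensional ℚ ↥L₀] [Normal ℚ ↥L₀]
        (hLL : L ≤ L₀), L₂ ≤ L₀ →
      ∀ [IsDiscreteValuationRing ↥(s18q_A0 P (s44s_Z P L L₀))]
        (ϖ : ↥(s18q_A0 P (s44s_Z P L L₀))) (hϖ : Irreducible ϖ),
    (∀ 𝔫 : Ideal (s34x_ring (s34x_infRing
        (s34m_VV (s37r_G P (s44s_Z P L L₀) ϖ hϖ) (algebraMap ↥(s44s_Z P L L₀) Qbar) M p hp hpM))
        (s18_chart1 (L₀ := ↥(s44s_Z P L L₀)) (s18g_jF (K := ↥(s44s_Z P L L₀)) (M * p)))),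
      𝔫.IsMaximal →
      s34x_const (s34x_infRing (s34m_VV (s37r_G P (s44s_Z P L L₀) ϖ hϖ)
          (algebraMap ↥(s44s_Z P L L₀) Qbar) M p hp hpM))
        (s18_chart1 (L₀ := ↥(s44s_Z P L L₀)) (s18g_jF (K := ↥(s44s_Z P L L₀)) (M * p)))
        (((s37r_G P (s44s_Z P L L₀) ϖ hϖ).ϖ : (s37r_G P (s44s_Z P L L₀) ϖ hϖ).A) :
          ↥(s44s_Z P L L₀))
        (s34x_inf_const_mem (s34m_VV (s37r_G P (s44s_Z P L L₀) ϖ hϖ)
            (algebraMap ↥(s44s_Z P L L₀) Qbar) M p hp hpM)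
          (s37r_G P (s44s_Z P L L₀) ϖ hϖ).A
          (s34c_const_mem_VV (s37r_G P (s44s_Z P L L₀) ϖ hϖ)
            (algebraMap ↥(s44s_Z P L L₀) Qbar) M p hp hpM)
          (s37r_G P (s44s_Z P L L₀) ϖ hϖ).ϖ) ∈ 𝔫 →
      ∃ Φ : s34m_F ↥(s44s_Z P L L₀) (M * p), Φ ≠ 0 ∧
        ∀ Q ∈ s18_chart1 (L₀ := ↥(s44s_Z P L L₀)) (s18g_jF (K := ↥(s44s_Z P L L₀)) (M * p)),
          s34f_through (s34x_infRing (s34m_VV (s37r_G P (s44s_Z P L L₀) ϖ hϖ)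
              (algebraMap ↥(s44s_Z P L L₀) Qbar) M p hp hpM))
            (s18_chart1 (L₀ := ↥(s44s_Z P L L₀)) (s18g_jF (K := ↥(s44s_Z P L L₀)) (M * p)))
            𝔫 Q →
          Q.ord (s44q_up (M * p) (s44s_le_Z hLL) f) = ((p : ℕ) : ℤ) * Q.ord Φ) ∧
    (∀ 𝔫 : Ideal (s34x_ring (s34x_infRing
        (s34m_VV (s37r_G P (s44s_Z P L L₀) ϖ hϖ) (algebraMap ↥(s44s_Z P L L₀) Qbar) M p hp hpM))
        (s18_chart2 (L₀ := ↥(s44s_Z P L L₀)) (s18g_jF (K := ↥(s44s_Z P L L₀)) (M * p)))),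
      𝔫.IsMaximal →
      s34x_const (s34x_infRing (s34m_VV (s37r_G P (s44s_Z P L L₀) ϖ hϖ)
          (algebraMap ↥(s44s_Z P L L₀) Qbar) M p hp hpM))
        (s18_chart2 (L₀ := ↥(s44s_Z P L L₀)) (s18g_jF (K := ↥(s44s_Z P L L₀)) (M * p)))
        (((s37r_G P (s44s_Z P L L₀) ϖ hϖ).ϖ : (s37r_G P (s44s_Z P L L₀) ϖ hϖ).A) :
          ↥(s44s_Z P L L₀))
        (s34x_inf_const_mem (s34m_VV (s37r_G P (s44s_Z P L L₀) ϖ hϖ)
            (algebraMap ↥(s44s_Z P L L₀) Qbar) M p hp hpM)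
          (s37r_G P (s44s_Z P L L₀) ϖ hϖ).A
          (s34c_const_mem_VV (s37r_G P (s44s_Z P L L₀) ϖ hϖ)
            (algebraMap ↥(s44s_Z P L L₀) Qbar) M p hp hpM)
          (s37r_G P (s44s_Z P L L₀) ϖ hϖ).ϖ) ∈ 𝔫 →
      ∃ Φ : s34m_F ↥(s44s_Z P L L₀) (M * p), Φ ≠ 0 ∧
        ∀ Q ∈ s18_chart2 (L₀ := ↥(s44s_Z P L L₀)) (s18g_jF (K := ↥(s44s_Z P L L₀)) (M * p)),
          s34f_through (s34x_infRing (s34m_VV (s37r_G P (s44s_Z P L L₀) ϖ hϖ)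
              (algebraMap ↥(s44s_Z P L L₀) Qbar) M p hp hpM))
            (s18_chart2 (L₀ := ↥(s44s_Z P L L₀)) (s18g_jF (K := ↥(s44s_Z P L L₀)) (M * p)))
            𝔫 Q →
          Q.ord (s44q_up (M * p) (s44s_le_Z hLL) f) = ((p : ℕ) : ℤ) * Q.ord Φ) := by
  classical
  obtain ⟨L₂, hfd, hL₂⟩ := s44q_rat_tower (M * p) L f hf
  refine ⟨L₂, hfd, ?_⟩
  intro L₀ hfd₀ hnorm hLL hle hdvr ϖ hϖ
  haveI : FiniteDimensional ℚ ↥(s44s_Z P L L₀) := s44s_Z_finiteDimensional P L L₀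
  have halg : Algebra.IsAlgebraic ℚ ↥(s44s_Z P L L₀) := Algebra.IsAlgebraic.of_finite ℚ _
  obtain ⟨hdeg, hunif⟩ := hL₂ (s44s_Z P L L₀) L₀ (s44s_le_Z hLL) (s44s_Z_le P L L₀) hle halg
  have hf' : s44q_up (M * p) (s44s_le_Z (P := P) hLL) f ≠ 0 := (map_ne_zero _).mpr hf
  have hdiv' : ∀ Q : Place ↥(s44s_Z P L L₀) (s34m_F ↥(s44s_Z P L L₀) (M * p)),
      (p : ℤ) ∣ Q.ord (s44q_up (M * p) (s44s_le_Z (P := P) hLL) f) := by
    intro Q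
    obtain ⟨ρ, -, hρ⟩ := s18q_restrict_gen
      (IntermediateField.inclusion (s44s_le_Z (P := P) hLL)).toRingHom
      (modularFunctionFieldFull (M * p))
    have : Q.ord (s44q_up (M * p) (s44s_le_Z (P := P) hLL) f) = (ρ Q).ord f := hρ Q f
    rw [this]
    exact hdiv _
  exact s44q_Q4_inst M p hp hpM h5 P hP (s44s_Z P L L₀) L₀ (s44s_Z_le P L L₀) ϖ hϖ
    (fun γ hγ => (s44s_fix_Z_inertia P L L₀ γ hγ).2)
    (s44q_up (M * p) (s44s_le_Z hLL) f) hf' hdiv' hdeg hunif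

end Fermat.Agent.Lib.S44
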