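/-
M-AT-P programme (S44), soft part (helper2), file 3: the eigen-subgroup
`s44s_Y M p S₁ a = {x ∈ J₀(M)[p] | T_ℓ x = a_ℓ x for all primes ℓ ∉ S₁}`, its stability (`s33r_Stable`),
and its NON-TRIVIALITY for the system of a normalised eigenform `g` congruent to `a` modulo a maximal
ideal over `p` (`s29a_eigenSupportFinal` + descent of eigenvectors from `k ⊗ V` to `V`).
-/
import Fermat.Agent.Lib.S33.RealDens
import Fermat.Agent.Lib.S29.KappaFinal
import Fermat.Agent.Lib.S29.GSTop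
import Fermat.Agent.Lib.S41.Top

set_option autoImplicit false
set_option linter.style.haveILetI false
set_option linter.unusedSectionVars false

namespace Fermat.Agent.Lib.S44

open Module ModularCurve AlgebraicCurve TensorProduct
open Fermat.Agent.Lib.S29 Fermat.Agent.Lib.S30 Fermat.Agent.Lib.S31 Fermat.Agent.Lib.S33

local notation "Γℚ" => (AlgebraicClosure ℚ ≃ₐ[ℚ] AlgebraicClosure ℚ)
local notation "Kb" => AlgebraicClosure ℚ

noncomputable section

/-! ### Descent of eigenvectors -/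

section Descent

variable {F k V : Type*} [Field F] [Field k] [Algebra F k] [AddCommGroup V] [Module F V]

/-- **Descent of eigenvectors**: a non-zero joint eigenvector in `k ⊗_F V` of the base-changed
operators `T_i`, with eigenvalues `c_i` IN `F`, yields a non-zero joint eigenvector in `V`. -/
theorem s44s_descend {ι : Type*} (T : ι → Module.End F V) (c : ι → F) (v : k ⊗[F] V) (hv : v ≠ 0)
    (h : ∀ i, (T i).baseChange k v = algebraMap F k (c i) • v) :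
    ∃ x : V, x ≠ 0 ∧ ∀ i, T i x = c i • x := by
  classical
  set ℬ := Module.Basis.ofVectorSpace F k with hℬ
  set e := TensorProduct.equivFinsuppOfBasisLeft (N := V) ℬ with he
  have hcomm : ∀ (f : Module.End F V) (w : k ⊗[F] V) (j : _), e (f.baseChange k w) j = f (e w j) := by
    intro f w j
    induction w using TensorProduct.induction_on with
    | zero => simp
    | tmul m n =>
      rw [LinearMap.baseChange_tmul, he, TensorProduct.equivFinsuppOfBasisLeft_apply_tmul_apply,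
        TensorProduct.equivFinsuppOfBasisLeft_apply_tmul_apply, map_smul]
    | add x y hx hy =>
      rw [map_add, map_add, Finsupp.add_apply, hx, hy, map_add, Finsupp.add_apply, map_add]
  have hev : e v ≠ 0 := fun h0 => hv (e.map_eq_zero_iff.mp h0)
  obtain ⟨j, hj⟩ : ∃ j, e v j ≠ 0 := by
    by_contra hcon
    push_neg at hcon
    exact hev (Finsupp.ext hcon)
  refine ⟨e v j, hj, fun i => ?_⟩
  rw [← hcomm, h i, algebraMap_smul, map_smul, Finsupp.smul_apply]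

end Descent

/-! ### The eigen-subgroup -/

section Y

variable (M : ℕ) [NeZero M] (p : ℕ) (S₁ : Finset ℕ) (a : ℕ → ℤ)

/-- `{x ∈ J₀(M)[p] | T_ℓ x = a_ℓ x for all primes ℓ ∉ S₁}`. -/
def s44s_Y : Submodule ℤ (JZero M) where
  carrier := {x | p • x = 0 ∧ ∀ ℓ : Nat.Primes, (ℓ : ℕ) ∉ S₁ → heckeOperatorBar M ℓ x = a ℓ • x}
  zero_mem' := ⟨nsmul_zero _, fun ℓ _ => by rw [map_zero, zsmul_zero]⟩
  add_mem' := by
    rintro x y ⟨hx, hx'⟩ ⟨hy, hy'⟩
    exact ⟨by rw [nsmul_add, hx, hy, add_zero],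
      fun ℓ hℓ => by rw [map_add, hx' ℓ hℓ, hy' ℓ hℓ, zsmul_add]⟩
  smul_mem' := by
    rintro c x ⟨hx, hx'⟩
    refine ⟨?_, fun ℓ hℓ => ?_⟩
    · rw [← natCast_zsmul, smul_comm, natCast_zsmul, hx, zsmul_zero]
    · rw [map_zsmul, hx' ℓ hℓ, smul_comm]

variable {M p S₁ a}

theorem s44s_mem_Y {x : JZero M} :
    x ∈ s44s_Y M p S₁ a ↔
      p • x = 0 ∧ ∀ ℓ : Nat.Primes, (ℓ : ℕ) ∉ S₁ → heckeOperatorBar M ℓ x = a ℓ • x := Iff.rfl

variable (M p S₁ a)

/-- `s44s_Y` is stable under Galois and the good Hecke operators. -/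
theorem s44s_Y_stable : s33r_Stable M p S₁ (s44s_Y M p S₁ a) where
  tors := fun y hy => hy.1
  gal := by
    rintro σ y ⟨hy, hy'⟩
    refine ⟨?_, fun ℓ hℓ => ?_⟩
    · have h1 : σ • (p • y) = p • (σ • y) :=
        (DistribMulAction.toAddMonoidHom (JZero M) σ).map_nsmul p y
      rw [← h1, hy]
      exact smul_zero (A := JZero M) σ
    · have h1 : σ • (a ℓ • y) = a ℓ • (σ • y) :=
        (DistribMulAction.toAddMonoidHom (JZero M) σ).map_zsmul (a ℓ) y
      rw [← s29g_S37Int.comm M ℓ σ y, hy' ℓ hℓ, h1]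
  hecke := by
    rintro ℓ hℓ y hy
    rw [hy.2 ℓ hℓ]
    exact (s44s_Y M p S₁ a).smul_mem _ hy

/-- the defining eigen-property, in the shape used by `s44s_dens`. -/
theorem s44s_Y_eig (ℓ : Nat.Primes) (hℓ : (ℓ : ℕ) ∉ S₁) (y : JZero M) (hy : y ∈ s44s_Y M p S₁ a) :
    heckeOperatorBar M ℓ y = a ℓ • y := hy.2 ℓ hℓ

end Y

/-! ### Non-triviality -/

section NeBot

variable {N : ℕ} [NeZero N] {g : CuspForm (CongruenceSubgroup.Gamma0 N) 2}

/-- **`Y ≠ 0`, field form.** -/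
theorem s44s_exists_eigen_field (hg : g.IsNormalizedEigenform) (p : ℕ) [Fact p.Prime]
    (k : Type) [Field k] [Algebra (ZMod p) k] (φ : integralClosure ℤ ℂ →+* k)
    (S₁ : Finset ℕ) (hS₁ : ∀ q : ℕ, q.Prime → q ∣ N * p → q ∈ S₁) (a : ℕ → ℤ)
    (hcong : ∀ ℓ : Nat.Primes, (ℓ : ℕ) ∉ S₁ → ∀ b : integralClosure ℤ ℂ,
      (b : ℂ) = ModularFormClass.qCoeff g ℓ → φ b = ((a ℓ : ℤ) : k)) :
    ∃ x : JZero N, x ≠ 0 ∧ x ∈ s44s_Y N p S₁ a := by
  obtain ⟨v, hv, hveig⟩ := s29a_eigenSupportFinal N g hg p k φ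
  let ι : Type := {ℓ : Nat.Primes // (ℓ : ℕ) ∉ S₁}
  have hgood : ∀ i : ι, ¬ ((i.1 : Nat.Primes) : ℕ) ∣ N * p := fun i h =>
    i.2 (hS₁ _ (i.1 : Nat.Primes).2 h)
  obtain ⟨x, hx0, hx⟩ := s44s_descend (F := ZMod p) (k := k) (ι := ι)
    (fun i => s29k_Tl N p i.1) (fun i => ((a (i.1 : Nat.Primes) : ℤ) : ZMod p)) v hv (by
      intro i
      obtain ⟨b, hb, hbv⟩ := hveig i.1 (hgood i)
      rw [hbv, hcong i.1 i.2 b hb, map_intCast])
  refine ⟨(x : JZero N), fun h0 => hx0 (Subtype.ext h0), ?_, fun ℓ hℓ => ?_⟩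
  · have := Pic0.mem_torsion.mp x.property
    rwa [natCast_zsmul] at this
  · have h1 := hx ⟨ℓ, hℓ⟩
    have h2 := congrArg (fun y : s29k_Jp N p => (y : JZero N)) h1
    simp only [s29k_Tl_coe] at h2
    rw [h2, Int.cast_smul_eq_zsmul]
    rfl

/-- **`Y ≠ 0`** for an eigenform congruent to `a` modulo a maximal ideal `𝔪 ∋ p`. -/
theorem s44s_exists_eigen (hg : g.IsNormalizedEigenform) (p : ℕ) [Fact p.Prime]
    (𝔪 : Ideal (integralClosure ℤ ℂ)) (hmax : 𝔪.IsMaximal) (hpm : (p : integralClosure ℤ ℂ) ∈ 𝔪)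
    (S₁ : Finset ℕ) (hS₁ : ∀ q : ℕ, q.Prime → q ∣ N * p → q ∈ S₁) (a : ℕ → ℤ)
    (hcong : ∀ ℓ : ℕ, ℓ.Prime → ℓ ∉ S₁ →
      ∃ b : integralClosure ℤ ℂ, (b : ℂ) = ModularFormClass.qCoeff g ℓ ∧
        b - ((a ℓ : ℤ) : integralClosure ℤ ℂ) ∈ 𝔪) :
    ∃ x : JZero N, x ≠ 0 ∧ x ∈ s44s_Y N p S₁ a := by
  have hp : p.Prime := Fact.out
  let k : Type := integralClosure ℤ ℂ ⧸ 𝔪
  letI : Field k := Ideal.Quotient.field 𝔪
  have hchar : CharP k p := Fermat.Agent.Lib.S41.s41_charP_quot 𝔪 hmax p hp hpm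
  letI : Algebra (ZMod p) k := ZMod.algebra k p
  let φ : integralClosure ℤ ℂ →+* k := Ideal.Quotient.mk 𝔪
  refine s44s_exists_eigen_field hg p k φ S₁ hS₁ a fun ℓ hℓ b hb => ?_
  obtain ⟨b', hb', hmem⟩ := hcong ℓ ℓ.2 hℓ
  have hbb' : b = b' := Subtype.ext (hb.trans hb'.symm)
  have h3 : φ (b' - ((a ℓ : ℤ) : integralClosure ℤ ℂ)) = 0 :=
    Ideal.Quotient.eq_zero_iff_mem.mpr hmem
  rw [map_sub, sub_eq_zero, map_intCast] at h3
  rw [hbb', h3]

end NeBot

end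

end Fermat.Agent.Lib.S44
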